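import Fermat.Prelude.Def_ModularCurve_X0ModL

/-!
# Transcendence / unit facts about the formal `j`-series (S28-CORE-T)

* `aeval_jqModC_injective`     : `p ↦ p(j)` is injective on `K[X]` (`K` a field);
* `exists_int_inverse_jq`      : `j` is a unit of `ℤ((q))`;
* `aeval_jq_inv_injective`     : `p ↦ p(j⁻¹)` is injective on `ℚ[X]`;
* `coeffMap_aeval_jqModC`      : coefficientwise maps commute with `p ↦ p(j)`.
-/

set_option autoImplicit false

noncomputable section

namespace Fermat.Agent.S28.helper3292

open ModularCurve HahnSeries Polynomial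

/-- The structure map `R → R((q))` is `r ↦ r q^0`. -/
theorem algebraMap_eq_single (T : Type*) [CommRing T] (t : T) :
    algebraMap T (LaurentSeries T) t = HahnSeries.single 0 t := by
  have h1 : algebraMap T (PowerSeries T) t = PowerSeries.C t := by
    simp
  rw [HahnSeries.algebraMap_apply', h1, HahnSeries.ofPowerSeries_C]
  rfl

/-- Coefficients of a scalar multiple (for the algebra-induced scalar action). -/
theorem coeff_algebraMap_mul (T : Type*) [CommRing T] (t : T) (x : LaurentSeries T) (k : ℤ) :
    (algebraMap T (LaurentSeries T) t * x).coeff k = t * x.coeff k := by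
  rw [algebraMap_eq_single, HahnSeries.coeff_single_mul, sub_zero]

/-- Coefficients of `p(j)`: the coefficient of `q^(-n)` for `n = natDegree p` is the leading
coefficient of `p`. -/
theorem coeff_aeval_jqModC_neg_natDegree (R : Type*) [CommRing R] (p : Polynomial R) :
    (Polynomial.aeval (jqModC R) p).coeff (-(p.natDegree : ℤ)) = p.leadingCoeff := by
  rw [Polynomial.aeval_eq_sum_range, HahnSeries.coeff_sum]
  simp only [Algebra.smul_def]
  rw [Finset.sum_eq_single p.natDegree]
  · rw [coeff_algebraMap_mul, coeff_jqModC_pow_self, mul_one, Polynomial.leadingCoeff]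
  · intro i hi hne
    have hlt : i < p.natDegree := lt_of_le_of_ne (Nat.lt_succ_iff.mp (Finset.mem_range.mp hi)) hne
    rw [coeff_algebraMap_mul,
      coeff_jqModC_pow_of_lt R (by exact_mod_cast (neg_lt_neg_iff.mpr (Int.ofNat_lt.mpr hlt))),
      mul_zero]
  · intro h
    exact absurd (Finset.mem_range.mpr (Nat.lt_succ_self _)) h

/-- (T1) `p ↦ p(j)` is injective: the formal `j`-series is transcendental over the coefficient
field. -/
theorem aeval_jqModC_injective (K : Type*) [Field K] :
    Function.Injective (Polynomial.aeval (R := K) (ModularCurve.jqModC K)) := by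
  rw [injective_iff_map_eq_zero]
  intro p hp
  by_contra hne
  have h := coeff_aeval_jqModC_neg_natDegree K p
  rw [hp, HahnSeries.coeff_zero] at h
  exact hne (Polynomial.leadingCoeff_eq_zero.mp h.symm)

/-- The same over any nontrivial commutative ring whose polynomials have non-zero-divisor ...
actually over any commutative ring: `p(j) = 0 → p = 0`. -/
theorem aeval_jqModC_eq_zero_iff (R : Type*) [CommRing R] (p : Polynomial R) :
    Polynomial.aeval (jqModC R) p = 0 ↔ p = 0 := by
  constructor
  · intro hp
    have h := coeff_aeval_jqModC_neg_natDegree R p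
    rw [hp, HahnSeries.coeff_zero] at h
    exact Polynomial.leadingCoeff_eq_zero.mp h.symm
  · rintro rfl
    simp

/-- The inverse of the unit part of `j`. -/
def jInvSeries (R : Type*) [CommRing R] : LaurentSeries R :=
  HahnSeries.single (1 : ℤ) 1 *
    HahnSeries.ofPowerSeries ℤ R ((jNum.map (Int.castRingHom R)).invOfUnit 1)

theorem constantCoeff_jNum_map (R : Type*) [CommRing R] :
    PowerSeries.constantCoeff (jNum.map (Int.castRingHom R)) = 1 := by
  rw [← PowerSeries.coeff_zero_eq_constantCoeff, PowerSeries.coeff_map,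
    PowerSeries.coeff_zero_eq_constantCoeff, constantCoeff_jNum]
  simp

theorem jInvSeries_mul_jqModC (R : Type*) [CommRing R] : jInvSeries R * jqModC R = 1 := by
  have h1 : (jNum.map (Int.castRingHom R)) * (jNum.map (Int.castRingHom R)).invOfUnit 1 = 1 :=
    PowerSeries.mul_invOfUnit _ _ (by rw [constantCoeff_jNum_map]; rfl)
  have h2 : HahnSeries.single (1 : ℤ) (1 : R) * HahnSeries.single (-1 : ℤ) (1 : R) = 1 := by
    rw [HahnSeries.single_mul_single]
    simp
  calc jInvSeries R * jqModC R
      = (HahnSeries.single (1 : ℤ) (1 : R) * HahnSeries.single (-1 : ℤ) (1 : R)) *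
          (HahnSeries.ofPowerSeries ℤ R (jNum.map (Int.castRingHom R)) *
            HahnSeries.ofPowerSeries ℤ R ((jNum.map (Int.castRingHom R)).invOfUnit 1)) := by
        rw [jInvSeries, jqModC]; ring
    _ = 1 := by rw [h2, ← map_mul, h1, map_one, one_mul]

/-- (T2) the formal `j`-series is a unit of `ℤ((q))`. -/
theorem exists_int_inverse_jq : ∃ w : LaurentSeries ℤ, w * ModularCurve.jqModC ℤ = 1 :=
  ⟨jInvSeries ℤ, jInvSeries_mul_jqModC ℤ⟩

theorem isUnit_jqModC (R : Type*) [CommRing R] : IsUnit (jqModC R) :=
  IsUnit.of_mul_eq_one _ (by rw [mul_comm]; exact jInvSeries_mul_jqModC R)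

theorem jInvSeries_pow (R : Type*) [CommRing R] (n : ℕ) :
    jInvSeries R ^ n = HahnSeries.single (n : ℤ) 1 *
      HahnSeries.ofPowerSeries ℤ R (((jNum.map (Int.castRingHom R)).invOfUnit 1) ^ n) := by
  have h : n • (1 : ℤ) = (n : ℤ) := by simp
  rw [jInvSeries, mul_pow, HahnSeries.single_pow, one_pow, h, ← map_pow]

theorem constantCoeff_invOfUnit_jNum (R : Type*) [CommRing R] :
    PowerSeries.constantCoeff ((jNum.map (Int.castRingHom R)).invOfUnit 1) = 1 := by
  have h1 : (jNum.map (Int.castRingHom R)) * (jNum.map (Int.castRingHom R)).invOfUnit 1 = 1 :=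
    PowerSeries.mul_invOfUnit _ _ (by rw [constantCoeff_jNum_map]; rfl)
  have h := congrArg (PowerSeries.constantCoeff (R := R)) h1
  rwa [map_mul, constantCoeff_jNum_map, one_mul, map_one] at h

theorem coeff_jInvSeries_pow_self (R : Type*) [CommRing R] (n : ℕ) :
    (jInvSeries R ^ n).coeff (n : ℤ) = 1 := by
  rw [jInvSeries_pow, HahnSeries.coeff_single_mul, one_mul, sub_self,
    show (0 : ℤ) = ((0 : ℕ) : ℤ) from rfl, HahnSeries.ofPowerSeries_apply_coeff,
    PowerSeries.coeff_zero_eq_constantCoeff, map_pow, constantCoeff_invOfUnit_jNum, one_pow]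

theorem coeff_jInvSeries_pow_of_lt (R : Type*) [CommRing R] {n : ℕ} {m : ℤ} (hm : m < (n : ℤ)) :
    (jInvSeries R ^ n).coeff m = 0 := by
  rw [jInvSeries_pow, HahnSeries.coeff_single_mul, one_mul]
  exact ofPowerSeries_coeff_of_neg _ (by omega)

/-- Coefficients of `p(j⁻¹)`: the coefficient of `q^m` for `m = natTrailingDegree p` is the
trailing coefficient of `p`. -/
theorem coeff_aeval_jInvSeries_natTrailingDegree (R : Type*) [CommRing R] (p : Polynomial R) :
    (Polynomial.aeval (jInvSeries R) p).coeff (p.natTrailingDegree : ℤ) = p.trailingCoeff := by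
  rw [Polynomial.aeval_eq_sum_range, HahnSeries.coeff_sum]
  simp only [Algebra.smul_def]
  rw [Finset.sum_eq_single p.natTrailingDegree]
  · rw [coeff_algebraMap_mul, coeff_jInvSeries_pow_self, mul_one, Polynomial.trailingCoeff]
  · intro i _ hne
    rcases lt_or_gt_of_ne hne with hlt | hgt
    · rw [coeff_algebraMap_mul, Polynomial.coeff_eq_zero_of_lt_natTrailingDegree hlt, zero_mul]
    · rw [coeff_algebraMap_mul, coeff_jInvSeries_pow_of_lt R (by exact_mod_cast hgt), mul_zero]
  · intro h
    have : p.natTrailingDegree ≤ p.natDegree := Polynomial.natTrailingDegree_le_natDegree p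
    exact absurd (Finset.mem_range.mpr (Nat.lt_succ_of_le this)) h

theorem aeval_jInvSeries_eq_zero_iff (R : Type*) [CommRing R] (p : Polynomial R) :
    Polynomial.aeval (jInvSeries R) p = 0 ↔ p = 0 := by
  constructor
  · intro hp
    have h := coeff_aeval_jInvSeries_natTrailingDegree R p
    rw [hp, HahnSeries.coeff_zero] at h
    exact Polynomial.trailingCoeff_eq_zero.mp h.symm
  · rintro rfl
    simp

theorem jq_inv_eq : (ModularCurve.jq)⁻¹ = jInvSeries ℚ := by
  have h : jInvSeries ℚ * jq = 1 := jInvSeries_mul_jqModC ℚ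
  exact (eq_inv_of_mul_eq_one_left h).symm

/-- (T3) `p ↦ p(j⁻¹)` is injective on `ℚ[X]`. -/
theorem aeval_jq_inv_injective :
    Function.Injective (Polynomial.aeval (R := ℚ) (ModularCurve.jq)⁻¹) := by
  rw [injective_iff_map_eq_zero, jq_inv_eq]
  intro p hp
  exact (aeval_jInvSeries_eq_zero_iff ℚ p).mp hp

/-- Coefficientwise maps commute with the structure maps. -/
theorem coeffMap_algebraMap' {R S : Type*} [CommRing R] [CommRing S] (f : R →+* S) (a : R) :
    ModularCurve.coeffMap f (algebraMap R (LaurentSeries R) a) =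
      algebraMap S (LaurentSeries S) (f a) := by
  rw [algebraMap_eq_single, algebraMap_eq_single, coeffMap_single]

/-- (T4) coefficientwise maps commute with `p ↦ p(j)`. -/
theorem coeffMap_aeval_jqModC {R S : Type*} [CommRing R] [CommRing S] (f : R →+* S)
    (p : Polynomial R) :
    ModularCurve.coeffMap f (Polynomial.aeval (ModularCurve.jqModC R) p) =
      Polynomial.aeval (ModularCurve.jqModC S) (p.map f) := by
  induction p using Polynomial.induction_on with
  | C a =>
    rw [Polynomial.aeval_C, Polynomial.map_C, Polynomial.aeval_C, coeffMap_algebraMap']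
  | add p q hp hq => rw [map_add, map_add, hp, hq, Polynomial.map_add, map_add]
  | monomial n a ih =>
    rw [map_mul, map_mul, Polynomial.map_mul, map_mul, Polynomial.aeval_C, Polynomial.map_C,
      Polynomial.aeval_C, Polynomial.map_pow, Polynomial.map_X, map_pow, map_pow, map_pow,
      Polynomial.aeval_X, Polynomial.aeval_X, coeffMap_jqModC, coeffMap_algebraMap']

end Fermat.Agent.S28.helper3292
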