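/-
S28 (Igusa) — prime-level modular input: definitions and Prop-valued interface statements.
Author: helper328.  No sorry; everything here is a definition or a small proved lemma.

Notation used in comments: `jhat = jqModC ℤ`, `Dhat = deltaHat ℤ = q * prod (1 - q^n)^24`,
`V = qExpand _ p` (q ↦ q^p), `J k ζ m = jbar(ζ * t^m)` in `LaurentSeries k`.
-/
import Mathlib
import Fermat.Prelude.Def_ModularCurve_X0ModL

set_option autoImplicit false

namespace Fermat.Agent.S28.helper328

open Polynomial ModularCurve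

noncomputable section

variable {R : Type*} [CommRing R]

/-- `f(t) ↦ f(ζ t)` on Laurent series, as a function. -/
def twistFun (ζ : Rˣ) (x : LaurentSeries R) : LaurentSeries R where
  coeff n := ((ζ ^ n : Rˣ) : R) * x.coeff n
  isPWO_support' := x.isPWO_support.mono (fun n hn => by
    simp only [Function.mem_support, ne_eq] at hn ⊢
    exact fun h => hn (by rw [h, mul_zero]))

@[simp] theorem twistFun_coeff (ζ : Rˣ) (x : LaurentSeries R) (n : ℤ) :
    (twistFun ζ x).coeff n = ((ζ ^ n : Rˣ) : R) * x.coeff n := rfl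

theorem twistFun_support (ζ : Rˣ) (x : LaurentSeries R) :
    (twistFun ζ x).support = x.support := by
  ext n
  simp only [HahnSeries.mem_support, twistFun_coeff, ne_eq]
  exact not_congr (Units.mul_right_eq_zero _)

/-- `f(t) ↦ f(ζ t)` on Laurent series, as a ring homomorphism. -/
def twist (ζ : Rˣ) : LaurentSeries R →+* LaurentSeries R where
  toFun := twistFun ζ
  map_one' := by
    ext n
    rw [twistFun_coeff, HahnSeries.coeff_one]
    split_ifs with h
    · subst h; simp
    · simp
  map_zero' := by ext n; simp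
  map_add' x y := by ext n; simp [mul_add]
  map_mul' x y := by
    ext a
    rw [twistFun_coeff, HahnSeries.coeff_mul,
      HahnSeries.coeff_mul_left' (x := twistFun ζ x) (y := twistFun ζ y) x.isPWO_support
        (twistFun_support ζ x).subset,
      Finset.mul_sum]
    have hy : (twistFun ζ y).support = y.support := twistFun_support ζ y
    refine Finset.sum_congr ?_ ?_
    · ext ij
      simp only [Finset.mem_antidiagonal, hy]
    · intro ij hij
      have hsum : ij.1 + ij.2 = a := (Finset.mem_antidiagonal.mp hij).2.2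
      rw [twistFun_coeff, twistFun_coeff, ← hsum, zpow_add, Units.val_mul]
      ring

@[simp] theorem twist_coeff (ζ : Rˣ) (x : LaurentSeries R) (n : ℤ) :
    (twist ζ x).coeff n = ((ζ ^ n : Rˣ) : R) * x.coeff n := rfl

/-- `J k ζ m = jbar(ζ t^m)`: the `j`-series with `q` replaced by `ζ * t^m`. -/
def Jsub (k : Type*) [CommRing k] (ζ : kˣ) (m : ℕ+) : LaurentSeries k :=
  qExpand k (m : ℕ) (twist ζ (jqModC k))

/-- formal discriminant `q * prod (1 - q^n)^24` with coefficients in `R`. -/
def deltaHat (R : Type*) [CommRing R] : LaurentSeries R :=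
  HahnSeries.single (1 : ℤ) 1 *
    HahnSeries.ofPowerSeries ℤ R (dedekindEtaUnit.map (Int.castRingHom R))

/-- inverse of the formal discriminant. -/
def deltaHatInv (R : Type*) [CommRing R] : LaurentSeries R :=
  HahnSeries.single (-1 : ℤ) 1 *
    HahnSeries.ofPowerSeries ℤ R (dedekindEtaUnitInv.map (Int.castRingHom R))

/-- `ghat_p = p^12 * Dhat(q^p) / Dhat(q)` in `LaurentSeries ℤ`. -/
def gHat (p : ℕ) [NeZero p] : LaurentSeries ℤ :=
  (p : LaurentSeries ℤ) ^ 12 * qExpand ℤ p (deltaHat ℤ) * deltaHatInv ℤ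

/-- evaluation of an integer polynomial at a Laurent series. -/
def evalJ {R : Type*} [CommRing R] (J : LaurentSeries R) : Polynomial ℤ →+* LaurentSeries R :=
  Polynomial.eval₂RingHom (Int.castRingHom (LaurentSeries R)) J

/-- `E4` as a complex power series (Prelude `eisenstein4`). -/
def E4C : PowerSeries ℂ := eisenstein4.map (Int.castRingHom ℂ)

/-- `Delta = q * prod (1-q^n)^24` as a complex power series. -/
def DeltaC : PowerSeries ℂ := (PowerSeries.X * dedekindEtaUnit).map (Int.castRingHom ℂ)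

/-- the formal Hecke operator `T_p` in weight `k` on `q`-expansions
(`a_n ↦ a_{np} + p^{k-1} a_{n/p}`), as in Prelude `ModularForm.coeffHeckeT`. -/
def heckeTps (k p : ℕ) (f : PowerSeries ℂ) : PowerSeries ℂ :=
  PowerSeries.mk fun n =>
    PowerSeries.coeff (n * p) f + if p ∣ n then (p : ℂ) ^ (k - 1) * PowerSeries.coeff (n / p) f else 0

/-- (C1) HECKE INPUT.  `T_p` maps `E4^(3m) Delta^(M-m)` (a level one form of weight `12 M`)
into the span of the forms `E4^(3(M-b)) Delta^b`, `b ≤ M`; statement on formal `q`-expansions. -/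
def Stmt_Hecke (p : ℕ) : Prop :=
  ∀ m M : ℕ, m ≤ M → 1 ≤ M → ∃ c : ℕ → ℂ,
    heckeTps (12 * M) p (E4C ^ (3 * m) * DeltaC ^ (M - m)) =
      ∑ b ∈ Finset.range (M + 1), c b • (E4C ^ (3 * (M - b)) * DeltaC ^ b)

/-- (C2) FORMAL PRIME-LEVEL DATA: the modular polynomial `Phi` of level `p`, the unit polynomial
`G` of `ghat`, the trace polynomials `T i` and the cofactor `Psi`, with the root formula over every
field containing a primitive `p`-th root of unity. -/
def Stmt_FormalPrime (p : ℕ) [hp : Fact p.Prime] : Prop :=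
  haveI : NeZero p := ⟨hp.out.ne_zero⟩
  ∃ (Φ G : Polynomial (Polynomial ℤ)) (T : ℕ → Polynomial ℤ) (Ψ : Polynomial (LaurentSeries ℤ)),
    Φ.Monic ∧ Φ.natDegree = p + 1 ∧ G.Monic ∧
    (G.coeff 0 = C ((p : ℤ) ^ 12) ∨ G.coeff 0 = C (-(p : ℤ) ^ 12)) ∧
    (G.map (evalJ (jqModC ℤ))).eval (gHat p) = 0 ∧
    Φ.map (evalJ (jqModC ℤ)) = (X - C (qExpand ℤ p (jqModC ℤ))) * Ψ ∧
    Ψ.eval (qExpand ℤ p (jqModC ℤ)) * gHat p =
      ∑ i ∈ Finset.range (p + 1), Ψ.coeff i * evalJ (jqModC ℤ) (T i) ∧
    ∀ (k : Type) [Field k] (ω : kˣ), IsPrimitiveRoot ω p → ∀ (ξ : kˣ) (m : ℕ+),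
      Φ.map (evalJ (Jsub k (ξ ^ p) (⟨p, hp.out.pos⟩ * m))) =
        (X - C (Jsub k (ξ ^ (p ^ 2)) (⟨p, hp.out.pos⟩ ^ 2 * m))) *
          ∏ b ∈ Finset.range p, (X - C (Jsub k (ω ^ b * ξ) m))

end

end Fermat.Agent.S28.helper328
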