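import Mathlib

/-!
# S28 (Igusa) -- abstract irreducibility lemma (helper388)

Let `κ` be a field, `𝕂` a field extension with an additive valuation `v` that is trivial on `κ`,
and `J : 𝕂` with `v J < 0` (think `𝕂 = κ((t))`, `J = j(t^N)`).
Let `χ ∈ κ[Y][X]` be monic and assume that `χ(J, X) = ∏ i, (X - u i)` over `𝕂`, where one root
`u i₀` is distinct from all the others, and every other root is nonzero of positive valuation.
Then `1, u i₀, …, (u i₀)^(n-1)` are linearly independent over `κ[J]`
(`n` = number of roots = degree of `χ`), i.e. `χ(J, X)` is the minimal polynomial of `u i₀` over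
`κ(J)`.

Proof: a nonzero relation of degree `< n` gives (Bezout over `Frac κ[Y]`, Gauss' lemma for the
integrally closed ring `κ[Y]`) a factorisation `χ = d * e` in `κ[Y][X]` with `d`, `e` monic,
`d(J, u i₀) = 0` and `e` of positive degree.  All roots of `e(J, X)` are among the `u i`, `i ≠ i₀`,
so the constant term `e(J, 0)` has positive valuation; but it is a polynomial in `J`, and nonzero
polynomials in `J` have valuation `≤ 0`.  Hence `e(J, 0) = 0`, so `0` is a root: contradiction.
-/

set_option autoImplicit false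

namespace Fermat.Agent.S28.helper388

open Polynomial

section Irred

variable {κ 𝕂 : Type*} [Field κ] [Field 𝕂] [Algebra κ 𝕂]

/-- If `v` is trivial on constants and `v J = m < 0`, then a nonzero polynomial `P` in `J` has
valuation `deg P * m`. -/
theorem addVal_aeval (v : AddValuation 𝕂 (WithTop ℤ))
    (hv : ∀ c : κ, c ≠ 0 → v (algebraMap κ 𝕂 c) = 0) (J : 𝕂) (m : ℤ) (hm : m < 0)
    (hJ : v J = (m : WithTop ℤ)) (P : κ[X]) (hP : P ≠ 0) :
    v (Polynomial.aeval J P) = (((P.natDegree : ℤ) * m : ℤ) : WithTop ℤ) := by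
  classical
  have hterm : ∀ k : ℕ, P.coeff k ≠ 0 →
      v (P.coeff k • J ^ k) = (((k : ℤ) * m : ℤ) : WithTop ℤ) := by
    intro k hk
    rw [Algebra.smul_def, AddValuation.map_mul, hv _ hk, AddValuation.map_pow, hJ, zero_add]
    rw [← WithTop.coe_nsmul]
    simp
  rw [Polynomial.aeval_eq_sum_range, Finset.sum_range_succ, add_comm]
  have hlead : P.coeff P.natDegree ≠ 0 := by
    simpa using hP
  have hrest : (((P.natDegree : ℤ) * m : ℤ) : WithTop ℤ) <
      v (∑ k ∈ Finset.range P.natDegree, P.coeff k • J ^ k) := by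
    refine AddValuation.map_lt_sum v WithTop.coe_ne_top ?_
    intro k hk
    rw [Finset.mem_range] at hk
    by_cases hk0 : P.coeff k = 0
    · rw [hk0, zero_smul, AddValuation.map_zero]
      exact WithTop.coe_lt_top _
    · rw [hterm k hk0, WithTop.coe_lt_coe]
      have : (k : ℤ) < P.natDegree := by exact_mod_cast hk
      nlinarith
  rw [AddValuation.map_add_eq_of_lt_left, hterm _ hlead]
  rw [hterm _ hlead]
  exact hrest

/-- Nonzero polynomials in `J` have valuation `≤ 0` (and are nonzero). -/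
theorem addVal_aeval_le_zero (v : AddValuation 𝕂 (WithTop ℤ))
    (hv : ∀ c : κ, c ≠ 0 → v (algebraMap κ 𝕂 c) = 0) (J : 𝕂) (hJ : v J < 0)
    (P : κ[X]) (hP : P ≠ 0) : v (Polynomial.aeval J P) ≤ 0 := by
  obtain ⟨m, hm⟩ : ∃ m : ℤ, v J = (m : WithTop ℤ) := by
    have : v J ≠ ⊤ := ne_top_of_lt hJ
    exact ⟨WithTop.untop _ this, (WithTop.coe_untop _ this).symm⟩
  have hm0 : m < 0 := by
    rw [hm] at hJ
    exact_mod_cast hJ
  rw [addVal_aeval v hv J m hm0 hm P hP]
  have : ((P.natDegree : ℤ) * m : ℤ) ≤ 0 := by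
    have : (0 : ℤ) ≤ P.natDegree := Int.natCast_nonneg _
    nlinarith
  exact_mod_cast this

/-- `J` is transcendental over `κ`: evaluation at `J` is injective on `κ[X]`. -/
theorem aeval_injective_of_addVal_neg (v : AddValuation 𝕂 (WithTop ℤ))
    (hv : ∀ c : κ, c ≠ 0 → v (algebraMap κ 𝕂 c) = 0) (J : 𝕂) (hJ : v J < 0) :
    Function.Injective (Polynomial.aeval J : κ[X] →ₐ[κ] 𝕂) := by
  rw [injective_iff_map_eq_zero]
  intro P hP0
  by_contra hP
  have h := addVal_aeval_le_zero v hv J hJ P hP
  rw [hP0, AddValuation.map_zero] at h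
  exact absurd h (by simp)

/-- The product of a nonempty multiset of elements of positive valuation has positive valuation. -/
theorem addVal_multiset_prod_pos (v : AddValuation 𝕂 (WithTop ℤ)) (s : Multiset 𝕂)
    (hs : s ≠ 0) (hpos : ∀ r ∈ s, 0 < v r) : 0 < v s.prod := by
  induction s using Multiset.induction_on with
  | empty => exact absurd rfl hs
  | cons a s ih =>
    rw [Multiset.prod_cons, AddValuation.map_mul]
    have ha : 0 < v a := hpos a (Multiset.mem_cons_self a s)
    by_cases hs0 : s = 0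
    · subst hs0
      simpa using ha
    · have hs' : 0 < v s.prod := ih hs0 (fun r hr => hpos r (Multiset.mem_cons_of_mem hr))
      exact Left.add_pos_of_pos_of_nonneg ha hs'.le

/-- **Abstract irreducibility lemma.**  See the module docstring. -/
theorem linearIndependent_pow_of_split (v : AddValuation 𝕂 (WithTop ℤ))
    (hv : ∀ c : κ, c ≠ 0 → v (algebraMap κ 𝕂 c) = 0) (J : 𝕂) (hJ : v J < 0)
    {n : ℕ} (χ : Polynomial (Polynomial κ)) (hχ : χ.Monic) (u : Fin n → 𝕂)
    (hsplit : χ.map (Polynomial.aeval J : κ[X] →ₐ[κ] 𝕂).toRingHom = ∏ i, (X - C (u i)))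
    (i₀ : Fin n) (hne : ∀ i, i ≠ i₀ → u i ≠ u i₀) (h0 : ∀ i, i ≠ i₀ → u i ≠ 0)
    (hpos : ∀ i, i ≠ i₀ → 0 < v (u i))
    (c : Fin n → Polynomial κ)
    (hc : ∑ i, Polynomial.aeval J (c i) * u i₀ ^ (i : ℕ) = 0) : c = 0 := by
  classical
  by_contra hc0
  -- notation
  set φ : κ[X] →+* 𝕂 := (Polynomial.aeval J : κ[X] →ₐ[κ] 𝕂).toRingHom with hφ
  have hφinj : Function.Injective φ := aeval_injective_of_addVal_neg v hv J hJ
  let K' := FractionRing κ[X]
  let ψ : K' →+* 𝕂 := IsFractionRing.lift hφinj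
  have hψ : ∀ p : κ[X], ψ (algebraMap κ[X] K' p) = φ p := fun p => IsFractionRing.lift_algebraMap hφinj p
  have hψcomp : ψ.comp (algebraMap κ[X] K') = φ := RingHom.ext hψ
  have hinjK : Function.Injective (algebraMap κ[X] K') := IsFractionRing.injective _ _
  -- the relation as a polynomial
  set g : Polynomial κ[X] := ∑ i : Fin n, C (c i) * X ^ (i : ℕ) with hg
  have hgcoeff : ∀ i : Fin n, g.coeff i = c i := by
    intro i
    rw [hg, Polynomial.finsetSum_coeff]
    rw [Finset.sum_eq_single i]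
    · simp
    · intro b _ hb
      rw [Polynomial.coeff_C_mul_X_pow, if_neg]
      exact fun h => hb (Fin.ext h.symm)
    · intro h; exact absurd (Finset.mem_univ i) h
  have hg0 : g ≠ 0 := by
    intro h
    apply hc0
    funext i
    rw [← hgcoeff i, h]; simp
  have hgdeg : g.natDegree < n := by
    have hn : 0 < n := i₀.pos
    rw [hg]
    refine lt_of_le_of_lt (Polynomial.natDegree_sum_le_of_forall_le (n := n - 1) _ _ ?_) (by omega)
    intro i _
    refine le_trans (Polynomial.natDegree_C_mul_X_pow_le _ _) ?_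
    have := i.isLt
    omega
  have hgeval : (g.map φ).eval (u i₀) = 0 := by
    rw [hg, Polynomial.map_sum, Polynomial.eval_finsetSum, ← hc]
    refine Finset.sum_congr rfl fun i _ => ?_
    simp [hφ]
  -- degree of χ
  have hχdeg : χ.natDegree = n := by
    have h1 := congrArg Polynomial.natDegree hsplit
    rw [hχ.natDegree_map, Polynomial.natDegree_prod_of_monic _ _ (fun i _ => monic_X_sub_C (u i))] at h1
    simpa using h1
  -- gcd over the fraction field
  set g' : K'[X] := g.map (algebraMap κ[X] K') with hg'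
  set χ' : K'[X] := χ.map (algebraMap κ[X] K') with hχ'
  have hχ'monic : χ'.Monic := hχ.map _
  have hg'0 : g' ≠ 0 := (Polynomial.map_ne_zero_iff hinjK).mpr hg0
  set d : K'[X] := EuclideanDomain.gcd g' χ' with hd
  have hdχ : d ∣ χ' := EuclideanDomain.gcd_dvd_right g' χ'
  have hdg : d ∣ g' := EuclideanDomain.gcd_dvd_left g' χ'
  have hd0 : d ≠ 0 := ne_zero_of_dvd_ne_zero hχ'monic.ne_zero hdχ
  have hevalχ' : χ'.eval₂ ψ (u i₀) = 0 := by
    rw [hχ', Polynomial.eval₂_map, hψcomp, ← Polynomial.eval_map, hsplit, Polynomial.eval_prod]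
    exact Finset.prod_eq_zero (Finset.mem_univ i₀) (by simp)
  have hevalg' : g'.eval₂ ψ (u i₀) = 0 := by
    rw [hg', Polynomial.eval₂_map, hψcomp, ← Polynomial.eval_map]
    exact hgeval
  have hevald : d.eval₂ ψ (u i₀) = 0 := by
    rw [hd, EuclideanDomain.gcd_eq_gcd_ab, Polynomial.eval₂_add, Polynomial.eval₂_mul,
      Polynomial.eval₂_mul, hevalχ', hevalg']
    simp
  -- Gauss lemma
  obtain ⟨e, he⟩ := hdχ
  have heχ : e ∣ χ' := Dvd.intro_left d he.symm
  have he0 : e ≠ 0 := ne_zero_of_dvd_ne_zero hχ'monic.ne_zero heχ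
  obtain ⟨d₀, hd₀⟩ := IsIntegrallyClosed.eq_map_mul_C_of_dvd K' hχ (⟨e, he⟩ : d ∣ χ.map (algebraMap κ[X] K'))
  obtain ⟨e₀, he₀⟩ := IsIntegrallyClosed.eq_map_mul_C_of_dvd K' hχ (heχ : e ∣ χ.map (algebraMap κ[X] K'))
  have hlc : d.leadingCoeff * e.leadingCoeff = 1 := by
    rw [← Polynomial.leadingCoeff_mul, ← he, hχ'monic.leadingCoeff]
  have hχfac : χ = d₀ * e₀ := by
    apply Polynomial.map_injective _ hinjK
    rw [Polynomial.map_mul]
    calc χ.map (algebraMap κ[X] K') = d * e := he
      _ = (d₀.map (algebraMap κ[X] K') * C d.leadingCoeff) *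
            (e₀.map (algebraMap κ[X] K') * C e.leadingCoeff) := by rw [hd₀, he₀]
      _ = d₀.map (algebraMap κ[X] K') * e₀.map (algebraMap κ[X] K') *
            C (d.leadingCoeff * e.leadingCoeff) := by rw [C_mul]; ring
      _ = _ := by rw [hlc, C_1, mul_one]
  have hdlc : d.leadingCoeff ≠ 0 := Polynomial.leadingCoeff_ne_zero.mpr hd0
  have helc : e.leadingCoeff ≠ 0 := Polynomial.leadingCoeff_ne_zero.mpr he0
  have hd₀monic : d₀.Monic := by
    apply Polynomial.monic_of_injective hinjK
    have : d₀.map (algebraMap κ[X] K') = d * C d.leadingCoeff⁻¹ := by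
      have h : d₀.map (algebraMap κ[X] K') * C d.leadingCoeff * C d.leadingCoeff⁻¹ =
          d * C d.leadingCoeff⁻¹ := by rw [hd₀]
      rw [← h, mul_assoc, ← C_mul, mul_inv_cancel₀ hdlc, C_1, mul_one]
    rw [this]
    exact Polynomial.monic_mul_leadingCoeff_inv hd0
  have he₀monic : e₀.Monic := by
    apply Polynomial.monic_of_injective hinjK
    have : e₀.map (algebraMap κ[X] K') = e * C e.leadingCoeff⁻¹ := by
      have h : e₀.map (algebraMap κ[X] K') * C e.leadingCoeff * C e.leadingCoeff⁻¹ =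
          e * C e.leadingCoeff⁻¹ := by rw [he₀]
      rw [← h, mul_assoc, ← C_mul, mul_inv_cancel₀ helc, C_1, mul_one]
    rw [this]
    exact Polynomial.monic_mul_leadingCoeff_inv he0
  -- degrees
  have hd₀deg : d₀.natDegree < n := by
    have h1 : d₀.natDegree = d.natDegree := by
      rw [← hd₀, Polynomial.natDegree_mul_C hdlc, hd₀monic.natDegree_map]
    rw [h1]
    exact lt_of_le_of_lt (Polynomial.natDegree_le_of_dvd hdg hg'0)
      (lt_of_le_of_lt (Polynomial.natDegree_map_le) hgdeg)
  have he₀deg : 0 < e₀.natDegree := by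
    have h1 := congrArg Polynomial.natDegree hχfac
    rw [hd₀monic.natDegree_mul he₀monic, hχdeg] at h1
    omega
  -- map to 𝕂
  set dJ : 𝕂[X] := d₀.map φ with hdJ
  set eJ : 𝕂[X] := e₀.map φ with heJ
  have hfacJ : (∏ i, (X - C (u i)) : 𝕂[X]) = dJ * eJ := by
    rw [← hsplit, hχfac, Polynomial.map_mul]
  have hdJmonic : dJ.Monic := hd₀monic.map φ
  have heJmonic : eJ.Monic := he₀monic.map φ
  have hprod0 : (∏ i, (X - C (u i)) : 𝕂[X]) ≠ 0 :=
    (Polynomial.monic_prod_of_monic _ _ (fun i _ => monic_X_sub_C (u i))).ne_zero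
  have hdJroot : dJ.eval (u i₀) = 0 := by
    have h1 : d.eval₂ ψ (u i₀) = (d₀.map φ).eval (u i₀) * ψ d.leadingCoeff := by
      conv_lhs => rw [← hd₀]
      rw [Polynomial.eval₂_mul, Polynomial.eval₂_map, hψcomp, Polynomial.eval₂_C,
        ← Polynomial.eval_map]
    rw [hevald] at h1
    have h2 : ψ d.leadingCoeff ≠ 0 := (map_ne_zero ψ).mpr hdlc
    exact (mul_eq_zero.mp h1.symm).resolve_right h2
  -- roots
  have hroots : (∏ i, (X - C (u i)) : 𝕂[X]).roots = (Finset.univ.val.map u) := by
    have : (∏ i, (X - C (u i)) : 𝕂[X]) = ((Finset.univ.val.map u).map (fun a => X - C a)).prod := by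
      rw [Multiset.map_map]; rfl
    rw [this, Polynomial.roots_multiset_prod_X_sub_C]
  have hrootsum : dJ.roots + eJ.roots = Finset.univ.val.map u := by
    rw [← hroots, hfacJ, Polynomial.roots_mul (hfacJ ▸ hprod0)]
  have hcount : (Finset.univ.val.map u).count (u i₀) = 1 := by
    rw [Multiset.count_map]
    have : (Multiset.filter (fun a => u i₀ = u a) (Finset.univ : Finset (Fin n)).val) = {i₀} := by
      ext a
      rw [Multiset.count_filter, Multiset.count_singleton]
      by_cases h : a = i₀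
      · subst h; simp [Multiset.count_eq_one_of_mem (Finset.univ.nodup) (Finset.mem_univ _)]
      · have : ¬ (u i₀ = u a) := fun h' => hne a h h'.symm
        simp [this, h]
    rw [this]; simp
  have hi₀d : u i₀ ∈ dJ.roots := (Polynomial.mem_roots hdJmonic.ne_zero).mpr hdJroot
  have hnotin : u i₀ ∉ eJ.roots := by
    intro hmem
    have h1 : 1 ≤ dJ.roots.count (u i₀) := Multiset.one_le_count_iff_mem.mpr hi₀d
    have h2 : 1 ≤ eJ.roots.count (u i₀) := Multiset.one_le_count_iff_mem.mpr hmem
    have h3 := congrArg (Multiset.count (u i₀)) hrootsum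
    rw [Multiset.count_add, hcount] at h3
    omega
  have hroot_props : ∀ r ∈ eJ.roots, r ≠ 0 ∧ 0 < v r := by
    intro r hr
    have hr' : r ∈ Finset.univ.val.map u := by
      rw [← hrootsum]; exact Multiset.mem_add.mpr (Or.inr hr)
    obtain ⟨i, -, rfl⟩ := Multiset.mem_map.mp hr'
    have hi : i ≠ i₀ := by
      intro h; subst h; exact hnotin hr
    exact ⟨h0 i hi, hpos i hi⟩
  -- eJ splits
  have heJsplits : eJ.Splits := by
    have hsp : (∏ i, (X - C (u i)) : 𝕂[X]).Splits :=
      Polynomial.Splits.prod (fun i _ => Polynomial.Splits.X_sub_C (u i))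
    exact Polynomial.Splits.of_dvd hsp hprod0 (Dvd.intro_left dJ hfacJ.symm)
  have hcard : Multiset.card eJ.roots = eJ.natDegree := heJsplits.natDegree_eq_card_roots.symm
  have heJdeg : 0 < eJ.natDegree := by
    rw [heJ, he₀monic.natDegree_map]; exact he₀deg
  have hrootsne : eJ.roots ≠ 0 := by
    intro h
    rw [h] at hcard
    simp at hcard
    omega
  -- the constant term
  have hconst : eJ.eval 0 = (eJ.roots.map (fun r => 0 - r)).prod :=
    heJsplits.eval_eq_prod_roots_of_monic heJmonic 0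
  have hconst_val : 0 < v (eJ.eval 0) := by
    rw [hconst]
    refine addVal_multiset_prod_pos v _ ?_ ?_
    · intro h
      exact hrootsne (Multiset.map_eq_zero.mp h)
    · intro r hr
      obtain ⟨r', hr', rfl⟩ := Multiset.mem_map.mp hr
      rw [zero_sub, AddValuation.map_neg]
      exact (hroot_props r' hr').2
  have hconst_eq : eJ.eval 0 = Polynomial.aeval J (e₀.coeff 0) := by
    rw [heJ, ← Polynomial.coeff_zero_eq_eval_zero, Polynomial.coeff_map]
    rfl
  have hcoeff0 : e₀.coeff 0 = 0 := by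
    by_contra hne0
    have := addVal_aeval_le_zero v hv J hJ (e₀.coeff 0) hne0
    rw [← hconst_eq] at this
    exact absurd hconst_val (not_lt.mpr this)
  have hzero_root : (0 : 𝕂) ∈ eJ.roots := by
    rw [Polynomial.mem_roots heJmonic.ne_zero, Polynomial.IsRoot, hconst_eq, hcoeff0, map_zero]
  exact (hroot_props 0 hzero_root).1 rfl

end Irred

end Fermat.Agent.S28.helper388
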