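/-
S28 (Igusa) — prime level: (F1), (F2) and the non-rationality (F3) of `j(q^p)` over `𝔽_ℓ(j)`,
deduced from helper328's formal prime-level data `Stmt_FormalPrime p`.
Author: helper28.
-/
import Mathlib
import Fermat.Prelude.Def_ModularCurve_X0ModL
import Fermat.Agent.S28.helper388_Irred
import Fermat.Agent.S28.helper328_PrimeSpec

set_option autoImplicit false

namespace Fermat.Agent.S28.helper28

open Polynomial ModularCurve

noncomputable section

section Abstract

variable {κ 𝕂 : Type*} [Field κ] [Field 𝕂] [Algebra κ 𝕂]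

/-- **Abstract non-rationality lemma.**  `v` a valuation on `𝕂`, trivial on `κ`, `v J < 0`.
Suppose `Φ(J, X) = (X - x) Ψ` over `𝕂` with `Ψ(x) ≠ 0`, and `g ∈ 𝕂` is integral over `κ[J]`
(root of the monic `G(J, X)`), nonzero of positive valuation, and satisfies the relation
`Ψ(x) g = ∑ i < n, Ψ_i T_i(J)`.  Then `x ∉ κ(J)`. -/
theorem nonrat_abstract (v : AddValuation 𝕂 (WithTop ℤ))
    (hv : ∀ c : κ, c ≠ 0 → v (algebraMap κ 𝕂 c) = 0)
    (J x g : 𝕂) (hJ : v J < 0)
    (Φ G : Polynomial (Polynomial κ)) (T : ℕ → Polynomial κ) (Ψ : Polynomial 𝕂) (n : ℕ)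
    (hG : G.Monic) (hGg : (G.map (aeval J : κ[X] →ₐ[κ] 𝕂).toRingHom).eval g = 0)
    (hΦ : Φ.map (aeval J : κ[X] →ₐ[κ] 𝕂).toRingHom = (X - C x) * Ψ)
    (hrel : Ψ.eval x * g = ∑ i ∈ Finset.range n, Ψ.coeff i * aeval J (T i))
    (hsep : Ψ.eval x ≠ 0) (hg0 : g ≠ 0) (hgpos : 0 < v g) :
    ¬ ∃ A B : Polynomial κ, B ≠ 0 ∧ aeval J B * x = aeval J A := by
  rintro ⟨A, B, hB, hAB⟩
  set φ : κ[X] →+* 𝕂 := (aeval J : κ[X] →ₐ[κ] 𝕂).toRingHom with hφ
  have hinj : Function.Injective φ :=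
    Fermat.Agent.S28.helper388.aeval_injective_of_addVal_neg v hv J hJ
  -- extend to the fraction field
  let ψ : RatFunc κ →+* 𝕂 := IsFractionRing.lift (K := RatFunc κ) hinj
  have hψ : ∀ P : κ[X], ψ (algebraMap κ[X] (RatFunc κ) P) = φ P := fun P =>
    IsFractionRing.lift_algebraMap hinj P
  have hψinj : Function.Injective ψ := ψ.injective
  have hcomp : ψ.comp (algebraMap κ[X] (RatFunc κ)) = φ := RingHom.ext hψ
  have hφB : φ B ≠ 0 := by
    intro h0
    exact hB (hinj (by rw [h0, map_zero]))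
  -- `x = ψ c`
  set c : RatFunc κ := algebraMap κ[X] (RatFunc κ) A / algebraMap κ[X] (RatFunc κ) B with hc
  have hxc : ψ c = x := by
    rw [hc, map_div₀, hψ, hψ]
    rw [div_eq_iff hφB, mul_comm]
    exact hAB.symm
  -- divide `Φ` by `X - c` over `κ(Y)`
  set Φ' : Polynomial (RatFunc κ) := Φ.map (algebraMap κ[X] (RatFunc κ)) with hΦ'
  have hΦ'map : Φ'.map ψ = Φ.map φ := by
    rw [hΦ', Polynomial.map_map, hcomp]
  have hroot : Φ'.IsRoot c := by
    apply hψinj
    rw [map_zero, ← Polynomial.eval_map_apply, hΦ'map, hxc, hΦ]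
    simp
  set Q : Polynomial (RatFunc κ) := Φ' /ₘ (X - C c) with hQ
  have hQmul : (X - C c) * Q = Φ' := Polynomial.mul_divByMonic_eq_iff_isRoot.mpr hroot
  have hΨ : Ψ = Q.map ψ := by
    have h1 : (X - C x) * Q.map ψ = (X - C x) * Ψ := by
      rw [← hΦ, ← hΦ'map, ← hQmul, Polynomial.map_mul, Polynomial.map_sub, Polynomial.map_X,
        Polynomial.map_C, hxc]
    exact (mul_left_cancel₀ (Polynomial.X_sub_C_ne_zero x) h1).symm
  have hevalΨ : Ψ.eval x = ψ (Q.eval c) := by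
    rw [hΨ, ← hxc, Polynomial.eval_map_apply]
  have hQc : Q.eval c ≠ 0 := by
    intro h0
    apply hsep
    rw [hevalΨ, h0, map_zero]
  -- `g = ψ r`
  set r : RatFunc κ :=
    (∑ i ∈ Finset.range n, Q.coeff i * algebraMap κ[X] (RatFunc κ) (T i)) / Q.eval c with hr
  have hgr : g = ψ r := by
    rw [hr, map_div₀, map_sum, eq_div_iff (by rw [← hevalΨ]; exact hsep), mul_comm, ← hevalΨ,
      hrel]
    refine Finset.sum_congr rfl fun i _ => ?_
    rw [map_mul, hψ, hΨ, Polynomial.coeff_map]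
    rfl
  -- `r` is integral over `κ[Y]`, hence a polynomial
  have hrint : IsIntegral κ[X] r := by
    refine ⟨G, hG, ?_⟩
    apply hψinj
    rw [map_zero, ← Polynomial.eval_map, ← Polynomial.eval_map_apply, Polynomial.map_map, hcomp,
      ← hgr]
    exact hGg
  obtain ⟨P, hP⟩ := (IsIntegrallyClosed.isIntegral_iff (R := κ[X]) (K := RatFunc κ)).mp hrint
  have hgP : g = aeval J P := by
    rw [hgr, ← hP, hψ]
    rfl
  have hP0 : P ≠ 0 := by
    rintro rfl
    apply hg0
    rw [hgP, map_zero]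
  have hle : v g ≤ 0 := by
    rw [hgP]
    exact Fermat.Agent.S28.helper388.addVal_aeval_le_zero v hv J hJ P hP0
  exact absurd hgpos (not_lt.mpr hle)

end Abstract

section Series

variable {R : Type*} [CommRing R]

theorem orderTop_eq_zero_of (f : LaurentSeries R)
    (hneg : ∀ k : ℤ, k < 0 → f.coeff k = 0) (h0 : f.coeff 0 ≠ 0) : f.orderTop = 0 := by
  apply le_antisymm
  · exact HahnSeries.orderTop_le_of_coeff_ne_zero h0
  · rw [HahnSeries.le_orderTop_iff_forall]
    intro j hj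
    exact hneg j (by exact_mod_cast hj)

theorem ofPowerSeries_coeff_zero (P : PowerSeries R) :
    (HahnSeries.ofPowerSeries ℤ R P).coeff 0 = PowerSeries.constantCoeff P := by
  rw [show (0 : ℤ) = ((0 : ℕ) : ℤ) from rfl, HahnSeries.ofPowerSeries_apply_coeff,
    PowerSeries.coeff_zero_eq_constantCoeff]

theorem ofPowerSeries_orderTop (P : PowerSeries R) (h : PowerSeries.constantCoeff P ≠ 0) :
    (HahnSeries.ofPowerSeries ℤ R P).orderTop = 0 :=
  orderTop_eq_zero_of _ (fun _ hk => ofPowerSeries_coeff_of_neg P hk)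
    (by rw [ofPowerSeries_coeff_zero]; exact h)

theorem qExpand_orderTop_zero (N : ℕ) [NeZero N] (f : LaurentSeries R)
    (hneg : ∀ k : ℤ, k < 0 → f.coeff k = 0) (h0 : f.coeff 0 ≠ 0) :
    (qExpand R N f).orderTop = 0 := by
  apply orderTop_eq_zero_of
  · intro k hk
    by_cases hd : (N : ℤ) ∣ k
    · obtain ⟨m, rfl⟩ := hd
      rw [qExpand_coeff_mul]
      apply hneg
      have hN : (0 : ℤ) < N := by exact_mod_cast Nat.pos_of_ne_zero (NeZero.ne N)
      rcases lt_or_ge m 0 with hm | hm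
      · exact hm
      · nlinarith
    · exact qExpand_coeff_of_not_dvd N f hd
  · have h := qExpand_coeff_mul N f 0
    rw [mul_zero] at h
    rw [h]
    exact h0

/-- any ring hom between Laurent series rings commutes with `evalJ`. -/
theorem ringHom_comp_evalJ {S : Type*} [CommRing S] (g : LaurentSeries R →+* LaurentSeries S)
    (J : LaurentSeries R) :
    g.comp (helper328.evalJ J) = helper328.evalJ (g J) := by
  apply Polynomial.ringHom_ext
  · intro a
    simp [helper328.evalJ]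
  · simp [helper328.evalJ]

theorem ringHom_evalJ {S : Type*} [CommRing S] (g : LaurentSeries R →+* LaurentSeries S)
    (J : LaurentSeries R) (P : Polynomial ℤ) :
    g (helper328.evalJ J P) = helper328.evalJ (g J) P := by
  rw [← ringHom_comp_evalJ]
  rfl

theorem evalJ_eq_aeval_comp {κ : Type*} [Field κ] (J : LaurentSeries κ) :
    helper328.evalJ J =
      ((aeval J : κ[X] →ₐ[κ] LaurentSeries κ).toRingHom).comp
        (Polynomial.mapRingHom (Int.castRingHom κ)) := by
  apply Polynomial.ringHom_ext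
  · intro a
    simp [helper328.evalJ]
  · simp [helper328.evalJ]

theorem twist_one_apply (x : LaurentSeries R) : helper328.twist (1 : Rˣ) x = x := by
  ext n
  simp

end Series

section Concrete

open helper328

variable (p : ℕ) [hp : Fact p.Prime]

/-- (F1) and (F2) over `ℤ`, from the formal prime-level data. -/
theorem primeRel_int (h : Stmt_FormalPrime p) :
    ∃ Φ : Polynomial (Polynomial ℤ), Φ.Monic ∧ Φ.natDegree = p + 1 ∧
      (Φ.map (evalJ (jqModC ℤ))).eval (qExpand ℤ p (jqModC ℤ)) = 0 ∧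
      (Φ.map (evalJ (qExpand ℤ p (jqModC ℤ)))).eval (jqModC ℤ) = 0 := by
  obtain ⟨Φ, G, T, Ψ, hΦm, hΦdeg, hGm, hG0, hGg, hΦfac, hrel, hroot⟩ := h
  refine ⟨Φ, hΦm, hΦdeg, ?_, ?_⟩
  · rw [hΦfac]
    simp
  · -- use the root formula over `ℂ`
    have hω : IsPrimitiveRoot (Complex.exp (2 * Real.pi * Complex.I / p)) p :=
      Complex.isPrimitiveRoot_exp p hp.out.ne_zero
    obtain ⟨ω, hωu⟩ := hω.isUnit hp.out.ne_zero
    have hω' : IsPrimitiveRoot ω p := by
      rw [← IsPrimitiveRoot.coe_units_iff, hωu]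
      exact hω
    have key := hroot ℂ ω hω' 1 1
    set cm : LaurentSeries ℤ →+* LaurentSeries ℂ := coeffMap (Int.castRingHom ℂ) with hcm
    have hcminj : Function.Injective cm := by
      intro a b hab
      ext k
      have := congrArg (fun z => z.coeff k) hab
      simp only [hcm, coeffMap_coeff] at this
      exact (Int.cast_injective (α := ℂ)) (by simpa using this)
    apply hcminj
    rw [map_zero, ← Polynomial.eval_map_apply, Polynomial.map_map, ringHom_comp_evalJ]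
    have h1 : cm (qExpand ℤ p (jqModC ℤ)) = Jsub ℂ (1 ^ p) (⟨p, hp.out.pos⟩ * 1) := by
      rw [hcm, coeffMap_qExpand, coeffMap_jqModC, Jsub, one_pow, twist_one_apply]
      exact qExpand_congr (by simp) _
    have h2 : cm (jqModC ℤ) = Jsub ℂ (ω ^ 0 * 1) 1 := by
      rw [hcm, coeffMap_jqModC, Jsub, pow_zero, one_mul, twist_one_apply]
      exact (qExpand_one_apply _).symm
    rw [h1, key, h2, Polynomial.eval_mul, Polynomial.eval_prod]
    apply mul_eq_zero_of_right
    apply Finset.prod_eq_zero (Finset.mem_range.mpr hp.out.pos)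
    simp


theorem ringHom_eval_map_evalJ {R S : Type*} [CommRing R] [CommRing S]
    (g : LaurentSeries R →+* LaurentSeries S) (Φ : Polynomial (Polynomial ℤ))
    (a b : LaurentSeries R) :
    g ((Φ.map (evalJ a)).eval b) = (Φ.map (evalJ (g a))).eval (g b) := by
  rw [← Polynomial.eval_map_apply, Polynomial.map_map, ringHom_comp_evalJ]

/-- (F1) and (F2) over every commutative ring (same `Φ`). -/
theorem primeRel (h : Stmt_FormalPrime p) :
    ∃ Φ : Polynomial (Polynomial ℤ), Φ.Monic ∧ Φ.natDegree = p + 1 ∧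
      ∀ (R : Type) [CommRing R],
        (Φ.map (evalJ (jqModC R))).eval (qExpand R p (jqModC R)) = 0 ∧
        (Φ.map (evalJ (qExpand R p (jqModC R)))).eval (jqModC R) = 0 := by
  obtain ⟨Φ, hΦm, hΦdeg, h1, h2⟩ := primeRel_int p h
  refine ⟨Φ, hΦm, hΦdeg, fun R _ => ⟨?_, ?_⟩⟩
  · have := congrArg (coeffMap (Int.castRingHom R)) h1
    rwa [ringHom_eval_map_evalJ, map_zero, coeffMap_qExpand, coeffMap_jqModC] at this
  · have := congrArg (coeffMap (Int.castRingHom R)) h2
    rwa [ringHom_eval_map_evalJ, map_zero, coeffMap_qExpand, coeffMap_jqModC] at this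

/-- separability of `Φ(X, j)` at the root `j(q^p)`, read off from the root formula over a field
`k` with a primitive `p`-th root of unity. -/
theorem sep_aux (k : Type) [Field k] (ω : kˣ)
    (Φ : Polynomial (Polynomial ℤ)) (Ψ : Polynomial (LaurentSeries ℤ))
    (hΦfac : Φ.map (evalJ (jqModC ℤ)) = (X - C (qExpand ℤ p (jqModC ℤ))) * Ψ)
    (key : Φ.map (evalJ (Jsub k (1 ^ p) (⟨p, hp.out.pos⟩ * 1))) =
        (X - C (Jsub k (1 ^ p ^ 2) (⟨p, hp.out.pos⟩ ^ 2 * 1))) *
          ∏ b ∈ Finset.range p, (X - C (Jsub k (ω ^ b * 1) 1))) :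
    ((qExpand k p).comp (coeffMap (Int.castRingHom k)))
      (Ψ.eval (qExpand ℤ p (jqModC ℤ))) ≠ 0 := by
  have hp2 : 2 ≤ p := hp.out.two_le
  set ι : LaurentSeries ℤ →+* LaurentSeries k :=
    (qExpand k p).comp (coeffMap (Int.castRingHom k)) with hι
  have hιJ : ι (jqModC ℤ) = Jsub k (1 ^ p) (⟨p, hp.out.pos⟩ * 1) := by
    rw [hι, RingHom.comp_apply, coeffMap_jqModC, Jsub, one_pow, twist_one_apply]
    exact qExpand_congr (by simp) _
  have hιx : ι (qExpand ℤ p (jqModC ℤ)) = qExpand k (p * p) (jqModC k) := by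
    rw [hι, RingHom.comp_apply, coeffMap_qExpand, coeffMap_jqModC, qExpand_qExpand]
  have hJs : Jsub k (1 ^ p ^ 2) (⟨p, hp.out.pos⟩ ^ 2 * 1) = qExpand k (p * p) (jqModC k) := by
    rw [Jsub, one_pow, twist_one_apply]
    exact qExpand_congr (by simp [pow_two]) _
  have hJb : ∀ b : ℕ, Jsub k (ω ^ b * 1) 1 = twist (ω ^ b) (jqModC k) := by
    intro b
    rw [Jsub, mul_one, qExpand_congr (show ((1 : ℕ+) : ℕ) = 1 from rfl), qExpand_one_apply]
  have hfac : Ψ.map ι = ∏ b ∈ Finset.range p, (X - C (Jsub k (ω ^ b * 1) 1)) := by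
    have h2 := congrArg (Polynomial.map ι) hΦfac
    rw [Polynomial.map_map, ringHom_comp_evalJ, hιJ, key, Polynomial.map_mul, Polynomial.map_sub,
      Polynomial.map_X, Polynomial.map_C, hιx, hJs] at h2
    exact (mul_left_cancel₀ (Polynomial.X_sub_C_ne_zero _) h2).symm
  rw [← Polynomial.eval_map_apply, hfac, Polynomial.eval_prod, Finset.prod_ne_zero_iff]
  intro b _
  rw [Polynomial.eval_sub, Polynomial.eval_X, Polynomial.eval_C, hιx, hJb]
  intro h0
  have hc := congrArg (fun z : LaurentSeries k => z.coeff (((p * p : ℕ) : ℤ) * (-1))) h0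
  have hlt : (((p * p : ℕ) : ℤ) * (-1)) < -1 := by
    have : (2 : ℤ) ≤ p := by exact_mod_cast hp2
    push_cast
    nlinarith
  simp only [HahnSeries.coeff_sub, HahnSeries.coeff_zero] at hc
  rw [qExpand_coeff_mul, coeff_jqModC_neg_one, twist_coeff, coeff_jqModC_of_lt k hlt, mul_zero,
    sub_zero] at hc
  exact one_ne_zero hc

/-- (F3), fraction form: `j(q^p)` is not a rational function of `j` over `𝔽_ℓ`, `ℓ ≠ p`. -/
theorem nonrat_frac (ℓ : ℕ) [hℓ : Fact ℓ.Prime] (hpl : p ≠ ℓ) (h : Stmt_FormalPrime p) :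
    ¬ ∃ A B : Polynomial (ZMod ℓ), B ≠ 0 ∧
      aeval (jqModC (ZMod ℓ)) B * qExpand (ZMod ℓ) p (jqModC (ZMod ℓ)) =
        aeval (jqModC (ZMod ℓ)) A := by
  obtain ⟨Φ, G, T, Ψ, hΦm, hΦdeg, hGm, hG0, hGg, hΦfac, hrel, hroot⟩ := h
  set ρ : ℤ →+* ZMod ℓ := Int.castRingHom (ZMod ℓ) with hρ
  set cm : LaurentSeries ℤ →+* LaurentSeries (ZMod ℓ) := coeffMap ρ with hcm
  set J : LaurentSeries (ZMod ℓ) := jqModC (ZMod ℓ) with hJdef
  set φ : (ZMod ℓ)[X] →+* LaurentSeries (ZMod ℓ) :=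
    (aeval J : (ZMod ℓ)[X] →ₐ[ZMod ℓ] LaurentSeries (ZMod ℓ)).toRingHom with hφ
  have hcmJ : cm (jqModC ℤ) = J := coeffMap_jqModC ρ
  have hcmx : cm (qExpand ℤ p (jqModC ℤ)) = qExpand (ZMod ℓ) p J := by
    rw [hcm, coeffMap_qExpand, ← hcm, hcmJ]
  have hkey : cm.comp (evalJ (jqModC ℤ)) = φ.comp (Polynomial.mapRingHom ρ) := by
    rw [ringHom_comp_evalJ, hcmJ, evalJ_eq_aeval_comp]
  have hkey' : ∀ P : Polynomial ℤ, cm (evalJ (jqModC ℤ) P) = aeval J (P.map ρ) := fun P =>
    congrArg (fun f : Polynomial ℤ →+* LaurentSeries (ZMod ℓ) => f P) hkey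
  have hmapmap : ∀ F : Polynomial (Polynomial ℤ),
      (F.map (Polynomial.mapRingHom ρ)).map φ = (F.map (evalJ (jqModC ℤ))).map cm := by
    intro F
    rw [Polynomial.map_map, Polynomial.map_map, hkey]
  -- the valuation
  let v : AddValuation (LaurentSeries (ZMod ℓ)) (WithTop ℤ) := HahnSeries.addVal ℤ (ZMod ℓ)
  have hvdef : ∀ y : LaurentSeries (ZMod ℓ), v y = y.orderTop := fun y => HahnSeries.addVal_apply
  have hv : ∀ c : ZMod ℓ, c ≠ 0 → v (algebraMap (ZMod ℓ) (LaurentSeries (ZMod ℓ)) c) = 0 := by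
    intro c hc
    rw [hvdef, algebraMap_laurentSeries_eq_single, HahnSeries.orderTop_single hc]
    rfl
  have hvJ : v J < 0 := by
    rw [hvdef]
    have h1 : J.orderTop ≤ ((-1 : ℤ) : WithTop ℤ) :=
      HahnSeries.orderTop_le_of_coeff_ne_zero (by
        rw [hJdef, coeff_jqModC_neg_one]; exact one_ne_zero)
    exact lt_of_le_of_lt h1 (by exact_mod_cast (by norm_num : (-1 : ℤ) < 0))
  -- the element `g`
  have hp2 : 2 ≤ p := hp.out.two_le
  have hpne : ((p : ℕ) : ZMod ℓ) ≠ 0 := by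
    rw [Ne, ZMod.natCast_eq_zero_iff]
    intro hdvd
    exact hpl ((Nat.prime_dvd_prime_iff_eq hℓ.out hp.out).mp hdvd).symm
  have hvg : v (cm (gHat p)) = (((p : ℤ) - 1 : ℤ) : WithTop ℤ) := by
    have e1 : cm ((p : LaurentSeries ℤ)) =
        algebraMap (ZMod ℓ) (LaurentSeries (ZMod ℓ)) ((p : ℕ) : ZMod ℓ) := by
      rw [map_natCast, map_natCast]
    have e2 : cm (deltaHat ℤ) = HahnSeries.single (1 : ℤ) 1 *
        HahnSeries.ofPowerSeries ℤ (ZMod ℓ)
          ((dedekindEtaUnit.map (Int.castRingHom ℤ)).map ρ) := by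
      rw [deltaHat, map_mul, hcm, coeffMap_single, map_one, coeffMap_ofPowerSeries]
    have e3 : cm (deltaHatInv ℤ) = HahnSeries.single (-1 : ℤ) 1 *
        HahnSeries.ofPowerSeries ℤ (ZMod ℓ)
          ((dedekindEtaUnitInv.map (Int.castRingHom ℤ)).map ρ) := by
      rw [deltaHatInv, map_mul, hcm, coeffMap_single, map_one, coeffMap_ofPowerSeries]
    have c1 : PowerSeries.constantCoeff ((dedekindEtaUnit.map (Int.castRingHom ℤ)).map ρ) ≠ 0 := by
      rw [← PowerSeries.coeff_zero_eq_constantCoeff, PowerSeries.coeff_map, PowerSeries.coeff_map,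
        PowerSeries.coeff_zero_eq_constantCoeff, constantCoeff_dedekindEtaUnit]
      simp
    have c2 : PowerSeries.constantCoeff ((dedekindEtaUnitInv.map (Int.castRingHom ℤ)).map ρ) ≠ 0 := by
      rw [← PowerSeries.coeff_zero_eq_constantCoeff, PowerSeries.coeff_map, PowerSeries.coeff_map,
        PowerSeries.coeff_zero_eq_constantCoeff, constantCoeff_dedekindEtaUnitInv]
      simp
    have e4 : cm (gHat p) =
        algebraMap (ZMod ℓ) (LaurentSeries (ZMod ℓ)) ((p : ℕ) : ZMod ℓ) ^ 12 *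
          (HahnSeries.single ((p : ℤ) * 1) 1 *
            qExpand (ZMod ℓ) p (HahnSeries.ofPowerSeries ℤ (ZMod ℓ)
              ((dedekindEtaUnit.map (Int.castRingHom ℤ)).map ρ))) *
          (HahnSeries.single (-1 : ℤ) 1 *
            HahnSeries.ofPowerSeries ℤ (ZMod ℓ)
              ((dedekindEtaUnitInv.map (Int.castRingHom ℤ)).map ρ)) := by
      rw [gHat, map_mul, map_mul, map_pow, e1, e3, hcm, coeffMap_qExpand, ← hcm, e2, map_mul,
        qExpand_single]
    rw [e4, AddValuation.map_mul, AddValuation.map_mul, AddValuation.map_mul,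
      AddValuation.map_mul, AddValuation.map_pow, hv _ hpne, hvdef, hvdef, hvdef, hvdef,
      HahnSeries.orderTop_single one_ne_zero, HahnSeries.orderTop_single one_ne_zero,
      ofPowerSeries_orderTop _ c2,
      qExpand_orderTop_zero p _ (fun _ hk => ofPowerSeries_coeff_of_neg _ hk)
        (by rw [ofPowerSeries_coeff_zero]; exact c1)]
    simp only [smul_zero, zero_add, add_zero, mul_one]
    norm_cast
  have hg0 : cm (gHat p) ≠ 0 := by
    intro h0
    rw [h0, AddValuation.map_zero] at hvg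
    exact WithTop.coe_ne_top hvg.symm
  have hgpos : 0 < v (cm (gHat p)) := by
    rw [hvg]
    have : (0 : ℤ) < (p : ℤ) - 1 := by
      have : (2 : ℤ) ≤ p := by exact_mod_cast hp2
      linarith
    exact_mod_cast this
  -- separability from the root formula
  have hsep : (Ψ.map cm).eval (qExpand (ZMod ℓ) p J) ≠ 0 := by
    have : NeZero ((p : ℕ) : ZMod ℓ) := ⟨hpne⟩
    obtain ⟨ζ, hζ⟩ := HasEnoughRootsOfUnity.exists_primitiveRoot (AlgebraicClosure (ZMod ℓ)) p
    obtain ⟨ω, hωu⟩ := hζ.isUnit hp.out.ne_zero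
    have hω : IsPrimitiveRoot ω p := by
      rw [← IsPrimitiveRoot.coe_units_iff, hωu]
      exact hζ
    have hne := sep_aux p (AlgebraicClosure (ZMod ℓ)) ω Φ Ψ hΦfac
      (hroot (AlgebraicClosure (ZMod ℓ)) ω hω 1 1)
    intro h0
    apply hne
    have e : coeffMap (Int.castRingHom (AlgebraicClosure (ZMod ℓ)))
          (Ψ.eval (qExpand ℤ p (jqModC ℤ))) =
        coeffMap (algebraMap (ZMod ℓ) (AlgebraicClosure (ZMod ℓ)))
          (cm (Ψ.eval (qExpand ℤ p (jqModC ℤ)))) := by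
      rw [hcm, coeffMap_coeffMap]
      exact coeffMap_congr (RingHom.ext_int _ _) _
    rw [RingHom.comp_apply, e, ← Polynomial.eval_map_apply, hcmx, h0, map_zero, map_zero]
  refine nonrat_abstract v hv J (qExpand (ZMod ℓ) p J) (cm (gHat p)) hvJ
    (Φ.map (Polynomial.mapRingHom ρ)) (G.map (Polynomial.mapRingHom ρ))
    (fun i => (T i).map ρ) (Ψ.map cm) (p + 1) (hGm.map _) ?_ ?_ ?_ hsep hg0 hgpos
  · rw [← hφ, hmapmap, Polynomial.eval_map_apply, hGg, map_zero]
  · rw [← hφ, hmapmap, hΦfac, Polynomial.map_mul, Polynomial.map_sub, Polynomial.map_X,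
      Polynomial.map_C, hcmx]
  · rw [← hcmx, Polynomial.eval_map_apply, ← map_mul, hrel, map_sum]
    refine Finset.sum_congr rfl fun i _ => ?_
    rw [map_mul, hkey', Polynomial.coeff_map]

/-- (F3), intermediate-field form: `j(q^p) ∉ 𝔽_ℓ(j)` inside `𝔽_ℓ((q))`, for `ℓ ≠ p`. -/
theorem nonrat (ℓ : ℕ) [hℓ : Fact ℓ.Prime] (hpl : p ≠ ℓ) (h : Stmt_FormalPrime p) :
    qExpand (ZMod ℓ) p (jqModC (ZMod ℓ)) ∉
      IntermediateField.adjoin (ZMod ℓ) {jqModC (ZMod ℓ)} := by
  intro hmem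
  rw [IntermediateField.mem_adjoin_simple_iff] at hmem
  obtain ⟨r, s, hrs⟩ := hmem
  apply nonrat_frac p ℓ hpl h
  by_cases hs : aeval (jqModC (ZMod ℓ)) s = 0
  · refine ⟨0, 1, one_ne_zero, ?_⟩
    rw [hrs, hs, div_zero, mul_zero, map_zero]
  · refine ⟨r, s, ?_, ?_⟩
    · rintro rfl
      exact hs (map_zero _)
    · rw [hrs, mul_div_cancel₀ _ hs]

end Concrete

end

end Fermat.Agent.S28.helper28
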