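import Fermat.Agent.S28.helper559_TowerAdapters
import Fermat.Agent.S28.helper28_PrimeIrr

/-!
# S28 tower, part 6 (helper559): upper bound and clause (DEG) from `helper328.Stmt_FormalPrime`

* `relAt_of_formalPrime` : F1 + F2 over any field `K : Type` from `Stmt_FormalPrime p`
  (through `helper28.primeRel`).
* `hub_of_formalPrime` : the hypothesis `hub` of `helper1595.relrank_full_eq_dedekindPsi`.
* `degLE_of_formalPrime` : clause (DEG) of `Spec.Stmt_CoreInput N ℓ` for `L = F`,
  `n = dedekindPsi N`.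
-/

set_option autoImplicit false

noncomputable section

open Polynomial IntermediateField Cardinal ModularCurve

namespace Fermat.Agent.S28.helper559

theorem relAt_of_formalPrime (K : Type) [Field K] (p : ℕ) [hp : Fact p.Prime]
    (h : helper328.Stmt_FormalPrime p) : RelAt K p := by
  have : NeZero p := ⟨hp.out.ne_zero⟩
  obtain ⟨Φ, hm, hd, hR⟩ := helper28.primeRel p h
  obtain ⟨h1, h2⟩ := hR K
  refine ⟨Φ, hm, hd, ?_, ?_⟩
  · rw [V_eq]; exact h1
  · rw [V_eq]; exact h2

/-- **Upper bound** in the shape of the hypothesis `hub` of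
`helper1595.relrank_full_eq_dedekindPsi`, for any field `K : Type`. -/
theorem hub_of_formalPrime (K : Type) [Field K] (N : ℕ) (hN : 0 < N)
    (h : ∀ (p : ℕ) [Fact p.Prime], p ∣ N → helper328.Stmt_FormalPrime p) :
    ∀ M, M ∣ N →
      (K⟮jqModC K⟯).relrank (modularFunctionFieldFullC K M) ≤ (dedekindPsi M : Cardinal) := by
  intro M hM
  have hM0 : M ≠ 0 := fun h0 => hN.ne' (Nat.eq_zero_of_zero_dvd (h0 ▸ hM))
  have : NeZero M := ⟨hM0⟩
  refine relrank_full_le M fun p hp hpM => ?_
  have : Fact p.Prime := ⟨hp⟩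
  exact relAt_of_formalPrime K p (h p (hpM.trans hM))

/-- **Clause (DEG)** of `Spec.Stmt_CoreInput` for `L = F`, `n = dedekindPsi N`. -/
theorem degLE_of_formalPrime (N : ℕ) [NeZero N]
    (h : ∀ (p : ℕ) [Fact p.Prime], p ∣ N → helper328.Stmt_FormalPrime p) :
    Spec.DegLE (modularFunctionFieldFull N) (dedekindPsi N) := by
  refine degLE_full N fun p hp hpN => ?_
  have : Fact p.Prime := ⟨hp⟩
  exact relAt_of_formalPrime ℚ p (h p hpN)

end Fermat.Agent.S28.helper559
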