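import Fermat.Agent.S28.helper1595_CoreInput
import Fermat.Agent.S28.helper559_TowerFromPrime

/-!
# S28, route P: `Spec.Stmt_CoreInput N ℓ` from `helper328.Stmt_FormalPrime p` for the primes
`p ∣ N` (helper1595)

Pure glue of
* `helper1595.stmt_CoreInput_of_primeLevel` (counting tower + adapters),
* `helper28.primeRel_int`, `helper28.nonrat` (prime-level relations and nonrationality),
* `helper559.hub_of_formalPrime`, `helper559.degLE_of_formalPrime` (upper bounds).
-/

set_option autoImplicit false

noncomputable section

namespace Fermat.Agent.S28.helper1595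

open IntermediateField ModularCurve Polynomial

/-- **Route P**: the modular input of the algebra core for `ℓ ∤ N`, from the formal prime-level
data at the primes dividing `N`. -/
theorem stmt_CoreInput_routeP (N : ℕ) [NeZero N] (ℓ : ℕ) [Fact ℓ.Prime] (hℓN : ¬ ℓ ∣ N)
    (h : ∀ (p : ℕ) [Fact p.Prime], p ∣ N → helper328.Stmt_FormalPrime p) :
    Spec.Stmt_CoreInput N ℓ := by
  refine stmt_CoreInput_of_primeLevel N ℓ ?_ ?_
    (helper559.hub_of_formalPrime (ZMod ℓ) N (NeZero.pos N) h)
    (helper559.degLE_of_formalPrime N h)
  · intro p _ hp hpN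
    have : Fact p.Prime := ⟨hp⟩
    exact helper28.primeRel_int p (h p hpN)
  · intro p _ hp hpN
    have : Fact p.Prime := ⟨hp⟩
    have hpl : p ≠ ℓ := by
      rintro rfl
      exact hℓN hpN
    exact helper28.nonrat p ℓ hpl (h p hpN)

end Fermat.Agent.S28.helper1595
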