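/-
S28 (Igusa) — the `p`-section matrix of a Laurent series.
Author: helper2082.  No sorry.

For `f ∈ R((s))` and `q = s^p`, `secMat p f` is the matrix of multiplication by `f(s)` on the free
`R((q))`-module `R((s))` in the basis `1, s, …, s^(p-1)`.  Its entries are Laurent series over `R`
(so its characteristic polynomial has coefficients in `R((q))`: integrality for free when `R = ℤ`).

Main results (`V = qExpand _ p` is `q ↦ q^p`, `twist ζ` is `s ↦ ζ s` from `helper328_PrimeSpec`):

* `dec_secMat_col`    : `f * s^b = ∑ a, s^a * V (secMat p f a b)`;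
* `secMat_mul`, `secMat_one`, `secMat_add`, `secMat_qExpand_mul` : ring-hom properties;
* `diagonal_mul_vand` : `diagonal (c ↦ twist (ω^c) f) * vand ω = vand ω * (secMat p f).map V`
                        whenever `ω^p = 1`;
* `secMat_map_eq_conj`: over a field with a primitive `p`-th root of unity `ω`,
                        `(secMat p f).map V = (vand ω)⁻¹ * diagonal (c ↦ twist (ω^c) f) * vand ω`
                        (the same `vand ω` for all `f`; `secMat_prod_map_eq_conj` for products);
* `charpoly_secMat_map`: `((secMat p f).charpoly).map V = ∏ c, (X - C (twist (ω^c) f))`;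
* `trace_secMat_prod_map`: `V (trace (secMat f₁ * ⋯ * secMat f_r)) = ∑ c, ∏ i, twist (ω^c) f_i`;
* `trace_secMat`, `sum_twist_eq` : `trace (secMat p f) = p • sect p 0 f` and
                        `∑ c, twist (ω^c) f = p • V (sect p 0 f)`.
-/
import Mathlib
import Fermat.Prelude.Def_ModularCurve_X0ModL
import Fermat.Agent.S28.helper328_PrimeSpec

set_option autoImplicit false

namespace Fermat.Agent.S28.helper2082

open Polynomial ModularCurve Matrix
open Fermat.Agent.S28.helper328 (twist twist_coeff)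

noncomputable section

variable {R : Type*} [CommRing R]

/-! ### Sections of a Laurent series -/

theorem sect_bddBelow (p : ℕ) [NeZero p] (r : ℤ) (f : LaurentSeries R) :
    BddBelow (Function.support fun n : ℤ => f.coeff ((p : ℤ) * n + r)) := by
  refine ⟨-(|f.order| + |r|), fun n hn => ?_⟩
  by_contra hlt
  rw [not_le] at hlt
  apply hn
  apply HahnSeries.coeff_eq_zero_of_lt_order
  have hp : (1 : ℤ) ≤ p := by exact_mod_cast Nat.one_le_iff_ne_zero.mpr (NeZero.ne p)
  have h1 := abs_nonneg f.order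
  have h2 := abs_nonneg r
  have hn0 : n < 0 := by linarith
  have h3 : (p : ℤ) * n ≤ n := by nlinarith
  have h4 := neg_abs_le f.order
  have h5 := le_abs_self r
  linarith

/-- `sect p r f = ∑ n, f_{p n + r} q^n`: the `p`-section of `f` with shift `r`. -/
def sect (p : ℕ) [NeZero p] (r : ℤ) (f : LaurentSeries R) : LaurentSeries R :=
  HahnSeries.ofSuppBddBelow (fun n : ℤ => f.coeff ((p : ℤ) * n + r)) (sect_bddBelow p r f)

@[simp] theorem sect_coeff (p : ℕ) [NeZero p] (r : ℤ) (f : LaurentSeries R) (n : ℤ) :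
    (sect p r f).coeff n = f.coeff ((p : ℤ) * n + r) := rfl

/-- The matrix of multiplication by `f(s)` on `R((s))` over `R((q))`, `q = s^p`, in the basis
`1, s, …, s^(p-1)`. -/
def secMat (p : ℕ) [NeZero p] (f : LaurentSeries R) : Matrix (Fin p) (Fin p) (LaurentSeries R) :=
  fun a b => sect p ((a : ℤ) - (b : ℤ)) f

@[simp] theorem secMat_apply_coeff (p : ℕ) [NeZero p] (f : LaurentSeries R) (a b : Fin p) (n : ℤ) :
    (secMat p f a b).coeff n = f.coeff ((p : ℤ) * n + ((a : ℤ) - (b : ℤ))) := rfl

/-! ### The decomposition `R((s)) = ⊕_{a<p} s^a R((q))` -/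

/-- `dec p u = ∑ a, s^a * u_a(s^p)`. -/
def dec (p : ℕ) [NeZero p] (u : Fin p → LaurentSeries R) : LaurentSeries R :=
  ∑ a : Fin p, HahnSeries.single (a : ℤ) (1 : R) * qExpand R p (u a)

theorem coeff_sum' {ι : Type*} (s : Finset ι) (g : ι → LaurentSeries R) (n : ℤ) :
    (∑ i ∈ s, g i).coeff n = ∑ i ∈ s, (g i).coeff n := by
  classical
  induction s using Finset.induction_on with
  | empty => simp
  | insert i s hi ih => rw [Finset.sum_insert hi, Finset.sum_insert hi, HahnSeries.coeff_add, ih]

theorem dec_coeff (p : ℕ) [NeZero p] (u : Fin p → LaurentSeries R) (n : ℤ) (a : Fin p) :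
    (dec p u).coeff ((p : ℤ) * n + (a : ℤ)) = (u a).coeff n := by
  rw [dec, coeff_sum', Finset.sum_eq_single a]
  · rw [HahnSeries.coeff_single_mul, one_mul, add_sub_cancel_right, qExpand_coeff_mul]
  · intro a' _ ha'
    rw [HahnSeries.coeff_single_mul, one_mul]
    apply qExpand_coeff_of_not_dvd
    intro hdvd
    apply ha'
    have h1 : (p : ℤ) ∣ (a : ℤ) - (a' : ℤ) := by
      have h2 : (p : ℤ) * n + (a : ℤ) - (a' : ℤ) = (p : ℤ) * n + ((a : ℤ) - (a' : ℤ)) := by ring
      rw [h2] at hdvd
      exact (Int.dvd_add_right (dvd_mul_right _ _)).mp hdvd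
    have ha := a.isLt
    have ha'' := a'.isLt
    have h3 : ((a : ℤ) - (a' : ℤ)) = 0 := by
      apply Int.eq_zero_of_abs_lt_dvd h1
      rw [abs_lt]
      constructor <;> omega
    apply Fin.ext
    omega
  · intro h
    exact absurd (Finset.mem_univ a) h

/-- Every integer is `p * n + a` with `a : Fin p`. -/
theorem exists_eq_mul_add (p : ℕ) [NeZero p] (m : ℤ) :
    ∃ (n : ℤ) (a : Fin p), m = (p : ℤ) * n + (a : ℤ) := by
  have hp : (0 : ℤ) < p := by exact_mod_cast Nat.pos_of_ne_zero (NeZero.ne p)
  have h0 := Int.emod_nonneg m hp.ne'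
  have h1 := Int.emod_lt_of_pos m hp
  refine ⟨m / p, ⟨(m % p).toNat, by omega⟩, ?_⟩
  have h2 : (((m % (p : ℤ)).toNat : ℕ) : ℤ) = m % p := Int.toNat_of_nonneg h0
  show m = (p : ℤ) * (m / p) + (((m % (p : ℤ)).toNat : ℕ) : ℤ)
  rw [h2]
  exact (Int.mul_ediv_add_emod m p).symm

theorem dec_injective (p : ℕ) [NeZero p] :
    Function.Injective (dec (R := R) p) := by
  intro u v h
  funext a
  ext n
  rw [← dec_coeff p u n a, ← dec_coeff p v n a, h]

theorem dec_add (p : ℕ) [NeZero p] (u v : Fin p → LaurentSeries R) :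
    dec p (u + v) = dec p u + dec p v := by
  simp only [dec, Pi.add_apply, map_add, mul_add, Finset.sum_add_distrib]

theorem dec_zero (p : ℕ) [NeZero p] : dec p (0 : Fin p → LaurentSeries R) = 0 := by
  simp [dec]

/-- `dec` is semilinear over `V`: `dec (h • u) = h(s^p) * dec u`. -/
theorem dec_smul (p : ℕ) [NeZero p] (h : LaurentSeries R) (u : Fin p → LaurentSeries R) :
    dec p (fun a => h * u a) = qExpand R p h * dec p u := by
  simp only [dec, map_mul, Finset.mul_sum]
  refine Finset.sum_congr rfl fun a _ => ?_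
  ring

/-- Decomposition of `f * s^b` in the basis `s^a`: the `b`-th column of `secMat p f`. -/
theorem dec_secMat_col (p : ℕ) [NeZero p] (f : LaurentSeries R) (b : Fin p) :
    dec p (fun a => secMat p f a b) = f * HahnSeries.single (b : ℤ) (1 : R) := by
  ext m
  obtain ⟨n, a, rfl⟩ := exists_eq_mul_add p m
  rw [dec_coeff, HahnSeries.coeff_mul_single, mul_one, secMat_apply_coeff]
  congr 1
  ring

/-- Expanded form of `dec_secMat_col`. -/
theorem mul_single_eq_sum (p : ℕ) [NeZero p] (f : LaurentSeries R) (b : Fin p) :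
    f * HahnSeries.single (b : ℤ) (1 : R) =
      ∑ a : Fin p, HahnSeries.single (a : ℤ) (1 : R) * qExpand R p (secMat p f a b) :=
  (dec_secMat_col p f b).symm

/-! ### Ring-hom properties of `secMat` -/

theorem secMat_add (p : ℕ) [NeZero p] (f g : LaurentSeries R) :
    secMat p (f + g) = secMat p f + secMat p g := by
  ext a b n
  simp [secMat_apply_coeff]

theorem secMat_zero (p : ℕ) [NeZero p] : secMat p (0 : LaurentSeries R) = 0 := by
  ext a b n
  simp [secMat_apply_coeff]

theorem secMat_mul (p : ℕ) [NeZero p] (f g : LaurentSeries R) :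
    secMat p (f * g) = secMat p f * secMat p g := by
  ext1 a b
  revert a
  rw [← funext_iff]
  apply dec_injective p
  rw [dec_secMat_col]
  have h1 : (fun a => (secMat p f * secMat p g) a b) =
      ∑ c : Fin p, fun a => secMat p g c b * secMat p f a c := by
    funext a
    rw [Matrix.mul_apply, Finset.sum_apply]
    exact Finset.sum_congr rfl fun c _ => mul_comm _ _
  have hdec_sum : ∀ (s : Finset (Fin p)) (w : Fin p → Fin p → LaurentSeries R),
      dec p (∑ c ∈ s, w c) = ∑ c ∈ s, dec p (w c) := by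
    intro s w
    classical
    induction s using Finset.induction_on with
    | empty => simp [dec_zero]
    | insert i s hi ih => rw [Finset.sum_insert hi, Finset.sum_insert hi, dec_add, ih]
  rw [h1, hdec_sum]
  have h2 : ∀ c : Fin p, dec p (fun a => secMat p g c b * secMat p f a c) =
      f * (HahnSeries.single (c : ℤ) (1 : R) * qExpand R p (secMat p g c b)) := by
    intro c
    rw [dec_smul, dec_secMat_col]
    ring
  simp only [h2]
  rw [← Finset.mul_sum, ← mul_single_eq_sum, mul_assoc]

theorem secMat_one (p : ℕ) [NeZero p] : secMat p (1 : LaurentSeries R) = 1 := by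
  ext1 a b
  revert a
  rw [← funext_iff]
  apply dec_injective p
  rw [dec_secMat_col, one_mul]
  ext m
  obtain ⟨n, a, rfl⟩ := exists_eq_mul_add p m
  rw [dec_coeff, Matrix.one_apply]
  by_cases hab : a = b
  · subst hab
    rw [if_pos rfl, HahnSeries.coeff_one, HahnSeries.coeff_single]
    have hp : (0 : ℤ) < p := by exact_mod_cast Nat.pos_of_ne_zero (NeZero.ne p)
    by_cases hn : n = 0
    · subst hn; simp
    · rw [if_neg hn, if_neg]
      intro h
      apply hn
      have : (p : ℤ) * n = 0 := by linarith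
      rcases mul_eq_zero.mp this with h' | h'
      · omega
      · exact h'
  · rw [if_neg hab, HahnSeries.coeff_zero, HahnSeries.coeff_single, if_neg]
    intro h
    apply hab
    have hp : (p : ℤ) ∣ (b : ℤ) - (a : ℤ) := ⟨n, by linarith⟩
    have ha := a.isLt
    have hb := b.isLt
    have h3 : ((b : ℤ) - (a : ℤ)) = 0 := by
      apply Int.eq_zero_of_abs_lt_dvd hp
      rw [abs_lt]
      constructor <;> omega
    apply Fin.ext
    omega

/-- `secMat p (h(s^p) * f) = h • secMat p f`. -/
theorem secMat_qExpand_mul (p : ℕ) [NeZero p] (h f : LaurentSeries R) :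
    secMat p (qExpand R p h * f) = h • secMat p f := by
  ext1 a b
  revert a
  rw [← funext_iff]
  apply dec_injective p
  rw [dec_secMat_col]
  have h1 : (fun a => (h • secMat p f) a b) = fun a => h * secMat p f a b := by
    funext a
    rw [Matrix.smul_apply, smul_eq_mul]
  rw [h1, dec_smul, dec_secMat_col, mul_assoc]

/-- The `p`-section matrix as a ring homomorphism. -/
def secMatHom (p : ℕ) [NeZero p] : LaurentSeries R →+* Matrix (Fin p) (Fin p) (LaurentSeries R) where
  toFun := secMat p
  map_one' := secMat_one p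
  map_mul' := secMat_mul p
  map_zero' := secMat_zero p
  map_add' := secMat_add p

@[simp] theorem secMatHom_apply (p : ℕ) [NeZero p] (f : LaurentSeries R) :
    secMatHom p f = secMat p f := rfl

theorem secMat_pow (p : ℕ) [NeZero p] (f : LaurentSeries R) (n : ℕ) :
    secMat p (f ^ n) = secMat p f ^ n :=
  map_pow (secMatHom p) f n

/-- Base change of coefficients. -/
theorem secMat_coeffMap {S : Type*} [CommRing S] (φ : R →+* S) (p : ℕ) [NeZero p]
    (f : LaurentSeries R) :
    secMat p (coeffMap φ f) = (secMat p f).map (coeffMap φ) := by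
  ext a b n
  simp [secMat_apply_coeff]

/-- The trace of `secMat p f` is `p • U_p f`, `U_p f = sect p 0 f`. -/
theorem trace_secMat (p : ℕ) [NeZero p] (f : LaurentSeries R) :
    (secMat p f).trace = p • sect p 0 f := by
  rw [Matrix.trace]
  have h : ∀ a : Fin p, (secMat p f).diag a = sect p 0 f := by
    intro a
    show sect p ((a : ℤ) - (a : ℤ)) f = sect p 0 f
    rw [sub_self]
  simp only [h, Finset.sum_const, Finset.card_univ, Fintype.card_fin]

/-! ### Twists and the Vandermonde diagonalisation -/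

theorem twist_single (ζ : Rˣ) (a : ℤ) (r : R) :
    twist ζ (HahnSeries.single a r) = HahnSeries.single a (((ζ ^ a : Rˣ) : R) * r) := by
  ext n
  rw [twist_coeff, HahnSeries.coeff_single, HahnSeries.coeff_single]
  split_ifs with h
  · subst h; rfl
  · rw [mul_zero]

/-- `f(ζ s)` is `f(s)` when `f` is a series in `s^p` and `ζ^p = 1`. -/
theorem twist_qExpand_of_pow_eq_one (p : ℕ) [NeZero p] (ζ : Rˣ) (hζ : ζ ^ p = 1)
    (g : LaurentSeries R) : twist ζ (qExpand R p g) = qExpand R p g := by
  ext n
  rw [twist_coeff]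
  by_cases hn : (p : ℤ) ∣ n
  · obtain ⟨m, rfl⟩ := hn
    rw [_root_.zpow_mul, zpow_natCast, hζ, _root_.one_zpow, Units.val_one, one_mul]
  · rw [qExpand_coeff_of_not_dvd p g hn, mul_zero]

theorem twist_mul_twist (ζ ξ : Rˣ) (f : LaurentSeries R) :
    twist ζ (twist ξ f) = twist (ζ * ξ) f := by
  ext n
  rw [twist_coeff, twist_coeff, twist_coeff, mul_zpow, Units.val_mul, mul_assoc]

theorem twist_one (f : LaurentSeries R) : twist (1 : Rˣ) f = f := by
  ext n
  rw [twist_coeff, _root_.one_zpow, Units.val_one, one_mul]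

/-- `twist ξ (g(s^p)) = (twist (ξ^p) g)(s^p)`. -/
theorem twist_qExpand (p : ℕ) [NeZero p] (ξ : Rˣ) (g : LaurentSeries R) :
    twist ξ (qExpand R p g) = qExpand R p (twist (ξ ^ p) g) := by
  ext n
  rw [twist_coeff]
  by_cases hn : (p : ℤ) ∣ n
  · obtain ⟨m, rfl⟩ := hn
    rw [qExpand_coeff_mul, qExpand_coeff_mul, twist_coeff, _root_.zpow_mul, zpow_natCast]
  · rw [qExpand_coeff_of_not_dvd p g hn, qExpand_coeff_of_not_dvd p _ hn, mul_zero]

theorem twist_coeffMap {S : Type*} [CommRing S] (φ : R →+* S) (ζ : Rˣ) (f : LaurentSeries R) :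
    coeffMap φ (twist ζ f) = twist (Units.map (φ : R →* S) ζ) (coeffMap φ f) := by
  ext n
  rw [coeffMap_coeff, twist_coeff, twist_coeff, coeffMap_coeff, map_mul, ← map_zpow]
  rfl

/-- The Vandermonde matrix `(ω^c s)^a`, `c, a < p`. -/
def vand (p : ℕ) (ω : Rˣ) : Matrix (Fin p) (Fin p) (LaurentSeries R) :=
  fun c a => HahnSeries.single ((a : ℕ) : ℤ) ((((ω ^ (c : ℕ)) ^ (a : ℕ) : Rˣ) : R))

theorem vand_eq_vandermonde (p : ℕ) (ω : Rˣ) :
    vand p ω = Matrix.vandermonde
      (fun c : Fin p => HahnSeries.single (1 : ℤ) (((ω ^ (c : ℕ) : Rˣ) : R))) := by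
  ext1 c a
  rw [Matrix.vandermonde_apply, HahnSeries.single_pow, vand]
  simp

/-- Key identity: applying `s ↦ ω^c s` to the decomposition of `f * s^b`. -/
theorem diagonal_mul_vand (p : ℕ) [NeZero p] (ω : Rˣ) (hω : ω ^ p = 1) (f : LaurentSeries R) :
    Matrix.diagonal (fun c : Fin p => twist (ω ^ (c : ℕ)) f) * vand p ω =
      vand p ω * (secMat p f).map (qExpand R p) := by
  ext1 c b
  rw [Matrix.diagonal_mul, Matrix.mul_apply]
  have hζ : (ω ^ (c : ℕ)) ^ p = 1 := by rw [← pow_mul, mul_comm, pow_mul, hω, one_pow]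
  have h := congrArg (twist (ω ^ (c : ℕ))) (mul_single_eq_sum p f b)
  rw [map_mul, map_sum, twist_single, mul_one] at h
  have hv : ∀ a : Fin p, vand p ω c a =
      HahnSeries.single ((a : ℕ) : ℤ) ((((ω ^ (c : ℕ)) ^ ((a : ℕ) : ℤ) : Rˣ) : R)) := by
    intro a
    rw [vand, zpow_natCast]
  rw [hv b, h]
  refine Finset.sum_congr rfl fun a _ => ?_
  rw [map_mul, twist_single, mul_one, twist_qExpand_of_pow_eq_one p _ hζ, hv a, Matrix.map_apply]

section Field

variable {K : Type*} [Field K]

theorem det_vand_ne_zero (p : ℕ) (ω : Kˣ) (hω : IsPrimitiveRoot ω p) :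
    (vand p ω).det ≠ 0 := by
  rw [vand_eq_vandermonde, Matrix.det_vandermonde_ne_zero_iff]
  intro c c' h
  have h1 := congrArg (fun x : LaurentSeries K => x.coeff 1) h
  simp only [HahnSeries.coeff_single_same] at h1
  have h2 : ω ^ (c : ℕ) = ω ^ (c' : ℕ) := Units.ext h1
  exact Fin.ext (hω.pow_inj c.isLt c'.isLt h2)

theorem isUnit_det_vand (p : ℕ) (ω : Kˣ) (hω : IsPrimitiveRoot ω p) :
    IsUnit (vand p ω).det :=
  isUnit_iff_ne_zero.mpr (det_vand_ne_zero p ω hω)

theorem isUnit_vand (p : ℕ) (ω : Kˣ) (hω : IsPrimitiveRoot ω p) :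
    IsUnit (vand p ω) :=
  (Matrix.isUnit_iff_isUnit_det _).mpr (isUnit_det_vand p ω hω)

/-- **Simultaneous diagonalisation** of all `secMat p f` after the base change `q ↦ s^p`. -/
theorem secMat_map_eq_conj (p : ℕ) [NeZero p] (ω : Kˣ) (hω : IsPrimitiveRoot ω p)
    (f : LaurentSeries K) :
    (secMat p f).map (qExpand K p) =
      (vand p ω)⁻¹ * Matrix.diagonal (fun c : Fin p => twist (ω ^ (c : ℕ)) f) * vand p ω := by
  rw [mul_assoc, diagonal_mul_vand p ω hω.pow_eq_one f, ← mul_assoc,
    Matrix.nonsing_inv_mul _ (isUnit_det_vand p ω hω), one_mul]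

/-- **Root formula**: the characteristic polynomial of `secMat p f`, after `q ↦ s^p`, is
`∏_{c<p} (X - f(ω^c s))`. -/
theorem charpoly_secMat_map (p : ℕ) [NeZero p] (ω : Kˣ) (hω : IsPrimitiveRoot ω p)
    (f : LaurentSeries K) :
    ((secMat p f).charpoly).map (qExpand K p) =
      ∏ c : Fin p, (X - C (twist (ω ^ (c : ℕ)) f)) := by
  rw [← Matrix.charpoly_map, secMat_map_eq_conj p ω hω f, ← Matrix.charpoly_diagonal]
  exact Matrix.charpoly_units_conj' (Matrix.nonsingInvUnit _ (isUnit_det_vand p ω hω)) _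

/-- Products of section matrices are simultaneously diagonalised. -/
theorem secMat_prod_map_eq_conj (p : ℕ) [NeZero p] (ω : Kˣ) (hω : IsPrimitiveRoot ω p)
    (l : List (LaurentSeries K)) :
    ((l.map (secMat p)).prod).map (qExpand K p) =
      (vand p ω)⁻¹ *
        Matrix.diagonal (fun c : Fin p => (l.map (fun f => twist (ω ^ (c : ℕ)) f)).prod) *
        vand p ω := by
  induction l with
  | nil =>
    simp only [List.map_nil, List.prod_nil]
    rw [Matrix.map_one _ (map_zero _) (map_one _), Matrix.diagonal_one, mul_one,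
      Matrix.nonsing_inv_mul _ (isUnit_det_vand p ω hω)]
  | cons f l ih =>
    simp only [List.map_cons, List.prod_cons]
    rw [Matrix.map_mul, ih, secMat_map_eq_conj p ω hω f]
    have hd : Matrix.diagonal (fun c : Fin p =>
        twist (ω ^ (c : ℕ)) f * (l.map (fun f => twist (ω ^ (c : ℕ)) f)).prod) =
        Matrix.diagonal (fun c : Fin p => twist (ω ^ (c : ℕ)) f) *
          Matrix.diagonal (fun c : Fin p => (l.map (fun f => twist (ω ^ (c : ℕ)) f)).prod) := by
      rw [Matrix.diagonal_mul_diagonal]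
    rw [hd]
    simp only [mul_assoc]
    rw [← mul_assoc (vand p ω), Matrix.mul_nonsing_inv _ (isUnit_det_vand p ω hω), one_mul]

/-- Traces of products of section matrices are sums over the roots. -/
theorem trace_secMat_prod_map (p : ℕ) [NeZero p] (ω : Kˣ) (hω : IsPrimitiveRoot ω p)
    (l : List (LaurentSeries K)) :
    qExpand K p ((l.map (secMat p)).prod.trace) =
      ∑ c : Fin p, (l.map (fun f => twist (ω ^ (c : ℕ)) f)).prod := by
  have h1 : qExpand K p ((l.map (secMat p)).prod.trace) =
      (((l.map (secMat p)).prod).map (qExpand K p)).trace := by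
    rw [Matrix.trace, Matrix.trace, map_sum]
    rfl
  rw [h1, secMat_prod_map_eq_conj p ω hω l, Matrix.trace_conj' (isUnit_vand p ω hω),
    Matrix.trace_diagonal]

/-- Orthogonality: `∑_c f(ω^c s) = p • (U_p f)(s^p)`. -/
theorem sum_twist_eq (p : ℕ) [NeZero p] (ω : Kˣ) (hω : IsPrimitiveRoot ω p)
    (f : LaurentSeries K) :
    ∑ c : Fin p, twist (ω ^ (c : ℕ)) f = p • qExpand K p (sect p 0 f) := by
  have h := trace_secMat_prod_map p ω hω [f]
  simp only [List.map_cons, List.map_nil, List.prod_cons, List.prod_nil, mul_one] at h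
  rw [← h, trace_secMat, map_nsmul]

end Field

end

end Fermat.Agent.S28.helper2082
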