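/-
S28 (Igusa), route P, sub-leaf of P4: the HECKE LINK over `ℤ`, in Laurent form.
Author: helper2627.

For a prime `p`, `m ≤ M`, `1 ≤ M`, with `jhat = jqModC ℤ`, `Dhat = deltaHat ℤ`:
there is `P ∈ ℤ[X]` of degree `≤ M` with
  `U_p (jhat^m * Dhat^M) + p^(12 M - 1) * V_p (jhat^m * Dhat^M) = P(jhat) * Dhat^M`
in `LaurentSeries ℤ` (stated coefficientwise in `hecke_link`, and with `laurentU` in
`hecke_link_eq`).
-/
import Mathlib
import Fermat.Agent.S28.helper2627_HeckeInput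

set_option autoImplicit false

namespace Fermat.Agent.S28.helper2627

open ModularCurve
open Fermat.Agent.S28.helper328 (E4C DeltaC heckeTps Stmt_Hecke deltaHat deltaHatInv evalJ)

noncomputable section

/-! ### The Hecke operator on integer power series -/

/-- The formal weight `k` Hecke operator `T_p` on integer power series. -/
def heckeZ (k p : ℕ) (f : PowerSeries ℤ) : PowerSeries ℤ :=
  PowerSeries.mk fun n =>
    PowerSeries.coeff (n * p) f + if p ∣ n then (p : ℤ) ^ (k - 1) * PowerSeries.coeff (n / p) f else 0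

theorem coeff_heckeZ (k p : ℕ) (f : PowerSeries ℤ) (n : ℕ) :
    PowerSeries.coeff n (heckeZ k p f) =
      PowerSeries.coeff (n * p) f +
        if p ∣ n then (p : ℤ) ^ (k - 1) * PowerSeries.coeff (n / p) f else 0 := by
  simp [heckeZ]

theorem map_heckeZ (k p : ℕ) (f : PowerSeries ℤ) :
    (heckeZ k p f).map (Int.castRingHom ℂ) = heckeTps k p (f.map (Int.castRingHom ℂ)) := by
  ext n
  simp only [heckeZ, heckeTps, PowerSeries.coeff_map, PowerSeries.coeff_mk]
  split_ifs <;> simp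

/-- `E4` as an integer power series (Prelude `eisenstein4`). -/
def E4Z : PowerSeries ℤ := eisenstein4

/-- `Delta = q * prod (1 - q^n)^24` as an integer power series. -/
def DeltaZ : PowerSeries ℤ := PowerSeries.X * dedekindEtaUnit

theorem map_E4Z : E4Z.map (Int.castRingHom ℂ) = E4C := rfl

theorem map_DeltaZ : DeltaZ.map (Int.castRingHom ℂ) = DeltaC := rfl

theorem constantCoeff_E4Z : PowerSeries.constantCoeff E4Z = 1 := constantCoeff_eisenstein4

/-- The basis series `E4^(3(M-b)) * Delta^b`. -/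
def basisZ (M b : ℕ) : PowerSeries ℤ := E4Z ^ (3 * (M - b)) * DeltaZ ^ b

theorem basisZ_eq (M b : ℕ) :
    basisZ M b = PowerSeries.X ^ b * (E4Z ^ (3 * (M - b)) * dedekindEtaUnit ^ b) := by
  rw [basisZ, DeltaZ, mul_pow]
  ring

theorem coeff_basisZ_of_lt (M : ℕ) {b n : ℕ} (h : n < b) : PowerSeries.coeff n (basisZ M b) = 0 := by
  rw [basisZ_eq, PowerSeries.coeff_X_pow_mul', if_neg (by omega)]

theorem coeff_basisZ_self (M b : ℕ) : PowerSeries.coeff b (basisZ M b) = 1 := by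
  rw [basisZ_eq, PowerSeries.coeff_X_pow_mul', if_pos le_rfl, Nat.sub_self,
    PowerSeries.coeff_zero_eq_constantCoeff, map_mul, map_pow, map_pow, constantCoeff_E4Z,
    constantCoeff_dedekindEtaUnit, one_pow, one_pow, one_mul]

theorem map_basisZ (M b : ℕ) :
    (basisZ M b).map (Int.castRingHom ℂ) = E4C ^ (3 * (M - b)) * DeltaC ^ b := by
  rw [basisZ, map_mul, map_pow, map_pow, map_E4Z, map_DeltaZ]

/-! ### Integrality by triangularity -/

/-- If an integer power series is a complex combination of a unitriangular family of integer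
power series, then the coefficients are integers. -/
theorem int_of_triangular (M : ℕ) (B : ℕ → PowerSeries ℤ)
    (hlt : ∀ b n, n < b → PowerSeries.coeff n (B b) = 0)
    (hself : ∀ b, PowerSeries.coeff b (B b) = 1)
    (G : PowerSeries ℤ) (c : ℕ → ℂ)
    (h : G.map (Int.castRingHom ℂ) =
      ∑ b ∈ Finset.range (M + 1), c b • (B b).map (Int.castRingHom ℂ)) :
    ∃ c' : ℕ → ℤ, G = ∑ b ∈ Finset.range (M + 1), PowerSeries.C (c' b) * B b := by
  have hmem : ∀ b, b ≤ M → c b ∈ (Int.castRingHom ℂ).range := by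
    intro b
    induction b using Nat.strong_induction_on with
    | _ b ih =>
      intro hb
      have h1 := congrArg (PowerSeries.coeff b) h
      rw [PowerSeries.coeff_map, map_sum] at h1
      have h2 : ∑ x ∈ Finset.range (M + 1),
          PowerSeries.coeff b (c x • (B x).map (Int.castRingHom ℂ)) =
          ∑ x ∈ Finset.range (b + 1),
            PowerSeries.coeff b (c x • (B x).map (Int.castRingHom ℂ)) := by
        symm
        refine Finset.sum_subset ?_ ?_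
        · intro x hx
          simp only [Finset.mem_range] at hx ⊢
          omega
        · intro x _ hx
          simp only [Finset.mem_range, not_lt] at hx
          rw [PowerSeries.coeff_smul, PowerSeries.coeff_map, hlt x b (by omega)]
          simp
      rw [h2, Finset.sum_range_succ, PowerSeries.coeff_smul, PowerSeries.coeff_map, hself] at h1
      have h3 : c b = (Int.castRingHom ℂ) (PowerSeries.coeff b G) -
          ∑ x ∈ Finset.range b, PowerSeries.coeff b (c x • (B x).map (Int.castRingHom ℂ)) := by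
        rw [h1]
        simp
      rw [h3]
      refine Subring.sub_mem _ ⟨_, rfl⟩ (Subring.sum_mem _ fun x hx => ?_)
      rw [PowerSeries.coeff_smul, PowerSeries.coeff_map, smul_eq_mul]
      exact Subring.mul_mem _ (ih x (Finset.mem_range.mp hx)
        ((Finset.mem_range.mp hx).le.trans hb)) ⟨_, rfl⟩
  have hex : ∀ b, ∃ z : ℤ, b ≤ M → c b = (z : ℂ) := by
    intro b
    by_cases hb : b ≤ M
    · obtain ⟨z, hz⟩ := hmem b hb
      exact ⟨z, fun _ => by rw [← hz]; rfl⟩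
    · exact ⟨0, fun h => absurd h hb⟩
  choose c' hc' using hex
  refine ⟨c', ?_⟩
  ext n
  have h1 := congrArg (PowerSeries.coeff n) h
  rw [PowerSeries.coeff_map, map_sum] at h1
  rw [map_sum]
  have hinj : Function.Injective (Int.castRingHom ℂ) := Int.cast_injective
  apply hinj
  rw [h1, map_sum]
  refine Finset.sum_congr rfl fun b hb => ?_
  have hb' : b ≤ M := by
    have := Finset.mem_range.mp hb
    omega
  rw [PowerSeries.coeff_smul, PowerSeries.coeff_map, PowerSeries.coeff_C_mul, map_mul,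
    hc' b hb', smul_eq_mul]
  rfl

/-- **Hecke input over `ℤ`.** -/
theorem heckeZ_basis (p : ℕ) [hp : Fact p.Prime] (m M : ℕ) (hm : m ≤ M) (hM : 1 ≤ M) :
    ∃ c : ℕ → ℤ, heckeZ (12 * M) p (E4Z ^ (3 * m) * DeltaZ ^ (M - m)) =
      ∑ b ∈ Finset.range (M + 1), PowerSeries.C (c b) * basisZ M b := by
  obtain ⟨c, hc⟩ := stmt_Hecke p m M hm hM
  refine int_of_triangular M (basisZ M) (fun b n h => coeff_basisZ_of_lt M h)
    (coeff_basisZ_self M) _ c ?_
  rw [map_heckeZ, map_mul, map_pow, map_pow, map_E4Z, map_DeltaZ, hc]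
  exact Finset.sum_congr rfl fun b _ => by rw [map_basisZ]

/-! ### Translation to Laurent series -/

theorem map_int_id (f : PowerSeries ℤ) : f.map (Int.castRingHom ℤ) = f := by
  ext n
  simp

theorem ofPowerSeries_DeltaZ : HahnSeries.ofPowerSeries ℤ ℤ DeltaZ = deltaHat ℤ := by
  rw [DeltaZ, map_mul, HahnSeries.ofPowerSeries_X, deltaHat, map_int_id]

theorem jqModC_mul_deltaHat :
    jqModC ℤ * deltaHat ℤ = HahnSeries.ofPowerSeries ℤ ℤ (E4Z ^ 3) := by
  have h1 : jNum * dedekindEtaUnit = E4Z ^ 3 := by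
    rw [jNum, mul_assoc, mul_comm dedekindEtaUnitInv, dedekindEtaUnit_mul_inv, mul_one]
    rfl
  rw [jqModC, deltaHat, map_int_id, map_int_id, ← h1, map_mul]
  have h2 : (HahnSeries.single (-1 : ℤ) (1 : ℤ)) * HahnSeries.single (1 : ℤ) (1 : ℤ) = 1 := by
    rw [HahnSeries.single_mul_single]
    simp
  calc HahnSeries.single (-1 : ℤ) (1 : ℤ) * HahnSeries.ofPowerSeries ℤ ℤ jNum *
        (HahnSeries.single (1 : ℤ) (1 : ℤ) * HahnSeries.ofPowerSeries ℤ ℤ dedekindEtaUnit)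
      = (HahnSeries.single (-1 : ℤ) (1 : ℤ) * HahnSeries.single (1 : ℤ) (1 : ℤ)) *
        (HahnSeries.ofPowerSeries ℤ ℤ jNum * HahnSeries.ofPowerSeries ℤ ℤ dedekindEtaUnit) := by
        ring
    _ = _ := by rw [h2, one_mul]

/-- `jhat^m * Dhat^M` is the integer power series `E4^(3m) * Delta^(M-m)` (for `m ≤ M`). -/
theorem jqModC_pow_mul_deltaHat_pow {m M : ℕ} (hm : m ≤ M) :
    jqModC ℤ ^ m * deltaHat ℤ ^ M =
      HahnSeries.ofPowerSeries ℤ ℤ (E4Z ^ (3 * m) * DeltaZ ^ (M - m)) := by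
  obtain ⟨d, rfl⟩ := Nat.exists_eq_add_of_le hm
  rw [Nat.add_sub_cancel_left, pow_add, ← mul_assoc, ← mul_pow, jqModC_mul_deltaHat, map_mul,
    map_pow, map_pow, map_pow, ofPowerSeries_DeltaZ, ← pow_mul]

theorem deltaHat_mul_deltaHatInv : deltaHat ℤ * deltaHatInv ℤ = 1 := by
  rw [deltaHat, deltaHatInv, map_int_id, map_int_id]
  have h2 : (HahnSeries.single (1 : ℤ) (1 : ℤ)) * HahnSeries.single (-1 : ℤ) (1 : ℤ) = 1 := by
    rw [HahnSeries.single_mul_single]
    simp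
  calc HahnSeries.single (1 : ℤ) (1 : ℤ) * HahnSeries.ofPowerSeries ℤ ℤ dedekindEtaUnit *
        (HahnSeries.single (-1 : ℤ) (1 : ℤ) * HahnSeries.ofPowerSeries ℤ ℤ dedekindEtaUnitInv)
      = (HahnSeries.single (1 : ℤ) (1 : ℤ) * HahnSeries.single (-1 : ℤ) (1 : ℤ)) *
        HahnSeries.ofPowerSeries ℤ ℤ (dedekindEtaUnit * dedekindEtaUnitInv) := by
        rw [map_mul]
        ring
    _ = 1 := by rw [h2, one_mul, dedekindEtaUnit_mul_inv, map_one]

/-- The polynomial `∑ c_b X^(M-b)`. -/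
def basisPoly (M : ℕ) (c : ℕ → ℤ) : Polynomial ℤ :=
  ∑ b ∈ Finset.range (M + 1), Polynomial.C (c b) * Polynomial.X ^ (M - b)

theorem natDegree_basisPoly_le (M : ℕ) (c : ℕ → ℤ) : (basisPoly M c).natDegree ≤ M := by
  refine Polynomial.natDegree_sum_le_of_forall_le _ _ fun b _ => ?_
  exact (Polynomial.natDegree_C_mul_X_pow_le _ _).trans (Nat.sub_le _ _)

theorem evalJ_basisPoly_mul (M : ℕ) (c : ℕ → ℤ) :
    evalJ (jqModC ℤ) (basisPoly M c) * deltaHat ℤ ^ M =
      HahnSeries.ofPowerSeries ℤ ℤ (∑ b ∈ Finset.range (M + 1), PowerSeries.C (c b) * basisZ M b) := by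
  rw [basisPoly, map_sum, map_sum, Finset.sum_mul]
  refine Finset.sum_congr rfl fun b hb => ?_
  have hb' : b ≤ M := by
    have := Finset.mem_range.mp hb
    omega
  have h0 : (Int.castRingHom (LaurentSeries ℤ)) (c b) =
      HahnSeries.ofPowerSeries ℤ ℤ (PowerSeries.C (c b)) := by
    rw [eq_intCast (PowerSeries.C : ℤ →+* PowerSeries ℤ), map_intCast, eq_intCast]
  have h1 : evalJ (jqModC ℤ) (Polynomial.C (c b) * Polynomial.X ^ (M - b)) =
      HahnSeries.ofPowerSeries ℤ ℤ (PowerSeries.C (c b)) * jqModC ℤ ^ (M - b) := by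
    show Polynomial.eval₂ (Int.castRingHom (LaurentSeries ℤ)) (jqModC ℤ)
      (Polynomial.C (c b) * Polynomial.X ^ (M - b)) = _
    rw [Polynomial.eval₂_mul, Polynomial.eval₂_C, Polynomial.eval₂_pow, Polynomial.eval₂_X, h0]
  rw [h1, mul_assoc, jqModC_pow_mul_deltaHat_pow (Nat.sub_le M b), Nat.sub_sub_self hb',
    ← map_mul, basisZ]

/-! ### The Hecke link -/

theorem coeff_ofPowerSeries_natCast (F : PowerSeries ℤ) (n : ℕ) :
    (HahnSeries.ofPowerSeries ℤ ℤ F).coeff (n : ℤ) = PowerSeries.coeff n F :=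
  HahnSeries.ofPowerSeries_apply_coeff F n

theorem coeff_ofPowerSeries_neg (F : PowerSeries ℤ) {n : ℤ} (hn : n < 0) :
    (HahnSeries.ofPowerSeries ℤ ℤ F).coeff n = 0 :=
  ofPowerSeries_coeff_of_neg F hn

/-- `U_p + p^(k-1) V_p` on `ofPowerSeries F`, coefficientwise, is `ofPowerSeries (heckeZ k p F)`. -/
theorem coeff_ofPowerSeries_heckeZ (k p : ℕ) [NeZero p] (F : PowerSeries ℤ) (n : ℤ) :
    (HahnSeries.ofPowerSeries ℤ ℤ F).coeff ((p : ℤ) * n) +
        (p : ℤ) ^ (k - 1) * (qExpand ℤ p (HahnSeries.ofPowerSeries ℤ ℤ F)).coeff n =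
      (HahnSeries.ofPowerSeries ℤ ℤ (heckeZ k p F)).coeff n := by
  have hp0 : 0 < (p : ℤ) := by exact_mod_cast Nat.pos_of_ne_zero (NeZero.ne p)
  rcases lt_or_ge n 0 with hn | hn
  · rw [coeff_ofPowerSeries_neg _ hn, coeff_ofPowerSeries_neg _ (mul_neg_of_pos_of_neg hp0 hn)]
    by_cases hd : (p : ℤ) ∣ n
    · obtain ⟨j, rfl⟩ := hd
      have hj : j < 0 := by
        by_contra hj
        exact absurd (mul_nonneg hp0.le (not_lt.mp hj)) (not_le.mpr hn)
      rw [qExpand_coeff_mul, coeff_ofPowerSeries_neg _ hj]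
      simp
    · rw [qExpand_coeff_of_not_dvd p _ hd]
      simp
  · lift n to ℕ using hn
    rw [coeff_ofPowerSeries_natCast, coeff_heckeZ, ← Nat.cast_mul, coeff_ofPowerSeries_natCast,
      mul_comm p n]
    congr 1
    by_cases hd : p ∣ n
    · rw [if_pos hd]
      obtain ⟨j, rfl⟩ := hd
      rw [Nat.cast_mul, qExpand_coeff_mul, coeff_ofPowerSeries_natCast,
        Nat.mul_div_cancel_left j (Nat.pos_of_ne_zero (NeZero.ne p))]
    · rw [if_neg hd, qExpand_coeff_of_not_dvd p _ (by rwa [Int.natCast_dvd_natCast]), mul_zero]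

/-- **Hecke link over `ℤ`, coefficientwise.**  For `f = jhat^m * Dhat^M` (`m ≤ M`, `1 ≤ M`):
`U_p f + p^(12M-1) V_p f = P(jhat) * Dhat^M` for some `P ∈ ℤ[X]` of degree `≤ M`. -/
theorem hecke_link (p : ℕ) [hp : Fact p.Prime] (m M : ℕ) (hm : m ≤ M) (hM : 1 ≤ M) :
    haveI : NeZero p := ⟨hp.out.ne_zero⟩
    ∃ P : Polynomial ℤ, P.natDegree ≤ M ∧ ∀ n : ℤ,
      (jqModC ℤ ^ m * deltaHat ℤ ^ M).coeff ((p : ℤ) * n) +
          (p : ℤ) ^ (12 * M - 1) * (qExpand ℤ p (jqModC ℤ ^ m * deltaHat ℤ ^ M)).coeff n =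
        (evalJ (jqModC ℤ) P * deltaHat ℤ ^ M).coeff n := by
  have : NeZero p := ⟨hp.out.ne_zero⟩
  obtain ⟨c, hc⟩ := heckeZ_basis p m M hm hM
  refine ⟨basisPoly M c, natDegree_basisPoly_le M c, fun n => ?_⟩
  rw [evalJ_basisPoly_mul, ← hc, jqModC_pow_mul_deltaHat_pow hm]
  exact coeff_ofPowerSeries_heckeZ (12 * M) p _ n

/-! ### Packaged forms -/

/-- `U_p` on integer Laurent series: `(U_p f).coeff n = f.coeff (p * n)`. -/
def laurentU (p : ℕ) [NeZero p] (f : LaurentSeries ℤ) : LaurentSeries ℤ :=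
  HahnSeries.ofSuppBddBelow (fun n : ℤ => f.coeff ((p : ℤ) * n)) (by
    have hp0 : 0 < (p : ℤ) := by exact_mod_cast Nat.pos_of_ne_zero (NeZero.ne p)
    refine ⟨min f.order 0, fun n hn => ?_⟩
    by_contra hlt
    rw [not_le] at hlt
    apply hn
    have hn0 : n < 0 := lt_of_lt_of_le hlt (min_le_right _ _)
    have hno : n < f.order := lt_of_lt_of_le hlt (min_le_left _ _)
    have h1 : (p : ℤ) * n ≤ n := by nlinarith
    exact HahnSeries.coeff_eq_zero_of_lt_order (lt_of_le_of_lt h1 hno))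

@[simp] theorem coeff_laurentU (p : ℕ) [NeZero p] (f : LaurentSeries ℤ) (n : ℤ) :
    (laurentU p f).coeff n = f.coeff ((p : ℤ) * n) := rfl

/-- **Hecke link over `ℤ`, as an identity in `LaurentSeries ℤ`.** -/
theorem hecke_link_eq (p : ℕ) [hp : Fact p.Prime] (m M : ℕ) (hm : m ≤ M) (hM : 1 ≤ M) :
    haveI : NeZero p := ⟨hp.out.ne_zero⟩
    ∃ P : Polynomial ℤ, P.natDegree ≤ M ∧
      laurentU p (jqModC ℤ ^ m * deltaHat ℤ ^ M) +
          ((p : ℤ) ^ (12 * M - 1)) • qExpand ℤ p (jqModC ℤ ^ m * deltaHat ℤ ^ M) =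
        evalJ (jqModC ℤ) P * deltaHat ℤ ^ M := by
  obtain ⟨P, hP, h⟩ := hecke_link p m M hm hM
  refine ⟨P, hP, ?_⟩
  ext n
  rw [HahnSeries.coeff_add, coeff_laurentU, HahnSeries.coeff_smul, smul_eq_mul]
  exact h n

/-- **Hecke link over `ℤ`, divided by `Dhat^M` and with `gHat`.**
`p * U_p (jhat^m Dhat^M) / Dhat^M + gHat^M * (V_p jhat)^m = p * P(jhat)`. -/
theorem hecke_link_gHat (p : ℕ) [hp : Fact p.Prime] (m M : ℕ) (hm : m ≤ M) (hM : 1 ≤ M) :
    haveI : NeZero p := ⟨hp.out.ne_zero⟩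
    ∃ P : Polynomial ℤ, P.natDegree ≤ M ∧
      (p : LaurentSeries ℤ) * laurentU p (jqModC ℤ ^ m * deltaHat ℤ ^ M) * deltaHatInv ℤ ^ M +
          Fermat.Agent.S28.helper328.gHat p ^ M * qExpand ℤ p (jqModC ℤ) ^ m =
        (p : LaurentSeries ℤ) * evalJ (jqModC ℤ) P := by
  have : NeZero p := ⟨hp.out.ne_zero⟩
  obtain ⟨P, hP, h⟩ := hecke_link_eq p m M hm hM
  refine ⟨P, hP, ?_⟩
  have hinv : deltaHat ℤ ^ M * deltaHatInv ℤ ^ M = 1 := by
    rw [← mul_pow, deltaHat_mul_deltaHatInv, one_pow]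
  have hU : laurentU p (jqModC ℤ ^ m * deltaHat ℤ ^ M) =
      evalJ (jqModC ℤ) P * deltaHat ℤ ^ M -
        ((p : ℤ) ^ (12 * M - 1)) • qExpand ℤ p (jqModC ℤ ^ m * deltaHat ℤ ^ M) :=
    eq_sub_of_add_eq h
  have hsmul : ((p : ℤ) ^ (12 * M - 1)) • qExpand ℤ p (jqModC ℤ ^ m * deltaHat ℤ ^ M) =
      (p : LaurentSeries ℤ) ^ (12 * M - 1) * qExpand ℤ p (jqModC ℤ ^ m * deltaHat ℤ ^ M) := by
    rw [zsmul_eq_mul]
    push_cast
    rfl
  have hpow : (p : LaurentSeries ℤ) * (p : LaurentSeries ℤ) ^ (12 * M - 1) =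
      ((p : LaurentSeries ℤ) ^ 12) ^ M := by
    rw [← pow_succ', ← pow_mul]
    congr 1
    omega
  rw [hU, hsmul, Fermat.Agent.S28.helper328.gHat, map_mul, map_pow, map_pow]
  calc (p : LaurentSeries ℤ) * (evalJ (jqModC ℤ) P * deltaHat ℤ ^ M -
          (p : LaurentSeries ℤ) ^ (12 * M - 1) *
            (qExpand ℤ p (jqModC ℤ) ^ m * qExpand ℤ p (deltaHat ℤ) ^ M)) * deltaHatInv ℤ ^ M +
        ((p : LaurentSeries ℤ) ^ 12 * qExpand ℤ p (deltaHat ℤ) * deltaHatInv ℤ) ^ M *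
          qExpand ℤ p (jqModC ℤ) ^ m
      = (p : LaurentSeries ℤ) * evalJ (jqModC ℤ) P * (deltaHat ℤ ^ M * deltaHatInv ℤ ^ M) +
        (((p : LaurentSeries ℤ) ^ 12) ^ M -
          (p : LaurentSeries ℤ) * (p : LaurentSeries ℤ) ^ (12 * M - 1)) *
          (qExpand ℤ p (jqModC ℤ) ^ m * qExpand ℤ p (deltaHat ℤ) ^ M * deltaHatInv ℤ ^ M) := by
        ring
    _ = (p : LaurentSeries ℤ) * evalJ (jqModC ℤ) P := by
        rw [hinv, hpow, sub_self, zero_mul, add_zero, mul_one]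

end

end Fermat.Agent.S28.helper2627
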