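/-
S28 / P4 sub-lemma (triangularity), by helper508.

`ℤ((q)) ∩ A[ĵ] = ℤ[ĵ]`: if a polynomial `P` over a ring `A ⊇ ℤ` evaluated at the `j`-series
`jqModC A = q⁻¹ + 744 + …` has integer coefficients, then `P` has integer coefficients.
-/
import Mathlib
import Fermat.Prelude.Def_ModularCurve_X0ModL

set_option autoImplicit false

namespace Fermat.Agent.S28.helper508

open Polynomial ModularCurve

noncomputable section

/-- `coeffMap` along an injective ring hom is injective. -/
theorem coeffMap_injective_of_injective {R S : Type*} [CommRing R] [CommRing S] (f : R →+* S)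
    (hf : Function.Injective f) : Function.Injective (coeffMap f) := by
  intro x y h
  ext k
  apply hf
  have := congrArg (fun z => z.coeff k) h
  simpa using this

theorem coeffMap_C {R S : Type*} [CommRing R] [CommRing S] (f : R →+* S) (r : R) :
    coeffMap f (HahnSeries.C r) = HahnSeries.C (f r) := by
  rw [HahnSeries.C_apply, coeffMap_single, HahnSeries.C_apply]

/-- The `A`-algebra structure on `A((q))` found by instance search (`powerSeriesAlgebra`) has
`algebraMap = HahnSeries.C`. -/
theorem algebraMap_laurentSeries_eq_C (A : Type*) [CommRing A] :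
    algebraMap A (LaurentSeries A) = (HahnSeries.C : A →+* LaurentSeries A) := by
  ext a : 1
  rw [HahnSeries.algebraMap_apply']
  exact HahnSeries.ofPowerSeries_C a

/-- The coefficient of `q^(-deg P)` in `P(ĵ)` is the leading coefficient of `P`. -/
theorem coeff_eval₂_C_jqModC_natDegree (A : Type*) [CommRing A] (P : A[X]) :
    (P.eval₂ (HahnSeries.C : A →+* LaurentSeries A) (jqModC A)).coeff (-(P.natDegree : ℤ)) =
      P.leadingCoeff := by
  rw [Polynomial.eval₂_eq_sum_range, HahnSeries.coeff_sum, Finset.sum_eq_single P.natDegree]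
  · rw [HahnSeries.C_mul_eq_smul, HahnSeries.coeff_smul, coeff_jqModC_pow_self, smul_eq_mul,
      mul_one]
    rfl
  · intro i hi hne
    have hlt : i < P.natDegree := lt_of_le_of_ne (Nat.lt_succ_iff.mp (Finset.mem_range.mp hi)) hne
    rw [HahnSeries.C_mul_eq_smul, HahnSeries.coeff_smul,
      coeff_jqModC_pow_of_lt A (by exact_mod_cast neg_lt_neg (Int.ofNat_lt.mpr hlt)), smul_zero]
  · intro h
    exact absurd (Finset.mem_range.mpr (Nat.lt_succ_self _)) h

/-- More generally: all coefficients of `P(ĵ)` below `q^(-deg P)` vanish. -/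
theorem coeff_eval₂_C_jqModC_of_lt (A : Type*) [CommRing A] (P : A[X]) {m : ℤ}
    (hm : m < -(P.natDegree : ℤ)) :
    (P.eval₂ (HahnSeries.C : A →+* LaurentSeries A) (jqModC A)).coeff m = 0 := by
  rw [Polynomial.eval₂_eq_sum_range, HahnSeries.coeff_sum]
  refine Finset.sum_eq_zero fun i hi => ?_
  have hle : i ≤ P.natDegree := Nat.lt_succ_iff.mp (Finset.mem_range.mp hi)
  have : m < -(i : ℤ) := lt_of_lt_of_le hm (neg_le_neg (Int.ofNat_le.mpr hle))
  rw [HahnSeries.C_mul_eq_smul, HahnSeries.coeff_smul, coeff_jqModC_pow_of_lt A this, smul_zero]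

theorem exists_int_poly_aux (A : Type*) [CommRing A]
    (hA : Function.Injective (Int.castRingHom A)) :
    ∀ (n : ℕ) (P : A[X]) (f : LaurentSeries ℤ), P.degree < (n : WithBot ℕ) →
      P.eval₂ (HahnSeries.C : A →+* LaurentSeries A) (jqModC A) =
        coeffMap (Int.castRingHom A) f →
      ∃ P₀ : ℤ[X], P₀.map (Int.castRingHom A) = P ∧
        P₀.eval₂ (Int.castRingHom (LaurentSeries ℤ)) (jqModC ℤ) = f := by
  have hzero : ∀ (f : LaurentSeries ℤ),
      (0 : A[X]).eval₂ (HahnSeries.C : A →+* LaurentSeries A) (jqModC A) =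
        coeffMap (Int.castRingHom A) f →
      ∃ P₀ : ℤ[X], P₀.map (Int.castRingHom A) = 0 ∧
        P₀.eval₂ (Int.castRingHom (LaurentSeries ℤ)) (jqModC ℤ) = f := by
    intro f h
    refine ⟨0, by simp, ?_⟩
    rw [Polynomial.eval₂_zero] at h ⊢
    apply coeffMap_injective_of_injective _ hA
    rw [← h, map_zero]
  intro n
  induction n with
  | zero =>
    intro P f hdeg h
    have hP : P = 0 := by
      rw [← Polynomial.degree_eq_bot]
      exact Nat.WithBot.lt_zero_iff.mp hdeg
    subst hP
    exact hzero f h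
  | succ n ih =>
    intro P f hdeg h
    by_cases hP : P = 0
    · subst hP
      exact hzero f h
    · set d := P.natDegree with hd
      set a : ℤ := f.coeff (-(d : ℤ)) with ha
      have hlead : P.leadingCoeff = (a : A) := by
        have h1 := coeff_eval₂_C_jqModC_natDegree A P
        rw [h, coeffMap_coeff] at h1
        rw [← h1]
        rfl
      have hP' : P.eraseLead.degree < (n : WithBot ℕ) := by
        have h1 := Polynomial.degree_eraseLead_lt hP
        have h2 : P.degree ≤ (n : WithBot ℕ) := by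
          have hnat : P.natDegree < n + 1 := (Polynomial.natDegree_lt_iff_degree_lt hP).mpr hdeg
          exact Polynomial.degree_le_of_natDegree_le (Nat.lt_succ_iff.mp hnat)
        exact lt_of_lt_of_le h1 h2
      have hsplit : P.eraseLead + C P.leadingCoeff * X ^ P.natDegree = P :=
        Polynomial.eraseLead_add_C_mul_X_pow P
      have h' : P.eraseLead.eval₂ (HahnSeries.C : A →+* LaurentSeries A) (jqModC A) =
          coeffMap (Int.castRingHom A) (f - HahnSeries.C a * jqModC ℤ ^ d) := by
        have h2 : P.eval₂ (HahnSeries.C : A →+* LaurentSeries A) (jqModC A) =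
            P.eraseLead.eval₂ (HahnSeries.C : A →+* LaurentSeries A) (jqModC A) +
              HahnSeries.C (a : A) * jqModC A ^ d := by
          conv_lhs => rw [← hsplit]
          rw [Polynomial.eval₂_add, Polynomial.eval₂_mul, Polynomial.eval₂_C, Polynomial.eval₂_pow,
            Polynomial.eval₂_X, hlead]
        rw [map_sub, map_mul, map_pow, coeffMap_jqModC, coeffMap_C, ← h, h2]
        simp
      obtain ⟨Q, hQ1, hQ2⟩ := ih P.eraseLead _ hP' h'
      refine ⟨Q + C a * X ^ d, ?_, ?_⟩
      · rw [Polynomial.map_add, hQ1, Polynomial.map_mul, Polynomial.map_C, Polynomial.map_pow,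
          Polynomial.map_X]
        have : (Int.castRingHom A) a = P.leadingCoeff := by rw [hlead]; rfl
        rw [this]
        exact hsplit
      · rw [Polynomial.eval₂_add, hQ2, Polynomial.eval₂_mul, Polynomial.eval₂_C,
          Polynomial.eval₂_pow, Polynomial.eval₂_X]
        have : (Int.castRingHom (LaurentSeries ℤ)) a = HahnSeries.C a :=
          (eq_intCast (HahnSeries.C : ℤ →+* LaurentSeries ℤ) a).symm
        rw [this]
        ring

/-- **Triangularity (TRI).** Let `A` be a commutative ring in which `ℤ` embeds (e.g. `ℚ`, `ℂ`),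
`P : A[X]` and `f : ℤ((q))`. If `P(ĵ) = f` in `A((q))`, then `P` comes from a (unique) integer
polynomial `P₀`, and `P₀(ĵ) = f` in `ℤ((q))`. -/
theorem exists_int_poly_of_eval₂_jqModC (A : Type*) [CommRing A]
    (hA : Function.Injective (Int.castRingHom A)) (P : A[X]) (f : LaurentSeries ℤ)
    (h : P.eval₂ (HahnSeries.C : A →+* LaurentSeries A) (jqModC A) =
      coeffMap (Int.castRingHom A) f) :
    ∃ P₀ : ℤ[X], P₀.map (Int.castRingHom A) = P ∧
      P₀.eval₂ (Int.castRingHom (LaurentSeries ℤ)) (jqModC ℤ) = f :=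
  exists_int_poly_aux A hA (P.natDegree + 1) P f
    (lt_of_le_of_lt Polynomial.degree_le_natDegree (by exact_mod_cast Nat.lt_succ_self _)) h

/-- **Triangularity (TRI)**, `aeval` form (with the canonical `A`-algebra structure on `A((q))`). -/
theorem exists_int_poly_of_aeval_jqModC (A : Type*) [CommRing A]
    (hA : Function.Injective (Int.castRingHom A)) (P : A[X]) (f : LaurentSeries ℤ)
    (h : Polynomial.aeval (jqModC A) P = coeffMap (Int.castRingHom A) f) :
    ∃ P₀ : ℤ[X], P₀.map (Int.castRingHom A) = P ∧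
      P₀.eval₂ (Int.castRingHom (LaurentSeries ℤ)) (jqModC ℤ) = f := by
  refine exists_int_poly_of_eval₂_jqModC A hA P f ?_
  rw [← h, Polynomial.aeval_def, algebraMap_laurentSeries_eq_C]

/-- Sum form, as it comes out of a Hecke expansion: if `∑_{b ≤ M} c b • ĵ^(M-b)` has integer
coefficients then every `c b` is an integer. -/
theorem exists_int_coeffs_of_sum_smul_jqModC_pow (A : Type*) [CommRing A]
    (hA : Function.Injective (Int.castRingHom A)) (M : ℕ) (c : ℕ → A) (f : LaurentSeries ℤ)
    (h : ∑ b ∈ Finset.range (M + 1), c b • jqModC A ^ (M - b) = coeffMap (Int.castRingHom A) f) :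
    ∃ c₀ : ℕ → ℤ, (∀ b ∈ Finset.range (M + 1), c b = (c₀ b : A)) ∧
      ∑ b ∈ Finset.range (M + 1), (c₀ b : LaurentSeries ℤ) * jqModC ℤ ^ (M - b) = f := by
  classical
  set P : A[X] := ∑ b ∈ Finset.range (M + 1), C (c b) * X ^ (M - b) with hPdef
  have hP : P.eval₂ (HahnSeries.C : A →+* LaurentSeries A) (jqModC A) =
      coeffMap (Int.castRingHom A) f := by
    rw [← h, hPdef, Polynomial.eval₂_finsetSum]
    refine Finset.sum_congr rfl fun b _ => ?_
    rw [Polynomial.eval₂_mul, Polynomial.eval₂_C, Polynomial.eval₂_pow, Polynomial.eval₂_X,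
      HahnSeries.C_mul_eq_smul]
  obtain ⟨P₀, hP₀, hP₀f⟩ := exists_int_poly_of_eval₂_jqModC A hA P f hP
  have hcoeffP : ∀ b ∈ Finset.range (M + 1), P.coeff (M - b) = c b := by
    intro b hb
    rw [hPdef, Polynomial.finsetSum_coeff, Finset.sum_eq_single b]
    · rw [Polynomial.coeff_C_mul, Polynomial.coeff_X_pow, if_pos rfl, mul_one]
    · intro b' hb' hne
      rw [Polynomial.coeff_C_mul, Polynomial.coeff_X_pow, if_neg, mul_zero]
      have h1 := Finset.mem_range.mp hb
      have h2 := Finset.mem_range.mp hb'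
      omega
    · intro hb'; exact absurd hb hb'
  have hdegP : P.natDegree ≤ M := by
    rw [hPdef]
    refine Polynomial.natDegree_sum_le_of_forall_le _ _ fun b _ => ?_
    exact (Polynomial.natDegree_C_mul_X_pow_le _ _).trans (Nat.sub_le _ _)
  have hdegP₀ : P₀.natDegree ≤ M := by
    have : P₀.natDegree = P.natDegree := by
      rw [← hP₀]
      exact (Polynomial.natDegree_map_eq_of_injective hA P₀).symm
    omega
  refine ⟨fun b => P₀.coeff (M - b), ?_, ?_⟩
  · intro b hb
    rw [← hcoeffP b hb, ← hP₀, Polynomial.coeff_map]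
    rfl
  · rw [← hP₀f, Polynomial.eval₂_eq_sum_range' _ (Nat.lt_succ_of_le hdegP₀),
      ← Finset.sum_range_reflect (fun i => (Int.castRingHom (LaurentSeries ℤ)) (P₀.coeff i) *
        jqModC ℤ ^ i) (M + 1)]
    refine Finset.sum_congr rfl fun b hb => ?_
    simp only [Nat.add_sub_cancel]
    rfl

end

end Fermat.Agent.S28.helper508
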