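/-
S28 / P4: leading-term calculus for Laurent series (no `order`, any commutative ring), and the
subalgebra `polyAlg J` of polynomials in a Laurent series `J`, with the descent lemma
`V_p(c f) ∈ ℂ[V_p ĵ] ⟹ f ∈ ℤ[ĵ]`.  By helper508.
-/
import Mathlib
import Fermat.Prelude.Def_ModularCurve_X0ModL
import Fermat.Agent.S28.helper328_PrimeSpec
import Fermat.Agent.S28.helper508_Triangular

set_option autoImplicit false

namespace Fermat.Agent.S28.helper508

open Polynomial ModularCurve
open Fermat.Agent.S28.helper328 (twist twist_coeff deltaHat deltaHatInv gHat evalJ)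

noncomputable section

section LeadAt

variable {A : Type*} [CommRing A]

/-- `f = a q^n + (higher order terms)`. -/
def LeadAt (f : LaurentSeries A) (n : ℤ) (a : A) : Prop :=
  f.coeff n = a ∧ ∀ k < n, f.coeff k = 0

theorem leadAt_single_mul_ofPowerSeries (n : ℤ) (F : PowerSeries A) :
    LeadAt (HahnSeries.single n (1 : A) * HahnSeries.ofPowerSeries ℤ A F) n
      (PowerSeries.constantCoeff F) := by
  constructor
  · have h := HahnSeries.coeff_single_mul_add (r := (1 : A))
      (x := HahnSeries.ofPowerSeries ℤ A F) (a := (0 : ℤ)) (b := n)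
    rw [zero_add, one_mul] at h
    rw [h]
    have := HahnSeries.ofPowerSeries_apply_coeff (Γ := ℤ) F 0
    simpa using this
  · intro k hk
    have h := HahnSeries.coeff_single_mul_add (r := (1 : A))
      (x := HahnSeries.ofPowerSeries ℤ A F) (a := k - n) (b := n)
    rw [sub_add_cancel, one_mul] at h
    rw [h]
    exact ofPowerSeries_coeff_of_neg F (by omega)

theorem LeadAt.exists_eq {f : LaurentSeries A} {n : ℤ} {a : A} (h : LeadAt f n a) :
    ∃ F : PowerSeries A, f = HahnSeries.single n (1 : A) * HahnSeries.ofPowerSeries ℤ A F ∧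
      PowerSeries.constantCoeff F = a := by
  refine ⟨PowerSeries.mk fun i => f.coeff (n + i), ?_, ?_⟩
  · ext k
    have h1 := HahnSeries.coeff_single_mul_add (r := (1 : A))
      (x := HahnSeries.ofPowerSeries ℤ A (PowerSeries.mk fun i => f.coeff (n + i)))
      (a := k - n) (b := n)
    rw [sub_add_cancel, one_mul] at h1
    rw [h1]
    rcases lt_or_ge k n with hk | hk
    · rw [h.2 k hk, ofPowerSeries_coeff_of_neg _ (by omega)]
    · obtain ⟨i, hi⟩ := Int.eq_ofNat_of_zero_le (sub_nonneg.mpr hk)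
      rw [hi, HahnSeries.ofPowerSeries_apply_coeff, PowerSeries.coeff_mk, ← hi]
      congr 1
      ring
  · rw [← PowerSeries.coeff_zero_eq_constantCoeff_apply, PowerSeries.coeff_mk]
    simpa using h.1

theorem LeadAt.mul {f g : LaurentSeries A} {n m : ℤ} {a b : A} (hf : LeadAt f n a)
    (hg : LeadAt g m b) : LeadAt (f * g) (n + m) (a * b) := by
  obtain ⟨F, rfl, rfl⟩ := hf.exists_eq
  obtain ⟨G, rfl, rfl⟩ := hg.exists_eq
  have : HahnSeries.single n (1 : A) * HahnSeries.ofPowerSeries ℤ A F *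
      (HahnSeries.single m (1 : A) * HahnSeries.ofPowerSeries ℤ A G) =
      HahnSeries.single (n + m) (1 : A) * HahnSeries.ofPowerSeries ℤ A (F * G) := by
    rw [map_mul, ← one_mul (1 : A), ← HahnSeries.single_mul_single, one_mul]
    ring
  rw [this, ← map_mul]
  exact leadAt_single_mul_ofPowerSeries _ _

theorem leadAt_one : LeadAt (1 : LaurentSeries A) 0 1 := by
  have h := leadAt_single_mul_ofPowerSeries (A := A) 0 1
  simpa using h

theorem LeadAt.pow {f : LaurentSeries A} {n : ℤ} {a : A} (hf : LeadAt f n a) (k : ℕ) :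
    LeadAt (f ^ k) (k * n) (a ^ k) := by
  induction k with
  | zero => simpa using leadAt_one (A := A)
  | succ k ih =>
    rw [pow_succ, pow_succ]
    have := ih.mul hf
    have h2 : (k : ℤ) * n + n = ((k + 1 : ℕ) : ℤ) * n := by push_cast; ring
    rwa [h2] at this

theorem leadAt_prod {ι : Type*} (s : Finset ι) (f : ι → LaurentSeries A) (n : ι → ℤ)
    (a : ι → A) (h : ∀ i ∈ s, LeadAt (f i) (n i) (a i)) :
    LeadAt (∏ i ∈ s, f i) (∑ i ∈ s, n i) (∏ i ∈ s, a i) := by
  classical
  induction s using Finset.induction_on with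
  | empty => simpa using leadAt_one (A := A)
  | insert i s hi ih =>
    rw [Finset.prod_insert hi, Finset.sum_insert hi, Finset.prod_insert hi]
    exact (h i (Finset.mem_insert_self i s)).mul
      (ih fun j hj => h j (Finset.mem_insert_of_mem hj))

theorem LeadAt.qExpand {f : LaurentSeries A} {n : ℤ} {a : A} (hf : LeadAt f n a) (p : ℕ)
    [NeZero p] : LeadAt (qExpand A p f) (p * n) a := by
  constructor
  · rw [qExpand_coeff_mul]
    exact hf.1
  · intro k hk
    by_cases hd : (p : ℤ) ∣ k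
    · obtain ⟨k', rfl⟩ := hd
      rw [qExpand_coeff_mul]
      have hp : (0 : ℤ) < p := by exact_mod_cast Nat.pos_of_ne_zero (NeZero.ne p)
      exact hf.2 k' (lt_of_mul_lt_mul_left hk hp.le)
    · exact qExpand_coeff_of_not_dvd p f hd

theorem LeadAt.coeffMap {B : Type*} [CommRing B] {f : LaurentSeries A} {n : ℤ} {a : A}
    (hf : LeadAt f n a) (φ : A →+* B) : LeadAt (coeffMap φ f) n (φ a) := by
  constructor
  · rw [coeffMap_coeff, hf.1]
  · intro k hk
    rw [coeffMap_coeff, hf.2 k hk, map_zero]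

theorem LeadAt.twist {f : LaurentSeries A} {n : ℤ} {a : A} (hf : LeadAt f n a) (ζ : Aˣ) :
    LeadAt (twist ζ f) n (((ζ ^ n : Aˣ) : A) * a) := by
  constructor
  · rw [twist_coeff, hf.1]
  · intro k hk
    rw [twist_coeff, hf.2 k hk, mul_zero]

theorem leadAt_C (a : A) : LeadAt (HahnSeries.C a : LaurentSeries A) 0 a := by
  constructor
  · rw [HahnSeries.C_apply, HahnSeries.coeff_single_same]
  · intro k hk
    rw [HahnSeries.C_apply, HahnSeries.coeff_single_of_ne hk.ne]

theorem leadAt_natCast (n : ℕ) : LeadAt ((n : LaurentSeries A)) 0 (n : A) := by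
  have h := leadAt_C (A := A) (n : A)
  rwa [map_natCast] at h

theorem leadAt_deltaHat (R : Type*) [CommRing R] : LeadAt (deltaHat R) 1 1 := by
  have h := leadAt_single_mul_ofPowerSeries (A := R) 1
    (dedekindEtaUnit.map (Int.castRingHom R))
  have hc : PowerSeries.constantCoeff (dedekindEtaUnit.map (Int.castRingHom R)) = 1 := by
    rw [← PowerSeries.coeff_zero_eq_constantCoeff_apply, PowerSeries.coeff_map,
      PowerSeries.coeff_zero_eq_constantCoeff_apply, constantCoeff_dedekindEtaUnit, map_one]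
  rw [hc] at h
  exact h

theorem leadAt_deltaHatInv (R : Type*) [CommRing R] : LeadAt (deltaHatInv R) (-1) 1 := by
  have h := leadAt_single_mul_ofPowerSeries (A := R) (-1)
    (dedekindEtaUnitInv.map (Int.castRingHom R))
  have hc : PowerSeries.constantCoeff (dedekindEtaUnitInv.map (Int.castRingHom R)) = 1 := by
    rw [← PowerSeries.coeff_zero_eq_constantCoeff_apply, PowerSeries.coeff_map,
      PowerSeries.coeff_zero_eq_constantCoeff_apply, constantCoeff_dedekindEtaUnitInv, map_one]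
  rw [hc] at h
  exact h

end LeadAt

section PolyAlg

/-- The `ℚ`-subalgebra `ℂ[J]` of `ℂ((s))` of complex polynomials in `J`. -/
def polyAlg (J : LaurentSeries ℂ) : Subalgebra ℚ (LaurentSeries ℂ) :=
  { (Polynomial.eval₂RingHom (HahnSeries.C : ℂ →+* LaurentSeries ℂ) J).rangeS with
    algebraMap_mem' := fun r => by
      have h : algebraMap ℚ (LaurentSeries ℂ) =
          (HahnSeries.C : ℂ →+* LaurentSeries ℂ).comp (algebraMap ℚ ℂ) := RingHom.ext_rat _ _
      refine ⟨Polynomial.C (algebraMap ℚ ℂ r), ?_⟩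
      rw [h]
      simp }

theorem mem_polyAlg {J r : LaurentSeries ℂ} :
    r ∈ polyAlg J ↔ ∃ P : ℂ[X], P.eval₂ (HahnSeries.C : ℂ →+* LaurentSeries ℂ) J = r :=
  Iff.rfl

theorem C_mem_polyAlg (J : LaurentSeries ℂ) (a : ℂ) : HahnSeries.C a ∈ polyAlg J :=
  mem_polyAlg.mpr ⟨Polynomial.C a, by simp⟩

/-- `evalJ ĵ` is injective (`ĵ` is transcendental over `ℤ`). -/
theorem evalJ_jqModC_injective : Function.Injective (evalJ (jqModC ℤ)) := by
  rw [injective_iff_map_eq_zero]
  intro P hP
  by_contra hne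
  have h1 := coeff_eval₂_C_jqModC_natDegree ℤ P
  have h2 : P.eval₂ (HahnSeries.C : ℤ →+* LaurentSeries ℤ) (jqModC ℤ) = evalJ (jqModC ℤ) P := by
    have : (HahnSeries.C : ℤ →+* LaurentSeries ℤ) = Int.castRingHom (LaurentSeries ℤ) :=
      RingHom.ext_int _ _
    rw [this]
    rfl
  rw [h2, hP, HahnSeries.coeff_zero] at h1
  exact hne (Polynomial.leadingCoeff_eq_zero.mp h1.symm)

/-- image of `evalJ ĵ P` under `V_p ∘ (coefficients to ℂ)` lies in `ℂ[V_p ĵ]`. -/
theorem qExpand_coeffMap_evalJ_mem (p : ℕ) [NeZero p] (P : ℤ[X]) :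
    qExpand ℂ p (coeffMap (Int.castRingHom ℂ) (evalJ (jqModC ℤ) P)) ∈
      polyAlg (qExpand ℂ p (jqModC ℂ)) := by
  refine mem_polyAlg.mpr ⟨P.map (Int.castRingHom ℂ), ?_⟩
  rw [Polynomial.eval₂_map]
  have h : ((qExpand ℂ p).comp (coeffMap (Int.castRingHom ℂ))).comp (evalJ (jqModC ℤ)) =
      Polynomial.eval₂RingHom ((HahnSeries.C : ℂ →+* LaurentSeries ℂ).comp (Int.castRingHom ℂ))
        (qExpand ℂ p (jqModC ℂ)) := by
    apply Polynomial.ringHom_ext
    · intro a
      simp [evalJ]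
    · simp [evalJ, coeffMap_jqModC]
  have := congrArg (fun φ => φ P) h
  simpa using this.symm

/-- **Descent**: if `V_p (c f) ∈ ℂ[V_p ĵ]` for an integer series `f`, then `f ∈ ℤ[ĵ]`. -/
theorem exists_evalJ_eq_of_mem_polyAlg (p : ℕ) [NeZero p] (f : LaurentSeries ℤ)
    (h : qExpand ℂ p (coeffMap (Int.castRingHom ℂ) f) ∈ polyAlg (qExpand ℂ p (jqModC ℂ))) :
    ∃ P₀ : ℤ[X], evalJ (jqModC ℤ) P₀ = f := by
  obtain ⟨P, hP⟩ := mem_polyAlg.mp h
  have h1 : P.eval₂ (HahnSeries.C : ℂ →+* LaurentSeries ℂ) (qExpand ℂ p (jqModC ℂ)) =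
      qExpand ℂ p (P.eval₂ (HahnSeries.C : ℂ →+* LaurentSeries ℂ) (jqModC ℂ)) := by
    rw [Polynomial.hom_eval₂]
    congr 1
    ext a : 1
    simp
  rw [h1] at hP
  have h2 := qExpand_injective p hP
  obtain ⟨P₀, -, hP₀⟩ := exists_int_poly_of_eval₂_jqModC ℂ
    (Int.castRingHom ℂ).injective_int P f h2
  exact ⟨P₀, hP₀⟩

/-- An element of `ℂ[V_p ĵ]` with no negative-order terms is a constant. -/
theorem eq_C_of_mem_polyAlg_of_leadAt (p : ℕ) [NeZero p] (e : LaurentSeries ℂ) (a : ℂ)
    (he : e ∈ polyAlg (qExpand ℂ p (jqModC ℂ))) (hl : LeadAt e 0 a) : e = HahnSeries.C a := by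
  obtain ⟨P, hP⟩ := mem_polyAlg.mp he
  have h1 : P.eval₂ (HahnSeries.C : ℂ →+* LaurentSeries ℂ) (qExpand ℂ p (jqModC ℂ)) =
      qExpand ℂ p (P.eval₂ (HahnSeries.C : ℂ →+* LaurentSeries ℂ) (jqModC ℂ)) := by
    rw [Polynomial.hom_eval₂]
    congr 1
    ext a : 1
    simp
  rw [h1] at hP
  have hdeg : P.natDegree = 0 := by
    by_contra hne
    have hpos : 0 < P.natDegree := Nat.pos_of_ne_zero hne
    have h2 := coeff_eval₂_C_jqModC_natDegree ℂ P
    have h3 : e.coeff ((p : ℤ) * (-(P.natDegree : ℤ))) = P.leadingCoeff := by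
      rw [← hP, qExpand_coeff_mul, h2]
    have hp : (0 : ℤ) < p := by exact_mod_cast Nat.pos_of_ne_zero (NeZero.ne p)
    have hneg : (p : ℤ) * (-(P.natDegree : ℤ)) < 0 := by
      have : (0 : ℤ) < P.natDegree := by exact_mod_cast hpos
      nlinarith
    rw [hl.2 _ hneg] at h3
    have hP0 : P ≠ 0 := by
      rintro rfl
      simp at hne
    exact hP0 (Polynomial.leadingCoeff_eq_zero.mp h3.symm)
  rw [Polynomial.eq_C_of_natDegree_eq_zero hdeg, Polynomial.eval₂_C, qExpand_C] at hP
  have h4 : e.coeff 0 = P.coeff 0 := by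
    rw [← hP, HahnSeries.C_apply, HahnSeries.coeff_single_same]
  rw [← hP, ← h4, hl.1]

end PolyAlg

end

end Fermat.Agent.S28.helper508
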