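/-
S28 / P4 sub-lemmas (generic algebra, Mathlib only), by helper508.

"Newton transfer": if the power sums of a finite family `x : ι → S` lie in a `ℚ`-subalgebra `R`
of `S`, then so do the elementary symmetric functions, i.e. the coefficients of `∏ (X - x i)`.
Mixed version for two families `x, y` whose mixed power sums `∑ x^m y^M` (`m ≤ M`, `1 ≤ M`)
lie in `R` and with `∏ y` a unit of `R`; and the (purely formal) Lagrange / trace identity.
-/
import Mathlib

set_option autoImplicit false

namespace Fermat.Agent.S28.helper508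

open Polynomial

/-- degree bound for a product of linear factors (no nontriviality assumption). -/
theorem natDegree_prod_X_sub_C_le {S : Type*} [CommRing S] {ι : Type*} (s : Finset ι)
    (x : ι → S) : (∏ i ∈ s, (X - C (x i))).natDegree ≤ s.card := by
  have h1 : (∏ i ∈ s, (X - C (x i))).natDegree ≤ ∑ i ∈ s, (X - C (x i)).natDegree :=
    Polynomial.natDegree_prod_le s fun i => X - C (x i)
  have h2 : ∑ i ∈ s, (X - C (x i)).natDegree ≤ ∑ _i ∈ s, (1 : ℕ) :=
    Finset.sum_le_sum fun i _ => Polynomial.natDegree_X_sub_C_le (x i)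
  have h3 : ∑ _i ∈ s, (1 : ℕ) = s.card := by simp
  omega

section Newton

variable {S : Type*} [CommRing S] [Algebra ℚ S] {ι : Type*} [Fintype ι]

/-- **Newton transfer (NT1), esymm form.** -/
theorem esymm_mem_of_psum_mem (R : Subalgebra ℚ S) (x : ι → S)
    (h : ∀ k, 1 ≤ k → k ≤ Fintype.card ι → ∑ i, x i ^ k ∈ R) (k : ℕ) :
    (Finset.univ.val.map x).esymm k ∈ R := by
  induction k using Nat.strong_induction_on with
  | _ k ih =>
    rcases Nat.eq_zero_or_pos k with rfl | hk
    · simp [Multiset.esymm]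
    · by_cases hkc : k ≤ Fintype.card ι
      · have hN := congrArg (MvPolynomial.aeval (R := ℚ) x) (MvPolynomial.mul_esymm_eq_sum ι ℚ k)
        simp only [map_mul, map_natCast, map_pow, map_neg, map_one, map_sum,
          MvPolynomial.aeval_esymm_eq_multiset_esymm] at hN
        have hrhs : (-1 : S) ^ (k + 1) * ∑ a ∈ Finset.HasAntidiagonal.antidiagonal k with a.1 < k,
            (-1 : S) ^ a.1 * (Finset.univ.val.map x).esymm a.1 *
              MvPolynomial.aeval x (MvPolynomial.psum ι ℚ a.2) ∈ R := by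
          refine R.mul_mem (R.pow_mem (R.neg_mem R.one_mem) _) (R.sum_mem ?_)
          intro a ha
          rw [Finset.mem_filter, Finset.HasAntidiagonal.mem_antidiagonal] at ha
          refine R.mul_mem (R.mul_mem (R.pow_mem (R.neg_mem R.one_mem) _) (ih a.1 ha.2)) ?_
          have : MvPolynomial.aeval x (MvPolynomial.psum ι ℚ a.2) = ∑ i, x i ^ a.2 := by
            simp [MvPolynomial.psum]
          rw [this]
          exact h a.2 (by omega) (by omega)
        rw [← hN] at hrhs
        have hk0 : (k : ℚ) ≠ 0 := Nat.cast_ne_zero.mpr hk.ne'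
        have : (Finset.univ.val.map x).esymm k =
            ((k : ℚ)⁻¹) • ((k : S) * (Finset.univ.val.map x).esymm k) := by
          rw [← smul_mul_assoc]
          have : ((k : ℚ)⁻¹) • (k : S) = 1 := by
            rw [← map_natCast (algebraMap ℚ S), Algebra.smul_def, ← map_mul,
              inv_mul_cancel₀ hk0, map_one]
          rw [this, one_mul]
        rw [this]
        exact R.smul_mem hrhs _
      · have : (Finset.univ.val.map x).esymm k = 0 := by
          rw [Multiset.esymm, Multiset.powersetCard_eq_empty]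
          · simp
          · simp only [Multiset.card_map, Finset.card_val, Finset.card_univ]
            omega
        rw [this]
        exact R.zero_mem

/-- **Newton transfer (NT1).** If the power sums `∑ x i ^ k`, `1 ≤ k ≤ card ι`, lie in the
`ℚ`-subalgebra `R`, then all coefficients of `∏ (X - C (x i))` lie in `R`. -/
theorem coeff_prod_X_sub_C_mem_of_psum_mem (R : Subalgebra ℚ S) (x : ι → S)
    (h : ∀ k, 1 ≤ k → k ≤ Fintype.card ι → ∑ i, x i ^ k ∈ R) (k : ℕ) :
    (∏ i, (X - C (x i))).coeff k ∈ R := by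
  have hprod : (∏ i, (X - C (x i))) = ((Finset.univ.val.map x).map fun t => X - C t).prod := by
    rw [Multiset.map_map]
    rfl
  have hcard : Multiset.card (Finset.univ.val.map x) = Fintype.card ι := by simp
  by_cases hk : k ≤ Fintype.card ι
  · rw [hprod, Multiset.prod_X_sub_C_coeff _ (by rw [hcard]; exact hk)]
    exact R.mul_mem (R.pow_mem (R.neg_mem R.one_mem) _) (esymm_mem_of_psum_mem R x h _)
  · rw [Polynomial.coeff_eq_zero_of_natDegree_lt]
    · exact R.zero_mem
    · refine lt_of_le_of_lt (natDegree_prod_X_sub_C_le Finset.univ x) ?_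
      simp only [Finset.card_univ]
      omega

/-- A polynomial over `S` all of whose coefficients lie in `R` is the image of a polynomial
over `R`. -/
theorem exists_map_eq_of_coeff_mem (R : Subalgebra ℚ S) (P : S[X]) (h : ∀ k, P.coeff k ∈ R) :
    ∃ P₀ : (↥R)[X], P₀.map (algebraMap ↥R S) = P := by
  have : P ∈ Polynomial.lifts (algebraMap ↥R S) := by
    rw [Polynomial.lifts_iff_coeff_lifts]
    intro n
    exact ⟨⟨P.coeff n, h n⟩, rfl⟩
  exact (Polynomial.mem_lifts P).mp this

/-- **NT1, packaged.** -/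
theorem exists_monic_map_eq_prod_of_psum_mem [Nontrivial S] (R : Subalgebra ℚ S) (x : ι → S)
    (h : ∀ k, 1 ≤ k → k ≤ Fintype.card ι → ∑ i, x i ^ k ∈ R) :
    ∃ P₀ : (↥R)[X], P₀.Monic ∧ P₀.natDegree = Fintype.card ι ∧
      P₀.map (algebraMap ↥R S) = ∏ i, (X - C (x i)) := by
  have hmon : (∏ i, (X - C (x i))).Monic := Polynomial.monic_prod_of_monic _ _ fun i _ =>
    Polynomial.monic_X_sub_C (x i)
  have hl : (∏ i, (X - C (x i))) ∈ Polynomial.lifts (algebraMap ↥R S) := by
    rw [Polynomial.lifts_iff_coeff_lifts]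
    intro n
    exact ⟨⟨_, coeff_prod_X_sub_C_mem_of_psum_mem R x h n⟩, rfl⟩
  obtain ⟨q, hq, hdeg, hqm⟩ := Polynomial.lifts_and_natDegree_eq_and_monic hl hmon
  refine ⟨q, hqm, ?_, hq⟩
  rw [hdeg, Polynomial.natDegree_finsetProd_X_sub_C_eq_card]
  simp

/-- **Mixed Newton transfer (NT2).** Two families `x, y : ι → S` with `∏ y = c` a unit of `R`
and all mixed power sums `∑ x^m y^M`, `m ≤ M`, `1 ≤ M`, in `R`. Then *all* mixed power sums lie
in `R`. -/
theorem mixed_psum_mem (R : Subalgebra ℚ S) (x y : ι → S) (c d : S) (hd : d ∈ R)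
    (hcd : c * d = 1) (hy : ∏ i, y i = c)
    (h : ∀ m M, m ≤ M → 1 ≤ M → ∑ i, x i ^ m * y i ^ M ∈ R) (m M : ℕ) :
    ∑ i, x i ^ m * y i ^ M ∈ R := by
  classical
  -- the characteristic polynomial of the `y i`
  have hG : ∀ k, (∏ i, (X - C (y i))).coeff k ∈ R :=
    coeff_prod_X_sub_C_mem_of_psum_mem R y (fun k hk _ => by simpa using h 0 k (Nat.zero_le _) hk)
  set G : S[X] := ∏ i, (X - C (y i)) with hGdef
  have hG0 : G.coeff 0 = (-1) ^ Fintype.card ι * c := by
    rw [hGdef, Polynomial.coeff_zero_eq_eval_zero, Polynomial.eval_prod]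
    simp only [eval_sub, eval_X, eval_C, zero_sub]
    rw [Finset.prod_neg, hy, Finset.card_univ]
  have hroot : ∀ i, G.eval (y i) = 0 := by
    intro i
    rw [hGdef, Polynomial.eval_prod]
    exact Finset.prod_eq_zero (Finset.mem_univ i) (by simp)
  -- inverse of `y i` as a polynomial in `y i` with coefficients in `R`
  set W : S[X] := C ((-1) ^ (Fintype.card ι + 1) * d) * G.divX with hWdef
  have hWcoeff : ∀ k, W.coeff k ∈ R := by
    intro k
    rw [hWdef, Polynomial.coeff_C_mul, Polynomial.coeff_divX]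
    exact R.mul_mem (R.mul_mem (R.pow_mem (R.neg_mem R.one_mem) _) hd) (hG _)
  have hinv : ∀ i, y i * W.eval (y i) = 1 := by
    intro i
    have h1 : G.divX.eval (y i) * y i + G.coeff 0 = 0 := by
      have := congrArg (Polynomial.eval (y i)) (Polynomial.divX_mul_X_add G)
      simpa [hroot i] using this
    have h2 : y i * G.divX.eval (y i) = -((-1) ^ Fintype.card ι * c) := by
      rw [← hG0]; linear_combination h1
    rw [hWdef, Polynomial.eval_mul, Polynomial.eval_C]
    calc y i * ((-1) ^ (Fintype.card ι + 1) * d * G.divX.eval (y i))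
        = (-1) ^ (Fintype.card ι + 1) * d * (y i * G.divX.eval (y i)) := by ring
      _ = (-1) ^ (Fintype.card ι + 1) * d * (-((-1) ^ Fintype.card ι * c)) := by rw [h2]
      _ = ((-1) ^ Fintype.card ι * (-1) ^ Fintype.card ι) * (c * d) := by ring
      _ = 1 := by rw [hcd, ← mul_pow]; simp
  obtain ⟨W₀, hW₀⟩ := exists_map_eq_of_coeff_mem R W hWcoeff
  have hWm : ∀ e, (W ^ m).coeff e ∈ R := by
    intro e
    rw [← hW₀, ← Polynomial.map_pow, Polynomial.coeff_map]
    exact ((W₀ ^ m).coeff e).2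
  rcases Nat.eq_zero_or_pos m with rfl | hm
  · rcases Nat.eq_zero_or_pos M with rfl | hM
    · simp only [pow_zero, mul_one, Finset.sum_const, Finset.card_univ, nsmul_eq_mul]
      exact R.natCast_mem _
    · exact h 0 M (Nat.zero_le _) hM
  · have key : ∀ i, x i ^ m * y i ^ M =
        ∑ e ∈ Finset.range ((W ^ m).natDegree + 1), (W ^ m).coeff e * (x i ^ m * y i ^ (M + m + e)) := by
      intro i
      have h1 : (W ^ m).eval (y i) = ∑ e ∈ Finset.range ((W ^ m).natDegree + 1),
          (W ^ m).coeff e * y i ^ e := Polynomial.eval_eq_sum_range _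
      have h2 : y i ^ m * (W ^ m).eval (y i) = 1 := by
        rw [Polynomial.eval_pow, ← mul_pow, hinv i, one_pow]
      calc x i ^ m * y i ^ M = x i ^ m * y i ^ M * (y i ^ m * (W ^ m).eval (y i)) := by
            rw [h2, mul_one]
        _ = x i ^ m * y i ^ (M + m) * ∑ e ∈ Finset.range ((W ^ m).natDegree + 1),
              (W ^ m).coeff e * y i ^ e := by rw [h1, pow_add]; ring
        _ = _ := by
            rw [Finset.mul_sum]
            refine Finset.sum_congr rfl fun e _ => ?_
            rw [pow_add (y i) (M + m) e]; ring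
    simp_rw [key]
    rw [Finset.sum_comm]
    refine R.sum_mem fun e _ => ?_
    rw [← Finset.mul_sum]
    exact R.mul_mem (hWm e) (h m (M + m + e) (by omega) (by omega))

/-- **NT2, corollary for `x`.** -/
theorem coeff_prod_X_sub_C_mem_of_mixed (R : Subalgebra ℚ S) (x y : ι → S) (c d : S)
    (hd : d ∈ R) (hcd : c * d = 1) (hy : ∏ i, y i = c)
    (h : ∀ m M, m ≤ M → 1 ≤ M → ∑ i, x i ^ m * y i ^ M ∈ R) (k : ℕ) :
    (∏ i, (X - C (x i))).coeff k ∈ R :=
  coeff_prod_X_sub_C_mem_of_psum_mem R x
    (fun k _ _ => by simpa using mixed_psum_mem R x y c d hd hcd hy h k 0) k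

/-- **NT2, corollary for `y`.** -/
theorem coeff_prod_X_sub_C_mem_of_mixed' (R : Subalgebra ℚ S) (x y : ι → S)
    (h : ∀ m M, m ≤ M → 1 ≤ M → ∑ i, x i ^ m * y i ^ M ∈ R) (k : ℕ) :
    (∏ i, (X - C (y i))).coeff k ∈ R :=
  coeff_prod_X_sub_C_mem_of_psum_mem R y
    (fun k hk _ => by simpa using h 0 k (Nat.zero_le _) hk) k

end Newton

section Trace

variable {S : Type*} [CommRing S] {ι : Type*} [Fintype ι] [DecidableEq ι]

/-- **Lagrange / trace identity** (purely formal): with `Ψ = ∏_{i ≠ i₀} (X - x i)`,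
`Ψ(x i₀) * y i₀ = ∑_k Ψ.coeff k * (∑_i x i ^ k * y i)`. -/
theorem eval_mul_eq_sum_coeff_mul_mixed (x y : ι → S) (i₀ : ι) :
    (∏ i ∈ Finset.univ.erase i₀, (X - C (x i))).eval (x i₀) * y i₀ =
      ∑ k ∈ Finset.range (Fintype.card ι),
        (∏ i ∈ Finset.univ.erase i₀, (X - C (x i))).coeff k * ∑ i, x i ^ k * y i := by
  set Ψ : S[X] := ∏ i ∈ Finset.univ.erase i₀, (X - C (x i)) with hΨ
  have hdeg : Ψ.natDegree < Fintype.card ι := by
    refine lt_of_le_of_lt (natDegree_prod_X_sub_C_le _ x) ?_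
    rw [Finset.card_erase_of_mem (Finset.mem_univ i₀), Finset.card_univ]
    have : 0 < Fintype.card ι := Fintype.card_pos_iff.mpr ⟨i₀⟩
    omega
  have hev : ∀ z : S, Ψ.eval z = ∑ k ∈ Finset.range (Fintype.card ι), Ψ.coeff k * z ^ k :=
    fun z => Polynomial.eval_eq_sum_range' hdeg z
  have hzero : ∀ i, i ≠ i₀ → Ψ.eval (x i) = 0 := by
    intro i hi
    rw [hΨ, Polynomial.eval_prod]
    exact Finset.prod_eq_zero (Finset.mem_erase.mpr ⟨hi, Finset.mem_univ i⟩) (by simp)
  have hsum : ∑ i, Ψ.eval (x i) * y i = Ψ.eval (x i₀) * y i₀ := by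
    rw [Finset.sum_eq_single i₀]
    · intro i _ hi
      rw [hzero i hi, zero_mul]
    · intro h; exact absurd (Finset.mem_univ i₀) h
  rw [← hsum]
  simp_rw [hev, Finset.sum_mul, Finset.mul_sum]
  rw [Finset.sum_comm]
  refine Finset.sum_congr rfl fun k _ => Finset.sum_congr rfl fun i _ => ?_
  ring

end Trace

end Fermat.Agent.S28.helper508
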