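/-
S28 (Igusa), route P, leaf of P4: the ROOT FORMULA clause of `helper328.Stmt_FormalPrime p`
is a formal consequence of the two modular relations
  (F1) `Φ(V_p j, j) = 0`   and   (F2) `Φ(j, V_p j) = 0`      (`V_p = qExpand _ p`)
for a monic `Φ ∈ ℤ[Y][X]` of `X`-degree `p + 1`.
Author: helper688.  No sorry.

Proof: push F1, F2 to `k((t))`; apply the ring homs `f(q) ↦ f(ξ^p t^(p m))` (to F1) and
`f(q) ↦ f(ω^b ξ t^m)` (to F2).  This exhibits `p + 1` pairwise distinct roots of the monic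
polynomial `Φ(X, J(ξ^p t^(p m)))` of degree `p + 1` over the field `k((t))`.
-/
import Fermat.Agent.S28.helper328_PrimeSpec

set_option autoImplicit false

namespace Fermat.Agent.S28.helper688

open Polynomial ModularCurve
open Fermat.Agent.S28.helper328

noncomputable section

section Toolkit

variable {R : Type*} [CommRing R]

/-- `twist` commutes with `qExpand`: `(f(t^a))(c t) = (f(c^a t))(t^a)`. -/
theorem twist_qExpand (c : Rˣ) (a : ℕ) [NeZero a] (f : LaurentSeries R) :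
    twist c (qExpand R a f) = qExpand R a (twist (c ^ a) f) := by
  ext n
  rw [twist_coeff]
  by_cases hn : (a : ℤ) ∣ n
  · obtain ⟨m, rfl⟩ := hn
    rw [qExpand_coeff_mul, qExpand_coeff_mul, twist_coeff, zpow_mul, zpow_natCast]
  · rw [qExpand_coeff_of_not_dvd a _ hn, qExpand_coeff_of_not_dvd a _ hn, mul_zero]

theorem twist_twist (c d : Rˣ) (f : LaurentSeries R) :
    twist c (twist d f) = twist (c * d) f := by
  ext n
  rw [twist_coeff, twist_coeff, twist_coeff, mul_zpow, Units.val_mul, mul_assoc]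

theorem twist_one (f : LaurentSeries R) : twist (1 : Rˣ) f = f := by
  ext n
  rw [twist_coeff, one_zpow, Units.val_one, one_mul]

theorem coeffMap_twist {S : Type*} [CommRing S] (φ : R →+* S) (c : Rˣ) (f : LaurentSeries R) :
    coeffMap φ (twist c f) = twist (Units.map (φ : R →* S) c) (coeffMap φ f) := by
  ext n
  rw [coeffMap_coeff, twist_coeff, twist_coeff, coeffMap_coeff, map_mul, ← map_zpow]
  rfl

/-- Any ring hom between Laurent series rings is compatible with `evalJ`. -/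
theorem comp_evalJ {S : Type*} [CommRing S] (φ : LaurentSeries R →+* LaurentSeries S)
    (J : LaurentSeries R) : φ.comp (evalJ J) = evalJ (φ J) := by
  apply Polynomial.ringHom_ext
  · intro a
    simp [evalJ]
  · simp [evalJ]

theorem map_map_evalJ {S : Type*} [CommRing S] (φ : LaurentSeries R →+* LaurentSeries S)
    (Φ : Polynomial (Polynomial ℤ)) (J : LaurentSeries R) :
    (Φ.map (evalJ J)).map φ = Φ.map (evalJ (φ J)) := by
  rw [Polynomial.map_map, comp_evalJ]

/-- Transport of a relation `Φ(x, J) = 0` along a ring hom. -/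
theorem map_eval_map_evalJ {S : Type*} [CommRing S] (φ : LaurentSeries R →+* LaurentSeries S)
    (Φ : Polynomial (Polynomial ℤ)) (J x : LaurentSeries R) :
    φ ((Φ.map (evalJ J)).eval x) = (Φ.map (evalJ (φ J))).eval (φ x) := by
  rw [← map_map_evalJ, Polynomial.eval_map, Polynomial.eval_map,
    Polynomial.hom_eval₂, Polynomial.eval₂_map]

theorem Jsub_coeff_neg (k : Type*) [CommRing k] (ζ : kˣ) (m : ℕ+) :
    (Jsub k ζ m).coeff (-((m : ℕ) : ℤ)) = ((ζ⁻¹ : kˣ) : k) := by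
  unfold Jsub
  have h : -((m : ℕ) : ℤ) = ((m : ℕ) : ℤ) * (-1) := by ring
  rw [h, qExpand_coeff_mul, twist_coeff, coeff_jqModC_neg_one, mul_one, zpow_neg_one]

theorem Jsub_coeff_of_lt (k : Type*) [CommRing k] (ζ : kˣ) (m : ℕ+) {n : ℤ}
    (hn : n < -((m : ℕ) : ℤ)) : (Jsub k ζ m).coeff n = 0 := by
  unfold Jsub
  by_cases h : ((m : ℕ) : ℤ) ∣ n
  · obtain ⟨n', rfl⟩ := h
    have hm : (0 : ℤ) < ((m : ℕ) : ℤ) := by exact_mod_cast m.pos
    have hn' : n' < -1 := by
      by_contra hcon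
      have hcon' : -1 ≤ n' := not_lt.mp hcon
      nlinarith
    rw [qExpand_coeff_mul, twist_coeff, coeff_jqModC_of_lt k hn', mul_zero]
  · exact qExpand_coeff_of_not_dvd _ _ h

/-- `J(ζ t^m)` determines `ζ` (same `m`). -/
theorem Jsub_left_injective (k : Type*) [CommRing k] (m : ℕ+) {ζ ζ' : kˣ}
    (h : Jsub k ζ m = Jsub k ζ' m) : ζ = ζ' := by
  have h1 := congrArg (fun f : LaurentSeries k => f.coeff (-((m : ℕ) : ℤ))) h
  simp only [Jsub_coeff_neg] at h1
  exact inv_injective (Units.ext h1)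

/-- `J(ζ t^m) ≠ J(ζ' t^m')` when `m < m'`. -/
theorem Jsub_ne_of_lt (k : Type*) [CommRing k] [Nontrivial k] {m m' : ℕ+} (hmm : m < m')
    (ζ ζ' : kˣ) : Jsub k ζ' m' ≠ Jsub k ζ m := by
  intro h
  have h1 := congrArg (fun f : LaurentSeries k => f.coeff (-((m' : ℕ) : ℤ))) h
  simp only [Jsub_coeff_neg] at h1
  have hlt : -((m' : ℕ) : ℤ) < -((m : ℕ) : ℤ) := by
    have : (m : ℕ) < (m' : ℕ) := hmm
    omega
  rw [Jsub_coeff_of_lt k ζ m hlt] at h1
  exact (ζ'⁻¹).ne_zero h1

/-- `f(q) ↦ f(ζ t^m)` sends `jbar` to `Jsub k ζ m` (by definition). -/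
theorem subst_jq (k : Type*) [CommRing k] (ζ : kˣ) (m : ℕ+) :
    ((qExpand k (m : ℕ)).comp (twist ζ)) (jqModC k) = Jsub k ζ m := rfl

/-- `f(q) ↦ f(ζ t^m)` sends `jbar(q^a)` to `Jsub k (ζ^a) (m a)`. -/
theorem subst_qExpand_jq (k : Type*) [CommRing k] (ζ : kˣ) (m : ℕ+) (a : ℕ+) :
    ((qExpand k (m : ℕ)).comp (twist ζ)) (qExpand k (a : ℕ) (jqModC k)) =
      Jsub k (ζ ^ (a : ℕ)) (m * a) := by
  rw [RingHom.comp_apply, twist_qExpand, qExpand_qExpand]
  unfold Jsub
  exact qExpand_congr (by simp) _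

end Toolkit

section RootFormula

variable (p : ℕ) [hp : Fact p.Prime]

/-- **Root formula over a field from the two relations over that field.** -/
theorem rootFormula_of_rel_field (Φ : Polynomial (Polynomial ℤ)) (hm : Φ.Monic)
    (hd : Φ.natDegree = p + 1) (k : Type) [Field k]
    (F1 : (Φ.map (evalJ (jqModC k))).eval (qExpand k p (jqModC k)) = 0)
    (F2 : (Φ.map (evalJ (qExpand k p (jqModC k)))).eval (jqModC k) = 0)
    (ω : kˣ) (hω : IsPrimitiveRoot ω p) (ξ : kˣ) (m : ℕ+) :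
    Φ.map (evalJ (Jsub k (ξ ^ p) (⟨p, hp.out.pos⟩ * m))) =
      (X - C (Jsub k (ξ ^ (p ^ 2)) (⟨p, hp.out.pos⟩ ^ 2 * m))) *
        ∏ b ∈ Finset.range p, (X - C (Jsub k (ω ^ b * ξ) m)) := by
  classical
  set pp : ℕ+ := ⟨p, hp.out.pos⟩ with hpp
  have hppc : (pp : ℕ) = p := rfl
  set P : Polynomial (LaurentSeries k) := Φ.map (evalJ (Jsub k (ξ ^ p) (pp * m))) with hP
  set rinf : LaurentSeries k := Jsub k (ξ ^ (p ^ 2)) (pp ^ 2 * m) with hrinf
  set r : ℕ → LaurentSeries k := fun b => Jsub k (ω ^ b * ξ) m with hr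
  have hPm : P.Monic := hm.map _
  have hPd : P.natDegree = p + 1 := by rw [hP, hm.natDegree_map, hd]
  -- the root at infinity
  have hroot_inf : P.eval rinf = 0 := by
    have h := congrArg ((qExpand k ((pp * m : ℕ+) : ℕ)).comp (twist (ξ ^ p))) F1
    rw [map_eval_map_evalJ, map_zero, subst_jq] at h
    have h2 : ((qExpand k ((pp * m : ℕ+) : ℕ)).comp (twist (ξ ^ p))) (qExpand k p (jqModC k)) =
        Jsub k ((ξ ^ p) ^ p) (pp * m * pp) := subst_qExpand_jq k (ξ ^ p) (pp * m) pp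
    rw [h2] at h
    have e1 : (ξ ^ p) ^ p = ξ ^ (p ^ 2) := by rw [← pow_mul, sq]
    have e2 : pp * m * pp = pp ^ 2 * m := by rw [sq, mul_right_comm]
    rw [e1, e2] at h
    exact h
  -- the finite roots
  have hroot : ∀ b : ℕ, P.eval (r b) = 0 := by
    intro b
    have h := congrArg ((qExpand k (m : ℕ)).comp (twist (ω ^ b * ξ))) F2
    rw [map_eval_map_evalJ, map_zero, subst_jq] at h
    have h2 : ((qExpand k (m : ℕ)).comp (twist (ω ^ b * ξ))) (qExpand k p (jqModC k)) =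
        Jsub k ((ω ^ b * ξ) ^ p) (m * pp) := subst_qExpand_jq k (ω ^ b * ξ) m pp
    rw [h2] at h
    have e1 : (ω ^ b * ξ) ^ p = ξ ^ p := by
      rw [mul_pow, ← pow_mul, mul_comm b p, pow_mul, hω.pow_eq_one, one_pow, one_mul]
    have e2 : m * pp = pp * m := mul_comm _ _
    rw [e1, e2] at h
    exact h
  -- distinctness
  have hinj : Set.InjOn r (Finset.range p : Set ℕ) := by
    intro b hb b' hb' hbb
    have h1 : ω ^ b * ξ = ω ^ b' * ξ := Jsub_left_injective k m hbb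
    exact hω.pow_inj (Finset.mem_range.mp hb) (Finset.mem_range.mp hb') (mul_right_cancel h1)
  have hlt : m < pp ^ 2 * m := by
    have h2 : 2 ≤ p := hp.out.two_le
    have h4 : 1 < p ^ 2 := by nlinarith
    have hm1 : 0 < (m : ℕ) := m.pos
    show (m : ℕ) < ((pp ^ 2 * m : ℕ+) : ℕ)
    rw [PNat.mul_coe, PNat.pow_coe, hppc]
    nlinarith
  have hnotin : rinf ∉ Finset.image r (Finset.range p) := by
    intro hmem
    obtain ⟨b, -, hb⟩ := Finset.mem_image.mp hmem
    exact Jsub_ne_of_lt k hlt _ _ hb.symm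
  set s : Finset (LaurentSeries k) := insert rinf (Finset.image r (Finset.range p)) with hs
  have hcard : s.card = p + 1 := by
    rw [hs, Finset.card_insert_of_notMem hnotin, Finset.card_image_of_injOn hinj,
      Finset.card_range]
  set Q : Polynomial (LaurentSeries k) :=
    (X - C rinf) * ∏ b ∈ Finset.range p, (X - C (r b)) with hQ
  have hQm : Q.Monic :=
    (monic_X_sub_C _).mul (monic_prod_of_monic _ _ fun b _ => monic_X_sub_C _)
  have hQd : Q.natDegree = p + 1 := by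
    rw [hQ, (monic_X_sub_C _).natDegree_mul
      (monic_prod_of_monic _ _ fun b _ => monic_X_sub_C _), natDegree_X_sub_C,
      natDegree_finsetProd_X_sub_C_eq_card, Finset.card_range, add_comm]
  show P = Q
  refine Polynomial.eq_of_degree_sub_lt_of_eval_finset_eq s ?_ ?_
  · rw [hcard]
    have hdeg : P.degree = Q.degree := by
      rw [degree_eq_natDegree hPm.ne_zero, degree_eq_natDegree hQm.ne_zero, hPd, hQd]
    have h1 := degree_sub_lt_left hdeg hPm.ne_zero (by rw [hPm.leadingCoeff, hQm.leadingCoeff])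
    rw [degree_eq_natDegree hPm.ne_zero, hPd] at h1
    exact h1
  · intro x hx
    rw [hs, Finset.mem_insert, Finset.mem_image] at hx
    rcases hx with rfl | ⟨b, hb, rfl⟩
    · rw [hroot_inf, hQ, eval_mul, eval_sub, eval_X, eval_C, sub_self, zero_mul]
    · rw [hroot b, hQ, eval_mul, eval_prod, Finset.prod_eq_zero hb, mul_zero]
      rw [eval_sub, eval_X, eval_C, sub_self]

/-- **Root formula from the two relations over `ℤ`**: exactly the last clause of
`helper328.Stmt_FormalPrime p`. -/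
theorem rootFormula_of_rel (Φ : Polynomial (Polynomial ℤ)) (hm : Φ.Monic)
    (hd : Φ.natDegree = p + 1)
    (F1 : (Φ.map (evalJ (jqModC ℤ))).eval (qExpand ℤ p (jqModC ℤ)) = 0)
    (F2 : (Φ.map (evalJ (qExpand ℤ p (jqModC ℤ)))).eval (jqModC ℤ) = 0) :
    ∀ (k : Type) [Field k] (ω : kˣ), IsPrimitiveRoot ω p → ∀ (ξ : kˣ) (m : ℕ+),
      Φ.map (evalJ (Jsub k (ξ ^ p) (⟨p, hp.out.pos⟩ * m))) =
        (X - C (Jsub k (ξ ^ (p ^ 2)) (⟨p, hp.out.pos⟩ ^ 2 * m))) *
          ∏ b ∈ Finset.range p, (X - C (Jsub k (ω ^ b * ξ) m)) := by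
  intro k _ ω hω ξ m
  refine rootFormula_of_rel_field p Φ hm hd k ?_ ?_ ω hω ξ m
  · have h := congrArg (coeffMap (Int.castRingHom k)) F1
    rwa [map_eval_map_evalJ, map_zero, coeffMap_qExpand, coeffMap_jqModC] at h
  · have h := congrArg (coeffMap (Int.castRingHom k)) F2
    rwa [map_eval_map_evalJ, map_zero, coeffMap_qExpand, coeffMap_jqModC] at h

/-- `coeffMap` along an injective ring hom is injective. -/
theorem coeffMap_injective_of_injective {A B : Type*} [CommRing A] [CommRing B] (φ : A →+* B)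
    (hφ : Function.Injective φ) : Function.Injective (coeffMap φ) := by
  intro x y hxy
  ext n
  have h := congrArg (fun f : LaurentSeries B => f.coeff n) hxy
  simp only [coeffMap_coeff] at h
  exact hφ h

/-- Descent of a relation `Φ(x, J) = 0` between `q`-expansions of `jbar` from a ring of
characteristic zero (e.g. `ℂ`) to `ℤ`: version for (F1). -/
theorem rel_F1_int_of_rel (A : Type*) [CommRing A] (hA : Function.Injective (Int.castRingHom A))
    (Φ : Polynomial (Polynomial ℤ))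
    (F1 : (Φ.map (evalJ (jqModC A))).eval (qExpand A p (jqModC A)) = 0) :
    (Φ.map (evalJ (jqModC ℤ))).eval (qExpand ℤ p (jqModC ℤ)) = 0 := by
  apply coeffMap_injective_of_injective _ hA
  rw [map_eval_map_evalJ, map_zero, coeffMap_qExpand, coeffMap_jqModC]
  exact F1

/-- Descent from a ring of characteristic zero (e.g. `ℂ`) to `ℤ`: version for (F2). -/
theorem rel_F2_int_of_rel (A : Type*) [CommRing A] (hA : Function.Injective (Int.castRingHom A))
    (Φ : Polynomial (Polynomial ℤ))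
    (F2 : (Φ.map (evalJ (qExpand A p (jqModC A)))).eval (jqModC A) = 0) :
    (Φ.map (evalJ (qExpand ℤ p (jqModC ℤ)))).eval (jqModC ℤ) = 0 := by
  apply coeffMap_injective_of_injective _ hA
  rw [map_eval_map_evalJ, map_zero, coeffMap_qExpand, coeffMap_jqModC]
  exact F2

/-- (F1) from the factorisation clause of `Stmt_FormalPrime`. -/
theorem rel_F1_of_factor (Φ : Polynomial (Polynomial ℤ)) (Ψ : Polynomial (LaurentSeries ℤ))
    (hfac : Φ.map (evalJ (jqModC ℤ)) = (X - C (qExpand ℤ p (jqModC ℤ))) * Ψ) :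
    (Φ.map (evalJ (jqModC ℤ))).eval (qExpand ℤ p (jqModC ℤ)) = 0 := by
  rw [hfac, eval_mul, eval_sub, eval_X, eval_C, sub_self, zero_mul]

/-- (F2) from the factorisation clause and "`V_p Ψ` kills `j`" (Cayley–Hamilton form). -/
theorem rel_F2_of_factor (Φ : Polynomial (Polynomial ℤ)) (Ψ : Polynomial (LaurentSeries ℤ))
    (hfac : Φ.map (evalJ (jqModC ℤ)) = (X - C (qExpand ℤ p (jqModC ℤ))) * Ψ)
    (hCH : (Ψ.map (qExpand ℤ p)).eval (jqModC ℤ) = 0) :
    (Φ.map (evalJ (qExpand ℤ p (jqModC ℤ)))).eval (jqModC ℤ) = 0 := by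
  have h := congrArg (Polynomial.map (qExpand ℤ p)) hfac
  rw [map_map_evalJ, Polynomial.map_mul] at h
  rw [h, eval_mul, hCH, mul_zero]

/-- **Packaged form**: the first seven clauses of `helper328.Stmt_FormalPrime p` together with
(F2) `Φ(j, V_p j) = 0` give `Stmt_FormalPrime p` (the root formula clause is automatic). -/
theorem stmt_FormalPrime_of_rel (Φ G : Polynomial (Polynomial ℤ)) (T : ℕ → Polynomial ℤ)
    (Ψ : Polynomial (LaurentSeries ℤ))
    (hΦm : Φ.Monic) (hΦd : Φ.natDegree = p + 1) (hGm : G.Monic)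
    (hG0 : G.coeff 0 = C ((p : ℤ) ^ 12) ∨ G.coeff 0 = C (-(p : ℤ) ^ 12))
    (hG : (G.map (evalJ (jqModC ℤ))).eval (gHat p) = 0)
    (hfac : Φ.map (evalJ (jqModC ℤ)) = (X - C (qExpand ℤ p (jqModC ℤ))) * Ψ)
    (hlag : Ψ.eval (qExpand ℤ p (jqModC ℤ)) * gHat p =
      ∑ i ∈ Finset.range (p + 1), Ψ.coeff i * evalJ (jqModC ℤ) (T i))
    (F2 : (Φ.map (evalJ (qExpand ℤ p (jqModC ℤ)))).eval (jqModC ℤ) = 0) :
    Stmt_FormalPrime p :=
  ⟨Φ, G, T, Ψ, hΦm, hΦd, hGm, hG0, hG, hfac, hlag,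
    rootFormula_of_rel p Φ hΦm hΦd (rel_F1_of_factor p Φ Ψ hfac) F2⟩

/-- Packaged form with the Cayley–Hamilton hypothesis `(V_p Ψ)(j) = 0` instead of (F2). -/
theorem stmt_FormalPrime_of_cayleyHamilton (Φ G : Polynomial (Polynomial ℤ))
    (T : ℕ → Polynomial ℤ) (Ψ : Polynomial (LaurentSeries ℤ))
    (hΦm : Φ.Monic) (hΦd : Φ.natDegree = p + 1) (hGm : G.Monic)
    (hG0 : G.coeff 0 = C ((p : ℤ) ^ 12) ∨ G.coeff 0 = C (-(p : ℤ) ^ 12))
    (hG : (G.map (evalJ (jqModC ℤ))).eval (gHat p) = 0)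
    (hfac : Φ.map (evalJ (jqModC ℤ)) = (X - C (qExpand ℤ p (jqModC ℤ))) * Ψ)
    (hlag : Ψ.eval (qExpand ℤ p (jqModC ℤ)) * gHat p =
      ∑ i ∈ Finset.range (p + 1), Ψ.coeff i * evalJ (jqModC ℤ) (T i))
    (hCH : (Ψ.map (qExpand ℤ p)).eval (jqModC ℤ) = 0) :
    Stmt_FormalPrime p :=
  stmt_FormalPrime_of_rel p Φ G T Ψ hΦm hΦd hGm hG0 hG hfac hlag
    (rel_F2_of_factor p Φ Ψ hfac hCH)

end RootFormula

end

end Fermat.Agent.S28.helper688
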