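/-
S28 / route P, step P4: ASSEMBLY of `helper328.Stmt_FormalPrime p` (for every prime `p`) from the
landed leaves:
* `helper2082_SecMat`   : section matrices, `charpoly_secMat_map`, `sum_twist_eq`, `trace_secMat`;
* `helper2627_HeckeLink`: `hecke_link_gHat` (Hecke operator `T_p` on `E4^(3m) Δ^(M-m)`, over `ℤ`);
* `helper508_Newton`    : Newton transfer for mixed power sums;
* `helper508_LeadAt`    : leading terms, `ℂ[V_p ĵ]`, descent to `ℤ[ĵ]`;
* `helper688_RootFormula`: `stmt_FormalPrime_of_cayleyHamilton`.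
By helper508.
-/
import Mathlib
import Fermat.Agent.S28.helper328_PrimeSpec
import Fermat.Agent.S28.helper2082_SecMat
import Fermat.Agent.S28.helper2627_HeckeLink
import Fermat.Agent.S28.helper688_RootFormula
import Fermat.Agent.S28.helper508_Newton
import Fermat.Agent.S28.helper508_LeadAt

set_option autoImplicit false

namespace Fermat.Agent.S28.helper508

open Polynomial ModularCurve
open Fermat.Agent.S28.helper328 (twist twist_coeff deltaHat deltaHatInv gHat evalJ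
  Stmt_FormalPrime Stmt_Hecke)
open Fermat.Agent.S28.helper2082 (secMat sect)

noncomputable section

section Generic

variable {S : Type*} [CommRing S]

theorem coeff_zero_prod_X_sub_C {ι : Type*} [Fintype ι] (y : ι → S) :
    (∏ i, (X - C (y i))).coeff 0 = (-1) ^ Fintype.card ι * ∏ i, y i := by
  rw [Polynomial.coeff_zero_eq_eval_zero, Polynomial.eval_prod]
  simp only [eval_sub, eval_X, eval_C, zero_sub]
  rw [Finset.prod_neg, Finset.card_univ]

theorem prod_mem_of_coeff_zero_mem [Algebra ℚ S] (R : Subalgebra ℚ S) {ι : Type*} [Fintype ι]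
    (y : ι → S) (h : (∏ i, (X - C (y i))).coeff 0 ∈ R) : ∏ i, y i ∈ R := by
  rw [coeff_zero_prod_X_sub_C] at h
  have h2 : ∏ i, y i = (-1) ^ Fintype.card ι * ((-1) ^ Fintype.card ι * ∏ i, y i) := by
    rw [← mul_assoc, ← mul_pow, neg_one_mul, neg_neg, one_pow, one_mul]
  rw [h2]
  exact R.mul_mem (R.pow_mem (R.neg_mem R.one_mem) _) h

/-- `(-1)^n * φ a = φ (±a)`. -/
theorem neg_one_pow_mul_map_eq {A : Type*} [CommRing A] (φ : A →+* S) (n : ℕ) (a : A) :
    (-1 : S) ^ n * φ a = φ a ∨ (-1 : S) ^ n * φ a = φ (-a) := by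
  rcases neg_one_pow_eq_or S n with h | h
  · left; rw [h, one_mul]
  · right; rw [h, neg_one_mul, map_neg]

end Generic

section Assembly

variable (p : ℕ) [hp : Fact p.Prime]

/-- `θ = V_p ∘ (coefficients to ℂ) : ℤ((q)) → ℂ((s))`, `q ↦ s^p`. -/
def theta : LaurentSeries ℤ →+* LaurentSeries ℂ :=
  (qExpand ℂ p).comp (coeffMap (Int.castRingHom ℂ))

theorem theta_apply (f : LaurentSeries ℤ) :
    theta p f = qExpand ℂ p (coeffMap (Int.castRingHom ℂ) f) := rfl

theorem theta_injective : Function.Injective (theta p) :=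
  (qExpand_injective p).comp
    (coeffMap_injective_of_injective _ (Int.castRingHom ℂ).injective_int)

theorem theta_C (z : ℤ) : theta p (HahnSeries.C z) = HahnSeries.C (z : ℂ) := by
  rw [theta_apply, coeffMap_C, qExpand_C]
  rfl

/-- `ŷ = Δ̂(s) / Δ̂(s^p)`. -/
def yHat : LaurentSeries ℤ := deltaHat ℤ * qExpand ℤ p (deltaHatInv ℤ)

/-- the `p + 1` conjugates of `j(pτ)` in `ℂ((s))`, `s = q^(1/p)`. -/
def xRoot (ω : ℂˣ) : Option (Fin p) → LaurentSeries ℂ
  | none => theta p (qExpand ℤ p (jqModC ℤ))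
  | some b => twist (ω ^ (b : ℕ)) (coeffMap (Int.castRingHom ℂ) (jqModC ℤ))

/-- the `p + 1` conjugates of `p^12 Δ(pτ)/Δ(τ)` in `ℂ((s))`. -/
def yRoot (ω : ℂˣ) : Option (Fin p) → LaurentSeries ℂ
  | none => theta p (gHat p)
  | some b => twist (ω ^ (b : ℕ)) (coeffMap (Int.castRingHom ℂ) (yHat p))

theorem exists_primitiveRoot_unit : ∃ ω : ℂˣ, IsPrimitiveRoot ω p := by
  have h := Complex.isPrimitiveRoot_exp p hp.out.ne_zero
  obtain ⟨u, hu⟩ := h.isUnit hp.out.ne_zero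
  refine ⟨u, IsPrimitiveRoot.coe_units_iff.mp ?_⟩
  rw [hu]
  exact h

variable {p}

/-- Lemma A: the characteristic polynomial of a section matrix splits over `ℂ((s))`. -/
theorem charpoly_secMat_map_theta (ω : ℂˣ) (hω : IsPrimitiveRoot ω p) (f : LaurentSeries ℤ) :
    ((secMat p f).charpoly).map (theta p) =
      ∏ b : Fin p, (X - C (twist (ω ^ (b : ℕ)) (coeffMap (Int.castRingHom ℂ) f))) := by
  rw [theta, ← Polynomial.map_map, ← Matrix.charpoly_map, ← helper2082.secMat_coeffMap]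
  exact helper2082.charpoly_secMat_map p ω hω _

/-- Lemma B: the trace of a section matrix is the sum over the roots. -/
theorem sum_twist_eq_theta_trace (ω : ℂˣ) (hω : IsPrimitiveRoot ω p) (f : LaurentSeries ℤ) :
    ∑ b : Fin p, twist (ω ^ (b : ℕ)) (coeffMap (Int.castRingHom ℂ) f) =
      theta p ((secMat p f).trace) := by
  rw [helper2082.sum_twist_eq p ω hω, helper2082.trace_secMat, map_nsmul, theta_apply]
  rfl

/-- Lemma C: all mixed power sums of the roots come from `ℤ((q))`. -/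
theorem mixed_sum_eq (ω : ℂˣ) (hω : IsPrimitiveRoot ω p) (m M : ℕ) :
    ∑ i, xRoot p ω i ^ m * yRoot p ω i ^ M =
      theta p (qExpand ℤ p (jqModC ℤ) ^ m * gHat p ^ M +
        (secMat p (jqModC ℤ ^ m * yHat p ^ M)).trace) := by
  rw [Fintype.sum_option, map_add, ← sum_twist_eq_theta_trace ω hω]
  simp only [xRoot, yRoot, map_mul, map_pow]

/-- Lemma D: the Hecke input. -/
theorem exists_hecke_poly (m M : ℕ) (hm : m ≤ M) (hM : 1 ≤ M) :
    ∃ P : ℤ[X], qExpand ℤ p (jqModC ℤ) ^ m * gHat p ^ M +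
        (secMat p (jqModC ℤ ^ m * yHat p ^ M)).trace =
      (p : LaurentSeries ℤ) * evalJ (jqModC ℤ) P := by
  obtain ⟨P, -, hP⟩ := helper2627.hecke_link_gHat p m M hm hM
  refine ⟨P, ?_⟩
  rw [← hP]
  have h1 : jqModC ℤ ^ m * yHat p ^ M =
      qExpand ℤ p (deltaHatInv ℤ ^ M) * (jqModC ℤ ^ m * deltaHat ℤ ^ M) := by
    rw [yHat, mul_pow, map_pow]
    ring
  have h2 : sect p 0 (jqModC ℤ ^ m * deltaHat ℤ ^ M) =
      helper2627.laurentU p (jqModC ℤ ^ m * deltaHat ℤ ^ M) := by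
    ext n
    simp
  rw [h1, helper2082.secMat_qExpand_mul, Matrix.trace_smul, helper2082.trace_secMat, h2,
    smul_eq_mul, nsmul_eq_mul]
  ring

/-- Lemma E: the mixed power sums in the Hecke range lie in `ℂ[V_p ĵ]`. -/
theorem mixed_sum_mem (ω : ℂˣ) (hω : IsPrimitiveRoot ω p) (m M : ℕ) (hm : m ≤ M) (hM : 1 ≤ M) :
    ∑ i, xRoot p ω i ^ m * yRoot p ω i ^ M ∈ polyAlg (qExpand ℂ p (jqModC ℂ)) := by
  obtain ⟨P, hP⟩ := exists_hecke_poly (p := p) m M hm hM
  rw [mixed_sum_eq ω hω, hP, map_mul, map_natCast]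
  exact (polyAlg _).mul_mem ((polyAlg _).natCast_mem p) (qExpand_coeffMap_evalJ_mem p P)

/-! ### The product of the `y`-roots -/

theorem leadAt_gHat : LeadAt (gHat p) ((p : ℤ) - 1) ((p : ℤ) ^ 12) := by
  have h1 : LeadAt ((p : LaurentSeries ℤ) ^ 12) (((12 : ℕ) : ℤ) * 0) (((p : ℕ) : ℤ) ^ 12) :=
    (leadAt_natCast (A := ℤ) p).pow 12
  have h2 := (leadAt_deltaHat ℤ).qExpand p
  have h3 := (h1.mul h2).mul (leadAt_deltaHatInv ℤ)
  have e1 : ((12 : ℕ) : ℤ) * 0 + (p : ℤ) * 1 + -1 = (p : ℤ) - 1 := by ring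
  have e2 : ((p : ℕ) : ℤ) ^ 12 * 1 * 1 = (p : ℤ) ^ 12 := by ring
  rw [e1, e2] at h3
  exact h3

theorem leadAt_yHat : LeadAt (yHat p) (1 - (p : ℤ)) 1 := by
  have h := (leadAt_deltaHat ℤ).mul ((leadAt_deltaHatInv ℤ).qExpand p)
  have e1 : (1 : ℤ) + (p : ℤ) * -1 = 1 - (p : ℤ) := by ring
  rw [e1, mul_one] at h
  exact h

omit hp in
/-- `(∏_{b<p} ω^b)^z = ±1`. -/
theorem prod_pow_zpow_eq (ω : ℂˣ) (hω : IsPrimitiveRoot ω p) (z : ℤ) :
    ∏ b : Fin p, (((ω ^ (b : ℕ)) ^ z : ℂˣ) : ℂ) = 1 ∨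
      ∏ b : Fin p, (((ω ^ (b : ℕ)) ^ z : ℂˣ) : ℂ) = -1 := by
  set W : ℂˣ := ∏ b : Fin p, ω ^ (b : ℕ) with hW
  have h1 : ∏ b : Fin p, (((ω ^ (b : ℕ)) ^ z : ℂˣ) : ℂ) = ((W : ℂ)) ^ z := by
    rw [← Units.val_zpow_eq_zpow_val, hW, ← Finset.prod_zpow, Units.coe_prod]
  have h2 : W ^ 2 = 1 := by
    rw [hW, Finset.prod_pow_eq_pow_sum, ← pow_mul, Fin.sum_univ_eq_sum_range (fun i => i) p,
      Finset.sum_range_id_mul_two, pow_mul, hω.pow_eq_one, one_pow]
  have h3 : (W : ℂ) = 1 ∨ (W : ℂ) = -1 := by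
    have : (W : ℂ) * (W : ℂ) = 1 := by
      rw [← Units.val_mul, ← pow_two, h2, Units.val_one]
    exact mul_self_eq_one_iff.mp this
  rw [h1]
  rcases h3 with h | h
  · left; rw [h, one_zpow]
  · rw [h]
    rcases Int.even_or_odd z with hz | hz
    · left; exact hz.neg_one_zpow
    · right; exact hz.neg_one_zpow

/-- Lemma F: the leading term of the product of the `y`-roots. -/
theorem exists_leadAt_prod_yRoot (ω : ℂˣ) (hω : IsPrimitiveRoot ω p) :
    ∃ a : ℂ, (a = (p : ℂ) ^ 12 ∨ a = -(p : ℂ) ^ 12) ∧ LeadAt (∏ i, yRoot p ω i) 0 a := by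
  have hnone : LeadAt (yRoot p ω none) ((p : ℤ) * ((p : ℤ) - 1)) ((p : ℂ) ^ 12) := by
    have h := ((leadAt_gHat (p := p)).coeffMap (Int.castRingHom ℂ)).qExpand p
    have e : (Int.castRingHom ℂ) ((p : ℤ) ^ 12) = (p : ℂ) ^ 12 := by simp
    rw [e] at h
    exact h
  have hsome : ∀ b : Fin p, LeadAt (yRoot p ω (some b)) (1 - (p : ℤ))
      ((((ω ^ (b : ℕ)) ^ (1 - (p : ℤ)) : ℂˣ) : ℂ)) := by
    intro b
    have h := ((leadAt_yHat (p := p)).coeffMap (Int.castRingHom ℂ)).twist (ω ^ (b : ℕ))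
    rw [map_one, mul_one] at h
    exact h
  have hprod := leadAt_prod Finset.univ (fun b : Fin p => yRoot p ω (some b))
    (fun _ => 1 - (p : ℤ)) (fun b => (((ω ^ (b : ℕ)) ^ (1 - (p : ℤ)) : ℂˣ) : ℂ))
    (fun b _ => hsome b)
  have hall := hnone.mul hprod
  have e1 : (p : ℤ) * ((p : ℤ) - 1) + ∑ _b : Fin p, (1 - (p : ℤ)) = 0 := by
    rw [Finset.sum_const, Finset.card_univ, Fintype.card_fin, nsmul_eq_mul]
    ring
  rw [e1, ← Fintype.prod_option (f := yRoot p ω)] at hall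
  refine ⟨_, ?_, hall⟩
  rcases prod_pow_zpow_eq ω hω (1 - (p : ℤ)) with h | h
  · left; rw [h, mul_one]
  · right; rw [h, mul_neg, mul_one]

variable (p) in
/-- the `ℚ`-subalgebra `ℂ[V_p ĵ]` of `ℂ((s))`. -/
abbrev RAlg : Subalgebra ℚ (LaurentSeries ℂ) := polyAlg (qExpand ℂ p (jqModC ℂ))

/-- Lemma G: the product of the `y`-roots is the constant `±p^12`. -/
theorem exists_prod_yRoot_eq (ω : ℂˣ) (hω : IsPrimitiveRoot ω p) :
    ∃ a : ℂ, (a = (p : ℂ) ^ 12 ∨ a = -(p : ℂ) ^ 12) ∧ ∏ i, yRoot p ω i = HahnSeries.C a := by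
  obtain ⟨a, ha, hlead⟩ := exists_leadAt_prod_yRoot ω hω
  refine ⟨a, ha, eq_C_of_mem_polyAlg_of_leadAt p _ a ?_ hlead⟩
  exact prod_mem_of_coeff_zero_mem (RAlg p) (yRoot p ω)
    (coeff_prod_X_sub_C_mem_of_mixed' (RAlg p) (xRoot p ω) (yRoot p ω)
      (fun m M hm hM => mixed_sum_mem ω hω m M hm hM) 0)

/-- Lemma H: all mixed power sums lie in `ℂ[V_p ĵ]`. -/
theorem mixed_sum_mem_all (ω : ℂˣ) (hω : IsPrimitiveRoot ω p) (m M : ℕ) :
    ∑ i, xRoot p ω i ^ m * yRoot p ω i ^ M ∈ RAlg p := by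
  obtain ⟨a, ha, hprod⟩ := exists_prod_yRoot_eq ω hω
  have hp0 : (p : ℂ) ≠ 0 := Nat.cast_ne_zero.mpr hp.out.ne_zero
  have ha0 : a ≠ 0 := by
    rcases ha with h | h <;> rw [h]
    · exact pow_ne_zero _ hp0
    · exact neg_ne_zero.mpr (pow_ne_zero _ hp0)
  refine mixed_psum_mem (RAlg p) (xRoot p ω) (yRoot p ω) (HahnSeries.C a) (HahnSeries.C a⁻¹)
    (C_mem_polyAlg _ _) ?_ hprod (fun m M hm hM => mixed_sum_mem ω hω m M hm hM) m M
  rw [← map_mul, mul_inv_cancel₀ ha0, map_one]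

/-! ### Descent to `ℤ[ĵ]` and the assembly -/

/-- Lemma J (for `Φ`). -/
theorem map_theta_phiZero (ω : ℂˣ) (hω : IsPrimitiveRoot ω p) :
    ((X - C (qExpand ℤ p (jqModC ℤ))) * (secMat p (jqModC ℤ)).charpoly).map (theta p) =
      ∏ i, (X - C (xRoot p ω i)) := by
  rw [Polynomial.map_mul, Polynomial.map_sub, Polynomial.map_X, Polynomial.map_C,
    charpoly_secMat_map_theta ω hω, Fintype.prod_option]
  rfl

/-- Lemma J (for `G`). -/
theorem map_theta_gZero (ω : ℂˣ) (hω : IsPrimitiveRoot ω p) :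
    ((X - C (gHat p)) * (secMat p (yHat p)).charpoly).map (theta p) =
      ∏ i, (X - C (yRoot p ω i)) := by
  rw [Polynomial.map_mul, Polynomial.map_sub, Polynomial.map_X, Polynomial.map_C,
    charpoly_secMat_map_theta ω hω, Fintype.prod_option]
  rfl

/-- Lemma K: a monic polynomial over `ℤ((q))` whose coefficients land in `ℂ[V_p ĵ]` comes from
`ℤ[Y][X]`. -/
theorem exists_lift_of_coeff_mem (Q : (LaurentSeries ℤ)[X]) (hQ : Q.Monic)
    (h : ∀ k, theta p (Q.coeff k) ∈ RAlg p) :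
    ∃ Φ : ℤ[X][X], Φ.Monic ∧ Φ.natDegree = Q.natDegree ∧ Φ.map (evalJ (jqModC ℤ)) = Q := by
  have hl : Q ∈ Polynomial.lifts (evalJ (jqModC ℤ)) := by
    rw [Polynomial.lifts_iff_coeff_lifts]
    intro k
    obtain ⟨P, hP⟩ := exists_evalJ_eq_of_mem_polyAlg p (Q.coeff k) (h k)
    exact ⟨P, hP⟩
  obtain ⟨q, hq, hdeg, hmon⟩ := Polynomial.lifts_and_natDegree_eq_and_monic hl hQ
  exact ⟨q, hmon, hdeg, hq⟩

variable (p) in
/-- **P4**: the formal prime-level data exist for every prime `p`. -/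
theorem stmt_FormalPrime : Stmt_FormalPrime p := by
  obtain ⟨ω, hω⟩ := exists_primitiveRoot_unit p
  set jp : LaurentSeries ℤ := qExpand ℤ p (jqModC ℤ) with hjp
  set Ψ : (LaurentSeries ℤ)[X] := (secMat p (jqModC ℤ)).charpoly with hΨ
  set Γ : (LaurentSeries ℤ)[X] := (secMat p (yHat p)).charpoly with hΓ
  have hΨm : Ψ.Monic := Matrix.charpoly_monic _
  have hΓm : Γ.Monic := Matrix.charpoly_monic _
  have hΨd : Ψ.natDegree = p := by
    rw [hΨ, Matrix.charpoly_natDegree_eq_dim, Fintype.card_fin]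
  have hΦ0m : ((X - C jp) * Ψ).Monic := (monic_X_sub_C _).mul hΨm
  have hG0m : ((X - C (gHat p)) * Γ).Monic := (monic_X_sub_C _).mul hΓm
  obtain ⟨Φ, hΦm, hΦd, hΦ⟩ := exists_lift_of_coeff_mem ((X - C jp) * Ψ) hΦ0m (fun k => by
    rw [← Polynomial.coeff_map, map_theta_phiZero ω hω]
    exact coeff_prod_X_sub_C_mem_of_psum_mem (RAlg p) (xRoot p ω)
      (fun k _ _ => by simpa using mixed_sum_mem_all ω hω k 0) k)
  obtain ⟨G, hGm, -, hG⟩ := exists_lift_of_coeff_mem ((X - C (gHat p)) * Γ) hG0m (fun k => by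
    rw [← Polynomial.coeff_map, map_theta_gZero ω hω]
    exact coeff_prod_X_sub_C_mem_of_psum_mem (RAlg p) (yRoot p ω)
      (fun k _ _ => by simpa using mixed_sum_mem_all ω hω 0 k) k)
  have hT : ∀ i : ℕ, ∃ P : ℤ[X], evalJ (jqModC ℤ) P =
      jp ^ i * gHat p + (secMat p (jqModC ℤ ^ i * yHat p)).trace := by
    intro i
    apply exists_evalJ_eq_of_mem_polyAlg p
    have h := mixed_sum_mem_all ω hω i 1
    rw [mixed_sum_eq ω hω, pow_one, pow_one] at h
    exact h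
  choose T hT using hT
  refine helper688.stmt_FormalPrime_of_cayleyHamilton p Φ G T Ψ hΦm ?_ hGm ?_ ?_ hΦ ?_ ?_
  · -- degree of Φ
    rw [hΦd, (monic_X_sub_C jp).natDegree_mul hΨm, natDegree_X_sub_C, hΨd, add_comm]
  · -- constant term of G
    have h1 : evalJ (jqModC ℤ) (G.coeff 0) = ((X - C (gHat p)) * Γ).coeff 0 := by
      rw [← hG, Polynomial.coeff_map]
    obtain ⟨a, ha, hprod⟩ := exists_prod_yRoot_eq ω hω
    have h2 : theta p (((X - C (gHat p)) * Γ).coeff 0) =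
        (-1) ^ Fintype.card (Option (Fin p)) * HahnSeries.C a := by
      rw [← Polynomial.coeff_map, map_theta_gZero ω hω, coeff_zero_prod_X_sub_C, hprod]
    have h3 : ∃ z : ℤ, (z = (p : ℤ) ^ 12 ∨ z = -(p : ℤ) ^ 12) ∧
        theta p (((X - C (gHat p)) * Γ).coeff 0) = theta p (HahnSeries.C z) := by
      rcases neg_one_pow_mul_map_eq (HahnSeries.C : ℂ →+* LaurentSeries ℂ)
        (Fintype.card (Option (Fin p))) a with h | h <;> rcases ha with ha | ha
      · exact ⟨(p : ℤ) ^ 12, Or.inl rfl, by rw [h2, h, ha, theta_C]; push_cast; rfl⟩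
      · exact ⟨-(p : ℤ) ^ 12, Or.inr rfl, by rw [h2, h, ha, theta_C]; push_cast; rfl⟩
      · exact ⟨-(p : ℤ) ^ 12, Or.inr rfl, by rw [h2, h, ha, theta_C]; push_cast; rfl⟩
      · exact ⟨(p : ℤ) ^ 12, Or.inl rfl, by rw [h2, h, ha, theta_C, neg_neg]; push_cast; rfl⟩
    obtain ⟨z, hz, h4⟩ := h3
    have h5 := theta_injective p h4
    have h6 : evalJ (jqModC ℤ) (G.coeff 0) = evalJ (jqModC ℤ) (Polynomial.C z) := by
      rw [h1, h5]
      simp [evalJ]
    have h7 := evalJ_jqModC_injective h6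
    rcases hz with hz | hz
    · left; rw [h7, hz]
    · right; rw [h7, hz]
  · -- G(ĝ, ĵ) = 0
    rw [hG, Polynomial.eval_mul, Polynomial.eval_sub, Polynomial.eval_X, Polynomial.eval_C,
      sub_self, zero_mul]
  · -- the trace identity
    simp_rw [hT]
    have hCH0 : Polynomial.aeval (secMat p (jqModC ℤ)) Ψ = 0 := Matrix.aeval_self_charpoly _
    have hlt : Ψ.natDegree < p + 1 := by omega
    have hsum1 : ∑ i ∈ Finset.range (p + 1), Ψ.coeff i * (jp ^ i * gHat p) =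
        Ψ.eval jp * gHat p := by
      rw [Polynomial.eval_eq_sum_range' hlt, Finset.sum_mul]
      exact Finset.sum_congr rfl fun i _ => by ring
    have hsum2 : ∑ i ∈ Finset.range (p + 1),
        Ψ.coeff i * (secMat p (jqModC ℤ ^ i * yHat p)).trace = 0 := by
      have h1 : ∀ i : ℕ, Ψ.coeff i * (secMat p (jqModC ℤ ^ i * yHat p)).trace =
          ((Ψ.coeff i • secMat p (jqModC ℤ) ^ i) * secMat p (yHat p)).trace := by
        intro i
        rw [helper2082.secMat_mul, helper2082.secMat_pow, smul_mul_assoc, Matrix.trace_smul,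
          smul_eq_mul]
      simp_rw [h1]
      rw [← Matrix.trace_sum, ← Finset.sum_mul, ← Polynomial.aeval_eq_sum_range' hlt, hCH0,
        zero_mul, Matrix.trace_zero]
    rw [← hsum1, ← add_zero (∑ i ∈ Finset.range (p + 1), Ψ.coeff i * (jp ^ i * gHat p)),
      ← hsum2, ← Finset.sum_add_distrib]
    exact Finset.sum_congr rfl fun i _ => by ring
  · -- Cayley–Hamilton: `(V_p Ψ)(ĵ) = 0`
    apply coeffMap_injective_of_injective (Int.castRingHom ℂ) (Int.castRingHom ℂ).injective_int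
    rw [map_zero, ← Polynomial.eval_map_apply, Polynomial.map_map]
    have hcomp : (coeffMap (Int.castRingHom ℂ)).comp (qExpand ℤ p) = theta p := by
      ext1 f
      simp [theta, coeffMap_qExpand]
    rw [hcomp, charpoly_secMat_map_theta ω hω, Polynomial.eval_prod]
    refine Finset.prod_eq_zero (Finset.mem_univ (⟨0, hp.out.pos⟩ : Fin p)) ?_
    simp [helper688.twist_one]

end Assembly

end

end Fermat.Agent.S28.helper508
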