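/-
S28 (Igusa) — P6: prime-level Igusa irreducibility ("nonrat_p"), from `helper328.Stmt_FormalPrime p`.
Author: helper754.  Hypothesis-passing; complete proofs.

For every field `κ` with `(p : κ) ≠ 0`:
* `nonrat`  : `j(q^p) ∉ κ(j)` inside `κ((q))`;
* `deg_ge`  : no nonzero `Q ∈ κ[Y][X]` of `X`-degree `≤ p` has `Q(j(q^p), j) = 0`.
-/
import Fermat.Agent.S28.helper328_PrimeSpec

set_option autoImplicit false

namespace Fermat.Agent.S28.helper754

open Polynomial ModularCurve Fermat.Agent.S28.helper328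

noncomputable section

/-! ## Generalities on `evalJ`, `coeffMap`, `qExpand` -/

section Basics

variable {R S : Type*} [CommRing R] [CommRing S]

/-- A ring hom between Laurent series rings commutes with `evalJ`. -/
theorem map_evalJ (f : LaurentSeries R →+* LaurentSeries S) (J : LaurentSeries R)
    (P : Polynomial ℤ) : f (evalJ J P) = evalJ (f J) P := by
  unfold evalJ
  rw [Polynomial.coe_eval₂RingHom, Polynomial.coe_eval₂RingHom, Polynomial.hom_eval₂]
  congr 1
  exact RingHom.ext_int _ _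

theorem comp_evalJ (f : LaurentSeries R →+* LaurentSeries S) (J : LaurentSeries R) :
    f.comp (evalJ J) = evalJ (f J) :=
  RingHom.ext fun P => map_evalJ f J P

theorem map_map_evalJ (f : LaurentSeries R →+* LaurentSeries S) (J : LaurentSeries R)
    (Φ : Polynomial (Polynomial ℤ)) : (Φ.map (evalJ J)).map f = Φ.map (evalJ (f J)) := by
  rw [Polynomial.map_map, comp_evalJ]

theorem twist_one (x : LaurentSeries R) : twist (1 : Rˣ) x = x := by
  ext n
  simp

theorem Jsub_one (m : ℕ+) : Jsub R (1 : Rˣ) m = qExpand R (m : ℕ) (jqModC R) := by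
  unfold Jsub
  rw [twist_one]

theorem coeffMap_injective {f : R →+* S} (hf : Function.Injective f) :
    Function.Injective (coeffMap f) := by
  intro x y h
  ext n
  apply hf
  have := congrArg (fun z => z.coeff n) h
  simpa using this

end Basics

/-! ## Orders in `κ((q))` -/

section Orders

variable {κ : Type*} [Field κ]

theorem jq_ne_zero : jqModC κ ≠ 0 := jqModC_ne_zero_of_nontrivial κ

theorem order_jq : (jqModC κ).order = -1 := by
  apply le_antisymm
  · exact HahnSeries.order_le_of_coeff_ne_zero (by rw [coeff_jqModC_neg_one]; exact one_ne_zero)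
  · by_contra h
    push Not at h
    exact jq_ne_zero (κ := κ) (HahnSeries.coeff_order_eq_zero.mp (coeff_jqModC_of_lt κ h))

theorem order_jq_pow (i : ℕ) : (jqModC κ ^ i).order = -(i : ℤ) := by
  rw [HahnSeries.order_pow, order_jq]
  simp

theorem qExpand_ne_zero (n : ℕ) [NeZero n] {x : LaurentSeries κ} (hx : x ≠ 0) :
    qExpand κ n x ≠ 0 := fun h =>
  hx (qExpand_injective n (by rw [h, map_zero]))

theorem order_qExpand (n : ℕ) [NeZero n] (x : LaurentSeries κ) :
    (qExpand κ n x).order = (n : ℤ) * x.order := by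
  rcases eq_or_ne x 0 with rfl | hx
  · simp
  have hx' := qExpand_ne_zero n hx
  apply le_antisymm
  · apply HahnSeries.order_le_of_coeff_ne_zero
    rw [qExpand_coeff_mul]
    exact fun h => hx (HahnSeries.coeff_order_eq_zero.mp h)
  · rw [HahnSeries.le_order_iff_forall hx']
    intro k hk
    by_cases hdvd : (n : ℤ) ∣ k
    · obtain ⟨m, rfl⟩ := hdvd
      rw [qExpand_coeff_mul]
      apply HahnSeries.coeff_eq_zero_of_lt_order
      have hn : (0 : ℤ) < n := by exact_mod_cast Nat.pos_of_ne_zero (NeZero.ne n)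
      exact lt_of_mul_lt_mul_left hk hn.le
    · exact qExpand_coeff_of_not_dvd n x hdvd

/-- **Order lemma**: `1, j, …, j^(p-1)` are linearly independent over `V_p(κ((q)))`. -/
theorem eq_zero_of_sum_qExpand_mul_pow (p : ℕ) [NeZero p] (c : ℕ → LaurentSeries κ)
    (h : ∑ i ∈ Finset.range p, qExpand κ p (c i) * jqModC κ ^ i = 0) :
    ∀ i < p, c i = 0 := by
  classical
  by_contra hcon
  push Not at hcon
  obtain ⟨i₁, hi₁, hci₁⟩ := hcon
  set t : ℕ → LaurentSeries κ := fun i => qExpand κ p (c i) * jqModC κ ^ i with ht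
  have hord : ∀ i, c i ≠ 0 → (t i).order = (p : ℤ) * (c i).order - i := by
    intro i hi
    rw [ht]
    simp only
    rw [HahnSeries.order_mul (qExpand_ne_zero p hi) (pow_ne_zero _ jq_ne_zero), order_qExpand,
      order_jq_pow]
    ring
  have htne : ∀ i, c i ≠ 0 → t i ≠ 0 := fun i hi =>
    mul_ne_zero (qExpand_ne_zero p hi) (pow_ne_zero _ jq_ne_zero)
  set S : Finset ℕ := (Finset.range p).filter (fun i => c i ≠ 0) with hS
  have hSne : S.Nonempty := ⟨i₁, by simp [hS, hi₁, hci₁]⟩
  obtain ⟨i₀, hi₀S, hmin⟩ := Finset.exists_min_image S (fun i => (t i).order) hSne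
  have hi₀ : i₀ < p ∧ c i₀ ≠ 0 := by simpa [hS] using hi₀S
  have hcoeff := congrArg (fun z : LaurentSeries κ => z.coeff (t i₀).order) h
  simp only [HahnSeries.coeff_sum, HahnSeries.coeff_zero] at hcoeff
  rw [Finset.sum_eq_single i₀] at hcoeff
  · exact htne i₀ hi₀.2 (HahnSeries.coeff_order_eq_zero.mp hcoeff)
  · intro i hi hne
    by_cases hci : c i = 0
    · have h0 : t i = 0 := by simp [ht, hci]
      rw [h0, HahnSeries.coeff_zero]
    · have hiS : i ∈ S := by simp [hS, Finset.mem_range.mp hi, hci]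
      have hle := hmin i hiS
      apply HahnSeries.coeff_eq_zero_of_lt_order
      refine lt_of_le_of_ne hle ?_
      intro heq
      rw [hord i₀ hi₀.2, hord i hci] at heq
      have hip : i < p := Finset.mem_range.mp hi
      have hdvd : (p : ℤ) ∣ (i : ℤ) - (i₀ : ℤ) := ⟨(c i).order - (c i₀).order, by linarith⟩
      have habs : |(i : ℤ) - (i₀ : ℤ)| < (p : ℤ) := by
        rw [abs_lt]
        constructor <;> [skip; skip] <;> omega
      have hzero := Int.eq_zero_of_abs_lt_dvd hdvd habs
      exact hne (by omega)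
  · intro hnot
    exact absurd (Finset.mem_range.mpr hi₀.1) hnot

/-- A monic polynomial of degree `< p` over `κ((q))`, with `V_p` applied to its coefficients,
does not vanish at `j`. -/
theorem eval_map_qExpand_ne_zero (p : ℕ) [NeZero p] {A : Polynomial (LaurentSeries κ)}
    (hA : A.Monic) (hdeg : A.natDegree < p) :
    (A.map (qExpand κ p)).eval (jqModC κ) ≠ 0 := by
  intro h
  have hnat : (A.map (qExpand κ p)).natDegree < p :=
    lt_of_le_of_lt (Polynomial.natDegree_map_le) hdeg
  rw [Polynomial.eval_eq_sum_range' hnat] at h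
  simp only [Polynomial.coeff_map] at h
  have h0 := eq_zero_of_sum_qExpand_mul_pow p (fun i => A.coeff i) h A.natDegree hdeg
  rw [hA.coeff_natDegree] at h0
  exact one_ne_zero h0

end Orders

/-! ## Polynomials in `j` -/

section PolyInJ

variable {κ : Type*} [Field κ]

/-- The coefficient of `q^(-deg P)` in `P(j)` is the leading coefficient of `P`. -/
theorem coeff_aeval_jq (P : Polynomial κ) :
    (Polynomial.aeval (jqModC κ) P).coeff (-(P.natDegree : ℤ)) = P.leadingCoeff := by
  rw [Polynomial.aeval_eq_sum_range, HahnSeries.coeff_sum, Finset.sum_eq_single P.natDegree]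
  · rw [Algebra.smul_def, algebraMap_laurentSeries_eq_single, HahnSeries.coeff_single_mul,
      sub_zero, coeff_jqModC_pow_self, mul_one]
    rfl
  · intro i hi hne
    have hlt : i < P.natDegree := lt_of_le_of_ne (Nat.lt_succ_iff.mp (Finset.mem_range.mp hi)) hne
    rw [Algebra.smul_def, algebraMap_laurentSeries_eq_single, HahnSeries.coeff_single_mul,
      sub_zero, coeff_jqModC_pow_of_lt κ (neg_lt_neg (by exact_mod_cast hlt)), mul_zero]
  · intro h
    exact absurd (Finset.mem_range.mpr (Nat.lt_succ_self _)) h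

theorem aeval_jq_ne_zero {P : Polynomial κ} (hP : P ≠ 0) : Polynomial.aeval (jqModC κ) P ≠ 0 := by
  intro h
  have := coeff_aeval_jq P
  rw [h, HahnSeries.coeff_zero] at this
  exact hP (Polynomial.leadingCoeff_eq_zero.mp this.symm)

theorem aeval_jq_injective : Function.Injective (Polynomial.aeval (jqModC κ) : Polynomial κ → LaurentSeries κ) := by
  rw [injective_iff_map_eq_zero]
  intro P hP
  by_contra h
  exact aeval_jq_ne_zero h hP

/-- A series of positive order is not a nonzero polynomial in `j`. -/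
theorem ne_aeval_jq_of_order_pos {g : LaurentSeries κ} (hg0 : g ≠ 0) (hg : 0 < g.order)
    (P : Polynomial κ) : g ≠ Polynomial.aeval (jqModC κ) P := by
  intro h
  have hP : P ≠ 0 := by
    rintro rfl
    exact hg0 (by rw [h, map_zero])
  have h1 := coeff_aeval_jq P
  rw [← h, HahnSeries.coeff_eq_zero_of_lt_order (lt_of_le_of_lt (by simp) hg)] at h1
  exact hP (Polynomial.leadingCoeff_eq_zero.mp h1.symm)

/-- An element of `κ(j)` which is integral over `κ[j]` is a polynomial in `j`. -/
theorem exists_aeval_eq_of_mem_adjoin {g : LaurentSeries κ}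
    (hgE : g ∈ IntermediateField.adjoin κ {jqModC κ})
    {G' : Polynomial (Polynomial κ)} (hG' : G'.Monic)
    (hGg : (G'.map ((Polynomial.aeval (jqModC κ) : Polynomial κ →ₐ[κ] LaurentSeries κ) :
      Polynomial κ →+* LaurentSeries κ)).eval g = 0) :
    ∃ P : Polynomial κ, g = Polynomial.aeval (jqModC κ) P := by
  obtain ⟨a, b, hab⟩ := (IntermediateField.mem_adjoin_simple_iff κ g).mp hgE
  have hinj : Function.Injective
      ((Polynomial.aeval (jqModC κ) : Polynomial κ →ₐ[κ] LaurentSeries κ) :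
        Polynomial κ →+* LaurentSeries κ) :=
    aeval_jq_injective
  obtain ⟨φ, hφ⟩ : ∃ φ : FractionRing (Polynomial κ) →+* LaurentSeries κ,
      ∀ x : Polynomial κ, φ (algebraMap (Polynomial κ) (FractionRing (Polynomial κ)) x) =
        Polynomial.aeval (jqModC κ) x :=
    ⟨IsFractionRing.lift hinj, fun x => IsFractionRing.lift_algebraMap hinj x⟩
  obtain ⟨ρ, hρ⟩ : ∃ ρ : FractionRing (Polynomial κ),
      ρ = algebraMap (Polynomial κ) (FractionRing (Polynomial κ)) a /
        algebraMap (Polynomial κ) (FractionRing (Polynomial κ)) b := ⟨_, rfl⟩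
  have hφρ : φ ρ = g := by
    rw [hρ, map_div₀, hφ, hφ, hab]
  have hφc : φ.comp (algebraMap (Polynomial κ) (FractionRing (Polynomial κ))) =
      ((Polynomial.aeval (jqModC κ) : Polynomial κ →ₐ[κ] LaurentSeries κ) :
        Polynomial κ →+* LaurentSeries κ) :=
    RingHom.ext fun x => hφ x
  have hroot' : Polynomial.aeval ρ G' = 0 := by
    apply φ.injective
    rw [map_zero, Polynomial.aeval_def, Polynomial.hom_eval₂, hφρ, hφc, ← Polynomial.eval_map]
    exact hGg
  have hint : IsIntegral (Polynomial κ) ρ := ⟨G', hG', hroot'⟩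
  obtain ⟨P, hP⟩ := IsIntegrallyClosed.isIntegral_iff.mp hint
  exact ⟨P, by rw [← hφρ, ← hP, hφ]⟩

end PolyInJ

/-! ## The cofactor `Ψ` is irreducible over `κ((q))` -/

section Cofactor

variable {κ : Type*} [Field κ] (p : ℕ) [NeZero p]

/-- `Ψ` of degree `p` over `κ((q))` with `V_p(Ψ)(j) = 0` has only trivial monic factorisations. -/
theorem eq_one_or_eq_one_of_mul_eq {Ψ A B : Polynomial (LaurentSeries κ)}
    (hΨdeg : Ψ.natDegree = p) (hroot : (Ψ.map (qExpand κ p)).eval (jqModC κ) = 0)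
    (hA : A.Monic) (hB : B.Monic) (hAB : A * B = Ψ) : A = 1 ∨ B = 1 := by
  have hdeg : A.natDegree + B.natDegree = p := by rw [← hA.natDegree_mul hB, hAB, hΨdeg]
  rw [← hAB, Polynomial.map_mul, Polynomial.eval_mul, mul_eq_zero] at hroot
  rcases hroot with h | h
  · right
    have : ¬ A.natDegree < p := fun hlt => eval_map_qExpand_ne_zero p hA hlt h
    exact hB.natDegree_eq_zero.mp (by omega)
  · left
    have : ¬ B.natDegree < p := fun hlt => eval_map_qExpand_ne_zero p hB hlt h
    exact hA.natDegree_eq_zero.mp (by omega)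

/-- `Ψ` has no root in `κ((q))`. -/
theorem eval_ne_zero_of_cofactor (hp : 2 ≤ p) {Ψ : Polynomial (LaurentSeries κ)} (hΨ : Ψ.Monic)
    (hΨdeg : Ψ.natDegree = p) (hroot : (Ψ.map (qExpand κ p)).eval (jqModC κ) = 0)
    (r : LaurentSeries κ) : Ψ.eval r ≠ 0 := by
  intro h
  obtain ⟨B, hB⟩ := Polynomial.dvd_iff_isRoot.mpr h
  have hBm : B.Monic := (Polynomial.monic_X_sub_C r).of_mul_monic_left (hB ▸ hΨ)
  rcases eq_one_or_eq_one_of_mul_eq p hΨdeg hroot (Polynomial.monic_X_sub_C r) hBm hB.symm with h1 | h1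
  · have := congrArg Polynomial.natDegree h1
    simp at this
  · rw [h1, mul_one] at hB
    rw [hB, Polynomial.natDegree_X_sub_C] at hΨdeg
    omega

end Cofactor

/-! ## The main argument, for abstract prime-level data over `κ` -/

section Main

variable {κ : Type*} [Field κ] (p : ℕ) [NeZero p]

/-- **Prime-level Igusa, abstract form.**  Let `Φ` be monic of degree `p + 1` with
`Φ(X, j) = (X - j(q^p)) Ψ`, `V_p(Ψ)(j) = 0`, and let `g` be a nonzero series of positive order,
integral over `ℤ[j]` (monic `G`), with the Lagrange identity `Ψ(j_p) g = ∑ Ψ_i T_i(j)`.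
Then `j(q^p) ∉ κ(j)`. -/
theorem nonrat_of_data (hp : 2 ≤ p)
    (Φ G : Polynomial (Polynomial ℤ)) (T : ℕ → Polynomial ℤ) (Ψ : Polynomial (LaurentSeries κ))
    (g : LaurentSeries κ)
    (hΦ : Φ.Monic) (hΦdeg : Φ.natDegree = p + 1)
    (hfac : Φ.map (evalJ (jqModC κ)) = (X - C (qExpand κ p (jqModC κ))) * Ψ)
    (hroot : (Ψ.map (qExpand κ p)).eval (jqModC κ) = 0)
    (hG : G.Monic) (hGg : (G.map (evalJ (jqModC κ))).eval g = 0)
    (hlag : Ψ.eval (qExpand κ p (jqModC κ)) * g =
      ∑ i ∈ Finset.range (p + 1), Ψ.coeff i * evalJ (jqModC κ) (T i))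
    (hg0 : g ≠ 0) (hgord : 0 < g.order) :
    qExpand κ p (jqModC κ) ∉ IntermediateField.adjoin κ {jqModC κ} := by
  intro hmem
  set E := IntermediateField.adjoin κ {jqModC κ} with hE
  have hΦκ : (Φ.map (evalJ (jqModC κ))).Monic := hΦ.map _
  have hΨ : Ψ.Monic := (monic_X_sub_C _).of_mul_monic_left (hfac ▸ hΦκ)
  have hΨdeg : Ψ.natDegree = p := by
    have h1 : (Φ.map (evalJ (jqModC κ))).natDegree = p + 1 := by rw [hΦ.natDegree_map, hΦdeg]
    rw [hfac, (monic_X_sub_C _).natDegree_mul hΨ, natDegree_X_sub_C] at h1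
    omega
  let jE : E := ⟨jqModC κ, IntermediateField.mem_adjoin_simple_self κ _⟩
  let r : E := ⟨qExpand κ p (jqModC κ), hmem⟩
  let evE : Polynomial ℤ →+* E := Polynomial.eval₂RingHom (Int.castRingHom E) jE
  have hcomp : (algebraMap E (LaurentSeries κ)).comp evE = evalJ (jqModC κ) := by
    refine Polynomial.ringHom_ext' (RingHom.ext_int _ _) ?_
    simp [evE, evalJ, jE]
  set ΦE : Polynomial E := Φ.map evE with hΦEdef
  have hΦE : ΦE.map (algebraMap E (LaurentSeries κ)) =
      (X - C (algebraMap E (LaurentSeries κ) r)) * Ψ := by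
    rw [hΦEdef, Polynomial.map_map, hcomp, hfac]
    rfl
  have hΦEr : ΦE.eval r = 0 := by
    apply (algebraMap E (LaurentSeries κ)).injective
    rw [← Polynomial.eval₂_hom, ← Polynomial.eval_map, hΦE, map_zero]
    simp
  obtain ⟨ΨE, hΨE⟩ := Polynomial.dvd_iff_isRoot.mpr hΦEr
  have hΨmap : Ψ = ΨE.map (algebraMap E (LaurentSeries κ)) := by
    have h1 := congrArg (Polynomial.map (algebraMap E (LaurentSeries κ))) hΨE
    rw [hΦE, Polynomial.map_mul, Polynomial.map_sub, Polynomial.map_X, Polynomial.map_C] at h1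
    exact mul_left_cancel₀ (Polynomial.X_sub_C_ne_zero _) h1
  have hd : Ψ.eval (qExpand κ p (jqModC κ)) ≠ 0 :=
    eval_ne_zero_of_cofactor p hp hΨ hΨdeg hroot _
  have hgE : g ∈ E := by
    have h1 : Ψ.eval (qExpand κ p (jqModC κ)) ∈ E := by
      have h1' : (ΨE.map (algebraMap E (LaurentSeries κ))).eval (qExpand κ p (jqModC κ)) =
          algebraMap E (LaurentSeries κ) (ΨE.eval r) := by
        rw [Polynomial.eval_map, ← Polynomial.eval₂_hom]
        rfl
      rw [hΨmap, h1']
      exact (ΨE.eval r).2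
    have h2 : ∑ i ∈ Finset.range (p + 1), Ψ.coeff i * evalJ (jqModC κ) (T i) ∈ E := by
      refine sum_mem (fun i _ => mul_mem ?_ ?_)
      · rw [hΨmap, Polynomial.coeff_map]
        exact (ΨE.coeff i).2
      · rw [← hcomp]
        exact (evE (T i)).2
    have h3 : g = (Ψ.eval (qExpand κ p (jqModC κ)))⁻¹ *
        ∑ i ∈ Finset.range (p + 1), Ψ.coeff i * evalJ (jqModC κ) (T i) := by
      rw [← hlag, inv_mul_cancel_left₀ hd]
    rw [h3]
    exact mul_mem (inv_mem h1) h2
  have hcomp2 : ((Polynomial.aeval (jqModC κ) : Polynomial κ →ₐ[κ] LaurentSeries κ) :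
      Polynomial κ →+* LaurentSeries κ).comp (Polynomial.mapRingHom (Int.castRingHom κ)) =
      evalJ (jqModC κ) := by
    refine Polynomial.ringHom_ext' (RingHom.ext_int _ _) ?_
    simp [evalJ]
  obtain ⟨P, hgP⟩ := exists_aeval_eq_of_mem_adjoin hgE
    (G' := G.map (Polynomial.mapRingHom (Int.castRingHom κ))) (hG.map _)
    (by rw [Polynomial.map_map, hcomp2]; exact hGg)
  exact ne_aeval_jq_of_order_pos hg0 hgord P hgP

/-- **Degree bound, abstract form.**  If moreover `j(q^p) ∉ κ(j)`, then `j(q^p)` is not a root of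
any nonzero polynomial of degree `≤ p` over `κ[j]`, i.e. `[κ(j, j(q^p)) : κ(j)] ≥ p + 1`. -/
theorem deg_ge_of_data
    (Φ : Polynomial (Polynomial ℤ)) (Ψ : Polynomial (LaurentSeries κ))
    (hΦ : Φ.Monic) (hΦdeg : Φ.natDegree = p + 1)
    (hfac : Φ.map (evalJ (jqModC κ)) = (X - C (qExpand κ p (jqModC κ))) * Ψ)
    (hroot : (Ψ.map (qExpand κ p)).eval (jqModC κ) = 0)
    (hnon : qExpand κ p (jqModC κ) ∉ IntermediateField.adjoin κ {jqModC κ})
    (Q : Polynomial (Polynomial κ)) (hQ : Q ≠ 0) (hdeg : Q.natDegree ≤ p) :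
    Q.eval₂ ((Polynomial.aeval (jqModC κ) : Polynomial κ →ₐ[κ] LaurentSeries κ) :
      Polynomial κ →+* LaurentSeries κ) (qExpand κ p (jqModC κ)) ≠ 0 := by
  intro hQx
  set E := IntermediateField.adjoin κ {jqModC κ} with hE
  set x := qExpand κ p (jqModC κ) with hx
  have hΦκ : (Φ.map (evalJ (jqModC κ))).Monic := hΦ.map _
  have hΨ : Ψ.Monic := (monic_X_sub_C _).of_mul_monic_left (hfac ▸ hΦκ)
  have hΨdeg : Ψ.natDegree = p := by
    have h1 : (Φ.map (evalJ (jqModC κ))).natDegree = p + 1 := by rw [hΦ.natDegree_map, hΦdeg]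
    rw [hfac, (monic_X_sub_C _).natDegree_mul hΨ, natDegree_X_sub_C] at h1
    omega
  let jE : E := ⟨jqModC κ, IntermediateField.mem_adjoin_simple_self κ _⟩
  -- polynomials in `j`, with values in `E`
  obtain ⟨aE, haE⟩ : ∃ aE : Polynomial κ →+* E, (algebraMap E (LaurentSeries κ)).comp aE =
      ((Polynomial.aeval (jqModC κ) : Polynomial κ →ₐ[κ] LaurentSeries κ) :
        Polynomial κ →+* LaurentSeries κ) := by
    refine ⟨((Polynomial.aeval jE : Polynomial κ →ₐ[κ] E) : Polynomial κ →+* E), ?_⟩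
    refine Polynomial.ringHom_ext' ?_ ?_
    · ext a
      simp [jE]
    · simp [jE]
  obtain ⟨evE, hcomp⟩ : ∃ evE : Polynomial ℤ →+* E,
      (algebraMap E (LaurentSeries κ)).comp evE = evalJ (jqModC κ) := by
    refine ⟨Polynomial.eval₂RingHom (Int.castRingHom E) jE, ?_⟩
    refine Polynomial.ringHom_ext' (RingHom.ext_int _ _) ?_
    simp [evalJ, jE]
  have haEinj : Function.Injective aE := by
    intro u v huv
    apply aeval_jq_injective (κ := κ)
    have := congrArg (algebraMap E (LaurentSeries κ)) huv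
    rw [← RingHom.comp_apply, ← RingHom.comp_apply, haE] at this
    exact this
  -- `x` is algebraic over `E`, of degree `≤ p`
  have hQE0 : Q.map aE ≠ 0 := (Polynomial.map_ne_zero_iff haEinj).mpr hQ
  have hQEx : Polynomial.aeval x (Q.map aE) = 0 := by
    rw [Polynomial.aeval_def, Polynomial.eval₂_map, haE]
    exact hQx
  have hmdeg : (minpoly E x).natDegree ≤ p :=
    (Polynomial.natDegree_le_of_dvd (minpoly.dvd E x hQEx) hQE0).trans
      ((Polynomial.natDegree_map_le).trans hdeg)
  have hint : IsIntegral E x := isAlgebraic_iff_isIntegral.mp ⟨Q.map aE, hQE0, hQEx⟩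
  have hmm : (minpoly E x).Monic := minpoly.monic hint
  -- the minimal polynomial divides `Φ`
  have hΦEx : Polynomial.aeval x (Φ.map evE) = 0 := by
    rw [Polynomial.aeval_def, Polynomial.eval₂_map, hcomp, ← Polynomial.eval_map, hfac]
    simp [hx]
  obtain ⟨c1, hc1⟩ := minpoly.dvd E x hΦEx
  have hc1m : c1.Monic := hmm.of_mul_monic_left (hc1 ▸ hΦ.map evE)
  set mL : Polynomial (LaurentSeries κ) := (minpoly E x).map (algebraMap E (LaurentSeries κ))
    with hmL
  have hmLm : mL.Monic := hmm.map _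
  have hmLx : mL.eval x = 0 := by
    rw [hmL, Polynomial.eval_map, ← Polynomial.aeval_def]
    exact minpoly.aeval E x
  obtain ⟨m', hm'⟩ := Polynomial.dvd_iff_isRoot.mpr hmLx
  have hm'm : m'.Monic := (monic_X_sub_C x).of_mul_monic_left (hm' ▸ hmLm)
  have hprod : m' * c1.map (algebraMap E (LaurentSeries κ)) = Ψ := by
    have h1 := congrArg (Polynomial.map (algebraMap E (LaurentSeries κ))) hc1
    rw [Polynomial.map_map, hcomp, hfac, Polynomial.map_mul, ← hmL, hm', mul_assoc] at h1
    exact (mul_left_cancel₀ (Polynomial.X_sub_C_ne_zero _) h1).symm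
  rcases eq_one_or_eq_one_of_mul_eq p hΨdeg hroot hm'm (hc1m.map _) hprod with h1 | h1
  · -- minimal polynomial of degree one
    rw [h1, mul_one] at hm'
    have h2 := congrArg (fun q : Polynomial (LaurentSeries κ) => q.coeff 0) hm'
    simp only [hmL, Polynomial.coeff_map, Polynomial.coeff_sub, Polynomial.coeff_X_zero,
      Polynomial.coeff_C_zero, zero_sub] at h2
    apply hnon
    have h3 : x = -algebraMap E (LaurentSeries κ) ((minpoly E x).coeff 0) := by
      rw [h2, neg_neg]
    rw [h3]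
    exact neg_mem ((minpoly E x).coeff 0).2
  · rw [h1, mul_one] at hprod
    have h2 : mL.natDegree = p + 1 := by
      rw [hm', (monic_X_sub_C x).natDegree_mul hm'm, natDegree_X_sub_C, hprod, hΨdeg]
      omega
    rw [hmL, hmm.natDegree_map] at h2
    omega

end Main

/-! ## Instantiation from `helper328.Stmt_FormalPrime` -/

section FromSpec

/-- A ring hom between Laurent series rings commutes with `Φ(x, J)`. -/
theorem map_eval_map_evalJ {R S : Type*} [CommRing R] [CommRing S]
    (f : LaurentSeries R →+* LaurentSeries S) (Φ : Polynomial (Polynomial ℤ))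
    (J x : LaurentSeries R) :
    f ((Φ.map (evalJ J)).eval x) = (Φ.map (evalJ (f J))).eval (f x) := by
  rw [Polynomial.eval_map, Polynomial.eval_map, Polynomial.hom_eval₂, comp_evalJ]

/-- The root formula of `Stmt_FormalPrime`, as a property of `Φ`. -/
def RootFormula (p : ℕ) [hp : Fact p.Prime] (Φ : Polynomial (Polynomial ℤ)) : Prop :=
  ∀ (k : Type) [Field k] (ω : kˣ), IsPrimitiveRoot ω p → ∀ (ξ : kˣ) (m : ℕ+),
    Φ.map (evalJ (Jsub k (ξ ^ p) (⟨p, hp.out.pos⟩ * m))) =
      (X - C (Jsub k (ξ ^ (p ^ 2)) (⟨p, hp.out.pos⟩ ^ 2 * m))) *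
        ∏ b ∈ Finset.range p, (X - C (Jsub k (ω ^ b * ξ) m))

variable (p : ℕ) [hp : Fact p.Prime]

/-- (F2) over `ℂ`: `Φ(j, j(q^p)) = 0`. -/
theorem F2_complex {Φ : Polynomial (Polynomial ℤ)} (h : RootFormula p Φ) :
    (Φ.map (evalJ (qExpand ℂ p (jqModC ℂ)))).eval (jqModC ℂ) = 0 := by
  have hζ := Complex.isPrimitiveRoot_exp p hp.out.ne_zero
  obtain ⟨ω, hω⟩ := hζ.isUnit hp.out.ne_zero
  have hω' : IsPrimitiveRoot ω p := IsPrimitiveRoot.coe_units_iff.mp (hω ▸ hζ)
  have key := h ℂ ω hω' 1 1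
  have h1 : Jsub ℂ ((1 : ℂˣ) ^ p) (⟨p, hp.out.pos⟩ * 1) = qExpand ℂ p (jqModC ℂ) := by
    rw [one_pow, Jsub_one]
    exact qExpand_congr (Nat.mul_one p) _
  rw [h1] at key
  rw [key, Polynomial.eval_mul, Polynomial.eval_prod]
  have h2 : ∏ b ∈ Finset.range p, (X - C (Jsub ℂ (ω ^ b * 1) 1)).eval (jqModC ℂ) = 0 := by
    refine Finset.prod_eq_zero (Finset.mem_range.mpr hp.out.pos) ?_
    have h3 : Jsub ℂ (ω ^ 0 * 1) 1 = jqModC ℂ := by
      rw [pow_zero, one_mul, Jsub_one]
      exact qExpand_one_apply _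
    rw [h3]
    simp
  rw [h2, mul_zero]

/-- (F2) over `ℤ`: `Φ(j, j(q^p)) = 0` in `ℤ((q))`. -/
theorem F2_int {Φ : Polynomial (Polynomial ℤ)} (h : RootFormula p Φ) :
    (Φ.map (evalJ (qExpand ℤ p (jqModC ℤ)))).eval (jqModC ℤ) = 0 := by
  apply coeffMap_injective (f := Int.castRingHom ℂ) (RingHom.injective_int (Int.castRingHom ℂ))
  rw [map_eval_map_evalJ, coeffMap_qExpand, coeffMap_jqModC, map_zero]
  exact F2_complex p h

/-- (F2) over any commutative ring. -/
theorem F2 {Φ : Polynomial (Polynomial ℤ)} (h : RootFormula p Φ) (R : Type*) [CommRing R] :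
    (Φ.map (evalJ (qExpand R p (jqModC R)))).eval (jqModC R) = 0 := by
  have h1 := congrArg (coeffMap (Int.castRingHom R)) (F2_int p h)
  rwa [map_eval_map_evalJ, coeffMap_qExpand, coeffMap_jqModC, map_zero] at h1

/-! ### The unit `ĝ` reduced to `κ` -/

/-- `q^a * (power series with constant term 1)` is nonzero of order `a`. -/
theorem single_mul_ofPowerSeries {κ : Type*} [Field κ] (a : ℤ) (f : PowerSeries κ)
    (hf : PowerSeries.constantCoeff f = 1) :
    HahnSeries.single a (1 : κ) * HahnSeries.ofPowerSeries ℤ κ f ≠ 0 ∧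
      (HahnSeries.single a (1 : κ) * HahnSeries.ofPowerSeries ℤ κ f).order = a := by
  have hc : (HahnSeries.single a (1 : κ) * HahnSeries.ofPowerSeries ℤ κ f).coeff a = 1 := by
    rw [HahnSeries.coeff_single_mul, one_mul, sub_self, show (0 : ℤ) = ((0 : ℕ) : ℤ) from rfl,
      HahnSeries.ofPowerSeries_apply_coeff, PowerSeries.coeff_zero_eq_constantCoeff, hf]
  have hne : HahnSeries.single a (1 : κ) * HahnSeries.ofPowerSeries ℤ κ f ≠ 0 :=
    HahnSeries.ne_zero_of_coeff_ne_zero (by rw [hc]; exact one_ne_zero)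
  refine ⟨hne, le_antisymm (HahnSeries.order_le_of_coeff_ne_zero (by rw [hc]; exact one_ne_zero)) ?_⟩
  rw [HahnSeries.le_order_iff_forall hne]
  intro k hk
  rw [HahnSeries.coeff_single_mul, one_mul]
  exact ofPowerSeries_coeff_of_neg _ (by omega)

theorem coeffMap_deltaHat (κ : Type*) [CommRing κ] :
    coeffMap (Int.castRingHom κ) (deltaHat ℤ) =
      HahnSeries.single (1 : ℤ) 1 * HahnSeries.ofPowerSeries ℤ κ
        ((dedekindEtaUnit.map (Int.castRingHom ℤ)).map (Int.castRingHom κ)) := by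
  unfold deltaHat
  rw [map_mul, coeffMap_single, map_one, coeffMap_ofPowerSeries]

theorem coeffMap_deltaHatInv (κ : Type*) [CommRing κ] :
    coeffMap (Int.castRingHom κ) (deltaHatInv ℤ) =
      HahnSeries.single (-1 : ℤ) 1 * HahnSeries.ofPowerSeries ℤ κ
        ((dedekindEtaUnitInv.map (Int.castRingHom ℤ)).map (Int.castRingHom κ)) := by
  unfold deltaHatInv
  rw [map_mul, coeffMap_single, map_one, coeffMap_ofPowerSeries]

/-- The reduction of `ĝ = p^12 Δ(q^p)/Δ(q)` to a field `κ` with `p ≠ 0` is nonzero of order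
`p - 1`. -/
theorem gBar_ne_zero_and_order {κ : Type*} [Field κ] (hpκ : (p : κ) ≠ 0) :
    coeffMap (Int.castRingHom κ) (gHat p) ≠ 0 ∧
      (coeffMap (Int.castRingHom κ) (gHat p)).order = (p : ℤ) - 1 := by
  have hf1 : PowerSeries.constantCoeff
      ((dedekindEtaUnit.map (Int.castRingHom ℤ)).map (Int.castRingHom κ)) = 1 := by
    rw [← PowerSeries.coeff_zero_eq_constantCoeff, PowerSeries.coeff_map, PowerSeries.coeff_map,
      PowerSeries.coeff_zero_eq_constantCoeff, constantCoeff_dedekindEtaUnit]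
    simp
  have hf2 : PowerSeries.constantCoeff
      ((dedekindEtaUnitInv.map (Int.castRingHom ℤ)).map (Int.castRingHom κ)) = 1 := by
    rw [← PowerSeries.coeff_zero_eq_constantCoeff, PowerSeries.coeff_map, PowerSeries.coeff_map,
      PowerSeries.coeff_zero_eq_constantCoeff, constantCoeff_dedekindEtaUnitInv]
    simp
  obtain ⟨h1ne, h1ord⟩ := single_mul_ofPowerSeries (1 : ℤ) _ hf1
  obtain ⟨h2ne, h2ord⟩ := single_mul_ofPowerSeries (-1 : ℤ) _ hf2
  have hpL : ((p : ℕ) : LaurentSeries κ) = HahnSeries.C (p : κ) := (map_natCast HahnSeries.C p).symm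
  have hpne : ((p : ℕ) : LaurentSeries κ) ≠ 0 := by
    rw [hpL]
    exact fun h => hpκ (HahnSeries.C_injective (by rw [h, map_zero]))
  have hpord : ((p : ℕ) : LaurentSeries κ).order = 0 := by
    rw [hpL]
    exact HahnSeries.order_C
  have hg : coeffMap (Int.castRingHom κ) (gHat p) =
      ((p : ℕ) : LaurentSeries κ) ^ 12 *
        qExpand κ p (HahnSeries.single (1 : ℤ) 1 * HahnSeries.ofPowerSeries ℤ κ
          ((dedekindEtaUnit.map (Int.castRingHom ℤ)).map (Int.castRingHom κ))) *
        (HahnSeries.single (-1 : ℤ) 1 * HahnSeries.ofPowerSeries ℤ κ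
          ((dedekindEtaUnitInv.map (Int.castRingHom ℤ)).map (Int.castRingHom κ))) := by
    unfold gHat
    rw [map_mul, map_mul, map_pow, map_natCast, coeffMap_qExpand, coeffMap_deltaHat,
      coeffMap_deltaHatInv]
  have hA : ((p : ℕ) : LaurentSeries κ) ^ 12 ≠ 0 := pow_ne_zero _ hpne
  have hB := qExpand_ne_zero p h1ne
  rw [hg]
  refine ⟨mul_ne_zero (mul_ne_zero hA hB) h2ne, ?_⟩
  rw [HahnSeries.order_mul (mul_ne_zero hA hB) h2ne, HahnSeries.order_mul hA hB,
    HahnSeries.order_pow, hpord, order_qExpand, h1ord, h2ord]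
  simp
  ring

/-! ### Main theorems -/

/-- **P6 (a), prime-level Igusa.**  For every field `κ` in which `p ≠ 0`:
`j(q^p) ∉ κ(j)` inside `κ((q))`. -/
theorem nonrat (h : Stmt_FormalPrime p) (κ : Type) [Field κ] (hpκ : (p : κ) ≠ 0) :
    qExpand κ p (jqModC κ) ∉ IntermediateField.adjoin κ {jqModC κ} := by
  obtain ⟨Φ, G, T, Ψ, hΦ, hΦdeg, hG, -, hGg, hfac, hlag, hrf⟩ := h
  have hfacκ : Φ.map (evalJ (jqModC κ)) =
      (X - C (qExpand κ p (jqModC κ))) * Ψ.map (coeffMap (Int.castRingHom κ)) := by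
    have h1 := congrArg (Polynomial.map (coeffMap (Int.castRingHom κ))) hfac
    rwa [map_map_evalJ, coeffMap_jqModC, Polynomial.map_mul, Polynomial.map_sub,
      Polynomial.map_X, Polynomial.map_C, coeffMap_qExpand, coeffMap_jqModC] at h1
  have hF2 := F2 p hrf κ
  have hrootκ : ((Ψ.map (coeffMap (Int.castRingHom κ))).map (qExpand κ p)).eval (jqModC κ) = 0 := by
    have h1 := congrArg (Polynomial.map (qExpand κ p)) hfacκ
    rw [map_map_evalJ, Polynomial.map_mul, Polynomial.map_sub, Polynomial.map_X,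
      Polynomial.map_C] at h1
    rw [h1, Polynomial.eval_mul, Polynomial.eval_sub, Polynomial.eval_X, Polynomial.eval_C] at hF2
    rcases mul_eq_zero.mp hF2 with h2 | h2
    · exfalso
      have h3 := congrArg HahnSeries.order (sub_eq_zero.mp h2)
      rw [order_qExpand, order_qExpand, order_jq] at h3
      have hp2 : (2 : ℤ) ≤ p := by exact_mod_cast hp.out.two_le
      nlinarith
    · exact h2
  have hGgκ : (G.map (evalJ (jqModC κ))).eval (coeffMap (Int.castRingHom κ) (gHat p)) = 0 := by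
    have h1 := congrArg (coeffMap (Int.castRingHom κ)) hGg
    rwa [map_eval_map_evalJ, coeffMap_jqModC, map_zero] at h1
  have hlagκ : (Ψ.map (coeffMap (Int.castRingHom κ))).eval (qExpand κ p (jqModC κ)) *
      coeffMap (Int.castRingHom κ) (gHat p) =
      ∑ i ∈ Finset.range (p + 1),
        (Ψ.map (coeffMap (Int.castRingHom κ))).coeff i * evalJ (jqModC κ) (T i) := by
    have h1 := congrArg (coeffMap (Int.castRingHom κ)) hlag
    rw [map_mul, map_sum, ← Polynomial.eval₂_hom, ← Polynomial.eval_map, coeffMap_qExpand,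
      coeffMap_jqModC] at h1
    rw [h1]
    refine Finset.sum_congr rfl (fun i _ => ?_)
    rw [map_mul, Polynomial.coeff_map, map_evalJ, coeffMap_jqModC]
  obtain ⟨hg0, hgord⟩ := gBar_ne_zero_and_order p (κ := κ) hpκ
  have hp2 : 2 ≤ p := hp.out.two_le
  exact nonrat_of_data p hp2 Φ G T _ _ hΦ hΦdeg hfacκ hrootκ hG hGgκ hlagκ hg0
    (by rw [hgord]; have : (2 : ℤ) ≤ p := by exact_mod_cast hp2
        omega)

/-- **P6 (b).**  For every field `κ` in which `p ≠ 0`, `j(q^p)` is not a root of any nonzero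
polynomial of `X`-degree `≤ p` with coefficients in `κ[j]`:
`[κ(j, j(q^p)) : κ(j)] ≥ p + 1`. -/
theorem deg_ge (h : Stmt_FormalPrime p) (κ : Type) [Field κ] (hpκ : (p : κ) ≠ 0)
    (Q : Polynomial (Polynomial κ)) (hQ : Q ≠ 0) (hdeg : Q.natDegree ≤ p) :
    Q.eval₂ ((Polynomial.aeval (jqModC κ) : Polynomial κ →ₐ[κ] LaurentSeries κ) :
      Polynomial κ →+* LaurentSeries κ) (qExpand κ p (jqModC κ)) ≠ 0 := by
  have hnon := nonrat p h κ hpκ
  obtain ⟨Φ, G, T, Ψ, hΦ, hΦdeg, hG, -, hGg, hfac, hlag, hrf⟩ := h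
  have hfacκ : Φ.map (evalJ (jqModC κ)) =
      (X - C (qExpand κ p (jqModC κ))) * Ψ.map (coeffMap (Int.castRingHom κ)) := by
    have h1 := congrArg (Polynomial.map (coeffMap (Int.castRingHom κ))) hfac
    rwa [map_map_evalJ, coeffMap_jqModC, Polynomial.map_mul, Polynomial.map_sub,
      Polynomial.map_X, Polynomial.map_C, coeffMap_qExpand, coeffMap_jqModC] at h1
  have hF2 := F2 p hrf κ
  have hrootκ : ((Ψ.map (coeffMap (Int.castRingHom κ))).map (qExpand κ p)).eval (jqModC κ) = 0 := by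
    have h1 := congrArg (Polynomial.map (qExpand κ p)) hfacκ
    rw [map_map_evalJ, Polynomial.map_mul, Polynomial.map_sub, Polynomial.map_X,
      Polynomial.map_C] at h1
    rw [h1, Polynomial.eval_mul, Polynomial.eval_sub, Polynomial.eval_X, Polynomial.eval_C] at hF2
    rcases mul_eq_zero.mp hF2 with h2 | h2
    · exfalso
      have h3 := congrArg HahnSeries.order (sub_eq_zero.mp h2)
      rw [order_qExpand, order_qExpand, order_jq] at h3
      have hp2 : (2 : ℤ) ≤ p := by exact_mod_cast hp.out.two_le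
      nlinarith
    · exact h2
  exact deg_ge_of_data p Φ _ hΦ hΦdeg hfacκ hrootκ hnon Q hQ hdeg

end FromSpec

end

end Fermat.Agent.S28.helper754
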