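import Mathlib
import Fermat.Prelude.Def_ModularCurve_X0ModL

/-!
# S28, route P: the tower lower bound by counting (helper1595)

Pure field theory inside `LaurentSeries k`.  `V_p = qExpand k p`, `J` a series of order `-1`,
`K_M = modularFunctionFieldFullC k M = k(V_d J : d ∣ M)`.

* `relrank_mul_le`: the `V_p`-trick, `p * [K : k(J)] ≤ [K' : k(J)]` as soon as `V_p K ⊆ K'`, `J ∈ K'`
  and `[k(J, V_p J) : k(J)] = [k(J, V_p J) : k(V_p J)]`.
* `relrank_pair_eq`: the symmetry of the two degrees from a prime-level relation.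
* `counting`: the arithmetic lemma with `dedekindPsi`.
-/

set_option autoImplicit false

noncomputable section

namespace Fermat.Agent.S28.helper1595

open IntermediateField ModularCurve Polynomial

section Order

variable {k : Type*} [Field k]

/-- A finite sum of nonzero Laurent series with pairwise distinct orders is nonzero. -/
theorem sum_ne_zero_of_order_injOn {ι : Type*} (s : Finset ι) (x : ι → LaurentSeries k)
    (hne : ∀ i ∈ s, x i ≠ 0) (hinj : Set.InjOn (fun i => (x i).order) (s : Set ι))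
    (hs : s.Nonempty) : ∑ i ∈ s, x i ≠ 0 := by
  classical
  obtain ⟨i0, hi0, hmin⟩ := s.exists_min_image (fun i => (x i).order) hs
  intro h
  have hc : (∑ i ∈ s, x i).coeff (x i0).order = (x i0).coeff (x i0).order := by
    rw [HahnSeries.coeff_sum]
    refine Finset.sum_eq_single i0 ?_ (fun h' => absurd hi0 h')
    intro j hj hji
    refine HahnSeries.coeff_eq_zero_of_lt_order (lt_of_le_of_ne (hmin j hj) ?_)
    intro heq
    exact hji (hinj hj hi0 heq.symm)
  rw [h, HahnSeries.coeff_zero] at hc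
  exact hne i0 hi0 (HahnSeries.coeff_order_eq_zero.mp hc.symm)

theorem dvd_order_of_mem_range (p : ℕ) [NeZero p] {x : LaurentSeries k}
    (hx : x ∈ Set.range (qExpand k p)) (hx0 : x ≠ 0) : (p : ℤ) ∣ x.order := by
  obtain ⟨y, rfl⟩ := hx
  by_contra hnd
  exact hx0 (HahnSeries.coeff_order_eq_zero.mp (qExpand_coeff_of_not_dvd p y hnd))

/-- `1, J, …, J^(p-1)` are linearly independent over the image of `qExpand k p` when `J` has
order `-1`. -/
theorem eq_zero_of_sum_mul_pow_eq_zero (p : ℕ) [NeZero p] (J : LaurentSeries k) (hJ0 : J ≠ 0)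
    (hJ : J.order = -1) (a : Fin p → LaurentSeries k)
    (ha : ∀ i, a i ∈ Set.range (qExpand k p))
    (h : ∑ i, a i * J ^ (i : ℕ) = 0) : ∀ i, a i = 0 := by
  classical
  by_contra hcon
  push Not at hcon
  obtain ⟨i1, hi1⟩ := hcon
  set s : Finset (Fin p) := Finset.univ.filter (fun i => a i ≠ 0) with hs
  have hsum : ∑ i ∈ s, a i * J ^ (i : ℕ) = 0 := by
    rw [← h]
    refine Finset.sum_subset (Finset.filter_subset _ _) ?_
    intro i _ hi
    have : a i = 0 := by
      by_contra h0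
      exact hi (Finset.mem_filter.mpr ⟨Finset.mem_univ _, h0⟩)
    rw [this, zero_mul]
  have hord : ∀ i ∈ s, (a i * J ^ (i : ℕ)).order = (a i).order - (i : ℕ) := by
    intro i hi
    have hai : a i ≠ 0 := (Finset.mem_filter.mp hi).2
    rw [HahnSeries.order_mul hai (pow_ne_zero _ hJ0), HahnSeries.order_pow, hJ]
    simp
    ring
  refine sum_ne_zero_of_order_injOn s (fun i => a i * J ^ (i : ℕ)) ?_ ?_ ⟨i1, ?_⟩ hsum
  · intro i hi
    exact mul_ne_zero (Finset.mem_filter.mp hi).2 (pow_ne_zero _ hJ0)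
  · intro i hi j hj hij
    simp only at hij
    rw [hord i hi, hord j hj] at hij
    have hdi := dvd_order_of_mem_range p (ha i) (Finset.mem_filter.mp hi).2
    have hdj := dvd_order_of_mem_range p (ha j) (Finset.mem_filter.mp hj).2
    have hd : (p : ℤ) ∣ ((i : ℕ) : ℤ) - ((j : ℕ) : ℤ) := by
      have : ((i : ℕ) : ℤ) - ((j : ℕ) : ℤ) = (a i).order - (a j).order := by linarith
      rw [this]
      exact dvd_sub hdi hdj
    have habs : |((i : ℕ) : ℤ) - ((j : ℕ) : ℤ)| < (p : ℤ) := by
      have h1 : ((i : ℕ) : ℤ) < p := by exact_mod_cast i.2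
      have h2 : ((j : ℕ) : ℤ) < p := by exact_mod_cast j.2
      have h3 : (0 : ℤ) ≤ ((i : ℕ) : ℤ) := by positivity
      have h4 : (0 : ℤ) ≤ ((j : ℕ) : ℤ) := by positivity
      rw [abs_lt]
      constructor <;> linarith
    have := Int.eq_zero_of_abs_lt_dvd hd habs
    apply Fin.ext
    have : ((i : ℕ) : ℤ) = ((j : ℕ) : ℤ) := by linarith
    exact_mod_cast this
  · exact Finset.mem_filter.mpr ⟨Finset.mem_univ _, hi1⟩

end Order

section Rank

variable {k : Type*} [Field k]

/-- If every element of `A` is a `qExpand k p`-image, `A ≤ B` and `B` contains a series `J` of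
order `-1`, then `[B : A] ≥ p`. -/
theorem natCast_le_relrank (p : ℕ) [NeZero p] (J : LaurentSeries k) (hJ0 : J ≠ 0)
    (hJ : J.order = -1) (A B : IntermediateField k (LaurentSeries k))
    (hA : ∀ x ∈ A, x ∈ Set.range (qExpand k p)) (hAB : A ≤ B) (hJB : J ∈ B) :
    (p : Cardinal) ≤ A.relrank B := by
  rw [relrank_eq_rank_of_le hAB]
  let v : Fin p → ↥(extendScalars hAB) := fun i => ⟨J ^ (i : ℕ), pow_mem hJB _⟩
  have hli : LinearIndependent ↥A v := by
    rw [Fintype.linearIndependent_iff]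
    intro g hg
    have hg' : ∑ i, (g i : LaurentSeries k) * J ^ (i : ℕ) = 0 := by
      have := congrArg (fun z : ↥(extendScalars hAB) => (z : LaurentSeries k)) hg
      simpa [v, Algebra.smul_def] using this
    intro i
    have := eq_zero_of_sum_mul_pow_eq_zero p J hJ0 hJ (fun i => (g i : LaurentSeries k))
      (fun i => hA _ (g i).2) hg' i
    exact Subtype.ext this
  have := hli.cardinal_lift_le_rank
  simpa using this

/-- The `V_p`-trick. -/
theorem relrank_mul_le (p : ℕ) [NeZero p] (J : LaurentSeries k) (hJ0 : J ≠ 0)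
    (hJ : J.order = -1) (K K' : IntermediateField k (LaurentSeries k))
    (hK : k⟮J⟯ ≤ K) (hJK' : J ∈ K') (hVK : K.map (qExpandAlgHomC k p) ≤ K')
    (hsym : (k⟮J⟯).relrank (k⟮J, qExpand k p J⟯) = (k⟮qExpand k p J⟯).relrank (k⟮J, qExpand k p J⟯)) :
    (p : Cardinal) * (k⟮J⟯).relrank K ≤ (k⟮J⟯).relrank K' := by
  have hJK : J ∈ K := hK (mem_adjoin_simple_self k J)
  have hE2 : (k⟮J⟯).map (qExpandAlgHomC k p) = k⟮qExpand k p J⟯ := by
    rw [adjoin_map, Set.image_singleton, qExpandAlgHomC_apply]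
  have hE2K : k⟮qExpand k p J⟯ ≤ K.map (qExpandAlgHomC k p) := by
    rw [← hE2]
    exact IntermediateField.map_mono _ hK
  have hVJK' : qExpand k p J ∈ K' := hVK (hE2K (mem_adjoin_simple_self k _))
  have hE12 : k⟮J, qExpand k p J⟯ ≤ K' := by
    rw [adjoin_le_iff]
    rintro x (rfl | rfl)
    · exact hJK'
    · exact hVJK'
  have h1 : k⟮J⟯ ≤ k⟮J, qExpand k p J⟯ := by
    rw [adjoin_le_iff]
    rintro x rfl
    exact subset_adjoin k _ (Set.mem_insert _ _)
  have h2 : k⟮qExpand k p J⟯ ≤ k⟮J, qExpand k p J⟯ := by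
    rw [adjoin_le_iff]
    rintro x rfl
    exact subset_adjoin k _ (Set.mem_insert_of_mem _ rfl)
  have hrange : ∀ x ∈ K.map (qExpandAlgHomC k p), x ∈ Set.range (qExpand k p) := by
    rintro x ⟨y, -, rfl⟩
    exact ⟨y, rfl⟩
  have hp := natCast_le_relrank p J hJ0 hJ (K.map (qExpandAlgHomC k p)) K' hrange hVK hJK'
  calc (p : Cardinal) * (k⟮J⟯).relrank K
      = (p : Cardinal) * ((k⟮J⟯).map (qExpandAlgHomC k p)).relrank (K.map (qExpandAlgHomC k p)) := by
        rw [relrank_map_map]
    _ = (k⟮qExpand k p J⟯).relrank (K.map (qExpandAlgHomC k p)) * (p : Cardinal) := by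
        rw [hE2, mul_comm]
    _ ≤ (k⟮qExpand k p J⟯).relrank (K.map (qExpandAlgHomC k p)) *
          (K.map (qExpandAlgHomC k p)).relrank K' := by gcongr
    _ = (k⟮qExpand k p J⟯).relrank K' := relrank_mul_relrank hE2K hVK
    _ = (k⟮qExpand k p J⟯).relrank (k⟮J, qExpand k p J⟯) * (k⟮J, qExpand k p J⟯).relrank K' :=
        (relrank_mul_relrank h2 hE12).symm
    _ = (k⟮J⟯).relrank (k⟮J, qExpand k p J⟯) * (k⟮J, qExpand k p J⟯).relrank K' := by rw [hsym]
    _ = (k⟮J⟯).relrank K' := relrank_mul_relrank h1 hE12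

end Rank

section PrimeRel

variable {k : Type*} [Field k] {Ω : Type*} [Field Ω] [Algebra k Ω]

/-- Evaluation of a two-variable polynomial `Q(X, Y)` (outer variable `X`) at `X = a`, `Y = b`. -/
def ev2 (a b : Ω) (Q : Polynomial (Polynomial k)) : Ω :=
  Q.eval₂ ((aeval b : Polynomial k →ₐ[k] Ω) : Polynomial k →+* Ω) a

/-- The coefficient map `k[Y] → k(x)`, `Y ↦ x`. -/
def toAdj (x : Ω) : Polynomial k →+* ↥k⟮x⟯ :=
  ((aeval (AdjoinSimple.gen k x) : Polynomial k →ₐ[k] ↥k⟮x⟯) : Polynomial k →+* ↥k⟮x⟯)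

theorem algebraMap_comp_toAdj (x : Ω) :
    (algebraMap ↥k⟮x⟯ Ω).comp (toAdj x) =
      ((aeval x : Polynomial k →ₐ[k] Ω) : Polynomial k →+* Ω) := by
  ext a
  · simp [toAdj]
  · simp [toAdj]

theorem aeval_map_toAdj (x y : Ω) (Q : Polynomial (Polynomial k)) :
    aeval y (Q.map (toAdj x)) = ev2 y x Q := by
  rw [aeval_def, eval₂_map, algebraMap_comp_toAdj, ev2]

open scoped IntermediateField.algebraAdjoinAdjoin in
/-- If no nonzero `Q ∈ k[Y][X]` of `X`-degree `< n` kills `(y, x)`, then `1, y, …, y^(n-1)` are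
linearly independent over `k(x)`. -/
theorem eq_zero_of_sum_mul_pow_of_min (x y : Ω) (n : ℕ)
    (hmin : ∀ Q : Polynomial (Polynomial k), Q ≠ 0 → Q.natDegree < n → ev2 y x Q ≠ 0)
    (c : Fin n → ↥k⟮x⟯) (hc : ∑ i, (c i : Ω) * y ^ (i : ℕ) = 0) : ∀ i, c i = 0 := by
  classical
  obtain ⟨b, hb⟩ := IsLocalization.exist_integer_multiples_of_finite
    (nonZeroDivisors (Algebra.adjoin k {x})) c
  choose r hr using hb
  have hrange' : ∀ z : Ω, z ∈ Algebra.adjoin k {x} → ∃ g : Polynomial k, aeval x g = z := by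
    intro z hz
    rw [Algebra.adjoin_singleton_eq_range_aeval] at hz
    exact hz
  have hrange : ∀ i, ∃ g : Polynomial k, aeval x g = (r i : Ω) := fun i => hrange' _ (r i).2
  choose g hg using hrange
  set Q : Polynomial (Polynomial k) := ∑ i : Fin n, monomial (i : ℕ) (g i) with hQ
  have hcoeff : ∀ i : Fin n, Q.coeff (i : ℕ) = g i := by
    intro i
    rw [hQ, finsetSum_coeff]
    rw [Finset.sum_eq_single i]
    · rw [coeff_monomial, if_pos rfl]
    · intro j _ hji
      rw [coeff_monomial, if_neg]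
      exact fun h => hji (Fin.ext h)
    · intro h
      exact absurd (Finset.mem_univ _) h
  have hbne : ((b : Algebra.adjoin k {x}) : Ω) ≠ 0 := by
    intro h0
    have : (b : Algebra.adjoin k {x}) = 0 := Subtype.ext h0
    exact nonZeroDivisors.coe_ne_zero b this
  have hri : ∀ i, (r i : Ω) = ((b : Algebra.adjoin k {x}) : Ω) * (c i : Ω) := by
    intro i
    have := congrArg (fun z : ↥k⟮x⟯ => (z : Ω)) (hr i)
    simpa [Algebra.smul_def] using this
  have hev : ev2 y x Q = 0 := by
    rw [ev2, hQ, eval₂_finsetSum]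
    have : ∀ i : Fin n, eval₂ ((aeval x : Polynomial k →ₐ[k] Ω) : Polynomial k →+* Ω) y
        (monomial (i : ℕ) (g i)) = ((b : Algebra.adjoin k {x}) : Ω) * ((c i : Ω) * y ^ (i : ℕ)) := by
      intro i
      rw [eval₂_monomial]
      show aeval x (g i) * y ^ (i : ℕ) = _
      rw [hg, hri, mul_assoc]
    rw [Finset.sum_congr rfl (fun i _ => this i), ← Finset.mul_sum, hc, mul_zero]
  have hQ0 : Q = 0 := by
    by_contra hne
    refine hmin Q hne ?_ hev
    rcases Nat.eq_zero_or_pos n with hn | hn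
    · subst hn
      exact absurd (by simp [hQ]) hne
    · have hdeg : Q.natDegree ≤ n - 1 := by
        rw [hQ]
        refine natDegree_sum_le_of_forall_le _ _ ?_
        intro i _
        exact le_trans (natDegree_monomial_le _) (by have := i.2; omega)
      omega
  intro i
  have hgi : g i = 0 := by rw [← hcoeff i, hQ0, coeff_zero]
  have hr0 : (r i : Ω) = 0 := by rw [← hg, hgi, map_zero]
  have : ((b : Algebra.adjoin k {x}) : Ω) * (c i : Ω) = 0 := by rw [← hri, hr0]
  rcases mul_eq_zero.mp this with h | h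
  · exact absurd h hbne
  · exact Subtype.ext h

/-- `Φ(X, x)` is the minimal polynomial of `y` over `k(x)` when `Φ` is a monic relation of
minimal `X`-degree. -/
theorem minpoly_eq_map_toAdj (x y : Ω) (n : ℕ) (Φ : Polynomial (Polynomial k)) (hΦ : Φ.Monic)
    (hn : Φ.natDegree = n) (h1 : ev2 y x Φ = 0)
    (hmin : ∀ Q : Polynomial (Polynomial k), Q ≠ 0 → Q.natDegree < n → ev2 y x Q ≠ 0) :
    IsIntegral ↥k⟮x⟯ y ∧ minpoly ↥k⟮x⟯ y = Φ.map (toAdj x) := by
  have hmonic : (Φ.map (toAdj x)).Monic := hΦ.map _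
  have hroot : aeval y (Φ.map (toAdj x)) = 0 := by rw [aeval_map_toAdj, h1]
  have hdeg : (Φ.map (toAdj x)).natDegree = n := by rw [hΦ.natDegree_map, hn]
  refine ⟨⟨_, hmonic, hroot⟩, (minpoly.unique _ _ hmonic hroot ?_).symm⟩
  intro q hq hq0
  by_contra hlt
  rw [not_le] at hlt
  have hqn : q.natDegree < n := by
    rw [← hdeg]
    exact natDegree_lt_natDegree hq.ne_zero hlt
  have hsum : ∑ i : Fin n, ((q.coeff (i : ℕ) : ↥k⟮x⟯) : Ω) * y ^ (i : ℕ) = 0 := by
    rw [← hq0, aeval_eq_sum_range' hqn, Finset.sum_range]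
    refine Finset.sum_congr rfl (fun i _ => ?_)
    rw [Algebra.smul_def]
    rfl
  have hz := eq_zero_of_sum_mul_pow_of_min x y n hmin (fun i => q.coeff (i : ℕ)) hsum
    ⟨q.natDegree, hqn⟩
  simp only at hz
  rw [hq.coeff_natDegree] at hz
  exact one_ne_zero hz

/-- Transport of the minimal polynomial along `V : k(x) ≃ V(k(x))`: if `Φ(X, x)` is the minimal
polynomial of `V x` over `k(x)` and `Φ(x, V x) = 0`, then `x` has degree `n` over `V(k(x))`. -/
theorem finrank_adjoin_of_transport (V : Ω →ₐ[k] Ω) (x : Ω) (n : ℕ)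
    (Φ : Polynomial (Polynomial k)) (hΦ : Φ.Monic) (hn : Φ.natDegree = n)
    (h1 : ev2 (V x) x Φ = 0) (h2 : ev2 x (V x) Φ = 0)
    (hmin : ∀ Q : Polynomial (Polynomial k), Q ≠ 0 → Q.natDegree < n → ev2 (V x) x Q ≠ 0)
    (E2 : IntermediateField k Ω) (hE2 : E2 = (k⟮x⟯).map V) :
    IsIntegral ↥E2 x ∧ (minpoly ↥E2 x).natDegree = n := by
  subst hE2
  obtain ⟨hint, hmp⟩ := minpoly_eq_map_toAdj x (V x) n Φ hΦ hn h1 hmin
  have hirr : Irreducible (Φ.map (toAdj x)) := hmp ▸ minpoly.irreducible hint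
  set e : ↥k⟮x⟯ ≃ₐ[k] ↥((k⟮x⟯).map V) := (k⟮x⟯).equivMap V with he
  set f2 : Polynomial ↥((k⟮x⟯).map V) := (Φ.map (toAdj x)).map (e : ↥k⟮x⟯ →+* ↥((k⟮x⟯).map V))
    with hf2
  have hirr2 : Irreducible f2 := by
    have : f2 = Polynomial.mapEquiv e.toRingEquiv (Φ.map (toAdj x)) := rfl
    rw [this]
    exact (MulEquiv.irreducible_iff (Polynomial.mapEquiv e.toRingEquiv)).mpr hirr
  have hmonic2 : f2.Monic := (hΦ.map _).map _
  have hcomp : (algebraMap ↥((k⟮x⟯).map V) Ω).comp
      ((e : ↥k⟮x⟯ →+* ↥((k⟮x⟯).map V)).comp (toAdj x)) =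
      ((aeval (V x) : Polynomial k →ₐ[k] Ω) : Polynomial k →+* Ω) := by
    ext a
    · simp [toAdj]
    · simp [toAdj, he]
  have hroot2 : aeval x f2 = 0 := by
    rw [hf2, Polynomial.map_map, aeval_def, eval₂_map, hcomp]
    exact h2
  have hint2 : IsIntegral ↥((k⟮x⟯).map V) x := ⟨f2, hmonic2, hroot2⟩
  refine ⟨hint2, ?_⟩
  rw [← minpoly.eq_of_irreducible_of_monic hirr2 hroot2 hmonic2, hf2,
    ((hΦ.map _).natDegree_map), hΦ.natDegree_map, hn]

/-- `[E' : F]` as a relative rank. -/
theorem relrank_restrictScalars (F : IntermediateField k Ω) (E' : IntermediateField ↥F Ω) :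
    F.relrank (E'.restrictScalars k) = Module.rank ↥F ↥E' := by
  have h : F ≤ E'.restrictScalars k := fun a ha => E'.algebraMap_mem ⟨a, ha⟩
  rw [relrank_eq_rank_of_le h]
  have : extendScalars h = E' := by
    ext z
    rw [mem_extendScalars, mem_restrictScalars]
  rw [this]

theorem relrank_adjoin_simple (F : IntermediateField k Ω) (z : Ω) (hz : IsIntegral ↥F z) :
    F.relrank ((↥F)⟮z⟯.restrictScalars k) = ((minpoly ↥F z).natDegree : Cardinal) := by
  rw [relrank_restrictScalars]
  have := adjoin.finiteDimensional hz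
  rw [← Module.finrank_eq_rank, adjoin.finrank hz]

/-- The two degrees of `k(x, V x)` over `k(x)` and over `k(V x)` are both `n`. -/
theorem relrank_pair (V : Ω →ₐ[k] Ω) (x : Ω) (n : ℕ)
    (Φ : Polynomial (Polynomial k)) (hΦ : Φ.Monic) (hn : Φ.natDegree = n)
    (h1 : ev2 (V x) x Φ = 0) (h2 : ev2 x (V x) Φ = 0)
    (hmin : ∀ Q : Polynomial (Polynomial k), Q ≠ 0 → Q.natDegree < n → ev2 (V x) x Q ≠ 0) :
    (k⟮x⟯).relrank (k⟮x, V x⟯) = (n : Cardinal) ∧ (k⟮V x⟯).relrank (k⟮x, V x⟯) = (n : Cardinal) := by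
  constructor
  · obtain ⟨hint, hmp⟩ := minpoly_eq_map_toAdj x (V x) n Φ hΦ hn h1 hmin
    rw [← adjoin_simple_adjoin_simple k x (V x), relrank_adjoin_simple _ _ hint, hmp,
      hΦ.natDegree_map, hn]
  · have hE2 : k⟮V x⟯ = (k⟮x⟯).map V := by
      rw [adjoin_map, Set.image_singleton]
    obtain ⟨hint, hdeg⟩ := finrank_adjoin_of_transport V x n Φ hΦ hn h1 h2 hmin _ hE2
    rw [Set.pair_comm, ← adjoin_simple_adjoin_simple k (V x) x, relrank_adjoin_simple _ _ hint,
      hdeg]

end PrimeRel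

section Psi

theorem dedekindPsi_pos {M : ℕ} (hM : 0 < M) : 0 < dedekindPsi M := by
  unfold dedekindPsi
  have h1 : (1 : ℕ) ∈ M.divisors.filter (fun d => Squarefree d) :=
    Finset.mem_filter.mpr ⟨Nat.one_mem_divisors.mpr hM.ne', squarefree_one⟩
  have := Finset.single_le_sum (f := fun d => M / d) (fun _ _ => Nat.zero_le _) h1
  simp only [Nat.div_one] at this
  omega

theorem dedekindPsi_mul_prime_of_dvd {p M : ℕ} (hp : p.Prime) (hM : 0 < M) (h : p ∣ M) :
    dedekindPsi (M * p) = p * dedekindPsi M := by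
  unfold dedekindPsi
  have hfilter : (M * p).divisors.filter (fun d => Squarefree d) =
      M.divisors.filter (fun d => Squarefree d) := by
    ext d
    simp only [Finset.mem_filter, Nat.mem_divisors]
    constructor
    · rintro ⟨⟨hd, -⟩, hsq⟩
      refine ⟨⟨?_, hM.ne'⟩, hsq⟩
      by_cases hpd : p ∣ d
      · obtain ⟨d', rfl⟩ := hpd
        have hcop : Nat.Coprime p d' := by
          rw [Nat.Prime.coprime_iff_not_dvd hp]
          intro hpd'
          have : p * p ∣ p * d' := Nat.mul_dvd_mul_left p hpd'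
          exact hp.one_lt.ne' (Nat.isUnit_iff.mp (hsq p this))
        have hd' : d' ∣ M := by
          have : p * d' ∣ p * M := by rwa [mul_comm p M]
          exact (Nat.mul_dvd_mul_iff_left hp.pos).mp this
        exact Nat.Coprime.mul_dvd_of_dvd_of_dvd hcop h hd'
      · exact (Nat.Coprime.dvd_mul_right
          ((Nat.Prime.coprime_iff_not_dvd hp).mpr hpd).symm).mp hd
    · rintro ⟨⟨hd, -⟩, hsq⟩
      exact ⟨⟨hd.mul_right p, Nat.mul_ne_zero hM.ne' hp.ne_zero⟩, hsq⟩
  rw [hfilter, Finset.mul_sum]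
  refine Finset.sum_congr rfl (fun d hd => ?_)
  have hdM : d ∣ M := (Nat.mem_divisors.mp (Finset.mem_filter.mp hd).1).1
  rw [mul_comm M p, Nat.mul_div_assoc p hdM]

theorem dedekindPsi_mul_prime_of_not_dvd {p M : ℕ} (hp : p.Prime) (hM : 0 < M) (h : ¬ p ∣ M) :
    dedekindPsi (M * p) = (p + 1) * dedekindPsi M := by
  classical
  unfold dedekindPsi
  set S1 := M.divisors.filter (fun d => Squarefree d) with hS1
  have hfilter : (M * p).divisors.filter (fun d => Squarefree d) =
      S1 ∪ S1.image (fun d => d * p) := by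
    ext d
    simp only [Finset.mem_filter, Nat.mem_divisors, Finset.mem_union, Finset.mem_image, hS1]
    constructor
    · rintro ⟨⟨hd, -⟩, hsq⟩
      by_cases hpd : p ∣ d
      · right
        obtain ⟨d', rfl⟩ := hpd
        have hd' : d' ∣ M := by
          have : p * d' ∣ p * M := by rwa [mul_comm p M]
          exact (Nat.mul_dvd_mul_iff_left hp.pos).mp this
        exact ⟨d', ⟨⟨hd', hM.ne'⟩, hsq.squarefree_of_dvd (Dvd.intro_left p rfl)⟩, mul_comm _ _⟩
      · left
        exact ⟨⟨(Nat.Coprime.dvd_mul_right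
          ((Nat.Prime.coprime_iff_not_dvd hp).mpr hpd).symm).mp hd, hM.ne'⟩, hsq⟩
    · rintro (⟨⟨hd, -⟩, hsq⟩ | ⟨d', ⟨⟨hd', -⟩, hsq'⟩, rfl⟩)
      · exact ⟨⟨hd.mul_right p, Nat.mul_ne_zero hM.ne' hp.ne_zero⟩, hsq⟩
      · refine ⟨⟨Nat.mul_dvd_mul_right hd' p, Nat.mul_ne_zero hM.ne' hp.ne_zero⟩, ?_⟩
        have hcop : Nat.Coprime d' p := by
          rw [Nat.coprime_comm, Nat.Prime.coprime_iff_not_dvd hp]
          exact fun hpd' => h (hpd'.trans hd')
        exact (Nat.squarefree_mul hcop).mpr ⟨hsq', hp.prime.squarefree⟩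
  have hdisj : Disjoint S1 (S1.image (fun d => d * p)) := by
    rw [Finset.disjoint_left]
    intro d hd hd2
    obtain ⟨d', -, rfl⟩ := Finset.mem_image.mp hd2
    have : d' * p ∣ M := (Nat.mem_divisors.mp (Finset.mem_filter.mp hd).1).1
    exact h ((Dvd.intro_left d' rfl).trans this)
  rw [hfilter, Finset.sum_union hdisj, Finset.sum_image
    (fun a _ b _ hab => Nat.eq_of_mul_eq_mul_right hp.pos hab), add_mul, one_mul, Finset.mul_sum]
  congr 1
  · refine Finset.sum_congr rfl (fun d hd => ?_)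
    have hdM : d ∣ M := (Nat.mem_divisors.mp (Finset.mem_filter.mp hd).1).1
    rw [mul_comm M p, Nat.mul_div_assoc p hdM]
  · refine Finset.sum_congr rfl (fun d _ => ?_)
    exact Nat.mul_div_mul_right M d hp.pos

/-- The counting lemma: lower bounds `D (M p) ≥ p D M`, divisibility in towers, the value at
primes and the upper bound `D ≤ ψ` force `D = ψ`. -/
theorem counting (N : ℕ) (hN : 0 < N) (D : ℕ → ℕ)
    (hub : ∀ M, M ∣ N → D M ≤ dedekindPsi M)
    (hdvd : ∀ M M', M ∣ M' → M' ∣ N → D M ∣ D M')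
    (hmul : ∀ p M, p.Prime → M * p ∣ N → p * D M ≤ D (M * p))
    (hprime : ∀ p, p.Prime → p ∣ N → D p = p + 1)
    (hone : D 1 = 1) :
    ∀ M, M ∣ N → D M = dedekindPsi M := by
  intro M
  induction M using Nat.strong_induction_on with
  | _ M ih =>
    intro hMN
    have hM0 : 0 < M := Nat.pos_of_dvd_of_pos hMN hN
    rcases eq_or_ne M 1 with rfl | hM1
    · rw [hone, dedekindPsi_one]
    -- a general step: a prime `q` with `q ∣ M / q`
    have step_sq : ∀ q, q.Prime → q ∣ M → q ∣ M / q → D M = dedekindPsi M := by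
      intro q hq hqM hqq
      have hMq : M / q * q = M := Nat.div_mul_cancel hqM
      have hlt : M / q < M := Nat.div_lt_self hM0 hq.one_lt
      have hpos : 0 < M / q := Nat.div_pos (Nat.le_of_dvd hM0 hqM) hq.pos
      have hdiv : M / q ∣ N := (Nat.div_dvd_of_dvd hqM).trans hMN
      have h1 := ih (M / q) hlt hdiv
      have h2 := hmul q (M / q) hq (by rw [hMq]; exact hMN)
      have h3 := dedekindPsi_mul_prime_of_dvd hq hpos hqq
      rw [hMq] at h2 h3
      refine le_antisymm (hub M hMN) ?_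
      rw [h3, ← h1]
      exact h2
    -- a general step: a prime `q` with `q ∤ M / q` gives two candidates
    have step_nsq : ∀ q, q.Prime → q ∣ M → ¬ q ∣ M / q →
        dedekindPsi M = (q + 1) * dedekindPsi (M / q) ∧
        (D M = dedekindPsi M ∨ D M = q * dedekindPsi (M / q)) := by
      intro q hq hqM hqq
      have hMq : M / q * q = M := Nat.div_mul_cancel hqM
      have hlt : M / q < M := Nat.div_lt_self hM0 hq.one_lt
      have hpos : 0 < M / q := Nat.div_pos (Nat.le_of_dvd hM0 hqM) hq.pos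
      have hdiv : M / q ∣ N := (Nat.div_dvd_of_dvd hqM).trans hMN
      have h1 := ih (M / q) hlt hdiv
      have h2 := hmul q (M / q) hq (by rw [hMq]; exact hMN)
      have h3 := dedekindPsi_mul_prime_of_not_dvd hq hpos hqq
      rw [hMq] at h2 h3
      refine ⟨h3, ?_⟩
      obtain ⟨c, hc⟩ := hdvd (M / q) M (Nat.div_dvd_of_dvd hqM) hMN
      have hψ := dedekindPsi_pos hpos
      have hub' := hub M hMN
      rw [h1] at hc h2
      rw [hc] at h2 hub'
      rw [h3] at hub'
      have hc1 : q ≤ c := by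
        have : q * dedekindPsi (M / q) ≤ c * dedekindPsi (M / q) := by rw [mul_comm c]; exact h2
        exact Nat.le_of_mul_le_mul_right this hψ
      have hc2 : c ≤ q + 1 := by
        have : c * dedekindPsi (M / q) ≤ (q + 1) * dedekindPsi (M / q) := by
          rw [mul_comm c]; exact hub'
        exact Nat.le_of_mul_le_mul_right this hψ
      rcases (by omega : c = q ∨ c = q + 1) with rfl | rfl
      · right; rw [hc, mul_comm]
      · left; rw [hc, h3, mul_comm]
    obtain ⟨p, hp, hpM⟩ := Nat.exists_prime_and_dvd hM1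
    by_cases hpp : p ∣ M / p
    · exact step_sq p hp hpM hpp
    obtain ⟨hψp, hDp⟩ := step_nsq p hp hpM hpp
    rcases hDp with hDp | hDp
    · exact hDp
    rcases eq_or_ne (M / p) 1 with hMp1 | hMp1
    · have : M = p := by
        have := Nat.div_mul_cancel hpM
        rw [hMp1, one_mul] at this
        exact this.symm
      subst this
      rw [hprime _ hp hMN, hψp, hMp1, dedekindPsi_one, mul_one]
    obtain ⟨r, hr, hrM0⟩ := Nat.exists_prime_and_dvd hMp1
    have hrM : r ∣ M := hrM0.trans (Nat.div_dvd_of_dvd hpM)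
    have hrp : r ≠ p := by
      rintro rfl
      exact hpp hrM0
    by_cases hrr : r ∣ M / r
    · exact step_sq r hr hrM hrr
    obtain ⟨hψr, hDr⟩ := step_nsq r hr hrM hrr
    rcases hDr with hDr | hDr
    · exact hDr
    exfalso
    have hpos_p : 0 < dedekindPsi (M / p) :=
      dedekindPsi_pos (Nat.div_pos (Nat.le_of_dvd hM0 hpM) hp.pos)
    set a := dedekindPsi (M / p) with ha
    set b := dedekindPsi (M / r) with hb
    have e1 : p * a = r * b := by rw [← hDp, hDr]
    have e2 : (p + 1) * a = (r + 1) * b := by rw [← hψp, hψr]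
    have e3 : a = b := by linarith
    rw [← e3] at e1
    exact hrp (Nat.eq_of_mul_eq_mul_right hpos_p e1).symm

end Psi

section Fields

variable (k : Type*) [Field k]

theorem jqModC_ne_zero : jqModC k ≠ 0 := jqModC_ne_zero_of_nontrivial k

theorem order_jqModC : (jqModC k).order = -1 := by
  have h1 : (jqModC k).coeff (-1) ≠ 0 := by rw [coeff_jqModC_neg_one]; exact one_ne_zero
  refine le_antisymm (HahnSeries.order_le_of_coeff_ne_zero h1) ?_
  by_contra hlt
  rw [not_le] at hlt
  exact jqModC_ne_zero k (HahnSeries.coeff_order_eq_zero.mp (coeff_jqModC_of_lt k hlt))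

/-- Prime-level data over the field `k`: a monic relation `Φ` of `X`-degree `p + 1` between
`V_p J` and `J` (both ways), minimal in `X`-degree. -/
def PrimeData (p : ℕ) [NeZero p] : Prop :=
  ∃ Φ : Polynomial (Polynomial k), Φ.Monic ∧ Φ.natDegree = p + 1 ∧
    ev2 (qExpand k p (jqModC k)) (jqModC k) Φ = 0 ∧
    ev2 (jqModC k) (qExpand k p (jqModC k)) Φ = 0 ∧
    ∀ Q : Polynomial (Polynomial k), Q ≠ 0 → Q.natDegree < p + 1 →
      ev2 (qExpand k p (jqModC k)) (jqModC k) Q ≠ 0

theorem relrank_pair_of_primeData (p : ℕ) [NeZero p] (h : PrimeData k p) :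
    (k⟮jqModC k⟯).relrank (k⟮jqModC k, qExpand k p (jqModC k)⟯) = ((p + 1 : ℕ) : Cardinal) ∧
    (k⟮qExpand k p (jqModC k)⟯).relrank (k⟮jqModC k, qExpand k p (jqModC k)⟯) =
      ((p + 1 : ℕ) : Cardinal) := by
  obtain ⟨Φ, hΦ, hn, h1, h2, hmin⟩ := h
  exact relrank_pair (qExpandAlgHomC k p) (jqModC k) (p + 1) Φ hΦ hn h1 h2 hmin

theorem divisorExpansionsC_one : divisorExpansionsC k 1 = {jqModC k} := by
  ext x
  constructor
  · rintro ⟨d, hd, hdvd, rfl⟩
    have : d = 1 := Nat.dvd_one.mp hdvd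
    subst this
    rw [qExpand_one_apply]
    rfl
  · rintro rfl
    exact ⟨1, inferInstance, dvd_rfl, (qExpand_one_apply _).symm⟩

theorem divisorExpansionsC_prime (p : ℕ) [NeZero p] (hp : p.Prime) :
    divisorExpansionsC k p = {jqModC k, qExpand k p (jqModC k)} := by
  ext x
  constructor
  · rintro ⟨d, hd, hdvd, rfl⟩
    rcases (Nat.dvd_prime hp).mp hdvd with rfl | rfl
    · left
      rw [qExpand_one_apply]
    · right
      rfl
  · rintro (rfl | rfl)
    · exact ⟨1, inferInstance, one_dvd _, (qExpand_one_apply _).symm⟩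
    · exact ⟨p, inferInstance, dvd_rfl, rfl⟩

theorem adjoin_jqModC_le (M : ℕ) : k⟮jqModC k⟯ ≤ modularFunctionFieldFullC k M := by
  rw [adjoin_le_iff]
  rintro x rfl
  exact jqModC_mem_full k M

/-- **Counting theorem**: prime-level data at the primes dividing `N` and the upper bounds
`[K_M : k(J)] ≤ ψ(M)` for `M ∣ N` give `[K_N : k(J)] = ψ(N)`. -/
theorem relrank_full_eq_dedekindPsi (N : ℕ) (hN : 0 < N)
    (hub : ∀ M, M ∣ N →
      (k⟮jqModC k⟯).relrank (modularFunctionFieldFullC k M) ≤ (dedekindPsi M : Cardinal))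
    (hprime : ∀ (p : ℕ) [NeZero p], p.Prime → p ∣ N → PrimeData k p) :
    (k⟮jqModC k⟯).relrank (modularFunctionFieldFullC k N) = (dedekindPsi N : Cardinal) := by
  have hfin : ∀ M, M ∣ N →
      (k⟮jqModC k⟯).relrank (modularFunctionFieldFullC k M) < Cardinal.aleph0 :=
    fun M hM => lt_of_le_of_lt (hub M hM) (Cardinal.natCast_lt_aleph0)
  have hcast : ∀ M, M ∣ N →
      (((k⟮jqModC k⟯).relfinrank (modularFunctionFieldFullC k M) : ℕ) : Cardinal) =
        (k⟮jqModC k⟯).relrank (modularFunctionFieldFullC k M) := by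
    intro M hM
    rw [relfinrank_eq_toNat_relrank]
    exact Cardinal.cast_toNat_of_lt_aleph0 (hfin M hM)
  have key := counting N hN
    (fun M => (k⟮jqModC k⟯).relfinrank (modularFunctionFieldFullC k M)) ?_ ?_ ?_ ?_ ?_ N dvd_rfl
  · rw [← hcast N dvd_rfl]
    exact_mod_cast key
  · -- upper bound
    intro M hM
    have := hub M hM
    rw [← hcast M hM] at this
    exact_mod_cast this
  · -- divisibility
    intro M M' hMM' hM'N
    have hM'0 : M' ≠ 0 := fun h => hN.ne' (by rw [h] at hM'N; exact Nat.eq_zero_of_zero_dvd hM'N)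
    have hM0 : M ≠ 0 := fun h => hM'0 (by rw [h] at hMM'; exact Nat.eq_zero_of_zero_dvd hMM')
    have : NeZero M := ⟨hM0⟩
    have : NeZero M' := ⟨hM'0⟩
    exact Dvd.intro _ (relfinrank_mul_relfinrank (adjoin_jqModC_le k M)
      (full_degeneracyC_le k hMM'))
  · -- the `V_p`-trick
    intro p M hp hMp
    have : NeZero p := ⟨hp.ne_zero⟩
    have hpN : p ∣ N := (Dvd.intro_left M rfl).trans hMp
    obtain ⟨hs1, hs2⟩ := relrank_pair_of_primeData k p (hprime p hp hpN)
    have h := relrank_mul_le p (jqModC k) (jqModC_ne_zero k) (order_jqModC k)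
      (modularFunctionFieldFullC k M) (modularFunctionFieldFullC k (M * p))
      (adjoin_jqModC_le k M) (jqModC_mem_full k (M * p)) (full_degeneracyC_map_le k M p)
      (hs1.trans hs2.symm)
    have hMN : M ∣ N := (Dvd.intro p rfl).trans hMp
    rw [← hcast M hMN, ← hcast (M * p) hMp] at h
    exact_mod_cast h
  · -- primes
    intro p hp hpN
    have : NeZero p := ⟨hp.ne_zero⟩
    obtain ⟨hs1, -⟩ := relrank_pair_of_primeData k p (hprime p hp hpN)
    have h := hcast p hpN
    rw [modularFunctionFieldFullC, divisorExpansionsC_prime k p hp] at h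
    rw [hs1] at h
    show (k⟮jqModC k⟯).relfinrank (modularFunctionFieldFullC k p) = p + 1
    rw [modularFunctionFieldFullC, divisorExpansionsC_prime k p hp]
    exact_mod_cast h
  · -- level one
    show (k⟮jqModC k⟯).relfinrank (modularFunctionFieldFullC k 1) = 1
    rw [modularFunctionFieldFullC, divisorExpansionsC_one]
    exact relfinrank_self _

end Fields

end Fermat.Agent.S28.helper1595
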