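/-
S28 (Igusa) — prime level WITHOUT the modular polynomial.

Author: helper1457.

Let `k` be a field in which the prime `p` is invertible, `J = jqModC k`, `V = qExpand k p`,
`D = deltaHat k`.  From the integral Hecke link
  `U_p(J^m D^M) + p^(12M-1) V(J^m D^M) = P(J) D^M`   (`m ≤ M`, `P` a polynomial)
and the existence of ONE algebraic relation between `V J` and `J` we prove

* `lemmaA`     : every relation `Q(V J; J) = 0` gives the transposed relation `Q(J; V J) = 0`;
* `minimality` : no nonzero `Q` of `X`-degree `≤ p` satisfies `Q(V J; J) = 0`.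

No modular polynomial, characteristic polynomial, Newton identity or root formula is used.
-/
import Mathlib
import Fermat.Prelude.Def_ModularCurve_X0ModL
import Fermat.Prelude.Thm_ModularCurve_coeffMap_qExpand
import Fermat.Prelude.Thm_ModularCurve_coeff_jqModC_neg_one
import Fermat.Prelude.Thm_ModularCurve_coeff_jqModC_pow_of_lt
import Fermat.Prelude.Thm_ModularCurve_coeff_jqModC_pow_self
import Fermat.Agent.S28.helper328_PrimeSpec
import Fermat.Agent.S28.helper3292_JqFacts
import Fermat.Agent.S28.helper2627_HeckeLink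
import Fermat.Agent.S28.helper1595_Counting

set_option autoImplicit false

noncomputable section

namespace Fermat.Agent.S28.helper1457

open ModularCurve HahnSeries Polynomial

/-! ### The operator `U_p` on Laurent series -/

section Uop

variable {R : Type*} [CommRing R]

/-- `U_p f = ∑ f_{pn} q^n`. -/
def Uop (p : ℕ) [NeZero p] (f : LaurentSeries R) : LaurentSeries R :=
  HahnSeries.ofSuppBddBelow (fun n : ℤ => f.coeff ((p : ℤ) * n)) (by
    refine ⟨min f.order 0, fun n hn => ?_⟩
    by_contra hlt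
    rw [not_le] at hlt
    refine hn (HahnSeries.coeff_eq_zero_of_lt_order ?_)
    have h0 : n < 0 := lt_of_lt_of_le hlt (min_le_right _ _)
    have h1 : n < f.order := lt_of_lt_of_le hlt (min_le_left _ _)
    have hp : (1 : ℤ) ≤ (p : ℤ) := by exact_mod_cast Nat.pos_of_ne_zero (NeZero.ne p)
    nlinarith)

@[simp] theorem Uop_coeff (p : ℕ) [NeZero p] (f : LaurentSeries R) (n : ℤ) :
    (Uop p f).coeff n = f.coeff ((p : ℤ) * n) := rfl

@[simp] theorem Uop_zero (p : ℕ) [NeZero p] : Uop p (0 : LaurentSeries R) = 0 := by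
  ext n; simp

theorem Uop_add (p : ℕ) [NeZero p] (f g : LaurentSeries R) :
    Uop p (f + g) = Uop p f + Uop p g := by
  ext n; simp

theorem Uop_sum (p : ℕ) [NeZero p] {ι : Type*} (s : Finset ι) (f : ι → LaurentSeries R) :
    Uop p (∑ i ∈ s, f i) = ∑ i ∈ s, Uop p (f i) := by
  classical
  induction s using Finset.induction_on with
  | empty => simp
  | insert a s ha ih => rw [Finset.sum_insert ha, Finset.sum_insert ha, Uop_add, ih]

theorem support_qExpand_subset (p : ℕ) [NeZero p] (a : LaurentSeries R) :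
    (qExpand R p a).support ⊆ (fun n : ℤ => (p : ℤ) * n) '' a.support := by
  intro i hi
  rw [HahnSeries.mem_support] at hi
  by_cases hdvd : (p : ℤ) ∣ i
  · obtain ⟨m, rfl⟩ := hdvd
    rw [qExpand_coeff_mul] at hi
    exact ⟨m, hi, rfl⟩
  · exact absurd (qExpand_coeff_of_not_dvd p a hdvd) hi

/-- `U_p (V_p(a) * f) = a * U_p f`. -/
theorem Uop_qExpand_mul (p : ℕ) [NeZero p] (a f : LaurentSeries R) :
    Uop p (qExpand R p a * f) = a * Uop p f := by
  have hp0 : (p : ℤ) ≠ 0 := by exact_mod_cast NeZero.ne p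
  ext n
  rw [Uop_coeff, HahnSeries.coeff_mul, HahnSeries.coeff_mul]
  refine Finset.sum_bij' (fun ij _ => (ij.1 / (p : ℤ), ij.2 / (p : ℤ)))
    (fun ij _ => ((p : ℤ) * ij.1, (p : ℤ) * ij.2)) ?_ ?_ ?_ ?_ ?_
  · rintro ⟨i, j⟩ hij
    rw [Finset.mem_antidiagonal] at hij ⊢
    obtain ⟨hi, hj, hsum⟩ := hij
    obtain ⟨i', hi', rfl⟩ := support_qExpand_subset p a hi
    have hj' : j = (p : ℤ) * (n - i') := by
      have : (p : ℤ) * i' + j = (p : ℤ) * n := hsum
      linarith
    subst hj'
    simp only [Int.mul_ediv_cancel_left _ hp0]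
    refine ⟨hi', ?_, by ring⟩
    rw [HahnSeries.mem_support] at hj ⊢
    rwa [Uop_coeff]
  · rintro ⟨i, j⟩ hij
    rw [Finset.mem_antidiagonal] at hij ⊢
    obtain ⟨hi, hj, hsum⟩ := hij
    refine ⟨?_, ?_, ?_⟩
    · rw [HahnSeries.mem_support] at hi ⊢
      simpa using hi
    · rw [HahnSeries.mem_support] at hj ⊢
      simpa using hj
    · simp only at hsum ⊢
      rw [← hsum]; ring
  · rintro ⟨i, j⟩ hij
    rw [Finset.mem_antidiagonal] at hij
    obtain ⟨hi, hj, hsum⟩ := hij
    obtain ⟨i', hi', rfl⟩ := support_qExpand_subset p a hi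
    have hj' : j = (p : ℤ) * (n - i') := by
      have : (p : ℤ) * i' + j = (p : ℤ) * n := hsum
      linarith
    subst hj'
    simp only [Int.mul_ediv_cancel_left _ hp0]
  · rintro ⟨i, j⟩ hij
    simp only [Int.mul_ediv_cancel_left _ hp0]
  · rintro ⟨i, j⟩ hij
    rw [Finset.mem_antidiagonal] at hij
    obtain ⟨hi, hj, hsum⟩ := hij
    obtain ⟨i', hi', rfl⟩ := support_qExpand_subset p a hi
    have hj' : j = (p : ℤ) * (n - i') := by
      have : (p : ℤ) * i' + j = (p : ℤ) * n := hsum
      linarith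
    subst hj'
    simp only [Int.mul_ediv_cancel_left _ hp0, qExpand_coeff_mul, Uop_coeff]

/-- `U_p (V_p a) = a`. -/
theorem Uop_qExpand (p : ℕ) [NeZero p] (a : LaurentSeries R) : Uop p (qExpand R p a) = a := by
  ext n; simp

theorem coeffMap_Uop {S : Type*} [CommRing S] (φ : R →+* S) (p : ℕ) [NeZero p]
    (f : LaurentSeries R) : coeffMap φ (Uop p f) = Uop p (coeffMap φ f) := by
  ext n; simp

end Uop

/-! ### Orders -/

section Orders

variable (k : Type*) [Field k]

theorem jqModC_ne_zero' : jqModC k ≠ 0 := jqModC_ne_zero_of_nontrivial k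

theorem order_jqModC : (jqModC k).order = -1 := by
  have h1 : (jqModC k).coeff (-1) ≠ 0 := by rw [coeff_jqModC_neg_one]; exact one_ne_zero
  refine le_antisymm (HahnSeries.order_le_of_coeff_ne_zero h1) ?_
  rw [HahnSeries.le_order_iff_forall (jqModC_ne_zero' k)]
  intro j hj
  exact coeff_jqModC_of_lt k hj

theorem coeff_aeval_jqModC_of_lt (P : Polynomial k) {m : ℤ} (hm : m < -(P.natDegree : ℤ)) :
    (Polynomial.aeval (jqModC k) P).coeff m = 0 := by
  rw [Polynomial.aeval_eq_sum_range, HahnSeries.coeff_sum]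
  refine Finset.sum_eq_zero fun i hi => ?_
  have hi' : i ≤ P.natDegree := Nat.lt_succ_iff.mp (Finset.mem_range.mp hi)
  rw [Algebra.smul_def, helper3292.coeff_algebraMap_mul,
    coeff_jqModC_pow_of_lt k (b := i) (m := m) (by
      have : (i : ℤ) ≤ (P.natDegree : ℤ) := by exact_mod_cast hi'
      omega), mul_zero]

theorem aeval_jqModC_ne_zero {P : Polynomial k} (hP : P ≠ 0) :
    Polynomial.aeval (jqModC k) P ≠ 0 := by
  intro h
  exact hP (helper3292.aeval_jqModC_injective k (by rw [h, map_zero]))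

theorem order_aeval_jqModC {P : Polynomial k} (hP : P ≠ 0) :
    (Polynomial.aeval (jqModC k) P).order = -(P.natDegree : ℤ) := by
  have h1 : (Polynomial.aeval (jqModC k) P).coeff (-(P.natDegree : ℤ)) ≠ 0 := by
    rw [helper3292.coeff_aeval_jqModC_neg_natDegree]
    exact Polynomial.leadingCoeff_ne_zero.mpr hP
  refine le_antisymm (HahnSeries.order_le_of_coeff_ne_zero h1) ?_
  rw [HahnSeries.le_order_iff_forall (aeval_jqModC_ne_zero k hP)]
  intro j hj
  exact coeff_aeval_jqModC_of_lt k P hj

theorem qExpand_ne_zero (p : ℕ) [NeZero p] {x : LaurentSeries k} (hx : x ≠ 0) :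
    qExpand k p x ≠ 0 := fun h => hx (qExpand_injective p (by rw [h, map_zero]))

theorem order_qExpand (p : ℕ) [NeZero p] {x : LaurentSeries k} (hx : x ≠ 0) :
    (qExpand k p x).order = (p : ℤ) * x.order := by
  have h1 : (qExpand k p x).coeff ((p : ℤ) * x.order) ≠ 0 := by
    rw [qExpand_coeff_mul]
    exact HahnSeries.coeff_order_eq_zero.not.mpr hx
  refine le_antisymm (HahnSeries.order_le_of_coeff_ne_zero h1) ?_
  rw [HahnSeries.le_order_iff_forall (qExpand_ne_zero k p hx)]
  intro j hj
  by_cases hdvd : (p : ℤ) ∣ j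
  · obtain ⟨m, rfl⟩ := hdvd
    rw [qExpand_coeff_mul]
    refine HahnSeries.coeff_eq_zero_of_lt_order ?_
    have hp : (0 : ℤ) < (p : ℤ) := by exact_mod_cast Nat.pos_of_ne_zero (NeZero.ne p)
    exact lt_of_mul_lt_mul_left hj hp.le
  · exact qExpand_coeff_of_not_dvd p x hdvd

theorem coeff_deltaHat_one : (helper328.deltaHat k).coeff 1 = 1 := by
  rw [helper328.deltaHat, HahnSeries.coeff_single_mul, one_mul, sub_self,
    show (0 : ℤ) = ((0 : ℕ) : ℤ) from rfl, HahnSeries.ofPowerSeries_apply_coeff,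
    PowerSeries.coeff_map, PowerSeries.coeff_zero_eq_constantCoeff,
    constantCoeff_dedekindEtaUnit]
  simp

theorem coeff_deltaHat_of_lt {n : ℤ} (hn : n < 1) : (helper328.deltaHat k).coeff n = 0 := by
  rw [helper328.deltaHat, HahnSeries.coeff_single_mul, one_mul]
  exact ofPowerSeries_coeff_of_neg _ (by omega)

theorem deltaHat_ne_zero : helper328.deltaHat k ≠ 0 := by
  intro h
  have := coeff_deltaHat_one k
  rw [h] at this
  simp at this

theorem order_deltaHat : (helper328.deltaHat k).order = 1 := by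
  have h1 : (helper328.deltaHat k).coeff 1 ≠ 0 := by
    rw [coeff_deltaHat_one]; exact one_ne_zero
  refine le_antisymm (HahnSeries.order_le_of_coeff_ne_zero h1) ?_
  rw [HahnSeries.le_order_iff_forall (deltaHat_ne_zero k)]
  intro j hj
  exact coeff_deltaHat_of_lt k hj

end Orders

/-! ### Two-variable evaluation -/

section Ev2

variable {k : Type*} [Field k]

/-- Evaluation of `Q(X, Y)` (outer variable `X`) at `X = a`, `Y = b`. -/
def ev2 (a b : LaurentSeries k) (Q : Polynomial (Polynomial k)) : LaurentSeries k :=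
  Q.eval₂ ((aeval b : Polynomial k →ₐ[k] LaurentSeries k) : Polynomial k →+* LaurentSeries k) a

theorem ev2_mul (a b : LaurentSeries k) (Q Q' : Polynomial (Polynomial k)) :
    ev2 a b (Q * Q') = ev2 a b Q * ev2 a b Q' := by
  unfold ev2
  exact Polynomial.eval₂_mul _ _

theorem ev2_eq_sum (a b : LaurentSeries k) (Q : Polynomial (Polynomial k)) :
    ev2 a b Q = ∑ i ∈ Finset.range (Q.natDegree + 1), aeval b (Q.coeff i) * a ^ i := by
  unfold ev2
  rw [Polynomial.eval₂_eq_sum_range]
  rfl

theorem ev2_eq_eval_map (a b : LaurentSeries k) (Q : Polynomial (Polynomial k)) :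
    ev2 a b Q = (Q.map ((aeval b : Polynomial k →ₐ[k] LaurentSeries k) :
      Polynomial k →+* LaurentSeries k)).eval a := by
  unfold ev2
  rw [Polynomial.eval_map]

theorem qExpand_aeval (p : ℕ) [NeZero p] (b : LaurentSeries k) (c : Polynomial k) :
    qExpand k p (aeval b c) = aeval (qExpand k p b) c := by
  have := Polynomial.aeval_algHom_apply (qExpandAlgHomC k p) b c
  rw [qExpandAlgHomC_apply, qExpandAlgHomC_apply] at this
  exact this.symm

theorem qExpand_ev2 (p : ℕ) [NeZero p] (a b : LaurentSeries k) (Q : Polynomial (Polynomial k)) :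
    qExpand k p (ev2 a b Q) = ev2 (qExpand k p a) (qExpand k p b) Q := by
  rw [ev2_eq_sum, ev2_eq_sum, map_sum]
  refine Finset.sum_congr rfl fun i _ => ?_
  rw [map_mul, map_pow, qExpand_aeval]

/-- `ev2` as an algebra homomorphism. -/
def ev2Hom (a b : LaurentSeries k) : Polynomial (Polynomial k) →ₐ[k] LaurentSeries k :=
  Polynomial.eval₂AlgHom (aeval b : Polynomial k →ₐ[k] LaurentSeries k) a
    (fun _ => Commute.all _ _)

theorem ev2Hom_apply (a b : LaurentSeries k) (Q : Polynomial (Polynomial k)) :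
    ev2Hom a b Q = ev2 a b Q := rfl

theorem ev2_eq_aevalAeval (a b : LaurentSeries k) (Q : Polynomial (Polynomial k)) :
    ev2 a b Q = Polynomial.aevalAeval b a Q := by
  have h := (Polynomial.aevalAevalEquiv k (LaurentSeries k)).apply_symm_apply (ev2Hom a b)
  have h1 : (Polynomial.aevalAevalEquiv k (LaurentSeries k)).symm (ev2Hom a b) = (b, a) := by
    rw [Polynomial.aevalAevalEquiv_symm_apply]
    simp [ev2Hom_apply, ev2]
  rw [h1] at h
  rw [← ev2Hom_apply, ← h]

theorem ev2_swap (a b : LaurentSeries k) (Q : Polynomial (Polynomial k)) :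
    ev2 a b (Polynomial.Bivariate.swap Q) = ev2 b a Q := by
  rw [ev2_eq_aevalAeval, ev2_eq_aevalAeval, Polynomial.Bivariate.aevalAeval_swap]

end Ev2

/-! ### The Hecke link over a field -/

section HeckeField

theorem coeffMap_deltaHat {R S : Type*} [CommRing R] [CommRing S] (f : R →+* S) :
    coeffMap f (helper328.deltaHat R) = helper328.deltaHat S := by
  rw [helper328.deltaHat, helper328.deltaHat, map_mul, coeffMap_single, map_one,
    coeffMap_ofPowerSeries]
  congr 2
  ext n
  simp [PowerSeries.coeff_map]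

theorem evalJ_eq_aeval (P : Polynomial ℤ) :
    helper328.evalJ (jqModC ℤ) P = Polynomial.aeval (jqModC ℤ) P := by
  rw [helper328.evalJ, Polynomial.aeval_def]
  simp only [Polynomial.coe_eval₂RingHom]
  congr 1
  exact RingHom.ext_int _ _

variable (k : Type*) [Field k]

/-- The Hecke link over an arbitrary field (reduction of `helper2627.hecke_link`). -/
theorem heckeLink_field (p : ℕ) [NeZero p] (hpp : p.Prime) (m M : ℕ) (hm : m ≤ M)
    (hM : 1 ≤ M) :
    ∃ P : Polynomial k,
      Uop p (jqModC k ^ m * helper328.deltaHat k ^ M) +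
          ((p : k) ^ (12 * M - 1)) • qExpand k p (jqModC k ^ m * helper328.deltaHat k ^ M) =
        Polynomial.aeval (jqModC k) P * helper328.deltaHat k ^ M := by
  haveI : Fact p.Prime := ⟨hpp⟩
  obtain ⟨P, -, hP⟩ := helper2627.hecke_link p m M hm hM
  refine ⟨P.map (Int.castRingHom k), ?_⟩
  have hJ : jqModC k ^ m * helper328.deltaHat k ^ M =
      coeffMap (Int.castRingHom k) (jqModC ℤ ^ m * helper328.deltaHat ℤ ^ M) := by
    rw [map_mul, map_pow, map_pow, coeffMap_jqModC, coeffMap_deltaHat]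
  have hR : Polynomial.aeval (jqModC k) (P.map (Int.castRingHom k)) * helper328.deltaHat k ^ M =
      coeffMap (Int.castRingHom k)
        (helper328.evalJ (jqModC ℤ) P * helper328.deltaHat ℤ ^ M) := by
    rw [map_mul, map_pow, coeffMap_deltaHat, evalJ_eq_aeval,
      helper3292.coeffMap_aeval_jqModC]
  rw [hJ, hR, ← coeffMap_qExpand]
  ext n
  rw [HahnSeries.coeff_add, Uop_coeff, HahnSeries.coeff_smul, coeffMap_coeff, coeffMap_coeff,
    coeffMap_coeff, ← hP n]
  simp

end HeckeField

/-! ### Lemma A: every relation transposes -/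

section LemmaA

variable (k : Type*) [Field k] (p : ℕ) [NeZero p]

theorem order_smul_of_ne_zero {c : k} (hc : c ≠ 0) (y : LaurentSeries k) :
    (c • y).order = y.order := by
  by_cases hy : y = 0
  · simp [hy]
  have hcy : c • y ≠ 0 := smul_ne_zero hc hy
  refine le_antisymm (HahnSeries.order_le_of_coeff_ne_zero ?_) ?_
  · rw [HahnSeries.coeff_smul]
    exact smul_ne_zero hc (HahnSeries.coeff_order_eq_zero.not.mpr hy)
  · rw [HahnSeries.le_order_iff_forall hcy]
    intro j hj
    rw [HahnSeries.coeff_smul, HahnSeries.coeff_eq_zero_of_lt_order hj, smul_zero]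

/-- The key identity: if `C(V J; J) = 0` and `C(J; V J) = Dn(V J)` then `Dn(J) * p^(12M-1) *
(V D)^M` is a polynomial in `J` times `D^M`, for every `M ≥ max 1 (deg_X C)`. -/
theorem key_identity (hpp : p.Prime) (C : Polynomial (Polynomial k)) (Dn : Polynomial k)
    (hC1 : ev2 (qExpand k p (jqModC k)) (jqModC k) C = 0)
    (hC2 : ev2 (jqModC k) (qExpand k p (jqModC k)) C =
      Polynomial.aeval (qExpand k p (jqModC k)) Dn)
    (M : ℕ) (hM : 1 ≤ M) (hCM : C.natDegree ≤ M) :
    ∃ W : Polynomial k,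
      Polynomial.aeval (jqModC k) Dn *
          (((p : k) ^ (12 * M - 1)) • (qExpand k p (helper328.deltaHat k)) ^ M) =
        Polynomial.aeval (jqModC k) W * helper328.deltaHat k ^ M := by
  have hex : ∀ a, a ≤ M → ∃ P : Polynomial k,
      Uop p (jqModC k ^ a * helper328.deltaHat k ^ M) +
          ((p : k) ^ (12 * M - 1)) • qExpand k p (jqModC k ^ a * helper328.deltaHat k ^ M) =
        Polynomial.aeval (jqModC k) P * helper328.deltaHat k ^ M :=
    fun a ha => heckeLink_field k p hpp a M ha hM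
  choose! Pf hPf using hex
  have hS1 : ∑ a ∈ Finset.range (C.natDegree + 1), Polynomial.aeval (jqModC k) (C.coeff a) *
      (Uop p (jqModC k ^ a * helper328.deltaHat k ^ M) +
        ((p : k) ^ (12 * M - 1)) • qExpand k p (jqModC k ^ a * helper328.deltaHat k ^ M)) =
      Polynomial.aeval (jqModC k) (∑ a ∈ Finset.range (C.natDegree + 1), C.coeff a * Pf a) *
        helper328.deltaHat k ^ M := by
    rw [map_sum, Finset.sum_mul]
    refine Finset.sum_congr rfl fun a ha => ?_
    have haM : a ≤ M := by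
      have := Finset.mem_range.mp ha
      omega
    rw [hPf a haM, map_mul, mul_assoc]
  have hU : ∑ a ∈ Finset.range (C.natDegree + 1), Polynomial.aeval (jqModC k) (C.coeff a) *
      Uop p (jqModC k ^ a * helper328.deltaHat k ^ M) =
      Polynomial.aeval (jqModC k) Dn * Uop p (helper328.deltaHat k ^ M) := by
    have h1 : ∀ a, Polynomial.aeval (jqModC k) (C.coeff a) *
        Uop p (jqModC k ^ a * helper328.deltaHat k ^ M) =
        Uop p (Polynomial.aeval (qExpand k p (jqModC k)) (C.coeff a) * jqModC k ^ a *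
          helper328.deltaHat k ^ M) := by
      intro a
      rw [← Uop_qExpand_mul, qExpand_aeval, mul_assoc]
    simp_rw [h1]
    rw [← Uop_sum, ← Finset.sum_mul, ← ev2_eq_sum, hC2, ← qExpand_aeval, Uop_qExpand_mul]
  have hV : ∑ a ∈ Finset.range (C.natDegree + 1), Polynomial.aeval (jqModC k) (C.coeff a) *
      (((p : k) ^ (12 * M - 1)) • qExpand k p (jqModC k ^ a * helper328.deltaHat k ^ M)) = 0 := by
    have h1 : ∀ a, Polynomial.aeval (jqModC k) (C.coeff a) *
        (((p : k) ^ (12 * M - 1)) • qExpand k p (jqModC k ^ a * helper328.deltaHat k ^ M)) =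
        ((p : k) ^ (12 * M - 1)) • ((Polynomial.aeval (jqModC k) (C.coeff a) *
          qExpand k p (jqModC k) ^ a) * qExpand k p (helper328.deltaHat k) ^ M) := by
      intro a
      rw [map_mul, map_pow, map_pow, ← HahnSeries.C_mul_eq_smul, ← HahnSeries.C_mul_eq_smul]
      ring
    simp_rw [h1]
    rw [← Finset.smul_sum, ← Finset.sum_mul, ← ev2_eq_sum, hC1, zero_mul, smul_zero]
  have h0 := hPf 0 (Nat.zero_le M)
  rw [pow_zero, one_mul, map_pow] at h0
  refine ⟨Dn * Pf 0 - ∑ a ∈ Finset.range (C.natDegree + 1), C.coeff a * Pf a, ?_⟩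
  rw [map_sub, sub_mul, ← hS1, Finset.sum_congr rfl (fun a _ => mul_add _ _ _),
    Finset.sum_add_distrib, hU, hV, add_zero, map_mul, mul_assoc, ← h0]
  ring

/-- **Lemma A.** Every relation `Q(V_p J; J) = 0` transposes to `Q(J; V_p J) = 0`
(`p` prime, invertible in `k`). -/
theorem lemmaA (hpp : p.Prime) (hp : (p : k) ≠ 0) (Q : Polynomial (Polynomial k))
    (h : ev2 (qExpand k p (jqModC k)) (jqModC k) Q = 0) :
    ev2 (jqModC k) (qExpand k p (jqModC k)) Q = 0 := by
  by_contra hu
  have hQ0 : Q ≠ 0 := by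
    rintro rfl
    exact hu (by simp [ev2])
  letI : Algebra (Polynomial k) (LaurentSeries k) :=
    ((Polynomial.aeval (qExpand k p (jqModC k)) : Polynomial k →ₐ[k] LaurentSeries k) :
      Polynomial k →+* LaurentSeries k).toAlgebra
  have hev : ∀ (a : LaurentSeries k) (G : Polynomial (Polynomial k)),
      Polynomial.aeval (R := Polynomial k) a G = ev2 a (qExpand k p (jqModC k)) G :=
    fun a G => rfl
  have hJalg : IsAlgebraic (Polynomial k) (jqModC k) := by
    refine ⟨Polynomial.Bivariate.swap Q, ?_, ?_⟩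
    · intro h0
      apply hQ0
      have := congrArg Polynomial.Bivariate.swap h0
      rwa [Polynomial.Bivariate.swap_swap_apply, map_zero] at this
    · rw [hev, ev2_swap]
      exact h
  have hualg : IsAlgebraic (Polynomial k) (ev2 (jqModC k) (qExpand k p (jqModC k)) Q) := by
    rw [← hev]
    have hmem : jqModC k ∈ Subalgebra.algebraicClosure (Polynomial k) (LaurentSeries k) := hJalg
    exact Algebra.adjoin_le (Set.singleton_subset_iff.mpr hmem)
      (Polynomial.aeval_mem_adjoin_singleton _ _)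
  obtain ⟨q, hq0, hq⟩ :=
    hualg.exists_nonzero_coeff_and_aeval_eq_zero (mem_nonZeroDivisors_of_ne_zero hu)
  have hsplit : q = q.divX * Polynomial.X + Polynomial.C (q.coeff 0) :=
    (Polynomial.divX_mul_X_add q).symm
  have hq' : Polynomial.aeval (ev2 (jqModC k) (qExpand k p (jqModC k)) Q) q.divX *
      ev2 (jqModC k) (qExpand k p (jqModC k)) Q +
      Polynomial.aeval (qExpand k p (jqModC k)) (q.coeff 0) = 0 := by
    rw [← hq]
    conv_rhs => rw [hsplit]
    rw [map_add, map_mul, Polynomial.aeval_X, Polynomial.aeval_C]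
    rfl
  have hC2 : ev2 (jqModC k) (qExpand k p (jqModC k)) ((-(q.divX.comp Q)) * Q) =
      Polynomial.aeval (qExpand k p (jqModC k)) (q.coeff 0) := by
    rw [ev2_mul, ← hev, ← hev, map_neg, Polynomial.aeval_comp, hev (jqModC k) Q]
    linear_combination (-1 : LaurentSeries k) * hq'
  have hC1 : ev2 (qExpand k p (jqModC k)) (jqModC k) ((-(q.divX.comp Q)) * Q) = 0 := by
    rw [ev2_mul, h, mul_zero]
  obtain ⟨W, hW⟩ := key_identity k p hpp ((-(q.divX.comp Q)) * Q) (q.coeff 0) hC1 hC2
    (max ((-(q.divX.comp Q)) * Q).natDegree ((q.coeff 0).natDegree + 1))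
    (le_trans (Nat.le_add_left 1 _) (le_max_right _ _)) (le_max_left _ _)
  have hMD : (q.coeff 0).natDegree + 1 ≤
      max ((-(q.divX.comp Q)) * Q).natDegree ((q.coeff 0).natDegree + 1) := le_max_right _ _
  generalize max ((-(q.divX.comp Q)) * Q).natDegree ((q.coeff 0).natDegree + 1) = M at hW hMD
  have hc : (p : k) ^ (12 * M - 1) ≠ 0 := pow_ne_zero _ hp
  have hVD : qExpand k p (helper328.deltaHat k) ≠ 0 := qExpand_ne_zero k p (deltaHat_ne_zero k)
  have hDn : Polynomial.aeval (jqModC k) (q.coeff 0) ≠ 0 := aeval_jqModC_ne_zero k hq0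
  have hcV : ((p : k) ^ (12 * M - 1)) • (qExpand k p (helper328.deltaHat k)) ^ M ≠ 0 :=
    smul_ne_zero hc (pow_ne_zero _ hVD)
  have hL : Polynomial.aeval (jqModC k) (q.coeff 0) *
      (((p : k) ^ (12 * M - 1)) • (qExpand k p (helper328.deltaHat k)) ^ M) ≠ 0 :=
    mul_ne_zero hDn hcV
  have hW0 : W ≠ 0 := by
    rintro rfl
    rw [map_zero, zero_mul] at hW
    exact hL hW
  have ho := congrArg HahnSeries.order hW
  rw [HahnSeries.order_mul hDn hcV, order_aeval_jqModC k hq0, order_smul_of_ne_zero k hc,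
    HahnSeries.order_pow, order_qExpand k p (deltaHat_ne_zero k), order_deltaHat,
    HahnSeries.order_mul (aeval_jqModC_ne_zero k hW0) (pow_ne_zero _ (deltaHat_ne_zero k)),
    order_aeval_jqModC k hW0, HahnSeries.order_pow, order_deltaHat] at ho
  have hp2 : (2 : ℤ) ≤ (p : ℤ) := by exact_mod_cast hpp.two_le
  have hMD' : ((q.coeff 0).natDegree : ℤ) + 1 ≤ (M : ℤ) := by exact_mod_cast hMD
  simp only [nsmul_eq_mul, mul_one] at ho
  have hWn : (0 : ℤ) ≤ (W.natDegree : ℤ) := Int.natCast_nonneg _
  nlinarith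

end LemmaA

/-! ### Minimality: no relation of `X`-degree `≤ p` -/

section Minimality

variable (k : Type*) [Field k] (p : ℕ) [NeZero p]

theorem qExpand_injective' : Function.Injective (qExpand k p) := by
  rw [injective_iff_map_eq_zero]
  intro x hx
  by_contra hne
  exact qExpand_ne_zero k p hne hx

/-- `1, J, …, J^(p-1)` are linearly independent over the image of `V_p`. -/
theorem eq_zero_of_eval_map_qExpand (P : Polynomial (LaurentSeries k)) (hP : P.natDegree < p)
    (h : (P.map (qExpand k p)).eval (jqModC k) = 0) : P = 0 := by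
  have hsum : ∑ i : Fin p, qExpand k p (P.coeff (i : ℕ)) * jqModC k ^ (i : ℕ) = 0 := by
    rw [← h, Polynomial.eval_eq_sum_range' (n := p)
      (lt_of_le_of_lt (Polynomial.natDegree_map_le) hP), Finset.sum_range]
    refine Finset.sum_congr rfl fun i _ => ?_
    rw [Polynomial.coeff_map]
  have hz := helper1595.eq_zero_of_sum_mul_pow_eq_zero p (jqModC k) (jqModC_ne_zero' k)
    (order_jqModC k) (fun i : Fin p => qExpand k p (P.coeff (i : ℕ))) (fun i => ⟨_, rfl⟩) hsum
  refine Polynomial.ext fun n => ?_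
  rw [Polynomial.coeff_zero]
  by_cases hn : n < p
  · exact qExpand_injective' k p (by rw [map_zero]; exact hz ⟨n, hn⟩)
  · exact Polynomial.coeff_eq_zero_of_natDegree_lt (lt_of_lt_of_le hP (not_lt.mp hn))

theorem jqModC_ne_qExpand_qExpand (hp2 : 2 ≤ p) :
    jqModC k ≠ qExpand k p (qExpand k p (jqModC k)) := by
  intro h
  have ho := congrArg HahnSeries.order h
  rw [order_qExpand k p (qExpand_ne_zero k p (jqModC_ne_zero' k)),
    order_qExpand k p (jqModC_ne_zero' k), order_jqModC] at ho
  have hp2' : (2 : ℤ) ≤ (p : ℤ) := by exact_mod_cast hp2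
  nlinarith

/-- **Minimality (strong F3).** For `p` prime and invertible in `k`, no nonzero `Q ∈ k[Y][X]` of
`X`-degree `≤ p` satisfies `Q(V_p J; J) = 0`. -/
theorem primeIndep (hpp : p.Prime) (hp : (p : k) ≠ 0) (Q : Polynomial (Polynomial k))
    (hQ : Q ≠ 0) (hdeg : Q.natDegree < p + 1) :
    ev2 (qExpand k p (jqModC k)) (jqModC k) Q ≠ 0 := by
  intro h
  have h2 := lemmaA k p hpp hp Q h
  rw [ev2_eq_eval_map] at h h2
  set φ : Polynomial k →+* LaurentSeries k :=
    ((aeval (jqModC k) : Polynomial k →ₐ[k] LaurentSeries k) : Polynomial k →+* LaurentSeries k)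
    with hφ
  have hφinj : Function.Injective φ := helper3292.aeval_jqModC_injective k
  have hmap0 : Q.map φ ≠ 0 := (Polynomial.map_ne_zero_iff hφinj).mpr hQ
  obtain ⟨P₁, hP₁⟩ := Polynomial.dvd_iff_isRoot.mpr h
  have hP₁0 : P₁ ≠ 0 := by
    rintro rfl
    rw [mul_zero] at hP₁
    exact hmap0 hP₁
  have hdeg1 : P₁.natDegree < p := by
    have hd := congrArg Polynomial.natDegree hP₁
    rw [Polynomial.natDegree_mul (Polynomial.X_sub_C_ne_zero _) hP₁0,
      Polynomial.natDegree_X_sub_C] at hd
    have := Polynomial.natDegree_map_le (f := φ) (p := Q)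
    omega
  have hcomp : (qExpand k p : LaurentSeries k →+* LaurentSeries k).comp φ =
      ((aeval (qExpand k p (jqModC k)) : Polynomial k →ₐ[k] LaurentSeries k) :
        Polynomial k →+* LaurentSeries k) := by
    exact RingHom.ext fun c => qExpand_aeval p (jqModC k) c
  have hV := congrArg (Polynomial.map (qExpand k p)) hP₁
  rw [Polynomial.map_map, hcomp, Polynomial.map_mul, Polynomial.map_sub, Polynomial.map_X,
    Polynomial.map_C] at hV
  rw [hV, Polynomial.eval_mul, Polynomial.eval_sub, Polynomial.eval_X, Polynomial.eval_C] at h2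
  rcases mul_eq_zero.mp h2 with h3 | h3
  · exact jqModC_ne_qExpand_qExpand k p hpp.two_le (sub_eq_zero.mp h3)
  · exact hP₁0 (eq_zero_of_eval_map_qExpand k p P₁ hdeg1 h3)

end Minimality

end Fermat.Agent.S28.helper1457
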