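/-
S28 (Igusa) — the tower `[k(j(q^d) : d ∣ N) : k(j)] = ψ(N)` WITHOUT the modular polynomial.

Author: helper1457.

Input: only the upper bounds `[K_M : k(J)] ≤ ψ(M)` for `M ∣ N` (reduction of the
characteristic-zero bound) and `p ∈ k^×` for the primes `p ∣ N`.  The prime-level data used by the
counting argument (`helper1595.counting`) is obtained from `helper1457.lemmaA` and
`helper1457.primeIndep` instead of a monic relation `Φ_p`:

* `[k(J, V_p J) : k(J)] ≥ p + 1`     (`primeIndep`),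
* `[k(J, V_p J) : k(V_p J)] ≤ p + 1` (one relation of `X`-degree `≤ p + 1`, transposed by `lemmaA`).
-/
import Mathlib
import Fermat.Prelude.Def_ModularCurve_X0ModL
import Fermat.Agent.S28.helper1595_Counting
import Fermat.Agent.S28.helper1457_PrimeTrace

set_option autoImplicit false

noncomputable section

namespace Fermat.Agent.S28.helper1457

open IntermediateField ModularCurve Polynomial

section Rank

variable {k : Type*} [Field k]

/-- The `V_p`-trick with an inequality between the two prime-level degrees. -/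
theorem relrank_mul_le_of_le (p : ℕ) [NeZero p] (J : LaurentSeries k) (hJ0 : J ≠ 0)
    (hJ : J.order = -1) (K K' : IntermediateField k (LaurentSeries k))
    (hK : k⟮J⟯ ≤ K) (hJK' : J ∈ K') (hVK : K.map (qExpandAlgHomC k p) ≤ K')
    (hsym : (k⟮qExpand k p J⟯).relrank (k⟮J, qExpand k p J⟯) ≤
      (k⟮J⟯).relrank (k⟮J, qExpand k p J⟯)) :
    (p : Cardinal) * (k⟮J⟯).relrank K ≤ (k⟮J⟯).relrank K' := by
  have hJK : J ∈ K := hK (mem_adjoin_simple_self k J)
  have hE2 : (k⟮J⟯).map (qExpandAlgHomC k p) = k⟮qExpand k p J⟯ := by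
    rw [adjoin_map, Set.image_singleton, qExpandAlgHomC_apply]
  have hE2K : k⟮qExpand k p J⟯ ≤ K.map (qExpandAlgHomC k p) := by
    rw [← hE2]
    exact IntermediateField.map_mono _ hK
  have hVJK' : qExpand k p J ∈ K' := hVK (hE2K (mem_adjoin_simple_self k _))
  have hE12 : k⟮J, qExpand k p J⟯ ≤ K' := by
    rw [adjoin_le_iff]
    rintro x (rfl | rfl)
    · exact hJK'
    · exact hVJK'
  have h1 : k⟮J⟯ ≤ k⟮J, qExpand k p J⟯ := by
    rw [adjoin_le_iff]
    rintro x rfl
    exact subset_adjoin k _ (Set.mem_insert _ _)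
  have h2 : k⟮qExpand k p J⟯ ≤ k⟮J, qExpand k p J⟯ := by
    rw [adjoin_le_iff]
    rintro x rfl
    exact subset_adjoin k _ (Set.mem_insert_of_mem _ rfl)
  have hrange : ∀ x ∈ K.map (qExpandAlgHomC k p), x ∈ Set.range (qExpand k p) := by
    rintro x ⟨y, -, rfl⟩
    exact ⟨y, rfl⟩
  have hp := helper1595.natCast_le_relrank p J hJ0 hJ (K.map (qExpandAlgHomC k p)) K' hrange
    hVK hJK'
  calc (p : Cardinal) * (k⟮J⟯).relrank K
      = (p : Cardinal) * ((k⟮J⟯).map (qExpandAlgHomC k p)).relrank (K.map (qExpandAlgHomC k p)) := by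
        rw [relrank_map_map]
    _ = (k⟮qExpand k p J⟯).relrank (K.map (qExpandAlgHomC k p)) * (p : Cardinal) := by
        rw [hE2, mul_comm]
    _ ≤ (k⟮qExpand k p J⟯).relrank (K.map (qExpandAlgHomC k p)) *
          (K.map (qExpandAlgHomC k p)).relrank K' := by gcongr
    _ = (k⟮qExpand k p J⟯).relrank K' := relrank_mul_relrank hE2K hVK
    _ = (k⟮qExpand k p J⟯).relrank (k⟮J, qExpand k p J⟯) * (k⟮J, qExpand k p J⟯).relrank K' :=
        (relrank_mul_relrank h2 hE12).symm
    _ ≤ (k⟮J⟯).relrank (k⟮J, qExpand k p J⟯) * (k⟮J, qExpand k p J⟯).relrank K' := by gcongr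
    _ = (k⟮J⟯).relrank K' := relrank_mul_relrank h1 hE12

/-- If no nonzero `Q ∈ k[Y][X]` of `X`-degree `< n` kills `(y, x)`, then `[k(x, y) : k(x)] ≥ n`. -/
theorem natCast_le_relrank_of_min (x y : LaurentSeries k) (n : ℕ)
    (hmin : ∀ Q : Polynomial (Polynomial k), Q ≠ 0 → Q.natDegree < n →
      helper1595.ev2 y x Q ≠ 0) :
    (n : Cardinal) ≤ (k⟮x⟯).relrank (k⟮x, y⟯) := by
  have hAB : k⟮x⟯ ≤ k⟮x, y⟯ := by
    rw [adjoin_le_iff]
    rintro z rfl
    exact subset_adjoin k _ (Set.mem_insert _ _)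
  have hy : y ∈ k⟮x, y⟯ := subset_adjoin k _ (Set.mem_insert_of_mem _ rfl)
  rw [relrank_eq_rank_of_le hAB]
  let v : Fin n → ↥(extendScalars hAB) := fun i => ⟨y ^ (i : ℕ), pow_mem hy _⟩
  have hli : LinearIndependent ↥k⟮x⟯ v := by
    rw [Fintype.linearIndependent_iff]
    intro g hg
    have hg' : ∑ i, (g i : LaurentSeries k) * y ^ (i : ℕ) = 0 := by
      have := congrArg (fun z : ↥(extendScalars hAB) => (z : LaurentSeries k)) hg
      simpa [v, Algebra.smul_def] using this
    exact helper1595.eq_zero_of_sum_mul_pow_of_min x y n hmin g hg'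
  have := hli.cardinal_lift_le_rank
  simpa using this

/-- Conversely: if `[k(x, y) : k(x)] ≤ n` there is a nonzero relation of `X`-degree `≤ n`. -/
theorem exists_rel_of_relrank_le (x y : LaurentSeries k) (n : ℕ)
    (h : (k⟮x⟯).relrank (k⟮x, y⟯) ≤ (n : Cardinal)) :
    ∃ Q : Polynomial (Polynomial k), Q ≠ 0 ∧ Q.natDegree < n + 1 ∧ helper1595.ev2 y x Q = 0 := by
  by_contra hcon
  push Not at hcon
  have := natCast_le_relrank_of_min x y (n + 1) hcon
  have h2 := this.trans h
  have h3 : (n + 1 : ℕ) ≤ n := by exact_mod_cast h2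
  omega

end Rank

section Prime

variable (k : Type*) [Field k] (p : ℕ) [NeZero p]

theorem ev2_eq (a b : LaurentSeries k) (Q : Polynomial (Polynomial k)) :
    helper1595.ev2 a b Q = ev2 a b Q := rfl

/-- `[k(J, V_p J) : k(J)] ≥ p + 1`, unconditionally. -/
theorem natCast_succ_le_relrank_pair (hpp : p.Prime) (hp : (p : k) ≠ 0) :
    ((p + 1 : ℕ) : Cardinal) ≤
      (k⟮jqModC k⟯).relrank (k⟮jqModC k, qExpand k p (jqModC k)⟯) :=
  natCast_le_relrank_of_min (jqModC k) (qExpand k p (jqModC k)) (p + 1)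
    (fun Q hQ hdeg => primeIndep k p hpp hp Q hQ hdeg)

theorem aeval_qExpand_jqModC_injective :
    Function.Injective (aeval (R := k) (qExpand k p (jqModC k))) := by
  intro a b hab
  rw [← qExpand_aeval, ← qExpand_aeval] at hab
  exact helper3292.aeval_jqModC_injective k (qExpand_injective' k p hab)

/-- `[k(J, V_p J) : k(V_p J)] ≤ p + 1` as soon as `[k(J, V_p J) : k(J)] ≤ p + 1`. -/
theorem relrank_pair_swap_le (hpp : p.Prime) (hp : (p : k) ≠ 0)
    (hub : (k⟮jqModC k⟯).relrank (k⟮jqModC k, qExpand k p (jqModC k)⟯) ≤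
      ((p + 1 : ℕ) : Cardinal)) :
    (k⟮qExpand k p (jqModC k)⟯).relrank (k⟮jqModC k, qExpand k p (jqModC k)⟯) ≤
      ((p + 1 : ℕ) : Cardinal) := by
  obtain ⟨Q, hQ0, hQdeg, hQ⟩ :=
    exists_rel_of_relrank_le (jqModC k) (qExpand k p (jqModC k)) (p + 1) hub
  have hQ2 : helper1595.ev2 (jqModC k) (qExpand k p (jqModC k)) Q = 0 :=
    lemmaA k p hpp hp Q hQ
  set f : Polynomial ↥k⟮qExpand k p (jqModC k)⟯ :=
    Q.map (helper1595.toAdj (qExpand k p (jqModC k))) with hf
  have hinj : Function.Injective (helper1595.toAdj (k := k) (qExpand k p (jqModC k))) := by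
    intro a b hab
    have h1 := congrArg (algebraMap ↥k⟮qExpand k p (jqModC k)⟯ (LaurentSeries k)) hab
    rw [← RingHom.comp_apply, ← RingHom.comp_apply, helper1595.algebraMap_comp_toAdj] at h1
    exact aeval_qExpand_jqModC_injective k p h1
  have hf0 : f ≠ 0 := (Polynomial.map_ne_zero_iff hinj).mpr hQ0
  have hroot : aeval (jqModC k) f = 0 := by
    rw [hf, helper1595.aeval_map_toAdj, hQ2]
  have hint : IsIntegral ↥k⟮qExpand k p (jqModC k)⟯ (jqModC k) :=
    isAlgebraic_iff_isIntegral.mp ⟨f, hf0, hroot⟩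
  have hdeg : (minpoly ↥k⟮qExpand k p (jqModC k)⟯ (jqModC k)).natDegree ≤ p + 1 := by
    have h1 := Polynomial.natDegree_le_natDegree (minpoly.degree_le_of_ne_zero _ _ hf0 hroot)
    have h2 : f.natDegree ≤ Q.natDegree := Polynomial.natDegree_map_le
    omega
  rw [Set.pair_comm, ← adjoin_simple_adjoin_simple k (qExpand k p (jqModC k)) (jqModC k),
    helper1595.relrank_adjoin_simple _ _ hint]
  exact_mod_cast hdeg

end Prime

section Tower

variable (k : Type*) [Field k]

theorem dedekindPsi_prime {p : ℕ} (hp : p.Prime) : dedekindPsi p = p + 1 := by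
  have h := helper1595.dedekindPsi_mul_prime_of_not_dvd hp Nat.one_pos
    (fun h => hp.one_lt.ne' (Nat.dvd_one.mp h))
  rw [one_mul, dedekindPsi_one, mul_one] at h
  exact h

/-- **Tower theorem without `Φ_p`.**  The upper bounds `[K_M : k(J)] ≤ ψ(M)` for `M ∣ N` and the
invertibility in `k` of the primes dividing `N` give `[K_N : k(J)] = ψ(N)`. -/
theorem relrank_full_eq_dedekindPsi_of_hub (N : ℕ) (hN : 0 < N)
    (hub : ∀ M, M ∣ N →
      (k⟮jqModC k⟯).relrank (modularFunctionFieldFullC k M) ≤ (dedekindPsi M : Cardinal))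
    (hNk : ∀ p : ℕ, p.Prime → p ∣ N → (p : k) ≠ 0) :
    (k⟮jqModC k⟯).relrank (modularFunctionFieldFullC k N) = (dedekindPsi N : Cardinal) := by
  have hfin : ∀ M, M ∣ N →
      (k⟮jqModC k⟯).relrank (modularFunctionFieldFullC k M) < Cardinal.aleph0 :=
    fun M hM => lt_of_le_of_lt (hub M hM) (Cardinal.natCast_lt_aleph0)
  have hcast : ∀ M, M ∣ N →
      (((k⟮jqModC k⟯).relfinrank (modularFunctionFieldFullC k M) : ℕ) : Cardinal) =
        (k⟮jqModC k⟯).relrank (modularFunctionFieldFullC k M) := by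
    intro M hM
    rw [relfinrank_eq_toNat_relrank]
    exact Cardinal.cast_toNat_of_lt_aleph0 (hfin M hM)
  -- the prime-level ranks
  have hprime1 : ∀ (p : ℕ) [NeZero p], p.Prime → p ∣ N →
      (k⟮jqModC k⟯).relrank (k⟮jqModC k, qExpand k p (jqModC k)⟯) = ((p + 1 : ℕ) : Cardinal) := by
    intro p _ hp hpN
    refine le_antisymm ?_ (natCast_succ_le_relrank_pair k p hp (hNk p hp hpN))
    have h := hub p hpN
    rw [modularFunctionFieldFullC, helper1595.divisorExpansionsC_prime k p hp,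
      dedekindPsi_prime hp] at h
    exact h
  have hprime2 : ∀ (p : ℕ) [NeZero p], p.Prime → p ∣ N →
      (k⟮qExpand k p (jqModC k)⟯).relrank (k⟮jqModC k, qExpand k p (jqModC k)⟯) ≤
        (k⟮jqModC k⟯).relrank (k⟮jqModC k, qExpand k p (jqModC k)⟯) := by
    intro p _ hp hpN
    rw [hprime1 p hp hpN]
    exact relrank_pair_swap_le k p hp (hNk p hp hpN) (hprime1 p hp hpN).le
  have key := helper1595.counting N hN
    (fun M => (k⟮jqModC k⟯).relfinrank (modularFunctionFieldFullC k M)) ?_ ?_ ?_ ?_ ?_ N dvd_rfl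
  · rw [← hcast N dvd_rfl]
    exact_mod_cast key
  · -- upper bound
    intro M hM
    have := hub M hM
    rw [← hcast M hM] at this
    exact_mod_cast this
  · -- divisibility
    intro M M' hMM' hM'N
    have hM'0 : M' ≠ 0 := fun h => hN.ne' (by rw [h] at hM'N; exact Nat.eq_zero_of_zero_dvd hM'N)
    have hM0 : M ≠ 0 := fun h => hM'0 (by rw [h] at hMM'; exact Nat.eq_zero_of_zero_dvd hMM')
    have : NeZero M := ⟨hM0⟩
    have : NeZero M' := ⟨hM'0⟩
    exact Dvd.intro _ (relfinrank_mul_relfinrank (helper1595.adjoin_jqModC_le k M)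
      (full_degeneracyC_le k hMM'))
  · -- the `V_p`-trick
    intro p M hp hMp
    have : NeZero p := ⟨hp.ne_zero⟩
    have hpN : p ∣ N := (Dvd.intro_left M rfl).trans hMp
    have h := relrank_mul_le_of_le p (jqModC k) (jqModC_ne_zero' k) (order_jqModC k)
      (modularFunctionFieldFullC k M) (modularFunctionFieldFullC k (M * p))
      (helper1595.adjoin_jqModC_le k M) (jqModC_mem_full k (M * p))
      (full_degeneracyC_map_le k M p) (hprime2 p hp hpN)
    have hMN : M ∣ N := (Dvd.intro p rfl).trans hMp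
    rw [← hcast M hMN, ← hcast (M * p) hMp] at h
    exact_mod_cast h
  · -- primes
    intro p hp hpN
    have : NeZero p := ⟨hp.ne_zero⟩
    have hs1 := hprime1 p hp hpN
    have h := hcast p hpN
    rw [modularFunctionFieldFullC, helper1595.divisorExpansionsC_prime k p hp] at h
    rw [hs1] at h
    show (k⟮jqModC k⟯).relfinrank (modularFunctionFieldFullC k p) = p + 1
    rw [modularFunctionFieldFullC, helper1595.divisorExpansionsC_prime k p hp]
    exact_mod_cast h
  · -- level one
    show (k⟮jqModC k⟯).relfinrank (modularFunctionFieldFullC k 1) = 1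
    rw [modularFunctionFieldFullC, helper1595.divisorExpansionsC_one]
    exact relfinrank_self _

end Tower

end Fermat.Agent.S28.helper1457
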