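import Fermat.Agent.S24.helper167_SymmetricJ

/-!
# S28 (Igusa), light modular input, clause (L3) on functions: Lagrange interpolation for
`SL(2, ℤ)`-permuted families (helper3448)

Let `φ x, ψ x : ℍ → ℂ` (`x` in a finite type `X`) be holomorphic functions of at most exponential
growth at `i∞` which are *jointly* permuted by `SL(2, ℤ)`.  Then the Lagrange numerator
`∑ x, ψ x * ∏_{y ≠ x} (Y - φ y)` has coefficients which are polynomials in `J = E₄³ / Δ`
(`exists_lagrange`).  Consequently, for any `P` with `P(J τ, Y) = ∏ x, (Y - φ x τ)`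
(e.g. the one of `S24.helper167.exists_monic_relation`) we get `G ∈ ℂ[J][Y]` with
`G(J τ, φ x τ) = ψ x τ * P'(J τ, φ x τ)` for all `x`, `τ` (`exists_lagrange_eval`).

The last section gives the joint permutation property for families `F ∘ x.out⁻¹`,
`x : SL(2, ℤ) ⧸ Γ`, for `Γ`-invariant functions `F`.

Imports only the landed S24 module `helper167_SymmetricJ` (which is Mathlib-only).
-/

set_option autoImplicit false

open UpperHalfPlane ModularForm MatrixGroups Filter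
open scoped Manifold Topology

namespace Fermat.Agent.S28.helper3448

open Fermat.Agent.S24.helper167

local notation "Δ" => ModularForm.discriminant

/-! ### The Lagrange numerator -/

/-- The Lagrange numerator `∑ x, b x * ∏_{y ≠ x} (Y - a y)`. -/
noncomputable def lagNum {X : Type*} [Fintype X] [DecidableEq X] (a b : X → ℂ) : Polynomial ℂ :=
  ∑ x, Polynomial.C (b x) * ∏ y ∈ Finset.univ.erase x, (Polynomial.X - Polynomial.C (a y))

theorem lagNum_comp_equiv {X : Type*} [Fintype X] [DecidableEq X] (s : Equiv.Perm X)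
    (a b : X → ℂ) : lagNum (fun x => a (s x)) (fun x => b (s x)) = lagNum a b := by
  unfold lagNum
  refine Fintype.sum_equiv s _ _ fun x => ?_
  congr 1
  exact Finset.prod_equiv s (by simp) (by simp)

theorem degree_lagNum_lt {X : Type*} [Fintype X] [DecidableEq X] (a b : X → ℂ) :
    (lagNum a b).degree < (Fintype.card X : WithBot ℕ) := by
  unfold lagNum
  refine (Polynomial.degree_sum_le _ _).trans_lt
    ((Finset.sup_lt_iff (WithBot.bot_lt_coe _)).mpr fun x _ => ?_)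
  rw [← Polynomial.smul_eq_C_mul]
  refine (Polynomial.degree_smul_le _ _).trans_lt ?_
  have h : 0 < Fintype.card X := Fintype.card_pos_iff.mpr ⟨x⟩
  have h2 : (∏ y ∈ Finset.univ.erase x, (Polynomial.X - Polynomial.C (a y))).degree =
      ((Fintype.card X - 1 : ℕ) : WithBot ℕ) := by
    rw [Polynomial.degree_eq_natDegree (Polynomial.monic_prod_of_monic _ _
      fun y _ => Polynomial.monic_X_sub_C _).ne_zero,
      Polynomial.natDegree_finsetProd_X_sub_C_eq_card,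
      Finset.card_erase_of_mem (Finset.mem_univ x), Finset.card_univ]
  rw [h2]
  exact_mod_cast Nat.sub_lt h one_pos

theorem coeff_lagNum {X : Type*} [Fintype X] [DecidableEq X] (a b : X → ℂ) (k : ℕ) :
    (lagNum a b).coeff k =
      ∑ x, b x * (∏ y ∈ Finset.univ.erase x, (Polynomial.X - Polynomial.C (a y))).coeff k := by
  unfold lagNum
  rw [Polynomial.finsetSum_coeff]
  refine Finset.sum_congr rfl fun x _ => ?_
  rw [Polynomial.coeff_C_mul]

/-- Evaluating the Lagrange numerator at a node: `L(a x₀) = b x₀ * (∏ (Y - a x))'(a x₀)`. -/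
theorem eval_lagNum_self {X : Type*} [Fintype X] [DecidableEq X] (a b : X → ℂ) (x₀ : X) :
    (lagNum a b).eval (a x₀) =
      b x₀ * (Polynomial.derivative (∏ x, (Polynomial.X - Polynomial.C (a x)))).eval (a x₀) := by
  have hzero : ∀ x : X, x ≠ x₀ →
      (∏ y ∈ Finset.univ.erase x, (Polynomial.X - Polynomial.C (a y))).eval (a x₀) = 0 := by
    intro x hx
    rw [Polynomial.eval_prod]
    refine Finset.prod_eq_zero (i := x₀) (Finset.mem_erase.mpr ⟨fun h => hx h.symm,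
      Finset.mem_univ _⟩) ?_
    simp
  have hder : Polynomial.derivative (∏ x, (Polynomial.X - Polynomial.C (a x))) =
      ∑ x, ∏ y ∈ Finset.univ.erase x, (Polynomial.X - Polynomial.C (a y)) := by
    rw [Polynomial.derivative_prod_finset]
    refine Finset.sum_congr rfl fun x _ => ?_
    simp
  have h1 : (lagNum a b).eval (a x₀) =
      b x₀ * (∏ y ∈ Finset.univ.erase x₀, (Polynomial.X - Polynomial.C (a y))).eval (a x₀) := by
    rw [lagNum, Polynomial.eval_finsetSum,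
      Finset.sum_eq_single x₀ (fun x _ hx => by
        rw [Polynomial.eval_mul, hzero x hx, mul_zero]) (fun h => absurd (Finset.mem_univ _) h),
      Polynomial.eval_mul, Polynomial.eval_C]
  have h2 : (∑ x, ∏ y ∈ Finset.univ.erase x, (Polynomial.X - Polynomial.C (a y))).eval (a x₀) =
      (∏ y ∈ Finset.univ.erase x₀, (Polynomial.X - Polynomial.C (a y))).eval (a x₀) := by
    rw [Polynomial.eval_finsetSum,
      Finset.sum_eq_single x₀ (fun x _ hx => hzero x hx) (fun h => absurd (Finset.mem_univ _) h)]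
  rw [hder, h1, h2]

/-! ### Growth of the coefficients of `∏ (Y - φ x)` -/

/-- The coefficients of `∏ x ∈ s, (Y - φ x τ)` have at most exponential growth. -/
theorem hasExpGrowth_coeff_prod_X_sub_C {X : Type*} (φ : X → ℍ → ℂ)
    (hg : ∀ x, HasExpGrowth (φ x)) (s : Finset X) : ∀ k : ℕ,
      HasExpGrowth ((fun τ => (∏ x ∈ s, (Polynomial.X - Polynomial.C (φ x τ))).coeff k) :
        ℍ → ℂ) := by
  classical
  induction s using Finset.induction_on with
  | empty =>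
    intro k
    simp only [Finset.prod_empty, Polynomial.coeff_one]
    exact hasExpGrowth_const _
  | insert a s ha ih =>
    intro k
    simp only [Finset.prod_insert ha]
    rcases k with _ | k
    · have : (fun τ => ((Polynomial.X - Polynomial.C (φ a τ)) *
          ∏ x ∈ s, (Polynomial.X - Polynomial.C (φ x τ))).coeff 0)
          = fun τ => -(φ a τ) * (∏ x ∈ s, (Polynomial.X - Polynomial.C (φ x τ))).coeff 0 := by
        funext τ
        rw [Polynomial.mul_coeff_zero]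
        simp
      rw [this]
      exact (hg a).neg.mul (ih 0)
    · have : (fun τ => ((Polynomial.X - Polynomial.C (φ a τ)) *
          ∏ x ∈ s, (Polynomial.X - Polynomial.C (φ x τ))).coeff (k + 1))
          = fun τ => (∏ x ∈ s, (Polynomial.X - Polynomial.C (φ x τ))).coeff k
            - (∏ x ∈ s, (Polynomial.X - Polynomial.C (φ x τ))).coeff (k + 1) * φ a τ := by
        funext τ
        rw [mul_comm, Polynomial.coeff_mul_X_sub_C]
      rw [this]
      exact (ih k).sub ((ih (k + 1)).mul (hg a))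

/-! ### The main statement -/

/-- **Lagrange lemma.**  Let `φ x, ψ x : ℍ → ℂ` (`x : X`, `X` finite) be holomorphic, of at most
exponential growth at `i∞`, and jointly permuted by `SL(2, ℤ)`.  Then there is `G ∈ ℂ[J][Y]`
whose specialisation at `J τ = E₄ τ ^ 3 / Δ τ` is the Lagrange numerator
`∑ x, ψ x τ * ∏_{y ≠ x} (Y - φ y τ)`, for every `τ`. -/
theorem exists_lagrange {X : Type*} [Fintype X] [DecidableEq X] (φ ψ : X → ℍ → ℂ)
    (holφ : ∀ x, MDiff (φ x)) (holψ : ∀ x, MDiff (ψ x))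
    (hperm : ∀ g : SL(2, ℤ), ∃ s : Equiv.Perm X, ∀ (x : X) (τ : ℍ),
      φ x (g • τ) = φ (s x) τ ∧ ψ x (g • τ) = ψ (s x) τ)
    (hgφ : ∀ x, HasExpGrowth (φ x)) (hgψ : ∀ x, HasExpGrowth (ψ x)) :
    ∃ G : Polynomial (Polynomial ℂ), ∀ τ : ℍ,
      G.map (Polynomial.evalRingHom (E₄ τ ^ 3 / Δ τ)) =
        lagNum (fun x => φ x τ) (fun x => ψ x τ) := by
  set n := Fintype.card X with hn
  let c : ℕ → ℍ → ℂ := fun k τ => (lagNum (fun x => φ x τ) (fun x => ψ x τ)).coeff k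
  have hc_eq : ∀ k, c k = fun τ => ∑ x, ψ x τ *
      (∏ y ∈ Finset.univ.erase x, (Polynomial.X - Polynomial.C (φ y τ))).coeff k := by
    intro k
    funext τ
    exact coeff_lagNum _ _ k
  have hc_hol : ∀ k, MDiff (c k) := by
    intro k
    rw [hc_eq k]
    exact mdiff_finset_sum _ _ fun x _ =>
      (holψ x).mul (mdiff_coeff_prod_X_sub_C φ holφ (Finset.univ.erase x) k)
  have hc_growth : ∀ k, HasExpGrowth (c k) := by
    intro k
    rw [hc_eq k]
    exact hasExpGrowth_finset_sum _ _ fun x _ =>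
      (hgψ x).mul (hasExpGrowth_coeff_prod_X_sub_C φ hgφ (Finset.univ.erase x) k)
  have hc_inv : ∀ k (γ : SL(2, ℤ)) (τ : ℍ), c k (γ • τ) = c k τ := by
    intro k γ τ
    obtain ⟨s, hs⟩ := hperm γ
    have h3 : lagNum (fun x => φ x (γ • τ)) (fun x => ψ x (γ • τ)) =
        lagNum (fun x => φ x τ) (fun x => ψ x τ) := by
      rw [← lagNum_comp_equiv s (fun y => φ y τ) (fun y => ψ y τ)]
      congr 1 <;> funext x
      · exact (hs x τ).1
      · exact (hs x τ).2
    show (lagNum (fun x => φ x (γ • τ)) (fun x => ψ x (γ • τ))).coeff k = _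
    rw [h3]
  have hex : ∀ k, ∃ P : Polynomial ℂ, ∀ τ : ℍ, c k τ = P.eval (E₄ τ ^ 3 / Δ τ) := by
    intro k
    obtain ⟨m, C, h⟩ := hc_growth k
    obtain ⟨P, -, hP⟩ := polyInJ_of_invariant (c k) (hc_hol k) (hc_inv k) m
      (isBoundedAtImInfty_disc_pow_mul h)
    exact ⟨P, hP⟩
  choose p hp using hex
  refine ⟨∑ k ∈ Finset.range n, Polynomial.monomial k (p k), fun τ => ?_⟩
  ext k
  rw [Polynomial.coeff_map, Polynomial.finsetSum_coeff]
  simp only [Polynomial.coeff_monomial]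
  rw [Finset.sum_ite_eq' (Finset.range n) k (fun i => p i)]
  by_cases hk : k < n
  · rw [if_pos (Finset.mem_range.mpr hk), Polynomial.coe_evalRingHom, ← hp k τ]
  · rw [if_neg (by simpa using hk), map_zero]
    symm
    refine Polynomial.coeff_eq_zero_of_degree_lt ((degree_lagNum_lt _ _).trans_le ?_)
    exact_mod_cast not_lt.mp hk

/-- **Clause (L3) on functions.**  In the situation of `exists_lagrange` there is `G ∈ ℂ[J][Y]`
such that for *every* `P ∈ ℂ[J][Y]` specialising to `∏ x, (Y - φ x τ)`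
(e.g. the `P` of `S24.helper167.exists_monic_relation`), every `x` and every `τ`:
`G(J τ, φ x τ) = ψ x τ * (∂P/∂Y)(J τ, φ x τ)`. -/
theorem exists_lagrange_eval {X : Type*} [Fintype X] [DecidableEq X] (φ ψ : X → ℍ → ℂ)
    (holφ : ∀ x, MDiff (φ x)) (holψ : ∀ x, MDiff (ψ x))
    (hperm : ∀ g : SL(2, ℤ), ∃ s : Equiv.Perm X, ∀ (x : X) (τ : ℍ),
      φ x (g • τ) = φ (s x) τ ∧ ψ x (g • τ) = ψ (s x) τ)
    (hgφ : ∀ x, HasExpGrowth (φ x)) (hgψ : ∀ x, HasExpGrowth (ψ x)) :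
    ∃ G : Polynomial (Polynomial ℂ), ∀ P : Polynomial (Polynomial ℂ),
      (∀ τ : ℍ, P.map (Polynomial.evalRingHom (E₄ τ ^ 3 / Δ τ)) =
        ∏ x, (Polynomial.X - Polynomial.C (φ x τ))) →
      ∀ (x : X) (τ : ℍ),
        (G.map (Polynomial.evalRingHom (E₄ τ ^ 3 / Δ τ))).eval (φ x τ) =
          ψ x τ * (Polynomial.derivative
            (P.map (Polynomial.evalRingHom (E₄ τ ^ 3 / Δ τ)))).eval (φ x τ) := by
  obtain ⟨G, hG⟩ := exists_lagrange φ ψ holφ holψ hperm hgφ hgψ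
  refine ⟨G, fun P hP x τ => ?_⟩
  rw [hG τ, hP τ]
  exact eval_lagNum_self (fun y => φ y τ) (fun y => ψ y τ) x

/-- The same with the two-variable polynomials evaluated by `eval₂`:
`G.eval₂ (evalRingHom (J τ)) (φ x τ) = ψ x τ * P'.eval₂ (evalRingHom (J τ)) (φ x τ)`. -/
theorem exists_lagrange_eval₂ {X : Type*} [Fintype X] [DecidableEq X] (φ ψ : X → ℍ → ℂ)
    (holφ : ∀ x, MDiff (φ x)) (holψ : ∀ x, MDiff (ψ x))
    (hperm : ∀ g : SL(2, ℤ), ∃ s : Equiv.Perm X, ∀ (x : X) (τ : ℍ),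
      φ x (g • τ) = φ (s x) τ ∧ ψ x (g • τ) = ψ (s x) τ)
    (hgφ : ∀ x, HasExpGrowth (φ x)) (hgψ : ∀ x, HasExpGrowth (ψ x)) :
    ∃ G : Polynomial (Polynomial ℂ), ∀ P : Polynomial (Polynomial ℂ),
      (∀ τ : ℍ, P.map (Polynomial.evalRingHom (E₄ τ ^ 3 / Δ τ)) =
        ∏ x, (Polynomial.X - Polynomial.C (φ x τ))) →
      ∀ (x : X) (τ : ℍ),
        G.eval₂ (Polynomial.evalRingHom (E₄ τ ^ 3 / Δ τ)) (φ x τ) =
          ψ x τ * (Polynomial.derivative P).eval₂
            (Polynomial.evalRingHom (E₄ τ ^ 3 / Δ τ)) (φ x τ) := by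
  obtain ⟨G, hG⟩ := exists_lagrange_eval φ ψ holφ holψ hperm hgφ hgψ
  refine ⟨G, fun P hP x τ => ?_⟩
  have h := hG P hP x τ
  rwa [Polynomial.eval_map, Polynomial.derivative_map, Polynomial.eval_map] at h

/-! ### Coset families -/

section Coset

variable (Γ : Subgroup SL(2, ℤ))

/-- For a `Γ`-invariant function `F`, the family `x ↦ F ∘ x.out⁻¹` indexed by the cosets
`x : SL(2, ℤ) ⧸ Γ` is permuted by `SL(2, ℤ)`, through `x ↦ g⁻¹ • x`. -/
theorem coset_family_smul {α : Type*} (F : ℍ → α) (hF : ∀ h ∈ Γ, ∀ τ : ℍ, F (h • τ) = F τ)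
    (g : SL(2, ℤ)) (x : SL(2, ℤ) ⧸ Γ) (τ : ℍ) :
    F ((Quotient.out x)⁻¹ • (g • τ)) = F ((Quotient.out (g⁻¹ • x))⁻¹ • τ) := by
  set y : SL(2, ℤ) ⧸ Γ := g⁻¹ • x with hy
  have h1 : ((g⁻¹ * Quotient.out x : SL(2, ℤ)) : SL(2, ℤ) ⧸ Γ) = (Quotient.out y : SL(2, ℤ)) := by
    rw [QuotientGroup.out_eq', hy]
    conv_rhs => rw [← QuotientGroup.out_eq' x]
    rfl
  have h2 : (g⁻¹ * Quotient.out x)⁻¹ * Quotient.out y ∈ Γ := QuotientGroup.eq.mp h1
  have h3 : (Quotient.out x)⁻¹ * g =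
      ((g⁻¹ * Quotient.out x)⁻¹ * Quotient.out y) * (Quotient.out y)⁻¹ := by group
  rw [← mul_smul, h3, mul_smul, hF _ h2]

/-- The identity coset gives back `F`. -/
theorem coset_family_one {α : Type*} (F : ℍ → α) (hF : ∀ h ∈ Γ, ∀ τ : ℍ, F (h • τ) = F τ)
    (τ : ℍ) :
    F ((Quotient.out ((1 : SL(2, ℤ)) : SL(2, ℤ) ⧸ Γ))⁻¹ • τ) = F τ := by
  have h1 : ((Quotient.out ((1 : SL(2, ℤ)) : SL(2, ℤ) ⧸ Γ) : SL(2, ℤ)) : SL(2, ℤ) ⧸ Γ) =
      ((1 : SL(2, ℤ)) : SL(2, ℤ) ⧸ Γ) := QuotientGroup.out_eq' _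
  have h2 : (Quotient.out ((1 : SL(2, ℤ)) : SL(2, ℤ) ⧸ Γ))⁻¹ ∈ Γ := by
    have := QuotientGroup.eq.mp h1
    simpa using this
  exact hF _ h2 τ

/-- Joint permutation of two coset families (the hypothesis `hperm` of `exists_lagrange`). -/
theorem coset_family_perm (F Ψ : ℍ → ℂ) (hF : ∀ h ∈ Γ, ∀ τ : ℍ, F (h • τ) = F τ)
    (hΨ : ∀ h ∈ Γ, ∀ τ : ℍ, Ψ (h • τ) = Ψ τ) (g : SL(2, ℤ)) :
    ∃ s : Equiv.Perm (SL(2, ℤ) ⧸ Γ), ∀ (x : SL(2, ℤ) ⧸ Γ) (τ : ℍ),
      F ((Quotient.out x)⁻¹ • (g • τ)) = F ((Quotient.out (s x))⁻¹ • τ) ∧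
      Ψ ((Quotient.out x)⁻¹ • (g • τ)) = Ψ ((Quotient.out (s x))⁻¹ • τ) :=
  ⟨MulAction.toPerm g⁻¹, fun x τ =>
    ⟨coset_family_smul Γ F hF g x τ, coset_family_smul Γ Ψ hΨ g x τ⟩⟩

/-- Single-family version (the hypothesis `hperm` of `S24.helper167.exists_monic_relation`). -/
theorem coset_family_perm₁ (F : ℍ → ℂ) (hF : ∀ h ∈ Γ, ∀ τ : ℍ, F (h • τ) = F τ)
    (g : SL(2, ℤ)) :
    ∃ s : Equiv.Perm (SL(2, ℤ) ⧸ Γ), ∀ (x : SL(2, ℤ) ⧸ Γ) (τ : ℍ),
      F ((Quotient.out x)⁻¹ • (g • τ)) = F ((Quotient.out (s x))⁻¹ • τ) :=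
  ⟨MulAction.toPerm g⁻¹, fun x τ => coset_family_smul Γ F hF g x τ⟩

end Coset

end Fermat.Agent.S28.helper3448
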