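import Mathlib
import Fermat.Prelude.Def_GaloisRep_Flat

set_option autoImplicit false

/-!
Basic structure of `GaloisRep.ratLocalizedAt ℓ` (the subring of ℚ of rationals with
denominator prime to ℓ): it is the localisation of ℤ at the prime ideal `(ℓ)`, a discrete
valuation ring with uniformiser `ℓ` and residue field `ZMod ℓ`.
-/

namespace Fermat.Agent.S28.helper508

open GaloisRep

variable (ℓ : ℕ)

theorem mem_ratLocalizedAt_iff (q : ℚ) : q ∈ ratLocalizedAt ℓ ↔ q.den.Coprime ℓ := Iff.rfl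

theorem intCast_mem (n : ℤ) : (n : ℚ) ∈ ratLocalizedAt ℓ := by
  rw [mem_ratLocalizedAt_iff]; simp

theorem natCast_mem (n : ℕ) : (n : ℚ) ∈ ratLocalizedAt ℓ := by
  rw [mem_ratLocalizedAt_iff]; simp

theorem algebraMap_int_coe (n : ℤ) :
    ((algebraMap ℤ (ratLocalizedAt ℓ) n : ratLocalizedAt ℓ) : ℚ) = (n : ℚ) := by
  simp

variable [hℓ : Fact ℓ.Prime]

theorem inv_intCast_mem {n : ℤ} (hn : ¬ (ℓ : ℤ) ∣ n) : ((n : ℚ))⁻¹ ∈ ratLocalizedAt ℓ := by
  rw [mem_ratLocalizedAt_iff]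
  have hn0 : n ≠ 0 := by rintro rfl; exact hn (dvd_zero _)
  have hden : ((n : ℚ)⁻¹).den = n.natAbs := by
    rw [Rat.inv_intCast_den]; simp [hn0]
  rw [hden]
  have hp : Nat.Prime ℓ := hℓ.out
  rw [Nat.coprime_comm, Nat.Prime.coprime_iff_not_dvd hp]
  intro h
  exact hn (Int.natCast_dvd.mpr h)

theorem not_dvd_of_mem_primeCompl {n : ℤ} (hn : n ∈ (Ideal.span {(ℓ : ℤ)}).primeCompl) :
    ¬ (ℓ : ℤ) ∣ n := by
  intro h
  exact hn (Ideal.mem_span_singleton.mpr h)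

instance instIsLocalizationAtPrime :
    IsLocalization.AtPrime (ratLocalizedAt ℓ) (Ideal.span {(ℓ : ℤ)}) := by
  refine ⟨?_, ?_, ?_⟩
  · rintro ⟨y, hy⟩
    have hy' := not_dvd_of_mem_primeCompl ℓ hy
    have hy0 : (y : ℚ) ≠ 0 := by
      have : y ≠ 0 := by rintro rfl; exact hy' (dvd_zero _)
      exact_mod_cast this
    refine IsUnit.of_mul_eq_one (⟨(y : ℚ)⁻¹, inv_intCast_mem ℓ hy'⟩ : ratLocalizedAt ℓ) ?_
    apply Subtype.ext
    simp [hy0]
  · intro z
    have hz : (z : ℚ).den.Coprime ℓ := z.2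
    have hden : ((z : ℚ).den : ℤ) ∈ (Ideal.span {(ℓ : ℤ)}).primeCompl := by
      intro h
      have h' : ((z : ℚ).den : ℤ) ∈ Ideal.span {(ℓ : ℤ)} := h
      rw [Ideal.mem_span_singleton] at h'
      have h2 : ℓ ∣ (z : ℚ).den := by exact_mod_cast h'
      have h3 := Nat.Coprime.eq_one_of_dvd hz.symm h2
      exact hℓ.out.one_lt.ne' h3
    refine ⟨((z : ℚ).num, ⟨((z : ℚ).den : ℤ), hden⟩), ?_⟩
    apply Subtype.ext
    simp only [Subring.coe_mul, algebraMap_int_coe]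
    push_cast
    exact Rat.mul_den_eq_num (z : ℚ)
  · intro x y hxy
    refine ⟨1, ?_⟩
    have h := congrArg (Subtype.val) hxy
    simp only [algebraMap_int_coe] at h
    have : x = y := by exact_mod_cast h
    simp [this]

instance instIsDiscreteValuationRing : IsDiscreteValuationRing (ratLocalizedAt ℓ) :=
  IsLocalization.AtPrime.isDiscreteValuationRing_of_dedekind_domain ℤ
    (P := Ideal.span {(ℓ : ℤ)})
    (by
      rw [Ne, Ideal.span_singleton_eq_bot]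
      exact_mod_cast hℓ.out.ne_zero)
    (ratLocalizedAt ℓ)

omit hℓ in
theorem coe_natCast (n : ℕ) : (((n : ℕ) : ratLocalizedAt ℓ) : ℚ) = (n : ℚ) := by
  simp

/-- The residue homomorphism `ℤ_(ℓ) → ZMod ℓ`. -/
noncomputable def toZMod : ratLocalizedAt ℓ →+* ZMod ℓ :=
  IsLocalization.lift (M := (Ideal.span {(ℓ : ℤ)}).primeCompl) (g := Int.castRingHom (ZMod ℓ))
    (by
      rintro ⟨y, hy⟩
      have hy' := not_dvd_of_mem_primeCompl ℓ hy
      rw [isUnit_iff_ne_zero]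
      simp only [eq_intCast, ne_eq]
      rwa [ZMod.intCast_zmod_eq_zero_iff_dvd])

theorem toZMod_intCast (n : ℤ) : toZMod ℓ (algebraMap ℤ (ratLocalizedAt ℓ) n) = (n : ZMod ℓ) := by
  rw [toZMod, IsLocalization.lift_eq]; simp

theorem toZMod_surjective : Function.Surjective (toZMod ℓ) := by
  intro x
  obtain ⟨n, rfl⟩ := ZMod.intCast_surjective x
  exact ⟨algebraMap ℤ (ratLocalizedAt ℓ) n, toZMod_intCast ℓ n⟩

theorem ker_toZMod :
    RingHom.ker (toZMod ℓ) = Ideal.span {((ℓ : ℕ) : ratLocalizedAt ℓ)} := by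
  have hmax : (RingHom.ker (toZMod ℓ)).IsMaximal :=
    RingHom.ker_isMaximal_of_surjective _ (toZMod_surjective ℓ)
  have h1 := IsLocalRing.eq_maximalIdeal hmax
  rw [h1, ← IsLocalization.AtPrime.map_eq_maximalIdeal (Ideal.span {(ℓ : ℤ)}) (ratLocalizedAt ℓ),
    Ideal.map_span]
  simp

theorem toZMod_eq_zero_iff (r : ratLocalizedAt ℓ) :
    toZMod ℓ r = 0 ↔ ∃ s : ratLocalizedAt ℓ, r = ((ℓ : ℕ) : ratLocalizedAt ℓ) * s := by
  rw [← RingHom.mem_ker, ker_toZMod, Ideal.mem_span_singleton]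
  rfl

theorem maximalIdeal_eq :
    IsLocalRing.maximalIdeal (ratLocalizedAt ℓ) = Ideal.span {((ℓ : ℕ) : ratLocalizedAt ℓ)} := by
  rw [← ker_toZMod]
  exact (IsLocalRing.eq_maximalIdeal
    (RingHom.ker_isMaximal_of_surjective _ (toZMod_surjective ℓ))).symm

theorem isUnit_iff_toZMod_ne_zero (r : ratLocalizedAt ℓ) : IsUnit r ↔ toZMod ℓ r ≠ 0 := by
  rw [← IsLocalRing.notMem_maximalIdeal, maximalIdeal_eq, ← ker_toZMod, RingHom.mem_ker]

theorem natCast_ell_ne_zero : ((ℓ : ℕ) : ratLocalizedAt ℓ) ≠ 0 := by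
  intro h
  have h' := congrArg (Subtype.val) h
  simp only [coe_natCast] at h'
  have : (ℓ : ℚ) ≠ 0 := by exact_mod_cast hℓ.out.ne_zero
  exact this (by simpa using h')

theorem irreducible_ell : Irreducible ((ℓ : ℕ) : ratLocalizedAt ℓ) := by
  rw [IsDiscreteValuationRing.irreducible_iff_uniformizer, maximalIdeal_eq]

theorem prime_ell : Prime ((ℓ : ℕ) : ratLocalizedAt ℓ) :=
  (irreducible_ell ℓ).prime

section Field

variable (K : Type*) [Field K] [CharP K ℓ] [Algebra (ratLocalizedAt ℓ) K]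

/-- Any algebra structure of a characteristic-`ℓ` field over `ℤ_(ℓ)` factors through `ZMod ℓ`. -/
theorem algebraMap_eq_castHom_comp_toZMod :
    algebraMap (ratLocalizedAt ℓ) K = (ZMod.castHom (dvd_refl ℓ) K).comp (toZMod ℓ) := by
  apply IsLocalization.ringHom_ext (Ideal.span {(ℓ : ℤ)}).primeCompl
  exact RingHom.ext_int _ _

theorem algebraMap_apply_eq (r : ratLocalizedAt ℓ) :
    algebraMap (ratLocalizedAt ℓ) K r = ZMod.castHom (dvd_refl ℓ) K (toZMod ℓ r) := by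
  rw [algebraMap_eq_castHom_comp_toZMod ℓ K]; rfl

theorem algebraMap_eq_zero_iff (r : ratLocalizedAt ℓ) :
    algebraMap (ratLocalizedAt ℓ) K r = 0 ↔ toZMod ℓ r = 0 := by
  rw [algebraMap_apply_eq, map_eq_zero_iff _ (RingHom.injective _)]

theorem algebraMap_ell_eq_zero : algebraMap (ratLocalizedAt ℓ) K ((ℓ : ℕ) : ratLocalizedAt ℓ) = 0 := by
  rw [algebraMap_eq_zero_iff, toZMod_eq_zero_iff]
  exact ⟨1, by simp⟩

theorem isUnit_of_algebraMap_ne_zero {r : ratLocalizedAt ℓ}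
    (h : algebraMap (ratLocalizedAt ℓ) K r ≠ 0) : IsUnit r := by
  rw [isUnit_iff_toZMod_ne_zero]
  intro h0
  exact h ((algebraMap_eq_zero_iff ℓ K r).mpr h0)

end Field

end Fermat.Agent.S28.helper508
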