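/-
S28 (Igusa), route P, char-0 tower (board row P8 / T3) — basic `j(q^d)` calculus.
Author: helper720.  Sorry-free.

Notation: `jd d = j(q^d) ∈ ℤ((q))`, `evZ a : ℤ[Y] →+* A` evaluation at `a`,
`PrimeRoots p Φ` = the part of helper328's `Stmt_FormalPrime p` used by the char-0 tower:
`Φ` monic of degree `p+1` with the root formula over `ℂ` (only for `ξ = 1`).
-/
import Mathlib
import Fermat.Prelude.Def_ModularCurve_X0ModL
import Fermat.Agent.S28.helper328_PrimeSpec
import Fermat.Agent.S28.helper2608_Spec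

set_option autoImplicit false

namespace Fermat.Agent.S28.helper720

open Polynomial ModularCurve
open Fermat.Agent.S28.helper328 (twist Jsub evalJ Stmt_FormalPrime)
open Fermat.Agent.S28.Spec (toQ)

noncomputable section

/-! ### Evaluation of integer polynomials -/

/-- evaluation of an integer polynomial at an element of a commutative ring. -/
def evZ {A : Type*} [CommRing A] (a : A) : Polynomial ℤ →+* A :=
  Polynomial.eval₂RingHom (Int.castRingHom A) a

theorem evalJ_eq_evZ {R : Type*} [CommRing R] (J : LaurentSeries R) : evalJ J = evZ J := rfl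

theorem comp_evZ {A B : Type*} [CommRing A] [CommRing B] (φ : A →+* B) (a : A) :
    φ.comp (evZ a) = evZ (φ a) := by
  refine Polynomial.ringHom_ext' (RingHom.ext_int _ _) ?_
  simp [evZ]

theorem map_map_evZ {A B : Type*} [CommRing A] [CommRing B] (φ : A →+* B) (a : A)
    (Φ : Polynomial (Polynomial ℤ)) : (Φ.map (evZ a)).map φ = Φ.map (evZ (φ a)) := by
  rw [Polynomial.map_map, comp_evZ]

theorem map_eval_evZ {A B : Type*} [CommRing A] [CommRing B] (φ : A →+* B) (a b : A)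
    (Φ : Polynomial (Polynomial ℤ)) :
    φ ((Φ.map (evZ a)).eval b) = (Φ.map (evZ (φ a))).eval (φ b) := by
  rw [← map_map_evZ, Polynomial.eval_map, Polynomial.eval_map,
    Polynomial.hom_eval₂, Polynomial.eval₂_map]

/-! ### The series `j(q^d)` -/

/-- `j(q^d)` with integer coefficients. -/
def jd (d : ℕ+) : LaurentSeries ℤ := qExpand ℤ (d : ℕ) (jqModC ℤ)

theorem coeffMap_injective {R S : Type*} [CommRing R] [CommRing S] (f : R →+* S)
    (hf : Function.Injective f) : Function.Injective (coeffMap f) := by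
  intro x y h
  ext k
  have := congrArg (fun z => z.coeff k) h
  simp only [coeffMap_coeff] at this
  exact hf this

theorem twist_one {R : Type*} [CommRing R] (x : LaurentSeries R) : twist (1 : Rˣ) x = x := by
  ext n
  simp

theorem Jsub_one (k : Type*) [CommRing k] (m : ℕ+) :
    Jsub k 1 m = qExpand k (m : ℕ) (jqModC k) := by
  rw [Jsub, twist_one]

theorem qExpand_jd (M d : ℕ+) : qExpand ℤ (M : ℕ) (jd d) = jd (M * d) := by
  rw [jd, jd, qExpand_qExpand]
  rfl

theorem coeffMap_jd {S : Type*} [CommRing S] (f : ℤ →+* S) (d : ℕ+) :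
    coeffMap f (jd d) = Jsub S 1 d := by
  rw [jd, coeffMap_qExpand, coeffMap_jqModC, Jsub_one]

theorem toQ_jd (d : ℕ+) : toQ (jd d) = qExpand ℚ (d : ℕ) jq := by
  rw [jd]
  show coeffMap _ _ = _
  rw [coeffMap_qExpand, coeffMap_jqModC, jqModC_rat]

theorem qExpand_Jsub (k : Type*) [CommRing k] (ζ : kˣ) (M m : ℕ+) :
    qExpand k (M : ℕ) (Jsub k ζ m) = Jsub k ζ (M * m) := by
  rw [Jsub, Jsub, qExpand_qExpand]
  rfl

/-! ### Leading terms -/

theorem Jsub_coeff_neg (k : Type*) [CommRing k] (ζ : kˣ) (m : ℕ+) :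
    (Jsub k ζ m).coeff (-(m : ℤ)) = ((ζ⁻¹ : kˣ) : k) := by
  have h : (-(m : ℤ)) = ((m : ℕ) : ℤ) * (-1) := by simp
  rw [Jsub, h, qExpand_coeff_mul]
  simp [coeff_jqModC_neg_one]

theorem Jsub_coeff_of_lt (k : Type*) [CommRing k] (ζ : kˣ) (m : ℕ+) {n : ℤ}
    (hn : n < -(m : ℤ)) : (Jsub k ζ m).coeff n = 0 := by
  by_cases hd : ((m : ℕ) : ℤ) ∣ n
  · obtain ⟨c, rfl⟩ := hd
    rw [Jsub, qExpand_coeff_mul]
    have hm : (0 : ℤ) < ((m : ℕ) : ℤ) := by exact_mod_cast m.pos
    have hc : c < -1 := by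
      by_contra hc
      have hc := not_lt.mp hc
      have : ((m : ℕ) : ℤ) * (-1) ≤ ((m : ℕ) : ℤ) * c := mul_le_mul_of_nonneg_left hc hm.le
      simp only [mul_neg, mul_one] at this
      have h2 : (-(m : ℤ)) = -((m : ℕ) : ℤ) := by simp
      omega
    simp [coeff_jqModC_of_lt k hc]
  · rw [Jsub]
    exact qExpand_coeff_of_not_dvd _ _ hd

theorem Jsub_ne_of_ne (k : Type*) [CommRing k] [Nontrivial k] (ζ ζ' : kˣ) {m m' : ℕ+}
    (h : m ≠ m') : Jsub k ζ m ≠ Jsub k ζ' m' := by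
  intro heq
  rcases lt_or_gt_of_ne h with hlt | hlt
  · have h1 := Jsub_coeff_neg k ζ' m'
    rw [← heq, Jsub_coeff_of_lt k ζ m (by
      have : (m : ℕ) < (m' : ℕ) := hlt
      have : ((m : ℕ) : ℤ) < ((m' : ℕ) : ℤ) := by exact_mod_cast this
      simpa using this)] at h1
    exact (Units.ne_zero _) h1.symm
  · have h1 := Jsub_coeff_neg k ζ m
    rw [heq, Jsub_coeff_of_lt k ζ' m' (by
      have : (m' : ℕ) < (m : ℕ) := hlt
      have : ((m' : ℕ) : ℤ) < ((m : ℕ) : ℤ) := by exact_mod_cast this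
      simpa using this)] at h1
    exact (Units.ne_zero _) h1.symm

theorem jd_injective : Function.Injective jd := by
  intro a b h
  by_contra hab
  have h1 := coeffMap_jd (Int.castRingHom ℚ) a
  have h2 := coeffMap_jd (Int.castRingHom ℚ) b
  rw [h] at h1
  exact Jsub_ne_of_ne ℚ 1 1 hab (h1.symm.trans h2)

theorem toQ_injective : Function.Injective toQ :=
  coeffMap_injective _ Int.cast_injective

/-! ### Prime-level root data -/

/-- The part of the prime-level formal data used by the char-0 tower: a monic polynomial of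
degree `p + 1` over `ℤ[Y]` with the root formula over `ℂ((t))` (case `ξ = 1`). -/
structure PrimeRoots (p : ℕ+) (Φ : Polynomial (Polynomial ℤ)) : Prop where
  monic : Φ.Monic
  natDegree_eq : Φ.natDegree = (p : ℕ) + 1
  roots : ∃ ω : ℂˣ, IsPrimitiveRoot ω (p : ℕ) ∧ ∀ m : ℕ+,
    Φ.map (evalJ (Jsub ℂ 1 (p * m))) =
      (X - C (Jsub ℂ 1 (p ^ 2 * m))) * ∏ b ∈ Finset.range (p : ℕ), (X - C (Jsub ℂ (ω ^ b) m))

/-- helper328's `Stmt_FormalPrime p` provides `PrimeRoots`. -/
theorem exists_primeRoots_of_formalPrime (p : ℕ) [hp : Fact p.Prime] (h : Stmt_FormalPrime p) :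
    ∃ Φ : Polynomial (Polynomial ℤ), PrimeRoots ⟨p, hp.out.pos⟩ Φ := by
  obtain ⟨Φ, G, T, Ψ, hmonic, hdeg, -, -, -, -, -, hroots⟩ := h
  refine ⟨Φ, hmonic, hdeg, ?_⟩
  have hprim : IsPrimitiveRoot (Complex.exp (2 * Real.pi * Complex.I / (p : ℂ))) p :=
    Complex.isPrimitiveRoot_exp p hp.out.ne_zero
  let ω : ℂˣ := (hprim.isUnit hp.out.ne_zero).unit
  have hω : IsPrimitiveRoot ω p := by
    rw [← IsPrimitiveRoot.coe_units_iff]
    exact hprim
  refine ⟨ω, hω, fun m => ?_⟩
  have := hroots ℂ ω hω 1 m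
  simpa using this

variable {p : ℕ+} {Φ : Polynomial (Polynomial ℤ)}

theorem PrimeRoots.eval_sq (h : PrimeRoots p Φ) (m : ℕ+) :
    (Φ.map (evZ (jd (p * m)))).eval (jd (p ^ 2 * m)) = 0 := by
  apply coeffMap_injective (Int.castRingHom ℂ) Int.cast_injective
  rw [map_eval_evZ, coeffMap_jd, coeffMap_jd, map_zero]
  obtain ⟨ω, -, hω⟩ := h.roots
  rw [← evalJ_eq_evZ, hω m]
  simp

theorem PrimeRoots.eval_low (h : PrimeRoots p Φ) (m : ℕ+) :
    (Φ.map (evZ (jd (p * m)))).eval (jd m) = 0 := by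
  apply coeffMap_injective (Int.castRingHom ℂ) Int.cast_injective
  rw [map_eval_evZ, coeffMap_jd, coeffMap_jd, map_zero]
  obtain ⟨ω, -, hω⟩ := h.roots
  rw [← evalJ_eq_evZ, hω m, Polynomial.eval_mul, Polynomial.eval_prod]
  refine mul_eq_zero_of_right _ (Finset.prod_eq_zero (i := 0) ?_ ?_)
  · exact Finset.mem_range.mpr p.pos
  · simp

theorem PrimeRoots.eval_up (h : PrimeRoots p Φ) (d : ℕ+) :
    (Φ.map (evZ (jd d))).eval (jd (p * d)) = 0 := by
  apply qExpand_injective (R := ℤ) (p : ℕ)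
  rw [map_eval_evZ, qExpand_jd, qExpand_jd, map_zero]
  have := h.eval_sq d
  rwa [show p ^ 2 * d = p * (p * d) by rw [pow_two, mul_assoc]] at this

end

end Fermat.Agent.S28.helper720
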