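/-
S28 (Igusa), route P, char-0 tower (board row P8 / T3) — the unique-common-root (gcd) lemma:
for distinct primes `p ≠ r` with root data, `j(q^{p r e}) ∈ ℚ(j(q^{r e}), j(q^{p e}))`.
Consequently `ℚ(j(q^d) : d ∣ N)` is generated by the `j(q^{p^i})`, `p^i ∣ N`.
Author: helper720.  Sorry-free.
-/
import Fermat.Agent.S28.helper720_JBasics

set_option autoImplicit false

namespace Fermat.Agent.S28.helper720

open Polynomial ModularCurve
open Fermat.Agent.S28.helper328 (twist Jsub evalJ)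
open Fermat.Agent.S28.Spec (toQ)

noncomputable section

/-- the scaling embedding `ℚ((q)) → ℂ((t))`, `q ↦ t^M`. -/
def toC (M : ℕ+) : LaurentSeries ℚ →+* LaurentSeries ℂ :=
  (qExpand ℂ (M : ℕ)).comp (coeffMap (algebraMap ℚ ℂ))

theorem toC_toQ_jd (M d : ℕ+) : toC M (toQ (jd d)) = Jsub ℂ 1 (M * d) := by
  show qExpand ℂ (M : ℕ) (coeffMap (algebraMap ℚ ℂ) (coeffMap (Int.castRingHom ℚ) (jd d))) = _
  rw [coeffMap_coeffMap, coeffMap_jd, qExpand_Jsub]

theorem pnat_sq_mul_ne {p r : ℕ+} (hpr : p ≠ r) (e : ℕ+) : r ^ 2 * e ≠ p ^ 2 * e := by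
  intro h
  apply hpr
  have h1 : ((r ^ 2 * e : ℕ+) : ℕ) = ((p ^ 2 * e : ℕ+) : ℕ) := congrArg _ h
  push_cast at h1
  have h2 : (r : ℕ) ^ 2 = (p : ℕ) ^ 2 := Nat.eq_of_mul_eq_mul_right e.pos h1
  exact PNat.eq (Nat.pow_left_injective (by norm_num : (2 : ℕ) ≠ 0) h2).symm

/-- **Unique common root lemma.**  For `p ≠ r` with prime-level root data, `j(q^{p r e})` lies in
the field generated over `ℚ` by `j(q^{r e})` and `j(q^{p e})`. -/
theorem toQ_jd_mem_adjoin_pair {p r : ℕ+} (hpr : p ≠ r) {Φp Φr : Polynomial (Polynomial ℤ)}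
    (hp : PrimeRoots p Φp) (hr : PrimeRoots r Φr) (e : ℕ+) :
    toQ (jd (p * r * e)) ∈
      IntermediateField.adjoin ℚ {toQ (jd (r * e)), toQ (jd (p * e))} := by
  set E := IntermediateField.adjoin ℚ {toQ (jd (r * e)), toQ (jd (p * e))} with hE
  have hx : toQ (jd (r * e)) ∈ E := IntermediateField.subset_adjoin _ _ (Set.mem_insert _ _)
  have hy : toQ (jd (p * e)) ∈ E :=
    IntermediateField.subset_adjoin _ _ (Set.mem_insert_of_mem _ rfl)
  obtain ⟨z, hz⟩ : ∃ z, z = toQ (jd (p * r * e)) := ⟨_, rfl⟩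
  rw [← hz]
  let fE : Polynomial E := Φp.map (evZ (⟨_, hx⟩ : E))
  let gE : Polynomial E := Φr.map (evZ (⟨_, hy⟩ : E))
  have hfE : fE.map (algebraMap E (LaurentSeries ℚ)) = Φp.map (evZ (toQ (jd (r * e)))) :=
    map_map_evZ _ _ _
  have hgE : gE.map (algebraMap E (LaurentSeries ℚ)) = Φr.map (evZ (toQ (jd (p * e)))) :=
    map_map_evZ _ _ _
  have hf0 : Polynomial.aeval z fE = 0 := by
    rw [Polynomial.aeval_def, ← Polynomial.eval_map, hfE, hz]
    have := congrArg toQ (hp.eval_up (r * e))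
    rw [map_eval_evZ, map_zero] at this
    rwa [show p * r * e = p * (r * e) by rw [mul_assoc]]
  have hg0 : Polynomial.aeval z gE = 0 := by
    rw [Polynomial.aeval_def, ← Polynomial.eval_map, hgE, hz]
    have := congrArg toQ (hr.eval_up (p * e))
    rw [map_eval_evZ, map_zero] at this
    rwa [show p * r * e = r * (p * e) by rw [mul_comm p r, mul_assoc]]
  have hfmonic : fE.Monic := hp.monic.map _
  have hint : IsIntegral E z := ⟨fE, hfmonic, by rwa [← Polynomial.aeval_def]⟩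
  have hdf : minpoly E z ∣ fE := minpoly.dvd E z hf0
  have hdg : minpoly E z ∣ gE := minpoly.dvd E z hg0
  -- pass to `ℂ((t))`, `q = t^(p r)`
  let θ : E →+* LaurentSeries ℂ := (toC (p * r)).comp (algebraMap E (LaurentSeries ℚ))
  have hθf : fE.map θ = Φp.map (evZ (Jsub ℂ 1 (p * (r ^ 2 * e)))) := by
    rw [← Polynomial.map_map, hfE, map_map_evZ, toC_toQ_jd]
    rw [show p * r * (r * e) = p * (r ^ 2 * e) from PNat.eq (by push_cast; ring)]
  have hθg : gE.map θ = Φr.map (evZ (Jsub ℂ 1 (r * (p ^ 2 * e)))) := by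
    rw [← Polynomial.map_map, hgE, map_map_evZ, toC_toQ_jd]
    rw [show p * r * (p * e) = r * (p ^ 2 * e) from PNat.eq (by push_cast; ring)]
  obtain ⟨ωp, -, hFp⟩ := hp.roots
  obtain ⟨ωr, -, hFr⟩ := hr.roots
  have hFp' := hFp (r ^ 2 * e)
  have hFr' := hFr (p ^ 2 * e)
  rw [evalJ_eq_evZ] at hFp' hFr'
  rw [show r ^ 2 * (p ^ 2 * e) = p ^ 2 * (r ^ 2 * e) from PNat.eq (by push_cast; ring)] at hFr'
  set a0 := Jsub ℂ 1 (p ^ 2 * (r ^ 2 * e)) with ha0
  set F2 := ∏ b ∈ Finset.range (p : ℕ), (X - C (Jsub ℂ (ωp ^ b) (r ^ 2 * e))) with hF2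
  set G2 := ∏ c ∈ Finset.range (r : ℕ), (X - C (Jsub ℂ (ωr ^ c) (p ^ 2 * e))) with hG2
  have hcop : IsCoprime F2 G2 := by
    refine IsCoprime.prod_left fun b _ => IsCoprime.prod_right fun c _ => ?_
    refine isCoprime_X_sub_C_of_isUnit_sub ?_
    rw [isUnit_iff_ne_zero, sub_ne_zero]
    exact Jsub_ne_of_ne ℂ _ _ (pnat_sq_mul_ne hpr e)
  obtain ⟨u, v, huv⟩ := hcop
  have h1 : (minpoly E z).map θ ∣ (X - C a0) * F2 := by
    rw [← hFp', ← hθf]; exact Polynomial.map_dvd θ hdf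
  have h2 : (minpoly E z).map θ ∣ (X - C a0) * G2 := by
    rw [← hFr', ← hθg]; exact Polynomial.map_dvd θ hdg
  have hdvd : (minpoly E z).map θ ∣ X - C a0 := by
    have : X - C a0 = u * ((X - C a0) * F2) + v * ((X - C a0) * G2) := by
      linear_combination (-(X - C a0)) * huv
    rw [this]
    exact dvd_add (Dvd.dvd.mul_left h1 u) (Dvd.dvd.mul_left h2 v)
  have hdeg : (minpoly E z).natDegree ≤ 1 := by
    have := Polynomial.natDegree_le_of_dvd hdvd (X_sub_C_ne_zero a0)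
    rwa [(minpoly.monic hint).natDegree_map, natDegree_X_sub_C] at this
  have hpos := minpoly.natDegree_pos hint
  have h1' : (minpoly E z).natDegree = 1 := by omega
  obtain ⟨w, hw⟩ := (minpoly.natDegree_eq_one_iff).mp h1'
  rw [← hw]
  exact w.2

end

end Fermat.Agent.S28.helper720
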