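import Mathlib
import Fermat.Prelude.Def_ModularCurve_LaurentCoeff
import Fermat.Prelude.Def_ModularCurve_X0ModL

/-!
# Descent of algebraic relations between Laurent series along a field extension

`k ⊆ K` fields, `coeffMap (algebraMap k K) : k((q)) → K((q))` the coefficientwise embedding.

* `exists_linear_relation_of_coeffMap`: a nontrivial `K`-linear relation between the images of
  finitely many Laurent series over `k` yields a nontrivial `k`-linear relation between them.
* `exists_polynomial_relation_of_coeffMap`: if `x ∈ k((q))` is a root (after base change) of a nonzero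
  polynomial of degree `≤ n` with coefficients in `K[J]`, then it is a root of a nonzero polynomial
  of degree `≤ n` with coefficients in `k[J]`.
-/

set_option autoImplicit false

namespace Fermat.Agent.S28.helper1828

open ModularCurve Polynomial

section Injective

variable {R S : Type*} [CommRing R] [CommRing S]

theorem coeffMap_injective {f : R →+* S} (hf : Function.Injective f) :
    Function.Injective (coeffMap f) := by
  intro x y h
  ext m
  apply hf
  have := congrArg (fun z => HahnSeries.coeff z m) h
  simpa using this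

end Injective

section Descent

theorem algebraMap_laurentSeries_eq_C {L : Type*} [Field L] (c : L) :
    algebraMap L (LaurentSeries L) c = HahnSeries.C c := by
  rw [algebraMap_laurentSeries_eq_single]
  rfl

variable {k K : Type*} [Field k] [Field K] [Algebra k K]

/-- **Linear descent.** A nontrivial `K`-linear relation between the coefficientwise images of
finitely many Laurent series over `k` gives a nontrivial `k`-linear relation. -/
theorem exists_linear_relation_of_coeffMap {ι : Type*} [Fintype ι]
    (v : ι → LaurentSeries k) (c : ι → K) (hc : c ≠ 0)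
    (h : ∑ i, HahnSeries.C (c i) * coeffMap (algebraMap k K) (v i) = 0) :
    ∃ r : ι → k, r ≠ 0 ∧ ∑ i, HahnSeries.C (r i) * v i = 0 := by
  classical
  obtain ⟨i₀, hi₀⟩ : ∃ i, c i ≠ 0 := by
    by_contra hcon
    exact hc (funext fun i => not_not.mp fun hi => hcon ⟨i, hi⟩)
  obtain ⟨φ, hφ⟩ : ∃ φ : Module.Dual k K, φ (c i₀) ≠ 0 := by
    by_contra hcon
    exact hi₀ ((Module.forall_dual_apply_eq_zero_iff k (c i₀)).mp
      fun φ => not_not.mp fun hφ => hcon ⟨φ, hφ⟩)
  refine ⟨fun i => φ (c i), fun h0 => hφ (congrFun h0 i₀), ?_⟩
  ext m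
  have hm := congrArg (fun z => HahnSeries.coeff z m) h
  simp only [HahnSeries.coeff_sum, HahnSeries.coeff_zero, HahnSeries.C_mul_eq_smul,
    HahnSeries.coeff_smul, coeffMap_coeff, smul_eq_mul] at hm ⊢
  have h2 : φ (∑ i, c i * algebraMap k K ((v i).coeff m)) = 0 := by rw [hm, map_zero]
  rw [map_sum] at h2
  rw [← h2]
  refine Finset.sum_congr rfl fun i _ => ?_
  rw [mul_comm (c i), ← Algebra.smul_def, map_smul, smul_eq_mul, mul_comm]

/-- **Polynomial descent.** If `x ∈ k((q))` is, after base change to `K`, a root of a nonzero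
polynomial of degree `≤ n` whose coefficients are polynomials over `K` in (the base change of)
`J ∈ k((q))`, then `x` is a root of a nonzero polynomial of degree `≤ n` whose coefficients are
polynomials over `k` in `J`. -/
theorem exists_polynomial_relation_of_coeffMap (J x : LaurentSeries k) (n : ℕ)
    (P : Polynomial (Polynomial K)) (hP : P ≠ 0) (hdeg : P.natDegree ≤ n)
    (h : P.eval₂ (Polynomial.aeval (coeffMap (algebraMap k K) J)).toRingHom
      (coeffMap (algebraMap k K) x) = 0) :
    ∃ p : Polynomial (Polynomial k), p ≠ 0 ∧ p.natDegree ≤ n ∧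
      p.eval₂ (Polynomial.aeval J).toRingHom x = 0 := by
  classical
  -- a uniform bound for the degrees of the coefficients
  set A : ℕ := (Finset.range (n + 1)).sup fun b => (P.coeff b).natDegree with hA
  have hAb : ∀ b, (P.coeff b).natDegree < A + 1 := by
    intro b
    by_cases hb : b < n + 1
    · exact Nat.lt_succ_of_le (Finset.le_sup (f := fun b => (P.coeff b).natDegree)
        (Finset.mem_range.mpr hb))
    · rw [Polynomial.coeff_eq_zero_of_natDegree_lt (by omega)]
      simp
  let v : Fin (A + 1) × Fin (n + 1) → LaurentSeries k := fun ab => J ^ (ab.1 : ℕ) * x ^ (ab.2 : ℕ)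
  let c : Fin (A + 1) × Fin (n + 1) → K := fun ab => (P.coeff ab.2).coeff ab.1
  have hc : c ≠ 0 := by
    intro h0
    apply hP
    ext b a
    by_cases hb : b < n + 1
    · by_cases ha : a < A + 1
      · simpa [c] using congrFun h0 (⟨a, ha⟩, ⟨b, hb⟩)
      · rw [Polynomial.coeff_eq_zero_of_natDegree_lt (lt_of_lt_of_le (hAb b) (not_lt.mp ha))]
        simp
    · rw [Polynomial.coeff_eq_zero_of_natDegree_lt (p := P) (n := b) (by omega)]
      simp
  have hsum : ∑ ab, HahnSeries.C (c ab) * coeffMap (algebraMap k K) (v ab) = 0 := by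
    rw [← h, Polynomial.eval₂_eq_sum_range' _ (Nat.lt_succ_of_le hdeg), Fintype.sum_prod_type,
      Finset.sum_comm, Finset.sum_range]
    refine Finset.sum_congr rfl fun b _ => ?_
    rw [AlgHom.toRingHom_eq_coe, RingHom.coe_coe,
      Polynomial.aeval_eq_sum_range' (hAb b), Finset.sum_mul, Finset.sum_range]
    refine Finset.sum_congr rfl fun a _ => ?_
    rw [Algebra.smul_def, algebraMap_laurentSeries_eq_C, mul_assoc]
    simp only [v, c, map_mul, map_pow]
  obtain ⟨r, hr, hrsum⟩ := exists_linear_relation_of_coeffMap v c hc hsum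
  -- the descended polynomial
  let p : Polynomial (Polynomial k) :=
    ∑ b : Fin (n + 1), Polynomial.monomial (b : ℕ)
      (∑ a : Fin (A + 1), Polynomial.monomial (a : ℕ) (r (a, b)))
  have hpcoeff : ∀ (a : Fin (A + 1)) (b : Fin (n + 1)), (p.coeff b).coeff a = r (a, b) := by
    intro a b
    have h1 : p.coeff b = ∑ a : Fin (A + 1), Polynomial.monomial (a : ℕ) (r (a, b)) := by
      simp only [p, Polynomial.finsetSum_coeff, Polynomial.coeff_monomial]
      rw [Finset.sum_eq_single b]
      · rw [if_pos rfl]
      · intro b' _ hb'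
        rw [if_neg (fun hh => hb' (Fin.ext hh))]
      · intro hb; exact absurd (Finset.mem_univ b) hb
    rw [h1, Polynomial.finsetSum_coeff]
    simp only [Polynomial.coeff_monomial]
    rw [Finset.sum_eq_single a]
    · rw [if_pos rfl]
    · intro a' _ ha'
      rw [if_neg (fun hh => ha' (Fin.ext hh))]
    · intro ha; exact absurd (Finset.mem_univ a) ha
  refine ⟨p, ?_, ?_, ?_⟩
  · intro hp0
    apply hr
    funext ab
    obtain ⟨a, b⟩ := ab
    rw [← hpcoeff a b, hp0]
    simp
  · refine Polynomial.natDegree_sum_le_of_forall_le _ _ fun b _ => ?_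
    exact (Polynomial.natDegree_monomial_le _).trans (Nat.lt_succ_iff.mp b.2)
  · rw [← hrsum, Fintype.sum_prod_type, Finset.sum_comm]
    simp only [p, Polynomial.eval₂_finsetSum, Polynomial.eval₂_monomial, AlgHom.toRingHom_eq_coe,
      RingHom.coe_coe, map_sum, Polynomial.aeval_monomial]
    refine Finset.sum_congr rfl fun b _ => Finset.sum_congr rfl fun a _ => ?_
    simp only [v, mul_assoc, algebraMap_laurentSeries_eq_C]

/-- `coeffMap` commutes with evaluation of polynomials at a Laurent series. -/
theorem coeffMap_aeval {k' K' : Type*} [Field k'] [Field K'] (f : k' →+* K')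
    (J : LaurentSeries k') (c : Polynomial k') :
    coeffMap f (Polynomial.aeval J c) = Polynomial.aeval (coeffMap f J) (c.map f) := by
  induction c using Polynomial.induction_on with
  | C a =>
    rw [Polynomial.aeval_C, Polynomial.map_C, Polynomial.aeval_C, algebraMap_laurentSeries_eq_single,
      algebraMap_laurentSeries_eq_single, coeffMap_single]
  | add p q hp hq => rw [map_add, map_add, hp, hq, Polynomial.map_add, map_add]
  | monomial m a _ =>
    simp only [Polynomial.map_mul, Polynomial.map_pow, Polynomial.map_C, Polynomial.map_X, map_mul,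
      map_pow, Polynomial.aeval_C, Polynomial.aeval_X, algebraMap_laurentSeries_eq_single,
      coeffMap_single]

/-- **Descent of linear independence over `k[J]`** (the easy direction): if the base-changed
family is independent over `K[J]`, the original family is independent over `k[J]`. -/
theorem polynomial_independent_of_coeffMap {k' K' : Type*} [Field k'] [Field K'] (f : k' →+* K')
    {ι : Type*} [Fintype ι] (J : LaurentSeries k') (b : ι → LaurentSeries k')
    (h : ∀ c : ι → Polynomial K',
      ∑ i, Polynomial.aeval (coeffMap f J) (c i) * coeffMap f (b i) = 0 → c = 0)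
    (c : ι → Polynomial k') (hc : ∑ i, Polynomial.aeval J (c i) * b i = 0) : c = 0 := by
  have h1 : ∑ i, Polynomial.aeval (coeffMap f J) ((c i).map f) * coeffMap f (b i) = 0 := by
    have := congrArg (coeffMap f) hc
    rw [map_sum, map_zero] at this
    rw [← this]
    refine Finset.sum_congr rfl fun i _ => ?_
    rw [map_mul, coeffMap_aeval]
  have h2 := h (fun i => (c i).map f) h1
  funext i
  have h3 : (c i).map f = 0 := congrFun h2 i
  exact (Polynomial.map_eq_zero_iff f.injective).mp h3

end Descent

section Rat

/-- **Descent `ℂ → ℚ` for the modular function field.** If `x ∈ ℚ((q))` is, as an element of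
`ℂ((q))`, a root of a nonzero polynomial of degree `≤ n` with coefficients in `ℂ[j]`, then it is
a root of a nonzero polynomial of degree `≤ n` with coefficients in `ℚ[j]`. -/
theorem exists_rat_polynomial_relation (x : LaurentSeries ℚ) (n : ℕ)
    (P : Polynomial (Polynomial ℂ)) (hP : P ≠ 0) (hdeg : P.natDegree ≤ n)
    (h : P.eval₂ (Polynomial.aeval (jqModC ℂ)).toRingHom (coeffMap (algebraMap ℚ ℂ) x) = 0) :
    ∃ p : Polynomial (Polynomial ℚ), p ≠ 0 ∧ p.natDegree ≤ n ∧
      p.eval₂ (Polynomial.aeval jq).toRingHom x = 0 := by
  have hj : coeffMap (algebraMap ℚ ℂ) jq = jqModC ℂ := by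
    rw [← jqModC_rat, coeffMap_jqModC]
  rw [← hj] at h
  exact exists_polynomial_relation_of_coeffMap jq x n P hP hdeg h

/-- Monic variant of the hypothesis: a monic polynomial of degree `n` over `ℂ[j]`. -/
theorem exists_rat_polynomial_relation_of_monic (x : LaurentSeries ℚ) (n : ℕ)
    (P : Polynomial (Polynomial ℂ)) (hP : P.Monic) (hdeg : P.natDegree = n)
    (h : P.eval₂ (Polynomial.aeval (jqModC ℂ)).toRingHom (coeffMap (algebraMap ℚ ℂ) x) = 0) :
    ∃ p : Polynomial (Polynomial ℚ), p ≠ 0 ∧ p.natDegree ≤ n ∧
      p.eval₂ (Polynomial.aeval jq).toRingHom x = 0 :=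
  exists_rat_polynomial_relation x n P hP.ne_zero hdeg.le h

end Rat

end Fermat.Agent.S28.helper1828
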