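import Fermat.Statements.S28

/-!
# S28 (Igusa): interface between the modular input and the algebra core

Everything here is a `Prop`-valued definition (no proofs, no `sorry`), for hypothesis-passing.

* `Stmt_CoreInput N ℓ` : the ONE statement the modular side has to deliver (for `ℓ ∤ N`).
* `Stmt_Red N ℓ S`     : what the algebra core delivers for the chart `chartAlg N ℓ S`.
* `Stmt_Core N ℓ`      : `Stmt_CoreInput N ℓ → Stmt_Red` for the three charts.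
* `Stmt_Tensor`, `Stmt_Glue` : the two remaining (plan independent) steps.
-/

set_option autoImplicit false

noncomputable section

namespace Fermat.Agent.S28.Spec

open ModularCurve ModularCurve.IgusaScheme Polynomial
open scoped TensorProduct

/-- `ℤ₍ℓ₎` as used in the frozen statement. -/
abbrev Zl (ℓ : ℕ) : Type := ↥(GaloisRep.ratLocalizedAt ℓ)

/-- Coefficient embedding `ℤ((q)) → ℚ((q))`. -/
abbrev toQ : LaurentSeries ℤ →+* LaurentSeries ℚ := coeffMap (Int.castRingHom ℚ)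

/-- Coefficient reduction `ℤ((q)) → 𝔽_ℓ((q))`. -/
abbrev toFl (ℓ : ℕ) : LaurentSeries ℤ →+* LaurentSeries (ZMod ℓ) :=
  coeffMap (Int.castRingHom (ZMod ℓ))

/-- `b` is integral over `ℤ[j]` inside `ℤ((q))` (explicit monic polynomial over `ℤ[Y]`,
evaluated at `Y = j`). -/
def IsIntegralOverZj (b : LaurentSeries ℤ) : Prop :=
  ∃ P : Polynomial (Polynomial ℤ), P.Monic ∧
    P.eval₂ (Polynomial.aeval (jqModC ℤ)).toRingHom b = 0

/-- `[L : ℚ(j)] ≤ n`, in elementary form: any `n + 1` elements of `L` are linearly dependent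
over `ℤ[j]`. -/
def DegLE (L : IntermediateField ℚ (LaurentSeries ℚ)) (n : ℕ) : Prop :=
  ∀ x : Fin (n + 1) → LaurentSeries ℚ, (∀ i, x i ∈ L) →
    ∃ c : Fin (n + 1) → Polynomial ℤ, c ≠ 0 ∧ ∑ i, Polynomial.aeval jq (c i) * x i = 0

/-- The reductions mod `ℓ` of the `b i` are linearly independent over `𝔽_ℓ[j̄]`. -/
def LinIndepModL (ℓ : ℕ) {n : ℕ} (b : Fin n → LaurentSeries ℤ) : Prop :=
  ∀ c : Fin n → Polynomial (ZMod ℓ),
    ∑ i, Polynomial.aeval (jqModC (ZMod ℓ)) (c i) * toFl ℓ (b i) = 0 → c = 0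

/-- **The modular input** (to be proved for `ℓ ∤ N`): a field `L ⊇ F = ℚ(j(q^d) : d ∣ N)` inside
`ℚ((q))` of degree `≤ n` over `ℚ(j)` together with `n` integer `q`-series in `L`, integral over
`ℤ[j]`, whose reductions mod `ℓ` are linearly independent over `𝔽_ℓ[j̄]`. -/
def Stmt_CoreInput (N ℓ : ℕ) : Prop :=
  ∃ (n : ℕ) (L : IntermediateField ℚ (LaurentSeries ℚ)) (b : Fin n → LaurentSeries ℤ),
    modularFunctionFieldFull N ≤ L ∧
    (∀ i, toQ (b i) ∈ L) ∧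
    (∀ i, IsIntegralOverZj (b i)) ∧
    DegLE L n ∧
    LinIndepModL ℓ b

/-- Output of the algebra core for one chart: a ring hom to `𝔽_ℓ((q))` with kernel `ℓ • A`. -/
def Stmt_Red (N : ℕ) [NeZero N] (ℓ : ℕ) [Fact ℓ.Prime]
    (S : Set ↥(modularFunctionFieldFull N)) : Prop :=
  ∃ red : ↥(chartAlg N ℓ S) →+* LaurentSeries (ZMod ℓ),
    ∀ a, red a = 0 → ∃ b, a = (ℓ : ↥(chartAlg N ℓ S)) * b

/-- The algebra core. -/
def Stmt_Core (N : ℕ) [NeZero N] (ℓ : ℕ) [Fact ℓ.Prime] : Prop :=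
  Stmt_CoreInput N ℓ →
    Stmt_Red N ℓ {jFull N} ∧ Stmt_Red N ℓ {(jFull N)⁻¹} ∧ Stmt_Red N ℓ {jFull N, (jFull N)⁻¹}

/-- The tensor step (plan independent): a ring hom to `𝔽_ℓ((q))` with kernel `ℓ • A` makes
`A ⊗[ℤ₍ℓ₎] K` a domain, for every field `K` of characteristic `ℓ`. -/
def Stmt_Tensor (ℓ : ℕ) [Fact ℓ.Prime] : Prop :=
  ∀ (A : Type) [CommRing A] [Algebra (Zl ℓ) A]
    (K : Type) [Field K] [CharP K ℓ] [Algebra (Zl ℓ) K]
    (red : A →+* LaurentSeries (ZMod ℓ)),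
    (∀ a, red a = 0 → ∃ b, a = (ℓ : A) * b) → IsDomain (A ⊗[Zl ℓ] K)

/-- The scheme step (plan independent). -/
def Stmt_Glue (N : ℕ) [NeZero N] (ℓ : ℕ) [Fact ℓ.Prime] : Prop :=
  ∀ (K : Type) [Field K] [CharP K ℓ] [Algebra (Zl ℓ) K],
    IsDomain (↥(chartAlgFin N ℓ) ⊗[Zl ℓ] K) →
    IsDomain (↥(chartAlgInf N ℓ) ⊗[Zl ℓ] K) →
    Nontrivial (↥(chartAlgMid N ℓ) ⊗[Zl ℓ] K) →
    AlgebraicGeometry.IsIntegral ↑(CategoryTheory.Limits.pullback (igusaTo N ℓ)
      (AlgebraicGeometry.Spec.map (CommRingCat.ofHom (algebraMap (Zl ℓ) K))))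

end Fermat.Agent.S28.Spec

end
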