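import Fermat.Agent.S28.helper4768_DegSturm
import Fermat.Agent.S28.helper2608_Spec

/-!
# S28: the degree bound `DegLE` of `helper2608_Spec`, from Sturm counting (helper4768)

`degLE_ratioField` : `Spec.DegLE (ratioField N) [SL₂(ℤ) : Γ₀(N)]`, where `ratioField N ⊆ ℚ((q))`
is the field of ratios of rational `q`-expansions of modular forms of equal weight on `Γ₀(N)`;
it contains `modularFunctionFieldFull N` (`full_le_ratioField`) and every quotient
`Δ(q^d) / Δ(q^e)`, `d, e ∣ N` (`qExpand_DeltaL_div_mem_ratioField`).
-/

set_option autoImplicit false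

open ModularCurve

namespace Fermat.Agent.S28.helper4768

open Fermat.Agent.S28.Spec

/-- The degree bound for the field of ratios of level `N`. -/
theorem degLE_ratioField (N : ℕ) [NeZero N] :
    DegLE (ratioField N) (CongruenceSubgroup.Gamma0 N).index :=
  fun x hx => exists_int_relation N x hx

/-- `DegLE` passes to subfields. -/
theorem degLE_mono {L L' : IntermediateField ℚ (LaurentSeries ℚ)} (h : L ≤ L') {n : ℕ}
    (hL' : DegLE L' n) : DegLE L n :=
  fun x hx => hL' x fun i => h (hx i)

/-- The degree bound for any field between `ℚ` and the field of ratios of level `N`,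
in particular for `modularFunctionFieldFull N` and for `ℚ(j, j(q^d), eta quotients)`. -/
theorem degLE_of_le_ratioField (N : ℕ) [NeZero N] {L : IntermediateField ℚ (LaurentSeries ℚ)}
    (h : L ≤ ratioField N) : DegLE L (CongruenceSubgroup.Gamma0 N).index :=
  degLE_mono h (degLE_ratioField N)

theorem degLE_full (N : ℕ) [NeZero N] :
    DegLE (modularFunctionFieldFull N) (CongruenceSubgroup.Gamma0 N).index :=
  degLE_of_le_ratioField N (full_le_ratioField N)

end Fermat.Agent.S28.helper4768
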