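import Fermat.Agent.S28.helper1595_Counting
import Fermat.Agent.S28.helper2608_Spec
import Fermat.Agent.S28.helper328_PrimeSpec
import Fermat.Agent.S28.helper3292_JqFacts

/-!
# S28, route P: from prime-level data to `Spec.Stmt_CoreInput` (helper1595)

* `strong_of_nonrat` (A1): `F1 + F2 + (V_p J ∉ k(J))` give the minimality of the relation `Φ`
  (`[k(J, V_p J) : k(J)] = p + 1`), via irreducibility over `k((q))` of the cofactor of
  `X - V_p J` in `Φ(X, J)` (order lemma).
* `stmt_CoreInput_of_primeLevel` (A2): the final adapter.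
-/

set_option autoImplicit false

noncomputable section

namespace Fermat.Agent.S28.helper1595

open IntermediateField ModularCurve Polynomial

section Strong

variable {k : Type*} [Field k]

theorem qExpand_comp_aeval (p : ℕ) [NeZero p] (x : LaurentSeries k) :
    (qExpand k p).comp ((aeval x : Polynomial k →ₐ[k] LaurentSeries k) : Polynomial k →+* LaurentSeries k)
      = ((aeval (qExpand k p x) : Polynomial k →ₐ[k] LaurentSeries k) :
          Polynomial k →+* LaurentSeries k) := by
  refine Polynomial.ringHom_ext (fun a => ?_) ?_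
  · have h := (qExpandAlgHomC k p).commutes a
    simp only [RingHom.comp_apply, RingHom.coe_coe, aeval_C]
    exact h
  · simp

/-- Order lemma for polynomials: a nonzero polynomial of degree `< p` with coefficients in the
image of `V_p` does not vanish at `J`. -/
theorem eval_map_qExpand_ne_zero (p : ℕ) [NeZero p] (A : Polynomial (LaurentSeries k))
    (hA : A ≠ 0) (hdeg : A.natDegree < p) :
    (A.map (qExpand k p)).eval (jqModC k) ≠ 0 := by
  intro h
  have hdeg' : (A.map (qExpand k p)).natDegree < p :=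
    lt_of_le_of_lt (natDegree_map_le) hdeg
  rw [eval_eq_sum_range' hdeg', Finset.sum_range] at h
  have hz := eq_zero_of_sum_mul_pow_eq_zero p (jqModC k) (jqModC_ne_zero k) (order_jqModC k)
    (fun i : Fin p => (A.map (qExpand k p)).coeff (i : ℕ))
    (fun i => ⟨A.coeff (i : ℕ), by rw [coeff_map]⟩) h
  apply hA
  refine Polynomial.ext (fun n => ?_)
  rw [coeff_zero]
  by_cases hn : n < p
  · have := hz ⟨n, hn⟩
    simp only [coeff_map] at this
    exact qExpand_injective p (by rw [this, map_zero])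
  · exact coeff_eq_zero_of_natDegree_lt (by omega)

/-- (A1) The strong form of prime-level nonrationality. -/
theorem strong_of_nonrat (p : ℕ) [NeZero p] (hp : 2 ≤ p) (Φ : Polynomial (Polynomial k))
    (hΦ : Φ.Monic) (hn : Φ.natDegree = p + 1)
    (h1 : ev2 (qExpand k p (jqModC k)) (jqModC k) Φ = 0)
    (h2 : ev2 (jqModC k) (qExpand k p (jqModC k)) Φ = 0)
    (hnr : qExpand k p (jqModC k) ∉ k⟮jqModC k⟯) :
    ∀ Q : Polynomial (Polynomial k), Q ≠ 0 → Q.natDegree < p + 1 →
      ev2 (qExpand k p (jqModC k)) (jqModC k) Q ≠ 0 := by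
  set J := jqModC k with hJ
  set y := qExpand k p J with hy
  set φ : Polynomial k →+* LaurentSeries k :=
    ((aeval J : Polynomial k →ₐ[k] LaurentSeries k) : Polynomial k →+* LaurentSeries k) with hφ
  set f : Polynomial (LaurentSeries k) := Φ.map φ with hf
  have hfmonic : f.Monic := hΦ.map _
  have hfdeg : f.natDegree = p + 1 := by rw [hf, hΦ.natDegree_map, hn]
  have hfroot : f.eval y = 0 := by rw [hf, eval_map]; exact h1
  set Ψ : Polynomial (LaurentSeries k) := f /ₘ (X - C y) with hΨ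
  have hfac : (X - C y) * Ψ = f := mul_divByMonic_eq_iff_isRoot.mpr hfroot
  have hΨmonic : Ψ.Monic := by
    have h : ((X - C y) * Ψ).Monic := by rw [hfac]; exact hfmonic
    exact (monic_X_sub_C y).of_mul_monic_left h
  have hΨdeg : Ψ.natDegree = p := by
    have h := congrArg natDegree hfac
    rw [(monic_X_sub_C y).natDegree_mul hΨmonic, natDegree_X_sub_C, hfdeg] at h
    omega
  -- `V_p Ψ` kills `J`
  have hΨV : (Ψ.map (qExpand k p)).eval J = 0 := by
    have hfV : f.map (qExpand k p) = Φ.map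
        ((aeval y : Polynomial k →ₐ[k] LaurentSeries k) : Polynomial k →+* LaurentSeries k) := by
      rw [hf, Polynomial.map_map, hφ, qExpand_comp_aeval]
    have hroot : (f.map (qExpand k p)).eval J = 0 := by
      rw [hfV, eval_map]; exact h2
    rw [← hfac, Polynomial.map_mul, eval_mul, Polynomial.map_sub, map_X, map_C, eval_sub, eval_X,
      eval_C] at hroot
    rcases mul_eq_zero.mp hroot with h | h
    · exfalso
      have hJy : J = qExpand k p y := sub_eq_zero.mp h
      have hc : J.coeff (-1) = (qExpand k p y).coeff (-1) := by rw [← hJy]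
      rw [hJ, coeff_jqModC_neg_one, qExpand_coeff_of_not_dvd p y] at hc
      · exact one_ne_zero hc
      · intro hdvd
        have := Int.le_of_dvd (by norm_num) ((dvd_neg).mp hdvd)
        omega
    · exact h
  -- `Ψ` is irreducible over `k((q))`
  have hΨirr : Irreducible Ψ := by
    rw [hΨmonic.irreducible_iff_natDegree]
    refine ⟨?_, ?_⟩
    · intro h1'
      have := congrArg natDegree h1'
      rw [hΨdeg, natDegree_one] at this
      omega
    · intro A B hA hB hAB
      have hdegAB : A.natDegree + B.natDegree = p := by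
        rw [← hA.natDegree_mul hB, hAB, hΨdeg]
      have hev : (A.map (qExpand k p)).eval J * (B.map (qExpand k p)).eval J = 0 := by
        rw [← eval_mul, ← Polynomial.map_mul, hAB, hΨV]
      rcases mul_eq_zero.mp hev with h | h
      · right
        by_contra hB0
        exact eval_map_qExpand_ne_zero p A hA.ne_zero (by omega) h
      · left
        by_contra hA0
        exact eval_map_qExpand_ne_zero p B hB.ne_zero (by omega) h
  -- main argument
  intro Q hQ hQdeg hQroot
  have hinj : Function.Injective (toAdj (k := k) J) := by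
    intro a b hab
    have h := congrArg (algebraMap ↥k⟮J⟯ (LaurentSeries k)) hab
    have e := algebraMap_comp_toAdj (k := k) J
    have ha : algebraMap ↥k⟮J⟯ (LaurentSeries k) (toAdj J a) = aeval J a := by
      rw [← RingHom.comp_apply, e]; rfl
    have hb : algebraMap ↥k⟮J⟯ (LaurentSeries k) (toAdj J b) = aeval J b := by
      rw [← RingHom.comp_apply, e]; rfl
    rw [ha, hb] at h
    exact helper3292.aeval_jqModC_injective k h
  set fE : Polynomial ↥k⟮J⟯ := Φ.map (toAdj J) with hfE
  set gE : Polynomial ↥k⟮J⟯ := Q.map (toAdj J) with hgE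
  have hgE0 : gE ≠ 0 := by
    rw [hgE, Ne, ← Polynomial.map_zero (toAdj (k := k) J)]
    exact fun h => hQ (Polynomial.map_injective _ hinj h)
  have hfEroot : aeval y fE = 0 := by rw [hfE, aeval_map_toAdj]; exact h1
  have hgEroot : aeval y gE = 0 := by rw [hgE, aeval_map_toAdj]; exact hQroot
  have hfEmonic : fE.Monic := hΦ.map _
  have hint : IsIntegral ↥k⟮J⟯ y := ⟨fE, hfEmonic, hfEroot⟩
  have hmf := minpoly.dvd ↥k⟮J⟯ y hfEroot
  have hmg := minpoly.dvd ↥k⟮J⟯ y hgEroot
  have hmdeg_le : (minpoly ↥k⟮J⟯ y).natDegree ≤ p := by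
    have := natDegree_le_of_dvd hmg hgE0
    have h2' : gE.natDegree ≤ Q.natDegree := natDegree_map_le
    omega
  have hmpos := minpoly.natDegree_pos hint
  have hmdeg1 : (minpoly ↥k⟮J⟯ y).natDegree = 1 := by
    by_contra hne1
    obtain ⟨h, hh⟩ := hmf
    have hfEdeg : fE.natDegree = p + 1 := by rw [hfE, hΦ.natDegree_map, hn]
    have hh0 : h ≠ 0 := by
      rintro rfl
      rw [mul_zero] at hh
      exact hfEmonic.ne_zero hh
    have hdegh : (minpoly ↥k⟮J⟯ y).natDegree + h.natDegree = p + 1 := by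
      rw [← natDegree_mul (minpoly.ne_zero hint) hh0, ← hh, hfEdeg]
    set mΩ := (minpoly ↥k⟮J⟯ y).map (algebraMap ↥k⟮J⟯ (LaurentSeries k)) with hmΩ
    set hΩ := h.map (algebraMap ↥k⟮J⟯ (LaurentSeries k)) with hhΩ
    have hfmap : f = mΩ * hΩ := by
      rw [hmΩ, hhΩ, ← Polynomial.map_mul, ← hh, hfE, Polynomial.map_map, algebraMap_comp_toAdj]
    have hmΩroot : mΩ.eval y = 0 := by
      rw [hmΩ, eval_map, ← aeval_def, minpoly.aeval]
    obtain ⟨m', hm'⟩ := dvd_iff_isRoot.mpr hmΩroot
    have hΨeq : Ψ = m' * hΩ := by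
      have : (X - C y) * Ψ = (X - C y) * (m' * hΩ) := by
        rw [hfac, hfmap, hm', mul_assoc]
      exact mul_left_cancel₀ (X_sub_C_ne_zero y) this
    have hmΩdeg : mΩ.natDegree = (minpoly ↥k⟮J⟯ y).natDegree :=
      natDegree_map (algebraMap ↥k⟮J⟯ (LaurentSeries k))
    have hhΩdeg : hΩ.natDegree = h.natDegree :=
      natDegree_map (algebraMap ↥k⟮J⟯ (LaurentSeries k))
    have hm'0 : m' ≠ 0 := by
      rintro rfl
      rw [mul_zero] at hm'
      have : mΩ.natDegree = 0 := by rw [hm', natDegree_zero]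
      omega
    have hm'deg : m'.natDegree + 1 = (minpoly ↥k⟮J⟯ y).natDegree := by
      have := congrArg natDegree hm'
      rw [natDegree_mul (X_sub_C_ne_zero y) hm'0, natDegree_X_sub_C, hmΩdeg] at this
      omega
    rcases (hΨirr.isUnit_or_isUnit hΨeq) with hu | hu
    · have := natDegree_eq_zero_of_isUnit hu
      omega
    · have := natDegree_eq_zero_of_isUnit hu
      omega
  obtain ⟨z, hz⟩ := (minpoly.natDegree_eq_one_iff).mp hmdeg1
  apply hnr
  rw [← hz]
  exact z.2

end Strong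

section Reduce

/-- `F1 + F2` over `ℤ` (same shape as `helper28.primeRel`). -/
def PrimeRelZ (p : ℕ) [NeZero p] : Prop :=
  ∃ Φ : Polynomial (Polynomial ℤ), Φ.Monic ∧ Φ.natDegree = p + 1 ∧
    (Φ.map (helper328.evalJ (jqModC ℤ))).eval (qExpand ℤ p (jqModC ℤ)) = 0 ∧
    (Φ.map (helper328.evalJ (qExpand ℤ p (jqModC ℤ)))).eval (jqModC ℤ) = 0

theorem comp_evalJ {A B : Type*} [CommRing A] [CommRing B] (g : LaurentSeries A →+* LaurentSeries B)
    (y : LaurentSeries A) : g.comp (helper328.evalJ y) = helper328.evalJ (g y) := by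
  refine Polynomial.ringHom_ext (fun a => ?_) ?_
  · simp [helper328.evalJ]
  · simp [helper328.evalJ]

theorem map_eval_evalJ {A B : Type*} [CommRing A] [CommRing B]
    (g : LaurentSeries A →+* LaurentSeries B) (Φ : Polynomial (Polynomial ℤ))
    (x y : LaurentSeries A) :
    g ((Φ.map (helper328.evalJ y)).eval x) = (Φ.map (helper328.evalJ (g y))).eval (g x) := by
  rw [eval_map, eval_map, Polynomial.hom_eval₂, comp_evalJ]

theorem ev2_map_intCast {k : Type*} [Field k] (Φ : Polynomial (Polynomial ℤ))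
    (a b : LaurentSeries k) :
    ev2 a b (Φ.map (Polynomial.mapRingHom (Int.castRingHom k))) =
      (Φ.map (helper328.evalJ b)).eval a := by
  rw [ev2, eval₂_map, eval_map]
  congr 1
  refine Polynomial.ringHom_ext (fun n => ?_) ?_
  · simp [helper328.evalJ]
  · simp [helper328.evalJ]

/-- Prime-level data over a field from `F1 + F2` over `ℤ` and nonrationality. -/
theorem primeData_of_relZ (k : Type*) [Field k] (p : ℕ) [NeZero p] (hp : p.Prime)
    (hrel : PrimeRelZ p) (hnr : qExpand k p (jqModC k) ∉ k⟮jqModC k⟯) : PrimeData k p := by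
  obtain ⟨Φ, hΦ, hn, h1, h2⟩ := hrel
  set g : LaurentSeries ℤ →+* LaurentSeries k := coeffMap (Int.castRingHom k) with hg
  have hgj : g (jqModC ℤ) = jqModC k := coeffMap_jqModC _
  have hgV : g (qExpand ℤ p (jqModC ℤ)) = qExpand k p (jqModC k) := by
    rw [hg, coeffMap_qExpand, coeffMap_jqModC]
  set Φk : Polynomial (Polynomial k) := Φ.map (Polynomial.mapRingHom (Int.castRingHom k)) with hΦk
  have hmonic : Φk.Monic := hΦ.map _
  have hdeg : Φk.natDegree = p + 1 := by rw [hΦk, hΦ.natDegree_map, hn]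
  have e1 : ev2 (qExpand k p (jqModC k)) (jqModC k) Φk = 0 := by
    rw [hΦk, ev2_map_intCast, ← hgV, ← hgj, ← map_eval_evalJ, h1, map_zero]
  have e2 : ev2 (jqModC k) (qExpand k p (jqModC k)) Φk = 0 := by
    rw [hΦk, ev2_map_intCast, ← hgV, ← hgj, ← map_eval_evalJ, h2, map_zero]
  exact ⟨Φk, hmonic, hdeg, e1, e2, strong_of_nonrat p hp.two_le Φk hmonic hdeg e1 e2 hnr⟩

end Reduce

section Integral

/-- transitivity of integrality through one monic relation with integer-polynomial
coefficients. -/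
theorem isIntegralElem_of_root {R S : Type*} [CommRing R] [CommRing S] (f : R →+* S) (y x : S)
    (hy : f.IsIntegralElem y) (F : Polynomial (Polynomial ℤ)) (hF : F.Monic)
    (h : (F.map (Polynomial.eval₂RingHom (Int.castRingHom S) y)).eval x = 0) :
    f.IsIntegralElem x := by
  let _ := f.toAlgebra
  have hy' : IsIntegral R y := hy
  set ψ : Polynomial ℤ →+* ↥(integralClosure R S) :=
    Polynomial.eval₂RingHom (Int.castRingHom ↥(integralClosure R S)) ⟨y, hy'⟩ with hψ
  have hcomp : (algebraMap ↥(integralClosure R S) S).comp ψ =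
      Polynomial.eval₂RingHom (Int.castRingHom S) y := by
    refine Polynomial.ringHom_ext (fun n => ?_) ?_
    · simp [hψ]
    · simp [hψ]
  have hx : IsIntegral ↥(integralClosure R S) x := by
    refine ⟨F.map ψ, hF.map _, ?_⟩
    rw [eval₂_map, hcomp, ← eval_map]
    exact h
  exact isIntegral_trans x hx

/-- generators of the monomials: `j(q^d)`, `d ∣ N`, as integer `q`-series. -/
def genZ (N : ℕ) : Set (LaurentSeries ℤ) :=
  {x | ∃ (d : ℕ) (_ : NeZero d), d ∣ N ∧ x = qExpand ℤ d (jqModC ℤ)}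

theorem isIntegralOverZj_iff (b : LaurentSeries ℤ) :
    Spec.IsIntegralOverZj b ↔
      ((Polynomial.aeval (jqModC ℤ) : Polynomial ℤ →ₐ[ℤ] LaurentSeries ℤ).toRingHom).IsIntegralElem b :=
  Iff.rfl

theorem isIntegral_qExpand (N : ℕ)
    (hrel : ∀ (p : ℕ) [NeZero p], p.Prime → p ∣ N → PrimeRelZ p) :
    ∀ (d : ℕ) [NeZero d], d ∣ N → Spec.IsIntegralOverZj (qExpand ℤ d (jqModC ℤ)) := by
  intro d
  induction d using Nat.strong_induction_on with
  | _ d ih =>
    intro hd0 hdN
    rcases eq_or_ne d 1 with rfl | hd1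
    · rw [qExpand_one_apply, isIntegralOverZj_iff]
      have := RingHom.isIntegralElem_map
        ((Polynomial.aeval (jqModC ℤ) : Polynomial ℤ →ₐ[ℤ] LaurentSeries ℤ).toRingHom) (x := X)
      simpa using this
    · obtain ⟨p, hp, hpd⟩ := Nat.exists_prime_and_dvd hd1
      have : NeZero p := ⟨hp.ne_zero⟩
      obtain ⟨d', rfl⟩ := hpd
      have hd'0 : d' ≠ 0 := fun h => hd0.out (by rw [h, mul_zero])
      have : NeZero d' := ⟨hd'0⟩
      have hlt : d' < p * d' := by
        have := hp.two_le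
        nlinarith [Nat.pos_of_ne_zero hd'0]
      have hd'N : d' ∣ N := (Dvd.intro_left p rfl).trans hdN
      have hpN : p ∣ N := (Dvd.intro d' rfl).trans hdN
      have ih' := ih d' hlt hd'N
      obtain ⟨Φ, hΦ, -, h1, -⟩ := hrel p hp hpN
      have h1' := congrArg (qExpand ℤ d') h1
      rw [map_eval_evalJ, map_zero, qExpand_qExpand] at h1'
      rw [qExpand_congr (mul_comm p d')]
      rw [isIntegralOverZj_iff] at ih' ⊢
      exact isIntegralElem_of_root _ _ _ ih' Φ hΦ h1'

theorem isIntegral_of_mem_closure (N : ℕ)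
    (hrel : ∀ (p : ℕ) [NeZero p], p.Prime → p ∣ N → PrimeRelZ p) {b : LaurentSeries ℤ}
    (hb : b ∈ Submonoid.closure (genZ N)) : Spec.IsIntegralOverZj b := by
  induction hb using Submonoid.closure_induction with
  | mem x hx =>
    obtain ⟨d, hd, hdN, rfl⟩ := hx
    exact isIntegral_qExpand N hrel d hdN
  | one => exact RingHom.isIntegralElem_one _
  | mul x y _ _ hx hy => exact RingHom.IsIntegralElem.mul _ hx hy

theorem toQ_mem_full_of_mem_closure (N : ℕ) {b : LaurentSeries ℤ}
    (hb : b ∈ Submonoid.closure (genZ N)) : Spec.toQ b ∈ modularFunctionFieldFull N := by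
  induction hb using Submonoid.closure_induction with
  | mem x hx =>
    obtain ⟨d, hd, hdN, rfl⟩ := hx
    have : Spec.toQ (qExpand ℤ d (jqModC ℤ)) = qExpand ℚ d jq := by
      show coeffMap (Int.castRingHom ℚ) (qExpand ℤ d (jqModC ℤ)) = _
      rw [coeffMap_qExpand, coeffMap_jqModC, jqModC_rat]
    rw [this]
    exact jqd_mem_full N hdN
  | one => rw [map_one]; exact one_mem _
  | mul x y _ _ hx hy => rw [map_mul]; exact mul_mem hx hy

end Integral

section Final

variable (N : ℕ) (ℓ : ℕ) [Fact ℓ.Prime]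

theorem evalJ_eq_aeval (j : LaurentSeries ℤ) :
    helper328.evalJ j = (Polynomial.aeval j : Polynomial ℤ →ₐ[ℤ] LaurentSeries ℤ).toRingHom := by
  refine Polynomial.ringHom_ext (fun n => ?_) ?_
  · simp [helper328.evalJ]
  · simp [helper328.evalJ]

theorem toFl_image_genZ :
    (Spec.toFl ℓ) '' (genZ N) = divisorExpansionsC (ZMod ℓ) N := by
  ext x
  constructor
  · rintro ⟨b, ⟨d, hd, hdN, rfl⟩, rfl⟩
    refine ⟨d, hd, hdN, ?_⟩
    show coeffMap (Int.castRingHom (ZMod ℓ)) (qExpand ℤ d (jqModC ℤ)) = _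
    rw [coeffMap_qExpand, coeffMap_jqModC]
  · rintro ⟨d, hd, hdN, rfl⟩
    refine ⟨qExpand ℤ d (jqModC ℤ), ⟨d, hd, hdN, rfl⟩, ?_⟩
    show coeffMap (Int.castRingHom (ZMod ℓ)) (qExpand ℤ d (jqModC ℤ)) = _
    rw [coeffMap_qExpand, coeffMap_jqModC]

theorem toFl_image_closure :
    (Spec.toFl ℓ) '' (Submonoid.closure (genZ N) : Set (LaurentSeries ℤ)) =
      (Submonoid.closure (divisorExpansionsC (ZMod ℓ) N) : Set (LaurentSeries (ZMod ℓ))) := by
  rw [← toFl_image_genZ N ℓ]
  have := MonoidHom.map_mclosure ((Spec.toFl ℓ : LaurentSeries ℤ →+* LaurentSeries (ZMod ℓ)) :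
    LaurentSeries ℤ →* LaurentSeries (ZMod ℓ)) (genZ N)
  have h2 := congrArg (fun S : Submonoid (LaurentSeries (ZMod ℓ)) =>
    (S : Set (LaurentSeries (ZMod ℓ)))) this
  simpa using h2

/-- reductions of integral series are integral over `𝔽_ℓ(j̄)`. -/
theorem isIntegral_toFl {b : LaurentSeries ℤ} (hb : Spec.IsIntegralOverZj b) :
    IsIntegral ↥((ZMod ℓ)⟮jqModC (ZMod ℓ)⟯) (Spec.toFl ℓ b) := by
  obtain ⟨P, hP, hroot⟩ := hb
  have h1 : (P.map (helper328.evalJ (jqModC ℤ))).eval b = 0 := by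
    rw [eval_map, evalJ_eq_aeval]; exact hroot
  have h2 := congrArg (Spec.toFl ℓ) h1
  rw [map_eval_evalJ, map_zero] at h2
  have hJ : (Spec.toFl ℓ) (jqModC ℤ) = jqModC (ZMod ℓ) := coeffMap_jqModC _
  rw [hJ, ← ev2_map_intCast] at h2
  refine ⟨(P.map (Polynomial.mapRingHom (Int.castRingHom (ZMod ℓ)))).map
    (toAdj (jqModC (ZMod ℓ))), (hP.map _).map _, ?_⟩
  rw [← aeval_def, aeval_map_toAdj]
  exact h2

/-- **Route P, final adapter.**  Prime-level relations over `ℤ` (`F1 + F2`), prime-level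
nonrationality mod `ℓ` (`F3`), the upper bounds mod `ℓ` at all `M ∣ N` and the characteristic
zero bound at level `N` give the modular input of the algebra core, with `L = F` and
`n = ψ(N)`. -/
theorem stmt_CoreInput_of_primeLevel [NeZero N]
    (hrel : ∀ (p : ℕ) [NeZero p], p.Prime → p ∣ N → PrimeRelZ p)
    (hnr : ∀ (p : ℕ) [NeZero p], p.Prime → p ∣ N →
      qExpand (ZMod ℓ) p (jqModC (ZMod ℓ)) ∉ (ZMod ℓ)⟮jqModC (ZMod ℓ)⟯)
    (hub : ∀ M, M ∣ N → ((ZMod ℓ)⟮jqModC (ZMod ℓ)⟯).relrank
      (modularFunctionFieldFullC (ZMod ℓ) M) ≤ (dedekindPsi M : Cardinal))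
    (hdeg : Spec.DegLE (modularFunctionFieldFull N) (dedekindPsi N)) :
    Spec.Stmt_CoreInput N ℓ := by
  classical
  set J := jqModC (ZMod ℓ) with hJ
  have hrank := relrank_full_eq_dedekindPsi (ZMod ℓ) N (NeZero.pos N) hub
    (fun p _ hp hpN => primeData_of_relZ (ZMod ℓ) p hp (hrel p hp hpN) (hnr p hp hpN))
  have h : (ZMod ℓ)⟮J⟯ ≤ adjoin (ZMod ℓ) (divisorExpansionsC (ZMod ℓ) N) :=
    adjoin_jqModC_le (ZMod ℓ) N
  have hrank' : Module.rank ↥((ZMod ℓ)⟮J⟯) ↥(extendScalars h) = (dedekindPsi N : Cardinal) := by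
    rw [← relrank_eq_rank_of_le h]; exact hrank
  have halg : ∀ x ∈ divisorExpansionsC (ZMod ℓ) N, IsAlgebraic ↥((ZMod ℓ)⟮J⟯) x := by
    intro x hx
    rw [← toFl_image_genZ N ℓ] at hx
    obtain ⟨b, hb, rfl⟩ := hx
    exact (isIntegral_toFl ℓ (isIntegral_of_mem_closure N hrel
      (Submonoid.subset_closure hb))).isAlgebraic
  have hspan : Module.rank ↥((ZMod ℓ)⟮J⟯) ↥(Submodule.span ↥((ZMod ℓ)⟮J⟯)
      (Submonoid.closure (divisorExpansionsC (ZMod ℓ) N) : Set (LaurentSeries (ZMod ℓ)))) =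
      (dedekindPsi N : Cardinal) := by
    rw [← hrank', extendScalars_adjoin h, ← Algebra.adjoin_eq_span,
      Subalgebra.rank_toSubmodule, ← adjoin_toSubalgebra_of_isAlgebraic halg,
      IntermediateField.rank_eq_rank_subalgebra]
  obtain ⟨B, hBT, hBspan, hBli⟩ := exists_linearIndependent ↥((ZMod ℓ)⟮J⟯)
    (Submonoid.closure (divisorExpansionsC (ZMod ℓ) N) : Set (LaurentSeries (ZMod ℓ)))
  have hcard : Cardinal.mk B = (dedekindPsi N : Cardinal) := by
    rw [← hspan, ← hBspan]
    exact (rank_span_set hBli).symm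
  obtain ⟨e⟩ := Cardinal.mk_eq_nat_iff.mp hcard
  have hlift : ∀ i : Fin (dedekindPsi N), ∃ b : LaurentSeries ℤ,
      b ∈ Submonoid.closure (genZ N) ∧ Spec.toFl ℓ b = ((e.symm i : B) : LaurentSeries (ZMod ℓ)) := by
    intro i
    have := hBT (e.symm i).2
    rw [← toFl_image_closure N ℓ] at this
    obtain ⟨b, hb, hb'⟩ := this
    exact ⟨b, hb, hb'⟩
  choose bZ hbZ_mem hbZ_red using hlift
  refine ⟨dedekindPsi N, modularFunctionFieldFull N, bZ, le_rfl,
    fun i => toQ_mem_full_of_mem_closure N (hbZ_mem i),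
    fun i => isIntegral_of_mem_closure N hrel (hbZ_mem i), hdeg, ?_⟩
  intro c hc
  have hli : LinearIndependent ↥((ZMod ℓ)⟮J⟯)
      (fun i : Fin (dedekindPsi N) => ((e.symm i : B) : LaurentSeries (ZMod ℓ))) :=
    hBli.comp _ e.symm.injective
  rw [Fintype.linearIndependent_iff] at hli
  have hsum : ∑ i, (toAdj J (c i)) • ((e.symm i : B) : LaurentSeries (ZMod ℓ)) = 0 := by
    rw [← hc]
    refine Finset.sum_congr rfl (fun i _ => ?_)
    rw [Algebra.smul_def, hbZ_red i]
    congr 1
    have e1 := algebraMap_comp_toAdj (k := ZMod ℓ) J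
    rw [← RingHom.comp_apply, e1]
    rfl
  funext i
  have h0 := hli _ hsum i
  have h1 : aeval J (c i) = 0 := by
    have e1 := algebraMap_comp_toAdj (k := ZMod ℓ) J
    have : algebraMap ↥((ZMod ℓ)⟮J⟯) (LaurentSeries (ZMod ℓ)) (toAdj J (c i)) = aeval J (c i) := by
      rw [← RingHom.comp_apply, e1]; rfl
    rw [← this, h0, map_zero]
  exact helper3292.aeval_jqModC_injective (ZMod ℓ) (by rw [h1, Pi.zero_apply, map_zero])

end Final

end Fermat.Agent.S28.helper1595
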