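/-
helper1448 — S28 (Igusa): the characteristic-zero degree bound by Sturm counting.

If `F, H` are modular forms of the same weight on `Γ₀(N)` with `H ≠ 0`, then the quotient of
their `q`-expansions is a root of a nonzero polynomial of degree at most
`[SL₂(ℤ) : Γ₀(N)]` over `ℂ[j]`.  No cusp expansions, no cosets: only the Sturm bound
`ModularForm.sturm_bound_Gamma0` of the Prelude.
-/
import Mathlib
import Fermat.Prelude.Thm_ModularForm_sturm_bound_Gamma0

set_option autoImplicit false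

open UpperHalfPlane ModularForm CongruenceSubgroup
open scoped MatrixGroups ModularForm

namespace Fermat.Agent.S28.helper1448

noncomputable section

/-- `Γ₀(N)` as a subgroup of `GL(2,ℝ)` (the shape used by the Prelude Sturm bound). -/
abbrev G0 (N : ℕ) : Subgroup (GL (Fin 2) ℝ) :=
  (Gamma0 N).map (Matrix.SpecialLinearGroup.mapGL ℝ)

/-- Function-level modular forms of weight `k` on `Γ₀(N)`. -/
def IsMF (N : ℕ) (k : ℤ) (g : ℍ → ℂ) : Prop :=
  ∃ G : ModularForm (G0 N) k, ⇑G = g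

namespace IsMF

variable {N : ℕ} {k k₁ k₂ : ℤ} {g g₁ g₂ : ℍ → ℂ}

lemma zero : IsMF N k 0 := ⟨0, rfl⟩

lemma add (h₁ : IsMF N k g₁) (h₂ : IsMF N k g₂) : IsMF N k (g₁ + g₂) := by
  obtain ⟨G₁, rfl⟩ := h₁
  obtain ⟨G₂, rfl⟩ := h₂
  exact ⟨G₁ + G₂, rfl⟩

lemma smul (c : ℂ) (h : IsMF N k g) : IsMF N k (c • g) := by
  obtain ⟨G, rfl⟩ := h
  exact ⟨c • G, rfl⟩

lemma mul (h₁ : IsMF N k₁ g₁) (h₂ : IsMF N k₂ g₂) : IsMF N (k₁ + k₂) (g₁ * g₂) := by
  obtain ⟨G₁, rfl⟩ := h₁
  obtain ⟨G₂, rfl⟩ := h₂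
  exact ⟨G₁.mul G₂, rfl⟩

lemma one : IsMF N 0 1 := ⟨1, rfl⟩

lemma cast (h : IsMF N k₁ g) (e : k₁ = k₂) : IsMF N k₂ g := e ▸ h

lemma pow (h : IsMF N k g) (n : ℕ) : IsMF N (n * k) (g ^ n) := by
  induction n with
  | zero => simpa using (one : IsMF N 0 1)
  | succ n ih =>
    rw [pow_succ]
    exact (ih.mul h).cast (by push_cast; ring)

lemma sum {ι : Type*} (s : Finset ι) (f : ι → ℍ → ℂ) (h : ∀ i ∈ s, IsMF N k (f i)) :
    IsMF N k (∑ i ∈ s, f i) := by
  classical
  induction s using Finset.induction_on with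
  | empty => simpa using (zero : IsMF N k 0)
  | insert a s ha ih =>
    rw [Finset.sum_insert ha]
    exact (h a (Finset.mem_insert_self a s)).add
      (ih fun i hi => h i (Finset.mem_insert_of_mem hi))

lemma one_mem_strictPeriods (N : ℕ) : (1 : ℝ) ∈ (G0 N).strictPeriods := by simp

lemma analyticAt (h : IsMF N k g) : AnalyticAt ℂ (cuspFunction 1 g) 0 := by
  obtain ⟨G, rfl⟩ := h
  exact ModularFormClass.analyticAt_cuspFunction_zero G one_pos (one_mem_strictPeriods N)

lemma qExpansion_mul (h₁ : IsMF N k₁ g₁) (h₂ : IsMF N k₂ g₂) :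
    qExpansion 1 (g₁ * g₂) = qExpansion 1 g₁ * qExpansion 1 g₂ :=
  UpperHalfPlane.qExpansion_mul h₁.analyticAt h₂.analyticAt

lemma qExpansion_add (h₁ : IsMF N k₁ g₁) (h₂ : IsMF N k₂ g₂) :
    qExpansion 1 (g₁ + g₂) = qExpansion 1 g₁ + qExpansion 1 g₂ :=
  UpperHalfPlane.qExpansion_add h₁.analyticAt h₂.analyticAt

lemma qExpansion_smul (c : ℂ) (h : IsMF N k g) :
    qExpansion 1 (c • g) = c • qExpansion 1 g :=
  UpperHalfPlane.qExpansion_smul h.analyticAt c

lemma qExpansion_pow (h : IsMF N k g) (n : ℕ) :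
    qExpansion 1 (g ^ n) = qExpansion 1 g ^ n := by
  induction n with
  | zero => simpa using UpperHalfPlane.qExpansion_one 1
  | succ n ih => rw [pow_succ, (h.pow n).qExpansion_mul h, ih, pow_succ]

lemma qExpansion_sum {ι : Type*} (s : Finset ι) (f : ι → ℍ → ℂ)
    (h : ∀ i ∈ s, IsMF N k (f i)) :
    qExpansion 1 (∑ i ∈ s, f i) = ∑ i ∈ s, qExpansion 1 (f i) := by
  classical
  induction s using Finset.induction_on with
  | empty => simpa using UpperHalfPlane.qExpansion_zero 1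
  | insert a s ha ih =>
    rw [Finset.sum_insert ha, Finset.sum_insert ha,
      (h a (Finset.mem_insert_self a s)).qExpansion_add
        (sum s f fun i hi => h i (Finset.mem_insert_of_mem hi)),
      ih fun i hi => h i (Finset.mem_insert_of_mem hi)]

/-- The Prelude Sturm bound, function-level. -/
lemma eq_zero_of_coeff [NeZero N] (h : IsMF N k g)
    (h0 : ∀ n : ℕ, n ≤ (k * (Gamma0 N).index).toNat / 12 → (qExpansion 1 g).coeff n = 0) :
    g = 0 := by
  obtain ⟨G, rfl⟩ := h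
  have := ModularForm.sturm_bound_Gamma0 N G h0
  rw [this]
  rfl

lemma qExpansion_eq_zero_iff (h : IsMF N k g) : qExpansion 1 g = 0 ↔ g = 0 := by
  obtain ⟨G, rfl⟩ := h
  rw [ModularForm.qExpansion_eq_zero_iff one_pos (one_mem_strictPeriods N)]
  exact ⟨fun h => by rw [h]; rfl, fun h => DFunLike.coe_injective h⟩

/-- Restriction of a level-one form. -/
lemma of_levelOne (N : ℕ) (f : ModularForm 𝒮ℒ k) : IsMF N k f := by
  have hle : G0 N ≤ 𝒮ℒ := Subgroup.map_le_range _ _
  exact ⟨{ toFun := f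
           slash_action_eq' := fun γ hγ => f.slash_action_eq' γ (hle hγ)
           holo' := f.holo'
           bdd_at_cusps' := fun hc => f.bdd_at_cusps' (hc.mono hle) }, rfl⟩

end IsMF

local notation "Δ" => ModularForm.discriminant

lemma isMF_E4 (N : ℕ) : IsMF N 4 E₄ := IsMF.of_levelOne N E₄

lemma isMF_discriminant (N : ℕ) : IsMF N 12 Δ :=
  IsMF.of_levelOne N (ModularFormClass.modularForm CuspForm.discriminant)

/-- **Sturm counting.** Two modular forms `F, H` of the same weight on `Γ₀(N)` satisfy, together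
with `E₄` and `Δ`, a nontrivial bihomogeneous relation of degree `≤ [SL₂(ℤ):Γ₀(N)]` in `(F, H)`. -/
theorem exists_relation (N : ℕ) [NeZero N] {k : ℤ} {F H : ℍ → ℂ}
    (hF : IsMF N k F) (hH : IsMF N k H) :
    ∃ (D : ℕ) (c : Fin (D + 1) → Fin ((Gamma0 N).index + 1) → ℂ), c ≠ 0 ∧
      ∑ a : Fin (D + 1), ∑ i : Fin ((Gamma0 N).index + 1),
        c a i • (qExpansion 1 E₄ ^ (3 * (a : ℕ)) * qExpansion 1 Δ ^ (D - (a : ℕ)) *
          qExpansion 1 F ^ (i : ℕ) * qExpansion 1 H ^ ((Gamma0 N).index - (i : ℕ))) = 0 := by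
  classical
  set m : ℕ := (Gamma0 N).index with hm
  set kn : ℕ := k.toNat with hkn
  set D : ℕ := kn * m ^ 2 + 1 with hD
  set w : ℤ := 12 * D + k * m with hw
  set B : ℕ := (w * m).toNat / 12 with hB
  -- the basis functions
  let b : Fin (D + 1) → Fin (m + 1) → ℍ → ℂ := fun a i =>
    (E₄ : ℍ → ℂ) ^ (3 * (a : ℕ)) * Δ ^ (D - (a : ℕ)) * F ^ (i : ℕ) * H ^ (m - (i : ℕ))
  have hb : ∀ a i, IsMF N w (b a i) := by
    intro a i
    have ha : (a : ℕ) ≤ D := Nat.lt_succ_iff.mp a.2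
    have hi : (i : ℕ) ≤ m := Nat.lt_succ_iff.mp i.2
    refine ((((isMF_E4 N).pow (3 * (a : ℕ))).mul ((isMF_discriminant N).pow (D - (a : ℕ)))).mul
      (hF.pow (i : ℕ))).mul (hH.pow (m - (i : ℕ))) |>.cast ?_
    rw [hw]
    push_cast [Nat.cast_sub ha, Nat.cast_sub hi]
    ring
  let p : Fin (D + 1) → Fin (m + 1) → PowerSeries ℂ := fun a i =>
    qExpansion 1 E₄ ^ (3 * (a : ℕ)) * qExpansion 1 Δ ^ (D - (a : ℕ)) *
      qExpansion 1 F ^ (i : ℕ) * qExpansion 1 H ^ (m - (i : ℕ))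
  have hp : ∀ a i, qExpansion 1 (b a i) = p a i := by
    intro a i
    have h1 := (isMF_E4 N).pow (3 * (a : ℕ))
    have h2 := (isMF_discriminant N).pow (D - (a : ℕ))
    have h3 := hF.pow (i : ℕ)
    have h4 := hH.pow (m - (i : ℕ))
    simp only [b, p]
    rw [((h1.mul h2).mul h3).qExpansion_mul h4, (h1.mul h2).qExpansion_mul h3,
      h1.qExpansion_mul h2, (isMF_E4 N).qExpansion_pow, (isMF_discriminant N).qExpansion_pow,
      hF.qExpansion_pow, hH.qExpansion_pow]
  -- the linear map "first `B+1` coefficients"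
  let T : (Fin (D + 1) → Fin (m + 1) → ℂ) →ₗ[ℂ] (Fin (B + 1) → ℂ) :=
    { toFun := fun c n => PowerSeries.coeff (n : ℕ) (∑ a, ∑ i, c a i • p a i)
      map_add' := by
        intro c c'
        funext n
        simp only [Pi.add_apply, add_smul, Finset.sum_add_distrib, map_add]
      map_smul' := by
        intro r c
        funext n
        simp only [Pi.smul_apply, smul_eq_mul, mul_smul, ← Finset.smul_sum, RingHom.id_apply,
          PowerSeries.coeff_smul] }
  have hdim : Module.finrank ℂ (Fin (B + 1) → ℂ) <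
      Module.finrank ℂ (Fin (D + 1) → Fin (m + 1) → ℂ) := by
    have e1 : Module.finrank ℂ (Fin (D + 1) → Fin (m + 1) → ℂ) = (D + 1) * (m + 1) := by
      simp [Module.finrank_pi_fintype]
    rw [e1, Module.finrank_fin_fun]
    have h1 : w * m ≤ (((12 * D + kn * m) * m : ℕ) : ℤ) := by
      have hk : k ≤ (kn : ℤ) := Int.self_le_toNat k
      have hm0 : (0 : ℤ) ≤ (m : ℤ) := Int.natCast_nonneg m
      rw [hw]
      push_cast
      nlinarith [mul_le_mul_of_nonneg_right hk hm0,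
        mul_le_mul_of_nonneg_right (mul_le_mul_of_nonneg_right hk hm0) hm0]
    have h2 : (w * m).toNat ≤ (12 * D + kn * m) * m := Int.toNat_le.mpr h1
    have h3 : B ≤ D * m + kn * m ^ 2 := by
      rw [hB]
      refine Nat.div_le_of_le_mul (h2.trans ?_)
      nlinarith [Nat.zero_le (kn * m ^ 2)]
    have h4 : kn * m ^ 2 + 1 = D := hD.symm
    nlinarith
  obtain ⟨c, hcker, hc0⟩ := Submodule.exists_mem_ne_zero_of_ne_bot (T.ker_ne_bot_of_finrank_lt hdim)
  refine ⟨D, c, hc0, ?_⟩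
  -- the corresponding modular form vanishes by Sturm
  set g : ℍ → ℂ := ∑ a, ∑ i, c a i • b a i with hg
  have hgMF : IsMF N w g :=
    IsMF.sum _ _ fun a _ => IsMF.sum _ _ fun i _ => (hb a i).smul (c a i)
  have hgq : qExpansion 1 g = ∑ a, ∑ i, c a i • p a i := by
    rw [hg, IsMF.qExpansion_sum (N := N) (k := w) _ _
      fun a _ => IsMF.sum _ _ fun i _ => (hb a i).smul (c a i)]
    refine Finset.sum_congr rfl fun a _ => ?_
    rw [IsMF.qExpansion_sum (N := N) (k := w) _ _ fun i _ => (hb a i).smul (c a i)]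
    refine Finset.sum_congr rfl fun i _ => ?_
    rw [(hb a i).qExpansion_smul, hp]
  have hg0 : g = 0 := by
    refine hgMF.eq_zero_of_coeff fun n hn => ?_
    have := congrFun (LinearMap.mem_ker.mp hcker) ⟨n, Nat.lt_succ_of_le hn⟩
    rw [hgq]
    exact this
  have : qExpansion 1 g = 0 := by rw [hg0]; exact UpperHalfPlane.qExpansion_zero 1
  rw [hgq] at this
  exact this

end

end Fermat.Agent.S28.helper1448
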