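import Mathlib
import Fermat.Prelude.Def_ModularCurve_JqCoeff
import Fermat.Prelude.Def_ModularCurve_LaurentCoeff
import Fermat.Prelude.Thm_ModularCurve_coeffMap_qExpand

/-!
# S28 (route E): the formal eta quotient

Over any commutative ring `R`:
* `qE R d` : total version of the Prelude `qExpand R d` (`q ↦ q^d`; identity for `d = 0`);
* `deltaS R = q ∏ (1 - q^n)^24`, a unit `deltaU R` of `R((q))`;
* `etaW R N r = ∏_{δ ∣ N} Δ(q^δ)^(r δ)` as a unit of `R((q))`;
* `IsLead x k` : `x = q^k (1 + O(q))`; `isLead_etaW : IsLead (etaW R N r) (∑ r δ * δ)`;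
* compatibility with coefficient maps.
-/

set_option autoImplicit false

open ModularCurve HahnSeries

noncomputable section

namespace Fermat.Agent.S28.helper2346

variable (R : Type*) [CommRing R]

/-- Total version of `qExpand`: the substitution `q ↦ q^d` (identity if `d = 0`). -/
def qE (d : ℕ) : LaurentSeries R →+* LaurentSeries R :=
  if h : d = 0 then RingHom.id _ else @qExpand R _ d ⟨h⟩

theorem qE_eq (d : ℕ) [NeZero d] : qE R d = qExpand R d := by
  unfold qE
  rw [dif_neg (NeZero.ne d)]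

variable {R} in
theorem coeffMap_qE {S : Type*} [CommRing S] (f : R →+* S) (d : ℕ) (x : LaurentSeries R) :
    coeffMap f (qE R d x) = qE S d (coeffMap f x) := by
  by_cases h : d = 0
  · simp [qE, h]
  · have : NeZero d := ⟨h⟩
    rw [qE_eq, qE_eq, coeffMap_qExpand]

/-- The `q`-expansion of the substitution `q ↦ q^d` on a power series. -/
theorem qExpand_ofPowerSeries (d : ℕ) [NeZero d] (U : PowerSeries R) :
    qExpand R d (HahnSeries.ofPowerSeries ℤ R U) = HahnSeries.ofPowerSeries ℤ R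
      (PowerSeries.mk fun n => if d ∣ n then PowerSeries.coeff (n / d) U else 0) := by
  have hd : 0 < d := Nat.pos_of_ne_zero (NeZero.ne d)
  ext k
  by_cases hk : (d : ℤ) ∣ k
  · obtain ⟨j, rfl⟩ := hk
    rw [qExpand_coeff_mul]
    rcases le_or_gt 0 j with hj | hj
    · lift j to ℕ using hj
      have h1 : (d : ℤ) * (j : ℤ) = ((d * j : ℕ) : ℤ) := by push_cast; ring
      rw [h1, HahnSeries.ofPowerSeries_apply_coeff, HahnSeries.ofPowerSeries_apply_coeff,
        PowerSeries.coeff_mk, if_pos (Dvd.intro j rfl), Nat.mul_div_cancel_left j hd]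
    · rw [ofPowerSeries_coeff_of_neg _ hj, ofPowerSeries_coeff_of_neg]
      have : (0 : ℤ) < d := by exact_mod_cast hd
      nlinarith
  · rw [qExpand_coeff_of_not_dvd _ _ hk]
    rcases le_or_gt 0 k with hk0 | hk0
    · lift k to ℕ using hk0
      rw [HahnSeries.ofPowerSeries_apply_coeff, PowerSeries.coeff_mk, if_neg]
      intro h
      exact hk (Int.natCast_dvd_natCast.mpr h)
    · rw [ofPowerSeries_coeff_of_neg _ hk0]

/-! ## The discriminant series -/

/-- `Δ = q ∏ (1 - q^n)^24` over `R`. -/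
def deltaS : LaurentSeries R :=
  HahnSeries.single (1 : ℤ) 1 *
    HahnSeries.ofPowerSeries ℤ R (dedekindEtaUnit.map (Int.castRingHom R))

/-- `1 / Δ` over `R`. -/
def deltaSInv : LaurentSeries R :=
  HahnSeries.single (-1 : ℤ) 1 *
    HahnSeries.ofPowerSeries ℤ R (dedekindEtaUnitInv.map (Int.castRingHom R))

theorem deltaS_mul_inv : deltaS R * deltaSInv R = 1 := by
  have h := congrArg (PowerSeries.map (Int.castRingHom R)) dedekindEtaUnit_mul_inv
  rw [map_mul, map_one] at h
  have e : deltaS R * deltaSInv R = (HahnSeries.single (1 : ℤ) (1 : R) * HahnSeries.single (-1 : ℤ) 1) *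
      (HahnSeries.ofPowerSeries ℤ R (dedekindEtaUnit.map (Int.castRingHom R)) *
        HahnSeries.ofPowerSeries ℤ R (dedekindEtaUnitInv.map (Int.castRingHom R))) := by
    rw [deltaS, deltaSInv]; ring
  rw [e, ← map_mul, h, map_one (HahnSeries.ofPowerSeries ℤ R), mul_one, HahnSeries.single_mul_single]
  simp

/-- `Δ` as a unit of `R((q))`. -/
def deltaU : (LaurentSeries R)ˣ :=
  ⟨deltaS R, deltaSInv R, deltaS_mul_inv R, by rw [mul_comm]; exact deltaS_mul_inv R⟩

theorem coe_deltaU : ((deltaU R : (LaurentSeries R)ˣ) : LaurentSeries R) = deltaS R := rfl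

theorem coeffMap_ofPowerSeries {S : Type*} [CommRing S] (f : R →+* S) (U : PowerSeries R) :
    coeffMap f (HahnSeries.ofPowerSeries ℤ R U) = HahnSeries.ofPowerSeries ℤ S (U.map f) := by
  ext k
  rw [coeffMap_coeff]
  rcases le_or_gt 0 k with hk | hk
  · lift k to ℕ using hk
    rw [HahnSeries.ofPowerSeries_apply_coeff, HahnSeries.ofPowerSeries_apply_coeff,
      PowerSeries.coeff_map]
  · rw [ofPowerSeries_coeff_of_neg _ hk, ofPowerSeries_coeff_of_neg _ hk, map_zero]

theorem map_map_intCast {S : Type*} [CommRing S] (f : R →+* S) (U : PowerSeries ℤ) :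
    (U.map (Int.castRingHom R)).map f = U.map (Int.castRingHom S) := by
  ext n
  simp

variable {R} in
theorem coeffMap_deltaS {S : Type*} [CommRing S] (f : R →+* S) :
    coeffMap f (deltaS R) = deltaS S := by
  rw [deltaS, deltaS, map_mul, coeffMap_single, map_one, coeffMap_ofPowerSeries, map_map_intCast]

/-! ## The formal eta quotient -/

/-- The formal eta quotient `∏_{δ ∣ N} Δ(q^δ)^(r δ)`, a unit of `R((q))`. -/
def etaW (N : ℕ) (r : ℕ → ℤ) : (LaurentSeries R)ˣ :=
  ∏ δ ∈ N.divisors, (Units.map (qE R δ : LaurentSeries R →* LaurentSeries R) (deltaU R)) ^ r δ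

variable {R} in
theorem coeffMap_etaW {S : Type*} [CommRing S] (f : R →+* S) (N : ℕ) (r : ℕ → ℤ) :
    Units.map (coeffMap f : LaurentSeries R →* LaurentSeries S) (etaW R N r) = etaW S N r := by
  unfold etaW
  rw [map_prod]
  refine Finset.prod_congr rfl fun δ _ => ?_
  rw [map_zpow]
  congr 1
  ext1
  simp only [Units.coe_map, MonoidHom.coe_coe, coe_deltaU]
  rw [coeffMap_qE, coeffMap_deltaS]

variable {R} in
theorem coeffMap_etaW_val {S : Type*} [CommRing S] (f : R →+* S) (N : ℕ) (r : ℕ → ℤ) :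
    coeffMap f (etaW R N r : LaurentSeries R) = (etaW S N r : LaurentSeries S) := by
  rw [← coeffMap_etaW f N r]
  rfl

/-! ## Leading terms -/

variable {R}

/-- `x = q^k (1 + O(q))`. -/
def IsLead (x : LaurentSeries R) (k : ℤ) : Prop :=
  ∃ U : PowerSeries R, PowerSeries.constantCoeff U = 1 ∧
    x = HahnSeries.single k 1 * HahnSeries.ofPowerSeries ℤ R U

theorem IsLead.one : IsLead (1 : LaurentSeries R) 0 :=
  ⟨1, by simp, by simp⟩

theorem IsLead.mul {x y : LaurentSeries R} {k l : ℤ} (hx : IsLead x k) (hy : IsLead y l) :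
    IsLead (x * y) (k + l) := by
  obtain ⟨U, hU, rfl⟩ := hx
  obtain ⟨V, hV, rfl⟩ := hy
  refine ⟨U * V, by rw [map_mul, hU, hV, mul_one], ?_⟩
  rw [map_mul, mul_mul_mul_comm, HahnSeries.single_mul_single, mul_one]

theorem IsLead.coeff_self {x : LaurentSeries R} {k : ℤ} (hx : IsLead x k) : x.coeff k = 1 := by
  obtain ⟨U, hU, rfl⟩ := hx
  rw [HahnSeries.coeff_single_mul, sub_self, one_mul]
  have : (HahnSeries.ofPowerSeries ℤ R U).coeff ((0 : ℕ) : ℤ) = PowerSeries.coeff 0 U :=
    HahnSeries.ofPowerSeries_apply_coeff U 0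
  rw [Nat.cast_zero] at this
  rw [this, PowerSeries.coeff_zero_eq_constantCoeff_apply, hU]

theorem IsLead.coeff_of_lt {x : LaurentSeries R} {k : ℤ} (hx : IsLead x k) {m : ℤ} (hm : m < k) :
    x.coeff m = 0 := by
  obtain ⟨U, hU, rfl⟩ := hx
  rw [HahnSeries.coeff_single_mul, ofPowerSeries_coeff_of_neg _ (by omega), mul_zero]

theorem IsLead.unit_inv {u : (LaurentSeries R)ˣ} {k : ℤ} (hu : IsLead (u : LaurentSeries R) k) :
    IsLead ((u⁻¹ : (LaurentSeries R)ˣ) : LaurentSeries R) (-k) := by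
  obtain ⟨U, hU, hx⟩ := hu
  have hUV : U * U.invOfUnit 1 = 1 := PowerSeries.mul_invOfUnit U 1 (by rw [hU]; rfl)
  have hVc : PowerSeries.constantCoeff (U.invOfUnit 1) = 1 := by
    have h := congrArg (PowerSeries.constantCoeff (R := R)) hUV
    rwa [map_mul, hU, one_mul, map_one] at h
  refine ⟨U.invOfUnit 1, hVc, ?_⟩
  have hprod : (u : LaurentSeries R) *
      (HahnSeries.single (-k) 1 * HahnSeries.ofPowerSeries ℤ R (U.invOfUnit 1)) = 1 := by
    have e : (HahnSeries.single k (1 : R) * HahnSeries.ofPowerSeries ℤ R U) *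
        (HahnSeries.single (-k) 1 * HahnSeries.ofPowerSeries ℤ R (U.invOfUnit 1))
        = (HahnSeries.single k (1 : R) * HahnSeries.single (-k) 1) *
          (HahnSeries.ofPowerSeries ℤ R U * HahnSeries.ofPowerSeries ℤ R (U.invOfUnit 1)) := by
      ring
    rw [hx, e, ← map_mul, hUV, map_one (HahnSeries.ofPowerSeries ℤ R), mul_one,
      HahnSeries.single_mul_single]
    simp
  exact (Units.inv_eq_of_mul_eq_one_right hprod)

theorem IsLead.unit_pow {u : (LaurentSeries R)ˣ} {k : ℤ} (hu : IsLead (u : LaurentSeries R) k)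
    (n : ℕ) : IsLead ((u ^ n : (LaurentSeries R)ˣ) : LaurentSeries R) (n * k) := by
  induction n with
  | zero => simpa using IsLead.one (R := R)
  | succ n ih =>
    rw [pow_succ, Units.val_mul]
    have := ih.mul hu
    have e : (n : ℤ) * k + k = ((n + 1 : ℕ) : ℤ) * k := by push_cast; ring
    rwa [e] at this

theorem IsLead.unit_zpow {u : (LaurentSeries R)ˣ} {k : ℤ} (hu : IsLead (u : LaurentSeries R) k)
    (z : ℤ) : IsLead ((u ^ z : (LaurentSeries R)ˣ) : LaurentSeries R) (z * k) := by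
  obtain ⟨n, rfl | rfl⟩ := z.eq_nat_or_neg
  · simpa using hu.unit_pow n
  · rw [zpow_neg, zpow_natCast]
    have := (hu.unit_pow n).unit_inv
    simpa using this

theorem IsLead.unit_prod {ι : Type*} (s : Finset ι) {u : ι → (LaurentSeries R)ˣ} {k : ι → ℤ}
    (h : ∀ i ∈ s, IsLead (u i : LaurentSeries R) (k i)) :
    IsLead ((∏ i ∈ s, u i : (LaurentSeries R)ˣ) : LaurentSeries R) (∑ i ∈ s, k i) := by
  classical
  induction s using Finset.induction_on with
  | empty => simpa using IsLead.one (R := R)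
  | insert a s ha ih =>
    rw [Finset.prod_insert ha, Finset.sum_insert ha, Units.val_mul]
    exact (h a (Finset.mem_insert_self a s)).mul (ih fun i hi => h i (Finset.mem_insert_of_mem hi))

theorem IsLead.qE {x : LaurentSeries R} {k : ℤ} (hx : IsLead x k) (d : ℕ) (hd : d ≠ 0) :
    IsLead (qE R d x) (d * k) := by
  have : NeZero d := ⟨hd⟩
  obtain ⟨U, hU, rfl⟩ := hx
  refine ⟨PowerSeries.mk fun n => if d ∣ n then PowerSeries.coeff (n / d) U else 0, ?_, ?_⟩
  · rw [← PowerSeries.coeff_zero_eq_constantCoeff_apply, PowerSeries.coeff_mk]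
    simp [hU]
  · rw [qE_eq, map_mul, qExpand_single, qExpand_ofPowerSeries]

theorem isLead_deltaS : IsLead (deltaS R) 1 := by
  refine ⟨dedekindEtaUnit.map (Int.castRingHom R), ?_, rfl⟩
  rw [← PowerSeries.coeff_zero_eq_constantCoeff_apply, PowerSeries.coeff_map,
    PowerSeries.coeff_zero_eq_constantCoeff_apply, constantCoeff_dedekindEtaUnit]
  simp

theorem isLead_etaW (N : ℕ) (r : ℕ → ℤ) :
    IsLead (etaW R N r : LaurentSeries R) (∑ δ ∈ N.divisors, r δ * δ) := by
  unfold etaW
  refine IsLead.unit_prod _ fun δ hδ => ?_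
  have hδ0 : δ ≠ 0 := (Nat.pos_of_mem_divisors hδ).ne'
  have h1 : IsLead ((Units.map (qE R δ : LaurentSeries R →* LaurentSeries R) (deltaU R) :
      (LaurentSeries R)ˣ) : LaurentSeries R) ((δ : ℤ) * 1) := by
    simp only [Units.coe_map, MonoidHom.coe_coe, coe_deltaU]
    exact isLead_deltaS.qE δ hδ0
  have := h1.unit_zpow (r δ)
  rwa [mul_one] at this

end Fermat.Agent.S28.helper2346

end
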