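import Fermat.Agent.S28.helper2346_EtaOrbit
import Fermat.Agent.S28.helper2346_FormalEta
import Fermat.Agent.S24.helper315_CuspExp

/-!
# S28 (route E): the dictionary at the cusp `∞` (period `1`)

`HasExp f s` : `f : ℍ → ℂ` is holomorphic, `1`-periodic, meromorphic at `i∞`, with Laurent
expansion `s ∈ ℂ((q))` (built on `S24.helper315.cuspExpFun 1`).  It is compatible with sums,
products and constants; we compute the expansions of `j`, `j(dτ)`, `Δ(dτ)`, of the eta quotients
and of polynomials in `j`, and show that a function tending to `0` at `i∞` has an expansion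
with vanishing coefficients at exponents `≤ 0`.
-/

set_option autoImplicit false

open UpperHalfPlane hiding I
open ModularForm Filter Complex CongruenceSubgroup EisensteinSeries
open scoped Manifold Topology MatrixGroups Real

noncomputable section

namespace Fermat.Agent.S28.helper2346

open Fermat.Agent.S24 Fermat.Agent.S24.helper315 ModularCurve

/-- `f` is meromorphic at the cusp (period `1`) with Laurent expansion `s`. -/
def HasExp (f : ℍ → ℂ) (s : LaurentSeries ℂ) : Prop :=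
  IsCuspMer 1 f ∧ cuspExpFun 1 f = s

theorem HasExp.const (c : ℂ) : HasExp (fun _ => c) (HahnSeries.C c) :=
  ⟨(IsCuspHol.const 1 c).isCuspMer, cuspExpFun_const one_pos c⟩

theorem HasExp.add {f g : ℍ → ℂ} {s t : LaurentSeries ℂ} (hf : HasExp f s) (hg : HasExp g t) :
    HasExp (fun τ => f τ + g τ) (s + t) := by
  obtain ⟨hf1, rfl⟩ := hf
  obtain ⟨hg1, rfl⟩ := hg
  exact ⟨hf1.add one_pos hg1, cuspExpFun_add one_pos hf1 hg1⟩

theorem HasExp.mul {f g : ℍ → ℂ} {s t : LaurentSeries ℂ} (hf : HasExp f s) (hg : HasExp g t) :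
    HasExp (fun τ => f τ * g τ) (s * t) := by
  obtain ⟨hf1, rfl⟩ := hf
  obtain ⟨hg1, rfl⟩ := hg
  exact ⟨hf1.mul hg1, cuspExpFun_mul one_pos hf1 hg1⟩

theorem HasExp.pow {f : ℍ → ℂ} {s : LaurentSeries ℂ} (hf : HasExp f s) (n : ℕ) :
    HasExp (fun τ => f τ ^ n) (s ^ n) := by
  induction n with
  | zero =>
    simp only [pow_zero]
    have := HasExp.const 1
    rwa [map_one] at this
  | succ n ih =>
    simp only [pow_succ]
    exact ih.mul hf

theorem HasExp.finset_sum {ι : Type*} (u : Finset ι) {f : ι → ℍ → ℂ} {s : ι → LaurentSeries ℂ}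
    (h : ∀ i ∈ u, HasExp (f i) (s i)) : HasExp (fun τ => ∑ i ∈ u, f i τ) (∑ i ∈ u, s i) := by
  classical
  induction u using Finset.induction_on with
  | empty =>
    simp only [Finset.sum_empty]
    have := HasExp.const 0
    rwa [map_zero] at this
  | insert a u ha ih =>
    simp only [Finset.sum_insert ha]
    exact (h a (Finset.mem_insert_self a u)).add (ih fun i hi => h i (Finset.mem_insert_of_mem hi))

theorem HasExp.finset_prod {ι : Type*} (u : Finset ι) {f : ι → ℍ → ℂ} {s : ι → LaurentSeries ℂ}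
    (h : ∀ i ∈ u, HasExp (f i) (s i)) : HasExp (fun τ => ∏ i ∈ u, f i τ) (∏ i ∈ u, s i) := by
  classical
  induction u using Finset.induction_on with
  | empty =>
    simp only [Finset.prod_empty]
    have := HasExp.const 1
    rwa [map_one] at this
  | insert a u ha ih =>
    simp only [Finset.prod_insert ha]
    exact (h a (Finset.mem_insert_self a u)).mul (ih fun i hi => h i (Finset.mem_insert_of_mem hi))

theorem HasExp.unique {f : ℍ → ℂ} {s t : LaurentSeries ℂ} (hf : HasExp f s) (hg : HasExp f t) :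
    s = t := hf.2.symm.trans hg.2

theorem HasExp.congr {f g : ℍ → ℂ} {s : LaurentSeries ℂ} (hf : HasExp f s) (h : ∀ τ, f τ = g τ) :
    HasExp g s := by
  have : f = g := funext h
  rwa [← this]

/-! ## Expansions given by convergent series -/

/-- `q^m f` is given by the convergent power series `∑ c n q^n` on `ℍ`. -/
def HasQSum (f : ℍ → ℂ) (m : ℕ) (c : ℕ → ℂ) : Prop :=
  MDiff f ∧ ∀ τ : ℍ, HasSum (fun n : ℕ => c n * qH 1 τ ^ n) (qH 1 τ ^ m * f τ)

theorem HasQSum.hPeriodic {f : ℍ → ℂ} {m : ℕ} {c : ℕ → ℂ} (h : HasQSum f m c) :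
    HPeriodic 1 f := by
  intro τ
  have h1 := h.2 ((1 : ℝ) +ᵥ τ)
  have hq : qH 1 ((1 : ℝ) +ᵥ τ) = qH 1 τ := hPeriodic_qH one_ne_zero τ
  rw [hq] at h1
  have h2 := h1.unique (h.2 τ)
  exact mul_left_cancel₀ (pow_ne_zero m (qH_ne_zero 1 τ)) h2

theorem HasQSum.hasExp {f : ℍ → ℂ} {m : ℕ} {c : ℕ → ℂ} (h : HasQSum f m c) :
    HasExp f (HahnSeries.single (-(m : ℤ)) (1 : ℂ) *
      HahnSeries.ofPowerSeries ℤ ℂ (PowerSeries.mk c)) := by
  obtain ⟨h1, h2⟩ := cuspExpFun_eq_of_hasSum one_pos h.1 h.hPeriodic h.2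
  exact ⟨⟨m, h1⟩, h2⟩

theorem qH_affH (d : ℕ) (hd : 0 < d) (τ : ℍ) : qH 1 (affH d 0 1 τ) = qH 1 τ ^ d := by
  rw [qH_apply, qH_apply, coe_affH hd one_pos, Function.Periodic.qParam, Function.Periodic.qParam,
    ← Complex.exp_nat_mul]
  congr 1
  push_cast
  ring

/-- The substitution `τ ↦ dτ`. -/
theorem HasQSum.scale {f : ℍ → ℂ} {m : ℕ} {c : ℕ → ℂ} (h : HasQSum f m c) (d : ℕ) (hd : 0 < d) :
    HasQSum (fun τ => f (affH d 0 1 τ)) (d * m)
      (fun n => if d ∣ n then c (n / d) else 0) := by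
  refine ⟨mdiff_comp_affH hd one_pos 0 h.1, fun τ => ?_⟩
  have h1 := h.2 (affH d 0 1 τ)
  rw [qH_affH d hd] at h1
  have hinj : Function.Injective (fun n : ℕ => d * n) := fun a b hab =>
    Nat.eq_of_mul_eq_mul_left hd hab
  have hzero : ∀ k ∉ Set.range (fun n : ℕ => d * n),
      (fun n : ℕ => (if d ∣ n then c (n / d) else 0) * qH 1 τ ^ n) k = 0 := by
    intro k hk
    have : ¬ d ∣ k := fun ⟨j, hj⟩ => hk ⟨j, hj.symm⟩
    simp [this]
  rw [← hinj.hasSum_iff hzero, pow_mul]
  have hfun : ((fun n : ℕ => (if d ∣ n then c (n / d) else 0) * qH 1 τ ^ n) ∘ fun n : ℕ => d * n)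
      = fun n : ℕ => c n * (qH 1 τ ^ d) ^ n := by
    funext n
    simp only [Function.comp_apply]
    rw [if_pos (Dvd.intro n rfl), Nat.mul_div_cancel_left n hd, pow_mul]
  rw [hfun]
  exact h1

theorem HasQSum.hasExp_scale {f : ℍ → ℂ} {m : ℕ} {c : ℕ → ℂ} (h : HasQSum f m c) (d : ℕ)
    (hd : 0 < d) :
    HasExp (fun τ => f (affH d 0 1 τ)) (qE ℂ d (HahnSeries.single (-(m : ℤ)) (1 : ℂ) *
      HahnSeries.ofPowerSeries ℤ ℂ (PowerSeries.mk c))) := by
  have : NeZero d := ⟨hd.ne'⟩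
  have h1 := (h.scale d hd).hasExp
  rw [qE_eq, map_mul, qExpand_single, qExpand_ofPowerSeries]
  have e : -(((d * m : ℕ)) : ℤ) = (d : ℤ) * -(m : ℤ) := by push_cast; ring
  rw [e] at h1
  have e2 : (PowerSeries.mk fun n => if d ∣ n then (PowerSeries.coeff (n / d)) (PowerSeries.mk c)
      else 0) = PowerSeries.mk (fun n => if d ∣ n then c (n / d) else 0) := by
    ext n
    simp
  rw [e2]
  exact h1

/-! ## The expansions of `j` and `Δ` -/

theorem hasQSum_jFun : HasQSum helper1644.jFun 1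
    (fun n => ((PowerSeries.coeff n jNumQ : ℚ) : ℂ)) := by
  refine ⟨helper1644.mdifferentiable_jFun, fun τ => ?_⟩
  have := helper1644.hasSum_jNumQ τ
  simpa [qH_apply] using this

theorem single_mul_ofPowerSeries_jNumQ :
    HahnSeries.single (-((1 : ℕ) : ℤ)) (1 : ℂ) * HahnSeries.ofPowerSeries ℤ ℂ
      (PowerSeries.mk fun n => ((PowerSeries.coeff n jNumQ : ℚ) : ℂ)) = jqModC ℂ := by
  rw [jqModC]
  congr 2
  ext n
  simp [jNumQ]

theorem hasExp_jFun : HasExp helper1644.jFun (jqModC ℂ) := by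
  have := hasQSum_jFun.hasExp
  rwa [single_mul_ofPowerSeries_jNumQ] at this

theorem hasExp_jScale (d : ℕ) (hd : 0 < d) :
    HasExp (fun τ => helper1644.jFun (affH d 0 1 τ)) (qE ℂ d (jqModC ℂ)) := by
  have := hasQSum_jFun.hasExp_scale d hd
  rwa [single_mul_ofPowerSeries_jNumQ] at this

theorem discriminant_eq_eulerFun (τ : ℍ) :
    discriminant τ = qH 1 τ * helper1644.eulerFun (qH 1 τ) ^ 24 := by
  have hmul : Multipliable fun n : ℕ => 1 - qH 1 τ ^ (n + 1) :=
    ModularForm.multipliable_one_sub_pow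
      (Function.Periodic.norm_qParam_lt_one one_pos τ.im_pos)
  rw [discriminant_eq_q_prod, helper1644.eulerFun, ← hmul.tprod_pow]
  rfl

/-- The function `q ↦ q ∏ (1 - q^n)^24` on the unit disc. -/
def deltaDisc (q : ℂ) : ℂ := q * helper1644.eulerFun q ^ 24

theorem differentiableOn_deltaDisc : DifferentiableOn ℂ deltaDisc (Metric.ball 0 1) :=
  differentiableOn_id.mul (helper1644.differentiableOn_eulerFun.pow 24)

theorem taylorPS_deltaDisc : helper1644.taylorPS deltaDisc
    = PowerSeries.X * (dedekindEtaUnit.map (Int.castRingHom ℂ)) := by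
  have hP := helper1644.differentiableOn_eulerFun.analyticAt helper1644.ball_mem_nhds_zero
  have hX : AnalyticAt ℂ (fun z : ℂ => z) 0 := analyticAt_id
  have h1 : deltaDisc = (fun z : ℂ => z) * helper1644.eulerFun ^ 24 := rfl
  have h2 := helper1644.taylorPS_polynomial Polynomial.X
  simp only [Polynomial.eval_X, Polynomial.coe_X] at h2
  rw [h1, helper1644.taylorPS_mul hX (hP.pow 24), helper1644.taylorPS_pow hP, h2,
    helper1644.taylorPS_eulerFun, dedekindEtaUnit, map_pow]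

theorem hasQSum_discriminant : HasQSum discriminant 0
    (fun n => PowerSeries.coeff n (PowerSeries.X * (dedekindEtaUnit.map (Int.castRingHom ℂ)))) := by
  refine ⟨mdiff_discriminant, fun τ => ?_⟩
  have hq : ‖qH 1 τ‖ < 1 := Function.Periodic.norm_qParam_lt_one one_pos τ.im_pos
  have h := helper1644.hasSum_taylorPS differentiableOn_deltaDisc hq
  rw [taylorPS_deltaDisc] at h
  rw [pow_zero, one_mul, discriminant_eq_eulerFun]
  exact h

theorem single_mul_ofPowerSeries_delta :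
    HahnSeries.single (-((0 : ℕ) : ℤ)) (1 : ℂ) * HahnSeries.ofPowerSeries ℤ ℂ
      (PowerSeries.mk fun n => PowerSeries.coeff n
        (PowerSeries.X * (dedekindEtaUnit.map (Int.castRingHom ℂ)))) = deltaS ℂ := by
  have h1 : (PowerSeries.mk fun n => PowerSeries.coeff n
      (PowerSeries.X * (dedekindEtaUnit.map (Int.castRingHom ℂ))))
      = PowerSeries.X * (dedekindEtaUnit.map (Int.castRingHom ℂ)) := by
    ext n; simp
  rw [h1, map_mul, HahnSeries.ofPowerSeries_X, deltaS]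
  simp

theorem hasExp_discriminant : HasExp discriminant (deltaS ℂ) := by
  have := hasQSum_discriminant.hasExp
  rwa [single_mul_ofPowerSeries_delta] at this

theorem hasExp_deltaScale (d : ℕ) (hd : 0 < d) :
    HasExp (fun τ => discriminant (affH d 0 1 τ)) (qE ℂ d (deltaS ℂ)) := by
  have := hasQSum_discriminant.hasExp_scale d hd
  rwa [single_mul_ofPowerSeries_delta] at this

/-! ## Modular functions are meromorphic at the cusp -/

theorem T_mem_Gamma0 (N : ℕ) : ModularGroup.T ∈ Gamma0 N := by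
  rw [Gamma0_mem]
  simp [ModularGroup.T]

theorem IsModFun.isCuspMer {N : ℕ} {f : ℍ → ℂ} (hf : IsModFun N f) : IsCuspMer 1 f := by
  obtain ⟨m, C, A, h⟩ := hf.growth 1
  refine ⟨m, ((mdiff_qH 1).pow m).mul hf.mdiff, ?_, ?_⟩
  · intro τ
    have h1 : f ((1 : ℝ) +ᵥ τ) = f τ := by
      rw [← UpperHalfPlane.modular_T_smul]
      exact hf.inv _ (T_mem_Gamma0 N) τ
    simp only [Pi.mul_apply, Pi.pow_apply]
    rw [hPeriodic_qH one_ne_zero τ, h1]
  · rw [isBoundedAtImInfty_iff]
    refine ⟨|C|, A, fun τ hτ => ?_⟩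
    have h2 := h τ hτ
    simp only [one_smul] at h2
    simp only [Pi.mul_apply, Pi.pow_apply]
    rw [norm_mul, norm_pow, qH_apply, Function.Periodic.norm_qParam]
    have h3 : ‖f τ‖ ≤ |C| * Real.exp (2 * π * m * τ.im) :=
      h2.trans (mul_le_mul_of_nonneg_right (le_abs_self C) (Real.exp_pos _).le)
    calc Real.exp (-2 * π * (τ : ℂ).im / 1) ^ m * ‖f τ‖
        ≤ Real.exp (-2 * π * (τ : ℂ).im / 1) ^ m * (|C| * Real.exp (2 * π * m * τ.im)) :=
          mul_le_mul_of_nonneg_left h3 (by positivity)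
      _ = |C| * (Real.exp (-2 * π * (τ : ℂ).im / 1) ^ m * Real.exp (2 * π * m * τ.im)) := by ring
      _ = |C| := by
          rw [← Real.exp_nat_mul, ← Real.exp_add, UpperHalfPlane.coe_im]
          have : (m : ℝ) * (-2 * π * τ.im / 1) + 2 * π * m * τ.im = 0 := by ring
          rw [this, Real.exp_zero, mul_one]

/-! ## Eta quotients -/

theorem hasExp_etaQ (N : ℕ) (r : ℕ → ℤ) (hr : ∑ δ ∈ N.divisors, r δ = 0) :
    HasExp (etaQ N r) (etaW ℂ N r : LaurentSeries ℂ) := by
  have hcm : IsCuspMer 1 (etaQ N r) := (isModFun_etaQ N r hr).isCuspMer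
  have h0 : HasExp (etaQ N r) (cuspExpFun 1 (etaQ N r)) := ⟨hcm, rfl⟩
  refine ⟨hcm, ?_⟩
  set u : ℕ → (LaurentSeries ℂ)ˣ := fun δ =>
    Units.map (qE ℂ δ : LaurentSeries ℂ →* LaurentSeries ℂ) (deltaU ℂ) with hu
  have hD : ∀ δ ∈ N.divisors,
      HasExp (fun τ => discriminant (affH δ 0 1 τ)) (u δ : LaurentSeries ℂ) := fun δ hδ =>
    hasExp_deltaScale δ (Nat.pos_of_mem_divisors hδ)
  have hfun : ∀ τ, etaQ N r τ * ∏ δ ∈ N.divisors, discriminant (affH δ 0 1 τ) ^ (-r δ).toNat
      = ∏ δ ∈ N.divisors, discriminant (affH δ 0 1 τ) ^ (r δ).toNat := by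
    intro τ
    unfold etaQ
    rw [← Finset.prod_mul_distrib]
    refine Finset.prod_congr rfl fun δ _ => ?_
    have hne := discriminant_ne_zero (affH δ 0 1 τ)
    rw [← zpow_natCast, ← zpow_natCast, ← zpow_add₀ hne]
    congr 1
    have := Int.toNat_sub_toNat_neg (r δ)
    omega
  have hL := h0.mul (HasExp.finset_prod N.divisors (fun δ hδ => (hD δ hδ).pow (-r δ).toNat))
  have hR := HasExp.finset_prod N.divisors (fun δ hδ => (hD δ hδ).pow (r δ).toNat)
  have heq := (hL.congr hfun).unique hR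
  have hb : (∏ δ ∈ N.divisors, (u δ : LaurentSeries ℂ) ^ (-r δ).toNat)
      = ((∏ δ ∈ N.divisors, u δ ^ (-r δ).toNat : (LaurentSeries ℂ)ˣ) : LaurentSeries ℂ) := by
    rw [Units.coe_prod]
    simp
  have ha : (∏ δ ∈ N.divisors, (u δ : LaurentSeries ℂ) ^ (r δ).toNat)
      = ((∏ δ ∈ N.divisors, u δ ^ (r δ).toNat : (LaurentSeries ℂ)ˣ) : LaurentSeries ℂ) := by
    rw [Units.coe_prod]
    simp
  rw [hb, ha] at heq
  have hval : cuspExpFun 1 (etaQ N r)
      = (((∏ δ ∈ N.divisors, u δ ^ (r δ).toNat) * (∏ δ ∈ N.divisors, u δ ^ (-r δ).toNat)⁻¹ :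
          (LaurentSeries ℂ)ˣ) : LaurentSeries ℂ) := by
    rw [Units.val_mul, ← heq, mul_assoc, Units.mul_inv, mul_one]
  rw [hval]
  congr 1
  unfold etaW
  rw [mul_inv_eq_iff_eq_mul, ← Finset.prod_mul_distrib]
  refine Finset.prod_congr rfl fun δ _ => ?_
  rw [← zpow_natCast, ← zpow_natCast (u δ), ← zpow_add]
  congr 1
  have := Int.toNat_sub_toNat_neg (r δ)
  omega

/-! ## Polynomials in `j` -/

theorem hasExp_polyJ (p : Polynomial ℂ) :
    HasExp (fun τ => p.eval (helper1644.jFun τ)) (Polynomial.aeval (jqModC ℂ) p) := by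
  induction p using Polynomial.induction_on' with
  | add p q hp hq =>
    simp only [Polynomial.eval_add, map_add]
    exact hp.add hq
  | monomial n a =>
    simp only [Polynomial.eval_monomial, Polynomial.aeval_monomial]
    have h := (HasExp.const a).mul (hasExp_jFun.pow n)
    have e : (HahnSeries.C a : LaurentSeries ℂ) = algebraMap ℂ (LaurentSeries ℂ) a := by
      rw [algebraMap_laurentSeries_eq_single, HahnSeries.C_apply]
    rwa [e] at h

/-! ## Decay at `i∞` and the expansion -/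

theorem HasExp.coeff_eq_zero_of_tendsto {f : ℍ → ℂ} {s : LaurentSeries ℂ} (hf : HasExp f s)
    (h0 : Tendsto f atImInfty (𝓝 0)) {k : ℤ} (hk : k ≤ 0) : s.coeff k = 0 := by
  obtain ⟨hcm, rfl⟩ := hf
  have hhol : IsCuspHol 1 f := ⟨hcm.mdiff, hcm.periodic one_pos, h0.isBigO_one ℝ⟩
  rw [cuspExpFun_of_isCuspHol one_pos hhol]
  rcases lt_or_eq_of_le hk with hk | rfl
  · exact ofPowerSeries_coeff_of_neg _ hk
  · have h1 : (HahnSeries.ofPowerSeries ℤ ℂ (qExpansion 1 f)).coeff ((0 : ℕ) : ℤ)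
        = PowerSeries.coeff 0 (qExpansion 1 f) := HahnSeries.ofPowerSeries_apply_coeff _ 0
    rw [Nat.cast_zero] at h1
    rw [h1, UpperHalfPlane.qExpansion_coeff_zero one_pos (hhol.analyticAt one_pos) hhol.periodic']
    exact UpperHalfPlane.IsZeroAtImInfty.valueAtInfty_eq_zero h0

/-! ## The series form of the orbit polynomial -/

theorem hasExp_etaU (N : ℕ) [NeZero N] :
    HasExp (etaU N) (etaW ℂ N (helper388.etaExp N) : LaurentSeries ℂ) :=
  hasExp_etaQ N _ (helper388.sum_etaExp (NeZero.ne N))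

/-- **Analytic deliverable, series form.** The orbit polynomial of `u_N` evaluated on the
`q`-expansions. -/
theorem exists_eta_series_poly_prod (N : ℕ) [NeZero N] [Fintype (SL(2, ℤ) ⧸ Gamma0 N)] :
    ∃ P : Polynomial (Polynomial ℂ), P.Monic ∧ P.natDegree = (Gamma0 N).index ∧
      (∀ τ : ℍ, P.map (Polynomial.evalRingHom (helper1644.jFun τ))
        = ∏ x : SL(2, ℤ) ⧸ Gamma0 N, (Polynomial.X - Polynomial.C (conjFun N (etaU N) x τ))) ∧
      (∑ i ∈ Finset.range ((Gamma0 N).index + 1), Polynomial.aeval (jqModC ℂ) (P.coeff i) *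
        (etaW ℂ N (helper388.etaExp N) : LaurentSeries ℂ) ^ i = 0) ∧
      (∀ j : ℕ, j + 1 < (Gamma0 N).index → ∀ k : ℤ, k ≤ 0 →
        (∑ i ∈ Finset.Icc (j + 1) (Gamma0 N).index,
          (etaW ℂ N (helper388.etaExp N) : LaurentSeries ℂ) ^ (i - (j + 1)) *
            Polynomial.aeval (jqModC ℂ) (P.coeff i)).coeff k = 0) ∧
      ∃ K : ℂ, P.coeff 0 = Polynomial.C K ∧ IsNUnit N ‖K‖ := by
  obtain ⟨P, hmonic, hdeg, hprod, h1, h2, h3⟩ := exists_eta_orbit_poly_prod N
  have hu := hasExp_etaU N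
  refine ⟨P, hmonic, hdeg, hprod, ?_, fun j hj k hk => ?_, h3⟩
  · have hE := HasExp.finset_sum (Finset.range ((Gamma0 N).index + 1))
      (f := fun i τ => (P.coeff i).eval (helper1644.jFun τ) * etaU N τ ^ i)
      (fun i _ => (hasExp_polyJ (P.coeff i)).mul (hu.pow i))
    have hzero : ∀ τ, (∑ i ∈ Finset.range ((Gamma0 N).index + 1),
        (P.coeff i).eval (helper1644.jFun τ) * etaU N τ ^ i) = 0 := by
      intro τ
      have := h1 τ
      rw [Polynomial.eval_eq_sum_range, hmonic.natDegree_map, hdeg] at this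
      simpa [Polynomial.coeff_map] using this
    have h0 := HasExp.const 0
    rw [map_zero] at h0
    exact (hE.congr hzero).unique h0
  · have hE := HasExp.finset_sum (Finset.Icc (j + 1) (Gamma0 N).index)
      (f := fun i τ => etaU N τ ^ (i - (j + 1)) * (P.coeff i).eval (helper1644.jFun τ))
      (fun i _ => (hu.pow (i - (j + 1))).mul (hasExp_polyJ (P.coeff i)))
    exact hE.coeff_eq_zero_of_tendsto (h2 j hj) hk

theorem exists_eta_series_poly (N : ℕ) [NeZero N] :
    ∃ P : Polynomial (Polynomial ℂ), P.Monic ∧ P.natDegree = (Gamma0 N).index ∧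
      (∑ i ∈ Finset.range ((Gamma0 N).index + 1), Polynomial.aeval (jqModC ℂ) (P.coeff i) *
        (etaW ℂ N (helper388.etaExp N) : LaurentSeries ℂ) ^ i = 0) ∧
      (∀ j : ℕ, j + 1 < (Gamma0 N).index → ∀ k : ℤ, k ≤ 0 →
        (∑ i ∈ Finset.Icc (j + 1) (Gamma0 N).index,
          (etaW ℂ N (helper388.etaExp N) : LaurentSeries ℂ) ^ (i - (j + 1)) *
            Polynomial.aeval (jqModC ℂ) (P.coeff i)).coeff k = 0) ∧
      ∃ K : ℂ, P.coeff 0 = Polynomial.C K ∧ IsNUnit N ‖K‖ := by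
  let _ : Fintype (SL(2, ℤ) ⧸ Gamma0 N) := Fintype.ofFinite _
  obtain ⟨P, h1, h2, -, h4, h5, h6⟩ := exists_eta_series_poly_prod N
  exact ⟨P, h1, h2, h4, h5, h6⟩

/-- Every modular function of level `N` satisfies, on `q`-expansions, a monic relation of degree
`[SL(2,ℤ) : Γ₀(N)]` over `ℂ[j]`. -/
theorem IsModFun.exists_series_relation {N : ℕ} [NeZero N] {f : ℍ → ℂ} (hf : IsModFun N f)
    {s : LaurentSeries ℂ} (hs : HasExp f s) :
    ∃ P : Polynomial (Polynomial ℂ), P.Monic ∧ P.natDegree = (Gamma0 N).index ∧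
      ∑ i ∈ Finset.range ((Gamma0 N).index + 1),
        Polynomial.aeval (jqModC ℂ) (P.coeff i) * s ^ i = 0 := by
  classical
  let _ : Fintype (SL(2, ℤ) ⧸ Gamma0 N) := Fintype.ofFinite _
  have hcard : Fintype.card (SL(2, ℤ) ⧸ Gamma0 N) = (Gamma0 N).index := by
    rw [Subgroup.index_eq_card, Nat.card_eq_fintype_card]
  obtain ⟨P, hmonic, hdeg, hP⟩ := hf.exists_orbit_poly
  rw [hcard] at hdeg
  refine ⟨P, hmonic, hdeg, ?_⟩
  have hE := HasExp.finset_sum (Finset.range ((Gamma0 N).index + 1))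
    (f := fun i τ => (P.coeff i).eval (helper1644.jFun τ) * f τ ^ i)
    (fun i _ => (hasExp_polyJ (P.coeff i)).mul (hs.pow i))
  have hzero : ∀ τ, (∑ i ∈ Finset.range ((Gamma0 N).index + 1),
      (P.coeff i).eval (helper1644.jFun τ) * f τ ^ i) = 0 := by
    intro τ
    have h1 : (P.map (Polynomial.evalRingHom (helper1644.jFun τ))).eval (f τ) = 0 := by
      rw [hP τ, Polynomial.eval_prod]
      refine Finset.prod_eq_zero (Finset.mem_univ (QuotientGroup.mk 1)) ?_
      rw [conjFun_one hf.inv]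
      simp
    rw [Polynomial.eval_eq_sum_range, hmonic.natDegree_map, hdeg] at h1
    simpa [Polynomial.coeff_map] using h1
  have h0 := HasExp.const 0
  rw [map_zero] at h0
  exact (hE.congr hzero).unique h0

end Fermat.Agent.S28.helper2346

end
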