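/-
S28 (Igusa) — prime-level nonrationality (leaf P6 of the route-P map), backup copy.
Author: helper448.

From `helper328.Stmt_FormalPrime p` and a field `κ` with `(p : κ) ≠ 0` we prove that
`j(q^p)` does not lie in `κ(j)` inside `κ((q))`.
-/
import Mathlib
import Fermat.Agent.S28.helper328_PrimeSpec

set_option autoImplicit false

namespace Fermat.Agent.S28.helper448

open Polynomial ModularCurve
open Fermat.Agent.S28.helper328

noncomputable section

/-! ## Generalities on `evalJ`, `twist`, `coeffMap` -/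

/-- Ring homomorphisms of Laurent series rings commute with `evalJ`. -/
theorem comp_evalJ {R S : Type*} [CommRing R] [CommRing S]
    (f : LaurentSeries R →+* LaurentSeries S) (x : LaurentSeries R) :
    f.comp (evalJ x) = evalJ (f x) := by
  apply Polynomial.ringHom_ext
  · intro a
    simp [evalJ]
  · simp [evalJ]

theorem map_evalJ {R S : Type*} [CommRing R] [CommRing S]
    (f : LaurentSeries R →+* LaurentSeries S) (x : LaurentSeries R) (P : Polynomial ℤ) :
    f (evalJ x P) = evalJ (f x) P := by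
  rw [← comp_evalJ]; rfl

/-- `evalJ` factors through the polynomial ring over the coefficient ring. -/
theorem evalJ_eq_aeval {κ : Type*} [Field κ] (x : LaurentSeries κ) (P : Polynomial ℤ) :
    evalJ x P = Polynomial.aeval x (P.map (Int.castRingHom κ)) := by
  rw [evalJ, Polynomial.coe_eval₂RingHom, Polynomial.aeval_def, Polynomial.eval₂_map]
  congr 1
  exact RingHom.ext_int _ _

theorem twist_one {R : Type*} [CommRing R] (x : LaurentSeries R) : twist (1 : Rˣ) x = x := by
  ext n
  simp

/-! ## Polynomials in `j` -/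

variable (κ : Type*) [Field κ]

/-- The lowest coefficient of `P(j)` is the leading coefficient of `P`, at `q^(-deg P)`. -/
theorem coeff_aeval_jq_neg_natDegree (P : Polynomial κ) :
    (Polynomial.aeval (jqModC κ) P).coeff (-(P.natDegree : ℤ)) = P.leadingCoeff := by
  rw [Polynomial.aeval_eq_sum_range, HahnSeries.coeff_sum]
  rw [Finset.sum_eq_single_of_mem P.natDegree (Finset.self_mem_range_succ _)]
  · rw [Algebra.smul_def, algebraMap_laurentSeries_eq_single, HahnSeries.coeff_single_zero_mul,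
      coeff_jqModC_pow_self, mul_one]
    rfl
  · intro i hi hne
    have hlt : i < P.natDegree := lt_of_le_of_ne (Finset.mem_range_succ_iff.mp hi) hne
    rw [Algebra.smul_def, algebraMap_laurentSeries_eq_single, HahnSeries.coeff_single_zero_mul,
      coeff_jqModC_pow_of_lt κ (by exact_mod_cast neg_lt_neg (by exact_mod_cast hlt)), mul_zero]

theorem aeval_jq_injective :
    Function.Injective (Polynomial.aeval (R := κ) (jqModC κ)) := by
  rw [injective_iff_map_eq_zero]
  intro P hP
  have h := coeff_aeval_jq_neg_natDegree κ P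
  rw [hP, HahnSeries.coeff_zero] at h
  exact Polynomial.leadingCoeff_eq_zero.mp h.symm

/-- An element of `κ(j)` which is integral over `κ[j]` is a polynomial in `j`. -/
theorem exists_aeval_eq_of_mem_adjoin_of_integral (x : LaurentSeries κ)
    (hx : x ∈ IntermediateField.adjoin κ {jqModC κ})
    (G : Polynomial (Polynomial κ)) (hG : G.Monic)
    (hGx : G.eval₂ (Polynomial.aeval (jqModC κ)).toRingHom x = 0) :
    ∃ P : Polynomial κ, Polynomial.aeval (jqModC κ) P = x := by
  classical
  have hinj := aeval_jq_injective κ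
  let φ : RatFunc κ →ₐ[κ] LaurentSeries κ :=
    RatFunc.liftAlgHom (Polynomial.aeval (jqModC κ))
      (nonZeroDivisors_le_comap_nonZeroDivisors_of_injective _ hinj)
  have hφinj : Function.Injective φ := RatFunc.liftAlgHom_injective _ hinj
  have hφalg : ∀ P : Polynomial κ, φ (algebraMap (Polynomial κ) (RatFunc κ) P) =
      Polynomial.aeval (jqModC κ) P := by
    intro P
    have := RatFunc.liftAlgHom_apply_div (φ := Polynomial.aeval (R := κ) (jqModC κ))
      (nonZeroDivisors_le_comap_nonZeroDivisors_of_injective _ hinj) P 1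
    simpa using this
  have hle : IntermediateField.adjoin κ {jqModC κ} ≤ φ.fieldRange := by
    rw [IntermediateField.adjoin_le_iff]
    rintro y rfl
    refine ⟨algebraMap (Polynomial κ) (RatFunc κ) Polynomial.X, ?_⟩
    show φ (algebraMap (Polynomial κ) (RatFunc κ) Polynomial.X) = _
    rw [hφalg]; simp
  obtain ⟨r, hr0⟩ := hle hx
  have hr0' : φ r = x := hr0
  subst hr0'
  have hcomp : (Polynomial.aeval (R := κ) (jqModC κ)).toRingHom =
      (φ : RatFunc κ →+* LaurentSeries κ).comp (algebraMap (Polynomial κ) (RatFunc κ)) :=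
    RingHom.ext fun P => (hφalg P).symm
  have hr : G.eval₂ (algebraMap (Polynomial κ) (RatFunc κ)) r = 0 := by
    apply hφinj
    rw [map_zero, ← hGx, hcomp]
    exact (Polynomial.hom_eval₂ G (algebraMap (Polynomial κ) (RatFunc κ))
      (φ : RatFunc κ →+* LaurentSeries κ) r)
  have hint : IsIntegral (Polynomial κ) r := ⟨G, hG, hr⟩
  obtain ⟨y, rfl⟩ := IsIntegrallyClosed.isIntegral_iff.mp hint
  exact ⟨y, (hφalg y).symm⟩

/-! ## The reduction of `ghat` -/

/-- A Laurent series without negative-index coefficients is a power series. -/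
theorem exists_ofPowerSeries_eq {R : Type*} [CommRing R] (x : LaurentSeries R)
    (h : ∀ k : ℤ, k < 0 → x.coeff k = 0) :
    ∃ f : PowerSeries R, HahnSeries.ofPowerSeries ℤ R f = x ∧
      PowerSeries.constantCoeff f = x.coeff 0 := by
  refine ⟨PowerSeries.mk fun n => x.coeff n, ?_, ?_⟩
  · ext k
    rcases le_or_gt 0 k with hk | hk
    · lift k to ℕ using hk
      rw [HahnSeries.ofPowerSeries_apply_coeff, PowerSeries.coeff_mk]
    · rw [ofPowerSeries_coeff_of_neg _ hk, h k hk]
  · rw [← PowerSeries.coeff_zero_eq_constantCoeff_apply, PowerSeries.coeff_mk]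
    rfl

theorem coeffMap_gHat_eq (p : ℕ) [NeZero p] (κ : Type*) [Field κ] :
    ∃ W : PowerSeries κ, PowerSeries.constantCoeff W = 1 ∧
      coeffMap (Int.castRingHom κ) (gHat p) =
        HahnSeries.single ((p : ℤ) - 1) ((p : κ) ^ 12) * HahnSeries.ofPowerSeries ℤ κ W := by
  set c : ℤ →+* κ := Int.castRingHom κ with hc
  set A : PowerSeries κ := (dedekindEtaUnit.map (Int.castRingHom ℤ)).map c with hA
  set B : PowerSeries κ := (dedekindEtaUnitInv.map (Int.castRingHom ℤ)).map c with hB
  have hA0 : PowerSeries.constantCoeff A = 1 := by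
    rw [hA, ← PowerSeries.coeff_zero_eq_constantCoeff_apply, PowerSeries.coeff_map,
      PowerSeries.coeff_map, PowerSeries.coeff_zero_eq_constantCoeff_apply,
      constantCoeff_dedekindEtaUnit]
    simp
  have hB0 : PowerSeries.constantCoeff B = 1 := by
    rw [hB, ← PowerSeries.coeff_zero_eq_constantCoeff_apply, PowerSeries.coeff_map,
      PowerSeries.coeff_map, PowerSeries.coeff_zero_eq_constantCoeff_apply,
      constantCoeff_dedekindEtaUnitInv]
    simp
  obtain ⟨A', hA', hA'0⟩ := exists_ofPowerSeries_eq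
    (qExpand κ p (HahnSeries.ofPowerSeries ℤ κ A)) (by
      intro k hk
      by_cases hdvd : (p : ℤ) ∣ k
      · obtain ⟨m, rfl⟩ := hdvd
        rw [qExpand_coeff_mul]
        have hp : (0 : ℤ) < p := by exact_mod_cast Nat.pos_of_ne_zero (NeZero.ne p)
        have hm : m < 0 := by
          by_contra hm
          exact absurd hk (not_lt.mpr (mul_nonneg hp.le (not_lt.mp hm)))
        exact ofPowerSeries_coeff_of_neg _ hm
      · exact qExpand_coeff_of_not_dvd p _ hdvd)
  have hA'0' : PowerSeries.constantCoeff A' = 1 := by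
    rw [hA'0]
    have h := qExpand_coeff_mul (R := κ) p (HahnSeries.ofPowerSeries ℤ κ A) 0
    rw [mul_zero] at h
    rw [h]
    have h2 := HahnSeries.ofPowerSeries_apply_coeff (Γ := ℤ) A 0
    simp only [Nat.cast_zero] at h2
    rw [h2, PowerSeries.coeff_zero_eq_constantCoeff_apply, hA0]
  refine ⟨A' * B, by rw [map_mul, hA'0', hB0, mul_one], ?_⟩
  have h1 : coeffMap c (deltaHat ℤ) =
      HahnSeries.single (1 : ℤ) 1 * HahnSeries.ofPowerSeries ℤ κ A := by
    rw [deltaHat, map_mul, coeffMap_single, map_one, coeffMap_ofPowerSeries]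
  have h2 : coeffMap c (deltaHatInv ℤ) =
      HahnSeries.single (-1 : ℤ) 1 * HahnSeries.ofPowerSeries ℤ κ B := by
    rw [deltaHatInv, map_mul, coeffMap_single, map_one, coeffMap_ofPowerSeries]
  have h3 : ((p : LaurentSeries κ)) ^ 12 = HahnSeries.single (0 : ℤ) ((p : κ) ^ 12) := by
    rw [← HahnSeries.C_apply, map_pow, map_natCast]
  rw [gHat, map_mul, map_mul, map_pow, map_natCast, coeffMap_qExpand, h1, h2, map_mul,
    qExpand_single, ← hA', h3, map_mul]
  have h4 : HahnSeries.single (0 : ℤ) ((p : κ) ^ 12) * (HahnSeries.single ((p : ℤ) * 1) (1 : κ))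
      * HahnSeries.single (-1 : ℤ) (1 : κ) = HahnSeries.single ((p : ℤ) - 1) ((p : κ) ^ 12) := by
    rw [HahnSeries.single_mul_single, HahnSeries.single_mul_single]
    have e : (0 : ℤ) + (p : ℤ) * 1 + -1 = (p : ℤ) - 1 := by ring
    rw [e, mul_one, mul_one]
  rw [← h4]
  ring

/-! ## Simple root from the root formula -/

/-- Over a field containing a primitive `p`-th root of unity, the root formula shows that
`j(t^(p^2))` is a simple root of `Φ(X, j(t^p))`. -/
theorem eval_cofactor_ne_zero (p : ℕ) [hp : Fact p.Prime] [NeZero p]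
    (Φ : Polynomial (Polynomial ℤ)) (P : ℕ+) (hP : (P : ℕ) = p)
    (hroot : ∀ (k : Type) [Field k] (ω : kˣ), IsPrimitiveRoot ω p → ∀ (ξ : kˣ) (m : ℕ+),
      Φ.map (evalJ (Jsub k (ξ ^ p) (P * m))) =
        (X - C (Jsub k (ξ ^ (p ^ 2)) (P ^ 2 * m))) *
          ∏ b ∈ Finset.range p, (X - C (Jsub k (ω ^ b * ξ) m)))
    (κ : Type) [Field κ] (hpκ : (p : κ) ≠ 0)
    (Ψκ : Polynomial (LaurentSeries κ))
    (hfac : Φ.map (evalJ (jqModC κ)) = (X - C (qExpand κ p (jqModC κ))) * Ψκ) :
    Ψκ.eval (qExpand κ p (jqModC κ)) ≠ 0 := by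
  classical
  let k := AlgebraicClosure κ
  let a : κ →+* k := algebraMap κ k
  have : NeZero (p : κ) := ⟨hpκ⟩
  obtain ⟨ω0, hω0⟩ := HasEnoughRootsOfUnity.exists_primitiveRoot k p
  obtain ⟨ω, rfl⟩ := hω0.isUnit (NeZero.ne p)
  have hω : IsPrimitiveRoot ω p := IsPrimitiveRoot.coe_units_iff.mp hω0
  have hroot' := hroot k ω hω 1 1
  set Jk : LaurentSeries k := jqModC k with hJk
  have hJs1 : Jsub k ((1 : kˣ) ^ p) (P * 1) = qExpand k p Jk := by
    unfold Jsub
    rw [one_pow, twist_one]
    exact qExpand_congr (by rw [PNat.mul_coe, PNat.one_coe, mul_one, hP]) _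
  have hJs2 : Jsub k ((1 : kˣ) ^ (p ^ 2)) (P ^ 2 * 1) =
      qExpand k p (qExpand k p Jk) := by
    unfold Jsub
    rw [one_pow, twist_one, qExpand_qExpand]
    exact qExpand_congr
      (by rw [PNat.mul_coe, PNat.one_coe, mul_one, PNat.pow_coe, hP, sq]) _
  have hJs3 : ∀ b : ℕ, Jsub k (ω ^ b * 1) 1 = twist (ω ^ b) Jk := by
    intro b
    unfold Jsub
    rw [mul_one]
    exact (qExpand_congr (by simp) _).trans (qExpand_one_apply _)
  rw [hJs1, hJs2] at hroot'
  simp_rw [hJs3] at hroot'
  let θ : LaurentSeries κ →+* LaurentSeries k := (qExpand k p).comp (coeffMap a)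
  have hθJ : θ (jqModC κ) = qExpand k p Jk := by
    show qExpand k p (coeffMap a (jqModC κ)) = _
    rw [coeffMap_jqModC]
  have hθJp : θ (qExpand κ p (jqModC κ)) = qExpand k p (qExpand k p Jk) := by
    show qExpand k p (coeffMap a (qExpand κ p (jqModC κ))) = _
    rw [coeffMap_qExpand, coeffMap_jqModC]
  have h1 := congrArg (Polynomial.map θ) hfac
  rw [Polynomial.map_map, comp_evalJ, hθJ, Polynomial.map_mul, Polynomial.map_sub,
    Polynomial.map_X, Polynomial.map_C, hθJp] at h1
  have h2 : Ψκ.map θ = ∏ b ∈ Finset.range p, (X - C (twist (ω ^ b) Jk)) :=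
    mul_left_cancel₀ (Polynomial.X_sub_C_ne_zero _) (h1.symm.trans hroot')
  have h3 : θ (Ψκ.eval (qExpand κ p (jqModC κ))) =
      ∏ b ∈ Finset.range p, (qExpand k p (qExpand k p Jk) - twist (ω ^ b) Jk) := by
    rw [← Polynomial.eval₂_at_apply, ← Polynomial.eval_map, h2, hθJp, Polynomial.eval_prod]
    simp
  have hnd : ¬ ((p : ℤ) ∣ -1) := by
    intro hd
    have h1 : (p : ℤ) ∣ 1 := (dvd_neg).mp hd
    have h2 : p ∣ 1 := by exact_mod_cast h1
    exact hp.out.one_lt.ne' (Nat.dvd_one.mp h2)
  have h4 : ∀ b ∈ Finset.range p, qExpand k p (qExpand k p Jk) - twist (ω ^ b) Jk ≠ 0 := by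
    intro b _ h0
    have h5 := congrArg (fun x : LaurentSeries k => x.coeff (-1)) h0
    simp only [HahnSeries.coeff_sub, twist_coeff, HahnSeries.coeff_zero] at h5
    rw [qExpand_coeff_of_not_dvd p _ hnd, hJk, coeff_jqModC_neg_one, zero_sub, neg_eq_zero,
      mul_one] at h5
    exact Units.ne_zero _ h5
  intro hzero
  rw [hzero, map_zero] at h3
  exact Finset.prod_ne_zero_iff.mpr h4 h3.symm

/-! ## Main theorem -/

/-- **Prime-level nonrationality** (P6).  If `p` is invertible in the field `κ`, the series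
`j(q^p)` is not a rational function of `j(q)` over `κ`. -/
theorem qExpand_jq_not_mem_adjoin (p : ℕ) [hp : Fact p.Prime] [NeZero p]
    (h : Stmt_FormalPrime p) (κ : Type) [Field κ] (hpκ : (p : κ) ≠ 0) :
    qExpand κ p (jqModC κ) ∉ IntermediateField.adjoin κ {jqModC κ} := by
  classical
  intro hmem
  obtain ⟨Φ, G, T, Ψ, -, -, hGmonic, -, hGg, hΦfac, hΨg, hroot⟩ := h
  set c : ℤ →+* κ := Int.castRingHom κ with hc
  set cm : LaurentSeries ℤ →+* LaurentSeries κ := coeffMap c with hcm
  set J : LaurentSeries κ := jqModC κ with hJdef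
  set Jp : LaurentSeries κ := qExpand κ p J with hJpdef
  set E : IntermediateField κ (LaurentSeries κ) := IntermediateField.adjoin κ {J} with hE
  set Ψκ : Polynomial (LaurentSeries κ) := Ψ.map cm with hΨκ
  set gκ : LaurentSeries κ := cm (gHat p) with hgκ
  have hJ : cm (jqModC ℤ) = J := coeffMap_jqModC c
  have hJp : cm (qExpand ℤ p (jqModC ℤ)) = Jp := by
    rw [hcm, coeffMap_qExpand, ← hcm, hJ]
  -- the three identities, reduced to `κ`
  have hfac : Φ.map (evalJ J) = (X - C Jp) * Ψκ := by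
    have h1 := congrArg (Polynomial.map cm) hΦfac
    rw [Polynomial.map_map, comp_evalJ, hJ, Polynomial.map_mul, Polynomial.map_sub,
      Polynomial.map_X, Polynomial.map_C, hJp] at h1
    exact h1
  have hg : Ψκ.eval Jp * gκ = ∑ i ∈ Finset.range (p + 1), Ψκ.coeff i * evalJ J (T i) := by
    have h1 := congrArg cm hΨg
    rw [map_mul, map_sum, ← Polynomial.eval₂_at_apply, hJp, ← Polynomial.eval_map] at h1
    rw [h1]
    refine Finset.sum_congr rfl fun i _ => ?_
    rw [map_mul, map_evalJ, hJ, hΨκ, Polynomial.coeff_map]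
  have hGκ : (G.map (evalJ J)).eval gκ = 0 := by
    have h1 := congrArg cm hGg
    rw [map_zero, ← Polynomial.eval₂_at_apply, Polynomial.eval₂_map, comp_evalJ, hJ] at h1
    rw [Polynomial.eval_map]
    exact h1
  -- coefficients in `E = κ(j)`
  have hJE : J ∈ E := IntermediateField.subset_adjoin _ _ (Set.mem_singleton _)
  have hevalE : ∀ Q : Polynomial ℤ, evalJ J Q ∈ E := by
    intro Q
    rw [evalJ_eq_aeval]
    exact IntermediateField.algebra_adjoin_le_adjoin κ _
      (Polynomial.aeval_mem_adjoin_singleton κ J)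
  have hΦE : ∀ i, (Φ.map (evalJ J)).coeff i ∈ E := by
    intro i
    rw [Polynomial.coeff_map]
    exact hevalE _
  have key : ∀ i, Ψκ.coeff i = (Φ.map (evalJ J)).coeff (i + 1) + Ψκ.coeff (i + 1) * Jp := by
    intro i
    rw [hfac, mul_comm, Polynomial.coeff_mul_X_sub_C]
    ring
  have hΨE' : ∀ k i, Ψκ.natDegree < i + k → Ψκ.coeff i ∈ E := by
    intro k
    induction k with
    | zero =>
      intro i hi
      rw [Polynomial.coeff_eq_zero_of_natDegree_lt (by simpa using hi)]
      exact zero_mem _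
    | succ k ih =>
      intro i hi
      rw [key]
      exact add_mem (hΦE _) (mul_mem (ih (i + 1) (by omega)) hmem)
  have hΨE : ∀ i, Ψκ.coeff i ∈ E := fun i => hΨE' (Ψκ.natDegree + 1) i (by omega)
  have hden : Ψκ.eval Jp ∈ E := by
    rw [Polynomial.eval_eq_sum_range]
    exact sum_mem fun i _ => mul_mem (hΨE i) (pow_mem hmem i)
  have hnum : ∑ i ∈ Finset.range (p + 1), Ψκ.coeff i * evalJ J (T i) ∈ E :=
    sum_mem fun i _ => mul_mem (hΨE i) (hevalE _)
  -- the cofactor does not vanish at `j(q^p)`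
  have hne : Ψκ.eval Jp ≠ 0 :=
    eval_cofactor_ne_zero p Φ ⟨p, hp.out.pos⟩ rfl hroot κ hpκ Ψκ hfac
  -- hence `ghat` lies in `κ(j)`
  have hgE : gκ ∈ E := by
    have h1 : gκ = (Ψκ.eval Jp)⁻¹ * ∑ i ∈ Finset.range (p + 1), Ψκ.coeff i * evalJ J (T i) := by
      rw [← hg, ← mul_assoc, inv_mul_cancel₀ hne, one_mul]
    rw [h1]
    exact mul_mem (inv_mem hden) hnum
  -- and is integral over `κ[j]`, hence a polynomial in `j`
  have hcomp : (Polynomial.aeval (R := κ) J).toRingHom.comp (Polynomial.mapRingHom c) =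
      evalJ J := RingHom.ext fun Q => (evalJ_eq_aeval J Q).symm
  obtain ⟨Q, hQ⟩ := exists_aeval_eq_of_mem_adjoin_of_integral κ gκ hgE
    (G.map (Polynomial.mapRingHom c)) (hGmonic.map _) (by
      rw [Polynomial.eval₂_map, hcomp, ← Polynomial.eval_map]
      exact hGκ)
  -- contradiction with the `q`-order of `ghat`
  obtain ⟨W, hW0, hW⟩ := coeffMap_gHat_eq p κ
  have hp2 : (2 : ℤ) ≤ p := by exact_mod_cast hp.out.two_le
  have hshift : ∀ a : ℤ, gκ.coeff (a + ((p : ℤ) - 1)) =
      (p : κ) ^ 12 * (HahnSeries.ofPowerSeries ℤ κ W).coeff a := by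
    intro a
    rw [hgκ, hcm, hc, hW, HahnSeries.coeff_single_mul_add]
  have hcoeff : ∀ k : ℤ, k ≤ 0 → gκ.coeff k = 0 := by
    intro k hk
    have h1 : k = (k - ((p : ℤ) - 1)) + ((p : ℤ) - 1) := by ring
    rw [h1, hshift, ofPowerSeries_coeff_of_neg _ (by omega), mul_zero]
  have hcoeff1 : gκ.coeff ((p : ℤ) - 1) = (p : κ) ^ 12 := by
    have h1 := hshift ((0 : ℕ) : ℤ)
    rw [HahnSeries.ofPowerSeries_apply_coeff, PowerSeries.coeff_zero_eq_constantCoeff_apply, hW0,
      mul_one, Nat.cast_zero, zero_add] at h1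
    exact h1
  have hlead := coeff_aeval_jq_neg_natDegree κ Q
  rw [← hJdef, hQ, hcoeff _ (by omega)] at hlead
  have hQ0 : Q = 0 := Polynomial.leadingCoeff_eq_zero.mp hlead.symm
  rw [hQ0, map_zero] at hQ
  rw [← hQ, HahnSeries.coeff_zero] at hcoeff1
  exact pow_ne_zero 12 hpκ hcoeff1.symm

end

end Fermat.Agent.S28.helper448
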