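import Mathlib
import Fermat.Prelude.Thm_ModularForm_sturm_bound_Gamma0
import Fermat.Prelude.Thm_CongruenceSubgroup_one_mem_strictPeriods_Gamma0
import Fermat.Prelude.Def_ModularCurve_X0
import Fermat.Prelude.Def_ModularForm_HeckeOperator
import Fermat.Agent.Lib.helper1348_JBridge

/-!
# S28: the characteristic-zero degree bound by Sturm counting (helper4768)

No cosets, no cusp expansions: only the Prelude Sturm bound for `Γ₀(N)`.

* `IsQExp N k s` : the rational power series `s` is the `q`-expansion of a modular form of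
  weight `k` on `Γ₀(N)`.
* `ratioField N` : the subfield of `ℚ((q))` of all `P / Q`, with `P`, `Q` rational `q`-expansions
  of modular forms of the same weight on `Γ₀(N)`, `Q ≠ 0`.
* `exists_int_relation` : any `[SL₂(ℤ) : Γ₀(N)] + 1` elements of `ratioField N` are linearly
  dependent over `ℤ[j]`.
-/

set_option autoImplicit false

open UpperHalfPlane ModularForm CongruenceSubgroup Matrix ModularCurve
open scoped MatrixGroups

namespace Fermat.Agent.S28.helper4768

noncomputable section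

/-- `Γ₀(N)` as a subgroup of `GL(2, ℝ)`. -/
abbrev G0 (N : ℕ) : Subgroup (GL (Fin 2) ℝ) :=
  Subgroup.map (Matrix.SpecialLinearGroup.mapGL ℝ) (CongruenceSubgroup.Gamma0 N)

theorem G0_le_SL (N : ℕ) : G0 N ≤ 𝒮ℒ := by
  rintro _ ⟨γ, -, rfl⟩
  exact ⟨γ, rfl⟩

theorem one_mem_strictPeriods_G0 (N : ℕ) : (1 : ℝ) ∈ (G0 N).strictPeriods :=
  CongruenceSubgroup.one_mem_strictPeriods_Gamma0 N

/-- Coefficient embedding `ℚ⟦X⟧ → ℂ⟦X⟧`. -/
abbrev toC : PowerSeries ℚ →+* PowerSeries ℂ := PowerSeries.map (algebraMap ℚ ℂ)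

theorem toC_injective : Function.Injective toC :=
  PowerSeries.map_injective _ (algebraMap ℚ ℂ).injective

/-- `s` is the `q`-expansion of a modular form of weight `k` on `Γ₀(N)`. -/
def IsQExp (N : ℕ) (k : ℤ) (s : PowerSeries ℚ) : Prop :=
  ∃ f : ModularForm (G0 N) k, qExpansion 1 f = toC s

variable {N : ℕ} {k k' : ℤ} {s s' : PowerSeries ℚ}

theorem IsQExp.cast (h : IsQExp N k s) (hk : k = k') : IsQExp N k' s := hk ▸ h

theorem IsQExp.mul (h : IsQExp N k s) (h' : IsQExp N k' s') : IsQExp N (k + k') (s * s') := by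
  obtain ⟨f, hf⟩ := h
  obtain ⟨g, hg⟩ := h'
  exact ⟨f.mul g, by
    rw [ModularForm.qExpansion_mul one_pos (one_mem_strictPeriods_G0 N), hf, hg, map_mul]⟩

theorem IsQExp.add (h : IsQExp N k s) (h' : IsQExp N k s') : IsQExp N k (s + s') := by
  obtain ⟨f, hf⟩ := h
  obtain ⟨g, hg⟩ := h'
  refine ⟨f + g, ?_⟩
  have := ModularForm.qExpansion_add one_pos (one_mem_strictPeriods_G0 N) f g
  rw [show (⇑(f + g) : ℍ → ℂ) = ⇑f + ⇑g from rfl, this, hf, hg, map_add]

theorem IsQExp.zero (N : ℕ) (k : ℤ) : IsQExp N k 0 :=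
  ⟨0, by rw [map_zero]; exact qExpansion_zero 1⟩

theorem IsQExp.one (N : ℕ) : IsQExp N 0 1 :=
  ⟨1, by rw [map_one]; exact ModularForm.qExpansion_one⟩

theorem IsQExp.C_mul (c : ℚ) (h : IsQExp N k s) : IsQExp N k (PowerSeries.C c * s) := by
  obtain ⟨f, hf⟩ := h
  refine ⟨(c : ℂ) • f, ?_⟩
  have := ModularForm.qExpansion_smul one_pos (one_mem_strictPeriods_G0 N) (c : ℂ) f
  rw [show (⇑((c : ℂ) • f) : ℍ → ℂ) = (c : ℂ) • ⇑f from rfl, this, hf, map_mul,
    PowerSeries.smul_eq_C_mul]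
  simp

theorem IsQExp.intCast_mul (z : ℤ) (h : IsQExp N k s) :
    IsQExp N k ((z : PowerSeries ℚ) * s) := by
  have := h.C_mul (z : ℚ)
  rwa [map_intCast] at this

theorem IsQExp.neg (h : IsQExp N k s) : IsQExp N k (-s) := by
  have := h.intCast_mul (-1)
  simpa using this

theorem IsQExp.pow (h : IsQExp N k s) (n : ℕ) : IsQExp N (n * k) (s ^ n) := by
  induction n with
  | zero => simpa using IsQExp.one N
  | succ n ih =>
    rw [pow_succ]
    exact (ih.mul h).cast (by push_cast; ring)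

theorem IsQExp.sum {ι : Type*} (t : Finset ι) (g : ι → PowerSeries ℚ)
    (h : ∀ i ∈ t, IsQExp N k (g i)) : IsQExp N k (∑ i ∈ t, g i) := by
  classical
  induction t using Finset.induction_on with
  | empty => simpa using IsQExp.zero N k
  | insert a t ha ih =>
    rw [Finset.sum_insert ha]
    exact (h a (Finset.mem_insert_self a t)).add
      (ih fun i hi => h i (Finset.mem_insert_of_mem hi))

theorem IsQExp.prod {ι : Type*} (t : Finset ι) (w : ι → ℤ) (g : ι → PowerSeries ℚ)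
    (h : ∀ i ∈ t, IsQExp N (w i) (g i)) : IsQExp N (∑ i ∈ t, w i) (∏ i ∈ t, g i) := by
  classical
  induction t using Finset.induction_on with
  | empty => simpa using IsQExp.one N
  | insert a t ha ih =>
    rw [Finset.sum_insert ha, Finset.prod_insert ha]
    exact (h a (Finset.mem_insert_self a t)).mul
      (ih fun i hi => h i (Finset.mem_insert_of_mem hi))

/-- **Sturm bound** for rational `q`-expansions. -/
theorem IsQExp.eq_zero_of_coeff [NeZero N] (h : IsQExp N k s)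
    (hc : ∀ n : ℕ, n ≤ (k * (CongruenceSubgroup.Gamma0 N).index).toNat / 12 →
      PowerSeries.coeff n s = 0) : s = 0 := by
  obtain ⟨f, hf⟩ := h
  have hf0 : f = 0 := ModularForm.sturm_bound_Gamma0 N f (fun n hn => by
    rw [hf, PowerSeries.coeff_map, hc n hn, map_zero])
  apply toC_injective
  rw [← hf, hf0, map_zero]
  exact qExpansion_zero 1

/-! ### Level one: `E₄` and `Δ` -/

/-- The formal Eisenstein series `E₄` with rational coefficients. -/
def E4Q : PowerSeries ℚ := eisenstein4.map (Int.castRingHom ℚ)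

/-- The formal discriminant `Δ = q ∏ (1 - qⁿ)²⁴` with rational coefficients. -/
def DeltaQ : PowerSeries ℚ := PowerSeries.X * (etaProd ^ 24).map (Int.castRingHom ℚ)

theorem toC_E4Q : toC E4Q = PowerSeries.map (Int.castRingHom ℂ) eisenstein4 := by
  ext n
  simp [E4Q]

theorem toC_DeltaQ :
    toC DeltaQ = PowerSeries.X * PowerSeries.map (Int.castRingHom ℂ) (etaProd ^ 24) := by
  rw [DeltaQ, map_mul, PowerSeries.map_X]
  congr 1

theorem coeff_one_DeltaQ : PowerSeries.coeff 1 DeltaQ = 1 := by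
  rw [DeltaQ, show (1 : ℕ) = 0 + 1 from rfl, PowerSeries.coeff_succ_X_mul, PowerSeries.coeff_map,
    PowerSeries.coeff_zero_eq_constantCoeff_apply, map_pow, constantCoeff_etaProd]
  simp

theorem DeltaQ_ne_zero : DeltaQ ≠ 0 := fun h => by
  have := coeff_one_DeltaQ
  rw [h] at this
  simp at this

/-- Restriction of a level-one modular form to `Γ₀(N)`. -/
def restrictLevel (N : ℕ) {k : ℤ} (f : ModularForm 𝒮ℒ k) : ModularForm (G0 N) k where
  toFun := f
  slash_action_eq' γ hγ := f.slash_action_eq' γ (G0_le_SL N hγ)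
  holo' := f.holo'
  bdd_at_cusps' hc := f.bdd_at_cusps' (hc.mono (G0_le_SL N))

theorem isQExp_E4 (N : ℕ) : IsQExp N 4 E4Q :=
  ⟨restrictLevel N E₄, by
    rw [toC_E4Q, ← Fermat.Agent.Lib.helper1348.qExpansion_E₄_eq]; rfl⟩

theorem isQExp_Delta (N : ℕ) : IsQExp N 12 DeltaQ :=
  ⟨restrictLevel N (ModularFormClass.modularForm CuspForm.discriminant), by
    rw [toC_DeltaQ, ← Fermat.Agent.Lib.helper1348.qExpansion_discriminant_eq]; rfl⟩

/-! ### The field of ratios -/

/-- Power series as Laurent series. -/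
abbrev ofPS : PowerSeries ℚ →+* LaurentSeries ℚ := HahnSeries.ofPowerSeries ℤ ℚ

theorem ofPS_injective : Function.Injective ofPS := HahnSeries.ofPowerSeries_injective

theorem ofPS_ne_zero {Q : PowerSeries ℚ} (hQ : Q ≠ 0) : ofPS Q ≠ 0 := fun h =>
  hQ (ofPS_injective (by rw [h, map_zero]))

/-- `x` is a ratio of two rational `q`-expansions of modular forms of the same weight on
`Γ₀(N)`. -/
def IsRatio (N : ℕ) (x : LaurentSeries ℚ) : Prop :=
  ∃ (k : ℤ) (P Q : PowerSeries ℚ), IsQExp N k P ∧ IsQExp N k Q ∧ Q ≠ 0 ∧ x * ofPS Q = ofPS P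

theorem IsRatio.add {x y : LaurentSeries ℚ} (hx : IsRatio N x) (hy : IsRatio N y) :
    IsRatio N (x + y) := by
  obtain ⟨k, P, Q, hP, hQ, hQ0, h⟩ := hx
  obtain ⟨k', P', Q', hP', hQ', hQ0', h'⟩ := hy
  refine ⟨k + k', P * Q' + P' * Q, Q * Q', (hP.mul hQ').add ((hP'.mul hQ).cast (add_comm _ _)),
    hQ.mul hQ', mul_ne_zero hQ0 hQ0', ?_⟩
  rw [map_add, map_mul, map_mul, map_mul, ← h, ← h']
  ring

theorem IsRatio.mul {x y : LaurentSeries ℚ} (hx : IsRatio N x) (hy : IsRatio N y) :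
    IsRatio N (x * y) := by
  obtain ⟨k, P, Q, hP, hQ, hQ0, h⟩ := hx
  obtain ⟨k', P', Q', hP', hQ', hQ0', h'⟩ := hy
  refine ⟨k + k', P * P', Q * Q', hP.mul hP', hQ.mul hQ', mul_ne_zero hQ0 hQ0', ?_⟩
  rw [map_mul, map_mul, ← h, ← h']
  ring

theorem isRatio_algebraMap (N : ℕ) (c : ℚ) : IsRatio N (algebraMap ℚ (LaurentSeries ℚ) c) := by
  refine ⟨0, PowerSeries.C c * 1, 1, (IsQExp.one N).C_mul c, IsQExp.one N, one_ne_zero, ?_⟩
  have h1 : algebraMap ℚ (PowerSeries ℚ) c = PowerSeries.C c := by simp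
  rw [HahnSeries.algebraMap_apply', h1, map_one, mul_one, mul_one]

theorem IsRatio.inv {x : LaurentSeries ℚ} (hx : IsRatio N x) : IsRatio N x⁻¹ := by
  obtain ⟨k, P, Q, hP, hQ, hQ0, h⟩ := hx
  by_cases hP0 : P = 0
  · have hx0 : x = 0 := by
      rw [hP0, map_zero] at h
      exact (mul_eq_zero.mp h).resolve_right (ofPS_ne_zero hQ0)
    rw [hx0, _root_.inv_zero]
    exact ⟨k, 0, Q, IsQExp.zero N k, hQ, hQ0, by simp⟩
  · have hx0 : x ≠ 0 := by
      rintro rfl
      rw [zero_mul] at h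
      exact ofPS_ne_zero hP0 h.symm
    refine ⟨k, Q, P, hQ, hP, hP0, ?_⟩
    rw [← h, ← mul_assoc, inv_mul_cancel₀ hx0, one_mul]

/-- The subfield of `ℚ((q))` of ratios of rational `q`-expansions of modular forms of equal
weight on `Γ₀(N)`. -/
def ratioField (N : ℕ) : IntermediateField ℚ (LaurentSeries ℚ) where
  carrier := {x | IsRatio N x}
  mul_mem' hx hy := hx.mul hy
  one_mem' := by simpa using isRatio_algebraMap N 1
  add_mem' hx hy := hx.add hy
  zero_mem' := by simpa using isRatio_algebraMap N 0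
  algebraMap_mem' c := isRatio_algebraMap N c
  inv_mem' _ hx := hx.inv

theorem mem_ratioField {x : LaurentSeries ℚ} : x ∈ ratioField N ↔ IsRatio N x := Iff.rfl

/-! ### The counting argument -/

/-- The formal identity `j · Δ = E₄³`. -/
theorem jq_mul_ofPS_DeltaQ : jq * ofPS DeltaQ = ofPS (E4Q ^ 3) := by
  have h1 : jNumQ * (etaProd ^ 24).map (Int.castRingHom ℚ) = E4Q ^ 3 := by
    have h := dedekindEtaUnit_mul_inv
    rw [dedekindEtaUnit] at h
    rw [jNumQ, ← map_mul, jNum, mul_assoc, mul_comm dedekindEtaUnitInv, h, mul_one, map_pow]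
    rfl
  have h2 : (HahnSeries.single (-1 : ℤ) (1 : ℚ)) * HahnSeries.single (1 : ℤ) (1 : ℚ) = 1 := by
    rw [HahnSeries.single_mul_single]
    simp
  calc jq * ofPS DeltaQ
      = (HahnSeries.single (-1 : ℤ) (1 : ℚ) * HahnSeries.single (1 : ℤ) (1 : ℚ)) *
          ofPS (jNumQ * (etaProd ^ 24).map (Int.castRingHom ℚ)) := by
        rw [jq, DeltaQ, map_mul, map_mul, HahnSeries.ofPowerSeries_X]
        ring
    _ = ofPS (E4Q ^ 3) := by rw [h2, one_mul, h1]

theorem exists_common_denominator {ι : Type*} [Fintype ι] (x : ι → LaurentSeries ℚ)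
    (hx : ∀ i, IsRatio N (x i)) :
    ∃ (K : ℤ) (Q : PowerSeries ℚ) (P : ι → PowerSeries ℚ), IsQExp N K Q ∧ Q ≠ 0 ∧
      ∀ i, IsQExp N K (P i) ∧ x i * ofPS Q = ofPS (P i) := by
  classical
  choose k P Q hP hQ hQ0 h using hx
  refine ⟨∑ i, k i, ∏ i, Q i, fun i => P i * ∏ j ∈ Finset.univ.erase i, Q j,
    IsQExp.prod _ _ _ (fun i _ => hQ i), Finset.prod_ne_zero_iff.mpr (fun i _ => hQ0 i),
    fun i => ⟨?_, ?_⟩⟩
  · have := (hP i).mul (IsQExp.prod (Finset.univ.erase i) k Q (fun j _ => hQ j))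
    exact this.cast (Finset.add_sum_erase _ _ (Finset.mem_univ i))
  · rw [← Finset.mul_prod_erase _ _ (Finset.mem_univ i), map_mul, map_mul, ← mul_assoc, h i]

/-- Auxiliary: a rational matrix with more columns than rows kills a nonzero integer vector. -/
theorem exists_int_kernel {ι : Type*} [Fintype ι] (B : ℕ) (M : Fin (B + 1) → ι → ℚ)
    (hcard : B + 1 < Fintype.card ι) :
    ∃ μ : ι → ℤ, μ ≠ 0 ∧ ∀ r : Fin (B + 1), ∑ p, (μ p : ℚ) * M r p = 0 := by
  classical
  have hker : LinearMap.ker (Matrix.mulVecLin (Matrix.of M)) ≠ ⊥ := by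
    apply LinearMap.ker_ne_bot_of_finrank_lt
    rw [Module.finrank_fintype_fun_eq_card, Module.finrank_fintype_fun_eq_card, Fintype.card_fin]
    exact hcard
  obtain ⟨l, hl, hl0⟩ := Submodule.exists_mem_ne_zero_of_ne_bot hker
  rw [LinearMap.mem_ker, Matrix.mulVecLin_apply] at hl
  obtain ⟨b, hb⟩ := IsLocalization.exist_integer_multiples_of_finite (nonZeroDivisors ℤ) l
  choose μ hμ using hb
  have hb0 : ((b : ℤ) : ℚ) ≠ 0 := by
    exact_mod_cast nonZeroDivisors.ne_zero b.2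
  have hμ' : ∀ p, (μ p : ℚ) = (b : ℤ) * l p := by
    intro p
    have := hμ p
    simpa [zsmul_eq_mul] using this
  refine ⟨μ, ?_, fun r => ?_⟩
  · intro h0
    apply hl0
    funext p
    have : (μ p : ℚ) = 0 := by rw [h0]; simp
    rw [hμ' p] at this
    exact (mul_eq_zero.mp this).resolve_left hb0
  · have hr := congrFun hl r
    simp only [Matrix.mulVec, dotProduct, Matrix.of_apply, Pi.zero_apply] at hr
    calc ∑ p, (μ p : ℚ) * M r p = (b : ℤ) * ∑ p, M r p * l p := by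
          rw [Finset.mul_sum]
          refine Finset.sum_congr rfl fun p _ => ?_
          rw [hμ' p]; ring
      _ = 0 := by rw [hr, mul_zero]

/-- The counting argument, for any `n` for which the Sturm-type vanishing statement holds. -/
theorem exists_int_relation_aux (n : ℕ)
    (hSturm : ∀ (k : ℤ) (s : PowerSeries ℚ), IsQExp N k s →
      (∀ r : ℕ, r ≤ (k * (n : ℤ)).toNat / 12 → PowerSeries.coeff r s = 0) → s = 0)
    (x : Fin (n + 1) → LaurentSeries ℚ) (hx : ∀ i, IsRatio N (x i)) :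
    ∃ c : Fin (n + 1) → Polynomial ℤ, c ≠ 0 ∧ ∑ i, Polynomial.aeval jq (c i) * x i = 0 := by
  classical
  obtain ⟨K, Q, P, hQ, hQ0, hP⟩ := exists_common_denominator x hx
  set m : ℕ := K.natAbs * n + 1 with hm
  set B : ℕ := ((K + 12 * (m : ℤ)) * (n : ℤ)).toNat / 12 with hB
  -- the family of forms of weight `K + 12 m`
  set g : Fin (m + 1) × Fin (n + 1) → PowerSeries ℚ :=
    fun p => E4Q ^ (3 * (p.1 : ℕ)) * DeltaQ ^ (m - (p.1 : ℕ)) * P p.2 with hg_def
  have hg : ∀ p, IsQExp N (K + 12 * (m : ℤ)) (g p) := by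
    intro p
    have h1 := ((isQExp_E4 N).pow (3 * (p.1 : ℕ))).mul ((isQExp_Delta N).pow (m - (p.1 : ℕ)))
    have h2 := h1.mul (hP p.2).1
    refine h2.cast ?_
    have hle : (p.1 : ℕ) ≤ m := Nat.lt_succ_iff.mp p.1.2
    push_cast [Nat.cast_sub hle]
    ring
  -- the bound
  have hBle : B ≤ K.natAbs * n + m * n := by
    rw [hB]
    apply Nat.div_le_of_le_mul
    have h1 : ((K + 12 * (m : ℤ)) * (n : ℤ)).toNat ≤ (K.natAbs + 12 * m) * n := by
      rw [Int.toNat_le]
      have hK : K ≤ (K.natAbs : ℤ) := Int.le_natAbs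
      have hn0 : (0 : ℤ) ≤ (n : ℤ) := Int.natCast_nonneg n
      have h2 : (((K.natAbs + 12 * m) * n : ℕ) : ℤ) =
          ((K.natAbs : ℤ) + 12 * (m : ℤ)) * (n : ℤ) := by
        simp only [Nat.cast_mul, Nat.cast_add, Nat.cast_ofNat]
      rw [h2]
      exact mul_le_mul_of_nonneg_right (by linarith) hn0
    calc ((K + 12 * (m : ℤ)) * (n : ℤ)).toNat ≤ (K.natAbs + 12 * m) * n := h1
      _ ≤ 12 * (K.natAbs * n + m * n) := by nlinarith [Nat.zero_le (K.natAbs * n)]
  have hcard : B + 1 < Fintype.card (Fin (m + 1) × Fin (n + 1)) := by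
    rw [Fintype.card_prod, Fintype.card_fin, Fintype.card_fin]
    have : (m + 1) * (n + 1) = m * n + m + n + 1 := by ring
    rw [this]
    omega
  -- a nonzero integer vector in the kernel of the coefficient matrix
  obtain ⟨μ, hμ0, hμ⟩ := exists_int_kernel B
    (fun (r : Fin (B + 1)) (p : Fin (m + 1) × Fin (n + 1)) => PowerSeries.coeff (r : ℕ) (g p)) hcard
  -- the corresponding combination vanishes by Sturm
  have hs : ∑ p, PowerSeries.C (μ p : ℚ) * g p = 0 := by
    apply hSturm (K + 12 * (m : ℤ)) _ (IsQExp.sum _ _ fun p _ => (hg p).C_mul _)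
    intro r hr
    rw [map_sum]
    simp only [PowerSeries.coeff_C_mul]
    exact hμ ⟨r, Nat.lt_succ_of_le hr⟩
  -- translate to Laurent series
  have hD0 : ofPS DeltaQ ≠ 0 := ofPS_ne_zero DeltaQ_ne_zero
  have hgL : ∀ p : Fin (m + 1) × Fin (n + 1),
      ofPS (g p) = jq ^ (p.1 : ℕ) * x p.2 * (ofPS DeltaQ ^ m * ofPS Q) := by
    intro p
    have hle : (p.1 : ℕ) ≤ m := Nat.lt_succ_iff.mp p.1.2
    rw [hg_def]
    simp only
    rw [map_mul, map_mul, map_pow, map_pow, pow_mul, ← map_pow, ← jq_mul_ofPS_DeltaQ, ← (hP p.2).2,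
      mul_pow]
    have : ofPS DeltaQ ^ m = ofPS DeltaQ ^ (p.1 : ℕ) * ofPS DeltaQ ^ (m - (p.1 : ℕ)) := by
      rw [← pow_add, Nat.add_sub_cancel' hle]
    rw [this]
    ring
  have hsL : (∑ i, (∑ a : Fin (m + 1), ((μ (a, i) : ℤ) : LaurentSeries ℚ) * jq ^ (a : ℕ)) * x i) *
      (ofPS DeltaQ ^ m * ofPS Q) = 0 := by
    have h0 := congrArg ofPS hs
    rw [map_zero, map_sum] at h0
    rw [← h0, Fintype.sum_prod_type_right, Finset.sum_mul]
    refine Finset.sum_congr rfl fun i _ => ?_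
    rw [Finset.sum_mul, Finset.sum_mul]
    refine Finset.sum_congr rfl fun a _ => ?_
    rw [map_mul, hgL (a, i), HahnSeries.ofPowerSeries_C]
    have : (HahnSeries.C ((μ (a, i) : ℤ) : ℚ) : LaurentSeries ℚ) = ((μ (a, i) : ℤ) : LaurentSeries ℚ) := by
      rw [← map_intCast (HahnSeries.C : ℚ →+* LaurentSeries ℚ)]
    rw [this]
    ring
  have hrel : ∑ i, (∑ a : Fin (m + 1), ((μ (a, i) : ℤ) : LaurentSeries ℚ) * jq ^ (a : ℕ)) * x i = 0 :=
    (mul_eq_zero.mp hsL).resolve_right (mul_ne_zero (pow_ne_zero _ hD0) (ofPS_ne_zero hQ0))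
  -- the polynomials
  refine ⟨fun i => ∑ a : Fin (m + 1), Polynomial.monomial (a : ℕ) (μ (a, i)), ?_, ?_⟩
  · intro hc
    apply hμ0
    funext p
    obtain ⟨a, i⟩ := p
    have h1 := congrArg (fun q : Polynomial ℤ => q.coeff (a : ℕ)) (congrFun hc i)
    simp only [Pi.zero_apply, Polynomial.coeff_zero, Polynomial.finsetSum_coeff,
      Polynomial.coeff_monomial] at h1
    rw [Finset.sum_eq_single a] at h1
    · simpa using h1
    · intro b _ hb
      rw [if_neg]
      exact fun h => hb (Fin.ext h)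
    · intro h
      exact absurd (Finset.mem_univ a) h
  · rw [← hrel]
    refine Finset.sum_congr rfl fun i _ => ?_
    rw [map_sum]
    congr 1
    refine Finset.sum_congr rfl fun a _ => ?_
    rw [Polynomial.aeval_monomial, eq_intCast]

/-- **Degree bound by Sturm counting.** Any `[SL₂(ℤ) : Γ₀(N)] + 1` elements of the field of
ratios of level `N` are linearly dependent over `ℤ[j]`. -/
theorem exists_int_relation (N : ℕ) [NeZero N]
    (x : Fin ((CongruenceSubgroup.Gamma0 N).index + 1) → LaurentSeries ℚ)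
    (hx : ∀ i, x i ∈ ratioField N) :
    ∃ c : Fin ((CongruenceSubgroup.Gamma0 N).index + 1) → Polynomial ℤ,
      c ≠ 0 ∧ ∑ i, Polynomial.aeval jq (c i) * x i = 0 :=
  exists_int_relation_aux _ (fun _ _ h hc => h.eq_zero_of_coeff hc) x hx

/-! ### Level raising `f(τ) ↦ f(dτ)` -/

theorem diag_mul_of_mem_Gamma0 {d : ℕ} (hd : d ∣ N) (hd0 : d ≠ 0) {γ : SL(2, ℤ)}
    (hγ : γ ∈ Gamma0 N) :
    ∃ γ' : SL(2, ℤ), heckeDiagMatrix d * SpecialLinearGroup.mapGL ℝ γ =
      SpecialLinearGroup.mapGL ℝ γ' * heckeDiagMatrix d := by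
  rw [Gamma0_mem, ZMod.intCast_zmod_eq_zero_iff_dvd] at hγ
  obtain ⟨c', hc'⟩ : (d : ℤ) ∣ γ 1 0 := (Int.natCast_dvd_natCast.mpr hd).trans hγ
  have hdet : γ 0 0 * γ 1 1 - γ 0 1 * γ 1 0 = 1 := by
    have := γ.det_coe
    rw [det_fin_two] at this
    exact this
  have hd0' : (d : ℤ) ≠ 0 := by exact_mod_cast hd0
  obtain ⟨γ', g00, g01, g10, g11⟩ : ∃ γ' : SL(2, ℤ), γ' 0 0 = γ 0 0 ∧ γ' 0 1 = d * γ 0 1 ∧
      γ' 1 0 = c' ∧ γ' 1 1 = γ 1 1 :=
    ⟨⟨!![γ 0 0, d * γ 0 1; c', γ 1 1], by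
      rw [det_fin_two_of]; rw [hc'] at hdet; linarith⟩, rfl, rfl, rfl, rfl⟩
  refine ⟨γ', ?_⟩
  have e10 : ((γ 1 0 : ℤ) : ℝ) = d * c' := by exact_mod_cast hc'
  ext i j
  fin_cases i <;> fin_cases j <;>
    simp [val_heckeDiagMatrix hd0, Matrix.mul_apply, Fin.sum_univ_two, g00, g01, g10, g11] <;>
    linarith

open ConjAct Pointwise in
theorem G0_le_conj {d : ℕ} (hd : d ∣ N) (hd0 : d ≠ 0) :
    G0 N ≤ toConjAct (heckeDiagMatrix d)⁻¹ • 𝒮ℒ := by
  rintro _ ⟨γ, hγ, rfl⟩
  obtain ⟨γ', hγ'⟩ := diag_mul_of_mem_Gamma0 hd hd0 hγ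
  rw [Subgroup.mem_pointwise_smul_iff_inv_smul_mem, ← map_inv, inv_inv, ConjAct.toConjAct_smul]
  refine ⟨γ', ?_⟩
  show SpecialLinearGroup.mapGL ℝ γ' =
    heckeDiagMatrix d * SpecialLinearGroup.mapGL ℝ γ * (heckeDiagMatrix d)⁻¹
  rw [hγ', mul_inv_cancel_right]

/-- `τ ↦ d^(k-1) f(dτ)` as a modular form on `Γ₀(N)`, for `f` of level one and `d ∣ N`. -/
def levelRaise {d : ℕ} (hd : d ∣ N) (hd0 : d ≠ 0) {k : ℤ} (f : ModularForm 𝒮ℒ k) :
    ModularForm (G0 N) k where
  toFun := ModularForm.translate f (heckeDiagMatrix d)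
  slash_action_eq' γ hγ :=
    (ModularForm.translate f (heckeDiagMatrix d)).slash_action_eq' γ (G0_le_conj hd hd0 hγ)
  holo' := (ModularForm.translate f (heckeDiagMatrix d)).holo'
  bdd_at_cusps' hc :=
    (ModularForm.translate f (heckeDiagMatrix d)).bdd_at_cusps' (hc.mono (G0_le_conj hd hd0))

theorem levelRaise_apply {d : ℕ} (hd : d ∣ N) (hd0 : d ≠ 0) {k : ℤ} (f : ModularForm 𝒮ℒ k)
    (τ : ℍ) : levelRaise hd hd0 f τ = (d : ℂ) ^ (k - 1) * f (heckeDiagMatrix d • τ) := by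
  show (⇑f ∣[k] heckeDiagMatrix d) τ = _
  exact slash_heckeDiagMatrix_apply k hd0 f τ

theorem qParam_heckeDiagMatrix_smul {d : ℕ} (hd0 : d ≠ 0) (τ : ℍ) :
    Function.Periodic.qParam 1 ((heckeDiagMatrix d • τ : ℍ) : ℂ) =
      Function.Periodic.qParam 1 (τ : ℂ) ^ d := by
  rw [coe_heckeDiagMatrix_smul hd0, Function.Periodic.qParam, Function.Periodic.qParam,
    ← Complex.exp_nat_mul]
  congr 1
  simp only [Complex.ofReal_one, div_one]
  ring

theorem qExpansion_levelRaise {d : ℕ} (hd : d ∣ N) (hd0 : d ≠ 0) {k : ℤ}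
    (f : ModularForm 𝒮ℒ k) :
    qExpansion 1 (levelRaise hd hd0 f) =
      PowerSeries.C ((d : ℂ) ^ (k - 1)) * PowerSeries.expand d hd0 (qExpansion 1 f) := by
  ext n
  rw [PowerSeries.coeff_C_mul]
  refine (ModularFormClass.qExpansion_coeff_unique one_pos (one_mem_strictPeriods_G0 N)
    (f := levelRaise hd hd0 f)
    (c := fun n => (d : ℂ) ^ (k - 1) *
      PowerSeries.coeff n (PowerSeries.expand d hd0 (qExpansion 1 f))) ?_ n).symm
  intro τ
  have h1 := ModularForm.hasSum_qExpansion (f := f) one_pos one_mem_strictPeriods_SL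
    (heckeDiagMatrix d • τ)
  rw [qParam_heckeDiagMatrix_smul hd0] at h1
  have hinj : Function.Injective (fun m : ℕ => d * m) := fun a b h =>
    Nat.eq_of_mul_eq_mul_left (Nat.pos_of_ne_zero hd0) h
  have h2 : HasSum (fun n : ℕ => PowerSeries.coeff n (PowerSeries.expand d hd0 (qExpansion 1 f)) *
      Function.Periodic.qParam 1 (τ : ℂ) ^ n) (f (heckeDiagMatrix d • τ)) := by
    rw [← hinj.hasSum_iff]
    · have hfun : ((fun n : ℕ => PowerSeries.coeff n (PowerSeries.expand d hd0 (qExpansion 1 f)) *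
          Function.Periodic.qParam 1 (τ : ℂ) ^ n) ∘ fun m : ℕ => d * m) =
          fun m : ℕ => PowerSeries.coeff m (qExpansion 1 f) *
            (Function.Periodic.qParam 1 (τ : ℂ) ^ d) ^ m := by
        funext m
        simp only [Function.comp_apply, PowerSeries.coeff_expand_mul, pow_mul]
      rw [hfun]
      exact h1
    · intro n hn
      have hnd : ¬ d ∣ n := fun ⟨m, hm⟩ => hn ⟨m, hm.symm⟩
      rw [PowerSeries.coeff_expand_of_not_dvd d hd0 _ hnd, zero_mul]
  rw [levelRaise_apply]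
  have h3 := h2.mul_left ((d : ℂ) ^ (k - 1))
  have hfun2 : ∀ n : ℕ, ((d : ℂ) ^ (k - 1) *
      PowerSeries.coeff n (PowerSeries.expand d hd0 (qExpansion 1 f))) •
        Function.Periodic.qParam 1 (τ : ℂ) ^ n =
      (d : ℂ) ^ (k - 1) * (PowerSeries.coeff n (PowerSeries.expand d hd0 (qExpansion 1 f)) *
        Function.Periodic.qParam 1 (τ : ℂ) ^ n) := fun n => by rw [smul_eq_mul, mul_assoc]
  simp only [hfun2]
  exact h3

/-- **Level raising.** If `s` is the `q`-expansion of a level-one form of weight `k` and `d ∣ N`,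
then `s(q^d)` is the `q`-expansion of a form of weight `k` on `Γ₀(N)`. -/
theorem isQExp_expand {d : ℕ} (hd : d ∣ N) (hd0 : d ≠ 0) {k : ℤ} {s : PowerSeries ℚ}
    (f : ModularForm 𝒮ℒ k) (hf : qExpansion 1 f = toC s) :
    IsQExp N k (PowerSeries.expand d hd0 s) := by
  have hdQ : (d : ℚ) ≠ 0 := by exact_mod_cast hd0
  have h1 : IsQExp N k (PowerSeries.C ((d : ℚ) ^ (k - 1)) * PowerSeries.expand d hd0 s) := by
    refine ⟨levelRaise hd hd0 f, ?_⟩
    rw [qExpansion_levelRaise, hf, map_mul, PowerSeries.map_expand, PowerSeries.map_C]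
    congr 2
    simp
  have h2 := h1.C_mul ((d : ℚ) ^ (1 - k))
  rw [← mul_assoc, ← map_mul, ← zpow_add₀ hdQ] at h2
  simpa using h2

theorem isQExp_E4_expand {d : ℕ} (hd : d ∣ N) (hd0 : d ≠ 0) :
    IsQExp N 4 (PowerSeries.expand d hd0 E4Q) :=
  isQExp_expand hd hd0 E₄ (by rw [toC_E4Q, ← Fermat.Agent.Lib.helper1348.qExpansion_E₄_eq])

theorem isQExp_Delta_expand {d : ℕ} (hd : d ∣ N) (hd0 : d ≠ 0) :
    IsQExp N 12 (PowerSeries.expand d hd0 DeltaQ) :=
  isQExp_expand hd hd0 (ModularFormClass.modularForm CuspForm.discriminant) (by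
    rw [toC_DeltaQ, ← Fermat.Agent.Lib.helper1348.qExpansion_discriminant_eq]; rfl)

theorem expand_DeltaQ_ne_zero {d : ℕ} (hd0 : d ≠ 0) : PowerSeries.expand d hd0 DeltaQ ≠ 0 := by
  intro h
  have h1 := PowerSeries.coeff_expand_mul d hd0 DeltaQ 1
  rw [h, coeff_one_DeltaQ] at h1
  simp at h1

/-! ### The function field of `X₀(N)` and the eta quotients lie in the field of ratios -/

/-- `q ↦ q^d` on Laurent series is `PowerSeries.expand` on power series. -/
theorem qExpand_ofPS (d : ℕ) [NeZero d] (s : PowerSeries ℚ) :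
    qExpand ℚ d (ofPS s) = ofPS (PowerSeries.expand d (NeZero.ne d) s) := by
  ext k
  by_cases hk : (d : ℤ) ∣ k
  · obtain ⟨k', rfl⟩ := hk
    rw [qExpand_coeff_mul]
    rcases le_or_gt 0 k' with h | h
    · lift k' to ℕ using h
      rw [show (d : ℤ) * (k' : ℤ) = ((d * k' : ℕ) : ℤ) by push_cast; rfl,
        HahnSeries.ofPowerSeries_apply_coeff, HahnSeries.ofPowerSeries_apply_coeff,
        PowerSeries.coeff_expand_mul]
    · have hd : (0 : ℤ) < d := by exact_mod_cast Nat.pos_of_ne_zero (NeZero.ne d)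
      rw [ofPowerSeries_coeff_of_neg _ h, ofPowerSeries_coeff_of_neg _ (by nlinarith)]
  · rw [qExpand_coeff_of_not_dvd d _ hk]
    rcases le_or_gt 0 k with h | h
    · lift k to ℕ using h
      rw [HahnSeries.ofPowerSeries_apply_coeff, PowerSeries.coeff_expand_of_not_dvd]
      exact fun h' => hk (Int.natCast_dvd_natCast.mpr h')
    · rw [ofPowerSeries_coeff_of_neg _ h]

theorem mem_ratioField_of_eq {k : ℤ} {P Q : PowerSeries ℚ} (hP : IsQExp N k P)
    (hQ : IsQExp N k Q) (hQ0 : Q ≠ 0) {x : LaurentSeries ℚ} (h : x * ofPS Q = ofPS P) :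
    x ∈ ratioField N :=
  ⟨k, P, Q, hP, hQ, hQ0, h⟩

/-- `j(q^d)` is a ratio of forms of weight `12` on `Γ₀(N)` for `d ∣ N`. -/
theorem qExpand_jq_mem_ratioField {d : ℕ} [NeZero d] (hd : d ∣ N) :
    qExpand ℚ d jq ∈ ratioField N := by
  refine mem_ratioField_of_eq (P := PowerSeries.expand d (NeZero.ne d) (E4Q ^ 3))
    ?_ (isQExp_Delta_expand hd (NeZero.ne d)) (expand_DeltaQ_ne_zero _) ?_
  · rw [map_pow]
    exact ((isQExp_E4_expand hd (NeZero.ne d)).pow 3).cast (by norm_num)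
  · rw [← qExpand_ofPS, ← qExpand_ofPS, ← map_mul, jq_mul_ofPS_DeltaQ]

/-- The function field `ℚ(j(q^d) : d ∣ N)` is contained in the field of ratios of level `N`. -/
theorem full_le_ratioField (N : ℕ) : modularFunctionFieldFull N ≤ ratioField N := by
  rw [modularFunctionFieldFull, IntermediateField.adjoin_le_iff]
  rintro x ⟨d, hne, hdvd, rfl⟩
  have : NeZero d := hne
  exact qExpand_jq_mem_ratioField hdvd

/-- The formal discriminant as a Laurent series with rational coefficients. -/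
def DeltaL : LaurentSeries ℚ := ofPS DeltaQ

theorem DeltaL_ne_zero : DeltaL ≠ 0 := ofPS_ne_zero DeltaQ_ne_zero

/-- `Δ(q^d) / Δ(q^e)` lies in the field of ratios of level `N` for `d, e ∣ N`. -/
theorem qExpand_DeltaL_div_mem_ratioField {d e : ℕ} [NeZero d] [NeZero e] (hd : d ∣ N)
    (he : e ∣ N) : qExpand ℚ d DeltaL / qExpand ℚ e DeltaL ∈ ratioField N := by
  have hne : qExpand ℚ e DeltaL ≠ 0 := fun h =>
    DeltaL_ne_zero (qExpand_injective e (by rw [h, map_zero]))
  refine mem_ratioField_of_eq (isQExp_Delta_expand hd (NeZero.ne d))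
    (isQExp_Delta_expand he (NeZero.ne e)) (expand_DeltaQ_ne_zero _) ?_
  rw [← qExpand_ofPS, ← qExpand_ofPS]
  exact div_mul_cancel₀ _ hne

/-- `Δ(q^d) / Δ(q)` lies in the field of ratios of level `N` for `d ∣ N`. -/
theorem qExpand_DeltaL_div_DeltaL_mem_ratioField {d : ℕ} [NeZero d] (hd : d ∣ N) :
    qExpand ℚ d DeltaL / DeltaL ∈ ratioField N := by
  have := qExpand_DeltaL_div_mem_ratioField (N := N) (d := d) (e := 1) hd (one_dvd N)
  rwa [qExpand_one_apply] at this

end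

end Fermat.Agent.S28.helper4768
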