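import Mathlib

/-!
# Scaling lemma for integrality (board row 305, S28-CORE-K1)

If `D` is an integrally closed domain, `z` lies in a field `L ⊇ D`, both `d₁ z` and `d₂ z` are
integral over `D`, and `d₁, d₂` are "coprime" in the weak sense `hcop`, then `z` is integral
over `D`.
-/

namespace Fermat.Agent.S28.helper3069

/-- Algebra form of the scaling lemma, with the fraction field `E` of `D` sitting inside `L`. -/
theorem isIntegral_of_scaled_aux {D E L : Type*} [CommRing D] [IsDomain D] [IsIntegrallyClosed D]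
    [Field E] [Algebra D E] [IsFractionRing D E] [Field L] [Algebra D L] [Algebra E L]
    [IsScalarTower D E L]
    (z : L) (d₁ d₂ : D) (hd₁ : d₁ ≠ 0) (hd₂ : d₂ ≠ 0)
    (h₁ : IsIntegral D (algebraMap D L d₁ * z)) (h₂ : IsIntegral D (algebraMap D L d₂ * z))
    (hcop : ∀ (i : ℕ) (e₁ e₂ : D), d₂ ^ i * e₁ = d₁ ^ i * e₂ → d₁ ^ i ∣ e₁) :
    IsIntegral D z := by
  have hinj : Function.Injective (algebraMap D E) := IsFractionRing.injective D E
  have hne : ∀ d : D, d ≠ 0 → algebraMap D E d ≠ 0 := fun d hd =>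
    (map_ne_zero_iff (algebraMap D E) hinj).mpr hd
  have hzE : IsIntegral E z := by
    have h : IsIntegral E (algebraMap D L d₁ * z) := h₁.tower_top
    have h' : IsIntegral E (algebraMap E L (algebraMap D E d₁)⁻¹ * (algebraMap D L d₁ * z)) :=
      isIntegral_algebraMap.mul h
    have hL : algebraMap E L (algebraMap D E d₁) ≠ 0 :=
      (map_ne_zero_iff _ (algebraMap E L).injective).mpr (hne d₁ hd₁)
    rwa [map_inv₀, IsScalarTower.algebraMap_apply D E L, inv_mul_cancel_left₀ hL] at h'
  have key : ∀ d : D, d ≠ 0 → IsIntegral D (algebraMap D L d * z) → ∀ k : ℕ,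
      ∃ e : D, algebraMap D E e =
        (minpoly E z).coeff k * (algebraMap D E d) ^ ((minpoly E z).natDegree - k) := by
    intro d hd hint k
    have e1 : minpoly E (algebraMap D L d * z) =
        (minpoly D (algebraMap D L d * z)).map (algebraMap D E) :=
      minpoly.isIntegrallyClosed_eq_field_fractions' E hint
    have e2 : minpoly E (algebraMap D E d • z) = (minpoly E z).scaleRoots (algebraMap D E d) :=
      IsIntegrallyClosed.minpoly_smul (hne d hd) hzE
    rw [Algebra.smul_def, ← IsScalarTower.algebraMap_apply] at e2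
    refine ⟨(minpoly D (algebraMap D L d * z)).coeff k, ?_⟩
    rw [← Polynomial.coeff_map, ← e1, e2, Polynomial.coeff_scaleRoots]
  have hlift : minpoly E z ∈ Polynomial.lifts (algebraMap D E) := by
    rw [Polynomial.lifts_iff_coeff_lifts]
    intro k
    obtain ⟨e₁, he₁⟩ := key d₁ hd₁ h₁ k
    obtain ⟨e₂, he₂⟩ := key d₂ hd₂ h₂ k
    have hrel : d₂ ^ ((minpoly E z).natDegree - k) * e₁ =
        d₁ ^ ((minpoly E z).natDegree - k) * e₂ := by
      apply hinj
      simp only [map_mul, map_pow, he₁, he₂]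
      ring
    obtain ⟨c, hc⟩ := hcop _ _ _ hrel
    refine ⟨c, ?_⟩
    have hpow : algebraMap D E d₁ ^ ((minpoly E z).natDegree - k) ≠ 0 := pow_ne_zero _ (hne d₁ hd₁)
    have h3 : algebraMap D E c * algebraMap D E d₁ ^ ((minpoly E z).natDegree - k) =
        (minpoly E z).coeff k * algebraMap D E d₁ ^ ((minpoly E z).natDegree - k) := by
      rw [← he₁, hc, map_mul, map_pow, mul_comm]
    exact mul_right_cancel₀ hpow h3
  obtain ⟨P, hP, -, hmonic⟩ :=
    Polynomial.lifts_and_natDegree_eq_and_monic hlift (minpoly.monic hzE)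
  refine ⟨P, hmonic, ?_⟩
  have h0 : Polynomial.aeval z (P.map (algebraMap D E)) = 0 := by
    rw [hP]; exact minpoly.aeval E z
  rwa [Polynomial.aeval_map_algebraMap] at h0

/-- **Scaling lemma** (board row 305): for an injective ring hom `f : D →+* L` from an integrally
closed domain into a field, if `f d₁ * z` and `f d₂ * z` are both integral over `D` (via `f`)
and `d₁`, `d₂` satisfy the coprimality-type condition `hcop`, then `z` is integral over `D`. -/
theorem isIntegralElem_of_scaled {D L : Type*} [CommRing D] [IsDomain D] [IsIntegrallyClosed D]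
    [Field L] (f : D →+* L) (hf : Function.Injective f) (z : L) (d₁ d₂ : D) (hd₁ : d₁ ≠ 0)
    (hd₂ : d₂ ≠ 0) (h₁ : f.IsIntegralElem (f d₁ * z)) (h₂ : f.IsIntegralElem (f d₂ * z))
    (hcop : ∀ (i : ℕ) (e₁ e₂ : D), d₂ ^ i * e₁ = d₁ ^ i * e₂ → d₁ ^ i ∣ e₁) :
    f.IsIntegralElem z := by
  let _ : Algebra D L := f.toAlgebra
  have hinj : Function.Injective (algebraMap D L) := hf
  let _ : Algebra (FractionRing D) L := (IsFractionRing.lift hinj).toAlgebra
  have : IsScalarTower D (FractionRing D) L :=
    IsScalarTower.of_algebraMap_eq fun x => (IsFractionRing.lift_algebraMap hinj x).symm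
  exact isIntegral_of_scaled_aux (E := FractionRing D) z d₁ d₂ hd₁ hd₂ h₁ h₂ hcop

end Fermat.Agent.S28.helper3069
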