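import Fermat.Agent.S28.helper1588_Gauss
import Fermat.Agent.S28.helper2608_Spec
import Fermat.Agent.S28.helper3292_JqFacts
import Fermat.Agent.S28.helper3069_ScaledIntegral
import Fermat.Agent.S28.helper508_RatLoc

/-!
# S28 algebra core: `Spec.Stmt_Core N ℓ`

From the modular input `Spec.Stmt_CoreInput N ℓ` we construct, for each of the three chart
algebras of the Igusa scheme, a ring hom to `𝔽_ℓ((q))` with kernel `ℓ • chart`.
-/

set_option autoImplicit false
set_option linter.unusedSectionVars false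

noncomputable section

open ModularCurve ModularCurve.IgusaScheme Polynomial

namespace Fermat.Agent.S28.helper1588

variable (ℓ : ℕ) [Fact ℓ.Prime]

/-! ### Integer series inside the Gauss ring -/

/-- `ℤ((q)) → ℤ_(ℓ)((q))`. -/
def liftZ : LaurentSeries ℤ →+* LZ ℓ := coeffMap (Int.castRingHom (Zl ℓ))

theorem incl_liftZ (a : LaurentSeries ℤ) : incl ℓ (liftZ ℓ a) = Spec.toQ a := by
  rw [incl, liftZ, coeffMap_coeffMap]
  exact coeffMap_congr (RingHom.ext_int _ _) a

theorem red_liftZ (a : LaurentSeries ℤ) : red ℓ (liftZ ℓ a) = Spec.toFl ℓ a := by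
  rw [red, liftZ, coeffMap_coeffMap]
  exact coeffMap_congr (RingHom.ext_int _ _) a

theorem toQ_mem_OSub (a : LaurentSeries ℤ) : Spec.toQ a ∈ OSub ℓ := by
  rw [← incl_liftZ ℓ]; exact incl_mem_OSub ℓ _

theorem redS_toQ (a : LaurentSeries ℤ) : redS ℓ ⟨Spec.toQ a, toQ_mem_OSub ℓ a⟩ = Spec.toFl ℓ a := by
  have h := redS_incl ℓ (liftZ ℓ a)
  rw [red_liftZ] at h
  rw [← h]
  congr 1

theorem toQ_injective : Function.Injective Spec.toQ := by
  intro a b h
  ext k
  have := congrArg (fun x => x.coeff k) h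
  simpa using this

instance : IsIntegrallyClosed (Polynomial (Zl ℓ)) := inferInstance

theorem prime_natCast_poly : Prime ((ℓ : ℕ) : Polynomial (Zl ℓ)) := by
  have h : ((ℓ : ℕ) : Polynomial (Zl ℓ)) = Polynomial.C ((ℓ : ℕ) : Zl ℓ) := by simp
  rw [h, Polynomial.prime_C_iff]
  exact helper508.prime_ell ℓ


/-! ### The fraction field `QW` contains the modular function field -/

theorem algebraMap_mem_QW (r : ℚ) : algebraMap ℚ (LaurentSeries ℚ) r ∈ QW ℓ := by
  rw [eq_ratCast]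
  exact SubfieldClass.ratCast_mem (QW ℓ) r

/-- `QW` as an intermediate field. -/
def QWI : IntermediateField ℚ (LaurentSeries ℚ) :=
  (QW ℓ).toIntermediateField (algebraMap_mem_QW ℓ)

theorem mem_QWI_iff (f : LaurentSeries ℚ) : f ∈ QWI ℓ ↔ f ∈ QW ℓ := Iff.rfl

theorem toQ_jqModC : Spec.toQ (jqModC ℤ) = jq := by
  show coeffMap (Int.castRingHom ℚ) (jqModC ℤ) = jq
  rw [coeffMap_jqModC]
  rfl

theorem toFl_jqModC : Spec.toFl ℓ (jqModC ℤ) = jqModC (ZMod ℓ) := by
  show coeffMap (Int.castRingHom (ZMod ℓ)) (jqModC ℤ) = _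
  rw [coeffMap_jqModC]

theorem modularFunctionFieldFull_le_QWI (N : ℕ) : modularFunctionFieldFull N ≤ QWI ℓ := by
  rw [modularFunctionFieldFull, IntermediateField.adjoin_le_iff]
  rintro x ⟨d, hd, -, rfl⟩
  have := hd
  have h : qExpand ℚ d jq = Spec.toQ (qExpand ℤ d (jqModC ℤ)) := by
    show _ = coeffMap (Int.castRingHom ℚ) (qExpand ℤ d (jqModC ℤ))
    rw [coeffMap_qExpand, coeffMap_jqModC]
    rfl
  show qExpand ℚ d jq ∈ QW ℓ
  rw [h, ← incl_liftZ ℓ]
  exact incl_mem_QW ℓ _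

theorem jq_mem_OSub : jq ∈ OSub ℓ := by
  rw [← toQ_jqModC]; exact toQ_mem_OSub ℓ _

theorem redS_jq : redS ℓ ⟨jq, jq_mem_OSub ℓ⟩ = jqModC (ZMod ℓ) := by
  have h := redS_toQ ℓ (jqModC ℤ)
  rw [toFl_jqModC] at h
  rw [← h]
  congr 1
  exact Subtype.ext (toQ_jqModC).symm

theorem jq_inv_mem_OSub : jq⁻¹ ∈ OSub ℓ := by
  refine (mem_OSub_iff ℓ _).mpr ⟨1, liftZ ℓ (jqModC ℤ), ?_, ?_⟩
  · rw [red_liftZ, toFl_jqModC]
    exact jqModC_ne_zero_of_nontrivial _
  · rw [incl_liftZ, toQ_jqModC, map_one]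
    exact inv_mul_cancel₀ jq_ne_zero

/-! ### Chart algebras lie in the Gauss ring -/

/-- the structure map `ℤ_(ℓ) → ℚ((q))`. -/
def ZlToLS : Zl ℓ →+* LaurentSeries ℚ :=
  (algebraMap ℚ (LaurentSeries ℚ)).comp (GaloisRep.ratLocalizedAt ℓ).subtype

theorem ZlToLS_mem_OSub (a : Zl ℓ) : ZlToLS ℓ a ∈ OSub ℓ := by
  have h : ZlToLS ℓ a = incl ℓ (HahnSeries.single 0 a) := by
    show algebraMap ℚ (LaurentSeries ℚ) (a : ℚ) = coeffMap _ (HahnSeries.single 0 a)
    rw [coeffMap_single, helper3292.algebraMap_eq_single]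
    rfl
  rw [h]
  exact incl_mem_OSub ℓ _

variable (N : ℕ) [NeZero N]

/-- the coercion `F → ℚ((q))` as a ring hom. -/
def coeF : ↥(modularFunctionFieldFull N) →+* LaurentSeries ℚ where
  toFun x := (x : LaurentSeries ℚ)
  map_one' := rfl
  map_mul' _ _ := rfl
  map_zero' := rfl
  map_add' _ _ := rfl

theorem coeF_apply (x : ↥(modularFunctionFieldFull N)) : coeF N x = (x : LaurentSeries ℚ) := rfl

theorem coeF_injective : Function.Injective (coeF N) := fun _ _ h => Subtype.ext h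

theorem coe_algebraMap_Zl (a : Zl ℓ) :
    ((algebraMap (Zl ℓ) ↥(modularFunctionFieldFull N) a : ↥(modularFunctionFieldFull N)) :
      LaurentSeries ℚ) = ZlToLS ℓ a := by
  have h1 : algebraMap (Zl ℓ) ↥(modularFunctionFieldFull N) a =
      algebraMap ℚ ↥(modularFunctionFieldFull N) (algebraMap (Zl ℓ) ℚ a) :=
    IsScalarTower.algebraMap_apply _ _ _ _
  rw [h1]
  simp only [eq_ratCast, ZlToLS, RingHom.coe_comp, Function.comp_apply]
  rfl

/-- the chart algebra of a set of generators lying in the Gauss ring lies in the Gauss ring. -/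
theorem coe_mem_OSub_of_mem_chartAlg (S : Set ↥(modularFunctionFieldFull N))
    (hS : ∀ s ∈ S, ((s : ↥(modularFunctionFieldFull N)) : LaurentSeries ℚ) ∈ OSub ℓ)
    (x : ↥(modularFunctionFieldFull N)) (hx : x ∈ chartAlg N ℓ S) :
    (x : LaurentSeries ℚ) ∈ OSub ℓ := by
  rw [mem_chartAlg_iff] at hx
  refine mem_OSub_of_isIntegral ℓ _ (modularFunctionFieldFull_le_QWI ℓ N x.2) ?_
  obtain ⟨p, hp, hpx⟩ := hx
  let T : Subalgebra (Zl ℓ) ↥(modularFunctionFieldFull N) :=
    { carrier := {y | (y : LaurentSeries ℚ) ∈ OSub ℓ}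
      mul_mem' := fun {a b} ha hb => (OSub ℓ).mul_mem ha hb
      add_mem' := fun {a b} ha hb => (OSub ℓ).add_mem ha hb
      algebraMap_mem' := fun a => by
        show ((algebraMap (Zl ℓ) ↥(modularFunctionFieldFull N) a : ↥(modularFunctionFieldFull N)) :
          LaurentSeries ℚ) ∈ OSub ℓ
        rw [coe_algebraMap_Zl]
        exact ZlToLS_mem_OSub ℓ a }
  have hle : Algebra.adjoin (Zl ℓ) S ≤ T := Algebra.adjoin_le hS
  let ψ : ↥(Algebra.adjoin (Zl ℓ) S) →+* ↥(OSub ℓ) :=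
    RingHom.codRestrict ((coeF N).comp
      (Algebra.adjoin (Zl ℓ) S).val.toRingHom) (OSub ℓ) (fun y => hle y.2)
  refine ⟨p.map ψ, hp.map ψ, ?_⟩
  rw [Polynomial.eval₂_map]
  have hcomp : (algebraMap ↥(OSub ℓ) (LaurentSeries ℚ)).comp ψ =
      (coeF N).comp
        (algebraMap ↥(Algebra.adjoin (Zl ℓ) S) ↥(modularFunctionFieldFull N)) := by
    ext y; rfl
  rw [hcomp]
  have h2 := Polynomial.hom_eval₂ p
    (algebraMap ↥(Algebra.adjoin (Zl ℓ) S) ↥(modularFunctionFieldFull N))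
    (coeF N) x
  rw [hpx, map_zero] at h2
  exact h2.symm

/-! ### Conversion between chart membership and integrality via an evaluation map -/

/-- evaluation `ℤ_(ℓ)[X] → ℚ((q))`, `X ↦ s`. -/
def evalS (s : LaurentSeries ℚ) : Polynomial (Zl ℓ) →+* LaurentSeries ℚ :=
  Polynomial.eval₂RingHom (ZlToLS ℓ) s

theorem evalS_comp (s : ↥(modularFunctionFieldFull N)) :
    (coeF N).comp
      ((algebraMap ↥(Algebra.adjoin (Zl ℓ) ({s} : Set ↥(modularFunctionFieldFull N)))
        ↥(modularFunctionFieldFull N)).comp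
        (Polynomial.aeval (⟨s, Algebra.subset_adjoin rfl⟩ :
          ↥(Algebra.adjoin (Zl ℓ) ({s} : Set ↥(modularFunctionFieldFull N))))).toRingHom) =
      evalS ℓ (s : LaurentSeries ℚ) := by
  apply Polynomial.ringHom_ext
  · intro a
    simp only [RingHom.coe_comp, Function.comp_apply, AlgHom.toRingHom_eq_coe, RingHom.coe_coe,
      Polynomial.aeval_C, evalS, Polynomial.coe_eval₂RingHom, Polynomial.eval₂_C]
    rw [← IsScalarTower.algebraMap_apply, coeF_apply, coe_algebraMap_Zl]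
  · simp only [RingHom.coe_comp, Function.comp_apply, AlgHom.toRingHom_eq_coe, RingHom.coe_coe,
      Polynomial.aeval_X, evalS, Polynomial.coe_eval₂RingHom, Polynomial.eval₂_X]
    rfl

theorem mem_chartAlg_of_isIntegralElem (s x : ↥(modularFunctionFieldFull N))
    (h : (evalS ℓ (s : LaurentSeries ℚ)).IsIntegralElem (x : LaurentSeries ℚ)) :
    x ∈ chartAlg N ℓ {s} := by
  rw [mem_chartAlg_iff]
  obtain ⟨P, hP, hPx⟩ := h
  refine ⟨P.map (Polynomial.aeval (⟨s, Algebra.subset_adjoin rfl⟩ :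
          ↥(Algebra.adjoin (Zl ℓ) ({s} : Set ↥(modularFunctionFieldFull N))))).toRingHom,
    hP.map _, ?_⟩
  rw [Polynomial.eval₂_map]
  apply Subtype.ext
  have h2 := Polynomial.hom_eval₂ P
    ((algebraMap ↥(Algebra.adjoin (Zl ℓ) ({s} : Set ↥(modularFunctionFieldFull N)))
        ↥(modularFunctionFieldFull N)).comp
        (Polynomial.aeval (⟨s, Algebra.subset_adjoin rfl⟩ :
          ↥(Algebra.adjoin (Zl ℓ) ({s} : Set ↥(modularFunctionFieldFull N))))).toRingHom)
    (coeF N) x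
  rw [evalS_comp] at h2
  exact h2.trans hPx

theorem isIntegralElem_of_mem_chartAlg (s x : ↥(modularFunctionFieldFull N))
    (hx : x ∈ chartAlg N ℓ {s}) :
    (evalS ℓ (s : LaurentSeries ℚ)).IsIntegralElem (x : LaurentSeries ℚ) := by
  rw [mem_chartAlg_iff] at hx
  obtain ⟨p, hp, hpx⟩ := hx
  set φ : Polynomial (Zl ℓ) →+* ↥(Algebra.adjoin (Zl ℓ) ({s} : Set ↥(modularFunctionFieldFull N))) :=
    (Polynomial.aeval (⟨s, Algebra.subset_adjoin rfl⟩ :
          ↥(Algebra.adjoin (Zl ℓ) ({s} : Set ↥(modularFunctionFieldFull N))))).toRingHom with hφdef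
  have hφ : Function.Surjective φ := by
    rintro ⟨y, hy⟩
    have hy' := hy
    rw [Algebra.adjoin_singleton_eq_range_aeval] at hy'
    obtain ⟨Q, hQ⟩ := hy'
    refine ⟨Q, Subtype.ext ?_⟩
    have h3 := Polynomial.aeval_algHom_apply
      (Algebra.adjoin (Zl ℓ) ({s} : Set ↥(modularFunctionFieldFull N))).val
      (⟨s, Algebra.subset_adjoin rfl⟩ :
          ↥(Algebra.adjoin (Zl ℓ) ({s} : Set ↥(modularFunctionFieldFull N)))) Q
    exact h3.symm.trans hQ
  have hlift : p ∈ Polynomial.lifts φ := by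
    rw [Polynomial.lifts_iff_coeff_lifts]
    intro k
    exact hφ _
  obtain ⟨P, hPp, -, hPmonic⟩ := Polynomial.lifts_and_natDegree_eq_and_monic hlift hp
  refine ⟨P, hPmonic, ?_⟩
  have h2 := Polynomial.hom_eval₂ P
    ((algebraMap ↥(Algebra.adjoin (Zl ℓ) ({s} : Set ↥(modularFunctionFieldFull N)))
        ↥(modularFunctionFieldFull N)).comp φ)
    (coeF N) x
  rw [hφdef, evalS_comp, ← hφdef] at h2
  rw [coeF_apply, coeF_apply] at h2
  rw [← h2, ← Polynomial.eval₂_map, hPp, hpx]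
  rfl

/-! ### Polynomials in `j` with integer coefficients -/

theorem toQ_aeval (p : Polynomial ℤ) :
    Spec.toQ (Polynomial.aeval (jqModC ℤ) p) = Polynomial.aeval jq p := by
  show coeffMap (Int.castRingHom ℚ) (Polynomial.aeval (jqModC ℤ) p) = _
  rw [helper3292.coeffMap_aeval_jqModC, jqModC_rat, Polynomial.aeval_def, Polynomial.aeval_def,
    Polynomial.eval₂_map]
  congr 1
  exact RingHom.ext_int _ _

theorem toFl_aeval (p : Polynomial ℤ) :
    Spec.toFl ℓ (Polynomial.aeval (jqModC ℤ) p) =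
      Polynomial.aeval (jqModC (ZMod ℓ)) (p.map (Int.castRingHom (ZMod ℓ))) :=
  helper3292.coeffMap_aeval_jqModC _ p

theorem aeval_jq_mem_OSub (p : Polynomial ℤ) : Polynomial.aeval jq p ∈ OSub ℓ := by
  rw [← toQ_aeval]; exact toQ_mem_OSub ℓ _

theorem exists_eq_C_mul (p : Polynomial ℤ) (hp : p.map (Int.castRingHom (ZMod ℓ)) = 0) :
    ∃ p' : Polynomial ℤ, p = Polynomial.C (ℓ : ℤ) * p' := by
  have h : Polynomial.C (ℓ : ℤ) ∣ p := by
    rw [Polynomial.C_dvd_iff_dvd_coeff]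
    intro i
    have := congrArg (fun q => q.coeff i) hp
    simp only [Polynomial.coeff_map, Polynomial.coeff_zero, eq_intCast] at this
    exact (ZMod.intCast_zmod_eq_zero_iff_dvd _ _).mp this
  exact h

theorem aeval_C_natCast_mul (p : Polynomial ℤ) :
    Polynomial.aeval jq (Polynomial.C (ℓ : ℤ) * p) = (ℓ : LaurentSeries ℚ) * Polynomial.aeval jq p := by
  rw [map_mul, Polynomial.aeval_C]
  simp

/-! ### Evaluation maps -/

theorem evalS_natCast (s : LaurentSeries ℚ) (m : ℕ) :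
    evalS ℓ s (m : Polynomial (Zl ℓ)) = (m : LaurentSeries ℚ) := map_natCast _ m

theorem evalS_map_int (s : LaurentSeries ℚ) (p : Polynomial ℤ) :
    evalS ℓ s (p.map (Int.castRingHom (Zl ℓ))) = Polynomial.aeval s p := by
  rw [evalS, Polynomial.coe_eval₂RingHom, Polynomial.eval₂_map, Polynomial.aeval_def]
  congr 1
  exact RingHom.ext_int _ _

theorem evalS_eq_aeval (s : LaurentSeries ℚ) (P : Polynomial (Zl ℓ)) :
    evalS ℓ s P = Polynomial.aeval s (P.map (GaloisRep.ratLocalizedAt ℓ).subtype) := by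
  rw [evalS, Polynomial.coe_eval₂RingHom, Polynomial.aeval_def, Polynomial.eval₂_map]
  rfl

theorem evalS_injective (s : LaurentSeries ℚ)
    (hs : Function.Injective (Polynomial.aeval (R := ℚ) s)) :
    Function.Injective (evalS ℓ s) := by
  intro P Q h
  rw [evalS_eq_aeval, evalS_eq_aeval] at h
  exact Polynomial.map_injective _ Subtype.val_injective (hs h)

theorem not_dvd_of_map_ne_zero (P : Polynomial (Zl ℓ)) (hP : P.map (resZl ℓ) ≠ 0) :
    ¬ ((ℓ : ℕ) : Polynomial (Zl ℓ)) ∣ P := by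
  rintro ⟨Q, rfl⟩
  apply hP
  rw [Polynomial.map_mul, Polynomial.map_natCast]
  simp

theorem isIntegralElem_of_scaled_Zl (s : LaurentSeries ℚ)
    (hs : Function.Injective (Polynomial.aeval (R := ℚ) s)) (y : LaurentSeries ℚ)
    (P : Polynomial (Zl ℓ)) (hP : P.map (resZl ℓ) ≠ 0)
    (h₁ : (evalS ℓ s).IsIntegralElem ((ℓ : LaurentSeries ℚ) * y))
    (h₂ : (evalS ℓ s).IsIntegralElem (evalS ℓ s P * y)) :
    (evalS ℓ s).IsIntegralElem y := by
  have hnd := not_dvd_of_map_ne_zero ℓ P hP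
  refine helper3069.isIntegralElem_of_scaled (evalS ℓ s) (evalS_injective ℓ s hs) y
    (ℓ : Polynomial (Zl ℓ)) P (prime_natCast_poly ℓ).ne_zero ?_ ?_ h₂ ?_
  · rintro rfl; simp at hP
  · rw [evalS_natCast]; exact h₁
  · intro i e₁ e₂ h
    have hnd' : ¬ ((ℓ : ℕ) : Polynomial (Zl ℓ)) ∣ P ^ i :=
      fun hd => hnd ((prime_natCast_poly ℓ).dvd_of_dvd_pow hd)
    exact (prime_natCast_poly ℓ).pow_dvd_of_dvd_mul_left i hnd' ⟨e₂, h⟩

theorem isIntegralElem_sum {R A : Type*} [CommRing R] [CommRing A] (f : R →+* A) {ι : Type*}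
    (s : Finset ι) (g : ι → A) (h : ∀ i ∈ s, f.IsIntegralElem (g i)) :
    f.IsIntegralElem (∑ i ∈ s, g i) := by
  classical
  induction s using Finset.induction_on with
  | empty => simpa using f.isIntegralElem_zero
  | insert a s ha ih =>
    rw [Finset.sum_insert ha]
    exact RingHom.IsIntegralElem.add f (h _ (Finset.mem_insert_self _ _))
      (ih (fun i hi => h i (Finset.mem_insert_of_mem hi)))

theorem isIntegralElem_toQ (b : LaurentSeries ℤ) (hb : Spec.IsIntegralOverZj b) :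
    (evalS ℓ jq).IsIntegralElem (Spec.toQ b) := by
  obtain ⟨P, hP, hPb⟩ := hb
  refine ⟨P.map (Polynomial.mapRingHom (Int.castRingHom (Zl ℓ))), hP.map _, ?_⟩
  rw [Polynomial.eval₂_map]
  have hcomp : (evalS ℓ jq).comp (Polynomial.mapRingHom (Int.castRingHom (Zl ℓ))) =
      (Spec.toQ).comp (Polynomial.aeval (jqModC ℤ)).toRingHom := by
    refine RingHom.ext (fun p => ?_)
    simp only [RingHom.coe_comp, Function.comp_apply, Polynomial.coe_mapRingHom, evalS_map_int]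
    exact (toQ_aeval p).symm
  rw [hcomp, ← Polynomial.hom_eval₂, hPb, map_zero]

/-! ### The descent -/

section descent

variable {n : ℕ} (b : Fin n → LaurentSeries ℤ)

/-- the combination `∑ c_i(j) b_i` as an integer series. -/
def combZ (c : Fin n → Polynomial ℤ) : LaurentSeries ℤ :=
  ∑ i, Polynomial.aeval (jqModC ℤ) (c i) * b i

theorem toQ_combZ (c : Fin n → Polynomial ℤ) :
    Spec.toQ (combZ b c) = ∑ i, Polynomial.aeval jq (c i) * Spec.toQ (b i) := by
  simp only [combZ, map_sum, map_mul, toQ_aeval]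

theorem toFl_combZ (c : Fin n → Polynomial ℤ) :
    Spec.toFl ℓ (combZ b c) =
      ∑ i, Polynomial.aeval (jqModC (ZMod ℓ)) ((c i).map (Int.castRingHom (ZMod ℓ))) *
        Spec.toFl ℓ (b i) := by
  simp only [combZ, map_sum, map_mul, toFl_aeval]

theorem exists_rel_ne_zero_mod (hLI : Spec.LinIndepModL ℓ b) (y : LaurentSeries ℚ)
    (hy : y ∈ OSub ℓ) :
    ∀ (m : ℕ) (c : Fin (n + 1) → Polynomial ℤ) (i : Fin (n + 1)) (k : ℕ),
      ((c i).coeff k).natAbs = m → m ≠ 0 →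
      Polynomial.aeval jq (c 0) * y +
        ∑ i : Fin n, Polynomial.aeval jq (c i.succ) * Spec.toQ (b i) = 0 →
      ∃ c' : Fin (n + 1) → Polynomial ℤ, (c' 0).map (Int.castRingHom (ZMod ℓ)) ≠ 0 ∧
        Polynomial.aeval jq (c' 0) * y +
          ∑ i : Fin n, Polynomial.aeval jq (c' i.succ) * Spec.toQ (b i) = 0 := by
  intro m
  induction m using Nat.strong_induction_on with
  | _ m ih =>
    intro c i k hm hm0 hrel
    by_cases h0 : (c 0).map (Int.castRingHom (ZMod ℓ)) = 0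
    swap
    · exact ⟨c, h0, hrel⟩
    obtain ⟨d₁, hd₁⟩ := exists_eq_C_mul ℓ (c 0) h0
    have hZ : Spec.toQ (combZ b (fun i => c i.succ)) =
        (ℓ : LaurentSeries ℚ) * (-(Polynomial.aeval jq d₁ * y)) := by
      rw [toQ_combZ]
      rw [hd₁, aeval_C_natCast_mul] at hrel
      linear_combination hrel
    have hw : -(Polynomial.aeval jq d₁ * y) ∈ OSub ℓ :=
      neg_mem (mul_mem (aeval_jq_mem_OSub ℓ d₁) hy)
    have hred : Spec.toFl ℓ (combZ b (fun i => c i.succ)) = 0 := by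
      rw [← redS_toQ ℓ, redS_eq_zero_iff]
      exact ⟨⟨_, hw⟩, Subtype.ext hZ⟩
    rw [toFl_combZ] at hred
    have hall := hLI _ hred
    have hall' : ∀ i : Fin (n + 1), (c i).map (Int.castRingHom (ZMod ℓ)) = 0 := by
      intro i
      refine Fin.cases h0 (fun i => ?_) i
      exact congrFun hall i
    choose c₁ hc₁ using fun i => exists_eq_C_mul ℓ (c i) (hall' i)
    have hrel₁ : Polynomial.aeval jq (c₁ 0) * y +
        ∑ i : Fin n, Polynomial.aeval jq (c₁ i.succ) * Spec.toQ (b i) = 0 := by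
      have : (ℓ : LaurentSeries ℚ) * (Polynomial.aeval jq (c₁ 0) * y +
          ∑ i : Fin n, Polynomial.aeval jq (c₁ i.succ) * Spec.toQ (b i)) = 0 := by
        rw [mul_add, Finset.mul_sum]
        refine Eq.trans ?_ hrel
        congr 1
        · rw [hc₁ 0, aeval_C_natCast_mul]; ring
        · refine Finset.sum_congr rfl (fun i _ => ?_)
          rw [hc₁ i.succ, aeval_C_natCast_mul]; ring
      exact (mul_eq_zero.mp this).resolve_left (natCast_ne_zero_LS ℓ)
    have hcoeff : (c i).coeff k = (ℓ : ℤ) * (c₁ i).coeff k := by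
      conv_lhs => rw [hc₁ i]
      rw [Polynomial.coeff_C_mul]
    have hm' : ℓ * ((c₁ i).coeff k).natAbs = m := by
      rw [← hm, hcoeff, Int.natAbs_mul, Int.natAbs_natCast]
    have h2 := (Fact.out : ℓ.Prime).two_le
    have ht0 : ((c₁ i).coeff k).natAbs ≠ 0 := by
      intro h; rw [h, mul_zero] at hm'; exact hm0 hm'.symm
    have hlt : ((c₁ i).coeff k).natAbs < m := by
      have := Nat.pos_of_ne_zero ht0
      nlinarith
    exact ih _ hlt c₁ i k rfl ht0 hrel₁

end descent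

/-- **Finite chart, key step**: if `y ∈ F` has `ℓ`-integral expansion and `ℓ y` is integral over
`ℤ_(ℓ)[j]`, then so is `y`. -/
theorem fin_kernel_LS (N : ℕ) (hin : Spec.Stmt_CoreInput N ℓ) (y : LaurentSeries ℚ)
    (hyF : y ∈ modularFunctionFieldFull N) (hyO : y ∈ OSub ℓ)
    (hy : (evalS ℓ jq).IsIntegralElem ((ℓ : LaurentSeries ℚ) * y)) :
    (evalS ℓ jq).IsIntegralElem y := by
  obtain ⟨n, L, b, hFL, hbL, hbInt, hdeg, hLI⟩ := hin
  obtain ⟨c, hc0, hrel⟩ := hdeg (Fin.cons y (fun i => Spec.toQ (b i))) (by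
    intro i
    refine Fin.cases ?_ (fun i => ?_) i
    · simpa using hFL hyF
    · simpa using hbL i)
  rw [Fin.sum_univ_succ] at hrel
  simp only [Fin.cons_zero, Fin.cons_succ] at hrel
  obtain ⟨i, k, hik⟩ : ∃ i k, (c i).coeff k ≠ 0 := by
    by_contra hcon
    refine hc0 (funext fun i => Polynomial.ext fun k => ?_)
    by_contra hne
    exact hcon ⟨i, k, hne⟩
  obtain ⟨c', hc'0, hrel'⟩ := exists_rel_ne_zero_mod ℓ b hLI y hyO _ c i k rfl
    (Int.natAbs_ne_zero.mpr hik) hrel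
  refine isIntegralElem_of_scaled_Zl ℓ jq
    (by rw [← jqModC_rat]; exact helper3292.aeval_jqModC_injective ℚ) y
    ((c' 0).map (Int.castRingHom (Zl ℓ))) ?_ hy ?_
  · rw [Polynomial.map_map]
    have : (resZl ℓ).comp (Int.castRingHom (Zl ℓ)) = Int.castRingHom (ZMod ℓ) :=
      RingHom.ext_int _ _
    rw [this]; exact hc'0
  · rw [evalS_map_int]
    have : Polynomial.aeval jq (c' 0) * y =
        -∑ i : Fin n, Polynomial.aeval jq (c' i.succ) * Spec.toQ (b i) := by
      linear_combination hrel'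
    rw [this]
    refine RingHom.IsIntegralElem.neg _ (isIntegralElem_sum _ _ _ (fun i _ =>
      RingHom.IsIntegralElem.mul _ ?_ (isIntegralElem_toQ ℓ (b i) (hbInt i))))
    rw [← evalS_map_int ℓ]
    exact RingHom.isIntegralElem_map _

/-! ### The three charts -/

section charts

variable (N : ℕ) [NeZero N]

theorem coe_natCast_mul (m : ℕ) (y : ↥(modularFunctionFieldFull N)) :
    (((m : ↥(modularFunctionFieldFull N)) * y : ↥(modularFunctionFieldFull N)) :
      LaurentSeries ℚ) = (m : LaurentSeries ℚ) * (y : LaurentSeries ℚ) := by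
  rw [← coeF_apply, map_mul, map_natCast, coeF_apply]

theorem fin_kernel (hin : Spec.Stmt_CoreInput N ℓ) (y : ↥(modularFunctionFieldFull N))
    (hyO : (y : LaurentSeries ℚ) ∈ OSub ℓ)
    (hy : (ℓ : ↥(modularFunctionFieldFull N)) * y ∈ chartAlg N ℓ {jFull N}) :
    y ∈ chartAlg N ℓ {jFull N} := by
  apply mem_chartAlg_of_isIntegralElem ℓ N (jFull N) y
  have h1 := isIntegralElem_of_mem_chartAlg ℓ N (jFull N) _ hy
  rw [coe_natCast_mul] at h1
  exact fin_kernel_LS ℓ N hin (y : LaurentSeries ℚ) y.2 hyO h1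

theorem mid_kernel (hin : Spec.Stmt_CoreInput N ℓ) (y : ↥(modularFunctionFieldFull N))
    (hyO : (y : LaurentSeries ℚ) ∈ OSub ℓ)
    (hy : (ℓ : ↥(modularFunctionFieldFull N)) * y ∈ chartAlg N ℓ {jFull N, (jFull N)⁻¹}) :
    y ∈ chartAlg N ℓ {jFull N, (jFull N)⁻¹} := by
  have hset : ({jFull N, (jFull N)⁻¹} : Set ↥(modularFunctionFieldFull N)) =
      insert (jFull N)⁻¹ {jFull N} := Set.pair_comm _ _
  rw [hset] at hy ⊢
  obtain ⟨n, hn⟩ := exists_pow_mul_mem_chartAlg (Set.mem_singleton _) (jFull_ne_zero N) hy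
  have h1 : jFull N ^ n * y ∈ chartAlg N ℓ {jFull N} := by
    apply fin_kernel ℓ N hin
    · show (jq ^ n * (y : LaurentSeries ℚ)) ∈ OSub ℓ
      exact mul_mem (pow_mem (jq_mem_OSub ℓ) n) hyO
    · have : (ℓ : ↥(modularFunctionFieldFull N)) * (jFull N ^ n * y) =
          jFull N ^ n * ((ℓ : ↥(modularFunctionFieldFull N)) * y) := by ring
      rw [this]; exact hn
  have h2 : (jFull N)⁻¹ ∈ chartAlg N ℓ (insert (jFull N)⁻¹ {jFull N}) :=
    subset_chartAlg N ℓ _ (Set.mem_insert _ _)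
  have h3 : jFull N ^ n * y ∈ chartAlg N ℓ (insert (jFull N)⁻¹ {jFull N}) :=
    chartAlg_mono N ℓ (Set.subset_insert _ _) h1
  have : y = (jFull N)⁻¹ ^ n * (jFull N ^ n * y) := by
    rw [← mul_assoc, ← mul_pow, inv_mul_cancel₀ (jFull_ne_zero N), one_pow, one_mul]
  rw [this]
  exact mul_mem (pow_mem h2 n) h3

theorem inf_kernel (hin : Spec.Stmt_CoreInput N ℓ) (y : ↥(modularFunctionFieldFull N))
    (hyO : (y : LaurentSeries ℚ) ∈ OSub ℓ)
    (hy : (ℓ : ↥(modularFunctionFieldFull N)) * y ∈ chartAlg N ℓ {(jFull N)⁻¹}) :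
    y ∈ chartAlg N ℓ {(jFull N)⁻¹} := by
  have hmid : y ∈ chartAlg N ℓ {jFull N, (jFull N)⁻¹} :=
    mid_kernel ℓ N hin y hyO (chartAlg_mono N ℓ (fun x hx => Or.inr hx) hy)
  have hset : ({jFull N, (jFull N)⁻¹} : Set ↥(modularFunctionFieldFull N)) =
      insert ((jFull N)⁻¹)⁻¹ {(jFull N)⁻¹} := by rw [inv_inv]
  rw [hset] at hmid
  obtain ⟨n, hn⟩ := exists_pow_mul_mem_chartAlg (Set.mem_singleton _)
    (inv_ne_zero (jFull_ne_zero N)) hmid
  apply mem_chartAlg_of_isIntegralElem ℓ N (jFull N)⁻¹ y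
  have h1 := isIntegralElem_of_mem_chartAlg ℓ N (jFull N)⁻¹ _ hy
  have h2 := isIntegralElem_of_mem_chartAlg ℓ N (jFull N)⁻¹ _ hn
  rw [coe_natCast_mul] at h1
  have hcoe : (((jFull N)⁻¹ : ↥(modularFunctionFieldFull N)) : LaurentSeries ℚ) = jq⁻¹ := rfl
  rw [hcoe] at h1 h2 ⊢
  refine isIntegralElem_of_scaled_Zl ℓ jq⁻¹ helper3292.aeval_jq_inv_injective
    (y : LaurentSeries ℚ) (Polynomial.X ^ n) ?_ h1 ?_
  · simp
  · have he : evalS ℓ jq⁻¹ (Polynomial.X ^ n) = jq⁻¹ ^ n := by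
      rw [map_pow, evalS, Polynomial.coe_eval₂RingHom, Polynomial.eval₂_X]
    rw [he]
    exact h2

/-- the reduction hom on a chart algebra whose generators lie in the Gauss ring. -/
def chartRed (S : Set ↥(modularFunctionFieldFull N))
    (hS : ∀ s ∈ S, ((s : ↥(modularFunctionFieldFull N)) : LaurentSeries ℚ) ∈ OSub ℓ) :
    ↥(chartAlg N ℓ S) →+* LaurentSeries (ZMod ℓ) :=
  (redS ℓ).comp (RingHom.codRestrict ((coeF N).comp (chartAlg N ℓ S).val.toRingHom) (OSub ℓ)
    (fun x => coe_mem_OSub_of_mem_chartAlg ℓ N S hS x x.2))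

theorem stmt_red_of_kernel (S : Set ↥(modularFunctionFieldFull N))
    (hS : ∀ s ∈ S, ((s : ↥(modularFunctionFieldFull N)) : LaurentSeries ℚ) ∈ OSub ℓ)
    (hker : ∀ y : ↥(modularFunctionFieldFull N), (y : LaurentSeries ℚ) ∈ OSub ℓ →
      (ℓ : ↥(modularFunctionFieldFull N)) * y ∈ chartAlg N ℓ S → y ∈ chartAlg N ℓ S) :
    Spec.Stmt_Red N ℓ S := by
  refine ⟨chartRed ℓ N S hS, fun a ha => ?_⟩
  have ha' : redS ℓ ⟨((a : ↥(modularFunctionFieldFull N)) : LaurentSeries ℚ),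
      coe_mem_OSub_of_mem_chartAlg ℓ N S hS a a.2⟩ = 0 := ha
  obtain ⟨z, hz⟩ := (redS_eq_zero_iff ℓ _).mp ha'
  have hz' : ((a : ↥(modularFunctionFieldFull N)) : LaurentSeries ℚ) =
      (ℓ : LaurentSeries ℚ) * (z : LaurentSeries ℚ) := by
    have := congrArg Subtype.val hz
    simpa using this
  have hl0 : (ℓ : ↥(modularFunctionFieldFull N)) ≠ 0 :=
    Nat.cast_ne_zero.mpr (Fact.out : ℓ.Prime).ne_zero
  obtain ⟨y, hy⟩ : ∃ y : ↥(modularFunctionFieldFull N),
      y = (ℓ : ↥(modularFunctionFieldFull N))⁻¹ * (a : ↥(modularFunctionFieldFull N)) := ⟨_, rfl⟩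
  have hay : (ℓ : ↥(modularFunctionFieldFull N)) * y = a := by
    rw [hy, mul_inv_cancel_left₀ hl0]
  have hyz : (y : LaurentSeries ℚ) = (z : LaurentSeries ℚ) := by
    have h3 : (ℓ : LaurentSeries ℚ) * (y : LaurentSeries ℚ) =
        (ℓ : LaurentSeries ℚ) * (z : LaurentSeries ℚ) := by
      rw [← hz', ← coe_natCast_mul, hay]
    exact mul_left_cancel₀ (natCast_ne_zero_LS ℓ) h3
  have hyO : (y : LaurentSeries ℚ) ∈ OSub ℓ := by rw [hyz]; exact z.2
  have hymem := hker y hyO (by rw [hay]; exact a.2)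
  refine ⟨⟨y, hymem⟩, Subtype.ext ?_⟩
  rw [← hay]
  rfl

/-- **The algebra core of S28.** -/
theorem stmt_core : Spec.Stmt_Core N ℓ := by
  intro hin
  refine ⟨stmt_red_of_kernel ℓ N _ ?_ (fin_kernel ℓ N hin),
    stmt_red_of_kernel ℓ N _ ?_ (inf_kernel ℓ N hin),
    stmt_red_of_kernel ℓ N _ ?_ (mid_kernel ℓ N hin)⟩
  · rintro s rfl; exact jq_mem_OSub ℓ
  · rintro s rfl; exact jq_inv_mem_OSub ℓ
  · rintro s (rfl | rfl)
    · exact jq_mem_OSub ℓ
    · exact jq_inv_mem_OSub ℓ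

end charts

end Fermat.Agent.S28.helper1588
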