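/-
helper1448 — S28 (Igusa): pure algebra for the characteristic-zero degree bound:
descent of relations from `ℂ((q))` to `ℚ((q))`, transcendence of `jq`, bounded degree over
`ℚ⟮jq⟯`, and "independent families of the maximal size span".
-/
import Mathlib
import Fermat.Prelude.Def_ModularCurve_X0
import Fermat.Prelude.Def_ModularCurve_JqCoeff
import Fermat.Prelude.Def_ModularCurve_LaurentCoeff

set_option autoImplicit false

open ModularCurve IntermediateField

namespace Fermat.Agent.S28.helper1448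

noncomputable section

/-- The coefficientwise embedding `ℚ((q)) → ℂ((q))`. -/
abbrev toC : LaurentSeries ℚ →+* LaurentSeries ℂ := coeffMap (algebraMap ℚ ℂ)

lemma toC_coeff (x : LaurentSeries ℚ) (n : ℤ) : (toC x).coeff n = (x.coeff n : ℂ) := by
  simp [toC]

lemma toC_injective : Function.Injective toC := by
  intro x y h
  ext n
  have := congrArg (fun z => z.coeff n) h
  simpa [toC_coeff] using this

lemma rat_smul_eq (r : ℚ) (z : LaurentSeries ℚ) :
    r • z = algebraMap ℚ (LaurentSeries ℚ) r * z := by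
  rw [algebraMap_apply_eq_single]
  ext n
  rw [HahnSeries.coeff_smul, HahnSeries.coeff_single_mul, sub_zero, smul_eq_mul]

lemma coeff_algebraMap_mul (r : ℚ) (z : LaurentSeries ℚ) (n : ℤ) :
    (algebraMap ℚ (LaurentSeries ℚ) r * z).coeff n = r * z.coeff n := by
  rw [algebraMap_apply_eq_single, HahnSeries.coeff_single_mul, sub_zero]

/-- **Descent.** A nontrivial `ℂ`-linear relation among the `y^a x^i` (with `x, y` rational
Laurent series) yields a nontrivial `ℚ`-linear relation. -/
theorem descent {D m : ℕ} (x y : LaurentSeries ℚ) (c : Fin (D + 1) → Fin (m + 1) → ℂ)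
    (hc : c ≠ 0)
    (h : ∑ a : Fin (D + 1), ∑ i : Fin (m + 1), c a i • (toC y ^ (a : ℕ) * toC x ^ (i : ℕ)) = 0) :
    ∃ c' : Fin (D + 1) → Fin (m + 1) → ℚ, c' ≠ 0 ∧
      ∑ a : Fin (D + 1), ∑ i : Fin (m + 1), c' a i • (y ^ (a : ℕ) * x ^ (i : ℕ)) = 0 := by
  obtain ⟨a0, i0, h0⟩ : ∃ a i, c a i ≠ 0 := by
    by_contra hcon
    push Not at hcon
    exact hc (funext fun a => funext fun i => hcon a i)
  obtain ⟨φ, hφ⟩ := Module.Projective.exists_dual_ne_zero ℚ h0
  refine ⟨fun a i => φ (c a i), fun hz => hφ (congrFun (congrFun hz a0) i0), ?_⟩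
  ext n
  have hn := congrArg (fun z => z.coeff n) h
  simp only [HahnSeries.coeff_sum, HahnSeries.coeff_smul, HahnSeries.coeff_zero, ← map_pow,
    ← map_mul, toC_coeff] at hn ⊢
  have hn' := congrArg φ hn
  rw [map_zero, map_sum] at hn'
  rw [← hn']
  refine Finset.sum_congr rfl fun a _ => ?_
  rw [map_sum]
  refine Finset.sum_congr rfl fun i _ => ?_
  have : c a i • (((y ^ (a : ℕ) * x ^ (i : ℕ)).coeff n : ℚ) : ℂ) =
      ((y ^ (a : ℕ) * x ^ (i : ℕ)).coeff n : ℚ) • c a i := by
    rw [smul_eq_mul, mul_comm, Rat.smul_def]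
  rw [this, map_smul, smul_eq_mul, smul_eq_mul, mul_comm]

/-- Polynomial form of a relation. -/
theorem exists_poly_of_relation {D m : ℕ} (x y : LaurentSeries ℚ)
    (c : Fin (D + 1) → Fin (m + 1) → ℚ) (hc : c ≠ 0)
    (h : ∑ a : Fin (D + 1), ∑ i : Fin (m + 1), c a i • (y ^ (a : ℕ) * x ^ (i : ℕ)) = 0) :
    ∃ P : Polynomial (Polynomial ℚ), P ≠ 0 ∧ P.natDegree ≤ m ∧
      Polynomial.eval₂ (Polynomial.aeval y : Polynomial ℚ →ₐ[ℚ] LaurentSeries ℚ).toRingHom x P
        = 0 := by
  classical
  obtain ⟨a0, i0, h0⟩ : ∃ a i, c a i ≠ 0 := by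
    by_contra hcon
    push Not at hcon
    exact hc (funext fun a => funext fun i => hcon a i)
  refine ⟨∑ a : Fin (D + 1), ∑ i : Fin (m + 1),
    Polynomial.monomial (i : ℕ) (Polynomial.monomial (a : ℕ) (c a i)), ?_, ?_, ?_⟩
  · intro hP
    have h1 := congrArg (fun P : Polynomial (Polynomial ℚ) => (P.coeff (i0 : ℕ)).coeff (a0 : ℕ)) hP
    simp only [Polynomial.finsetSum_coeff, Polynomial.coeff_monomial, Polynomial.coeff_zero] at h1
    rw [Finset.sum_eq_single a0] at h1
    · rw [Finset.sum_eq_single i0] at h1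
      · simp at h1
        exact h0 h1
      · intro i _ hi
        rw [if_neg (fun h => hi (Fin.ext h))]
        simp
      · intro hi; exact absurd (Finset.mem_univ _) hi
    · intro a _ ha
      refine Finset.sum_eq_zero fun i _ => ?_
      split_ifs with h
      · rw [Polynomial.coeff_monomial, if_neg (fun h' => ha (Fin.ext h'))]
      · simp
    · intro ha; exact absurd (Finset.mem_univ _) ha
  · refine Polynomial.natDegree_sum_le_of_forall_le _ _ fun a _ => ?_
    refine Polynomial.natDegree_sum_le_of_forall_le _ _ fun i _ => ?_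
    exact (Polynomial.natDegree_monomial_le _).trans (Nat.lt_succ_iff.mp i.2)
  · rw [Polynomial.eval₂_finsetSum, ← h]
    refine Finset.sum_congr rfl fun a _ => ?_
    rw [Polynomial.eval₂_finsetSum]
    refine Finset.sum_congr rfl fun i _ => ?_
    rw [Polynomial.eval₂_monomial]
    simp only [AlgHom.toRingHom_eq_coe, RingHom.coe_coe, Polynomial.aeval_monomial]
    rw [rat_smul_eq, mul_assoc]

/-- `jq` is transcendental over `ℚ`. -/
theorem jq_transcendental : Transcendental ℚ jq := by
  rw [transcendental_iff]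
  intro p hp
  by_contra hp0
  have h1 := congrArg (fun z : LaurentSeries ℚ => z.coeff (-(p.natDegree : ℤ))) hp
  simp only [Polynomial.aeval_eq_sum_range, HahnSeries.coeff_sum, Algebra.smul_def,
    coeff_algebraMap_mul, HahnSeries.coeff_zero] at h1
  rw [Finset.sum_eq_single p.natDegree] at h1
  · rw [coeff_jq_pow_self, mul_one] at h1
    exact hp0 (Polynomial.leadingCoeff_eq_zero.mp h1)
  · intro n hn hne
    have hlt : n < p.natDegree :=
      lt_of_le_of_ne (Nat.lt_succ_iff.mp (Finset.mem_range.mp hn)) hne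
    rw [coeff_jq_pow_of_lt (by exact_mod_cast (neg_lt_neg (Nat.cast_lt.mpr hlt))), mul_zero]
  · intro h
    exact absurd (Finset.mem_range.mpr (Nat.lt_succ_self _)) h

/-- A root of a nonzero two-variable polynomial `P(jq, X)` of `X`-degree `≤ m` is integral over
`ℚ⟮jq⟯` of degree `≤ m`. -/
theorem isIntegral_and_natDegree_minpoly_le {m : ℕ} (x : LaurentSeries ℚ)
    (P : Polynomial (Polynomial ℚ)) (hP : P ≠ 0) (hdeg : P.natDegree ≤ m)
    (hroot : Polynomial.eval₂
      (Polynomial.aeval jq : Polynomial ℚ →ₐ[ℚ] LaurentSeries ℚ).toRingHom x P = 0) :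
    IsIntegral ℚ⟮jq⟯ x ∧ (minpoly ℚ⟮jq⟯ x).natDegree ≤ m := by
  let φ : Polynomial ℚ →+* ℚ⟮jq⟯ := (Polynomial.aeval jGen : Polynomial ℚ →ₐ[ℚ] ℚ⟮jq⟯).toRingHom
  have hcomp : (algebraMap ℚ⟮jq⟯ (LaurentSeries ℚ)).comp φ =
      (Polynomial.aeval jq : Polynomial ℚ →ₐ[ℚ] LaurentSeries ℚ).toRingHom := by
    refine Polynomial.ringHom_ext (fun a => ?_) ?_
    · simp [φ]
    · simp [φ, jGen]
  have hφ : Function.Injective φ := by
    intro p q hpq
    have := congrArg (algebraMap ℚ⟮jq⟯ (LaurentSeries ℚ)) hpq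
    rw [← RingHom.comp_apply, ← RingHom.comp_apply, hcomp] at this
    exact (transcendental_iff_injective.mp jq_transcendental) this
  have hPK : P.map φ ≠ 0 := (Polynomial.map_ne_zero_iff hφ).mpr hP
  have hroot' : Polynomial.aeval x (P.map φ) = 0 := by
    rw [Polynomial.aeval_def, Polynomial.eval₂_map, hcomp]
    exact hroot
  have hint : IsIntegral ℚ⟮jq⟯ x := isAlgebraic_iff_isIntegral.mp ⟨P.map φ, hPK, hroot'⟩
  exact ⟨hint, (Polynomial.natDegree_le_natDegree
    (minpoly.degree_le_of_ne_zero _ _ hPK hroot')).trans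
    ((Polynomial.natDegree_map_le).trans hdeg)⟩

/-- Abstract spanning lemma: in characteristic zero, if every element of an intermediate field
`L` has degree `≤ n` over `K`, any `n` linearly independent elements of `L` span `L`. -/
theorem span_abstract {K E : Type*} [Field K] [Field E] [Algebra K E] [CharZero K] {n : ℕ}
    (L : IntermediateField K E)
    (hL : ∀ x ∈ L, IsIntegral K x ∧ (minpoly K x).natDegree ≤ n)
    (y : Fin n → E) (hy : ∀ i, y i ∈ L) (hind : LinearIndependent K y) :
    ∀ x ∈ L, x ∈ Submodule.span K (Set.range y) := by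
  intro x hx
  let S : Set E := Set.range y ∪ {x}
  have hSfin : Finite S := (Set.finite_range y).union (Set.finite_singleton x) |>.to_subtype
  have hSL : ∀ z ∈ S, z ∈ L := by
    rintro z (⟨i, rfl⟩ | rfl)
    · exact hy i
    · exact hx
  let M : IntermediateField K E := IntermediateField.adjoin K S
  have hML : M ≤ L := IntermediateField.adjoin_le_iff.mpr fun z hz => hSL z hz
  have hfd : FiniteDimensional K M :=
    IntermediateField.finiteDimensional_adjoin fun z hz => (hL z (hSL z hz)).1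
  obtain ⟨θ, hθ⟩ := Field.exists_primitive_element K M
  have hθL : (θ : E) ∈ L := hML θ.2
  have hfin : Module.finrank K M ≤ n := by
    have h1 : Module.finrank K (K⟮θ⟯) = (minpoly K θ).natDegree :=
      IntermediateField.adjoin.finrank (IsIntegral.of_finite _ θ)
    rw [hθ, IntermediateField.finrank_top'] at h1
    rw [h1, IntermediateField.minpoly_eq]
    exact (hL _ hθL).2
  let v : Fin n → M := fun i =>
    ⟨y i, IntermediateField.subset_adjoin _ _ (Or.inl ⟨i, rfl⟩)⟩
  have hv : LinearIndependent K v :=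
    LinearIndependent.of_comp M.val.toLinearMap (by simpa [Function.comp_def, v] using hind)
  have hcard : Fintype.card (Fin n) = Module.finrank K M := by
    refine le_antisymm hv.fintype_card_le_finrank ?_
    simpa using hfin
  have hspan := hv.span_eq_top_of_card_eq_finrank' hcard
  have hxM : (⟨x, IntermediateField.subset_adjoin _ _ (Or.inr rfl)⟩ : M) ∈
      Submodule.span K (Set.range v) := by
    rw [hspan]; exact Submodule.mem_top
  have h3 := Submodule.mem_map_of_mem (f := M.val.toLinearMap) hxM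
  rw [Submodule.map_span, ← Set.range_comp] at h3
  exact h3

/-- **Spanning.** If every element of `L ∋ jq` has degree `≤ n` over `ℚ⟮jq⟯`, then any `n`
elements of `L` which are linearly independent over `ℚ⟮jq⟯` span `L` over `ℚ⟮jq⟯`. -/
theorem span_of_linearIndependent {n : ℕ} (L : IntermediateField ℚ (LaurentSeries ℚ))
    (hjL : jq ∈ L)
    (hL : ∀ x ∈ L, IsIntegral ℚ⟮jq⟯ x ∧ (minpoly ℚ⟮jq⟯ x).natDegree ≤ n)
    (y : Fin n → LaurentSeries ℚ) (hy : ∀ i, y i ∈ L)
    (hind : ∀ c : Fin n → LaurentSeries ℚ, (∀ i, c i ∈ ℚ⟮jq⟯) → ∑ i, c i * y i = 0 →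
      ∀ i, c i = 0) :
    ∀ x ∈ L, ∃ c : Fin n → LaurentSeries ℚ, (∀ i, c i ∈ ℚ⟮jq⟯) ∧ x = ∑ i, c i * y i := by
  intro x hx
  have hKL : ℚ⟮jq⟯ ≤ L := adjoin_simple_le_iff.mpr hjL
  have hv : LinearIndependent ℚ⟮jq⟯ y := by
    rw [Fintype.linearIndependent_iff]
    intro g hg i
    have := hind (fun i => (g i : LaurentSeries ℚ)) (fun i => (g i).2) (by
      simpa [Algebra.smul_def] using hg) i
    exact Subtype.ext this
  have hmem := span_abstract (K := ℚ⟮jq⟯) (IntermediateField.extendScalars hKL)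
    (fun z hz => hL z hz) y (fun i => hy i) hv x hx
  obtain ⟨g, hg⟩ := (Submodule.mem_span_range_iff_exists_fun _).mp hmem
  refine ⟨fun i => (g i : LaurentSeries ℚ), fun i => (g i).2, ?_⟩
  rw [← hg]
  simp [Algebra.smul_def]

end

end Fermat.Agent.S28.helper1448
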