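/-
S28, part A (scheme → algebra reduction), by helper385.

The base change of the Igusa scheme to `Spec K` is integral as soon as
* `chartAlgFin ⊗ K` and `chartAlgInf ⊗ K` are domains, and
* `chartAlgMid ⊗ K` is a nontrivial ring.
-/
import Fermat.Statements.S28

set_option autoImplicit false

open AlgebraicGeometry CategoryTheory CategoryTheory.Limits ModularCurve ModularCurve.IgusaScheme
open TensorProduct

noncomputable section

namespace Fermat.Agent.S28.helper385

universe u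

/-- A topological space which is the union of two irreducible open subsets with nonempty
intersection is irreducible. -/
theorem irreducibleSpace_of_two_isOpen {X : Type*} [TopologicalSpace X] {U V : Set X}
    (hU : IsOpen U) (hV : IsOpen V) (hUi : IsPreirreducible U) (hVi : IsPreirreducible V)
    (hcov : ∀ x : X, x ∈ U ∨ x ∈ V) (hne : (U ∩ V).Nonempty) : IrreducibleSpace X := by
  -- every nonempty open subset meets `U ∩ V`
  have key : ∀ u : Set X, IsOpen u → u.Nonempty → (u ∩ (U ∩ V)).Nonempty := by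
    intro u hu ⟨x, hx⟩
    rcases hcov x with hxU | hxV
    · obtain ⟨y, hyU, hyu, hyV⟩ := hUi u V hu hV ⟨x, hxU, hx⟩ hne
      exact ⟨y, hyu, hyU, hyV⟩
    · obtain ⟨y, hyV, hyu, hyU⟩ := hVi u U hu hU ⟨x, hxV, hx⟩
        (by rw [Set.inter_comm]; exact hne)
      exact ⟨y, hyu, hyU, hyV⟩
  have hpre : IsPreirreducible (Set.univ : Set X) := by
    intro u v hu hv hu' hv'
    rw [Set.univ_inter] at hu' hv' ⊢
    obtain ⟨y, hyu, hyU, -⟩ := key u hu hu'
    obtain ⟨z, hzv, hzU, -⟩ := key v hv hv'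
    obtain ⟨w, -, hwu, hwv⟩ := hUi u v hu hv ⟨y, hyU, hyu⟩ ⟨z, hzU, hzv⟩
    exact ⟨w, hwu, hwv⟩
  exact { toPreirreducibleSpace := ⟨hpre⟩
          toNonempty := ⟨hne.some⟩ }

/-- A scheme covered by two integral schemes (via open immersions) whose images meet is
integral. -/
theorem isIntegral_of_two_isOpenImmersion {X Y₁ Y₂ : Scheme.{u}} (f₁ : Y₁ ⟶ X) (f₂ : Y₂ ⟶ X)
    [IsOpenImmersion f₁] [IsOpenImmersion f₂] [IsIntegral Y₁] [IsIntegral Y₂]
    (hcov : ∀ x : X, x ∈ Set.range f₁ ∨ x ∈ Set.range f₂)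
    (hne : (Set.range f₁ ∩ Set.range f₂).Nonempty) : IsIntegral X := by
  have hirr : IrreducibleSpace X := by
    refine irreducibleSpace_of_two_isOpen (U := Set.range f₁) (V := Set.range f₂)
      f₁.isOpenEmbedding.isOpen_range f₂.isOpenEmbedding.isOpen_range ?_ ?_ hcov hne
    · rw [← Set.image_univ]
      exact ((IrreducibleSpace.isIrreducible_univ Y₁).image _ f₁.continuous.continuousOn).isPreirreducible
    · rw [← Set.image_univ]
      exact ((IrreducibleSpace.isIrreducible_univ Y₂).image _ f₂.continuous.continuousOn).isPreirreducible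
  have hred : IsReduced X := by
    let 𝒰 : X.OpenCover := Scheme.Cover.mkOfCovers Bool (fun b => cond b Y₁ Y₂)
      (fun b => match b with | true => f₁ | false => f₂)
      (fun x => by
        rcases hcov x with ⟨y, hy⟩ | ⟨y, hy⟩
        · exact ⟨true, y, hy⟩
        · exact ⟨false, y, hy⟩)
      (fun b => by cases b <;> infer_instance)
    have : ∀ i, IsReduced (𝒰.X i) := by
      intro i
      cases i
      · exact (inferInstance : IsReduced Y₂)
      · exact (inferInstance : IsReduced Y₁)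
    exact IsReduced.of_openCover X 𝒰
  exact isIntegral_of_irreducibleSpace_of_isReduced X

section Igusa

variable (N : ℕ) [NeZero N] (ℓ : ℕ) [Fact ℓ.Prime]

/-- **S28, scheme → algebra reduction.**  The base change of the Igusa scheme along
`Spec K ⟶ Spec ℤ_(ℓ)` is integral provided the base changes of the two chart algebras are
domains and the base change of the overlap algebra is nontrivial. -/
theorem isIntegral_pullback_igusaTo_of_isDomain
    (K : Type) [Field K] [Algebra ↥(GaloisRep.ratLocalizedAt ℓ) K]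
    (hFin : IsDomain (↥(chartAlgFin N ℓ) ⊗[↥(GaloisRep.ratLocalizedAt ℓ)] K))
    (hInf : IsDomain (↥(chartAlgInf N ℓ) ⊗[↥(GaloisRep.ratLocalizedAt ℓ)] K))
    (hMid : Nontrivial (↥(chartAlgMid N ℓ) ⊗[↥(GaloisRep.ratLocalizedAt ℓ)] K)) :
    IsIntegral ↑(pullback (igusaTo N ℓ)
      (Spec.map (CommRingCat.ofHom (algebraMap ↥(GaloisRep.ratLocalizedAt ℓ) K)))) := by
  set g := Spec.map (CommRingCat.ofHom (algebraMap ↥(GaloisRep.ratLocalizedAt ℓ) K)) with hg
  -- the two charts of the base change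
  let a₁ : pullback (ιFin N ℓ ≫ igusaTo N ℓ) g ⟶ pullback (igusaTo N ℓ) g :=
    pullback.map _ _ _ _ (ιFin N ℓ) (𝟙 _) (𝟙 _) (by simp) (by simp)
  let a₂ : pullback (ιInf N ℓ ≫ igusaTo N ℓ) g ⟶ pullback (igusaTo N ℓ) g :=
    pullback.map _ _ _ _ (ιInf N ℓ) (𝟙 _) (𝟙 _) (by simp) (by simp)
  -- the charts are spectra of the tensor products
  let e₁ : pullback (ιFin N ℓ ≫ igusaTo N ℓ) g ≅
      Spec (CommRingCat.of (↥(chartAlgFin N ℓ) ⊗[↥(GaloisRep.ratLocalizedAt ℓ)] K)) :=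
    pullback.congrHom (ιFin_igusaTo N ℓ) rfl ≪≫
      pullbackSpecIso ↥(GaloisRep.ratLocalizedAt ℓ) ↥(chartAlgFin N ℓ) K
  let e₂ : pullback (ιInf N ℓ ≫ igusaTo N ℓ) g ≅
      Spec (CommRingCat.of (↥(chartAlgInf N ℓ) ⊗[↥(GaloisRep.ratLocalizedAt ℓ)] K)) :=
    pullback.congrHom (ιInf_igusaTo N ℓ) rfl ≪≫
      pullbackSpecIso ↥(GaloisRep.ratLocalizedAt ℓ) ↥(chartAlgInf N ℓ) K
  have hI₁ : IsIntegral (pullback (ιFin N ℓ ≫ igusaTo N ℓ) g) := IsIntegral.of_isIso e₁.inv
  have hI₂ : IsIntegral (pullback (ιInf N ℓ ≫ igusaTo N ℓ) g) := IsIntegral.of_isIso e₂.inv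
  -- the two charts cover
  have hcov : ∀ x : ↑(pullback (igusaTo N ℓ) g), x ∈ Set.range a₁ ∨ x ∈ Set.range a₂ := by
    let 𝒰 : (ModularCurve.IgusaScheme N ℓ).OpenCover := Scheme.Cover.mkOfCovers Bool
      (fun b => cond b (XFin N ℓ) (XInf N ℓ))
      (fun b => match b with | true => ιFin N ℓ | false => ιInf N ℓ)
      (fun x => by
        rcases mem_range_ιFin_or_mem_range_ιInf N ℓ x with ⟨y, hy⟩ | ⟨y, hy⟩
        · exact ⟨true, y, hy⟩
        · exact ⟨false, y, hy⟩)
      (fun b => by cases b <;> infer_instance)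
    intro x
    obtain ⟨i, y, hy⟩ := (Scheme.Pullback.openCoverOfLeft 𝒰 (igusaTo N ℓ) g).exists_eq x
    cases i
    · exact Or.inr ⟨y, hy⟩
    · exact Or.inl ⟨y, hy⟩
  -- the two charts meet (in the image of the overlap chart)
  have hne : (Set.range a₁ ∩ Set.range a₂).Nonempty := by
    have hb₁ : Spec.map (CommRingCat.ofHom (algebraMap ↥(GaloisRep.ratLocalizedAt ℓ)
        ↥(chartAlgMid N ℓ))) ≫ 𝟙 _ = fFin N ℓ ≫ ιFin N ℓ ≫ igusaTo N ℓ := by
      rw [ιFin_igusaTo, Category.comp_id, ← Spec.map_comp, ← CommRingCat.ofHom_comp]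
      rfl
    have hb₂ : Spec.map (CommRingCat.ofHom (algebraMap ↥(GaloisRep.ratLocalizedAt ℓ)
        ↥(chartAlgMid N ℓ))) ≫ 𝟙 _ = fInf N ℓ ≫ ιInf N ℓ ≫ igusaTo N ℓ := by
      rw [ιInf_igusaTo, Category.comp_id, ← Spec.map_comp, ← CommRingCat.ofHom_comp]
      rfl
    let b₁ : pullback (Spec.map (CommRingCat.ofHom (algebraMap ↥(GaloisRep.ratLocalizedAt ℓ)
        ↥(chartAlgMid N ℓ)))) g ⟶ pullback (ιFin N ℓ ≫ igusaTo N ℓ) g :=
      pullback.map _ _ _ _ (fFin N ℓ) (𝟙 _) (𝟙 _) hb₁ (by simp)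
    let b₂ : pullback (Spec.map (CommRingCat.ofHom (algebraMap ↥(GaloisRep.ratLocalizedAt ℓ)
        ↥(chartAlgMid N ℓ)))) g ⟶ pullback (ιInf N ℓ ≫ igusaTo N ℓ) g :=
      pullback.map _ _ _ _ (fInf N ℓ) (𝟙 _) (𝟙 _) hb₂ (by simp)
    have hcomm : b₁ ≫ a₁ = b₂ ≫ a₂ := by
      apply pullback.hom_ext
      · simp only [a₁, a₂, b₁, b₂, Category.assoc, pullback.lift_fst, pullback.lift_fst_assoc,
          pullback.map]
        rw [glue_condition]
      · simp only [a₁, a₂, b₁, b₂, Category.assoc, pullback.lift_snd, pullback.lift_snd_assoc,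
          pullback.map]
    obtain ⟨p⟩ : Nonempty (PrimeSpectrum
        (↥(chartAlgMid N ℓ) ⊗[↥(GaloisRep.ratLocalizedAt ℓ)] K)) := inferInstance
    let z : ↑(pullback (Spec.map (CommRingCat.ofHom (algebraMap ↥(GaloisRep.ratLocalizedAt ℓ)
        ↥(chartAlgMid N ℓ)))) g) :=
      (pullbackSpecIso ↥(GaloisRep.ratLocalizedAt ℓ) ↥(chartAlgMid N ℓ) K).inv p
    refine ⟨(b₁ ≫ a₁) z, ⟨b₁ z, by simp⟩, ⟨b₂ z, ?_⟩⟩
    rw [hcomm]
    simp
  exact isIntegral_of_two_isOpenImmersion a₁ a₂ hcov hne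

/-- Variant of `isIntegral_pullback_igusaTo_of_isDomain`: it suffices to give injective ring
homomorphisms from the two chart tensor products into domains, and any ring homomorphism from the
overlap tensor product into a nontrivial ring. -/
theorem isIntegral_pullback_igusaTo_of_injective
    (K : Type) [Field K] [Algebra ↥(GaloisRep.ratLocalizedAt ℓ) K]
    {D₁ D₂ D₃ : Type*} [CommRing D₁] [IsDomain D₁] [CommRing D₂] [IsDomain D₂]
    [Semiring D₃] [Nontrivial D₃]
    (φFin : ↥(chartAlgFin N ℓ) ⊗[↥(GaloisRep.ratLocalizedAt ℓ)] K →+* D₁)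
    (hFin : Function.Injective φFin)
    (φInf : ↥(chartAlgInf N ℓ) ⊗[↥(GaloisRep.ratLocalizedAt ℓ)] K →+* D₂)
    (hInf : Function.Injective φInf)
    (φMid : ↥(chartAlgMid N ℓ) ⊗[↥(GaloisRep.ratLocalizedAt ℓ)] K →+* D₃) :
    IsIntegral ↑(pullback (igusaTo N ℓ)
      (Spec.map (CommRingCat.ofHom (algebraMap ↥(GaloisRep.ratLocalizedAt ℓ) K)))) :=
  isIntegral_pullback_igusaTo_of_isDomain N ℓ K
    (hFin.isDomain φFin) (hInf.isDomain φInf) φMid.domain_nontrivial

end Igusa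

end Fermat.Agent.S28.helper385
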