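import Mathlib
import Fermat.Prelude.Def_ModularCurve_LaurentCoeff
import Fermat.Agent.S28.helper508_RatLoc

set_option autoImplicit false

/-!
Tensor lemma for S28: if `A` is an `R`-algebra, `π : R → κ` a surjection onto a field with
`π ℓ = 0`, `K` a field which is an `R`-algebra through `ι : κ → K`, and `red : A → κ((q))` a ring
homomorphism compatible with `π` whose kernel is contained in `ℓ A`, then `A ⊗[R] K` embeds in
`K((q))`; in particular it is a domain.
-/

namespace Fermat.Agent.S28.helper508

open TensorProduct ModularCurve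

noncomputable section

section Abstract

variable {R A K κ : Type*} [CommRing R] [CommRing A] [Algebra R A] [Field K] [Algebra R K]
  [Field κ]

/-- The `R`-algebra structure on `K((q))` through constants. -/
@[reducible] def laurentAlgebra (R K : Type*) [CommRing R] [Field K] [Algebra R K] :
    Algebra R (LaurentSeries K) :=
  ((HahnSeries.C : K →+* LaurentSeries K).comp (algebraMap R K)).toAlgebra

variable (π : R →+* κ) (ι : κ →+* K) (red : A →+* LaurentSeries κ)

/-- `a ↦ coeffMap ι (red a)` as an `R`-algebra hom. -/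
def redAlgHom (hι : algebraMap R K = ι.comp π)
    (hred : ∀ r : R, red (algebraMap R A r) = HahnSeries.C (π r)) :
    letI := laurentAlgebra R K
    A →ₐ[R] LaurentSeries K :=
  letI := laurentAlgebra R K
  { toRingHom := (coeffMap ι).comp red
    commutes' := fun r => by
      show coeffMap ι (red (algebraMap R A r)) = HahnSeries.C (algebraMap R K r)
      rw [hred, HahnSeries.C_apply, coeffMap_single, hι, HahnSeries.C_apply]
      rfl }

/-- Constants as an `R`-algebra hom. -/
def constAlgHom (R K : Type*) [CommRing R] [Field K] [Algebra R K] :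
    letI := laurentAlgebra R K
    K →ₐ[R] LaurentSeries K :=
  letI := laurentAlgebra R K
  { toRingHom := (HahnSeries.C : K →+* LaurentSeries K)
    commutes' := fun _ => rfl }

/-- The map `A ⊗[R] K → K((q))`, `a ⊗ k ↦ k · red(a)`. -/
def tensorToLaurent (hι : algebraMap R K = ι.comp π)
    (hred : ∀ r : R, red (algebraMap R A r) = HahnSeries.C (π r)) :
    A ⊗[R] K →+* LaurentSeries K :=
  letI := laurentAlgebra R K
  (Algebra.TensorProduct.productMap (redAlgHom π ι red hι hred) (constAlgHom R K)).toRingHom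

theorem tensorToLaurent_tmul (hι : algebraMap R K = ι.comp π)
    (hred : ∀ r : R, red (algebraMap R A r) = HahnSeries.C (π r)) (a : A) (k : K) :
    tensorToLaurent π ι red hι hred (a ⊗ₜ[R] k) = coeffMap ι (red a) * HahnSeries.C k := by
  let _ := laurentAlgebra R K
  show (Algebra.TensorProduct.productMap (redAlgHom π ι red hι hred) (constAlgHom R K))
    (a ⊗ₜ[R] k) = _
  rw [Algebra.TensorProduct.productMap_apply_tmul]
  rfl

theorem tensorToLaurent_tmul_coeff (hι : algebraMap R K = ι.comp π)
    (hred : ∀ r : R, red (algebraMap R A r) = HahnSeries.C (π r)) (a : A) (k : K) (m : ℤ) :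
    (tensorToLaurent π ι red hι hred (a ⊗ₜ[R] k)).coeff m = ι ((red a).coeff m) * k := by
  rw [tensorToLaurent_tmul, HahnSeries.C_apply, HahnSeries.coeff_mul_single, sub_zero,
    coeffMap_coeff]

variable {π ι red}

theorem sum_tmul_eq_zero_of_map_eq_zero (hπ : Function.Surjective π)
    (hι : algebraMap R K = ι.comp π)
    (hred : ∀ r : R, red (algebraMap R A r) = HahnSeries.C (π r))
    (ℓ : R) (hℓ : π ℓ = 0) (hker : ∀ a : A, red a = 0 → ∃ b : A, a = algebraMap R A ℓ * b) :
    ∀ (n : ℕ) (a : Fin n → A) (k : Fin n → K),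
      tensorToLaurent π ι red hι hred (∑ i, a i ⊗ₜ[R] k i) = 0 → ∑ i, a i ⊗ₜ[R] k i = 0 := by
  intro n
  induction n with
  | zero => intro a k _; simp
  | succ n ih =>
    intro a k h
    by_cases hall : ∀ i, red (a i) = 0
    · -- every term vanishes
      refine Finset.sum_eq_zero fun i _ => ?_
      obtain ⟨b, hb⟩ := hker (a i) (hall i)
      have hℓK : algebraMap R K ℓ = 0 := by rw [hι]; simp [hℓ]
      rw [hb, ← Algebra.smul_def, TensorProduct.smul_tmul, Algebra.smul_def, hℓK, zero_mul,
        TensorProduct.tmul_zero]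
    · push Not at hall
      obtain ⟨i0, hi0⟩ := hall
      obtain ⟨m, hm⟩ : ∃ m : ℤ, (red (a i0)).coeff m ≠ 0 := by
        by_contra hcon
        push Not at hcon
        exact hi0 (HahnSeries.ext (funext fun m => by simpa using hcon m))
      -- choose lifts of the coefficients
      choose r hr using fun i => hπ ((red (a i)).coeff m)
      obtain ⟨r', hr'⟩ := hπ ((red (a i0)).coeff m)⁻¹
      -- the coefficient-`m` relation
      have hcoeff : ∑ i, ι ((red (a i)).coeff m) * k i = 0 := by
        have := congrArg (fun x : LaurentSeries K => x.coeff m) h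
        simp only [map_sum, HahnSeries.coeff_zero] at this
        rw [← this, HahnSeries.coeff_sum]
        exact Finset.sum_congr rfl fun i _ => (tensorToLaurent_tmul_coeff π ι red hι hred _ _ _).symm
      -- solve for `k i0`
      have hsmul : ∀ (s : R) (x : K), s • x = ι (π s) * x := by
        intro s x
        rw [Algebra.smul_def, hι]; rfl
      have hk0 : k i0 = - ∑ j, (r (i0.succAbove j) * r') • k (i0.succAbove j) := by
        rw [Fin.sum_univ_succAbove _ i0] at hcoeff
        have hne : ι ((red (a i0)).coeff m) ≠ 0 := (map_ne_zero ι).mpr hm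
        have h1 : k i0 = - (ι ((red (a i0)).coeff m))⁻¹ *
            ∑ j, ι ((red (a (i0.succAbove j))).coeff m) * k (i0.succAbove j) := by
          field_simp
          linear_combination hcoeff
        rw [h1, neg_mul, Finset.mul_sum]
        congr 1
        refine Finset.sum_congr rfl fun j _ => ?_
        rw [hsmul, map_mul, map_mul, hr, hr', map_inv₀]
        ring
      -- rewrite the tensor with one fewer term
      have hrew : ∑ i, a i ⊗ₜ[R] k i =
          ∑ j, (a (i0.succAbove j) - (r (i0.succAbove j) * r') • a i0) ⊗ₜ[R] k (i0.succAbove j) := by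
        rw [Fin.sum_univ_succAbove _ i0, hk0, TensorProduct.tmul_neg, TensorProduct.tmul_sum]
        simp only [TensorProduct.sub_tmul, Finset.sum_sub_distrib, TensorProduct.tmul_smul,
          TensorProduct.smul_tmul']
        abel
      rw [hrew] at h ⊢
      exact ih _ _ h

theorem tensorToLaurent_injective (hπ : Function.Surjective π)
    (hι : algebraMap R K = ι.comp π)
    (hred : ∀ r : R, red (algebraMap R A r) = HahnSeries.C (π r))
    (ℓ : R) (hℓ : π ℓ = 0) (hker : ∀ a : A, red a = 0 → ∃ b : A, a = algebraMap R A ℓ * b) :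
    Function.Injective (tensorToLaurent π ι red hι hred) := by
  rw [injective_iff_map_eq_zero]
  intro x hx
  obtain ⟨S, rfl⟩ := TensorProduct.exists_finset x
  have key := sum_tmul_eq_zero_of_map_eq_zero hπ hι hred ℓ hℓ hker S.card
    (fun i => (S.equivFin.symm i).1.1) (fun i => (S.equivFin.symm i).1.2)
  have hsum : ∑ i : Fin S.card, (S.equivFin.symm i).1.1 ⊗ₜ[R] (S.equivFin.symm i).1.2 =
      ∑ i ∈ S, i.1 ⊗ₜ[R] i.2 := by
    rw [← Finset.sum_coe_sort S (fun i => i.1 ⊗ₜ[R] i.2)]
    exact Equiv.sum_comp S.equivFin.symm (fun i : S => i.1.1 ⊗ₜ[R] i.1.2)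
  rw [hsum] at key
  exact key hx

theorem isDomain_tensor (hπ : Function.Surjective π)
    (hι : algebraMap R K = ι.comp π)
    (hred : ∀ r : R, red (algebraMap R A r) = HahnSeries.C (π r))
    (ℓ : R) (hℓ : π ℓ = 0) (hker : ∀ a : A, red a = 0 → ∃ b : A, a = algebraMap R A ℓ * b) :
    IsDomain (A ⊗[R] K) :=
  Function.Injective.isDomain (tensorToLaurent π ι red hι hred)
    (tensorToLaurent_injective hπ hι hred ℓ hℓ hker)

end Abstract

section Concrete

open GaloisRep

variable (ℓ : ℕ) [Fact ℓ.Prime] {A : Type*} [CommRing A] [Algebra (ratLocalizedAt ℓ) A]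
  (K : Type*) [Field K] [CharP K ℓ] [Algebra (ratLocalizedAt ℓ) K]

/-- Any ring hom from a `ℤ_(ℓ)`-algebra to `𝔽_ℓ((q))` is automatically compatible with the
residue map. -/
theorem red_algebraMap (red : A →+* LaurentSeries (ZMod ℓ)) (r : ratLocalizedAt ℓ) :
    red (algebraMap (ratLocalizedAt ℓ) A r) = HahnSeries.C (toZMod ℓ r) := by
  have h : red.comp (algebraMap (ratLocalizedAt ℓ) A) =
      (HahnSeries.C : ZMod ℓ →+* LaurentSeries (ZMod ℓ)).comp (toZMod ℓ) := by
    apply IsLocalization.ringHom_ext (Ideal.span {(ℓ : ℤ)}).primeCompl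
    exact RingHom.ext_int _ _
  exact congrArg (fun f : ratLocalizedAt ℓ →+* LaurentSeries (ZMod ℓ) => f r) h

/-- **Tensor lemma (S28).** If `red : A →+* 𝔽_ℓ((q))` has kernel contained in `ℓ A`, then
`A ⊗[ℤ_(ℓ)] K` is a domain for every field `K` of characteristic `ℓ`. -/
theorem isDomain_tensor_of_red (red : A →+* LaurentSeries (ZMod ℓ))
    (hker : ∀ a : A, red a = 0 →
      ∃ b : A, a = algebraMap (ratLocalizedAt ℓ) A ((ℓ : ℕ) : ratLocalizedAt ℓ) * b) :
    IsDomain (A ⊗[ratLocalizedAt ℓ] K) :=
  isDomain_tensor (π := toZMod ℓ) (ι := ZMod.castHom (dvd_refl ℓ) K) (red := red)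
    (toZMod_surjective ℓ) (algebraMap_eq_castHom_comp_toZMod ℓ K) (red_algebraMap ℓ red)
    ((ℓ : ℕ) : ratLocalizedAt ℓ) ((toZMod_eq_zero_iff ℓ _).mpr ⟨1, by simp⟩) hker

/-- The same with the tensor factors swapped. -/
theorem isDomain_tensor_of_red' (red : A →+* LaurentSeries (ZMod ℓ))
    (hker : ∀ a : A, red a = 0 →
      ∃ b : A, a = algebraMap (ratLocalizedAt ℓ) A ((ℓ : ℕ) : ratLocalizedAt ℓ) * b) :
    IsDomain (K ⊗[ratLocalizedAt ℓ] A) :=
  haveI := isDomain_tensor_of_red ℓ K red hker
  MulEquiv.isDomain (A ⊗[ratLocalizedAt ℓ] K)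
    (Algebra.TensorProduct.comm (ratLocalizedAt ℓ) K A).toMulEquiv

end Concrete

end

end Fermat.Agent.S28.helper508

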