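/-
S28: adapters from the landed tensor lemma (`helper508_TensorDomain`) and scheme glue
(`helper385_SchemeReduction`) to the interface of `helper2608_Spec`, plus the final assembly
`Stmt_Core N ℓ → Stmt_CoreInput N ℓ → (S28 goal)`.
-/
import Fermat.Agent.S28.helper2608_Spec
import Fermat.Agent.S28.helper508_TensorDomain
import Fermat.Agent.S28.helper385_SchemeReduction

set_option autoImplicit false

open AlgebraicGeometry CategoryTheory CategoryTheory.Limits ModularCurve ModularCurve.IgusaScheme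
open scoped TensorProduct

noncomputable section

namespace Fermat.Agent.S28.helper508

/-- The tensor step of the Spec: proved. -/
theorem stmt_Tensor (ℓ : ℕ) [Fact ℓ.Prime] : Fermat.Agent.S28.Spec.Stmt_Tensor ℓ := by
  intro A _ _ K _ _ _ red hker
  refine isDomain_tensor_of_red ℓ K red ?_
  intro a ha
  obtain ⟨b, hb⟩ := hker a ha
  exact ⟨b, by rw [hb, map_natCast]⟩

/-- The scheme step of the Spec: proved (this is `helper385.isIntegral_pullback_igusaTo_of_isDomain`). -/
theorem stmt_Glue (N : ℕ) [NeZero N] (ℓ : ℕ) [Fact ℓ.Prime] :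
    Fermat.Agent.S28.Spec.Stmt_Glue N ℓ := by
  intro K _ _ _ hFin hInf hMid
  exact Fermat.Agent.S28.helper385.isIntegral_pullback_igusaTo_of_isDomain N ℓ K hFin hInf hMid

/-- One chart: `Stmt_Red` gives a domain after base change to a field of characteristic `ℓ`. -/
theorem isDomain_of_stmt_Red (N : ℕ) [NeZero N] (ℓ : ℕ) [Fact ℓ.Prime]
    (S : Set ↥(modularFunctionFieldFull N)) (h : Fermat.Agent.S28.Spec.Stmt_Red N ℓ S)
    (K : Type) [Field K] [CharP K ℓ] [Algebra ↥(GaloisRep.ratLocalizedAt ℓ) K] :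
    IsDomain (↥(chartAlg N ℓ S) ⊗[↥(GaloisRep.ratLocalizedAt ℓ)] K) := by
  obtain ⟨red, hred⟩ := h
  exact stmt_Tensor ℓ ↥(chartAlg N ℓ S) K red hred

/-- **Final assembly of S28** from the three `Stmt_Red`'s. -/
theorem isIntegral_of_stmt_Red (N : ℕ) [NeZero N] (ℓ : ℕ) [Fact ℓ.Prime]
    (hFin : Fermat.Agent.S28.Spec.Stmt_Red N ℓ {jFull N})
    (hInf : Fermat.Agent.S28.Spec.Stmt_Red N ℓ {(jFull N)⁻¹})
    (hMid : Fermat.Agent.S28.Spec.Stmt_Red N ℓ {jFull N, (jFull N)⁻¹})
    (K : Type) [Field K] [CharP K ℓ] [Algebra ↥(GaloisRep.ratLocalizedAt ℓ) K] :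
    IsIntegral ↑(pullback (igusaTo N ℓ)
      (Spec.map (CommRingCat.ofHom (algebraMap ↥(GaloisRep.ratLocalizedAt ℓ) K)))) := by
  have h1 := isDomain_of_stmt_Red N ℓ _ hFin K
  have h2 := isDomain_of_stmt_Red N ℓ _ hInf K
  have h3 := isDomain_of_stmt_Red N ℓ _ hMid K
  exact stmt_Glue N ℓ K h1 h2 (by infer_instance)

/-- **Final assembly of S28** from the algebra core and the modular input. -/
theorem isIntegral_of_core (N : ℕ) [NeZero N] (ℓ : ℕ) [Fact ℓ.Prime]
    (hcore : Fermat.Agent.S28.Spec.Stmt_Core N ℓ)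
    (hin : Fermat.Agent.S28.Spec.Stmt_CoreInput N ℓ)
    (K : Type) [Field K] [CharP K ℓ] [Algebra ↥(GaloisRep.ratLocalizedAt ℓ) K] :
    IsIntegral ↑(pullback (igusaTo N ℓ)
      (Spec.map (CommRingCat.ofHom (algebraMap ↥(GaloisRep.ratLocalizedAt ℓ) K)))) := by
  obtain ⟨hFin, hInf, hMid⟩ := hcore hin
  exact isIntegral_of_stmt_Red N ℓ hFin hInf hMid K

end Fermat.Agent.S28.helper508

end
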