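import Mathlib
import Fermat.Prelude.Def_ModularCurve_JqCoeff
import Fermat.Prelude.Def_ModularCurve_LaurentCoeff
import Fermat.Prelude.Thm_ModularCurve_coeff_jqModC_pow_self
import Fermat.Prelude.Thm_ModularCurve_coeff_jqModC_pow_of_lt
import Fermat.Prelude.Def_ModularCurve_X0ModL

/-!
# Coarse irreducibility criterion (S28, Igusa)

Let `κ` be a field and `J : κ((q))` a Laurent series "of order `-1` with leading coefficient `1`"
(in the coefficient form of the Prelude lemmas on `jqModC`).  Let `χ ∈ κ[Y][X]` be monic of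
degree `n` with `χ(J, u) = 0` for a Laurent series `u` of order `-P < 0`.  If the coefficients
`a_k` of `X^(n-k)` have `Y`-degree `< P` for `k ≥ 2` and the constant coefficient of `χ` is
nonzero, then `1, u, …, u^(n-1)` are linearly independent over `κ[J]`.
-/

set_option autoImplicit false

noncomputable section

namespace Fermat.Agent.S28.helper2968

open Polynomial

variable {κ : Type*} [Field κ]

/-- The two properties of `J` we use (these are the shapes of the Prelude lemmas
`ModularCurve.coeff_jqModC_pow_self` and `ModularCurve.coeff_jqModC_pow_of_lt`). -/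
structure IsJLike (J : LaurentSeries κ) : Prop where
  coeff_pow_self : ∀ b : ℕ, (J ^ b).coeff (-(b : ℤ)) = 1
  coeff_pow_of_lt : ∀ (b : ℕ) (m : ℤ), m < -(b : ℤ) → (J ^ b).coeff m = 0

theorem isJLike_jqModC : IsJLike (ModularCurve.jqModC κ) where
  coeff_pow_self b := ModularCurve.coeff_jqModC_pow_self κ b
  coeff_pow_of_lt _ _ hm := ModularCurve.coeff_jqModC_pow_of_lt κ hm

section Triangular

theorem coeff_aeval (J : LaurentSeries κ) (c : κ[X]) (m : ℤ) :
    (aeval J c).coeff m = ∑ i ∈ Finset.range (c.natDegree + 1), c.coeff i * (J ^ i).coeff m := by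
  rw [aeval_eq_sum_range, HahnSeries.coeff_sum]
  refine Finset.sum_congr rfl fun i _ => ?_
  rw [Algebra.smul_def, ModularCurve.algebraMap_laurentSeries_eq_single,
    HahnSeries.coeff_single_mul, sub_zero]

variable {J : LaurentSeries κ} (hJ : IsJLike J)

include hJ

theorem coeff_aeval_of_lt (c : κ[X]) {m : ℤ} (hm : m < -(c.natDegree : ℤ)) :
    (aeval J c).coeff m = 0 := by
  rw [coeff_aeval]
  refine Finset.sum_eq_zero fun i hi => ?_
  have hi' : i ≤ c.natDegree := Nat.lt_succ_iff.mp (Finset.mem_range.mp hi)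
  rw [hJ.coeff_pow_of_lt i m (by have : (i : ℤ) ≤ c.natDegree := by exact_mod_cast hi'
                                 omega), mul_zero]

theorem coeff_aeval_neg_natDegree (c : κ[X]) :
    (aeval J c).coeff (-(c.natDegree : ℤ)) = c.leadingCoeff := by
  rw [coeff_aeval, Finset.sum_eq_single c.natDegree]
  · rw [hJ.coeff_pow_self, mul_one, leadingCoeff]
  · intro i hi hne
    have hi' : i < c.natDegree :=
      lt_of_le_of_ne (Nat.lt_succ_iff.mp (Finset.mem_range.mp hi)) hne
    rw [hJ.coeff_pow_of_lt i _ (by have : (i : ℤ) < c.natDegree := by exact_mod_cast hi'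
                                   omega), mul_zero]
  · intro h
    exact absurd (Finset.mem_range.mpr (Nat.lt_succ_self _)) h

/-- A polynomial in `J` all of whose coefficients in degrees `≤ 0` vanish is zero. -/
theorem eq_zero_of_coeff_nonpos (c : κ[X]) (h : ∀ m : ℤ, m ≤ 0 → (aeval J c).coeff m = 0) :
    c = 0 := by
  by_contra hc
  have h1 := coeff_aeval_neg_natDegree hJ c
  rw [h _ (by omega)] at h1
  exact hc (leadingCoeff_eq_zero.mp h1.symm)

theorem aeval_injective : Function.Injective (aeval J : κ[X] → LaurentSeries κ) := by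
  intro c d hcd
  have h0 : aeval J (c - d) = 0 := by rw [map_sub, hcd, sub_self]
  have := eq_zero_of_coeff_nonpos hJ (c - d) (fun m _ => by rw [h0]; rfl)
  exact sub_eq_zero.mp this

theorem le_orderTop_aeval (c : κ[X]) :
    ((-(c.natDegree : ℤ) : ℤ) : WithTop ℤ) ≤ (aeval J c).orderTop := by
  rw [HahnSeries.le_orderTop_iff_forall]
  intro j hj
  exact coeff_aeval_of_lt hJ c (by exact_mod_cast hj)

theorem lt_orderTop_aeval (c : κ[X]) {P : ℕ} (hP : c.natDegree < P) :
    ((-(P : ℤ) : ℤ) : WithTop ℤ) < (aeval J c).orderTop := by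
  refine lt_of_lt_of_le ?_ (le_orderTop_aeval hJ c)
  have : -(P : ℤ) < -(c.natDegree : ℤ) := by
    have : (c.natDegree : ℤ) < P := by exact_mod_cast hP
    omega
  exact_mod_cast this

end Triangular

section Main

/-- `κ[X]` regarded as the ring `κ[J]`, acting on `κ((q))` through `Y ↦ J`. (A type synonym,
to avoid the instance `Algebra κ[X] κ⸨X⸩` of Mathlib, which sends the variable to the variable.) -/
def Src (_J : LaurentSeries κ) : Type _ := κ[X]

instance instCommRingSrc (J : LaurentSeries κ) : CommRing (Src J) :=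
  inferInstanceAs (CommRing κ[X])

instance instIsDomainSrc (J : LaurentSeries κ) : IsDomain (Src J) :=
  inferInstanceAs (IsDomain κ[X])

instance instIsIntegrallyClosedSrc (J : LaurentSeries κ) : IsIntegrallyClosed (Src J) :=
  inferInstanceAs (IsIntegrallyClosed κ[X])

instance instAlgebraSrc (J : LaurentSeries κ) : Algebra (Src J) (LaurentSeries κ) :=
  ((aeval J : κ[X] →ₐ[κ] LaurentSeries κ) : κ[X] →+* LaurentSeries κ).toAlgebra

theorem algebraMap_src (J : LaurentSeries κ) (c : κ[X]) :
    algebraMap (Src J) (LaurentSeries κ) c = aeval J c := rfl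

theorem pos_of_add_eq {a b : WithTop ℤ} {P : ℤ} (h : ((-P : ℤ) : WithTop ℤ) + a = b)
    (hb : ((-P : ℤ) : WithTop ℤ) < b) : 0 < a := by
  induction a using WithTop.recTopCoe with
  | top => exact WithTop.top_pos
  | coe a =>
    rw [← WithTop.coe_add] at h
    subst h
    have h1 : -P < -P + a := WithTop.coe_lt_coe.mp hb
    have h2 : (0 : ℤ) < a := by omega
    exact_mod_cast h2

theorem orderTop_mul' (x y : LaurentSeries κ) :
    (x * y).orderTop = x.orderTop + y.orderTop := by
  have := (HahnSeries.addVal ℤ κ).map_mul x y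
  simpa only [HahnSeries.addVal_apply] using this

/-- Synthetic division by `X - u`: if `f = (X - u) g`, `ord u = -P` and the low coefficients
of `f` have order `> -P`, then the low coefficients of `g` have positive order. -/
theorem cofactor_coeff_pos (u : LaurentSeries κ) (P : ℕ)
    (hu : u.orderTop = ((-(P : ℤ) : ℤ) : WithTop ℤ))
    (f g : (LaurentSeries κ)[X]) (hfg : f = (X - C u) * g) (n : ℕ)
    (hf : ∀ i, i + 2 ≤ n → ((-(P : ℤ) : ℤ) : WithTop ℤ) < (f.coeff i).orderTop) :
    ∀ i, i + 2 ≤ n → 0 < (g.coeff i).orderTop := by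
  intro i
  induction i with
  | zero =>
    intro h0
    have h1 : f.coeff 0 = -(u * g.coeff 0) := by
      rw [hfg, sub_mul, coeff_sub, coeff_X_mul_zero, coeff_C_mul, zero_sub]
    have h2 := hf 0 h0
    rw [h1, HahnSeries.orderTop_neg, orderTop_mul', hu] at h2
    exact pos_of_add_eq rfl h2
  | succ i ih =>
    intro hi
    have h1 : u * g.coeff (i + 1) = g.coeff i - f.coeff (i + 1) := by
      rw [hfg, sub_mul, coeff_sub, coeff_X_mul, coeff_C_mul]
      ring
    have h2 : ((-(P : ℤ) : ℤ) : WithTop ℤ) < (g.coeff i - f.coeff (i + 1)).orderTop := by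
      refine lt_of_lt_of_le (lt_min ?_ (hf (i + 1) hi)) HahnSeries.min_orderTop_le_orderTop_sub
      refine lt_of_le_of_lt ?_ (ih (by omega))
      have : -(P : ℤ) ≤ 0 := by omega
      exact_mod_cast this
    rw [← h1, orderTop_mul', hu] at h2
    exact pos_of_add_eq rfl h2

/-- A Laurent series of nonnegative order is a power series. -/
theorem mem_range_algebraMap_of_orderTop_nonneg (f : LaurentSeries κ) (hf : 0 ≤ f.orderTop) :
    f ∈ Set.range (algebraMap (PowerSeries κ) (LaurentSeries κ)) := by
  refine ⟨PowerSeries.mk fun n => f.coeff n, ?_⟩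
  rw [LaurentSeries.coe_algebraMap]
  ext i
  rw [PowerSeries.coeff_coe]
  split_ifs with hi
  · refine (HahnSeries.coeff_eq_zero_of_lt_orderTop (lt_of_lt_of_le ?_ hf)).symm
    exact_mod_cast hi
  · rw [PowerSeries.coeff_mk, Int.natAbs_of_nonneg (by omega)]

/-- Over an integrally closed domain, the powers `1, u, …, u^(n-1)` of an integral element whose
minimal polynomial has degree `n` are linearly independent. -/
theorem eq_zero_of_minpoly_natDegree {R S : Type*} [CommRing R] [IsDomain R]
    [IsIntegrallyClosed R] [CommRing S] [IsDomain S] [Algebra R S] [Module.IsTorsionFree R S]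
    {u : S} (hint : IsIntegral R u) {n : ℕ} (hn : (minpoly R u).natDegree = n)
    (c : Fin n → R) (hc : ∑ i, algebraMap R S (c i) * u ^ (i : ℕ) = 0) : c = 0 := by
  classical
  let p : R[X] := ∑ i : Fin n, C (c i) * X ^ (i : ℕ)
  have hp : aeval u p = 0 := by
    simp only [p, map_sum, map_mul, aeval_C, map_pow, aeval_X]
    exact hc
  have hdvd : minpoly R u ∣ p := minpoly.isIntegrallyClosed_dvd hint hp
  have hpcoeff : ∀ i : Fin n, p.coeff i = c i := by
    intro i
    simp only [p, finsetSum_coeff, coeff_C_mul, coeff_X_pow]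
    rw [Finset.sum_eq_single i]
    · simp
    · intro j _ hji
      rw [if_neg (fun h => hji (Fin.ext h.symm)), mul_zero]
    · intro h; exact absurd (Finset.mem_univ i) h
  have hp0 : p = 0 := by
    by_contra hp0
    have hlt : p.natDegree < n := by
      rw [natDegree_lt_iff_degree_lt hp0]
      refine lt_of_le_of_lt (degree_sum_le _ _) ?_
      rw [Finset.sup_lt_iff (by exact WithBot.bot_lt_coe n)]
      intro i _
      refine lt_of_le_of_lt (degree_C_mul_X_pow_le _ _) ?_
      exact_mod_cast i.2
    exact hp0 (eq_zero_of_dvd_of_natDegree_lt hdvd (by rw [hn]; exact hlt))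
  funext i
  have := hpcoeff i
  rw [hp0, coeff_zero] at this
  exact this.symm

/-- **Coarse irreducibility criterion.** -/
theorem coarse_irreducible {J : LaurentSeries κ} (hJ : IsJLike J) (u : LaurentSeries κ)
    (χ : κ[X][X]) (hχ : χ.Monic) (P : ℕ)
    (hu_coeff : u.coeff (-(P : ℤ)) ≠ 0) (hu_lt : ∀ m : ℤ, m < -(P : ℤ) → u.coeff m = 0)
    (hroot : χ.eval₂ ((aeval J : κ[X] →ₐ[κ] LaurentSeries κ) : κ[X] →+* LaurentSeries κ) u = 0)
    (hdeg : ∀ i : ℕ, i + 2 ≤ χ.natDegree → (χ.coeff i).natDegree < P)
    (h0 : χ.coeff 0 ≠ 0) :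
    ∀ c : Fin χ.natDegree → κ[X], ∑ i, aeval J (c i) * u ^ (i : ℕ) = 0 → c = 0 := by
  classical
  set n := χ.natDegree with hn
  have hu : u.orderTop = ((-(P : ℤ) : ℤ) : WithTop ℤ) :=
    HahnSeries.orderTop_eq_of_le ((HahnSeries.mem_support _ _).mpr hu_coeff) (fun g hg => by
      by_contra hlt
      exact ((HahnSeries.mem_support _ _).mp hg) (hu_lt g (not_le.mp hlt)))
  have hinj : Function.Injective (algebraMap (Src J) (LaurentSeries κ)) := aeval_injective hJ
  have : Module.IsTorsionFree (Src J) (LaurentSeries κ) :=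
    Module.isTorsionFree_iff_algebraMap_injective.mpr hinj
  let χ' : (Src J)[X] := χ
  have hχ' : χ'.Monic := hχ
  have hroot' : aeval u χ' = 0 := hroot
  have hint : IsIntegral (Src J) u := ⟨χ', hχ', hroot⟩
  have hm_monic : (minpoly (Src J) u).Monic := minpoly.monic hint
  have hm_dvd : minpoly (Src J) u ∣ χ' := minpoly.isIntegrallyClosed_dvd hint hroot'
  obtain ⟨m', hm'⟩ := hm_dvd
  have hm'_monic : m'.Monic := hm_monic.of_mul_monic_left (hm' ▸ hχ')
  -- key step: the cofactor is trivial
  have key : m' = 1 := by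
    set φ := algebraMap (Src J) (LaurentSeries κ) with hφ
    have hχL : χ'.map φ = (minpoly (Src J) u).map φ * m'.map φ := by
      rw [hm', Polynomial.map_mul]
    have hrootχ : (χ'.map φ).IsRoot u := by
      rw [IsRoot, eval_map]; exact hroot
    have hrootm : ((minpoly (Src J) u).map φ).IsRoot u := by
      rw [IsRoot, eval_map, ← aeval_def]; exact minpoly.aeval (Src J) u
    obtain ⟨g, hg⟩ := dvd_iff_isRoot.mpr hrootχ
    obtain ⟨h, hh⟩ := dvd_iff_isRoot.mpr hrootm
    have hXu : (X - C u : (LaurentSeries κ)[X]) ≠ 0 := X_sub_C_ne_zero u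
    have hgh : g = h * m'.map φ := by
      apply mul_left_cancel₀ hXu
      rw [← hg, hχL, hh, mul_assoc]
    have hgpos : ∀ i, i + 2 ≤ n → 0 < (g.coeff i).orderTop := by
      apply cofactor_coeff_pos u P hu (χ'.map φ) g hg n
      intro i hi
      rw [coeff_map]
      exact lt_orderTop_aeval hJ _ (hdeg i hi)
    have hχL_monic : (χ'.map φ).Monic := hχ'.map φ
    have hg_monic : g.Monic := by
      have h1 := hχL_monic
      rw [hg] at h1
      exact (monic_X_sub_C u).of_mul_monic_left h1
    have hg_deg : g.natDegree + 1 = n := by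
      have h1 : (χ'.map φ).natDegree = n := hχ'.natDegree_map φ
      rw [hg, (monic_X_sub_C u).natDegree_mul hg_monic, natDegree_X_sub_C] at h1
      omega
    have hg_lifts : g ∈ lifts (algebraMap (PowerSeries κ) (LaurentSeries κ)) := by
      rw [lifts_iff_coeff_lifts]
      intro i
      apply mem_range_algebraMap_of_orderTop_nonneg
      rcases lt_trichotomy i g.natDegree with hi | hi | hi
      · exact (hgpos i (by omega)).le
      · rw [hi, hg_monic.coeff_natDegree]
        exact (HahnSeries.orderTop_single one_ne_zero).ge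
      · rw [coeff_eq_zero_of_natDegree_lt hi, HahnSeries.orderTop_zero]
        exact le_top
    obtain ⟨G, hGmap, hGdeg, hGmonic⟩ := lifts_and_natDegree_eq_and_monic hg_lifts hg_monic
    have hdvdG : m'.map φ ∣ G.map (algebraMap (PowerSeries κ) (LaurentSeries κ)) := by
      rw [hGmap, hgh]; exact dvd_mul_left _ _
    obtain ⟨M, hM⟩ := IsIntegrallyClosed.eq_map_mul_C_of_dvd (LaurentSeries κ) hGmonic hdvdG
    have hm'L_monic : (m'.map φ).Monic := hm'_monic.map φ
    rw [hm'L_monic.leadingCoeff, C_1, mul_one] at hM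
    have hdvdG2 : h ∣ G.map (algebraMap (PowerSeries κ) (LaurentSeries κ)) := by
      rw [hGmap, hgh]; exact dvd_mul_right _ _
    obtain ⟨H, hH⟩ := IsIntegrallyClosed.eq_map_mul_C_of_dvd (LaurentSeries κ) hGmonic hdvdG2
    have hh_monic : h.Monic := by
      have h1 : ((minpoly (Src J) u).map φ).Monic := hm_monic.map φ
      rw [hh] at h1
      exact (monic_X_sub_C u).of_mul_monic_left h1
    rw [hh_monic.leadingCoeff, C_1, mul_one] at hH
    have hinjPS : Function.Injective (algebraMap (PowerSeries κ) (LaurentSeries κ)) :=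
      IsFractionRing.injective _ _
    have hGHM : G = H * M := by
      apply map_injective _ hinjPS
      rw [Polynomial.map_mul, hH, hM, hGmap, hgh]
    have hM_monic : M.Monic := monic_of_injective hinjPS (hM ▸ hm'L_monic)
    -- reduce modulo `q`
    have hGbar : G.map (PowerSeries.constantCoeff (R := κ)) = X ^ (n - 1) := by
      ext i
      rw [coeff_map, coeff_X_pow]
      split_ifs with hi
      · rw [hi, show n - 1 = G.natDegree by omega, hGmonic.coeff_natDegree, map_one]
      · rcases lt_or_gt_of_ne hi with hi' | hi'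
        · have h1 := hgpos i (by omega)
          rw [← hGmap, coeff_map, LaurentSeries.coe_algebraMap] at h1
          have h2 := HahnSeries.coeff_eq_zero_of_lt_orderTop h1
          rw [show (0 : ℤ) = ((0 : ℕ) : ℤ) from rfl, HahnSeries.ofPowerSeries_apply_coeff,
            PowerSeries.coeff_zero_eq_constantCoeff] at h2
          exact h2
        · rw [coeff_eq_zero_of_natDegree_lt (by omega), map_zero]
    have hMbar_dvd : M.map (PowerSeries.constantCoeff (R := κ)) ∣ X ^ (n - 1) := by
      rw [← hGbar, hGHM, Polynomial.map_mul]; exact dvd_mul_left _ _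
    have hMbar_monic : (M.map (PowerSeries.constantCoeff (R := κ))).Monic := hM_monic.map _
    obtain ⟨r, -, hr⟩ := (dvd_prime_pow prime_X _).mp hMbar_dvd
    have hMbar : M.map (PowerSeries.constantCoeff (R := κ)) = X ^ r :=
      eq_of_monic_of_associated hMbar_monic (monic_X_pow r) hr
    have hr_eq : r = m'.natDegree := by
      have h1 : (M.map (PowerSeries.constantCoeff (R := κ))).natDegree = M.natDegree :=
        hM_monic.natDegree_map _
      have h2 : (M.map (algebraMap (PowerSeries κ) (LaurentSeries κ))).natDegree = M.natDegree :=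
        hM_monic.natDegree_map _
      have h3 : (m'.map φ).natDegree = m'.natDegree := hm'_monic.natDegree_map φ
      rw [hMbar, natDegree_X_pow] at h1
      rw [hM, h3] at h2
      omega
    by_contra hne
    have hdegpos : 0 < m'.natDegree := by
      rcases Nat.eq_zero_or_pos m'.natDegree with h | h
      · exact absurd (hm'_monic.natDegree_eq_zero.mp h) hne
      · exact h
    -- the constant coefficient of `m'` vanishes
    have hc0 : m'.coeff 0 = 0 := by
      have h1 : PowerSeries.constantCoeff (M.coeff 0) = 0 := by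
        have := congrArg (fun p => p.coeff 0) hMbar
        simp only [coeff_map, coeff_X_pow] at this
        rw [this, if_neg (by omega)]
      have h2 : aeval J (m'.coeff 0 : κ[X]) =
          algebraMap (PowerSeries κ) (LaurentSeries κ) (M.coeff 0) := by
        have := congrArg (fun p => p.coeff 0) hM
        simp only [coeff_map] at this
        exact this.symm
      refine eq_zero_of_coeff_nonpos hJ (m'.coeff 0) (fun j hj => ?_)
      rw [h2, LaurentSeries.coe_algebraMap, PowerSeries.coeff_coe]
      split_ifs with hj'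
      · rfl
      · have hj0 : j = 0 := by omega
        rw [hj0, Int.natAbs_zero, PowerSeries.coeff_zero_eq_constantCoeff]
        exact h1
    apply h0
    have : χ'.coeff 0 = 0 := by
      rw [hm', mul_coeff_zero, hc0, mul_zero]
    exact this
  -- conclusion
  intro c hc
  have hχm : (minpoly (Src J) u).natDegree = n := by
    have : χ' = minpoly (Src J) u := by rw [hm', key, mul_one]
    rw [← this]
    rfl
  exact eq_zero_of_minpoly_natDegree hint hχm c hc

/-- The criterion for `J = jqModC κ`. -/
theorem coarse_irreducible_jqModC (u : LaurentSeries κ)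
    (χ : κ[X][X]) (hχ : χ.Monic) (P : ℕ)
    (hu_coeff : u.coeff (-(P : ℤ)) ≠ 0) (hu_lt : ∀ m : ℤ, m < -(P : ℤ) → u.coeff m = 0)
    (hroot : χ.eval₂ ((aeval (ModularCurve.jqModC κ) : κ[X] →ₐ[κ] LaurentSeries κ) :
      κ[X] →+* LaurentSeries κ) u = 0)
    (hdeg : ∀ i : ℕ, i + 2 ≤ χ.natDegree → (χ.coeff i).natDegree < P)
    (h0 : χ.coeff 0 ≠ 0) :
    ∀ c : Fin χ.natDegree → κ[X],
      ∑ i, aeval (ModularCurve.jqModC κ) (c i) * u ^ (i : ℕ) = 0 → c = 0 :=
  coarse_irreducible isJLike_jqModC u χ hχ P hu_coeff hu_lt hroot hdeg h0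

end Main

section Adapters

open ModularCurve

variable {O : Type*} [CommRing O]

theorem algebraMap_eq_single (R : Type*) [CommRing R] (c : R) :
    algebraMap R (LaurentSeries R) c = HahnSeries.single 0 c := by
  have h1 : algebraMap R (PowerSeries R) c = PowerSeries.C c := by simp
  rw [HahnSeries.algebraMap_apply', h1, HahnSeries.ofPowerSeries_C]
  rfl

/-- Reduction of coefficients commutes with "evaluate a polynomial at `j`". -/
theorem coeffMap_comp_aeval_jqModC (ψ : O →+* κ) :
    (coeffMap ψ).comp ((aeval (jqModC O) : O[X] →ₐ[O] LaurentSeries O) : O[X] →+* LaurentSeries O)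
      = ((aeval (jqModC κ) : κ[X] →ₐ[κ] LaurentSeries κ) : κ[X] →+* LaurentSeries κ).comp
          (mapRingHom ψ) := by
  refine Polynomial.ringHom_ext (fun a => ?_) ?_
  · simp only [RingHom.comp_apply, RingHom.coe_coe, aeval_C, coe_mapRingHom, map_C]
    rw [algebraMap_eq_single, algebraMap_eq_single, coeffMap_single]
  · simp only [RingHom.comp_apply, RingHom.coe_coe, aeval_X, coe_mapRingHom, map_X]
    exact coeffMap_jqModC ψ

theorem coeffMap_aeval_jqModC (ψ : O →+* κ) (c : O[X]) :
    coeffMap ψ (aeval (jqModC O) c) = aeval (jqModC κ) (c.map ψ) := by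
  have := congrArg (fun f => f c) (coeffMap_comp_aeval_jqModC (κ := κ) ψ)
  simpa only [RingHom.comp_apply, RingHom.coe_coe, coe_mapRingHom] using this

/-- **Coarse criterion after reduction.**  `χ` lives over any commutative ring `O` mapping to the
field `κ`; only the displayed data are needed: one root `U` of `χ(j, ·)` in `O((q))`, whose
reduction has exact order `-P`, degree bounds on the coefficients, and a nonzero reduction of the
constant coefficient. -/
theorem coarse_irreducible_of_ringHom (ψ : O →+* κ) (U : LaurentSeries O)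
    (χ : O[X][X]) (hχ : χ.Monic) (P : ℕ)
    (hU_coeff : ψ (U.coeff (-(P : ℤ))) ≠ 0) (hU_lt : ∀ m : ℤ, m < -(P : ℤ) → ψ (U.coeff m) = 0)
    (hroot : χ.eval₂ ((aeval (jqModC O) : O[X] →ₐ[O] LaurentSeries O) :
      O[X] →+* LaurentSeries O) U = 0)
    (hdeg : ∀ i : ℕ, i + 2 ≤ χ.natDegree → (χ.coeff i).natDegree < P)
    (h0 : (χ.coeff 0).map ψ ≠ 0) :
    ∀ c : Fin χ.natDegree → κ[X],
      ∑ i, aeval (jqModC κ) (c i) * (coeffMap ψ U) ^ (i : ℕ) = 0 → c = 0 := by
  set χb : κ[X][X] := χ.map (mapRingHom ψ) with hχb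
  have hχb_monic : χb.Monic := hχ.map _
  have hχb_deg : χb.natDegree = χ.natDegree := hχ.natDegree_map _
  have hrootb : χb.eval₂ ((aeval (jqModC κ) : κ[X] →ₐ[κ] LaurentSeries κ) :
      κ[X] →+* LaurentSeries κ) (coeffMap ψ U) = 0 := by
    rw [hχb, eval₂_map, ← coeffMap_comp_aeval_jqModC, ← hom_eval₂, hroot, map_zero]
  have hmain := coarse_irreducible_jqModC (coeffMap ψ U) χb hχb_monic P
    (by rw [coeffMap_coeff]; exact hU_coeff) (fun m hm => by rw [coeffMap_coeff]; exact hU_lt m hm)
    hrootb
    (fun i hi => by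
      rw [hχb, coeff_map, coe_mapRingHom]
      exact lt_of_le_of_lt natDegree_map_le (hdeg i (by rw [← hχb_deg]; exact hi)))
    (by rw [hχb, coeff_map, coe_mapRingHom]; exact h0)
  rw [hχb_deg] at hmain
  exact hmain

/-- **Consumer form.** `W ∈ ℤ((q))` (e.g. an eta quotient) with leading term `q^(-P)`, a monic
`χ ∈ O[Y][X]` of degree `n` with `χ(j, W) = 0` in `O((q))`, degree bounds and nonvanishing of
the constant coefficient modulo `ψ : O → κ`.  Then for every field `k` embedding in `κ`
(e.g. `k = ZMod ℓ`), the powers `1, w, …, w^(n-1)` of the reduction `w` of `W` are linearly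
independent over `k[j]` inside `k((q))`. -/
theorem linearIndependent_pow_of_coarse {k : Type*} [Field k] (ι : k →+* κ) (ψ : O →+* κ)
    (W : LaurentSeries ℤ) (χ : O[X][X]) (hχ : χ.Monic) (n : ℕ) (hn : χ.natDegree = n) (P : ℕ)
    (hW_coeff : W.coeff (-(P : ℤ)) = 1) (hW_lt : ∀ m : ℤ, m < -(P : ℤ) → W.coeff m = 0)
    (hroot : χ.eval₂ ((aeval (jqModC O) : O[X] →ₐ[O] LaurentSeries O) :
      O[X] →+* LaurentSeries O) (coeffMap (Int.castRingHom O) W) = 0)
    (hdeg : ∀ i : ℕ, i + 2 ≤ n → (χ.coeff i).natDegree < P)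
    (h0 : (χ.coeff 0).map ψ ≠ 0) :
    ∀ c : Fin n → k[X],
      ∑ i, aeval (jqModC k) (c i) * (coeffMap (Int.castRingHom k) W) ^ (i : ℕ) = 0 → c = 0 := by
  subst hn
  intro c hc
  have hmain := coarse_irreducible_of_ringHom ψ (coeffMap (Int.castRingHom O) W) χ hχ P
    (by rw [coeffMap_coeff, hW_coeff]; simp)
    (fun m hm => by rw [coeffMap_coeff, hW_lt m hm]; simp) hroot hdeg h0
  have hW : coeffMap ψ (coeffMap (Int.castRingHom O) W)
      = coeffMap ι (coeffMap (Int.castRingHom k) W) := by
    rw [coeffMap_coeffMap, coeffMap_coeffMap]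
    exact coeffMap_congr (RingHom.ext_int _ _) W
  have hc' : ∑ i, aeval (jqModC κ) ((c i).map ι) *
      (coeffMap ψ (coeffMap (Int.castRingHom O) W)) ^ (i : ℕ) = 0 := by
    have := congrArg (coeffMap ι) hc
    rw [map_sum, map_zero] at this
    rw [← this]
    refine Finset.sum_congr rfl fun i _ => ?_
    rw [map_mul, map_pow, coeffMap_aeval_jqModC, hW]
  have hzero := hmain (fun i => (c i).map ι) hc'
  funext i
  have hi := congrFun hzero i
  exact (Polynomial.map_eq_zero_iff ι.injective).mp hi

end Adapters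

end Fermat.Agent.S28.helper2968
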