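import Mathlib
import Fermat.Prelude.Def_ModularCurve_X0ModL

/-!
# S28 (Igusa): the LIGHT form of the modular input (helper695, finding #1208)

`Stmt_ModDataLight N u D` is everything the analytic side has to deliver about an integral
`q`-series `u ∈ ℤ((q))` (an eta quotient with a pole at `∞` whose other conjugates `u ∘ γ`,
`γ ∉ Γ₀(N)`, tend to `0` at `i∞`) and `D = [SL₂(ℤ) : Γ₀(N)]`:

* (L1) `χ(j, Y) = (Y - u) * Γ(Y)` over `ℂ((q))`, with `χ ∈ ℂ[j][Y]` monic of degree `D`
  (`χ = ∏_x (Y - u ∘ g_x⁻¹)`, coefficients are `SL₂(ℤ)`-invariant, hence polynomials in `j`)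
  and `Γ ∈ ℂ⟦q⟧[Y]` monic with `Γ ≡ Y^(D-1)` mod `q`
  (`Γ = ∏_{x ≠ x₀} (Y - u ∘ g_x⁻¹)`: coefficients are holomorphic, `1`-periodic and tend to `0`
  at `i∞`; only their ordinary `q`-expansions are needed);
* (L2) the leading coefficient of the norm `χ(j, 0)` has absolute value `a / b` with `a, b`
  natural numbers all of whose prime factors divide `N`;
* (L3) Lagrange interpolation: for `d ∣ N`, `j(q^d) * χ'(j, u) = G(j, u)` for some `G ∈ ℂ[j][Y]`.

No expansion in `q^(1/N)`, no coefficient ring `O ⊆ ℂ` and no residue field are involved: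
integrality of `χ` and `Γ` over `ℤ` is automatic (see `helper695_LightFormal.lean`).
-/

set_option autoImplicit false

noncomputable section

namespace Fermat.Agent.S28.helper695

open ModularCurve Polynomial

/-- An integral Laurent series with coefficients cast to a commutative ring `R`. -/
abbrev castR (R : Type) [CommRing R] : LaurentSeries ℤ →+* LaurentSeries R :=
  coeffMap (Int.castRingHom R)

/-- Evaluation of polynomials at the formal `j`-series with coefficients in `R`. -/
abbrev evalJ (R : Type) [CommRing R] : Polynomial R →+* LaurentSeries R :=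
  (Polynomial.aeval (jqModC R)).toRingHom

/-- The LIGHT modular data (see the module docstring). -/
def Stmt_ModDataLight (N : ℕ) (u : LaurentSeries ℤ) (D : ℕ) : Prop :=
  ∃ (χ : Polynomial (Polynomial ℂ)) (Γ : Polynomial (PowerSeries ℂ)),
    χ.Monic ∧ χ.natDegree = D ∧
    Γ.Monic ∧ Γ.map (PowerSeries.constantCoeff (R := ℂ)) = X ^ (D - 1) ∧
    χ.map (evalJ ℂ) = (X - C (castR ℂ u)) * Γ.map (HahnSeries.ofPowerSeries ℤ ℂ) ∧
    (∃ a b : ℕ, 0 < a ∧ 0 < b ∧ (∀ p : ℕ, p.Prime → p ∣ a * b → p ∣ N) ∧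
      ‖(χ.coeff 0).leadingCoeff‖ * (b : ℝ) = (a : ℝ)) ∧
    (∀ d : ℕ, d ∣ N → ∀ _ : NeZero d, ∃ G : Polynomial (Polynomial ℂ),
      G.eval₂ (evalJ ℂ) (castR ℂ u) =
        qExpand ℂ d (jqModC ℂ) * (Polynomial.derivative χ).eval₂ (evalJ ℂ) (castR ℂ u))

end Fermat.Agent.S28.helper695

end
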