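import Mathlib
import Fermat.Agent.S28.helper695_LightSpec

/-!
# S28: formal consequences of the light modular data (helper695)

Part 1: the "polynomial part" of a Laurent series with respect to the formal `j`-series.
Part 2: integrality transfer `ℂ → ℤ` for the factorisation `χ(j, Y) = (Y - u) * Γ(Y)`.
Part 3: base change of the integral factorisation to an arbitrary coefficient ring.
-/

set_option autoImplicit false

noncomputable section

namespace Fermat.Agent.S28.helper695

open ModularCurve Polynomial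

/-! ## Part 1: polynomial parts -/

section PP

variable {R : Type} [CommRing R]

lemma evalJ_apply (P : Polynomial R) : evalJ R P = Polynomial.aeval (jqModC R) P := rfl

lemma evalJ_X : evalJ R X = jqModC R := by simp [evalJ]

lemma algebraMap_eq_single (c : R) :
    algebraMap R (LaurentSeries R) c = HahnSeries.single 0 c := by
  have h1 : algebraMap R (PowerSeries R) c = PowerSeries.C c := by simp
  rw [HahnSeries.algebraMap_apply', h1, HahnSeries.ofPowerSeries_C]
  rfl

lemma evalJ_C (c : R) : evalJ R (C c) = HahnSeries.single 0 c := by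
  rw [evalJ_apply, Polynomial.aeval_C, algebraMap_eq_single]

lemma evalJ_C_mul_X_pow (c : R) (n : ℕ) :
    evalJ R (C c * X ^ n) = HahnSeries.single 0 c * jqModC R ^ n := by
  rw [map_mul, map_pow, evalJ_X, evalJ_C]

/-- Coefficients of `P(jq)`. -/
lemma coeff_evalJ (P : Polynomial R) (m : ℤ) :
    (evalJ R P).coeff m =
      ∑ i ∈ Finset.range (P.natDegree + 1), P.coeff i * (jqModC R ^ i).coeff m := by
  rw [evalJ_apply, Polynomial.aeval_eq_sum_range, HahnSeries.coeff_sum]
  refine Finset.sum_congr rfl fun i _ => ?_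
  rw [Algebra.smul_def, algebraMap_eq_single, HahnSeries.coeff_single_mul, sub_zero]

lemma coeff_evalJ_neg_natDegree (P : Polynomial R) :
    (evalJ R P).coeff (-(P.natDegree : ℤ)) = P.leadingCoeff := by
  rw [coeff_evalJ, Finset.sum_eq_single P.natDegree]
  · rw [coeff_jqModC_pow_self, mul_one]; rfl
  · intro i hi hne
    have hi' : i < P.natDegree := by
      have := Finset.mem_range.mp hi
      omega
    rw [coeff_jqModC_pow_of_lt R (b := i) (m := -(P.natDegree : ℤ)) (by omega), mul_zero]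
  · intro h
    simp at h

/-- A Laurent series all of whose coefficients of index `≤ 0` vanish. -/
def IsPos (s : LaurentSeries R) : Prop := ∀ m : ℤ, m ≤ 0 → s.coeff m = 0

lemma IsPos.add {s t : LaurentSeries R} (hs : IsPos s) (ht : IsPos t) : IsPos (s + t) := by
  intro m hm
  rw [HahnSeries.coeff_add, hs m hm, ht m hm, add_zero]

lemma IsPos.neg {s : LaurentSeries R} (hs : IsPos s) : IsPos (-s) := by
  intro m hm
  rw [HahnSeries.coeff_neg, hs m hm, neg_zero]

lemma isPos_zero : IsPos (0 : LaurentSeries R) := fun _ _ => rfl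

lemma IsPos.coeffMap {S : Type} [CommRing S] (f : R →+* S) {s : LaurentSeries R}
    (hs : IsPos s) : IsPos (coeffMap f s) := by
  intro m hm
  rw [coeffMap_coeff, hs m hm, map_zero]

lemma isPos_ofPowerSeries {p : PowerSeries R} (hp : PowerSeries.constantCoeff p = 0) :
    IsPos (HahnSeries.ofPowerSeries ℤ R p) := by
  intro m hm
  rcases lt_or_eq_of_le hm with h | h
  · exact ofPowerSeries_coeff_of_neg p h
  · subst h
    rw [show (0 : ℤ) = ((0 : ℕ) : ℤ) from rfl, HahnSeries.ofPowerSeries_apply_coeff,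
      PowerSeries.coeff_zero_eq_constantCoeff, hp]

/-- Uniqueness of polynomial parts: a polynomial in `jq` with no terms of index `≤ 0` is `0`. -/
lemma eq_zero_of_isPos_evalJ (P : Polynomial R) (h : IsPos (evalJ R P)) : P = 0 := by
  have h1 := h (-(P.natDegree : ℤ)) (by omega)
  rw [coeff_evalJ_neg_natDegree] at h1
  exact leadingCoeff_eq_zero.mp h1

lemma evalJ_injective : Function.Injective (evalJ R) := by
  rw [injective_iff_map_eq_zero]
  intro P hP
  exact eq_zero_of_isPos_evalJ P (by rw [hP]; exact isPos_zero)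

private lemma exists_pp_aux (n : ℕ) : ∀ f : LaurentSeries R,
    (∀ m : ℤ, m ≤ -(n : ℤ) → f.coeff m = 0) → ∃ P : Polynomial R, IsPos (f - evalJ R P) := by
  induction n with
  | zero =>
    intro f hf
    refine ⟨0, ?_⟩
    intro m hm
    rw [map_zero, sub_zero]
    exact hf m (by simpa using hm)
  | succ n ih =>
    intro f hf
    set c : R := f.coeff (-(n : ℤ)) with hc
    obtain ⟨P, hP⟩ := ih (f - HahnSeries.single 0 c * jqModC R ^ n) (by
      intro m hm
      rw [HahnSeries.coeff_sub, HahnSeries.coeff_single_mul, sub_zero]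
      rcases lt_or_eq_of_le hm with h | h
      · rw [coeff_jqModC_pow_of_lt R h, mul_zero, sub_zero]
        exact hf m (by push_cast; omega)
      · subst h
        rw [coeff_jqModC_pow_self, mul_one, sub_self])
    refine ⟨P + C c * X ^ n, ?_⟩
    rw [map_add, evalJ_C_mul_X_pow]
    have : f - (evalJ R P + HahnSeries.single 0 c * jqModC R ^ n) =
        f - HahnSeries.single 0 c * jqModC R ^ n - evalJ R P := by ring
    rw [this]
    exact hP

/-- Existence of polynomial parts. -/
lemma exists_pp (f : LaurentSeries R) : ∃ P : Polynomial R, IsPos (f - evalJ R P) := by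
  refine exists_pp_aux ((-f.order + 1).toNat) f ?_
  intro m hm
  refine HahnSeries.coeff_eq_zero_of_lt_order ?_
  have : (-f.order + 1 : ℤ) ≤ ((-f.order + 1).toNat : ℤ) := Int.self_le_toNat _
  omega

/-- Compatibility of `evalJ` with change of coefficients. -/
lemma coeffMap_comp_evalJ {S : Type} [CommRing S] (f : R →+* S) :
    (coeffMap f).comp (evalJ R) = (evalJ S).comp (Polynomial.mapRingHom f) := by
  refine Polynomial.ringHom_ext (fun r => ?_) ?_
  · simp only [RingHom.comp_apply, coe_mapRingHom, map_C]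
    rw [evalJ_C, evalJ_C, coeffMap_single]
  · simp only [RingHom.comp_apply, coe_mapRingHom, map_X, evalJ_X]
    exact coeffMap_jqModC f

lemma coeffMap_evalJ {S : Type} [CommRing S] (f : R →+* S) (P : Polynomial R) :
    coeffMap f (evalJ R P) = evalJ S (P.map f) :=
  congrArg (fun g : Polynomial R →+* LaurentSeries S => g P) (coeffMap_comp_evalJ f)

lemma coeffMap_comp_ofPowerSeries {S : Type} [CommRing S] (f : R →+* S) :
    (coeffMap f).comp (HahnSeries.ofPowerSeries ℤ R) =
      (HahnSeries.ofPowerSeries ℤ S).comp (PowerSeries.map f) :=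
  RingHom.ext fun p => coeffMap_ofPowerSeries f p

lemma coeffMap_injective {S : Type} [CommRing S] (f : R →+* S) (hf : Function.Injective f) :
    Function.Injective (coeffMap f) := by
  intro x y hxy
  ext k
  apply hf
  rw [← coeffMap_coeff, ← coeffMap_coeff, hxy]

end PP

/-! ## Part 2: integrality transfer -/

section Transfer

lemma coeff_X_sub_C_mul_zero {S : Type} [CommRing S] (a : S) (G : Polynomial S) :
    ((X - C a) * G).coeff 0 = -(a * G.coeff 0) := by
  rw [sub_mul, coeff_sub, coeff_X_mul_zero, coeff_C_mul, zero_sub]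

lemma coeff_X_sub_C_mul_succ {S : Type} [CommRing S] (a : S) (G : Polynomial S) (k : ℕ) :
    ((X - C a) * G).coeff (k + 1) = G.coeff k - a * G.coeff (k + 1) := by
  rw [sub_mul, coeff_sub, coeff_X_mul, coeff_C_mul]

/-- The basic step: if `A(jq) = p - W` with `A ∈ ℂ[X]`, `p ∈ qℂ⟦q⟧` and `W ∈ ℤ((q))`, then `A` and
`p` have integer coefficients. -/
lemma transfer_step (W : LaurentSeries ℤ) (A : Polynomial ℂ) (p : PowerSeries ℂ)
    (hp : PowerSeries.constantCoeff p = 0)
    (h : evalJ ℂ A = HahnSeries.ofPowerSeries ℤ ℂ p - castR ℂ W) :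
    (∃ Q : Polynomial ℤ, Q.map (Int.castRingHom ℂ) = A) ∧
      ∃ g : PowerSeries ℤ, PowerSeries.map (Int.castRingHom ℂ) g = p := by
  obtain ⟨Q, hQ⟩ := exists_pp (-W)
  have hA : A - Q.map (Int.castRingHom ℂ) = 0 := by
    apply eq_zero_of_isPos_evalJ
    have : evalJ ℂ (A - Q.map (Int.castRingHom ℂ)) =
        HahnSeries.ofPowerSeries ℤ ℂ p + castR ℂ (-W - evalJ ℤ Q) := by
      rw [map_sub, h, ← coeffMap_evalJ, map_sub, map_neg]
      ring
    rw [this]
    exact (isPos_ofPowerSeries hp).add (hQ.coeffMap _)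
  have hA' : Q.map (Int.castRingHom ℂ) = A := (sub_eq_zero.mp hA).symm
  refine ⟨⟨Q, hA'⟩, PowerSeries.mk (fun n => (W + evalJ ℤ Q).coeff (n : ℤ)), ?_⟩
  have hp' : HahnSeries.ofPowerSeries ℤ ℂ p = castR ℂ (W + evalJ ℤ Q) := by
    rw [map_add, coeffMap_evalJ, hA', h]
    ring
  ext n
  have e : (HahnSeries.ofPowerSeries ℤ ℂ p).coeff (n : ℤ) = PowerSeries.coeff n p :=
    HahnSeries.ofPowerSeries_apply_coeff p n
  rw [PowerSeries.coeff_map, PowerSeries.coeff_mk, ← e, hp', coeffMap_coeff]

theorem exists_int_factorisation (u : LaurentSeries ℤ) (D : ℕ)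
    (χ : Polynomial (Polynomial ℂ)) (Γ : Polynomial (PowerSeries ℂ))
    (hχ : χ.Monic) (hD : χ.natDegree = D) (hΓ : Γ.Monic)
    (hΓ0 : Γ.map (PowerSeries.constantCoeff (R := ℂ)) = X ^ (D - 1))
    (hfac : χ.map (evalJ ℂ) =
      (X - C (castR ℂ u)) * Γ.map (HahnSeries.ofPowerSeries ℤ ℂ)) :
    ∃ (χZ : Polynomial (Polynomial ℤ)) (ΓZ : Polynomial (PowerSeries ℤ)),
      χZ.map (Polynomial.mapRingHom (Int.castRingHom ℂ)) = χ ∧
      ΓZ.map (PowerSeries.map (Int.castRingHom ℂ)) = Γ ∧
      χZ.Monic ∧ χZ.natDegree = D ∧ ΓZ.Monic ∧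
      ΓZ.map (PowerSeries.constantCoeff (R := ℤ)) = X ^ (D - 1) ∧
      χZ.map (evalJ ℤ) = (X - C u) * ΓZ.map (HahnSeries.ofPowerSeries ℤ ℤ) ∧ 1 ≤ D := by
  classical
  have hinj : Function.Injective (Int.castRingHom ℂ) := RingHom.injective_int _
  -- degrees
  have hΓdeg : Γ.natDegree = D - 1 := by
    have h1 := hΓ.natDegree_map (PowerSeries.constantCoeff (R := ℂ))
    rw [hΓ0, natDegree_X_pow] at h1
    exact h1.symm
  have hD1 : 1 ≤ D := by
    have h1 : (χ.map (evalJ ℂ)).natDegree = D := by rw [hχ.natDegree_map, hD]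
    rw [hfac, (monic_X_sub_C _).natDegree_mul (hΓ.map _), natDegree_X_sub_C] at h1
    omega
  -- coefficient identities
  have hk0 : evalJ ℂ (χ.coeff 0) =
      -(castR ℂ u * HahnSeries.ofPowerSeries ℤ ℂ (Γ.coeff 0)) := by
    have := congrArg (fun P => P.coeff 0) hfac
    simpa only [coeff_map, coeff_X_sub_C_mul_zero] using this
  have hk : ∀ k, evalJ ℂ (χ.coeff (k + 1)) = HahnSeries.ofPowerSeries ℤ ℂ (Γ.coeff k) -
      castR ℂ u * HahnSeries.ofPowerSeries ℤ ℂ (Γ.coeff (k + 1)) := by
    intro k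
    have := congrArg (fun P => P.coeff (k + 1)) hfac
    simpa only [coeff_map, coeff_X_sub_C_mul_succ] using this
  have hcc : ∀ k, k ≠ D - 1 → PowerSeries.constantCoeff (Γ.coeff k) = 0 := by
    intro k hk'
    have := congrArg (fun P => P.coeff k) hΓ0
    simp only [coeff_map, coeff_X_pow] at this
    rw [this, if_neg hk']
  -- the key claim, by downward induction
  have key : ∀ n k, k + n = D - 1 →
      ∃ g : PowerSeries ℤ, PowerSeries.map (Int.castRingHom ℂ) g = Γ.coeff k := by
    intro n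
    induction n with
    | zero =>
      intro k hk'
      refine ⟨1, ?_⟩
      have : Γ.coeff k = 1 := by
        have h1 : k = Γ.natDegree := by omega
        rw [h1]; exact hΓ.coeff_natDegree
      rw [this, map_one]
    | succ n ih =>
      intro k hk'
      obtain ⟨g₁, hg₁⟩ := ih (k + 1) (by omega)
      have hW : castR ℂ (u * HahnSeries.ofPowerSeries ℤ ℤ g₁) =
          castR ℂ u * HahnSeries.ofPowerSeries ℤ ℂ (Γ.coeff (k + 1)) := by
        rw [map_mul, coeffMap_ofPowerSeries, hg₁]
      exact (transfer_step (u * HahnSeries.ofPowerSeries ℤ ℤ g₁) (χ.coeff (k + 1)) (Γ.coeff k)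
        (hcc k (by omega)) (by rw [hW]; exact hk k)).2
  have keyΓ : ∀ k, ∃ g : PowerSeries ℤ, PowerSeries.map (Int.castRingHom ℂ) g = Γ.coeff k := by
    intro k
    by_cases hkD : k ≤ D - 1
    · exact key (D - 1 - k) k (by omega)
    · refine ⟨0, ?_⟩
      rw [map_zero, coeff_eq_zero_of_natDegree_lt (by omega)]
  have keyχ : ∀ k, ∃ Q : Polynomial ℤ, Q.map (Int.castRingHom ℂ) = χ.coeff k := by
    intro k
    rcases Nat.eq_zero_or_pos k with rfl | hkpos
    · obtain ⟨g₀, hg₀⟩ := keyΓ 0
      have hW : castR ℂ (u * HahnSeries.ofPowerSeries ℤ ℤ g₀) =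
          castR ℂ u * HahnSeries.ofPowerSeries ℤ ℂ (Γ.coeff 0) := by
        rw [map_mul, coeffMap_ofPowerSeries, hg₀]
      exact (transfer_step (u * HahnSeries.ofPowerSeries ℤ ℤ g₀) (χ.coeff 0) 0 (map_zero _)
        (by rw [hW, hk0, map_zero, zero_sub])).1
    · obtain ⟨k, rfl⟩ : ∃ k', k = k' + 1 := ⟨k - 1, by omega⟩
      by_cases hkD : k + 1 ≤ D - 1
      · obtain ⟨g₁, hg₁⟩ := keyΓ (k + 1)
        have hW : castR ℂ (u * HahnSeries.ofPowerSeries ℤ ℤ g₁) =
            castR ℂ u * HahnSeries.ofPowerSeries ℤ ℂ (Γ.coeff (k + 1)) := by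
          rw [map_mul, coeffMap_ofPowerSeries, hg₁]
        exact (transfer_step (u * HahnSeries.ofPowerSeries ℤ ℤ g₁) (χ.coeff (k + 1)) (Γ.coeff k)
          (hcc k (by omega)) (by rw [hW]; exact hk k)).1
      · by_cases hkD' : k + 1 = D
        · refine ⟨1, ?_⟩
          rw [Polynomial.map_one, hkD', ← hD]
          exact hχ.coeff_natDegree.symm
        · refine ⟨0, ?_⟩
          rw [Polynomial.map_zero, coeff_eq_zero_of_natDegree_lt (by omega)]
  -- lifts
  have hχl : χ ∈ Polynomial.lifts (Polynomial.mapRingHom (Int.castRingHom ℂ)) :=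
    (Polynomial.lifts_iff_coeff_lifts χ).mpr fun k => by
      obtain ⟨Q, hQ⟩ := keyχ k
      exact ⟨Q, hQ⟩
  have hΓl : Γ ∈ Polynomial.lifts (PowerSeries.map (Int.castRingHom ℂ)) :=
    (Polynomial.lifts_iff_coeff_lifts Γ).mpr fun k => by
      obtain ⟨g, hg⟩ := keyΓ k
      exact ⟨g, hg⟩
  obtain ⟨χZ, hχZ, hχZdeg, hχZmonic⟩ := Polynomial.lifts_and_natDegree_eq_and_monic hχl hχ
  obtain ⟨ΓZ, hΓZ, -, hΓZmonic⟩ := Polynomial.lifts_and_natDegree_eq_and_monic hΓl hΓ
  refine ⟨χZ, ΓZ, hχZ, hΓZ, hχZmonic, by rw [hχZdeg, hD], hΓZmonic, ?_, ?_, hD1⟩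
  · apply Polynomial.map_injective (Int.castRingHom ℂ) hinj
    rw [Polynomial.map_map, Polynomial.map_pow, Polynomial.map_X, ← hΓ0, ← hΓZ,
      Polynomial.map_map]
    congr 1
  · apply Polynomial.map_injective (castR ℂ) (coeffMap_injective _ hinj)
    rw [Polynomial.map_map, Polynomial.map_mul, Polynomial.map_sub, Polynomial.map_X,
      Polynomial.map_C, Polynomial.map_map, coeffMap_comp_evalJ, coeffMap_comp_ofPowerSeries,
      ← Polynomial.map_map, ← Polynomial.map_map, hΓZ, ← hfac, hχZ]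

end Transfer

/-! ## Part 3: base change of the integral factorisation -/

section BaseChange

theorem factorisation_baseChange (S : Type) [CommRing S] (u : LaurentSeries ℤ)
    (χZ : Polynomial (Polynomial ℤ)) (ΓZ : Polynomial (PowerSeries ℤ))
    (hfac : χZ.map (evalJ ℤ) = (X - C u) * ΓZ.map (HahnSeries.ofPowerSeries ℤ ℤ)) :
    (χZ.map (Polynomial.mapRingHom (Int.castRingHom S))).map (evalJ S) =
      (X - C (castR S u)) *
        (ΓZ.map (PowerSeries.map (Int.castRingHom S))).map (HahnSeries.ofPowerSeries ℤ S) := by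
  have h := congrArg (Polynomial.map (castR S)) hfac
  rw [Polynomial.map_map, Polynomial.map_mul, Polynomial.map_sub, Polynomial.map_X,
    Polynomial.map_C, Polynomial.map_map, coeffMap_comp_evalJ, coeffMap_comp_ofPowerSeries,
    ← Polynomial.map_map, ← Polynomial.map_map] at h
  exact h

theorem constantCoeff_baseChange (S : Type) [CommRing S] (D : ℕ)
    (ΓZ : Polynomial (PowerSeries ℤ))
    (hΓ0 : ΓZ.map (PowerSeries.constantCoeff (R := ℤ)) = X ^ (D - 1)) :
    (ΓZ.map (PowerSeries.map (Int.castRingHom S))).map (PowerSeries.constantCoeff (R := S)) =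
      X ^ (D - 1) := by
  have h := congrArg (Polynomial.map (Int.castRingHom S)) hΓ0
  rw [Polynomial.map_map, Polynomial.map_pow, Polynomial.map_X] at h
  rw [Polynomial.map_map, ← h]
  congr 1

end BaseChange

/-! ## Part 4: irreducibility without roots -/

section Irred

variable (κ : Type) [Field κ]

/-- `κ((q))` regarded as an algebra over `κ[X]` via `X ↦ jq`. -/
def LJ : Type := LaurentSeries κ

instance : Field (LJ κ) := inferInstanceAs (Field (LaurentSeries κ))

instance : Algebra (Polynomial κ) (LJ κ) := RingHom.toAlgebra (evalJ κ)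

instance : Module.IsTorsionFree (Polynomial κ) (LJ κ) :=
  Module.isTorsionFree_iff_algebraMap_injective.mpr (evalJ_injective (R := κ))

variable {κ}

/-- A monic polynomial over a field dividing `X ^ n` is a power of `X`. -/
lemma eq_X_pow_of_monic_of_dvd {g : Polynomial κ} (hg : g.Monic) {n : ℕ} (h : g ∣ X ^ n) :
    g = X ^ g.natDegree := by
  obtain ⟨i, -, hi⟩ := (dvd_prime_pow Polynomial.prime_X n).mp h
  have h1 : g = X ^ i := Polynomial.eq_of_monic_of_associated hg (monic_X_pow i) hi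
  rw [h1, natDegree_X_pow]

/-- **Irreducibility without roots.** If `χ(jq, Y) = (Y - U) * Γ(Y)` over `κ((q))` with
`χ ∈ κ[X][Y]` monic, `Γ ∈ κ⟦q⟧[Y]` monic and `≡ Y ^ (deg χ - 1)` mod `q`, and `χ(X, 0) ≠ 0`, then
no nonzero polynomial over `κ[jq]` of smaller degree kills `U`. -/
theorem eq_zero_of_eval₂_eq_zero (χ : Polynomial (Polynomial κ)) (hχ : χ.Monic)
    (U : LaurentSeries κ) (Γ : Polynomial (PowerSeries κ)) (hΓ : Γ.Monic)
    (hΓ0 : Γ.map (PowerSeries.constantCoeff (R := κ)) = X ^ (χ.natDegree - 1))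
    (hfac : χ.map (evalJ κ) = (X - C U) * Γ.map (HahnSeries.ofPowerSeries ℤ κ))
    (h0 : χ.coeff 0 ≠ 0)
    (p : Polynomial (Polynomial κ)) (hpdeg : p.natDegree < χ.natDegree)
    (hp : p.eval₂ (evalJ κ) U = 0) : p = 0 := by
  classical
  set s : LJ κ := U with hs
  have hχU : χ.eval₂ (evalJ κ) U = 0 := by
    rw [Polynomial.eval₂_eq_eval_map, hfac, eval_mul, eval_sub, eval_X, eval_C, sub_self,
      zero_mul]
  have hint : IsIntegral (Polynomial κ) s := ⟨χ, hχ, hχU⟩
  have hmonic := minpoly.monic hint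
  have hmχ : minpoly (Polynomial κ) s ∣ χ := minpoly.isIntegrallyClosed_dvd hint hχU
  have hmp : minpoly (Polynomial κ) s ∣ p := minpoly.isIntegrallyClosed_dvd hint hp
  obtain ⟨m', hm'⟩ := hmχ
  have hm'monic : m'.Monic := hmonic.of_mul_monic_left (hm' ▸ hχ)
  -- the cofactor `m'` is `1`
  have hroot : (Polynomial.map (evalJ κ) (minpoly (Polynomial κ) s)).IsRoot U := by
    rw [IsRoot, ← Polynomial.eval₂_eq_eval_map]
    exact minpoly.aeval (Polynomial κ) s
  obtain ⟨m₁, hm₁⟩ := Polynomial.dvd_iff_isRoot.mpr hroot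
  have hm₁monic : m₁.Monic :=
    (monic_X_sub_C U).of_mul_monic_left (hm₁ ▸ hmonic.map (evalJ κ))
  have hcancel : m₁ * m'.map (evalJ κ) = Γ.map (HahnSeries.ofPowerSeries ℤ κ) := by
    have h1 : (X - C U) * (m₁ * m'.map (evalJ κ)) =
        (X - C U) * Γ.map (HahnSeries.ofPowerSeries ℤ κ) := by
      rw [← mul_assoc, ← hm₁, ← Polynomial.map_mul, ← hm', hfac]
    exact mul_left_cancel₀ (X_sub_C_ne_zero U) h1
  have halg : (algebraMap (PowerSeries κ) (LaurentSeries κ)) = HahnSeries.ofPowerSeries ℤ κ :=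
    RingHom.ext fun x => by rw [LaurentSeries.coe_algebraMap]
  have hdvd' : m'.map (evalJ κ) ∣ Γ.map (algebraMap (PowerSeries κ) (LaurentSeries κ)) :=
    ⟨m₁, by rw [halg, ← hcancel, mul_comm]⟩
  have hdvd₁ : m₁ ∣ Γ.map (algebraMap (PowerSeries κ) (LaurentSeries κ)) :=
    ⟨m'.map (evalJ κ), by rw [halg, ← hcancel]⟩
  obtain ⟨g', hg'⟩ := IsIntegrallyClosed.eq_map_mul_C_of_dvd (LaurentSeries κ) hΓ hdvd'
  obtain ⟨g₁, hg₁⟩ := IsIntegrallyClosed.eq_map_mul_C_of_dvd (LaurentSeries κ) hΓ hdvd₁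
  rw [(hm'monic.map (evalJ κ)).leadingCoeff, C_1, mul_one, halg] at hg'
  rw [hm₁monic.leadingCoeff, C_1, mul_one, halg] at hg₁
  have hinj : Function.Injective (HahnSeries.ofPowerSeries ℤ κ) :=
    HahnSeries.ofPowerSeries_injective
  have hg'monic : g'.Monic :=
    Polynomial.monic_of_injective hinj (hg' ▸ hm'monic.map (evalJ κ))
  have hprod : g₁ * g' = Γ := by
    apply Polynomial.map_injective _ hinj
    rw [Polynomial.map_mul, hg₁, hg', hcancel]
  have hdvdX : g'.map (PowerSeries.constantCoeff (R := κ)) ∣ X ^ (χ.natDegree - 1) := by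
    rw [← hΓ0, ← hprod, Polynomial.map_mul]
    exact dvd_mul_left _ _
  have hg'X := eq_X_pow_of_monic_of_dvd (hg'monic.map _) hdvdX
  rw [hg'monic.natDegree_map] at hg'X
  have hdeg : g'.natDegree = m'.natDegree := by
    have h1 := congrArg natDegree hg'
    rwa [(hg'monic).natDegree_map, hm'monic.natDegree_map] at h1
  have hm'deg : m'.natDegree = 0 := by
    by_contra hne
    have hpos : 0 < g'.natDegree := by omega
    -- the constant coefficient of `m'` vanishes
    have hc0 : PowerSeries.constantCoeff (g'.coeff 0) = 0 := by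
      have h1 := congrArg (fun P => P.coeff 0) hg'X
      simp only [coeff_map, coeff_X_pow] at h1
      rw [h1, if_neg (by omega)]
    have hc1 : evalJ κ (m'.coeff 0) = HahnSeries.ofPowerSeries ℤ κ (g'.coeff 0) := by
      have h1 := congrArg (fun P => P.coeff 0) hg'
      simp only [coeff_map] at h1
      exact h1.symm
    have hc2 : m'.coeff 0 = 0 :=
      eq_zero_of_isPos_evalJ _ (by rw [hc1]; exact isPos_ofPowerSeries hc0)
    apply h0
    rw [hm', mul_coeff_zero, hc2, mul_zero]
  have hm'1 : m' = 1 := Polynomial.eq_one_of_monic_natDegree_zero hm'monic hm'deg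
  rw [hm'1, mul_one] at hm'
  rw [hm'] at hpdeg
  exact Polynomial.eq_zero_of_dvd_of_natDegree_lt hmp hpdeg

/-- Linear independence of `1, U, …, U ^ (D - 1)` over `κ[jq]`, in the elementary form used by
the S28 specification files. -/
theorem linIndep_pow_of_factor (χ : Polynomial (Polynomial κ)) (hχ : χ.Monic)
    (D : ℕ) (hD : χ.natDegree = D)
    (U : LaurentSeries κ) (Γ : Polynomial (PowerSeries κ)) (hΓ : Γ.Monic)
    (hΓ0 : Γ.map (PowerSeries.constantCoeff (R := κ)) = X ^ (D - 1))
    (hfac : χ.map (evalJ κ) = (X - C U) * Γ.map (HahnSeries.ofPowerSeries ℤ κ))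
    (h0 : χ.coeff 0 ≠ 0) (c : Fin D → Polynomial κ)
    (hc : ∑ i, evalJ κ (c i) * U ^ (i : ℕ) = 0) : c = 0 := by
  classical
  subst hD
  set p : Polynomial (Polynomial κ) := ∑ i : Fin χ.natDegree, C (c i) * X ^ (i : ℕ) with hp
  have hcoeff : ∀ i : Fin χ.natDegree, p.coeff i = c i := by
    intro i
    rw [hp, Polynomial.finsetSum_coeff, Finset.sum_eq_single i]
    · rw [coeff_C_mul, coeff_X_pow, if_pos rfl, mul_one]
    · intro j _ hji
      rw [coeff_C_mul, coeff_X_pow, if_neg (fun h => hji (Fin.ext h.symm)), mul_zero]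
    · intro h
      exact absurd (Finset.mem_univ i) h
  have hdeg : p.natDegree < χ.natDegree ∨ p = 0 := by
    by_cases hp0 : p = 0
    · exact Or.inr hp0
    · left
      have hle : p.degree < (χ.natDegree : WithBot ℕ) := by
        rw [hp]
        refine (Polynomial.degree_sum_le _ _).trans_lt ?_
        rw [Finset.sup_lt_iff (WithBot.bot_lt_coe _)]
        intro i _
        refine (Polynomial.degree_C_mul_X_pow_le _ _).trans_lt ?_
        exact_mod_cast i.2
      exact (Polynomial.natDegree_lt_iff_degree_lt hp0).mpr hle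
  have heval : p.eval₂ (evalJ κ) U = 0 := by
    rw [hp, Polynomial.eval₂_finsetSum, ← hc]
    refine Finset.sum_congr rfl fun i _ => ?_
    rw [eval₂_mul, eval₂_C, eval₂_pow, eval₂_X]
  have hp0 : p = 0 := by
    rcases hdeg with h | h
    · exact eq_zero_of_eval₂_eq_zero χ hχ U Γ hΓ hΓ0 hfac h0 p h heval
    · exact h
  funext i
  rw [← hcoeff i, hp0, coeff_zero, Pi.zero_apply]

end Irred

end Fermat.Agent.S28.helper695

end
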