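import Fermat.Statements.S28

/-!
# S28 (Igusa) specification file — project lead helper868

Every intermediate result of the S28 project is a `Prop`-valued definition `Stmt_*` below.
Workers prove implications between them in hypothesis-passing style
(`theorem foo (h1 : Stmt_A) (h2 : Stmt_B) : Stmt_C`), each in a file of their own.

Notation: `Zl ℓ = ℤ_(ℓ)` (`GaloisRep.ratLocalizedAt ℓ`), `F = modularFunctionFieldFull N ⊆ ℚ((q))`,
`jq` the formal `j`-series, `chartAlg N ℓ S` = integral closure of `ℤ_(ℓ)[S]` in `F`.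
-/

set_option autoImplicit false

open AlgebraicGeometry CategoryTheory CategoryTheory.Limits ModularCurve ModularCurve.IgusaScheme
open scoped TensorProduct

namespace Fermat.Agent.S28.helper868

noncomputable section

/-- The coefficient ring `ℤ_(ℓ)`. -/
abbrev Zl (ℓ : ℕ) : Type := ↥(GaloisRep.ratLocalizedAt ℓ)

/-- An integral Laurent series, with rational coefficients. -/
abbrev toQ (u : LaurentSeries ℤ) : LaurentSeries ℚ := coeffMap (Int.castRingHom ℚ) u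

/-- An integral Laurent series, reduced mod `ℓ`. -/
abbrev toFl (ℓ : ℕ) (u : LaurentSeries ℤ) : LaurentSeries (ZMod ℓ) :=
  coeffMap (Int.castRingHom (ZMod ℓ)) u

/-- An integral Laurent series, with coefficients in a commutative ring. -/
abbrev toR (R : Type) [CommRing R] (u : LaurentSeries ℤ) : LaurentSeries R :=
  coeffMap (Int.castRingHom R) u

/-! ## A. Scheme glue -/

/-- A. The pullback of the Igusa scheme to `Spec K` is integral as soon as the three chart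
algebras tensored with `K` are domains (resp. nontrivial for the overlap). -/
def Stmt_SchemeGlue : Prop :=
  ∀ (N : ℕ) [NeZero N] (ℓ : ℕ) [Fact ℓ.Prime]
    (K : Type) [Field K] [Algebra (Zl ℓ) K],
    IsDomain (↥(chartAlgFin N ℓ) ⊗[Zl ℓ] K) →
    IsDomain (↥(chartAlgInf N ℓ) ⊗[Zl ℓ] K) →
    Nontrivial (↥(chartAlgMid N ℓ) ⊗[Zl ℓ] K) →
    AlgebraicGeometry.IsIntegral (pullback (igusaTo N ℓ)
      (Spec.map (CommRingCat.ofHom (algebraMap (Zl ℓ) K))))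

/-! ## B. Tensor product with a field of characteristic `ℓ` -/

/-- B. If a `ℤ_(ℓ)`-algebra `A` has a ring hom to `𝔽_ℓ((q))` with kernel `ℓ A`, then `A ⊗ K` is a
domain for every field `K` of characteristic `ℓ`. -/
def Stmt_TensorDomain : Prop :=
  ∀ (ℓ : ℕ) [Fact ℓ.Prime] (A : Type) [CommRing A] [Algebra (Zl ℓ) A]
    (K : Type) [Field K] [CharP K ℓ] [Algebra (Zl ℓ) K]
    (φ : A →+* LaurentSeries (ZMod ℓ)),
    RingHom.ker φ = Ideal.span {((ℓ : ℕ) : A)} →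
    IsDomain (A ⊗[Zl ℓ] K)

/-! ## C. The chart algebras reduce into `𝔽_ℓ((q))` with kernel `ℓ` -/

/-- C. Each of the three chart algebras has a ring hom to `𝔽_ℓ((q))` with kernel generated by `ℓ`. -/
def Stmt_ChartRed (N ℓ : ℕ) [NeZero N] [Fact ℓ.Prime] : Prop :=
  ∀ S : Set ↥(modularFunctionFieldFull N),
    (S = {jFull N} ∨ S = {(jFull N)⁻¹} ∨ S = {jFull N, (jFull N)⁻¹}) →
    ∃ φ : ↥(chartAlg N ℓ S) →+* LaurentSeries (ZMod ℓ),
      RingHom.ker φ = Ideal.span {((ℓ : ℕ) : ↥(chartAlg N ℓ S))}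

/-! ## D. Algebra core: a discrete valuation ring of `ℚ((q))` with residue map to `𝔽_ℓ((q))` -/

/-- D1. The `ℓ`-adic Gauss valuation ring `O ⊆ ℚ((q))` (fractions `a/b` of series with
`ℤ_(ℓ)`-coefficients, `b` nonzero mod `ℓ`) with its reduction map. -/
def Stmt_OvPackage (ℓ : ℕ) : Prop :=
  ∃ (O : Subring (LaurentSeries ℚ)) (red : ↥O →+* LaurentSeries (ZMod ℓ)),
    (∀ g : LaurentSeries ℤ, ∃ h : toQ g ∈ O, red ⟨toQ g, h⟩ = toFl ℓ g) ∧
    (∀ x : ↥O, red x = 0 → ∃ y : ↥O, x = ((ℓ : ℕ) : ↥O) * y) ∧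
    (∀ x : ↥O, x ≠ 0 → ∃ (k : ℕ) (g : ↥O), red g ≠ 0 ∧ x = ((ℓ : ℕ) : ↥O) ^ k * g) ∧
    (∀ g : ↥O, red g ≠ 0 → ∃ g' : ↥O, g * g' = 1)

/-- H3. The reductions mod `ℓ` of `1, u, …, u^(D-1)` are linearly independent over `𝔽_ℓ[j]`
(equivalently over `𝔽_ℓ(j)`). -/
def Stmt_H3 (ℓ : ℕ) (u : LaurentSeries ℤ) (D : ℕ) : Prop :=
  ∀ c : Fin D → Polynomial (ZMod ℓ),
    ∑ i : Fin D, Polynomial.aeval (jqModC (ZMod ℓ)) (c i) * toFl ℓ u ^ (i : ℕ) = 0 → c = 0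

/-- H4. The function field `F = ℚ(j(q^d) : d ∣ N)` is contained in `ℚ(j, u)`. -/
def Stmt_H4 (N : ℕ) (u : LaurentSeries ℤ) : Prop :=
  modularFunctionFieldFull N ≤ IntermediateField.adjoin ℚ {jq, toQ u}

/-- H5. `u` is a root of a monic polynomial of degree `D` over `ℚ[j]`. -/
def Stmt_H5 (u : LaurentSeries ℤ) (D : ℕ) : Prop :=
  ∃ χ : Polynomial (Polynomial ℚ), χ.Monic ∧ χ.natDegree = D ∧
    χ.eval₂ (Polynomial.aeval jq).toRingHom (toQ u) = 0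

/-! ## E. Modular data (formal statements over `ℂ` and in characteristic `ℓ`) -/

/-- The modular data of level `N` for a series `u ∈ ℤ((q))` (an eta quotient with a pole at the
cusp `∞` and zeros at all other cusps) and `D = [SL₂(ℤ) : Γ₀(N)]`:
a polynomial `χ(X, Y)` over `ℂ`, monic of degree `D` in `X`, such that `χ(X, j(t^N))` splits in
`ℂ((t))` (`t = q^(1/N)`) with roots `ρ i` (the expansions of the conjugates `u ∘ γ`), where
`ρ i₀ = u(t^N)` and all other roots have positive order, coefficients in a subring `O ⊆ ℂ` all of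
whose elements are integral over `ℤ` after multiplication by a power of `N`, and leading
coefficient a unit of `O`; plus the Lagrange interpolation polynomials `G` expressing each
`j(q^d)`, `d ∣ N`, as `G(u, j) / χ'(u, j)`. -/
def Stmt_ModData (N : ℕ) [NeZero N] (u : LaurentSeries ℤ) (D : ℕ) : Prop :=
  ∃ (O : Subring ℂ) (χ : Polynomial (Polynomial ℂ)) (ρ : Fin D → LaurentSeries ℂ) (i₀ : Fin D),
    (∀ x ∈ O, ∃ k : ℕ, IsIntegral ℤ ((N : ℂ) ^ k * x)) ∧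
    χ.Monic ∧ χ.natDegree = D ∧
    χ.map (Polynomial.aeval (jqNModC ℂ N)).toRingHom = ∏ i, (Polynomial.X - Polynomial.C (ρ i)) ∧
    ρ i₀ = qExpand ℂ N (toR ℂ u) ∧
    u.leadingCoeff = 1 ∧ (u.order < 0 ∨ D = 1) ∧
    (∀ i, i ≠ i₀ → 0 < (ρ i).order ∧ (∀ n, (ρ i).coeff n ∈ O) ∧
      ∃ v ∈ O, (ρ i).leadingCoeff * v = 1) ∧
    (∀ d : ℕ, d ∣ N → ∀ _ : NeZero d, ∃ G : Polynomial (Polynomial ℂ),
      G.eval₂ (Polynomial.aeval (jqModC ℂ)).toRingHom (toR ℂ u) =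
        qExpand ℂ d (jqModC ℂ) *
          (Polynomial.derivative χ).eval₂ (Polynomial.aeval (jqModC ℂ)).toRingHom (toR ℂ u))

/-- The reduction of the modular data modulo a maximal ideal over `ℓ ∤ N`. -/
def Stmt_ModDataModL (N ℓ : ℕ) [NeZero N] (u : LaurentSeries ℤ) (D : ℕ) : Prop :=
  ∃ (κ : Type) (_ : Field κ) (_ : CharP κ ℓ) (χ : Polynomial (Polynomial κ))
    (ρ : Fin D → LaurentSeries κ) (i₀ : Fin D),
    χ.Monic ∧ χ.natDegree = D ∧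
    χ.map (Polynomial.aeval (jqNModC κ N)).toRingHom = ∏ i, (Polynomial.X - Polynomial.C (ρ i)) ∧
    ρ i₀ = qExpand κ N (toR κ u) ∧
    ((ρ i₀).order < 0 ∨ D = 1) ∧
    (∀ i, i ≠ i₀ → 0 < (ρ i).order)

/-! ## Assembly -/

/-- The frozen statement S28. -/
def Stmt_S28 : Prop :=
  ∀ (N : ℕ) [NeZero N] (ℓ : ℕ) [Fact ℓ.Prime] (_ : ¬ ℓ ∣ N)
    (K : Type) [Field K] [CharP K ℓ] [Algebra ↥(GaloisRep.ratLocalizedAt ℓ) K],
    AlgebraicGeometry.IsIntegral (pullback (igusaTo N ℓ)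
      (Spec.map (CommRingCat.ofHom (algebraMap ↥(GaloisRep.ratLocalizedAt ℓ) K))))

/-- Top assembly: A + B + C give S28. -/
theorem stmt_S28_of (hA : Stmt_SchemeGlue) (hB : Stmt_TensorDomain)
    (hC : ∀ (N ℓ : ℕ) [NeZero N] [Fact ℓ.Prime], ¬ ℓ ∣ N → Stmt_ChartRed N ℓ) : Stmt_S28 := by
  intro N _ ℓ _ hℓN K _ _ _
  have hc := hC N ℓ hℓN
  obtain ⟨φ₁, h₁⟩ := hc {jFull N} (Or.inl rfl)
  obtain ⟨φ₂, h₂⟩ := hc {(jFull N)⁻¹} (Or.inr (Or.inl rfl))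
  obtain ⟨φ₃, h₃⟩ := hc {jFull N, (jFull N)⁻¹} (Or.inr (Or.inr rfl))
  have d₁ := hB ℓ ↥(chartAlgFin N ℓ) K φ₁ h₁
  have d₂ := hB ℓ ↥(chartAlgInf N ℓ) K φ₂ h₂
  have d₃ := hB ℓ ↥(chartAlgMid N ℓ) K φ₃ h₃
  exact hA N ℓ K d₁ d₂ d₃.toNontrivial

/-- Middle assembly: the chain from modular data to C. -/
theorem chartRed_of
    (hO : ∀ (ℓ : ℕ) [Fact ℓ.Prime], Stmt_OvPackage ℓ)
    (hMD : ∀ (N : ℕ) [NeZero N], ∃ (u : LaurentSeries ℤ) (D : ℕ), Stmt_ModData N u D)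
    (hE1 : ∀ (N ℓ : ℕ) [NeZero N] [Fact ℓ.Prime] (u : LaurentSeries ℤ) (D : ℕ), ¬ ℓ ∣ N →
      Stmt_ModData N u D → Stmt_ModDataModL N ℓ u D)
    (hE2 : ∀ (N ℓ : ℕ) [NeZero N] [Fact ℓ.Prime] (u : LaurentSeries ℤ) (D : ℕ),
      Stmt_ModDataModL N ℓ u D → Stmt_H3 ℓ u D)
    (hE3 : ∀ (N : ℕ) [NeZero N] (u : LaurentSeries ℤ) (D : ℕ),
      Stmt_ModData N u D → Stmt_H4 N u ∧ Stmt_H5 u D)
    (hD : ∀ (N ℓ : ℕ) [NeZero N] [Fact ℓ.Prime] (u : LaurentSeries ℤ) (D : ℕ),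
      Stmt_OvPackage ℓ → Stmt_H3 ℓ u D → Stmt_H4 N u → Stmt_H5 u D → Stmt_ChartRed N ℓ)
    (N ℓ : ℕ) [NeZero N] [Fact ℓ.Prime] (hℓN : ¬ ℓ ∣ N) : Stmt_ChartRed N ℓ := by
  obtain ⟨u, D, hmd⟩ := hMD N
  obtain ⟨h4, h5⟩ := hE3 N u D hmd
  exact hD N ℓ u D (hO ℓ) (hE2 N ℓ u D (hE1 N ℓ u D hℓN hmd)) h4 h5

end

end Fermat.Agent.S28.helper868
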