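import Mathlib
import Fermat.Agent.S28.helper695_LightFormal
import Fermat.Agent.S28.helper868_Spec
import Fermat.Agent.S28.helper2608_Spec

/-!
# S28: the light modular data imply the inputs of the algebra core (helper695)

`Stmt_ModDataLight N u D` implies, for every prime `ℓ ∤ N`:
* `helper868.Stmt_H3 ℓ u D`, `helper868.Stmt_H4 N u`, `helper868.Stmt_H5 u D`;
* `Spec.Stmt_CoreInput N ℓ` (helper2608's interface).
-/

set_option autoImplicit false

noncomputable section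

namespace Fermat.Agent.S28.helper695

open ModularCurve Polynomial

/-! ## The integral package -/

/-- The integral factorisation extracted from the light modular data. -/
theorem exists_intPackage {N : ℕ} {u : LaurentSeries ℤ} {D : ℕ} (h : Stmt_ModDataLight N u D) :
    ∃ (χZ : Polynomial (Polynomial ℤ)) (ΓZ : Polynomial (PowerSeries ℤ)),
      χZ.Monic ∧ χZ.natDegree = D ∧ ΓZ.Monic ∧
      ΓZ.map (PowerSeries.constantCoeff (R := ℤ)) = X ^ (D - 1) ∧
      χZ.map (evalJ ℤ) = (X - C u) * ΓZ.map (HahnSeries.ofPowerSeries ℤ ℤ) ∧ 1 ≤ D ∧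
      χZ.coeff 0 ≠ 0 ∧
      (∀ p : ℕ, p.Prime → (p : ℤ) ∣ (χZ.coeff 0).leadingCoeff → p ∣ N) ∧
      (∀ d : ℕ, d ∣ N → ∀ _ : NeZero d, ∃ G : Polynomial (Polynomial ℂ),
        G.eval₂ (evalJ ℂ) (castR ℂ u) = qExpand ℂ d (jqModC ℂ) *
          (Polynomial.derivative (χZ.map (Polynomial.mapRingHom (Int.castRingHom ℂ)))).eval₂
            (evalJ ℂ) (castR ℂ u)) := by
  obtain ⟨χ, Γ, hχ, hD, hΓ, hΓ0, hfac, ⟨a, b, ha, hb, hab, hnorm⟩, hL⟩ := h
  obtain ⟨χZ, ΓZ, hχZ, hΓZ, hχZm, hχZd, hΓZm, hΓZ0, hfacZ, hD1⟩ :=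
    exists_int_factorisation u D χ Γ hχ hD hΓ hΓ0 hfac
  have hinj : Function.Injective (Int.castRingHom ℂ) := RingHom.injective_int _
  have hc0 : χ.coeff 0 = (χZ.coeff 0).map (Int.castRingHom ℂ) := by
    rw [← hχZ, coeff_map, coe_mapRingHom]
  have hlc : (χ.coeff 0).leadingCoeff = (((χZ.coeff 0).leadingCoeff : ℤ) : ℂ) := by
    rw [hc0, Polynomial.leadingCoeff_map_of_injective hinj]
    rfl
  rw [hlc, Complex.norm_intCast] at hnorm
  have hnat : ((χZ.coeff 0).leadingCoeff.natAbs * b : ℕ) = a := by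
    have h1 : ((((χZ.coeff 0).leadingCoeff.natAbs * b : ℕ) : ℝ)) = (a : ℝ) := by
      rw [← hnorm]
      push_cast
      rw [Nat.cast_natAbs]
      push_cast
      rfl
    exact_mod_cast h1
  refine ⟨χZ, ΓZ, hχZm, hχZd, hΓZm, hΓZ0, hfacZ, hD1, ?_, ?_, ?_⟩
  · intro h0
    rw [h0, leadingCoeff_zero, Int.natAbs_zero, zero_mul] at hnat
    omega
  · intro p hp hpdvd
    apply hab p hp
    rw [← hnat, mul_assoc]
    exact Dvd.dvd.mul_right (Int.natCast_dvd.mp hpdvd) _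
  · intro d hd hne
    obtain ⟨G, hG⟩ := hL d hd hne
    exact ⟨G, by rw [hχZ]; exact hG⟩

/-! ## `H3`: linear independence mod `ℓ` -/

/-- Linear independence of `1, ū, …, ū ^ (D - 1)` over `κ[j̄]` for every field `κ` in which the
leading coefficient of the norm does not vanish. -/
theorem linIndep_of_intPackage (κ : Type) [Field κ] {u : LaurentSeries ℤ} {D : ℕ}
    (χZ : Polynomial (Polynomial ℤ)) (ΓZ : Polynomial (PowerSeries ℤ))
    (hχZm : χZ.Monic) (hχZd : χZ.natDegree = D) (hΓZm : ΓZ.Monic)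
    (hΓZ0 : ΓZ.map (PowerSeries.constantCoeff (R := ℤ)) = X ^ (D - 1))
    (hfacZ : χZ.map (evalJ ℤ) = (X - C u) * ΓZ.map (HahnSeries.ofPowerSeries ℤ ℤ))
    (hlc : (((χZ.coeff 0).leadingCoeff : ℤ) : κ) ≠ 0)
    (c : Fin D → Polynomial κ)
    (hc : ∑ i, evalJ κ (c i) * castR κ u ^ (i : ℕ) = 0) : c = 0 := by
  refine linIndep_pow_of_factor (χZ.map (Polynomial.mapRingHom (Int.castRingHom κ)))
    (hχZm.map _) D (by rw [hχZm.natDegree_map, hχZd]) (castR κ u)
    (ΓZ.map (PowerSeries.map (Int.castRingHom κ))) (hΓZm.map _)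
    (constantCoeff_baseChange κ D ΓZ hΓZ0) (factorisation_baseChange κ u χZ ΓZ hfacZ) ?_ c hc
  rw [coeff_map, coe_mapRingHom]
  intro h0
  apply hlc
  have h1 := congrArg (fun P => P.coeff (χZ.coeff 0).natDegree) h0
  simpa [coeff_map] using h1

theorem stmt_H3_of_light {N : ℕ} {u : LaurentSeries ℤ} {D : ℕ} (h : Stmt_ModDataLight N u D)
    (ℓ : ℕ) [Fact ℓ.Prime] (hℓN : ¬ ℓ ∣ N) : helper868.Stmt_H3 ℓ u D := by
  obtain ⟨χZ, ΓZ, hχZm, hχZd, hΓZm, hΓZ0, hfacZ, -, -, hprime, -⟩ := exists_intPackage h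
  intro c hc
  refine linIndep_of_intPackage (ZMod ℓ) χZ ΓZ hχZm hχZd hΓZm hΓZ0 hfacZ ?_ c hc
  intro h0
  exact hℓN (hprime ℓ (Fact.out) ((ZMod.intCast_zmod_eq_zero_iff_dvd _ ℓ).mp h0))

/-! ## `H5`: the monic polynomial over `ℚ[j]` -/

theorem stmt_H5_of_light {N : ℕ} {u : LaurentSeries ℤ} {D : ℕ} (h : Stmt_ModDataLight N u D) :
    helper868.Stmt_H5 u D := by
  obtain ⟨χZ, ΓZ, hχZm, hχZd, hΓZm, hΓZ0, hfacZ, -, -, -, -⟩ := exists_intPackage h
  refine ⟨χZ.map (Polynomial.mapRingHom (Int.castRingHom ℚ)), hχZm.map _,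
    by rw [hχZm.natDegree_map, hχZd], ?_⟩
  have h1 := factorisation_baseChange ℚ u χZ ΓZ hfacZ
  show (χZ.map (Polynomial.mapRingHom (Int.castRingHom ℚ))).eval₂ (evalJ ℚ) (castR ℚ u) = 0
  rw [Polynomial.eval₂_eq_eval_map, h1, eval_mul, eval_sub, eval_X, eval_C, sub_self, zero_mul]

/-! ## `H4`: descent of the Lagrange identity from `ℂ` to `ℚ` -/

section Descent

/-- Coefficient embedding `ℚ((q)) → ℂ((q))`. -/
abbrev toC : LaurentSeries ℚ →+* LaurentSeries ℂ := coeffMap (algebraMap ℚ ℂ)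

lemma toC_castR (u : LaurentSeries ℤ) : toC (castR ℚ u) = castR ℂ u := by
  rw [coeffMap_coeffMap]
  exact coeffMap_congr (RingHom.ext_int _ _) u

lemma exists_functional : ∃ π : ℂ →ₗ[ℚ] ℚ, π 1 = 1 := by
  obtain ⟨f, hf⟩ : ∃ f : Module.Dual ℚ ℂ, f 1 ≠ 0 := by
    by_contra hcon
    have hall : ∀ f : Module.Dual ℚ ℂ, f 1 = 0 := fun f =>
      by_contra fun hf => hcon ⟨f, hf⟩
    exact one_ne_zero ((Module.forall_dual_apply_eq_zero_iff ℚ (1 : ℂ)).mp hall)
  exact ⟨(f 1)⁻¹ • f, by simp [hf]⟩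

/-- Apply a `ℚ`-linear functional `ℂ → ℚ` coefficientwise. -/
def coeffFun (π : ℂ →ₗ[ℚ] ℚ) : LaurentSeries ℂ →+ LaurentSeries ℚ where
  toFun y := y.map π
  map_zero' := by
    ext k
    simp
  map_add' x y := by
    ext k
    simp

@[simp] lemma coeffFun_coeff (π : ℂ →ₗ[ℚ] ℚ) (y : LaurentSeries ℂ) (k : ℤ) :
    (coeffFun π y).coeff k = π (y.coeff k) := rfl

lemma coeffFun_single_mul (π : ℂ →ₗ[ℚ] ℚ) (c : ℂ) (v : LaurentSeries ℚ) :
    coeffFun π (HahnSeries.single 0 c * toC v) = HahnSeries.single 0 (π c) * v := by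
  ext k
  rw [coeffFun_coeff, HahnSeries.coeff_single_mul, HahnSeries.coeff_single_mul, sub_zero,
    coeffMap_coeff]
  have : c * (algebraMap ℚ ℂ) (v.coeff k) = (v.coeff k) • c := by
    rw [Algebra.smul_def, mul_comm]
  rw [this, map_smul, smul_eq_mul, mul_comm]

lemma coeffFun_toC (π : ℂ →ₗ[ℚ] ℚ) (hπ : π 1 = 1) (x : LaurentSeries ℚ) :
    coeffFun π (toC x) = x := by
  ext k
  rw [coeffFun_coeff, coeffMap_coeff]
  have : (algebraMap ℚ ℂ) (x.coeff k) = (x.coeff k) • (1 : ℂ) := by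
    rw [Algebra.smul_def, mul_one]
  rw [this, map_smul, hπ, smul_eq_mul, mul_one]

lemma evalJ_eq_sum (R : Type) [CommRing R] (Q : Polynomial R) :
    evalJ R Q = ∑ a ∈ Finset.range (Q.natDegree + 1),
      HahnSeries.single 0 (Q.coeff a) * jqModC R ^ a := by
  rw [evalJ_apply, Polynomial.aeval_eq_sum_range]
  refine Finset.sum_congr rfl fun a _ => ?_
  rw [Algebra.smul_def, algebraMap_eq_single]

variable (L : IntermediateField ℚ (LaurentSeries ℚ))

lemma single_zero_mem (r : ℚ) : HahnSeries.single 0 r ∈ L := by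
  rw [← algebraMap_eq_single]
  exact L.algebraMap_mem r

lemma evalJ_mem (hj : jqModC ℚ ∈ L) (Q : Polynomial ℚ) : evalJ ℚ Q ∈ L := by
  rw [evalJ_eq_sum]
  exact sum_mem fun a _ => mul_mem (single_zero_mem L _) (pow_mem hj a)

lemma eval₂_evalJ_mem (hj : jqModC ℚ ∈ L) {U : LaurentSeries ℚ} (hU : U ∈ L)
    (P : Polynomial (Polynomial ℚ)) : P.eval₂ (evalJ ℚ) U ∈ L := by
  rw [Polynomial.eval₂_eq_sum_range]
  exact sum_mem fun k _ => mul_mem (evalJ_mem L hj _) (pow_mem hU k)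

lemma coeffFun_eval₂_mem (π : ℂ →ₗ[ℚ] ℚ) (hj : jqModC ℚ ∈ L) {U : LaurentSeries ℚ}
    (hU : U ∈ L) (G : Polynomial (Polynomial ℂ)) :
    coeffFun π (G.eval₂ (evalJ ℂ) (toC U)) ∈ L := by
  rw [Polynomial.eval₂_eq_sum_range, map_sum]
  refine sum_mem fun k _ => ?_
  rw [evalJ_eq_sum, Finset.sum_mul, map_sum]
  refine sum_mem fun a _ => ?_
  have h1 : HahnSeries.single 0 ((G.coeff k).coeff a) * jqModC ℂ ^ a * toC U ^ k =
      HahnSeries.single 0 ((G.coeff k).coeff a) * toC (jqModC ℚ ^ a * U ^ k) := by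
    rw [map_mul, map_pow, map_pow, coeffMap_jqModC, mul_assoc]
  rw [h1, coeffFun_single_mul]
  exact mul_mem (single_zero_mem L _) (mul_mem (pow_mem hj a) (pow_mem hU k))

lemma coeffMap_eval₂_evalJ {R S : Type} [CommRing R] [CommRing S] (f : R →+* S)
    (P : Polynomial (Polynomial R)) (x : LaurentSeries R) :
    coeffMap f (P.eval₂ (evalJ R) x) =
      (P.map (Polynomial.mapRingHom f)).eval₂ (evalJ S) (coeffMap f x) := by
  rw [Polynomial.hom_eval₂, Polynomial.eval₂_map, coeffMap_comp_evalJ]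

end Descent

theorem stmt_H4_of_light {N : ℕ} {u : LaurentSeries ℤ} {D : ℕ} (h : Stmt_ModDataLight N u D) :
    helper868.Stmt_H4 N u := by
  classical
  obtain ⟨χZ, ΓZ, hχZm, hχZd, hΓZm, hΓZ0, hfacZ, hD1, hc0, -, hLag⟩ := exists_intPackage h
  obtain ⟨π, hπ⟩ := exists_functional
  set L : IntermediateField ℚ (LaurentSeries ℚ) :=
    IntermediateField.adjoin ℚ {jq, helper868.toQ u} with hL
  have hj : jqModC ℚ ∈ L := IntermediateField.subset_adjoin ℚ _ (Set.mem_insert _ _)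
  have hU : castR ℚ u ∈ L :=
    IntermediateField.subset_adjoin ℚ _ (Set.mem_insert_of_mem _ rfl)
  set χQ : Polynomial (Polynomial ℚ) := χZ.map (Polynomial.mapRingHom (Int.castRingHom ℚ))
    with hχQ
  have hχQm : χQ.Monic := hχZm.map _
  have hχQd : χQ.natDegree = D := by rw [hχQ, hχZm.natDegree_map, hχZd]
  set W : LaurentSeries ℚ := (Polynomial.derivative χQ).eval₂ (evalJ ℚ) (castR ℚ u) with hW
  have hWL : W ∈ L := eval₂_evalJ_mem L hj hU _
  -- `W ≠ 0` by irreducibility over `ℚ`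
  have hW0 : W ≠ 0 := by
    intro hW0
    have hder : Polynomial.derivative χQ = 0 := by
      refine eq_zero_of_eval₂_eq_zero χQ hχQm (castR ℚ u)
        (ΓZ.map (PowerSeries.map (Int.castRingHom ℚ))) (hΓZm.map _)
        (by rw [hχQd]; exact constantCoeff_baseChange ℚ D ΓZ hΓZ0)
        (factorisation_baseChange ℚ u χZ ΓZ hfacZ) ?_ _ ?_ hW0
      · rw [hχQ, coeff_map, coe_mapRingHom]
        intro h0
        apply hc0
        exact Polynomial.map_injective _ (RingHom.injective_int (Int.castRingHom ℚ))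
          (by rw [h0, Polynomial.map_zero])
      · exact Polynomial.natDegree_derivative_lt (by omega)
    have h1 := congrArg (fun P => P.coeff (D - 1)) hder
    simp only [coeff_derivative, coeff_zero] at h1
    rw [show D - 1 + 1 = χQ.natDegree by omega, hχQm.coeff_natDegree, one_mul] at h1
    have h2 : ((D - 1 : ℕ) : Polynomial ℚ) + 1 = ((D : ℕ) : Polynomial ℚ) := by
      have : D - 1 + 1 = D := by omega
      exact_mod_cast congrArg (Nat.cast : ℕ → Polynomial ℚ) this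
    rw [h2] at h1
    have h3 : (D : ℚ) = 0 := by
      have := congrArg (fun P : Polynomial ℚ => P.coeff 0) h1
      simpa using this
    have : D = 0 := by exact_mod_cast h3
    omega
  -- the main step
  rw [helper868.Stmt_H4, modularFunctionFieldFull, IntermediateField.adjoin_le_iff]
  rintro x ⟨d, hne, hdN, rfl⟩
  obtain ⟨G, hG⟩ := hLag d hdN hne
  have hχC : χZ.map (Polynomial.mapRingHom (Int.castRingHom ℂ)) =
      χQ.map (Polynomial.mapRingHom (algebraMap ℚ ℂ)) := by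
    rw [hχQ, Polynomial.map_map]
    congr 1
    refine Polynomial.ringHom_ext' ?_ ?_
    · exact RingHom.ext_int _ _
    · simp
  have hWC : toC W = (Polynomial.derivative
      (χZ.map (Polynomial.mapRingHom (Int.castRingHom ℂ)))).eval₂ (evalJ ℂ) (castR ℂ u) := by
    rw [hW, coeffMap_eval₂_evalJ, toC_castR, ← Polynomial.derivative_map, ← hχC]
  have hprod : toC (qExpand ℚ d (jqModC ℚ) * W) = G.eval₂ (evalJ ℂ) (toC (castR ℚ u)) := by
    rw [toC_castR, hG, map_mul, coeffMap_qExpand, coeffMap_jqModC, hWC]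
  have hmem : qExpand ℚ d (jqModC ℚ) * W ∈ L := by
    rw [← coeffFun_toC π hπ (qExpand ℚ d (jqModC ℚ) * W), hprod]
    exact coeffFun_eval₂_mem L π hj hU G
  have : qExpand ℚ d jq = qExpand ℚ d (jqModC ℚ) * W * W⁻¹ := by
    rw [mul_assoc, mul_inv_cancel₀ hW0, mul_one]
    rfl
  rw [SetLike.mem_coe, this]
  exact mul_mem hmem (inv_mem hWL)

end Fermat.Agent.S28.helper695

end
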