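import Fermat.Agent.S28.helper2608_Spec

/-!
# S28: adapter from "one series `u` with a power basis" to `Spec.Stmt_CoreInput`

Route E of the S28 plan produces ONE integer `q`-series `u` (an eta quotient) together with

* a field `L ⊇ F` containing `u` with `[L : ℚ(j)] ≤ n` (`Spec.DegLE L n`),
* linear independence mod `ℓ` of `1, u, …, u^(n-1)` over `𝔽_ℓ[j̄]`,
* integrality of `u` over `ℤ_(ℓ)[j]` only (NOT over `ℤ[j]`).

`Spec.Stmt_CoreInput` asks for integrality over `ℤ[j]`.  This file closes the gap: if `m` is an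
integer prime to `ℓ` clearing the denominators of a monic equation of `u`, then the powers of
`m * u` satisfy all the fields of `Stmt_CoreInput`.

Main statements (namespace `Fermat.Agent.S28.helper808`):

* `stmt_CoreInput_of_powers` : the adapter, taking the multiplier `m` and integrality of `m * u`
  over `ℤ[j]` as input;
* `exists_mul_isIntegralOverZj_of_monic_rat` : a multiplier exists if `u` is killed by a monic
  polynomial over `ℚ[j]` whose coefficients have denominators prime to `ℓ`;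
* `exists_mul_isIntegralOverZj_of_monic_Zl` : same, for a monic polynomial over `ℤ_(ℓ)[j]`;
* `exists_mul_isIntegralOverZj_of_isIntegral_adjoin` : same, from
  `IsIntegral (Algebra.adjoin ℤ_(ℓ) {jq}) (toQ u)`;
* `exists_mul_isIntegralOverZj_of_linIndep` : same, from a monic polynomial over `ℚ[j]` of degree
  `n` alone, using the linear independence mod `ℓ` of `1, u, …, u^(n-1)` (Gauss lemma);
* `stmt_CoreInput_of_monic_rat_of_linIndep` etc.: the combined forms.
-/

set_option autoImplicit false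

noncomputable section

namespace Fermat.Agent.S28.helper808

open ModularCurve Polynomial
open Fermat.Agent.S28.Spec

/-! ## Generalities on `coeffMap` -/

theorem coeffMap_injective {R S : Type*} [CommRing R] [CommRing S] (f : R →+* S)
    (hf : Function.Injective f) : Function.Injective (coeffMap f) := by
  intro x y h
  ext k
  apply hf
  have := congrArg (fun z => z.coeff k) h
  simpa using this

theorem toQ_injective : Function.Injective toQ :=
  coeffMap_injective _ Int.cast_injective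

theorem algebraMap_laurentSeries_eq_single' {T : Type*} [CommRing T] (c : T) :
    algebraMap T (LaurentSeries T) c = HahnSeries.single 0 c := by
  have h1 : algebraMap T (PowerSeries T) c = PowerSeries.C c := by simp
  rw [HahnSeries.algebraMap_apply', h1, HahnSeries.ofPowerSeries_C]
  rfl

theorem coeffMap_algebraMap' {R S : Type*} [CommRing R] [CommRing S] (f : R →+* S) (r : R) :
    coeffMap f (algebraMap R (LaurentSeries R) r) = algebraMap S (LaurentSeries S) (f r) := by
  rw [algebraMap_laurentSeries_eq_single', algebraMap_laurentSeries_eq_single', coeffMap_single]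

/-- Evaluation at `j` commutes with change of coefficients. -/
theorem coeffMap_comp_aeval_jqModC {R S : Type*} [CommRing R] [CommRing S] (f : R →+* S) :
    (coeffMap f).comp (Polynomial.aeval (jqModC R)).toRingHom =
      (Polynomial.aeval (jqModC S)).toRingHom.comp (Polynomial.mapRingHom f) := by
  apply Polynomial.ringHom_ext
  · intro r
    simp [coeffMap_algebraMap']
  · simp [coeffMap_jqModC]

theorem coeffMap_aeval_jqModC {R S : Type*} [CommRing R] [CommRing S] (f : R →+* S)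
    (p : Polynomial R) :
    coeffMap f (Polynomial.aeval (jqModC R) p) = Polynomial.aeval (jqModC S) (p.map f) := by
  have := congrArg (fun g => g p) (coeffMap_comp_aeval_jqModC f)
  simpa using this

/-- Two-variable evaluation commutes with change of coefficients. -/
theorem coeffMap_eval₂_aeval_jqModC {R S : Type*} [CommRing R] [CommRing S] (f : R →+* S)
    (P : Polynomial (Polynomial R)) (b : LaurentSeries R) :
    coeffMap f (P.eval₂ (Polynomial.aeval (jqModC R)).toRingHom b) =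
      (P.map (Polynomial.mapRingHom f)).eval₂ (Polynomial.aeval (jqModC S)).toRingHom
        (coeffMap f b) := by
  rw [Polynomial.hom_eval₂, Polynomial.eval₂_map, coeffMap_comp_aeval_jqModC]

/-! ## Scaling a monic equation over `ℚ[j]` to a monic equation over `ℤ[j]` -/

/-- `IsIntegralOverZj` is integrality with respect to the ring hom `ℤ[Y] → ℤ((q))`, `Y ↦ j`. -/
theorem isIntegralOverZj_iff (b : LaurentSeries ℤ) :
    IsIntegralOverZj b ↔
      RingHom.IsIntegralElem (R := Polynomial ℤ) (A := LaurentSeries ℤ)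
        (Polynomial.aeval (jqModC ℤ)).toRingHom b :=
  Iff.rfl

theorem isIntegralOverZj_pow {b : LaurentSeries ℤ} (hb : IsIntegralOverZj b) (k : ℕ) :
    IsIntegralOverZj (b ^ k) := by
  rw [isIntegralOverZj_iff] at hb ⊢
  induction k with
  | zero =>
    rw [pow_zero]
    exact RingHom.isIntegralElem_one (R := Polynomial ℤ) (B := LaurentSeries ℤ) _
  | succ k ih =>
    rw [pow_succ]
    exact RingHom.IsIntegralElem.mul (R := Polynomial ℤ) (S := LaurentSeries ℤ) _ ih hb

/-- Scaling: if `χ ∈ ℚ[Y][X]` is monic with `χ(j, u) = 0` and the integer `m` clears the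
denominators of every coefficient of `χ`, then `m * u` is integral over `ℤ[j]`. -/
theorem isIntegralOverZj_mul_of_monic_rat (u : LaurentSeries ℤ) (χ : Polynomial (Polynomial ℚ))
    (hχ : χ.Monic) (hroot : χ.eval₂ (Polynomial.aeval jq).toRingHom (toQ u) = 0) (m : ℤ)
    (hm : ∀ i, ∃ c : Polynomial ℤ,
      c.map (Int.castRingHom ℚ) = Polynomial.C (m : ℚ) * χ.coeff i) :
    IsIntegralOverZj ((m : LaurentSeries ℤ) * u) := by
  classical
  set s : Polynomial ℚ := Polynomial.C (m : ℚ) with hs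
  have hlift : χ.scaleRoots s ∈ Polynomial.lifts (Polynomial.mapRingHom (Int.castRingHom ℚ)) := by
    rw [Polynomial.lifts_iff_coeff_lifts]
    intro i
    rw [Polynomial.coeff_scaleRoots]
    rcases lt_trichotomy i χ.natDegree with hi | hi | hi
    · obtain ⟨c, hc⟩ := hm i
      obtain ⟨k, hk⟩ : ∃ k, χ.natDegree - i = k + 1 := ⟨χ.natDegree - i - 1, by omega⟩
      refine ⟨c * Polynomial.C m ^ k, ?_⟩
      rw [hk, pow_succ]
      simp only [Polynomial.coe_mapRingHom, Polynomial.map_mul, Polynomial.map_pow,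
        Polynomial.map_C, hc, hs]
      simp only [eq_intCast]
      ring
    · subst hi
      refine ⟨1, ?_⟩
      simp [hχ.coeff_natDegree]
    · refine ⟨0, ?_⟩
      simp [Polynomial.coeff_eq_zero_of_natDegree_lt hi]
  obtain ⟨P, hP, -, hPmonic⟩ := Polynomial.lifts_and_natDegree_eq_and_monic hlift
    ((Polynomial.monic_scaleRoots_iff s).mpr hχ)
  refine ⟨P, hPmonic, ?_⟩
  apply toQ_injective
  rw [map_zero]
  have h1 := coeffMap_eval₂_aeval_jqModC (Int.castRingHom ℚ) P ((m : LaurentSeries ℤ) * u)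
  have hP' : P.map (Polynomial.mapRingHom (Int.castRingHom ℚ)) = χ.scaleRoots s := hP
  rw [show toQ = coeffMap (Int.castRingHom ℚ) from rfl, h1, hP', map_mul, map_intCast]
  have h2 : ((m : ℤ) : LaurentSeries ℚ) = (Polynomial.aeval (jqModC ℚ)).toRingHom s := by
    simp [hs]
  rw [h2, Polynomial.scaleRoots_eval₂_mul, jqModC_rat]
  have hroot' : Polynomial.eval₂ (Polynomial.aeval jq).toRingHom
      (coeffMap (Int.castRingHom ℚ) u) χ = 0 := hroot
  rw [hroot', mul_zero]

/-! ## Existence of a multiplier prime to `ℓ` -/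

theorem exists_int_eq_natCast_mul_of_den_dvd (q : ℚ) (m : ℕ) (h : q.den ∣ m) :
    ∃ z : ℤ, (z : ℚ) = (m : ℚ) * q := by
  obtain ⟨t, rfl⟩ := h
  refine ⟨(t : ℤ) * q.num, ?_⟩
  have := Rat.mul_den_eq_num q
  push_cast
  rw [← this]
  ring

/-- The product of all denominators occurring in `χ ∈ ℚ[Y][X]`. -/
def denProd (χ : Polynomial (Polynomial ℚ)) : ℕ :=
  ∏ i ∈ χ.support, ∏ k ∈ (χ.coeff i).support, ((χ.coeff i).coeff k).den

theorem denProd_pos (χ : Polynomial (Polynomial ℚ)) : 0 < denProd χ :=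
  Finset.prod_pos fun _ _ => Finset.prod_pos fun _ _ => Rat.den_pos _

theorem den_dvd_denProd (χ : Polynomial (Polynomial ℚ)) (i k : ℕ) :
    ((χ.coeff i).coeff k).den ∣ denProd χ := by
  by_cases hi : i ∈ χ.support
  · by_cases hk : k ∈ (χ.coeff i).support
    · exact (Finset.dvd_prod_of_mem _ hk).trans
        (Finset.dvd_prod_of_mem (fun i => ∏ k ∈ (χ.coeff i).support, ((χ.coeff i).coeff k).den) hi)
    · rw [Polynomial.notMem_support_iff.mp hk]
      simp
  · rw [Polynomial.notMem_support_iff.mp hi]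
    simp

theorem denProd_clears (χ : Polynomial (Polynomial ℚ)) (m : ℕ) (hm : denProd χ ∣ m) (i : ℕ) :
    ∃ c : Polynomial ℤ,
      c.map (Int.castRingHom ℚ) = Polynomial.C (((m : ℤ) : ℚ)) * χ.coeff i := by
  have hl : Polynomial.C (((m : ℤ) : ℚ)) * χ.coeff i ∈ Polynomial.lifts (Int.castRingHom ℚ) := by
    rw [Polynomial.lifts_iff_coeff_lifts]
    intro k
    rw [Polynomial.coeff_C_mul]
    obtain ⟨z, hz⟩ := exists_int_eq_natCast_mul_of_den_dvd ((χ.coeff i).coeff k) m
      ((den_dvd_denProd χ i k).trans hm)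
    exact ⟨z, by simpa using hz⟩
  exact hl

/-- A multiplier exists as soon as `u` is killed by a monic polynomial over `ℚ[j]` whose
coefficients have denominators prime to `ℓ`. -/
theorem exists_mul_isIntegralOverZj_of_monic_rat {ℓ : ℕ} [hℓ : Fact ℓ.Prime]
    (u : LaurentSeries ℤ) (χ : Polynomial (Polynomial ℚ)) (hχ : χ.Monic)
    (hroot : χ.eval₂ (Polynomial.aeval jq).toRingHom (toQ u) = 0)
    (hden : ∀ i k, ¬ ℓ ∣ ((χ.coeff i).coeff k).den) :
    ∃ m : ℤ, ¬ (ℓ : ℤ) ∣ m ∧ IsIntegralOverZj ((m : LaurentSeries ℤ) * u) := by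
  refine ⟨(denProd χ : ℤ), ?_, ?_⟩
  · rw [Int.natCast_dvd_natCast]
    intro h
    obtain ⟨i, -, hi⟩ := (Prime.dvd_finsetProd_iff hℓ.out.prime _).mp h
    obtain ⟨k, -, hk⟩ := (Prime.dvd_finsetProd_iff hℓ.out.prime _).mp hi
    exact hden i k hk
  · exact isIntegralOverZj_mul_of_monic_rat u χ hχ hroot _
      (fun i => denProd_clears χ (denProd χ) dvd_rfl i)

/-- Same, for a monic polynomial over `ℤ_(ℓ)[j]`. -/
theorem exists_mul_isIntegralOverZj_of_monic_Zl {ℓ : ℕ} [hℓ : Fact ℓ.Prime]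
    (u : LaurentSeries ℤ) (P : Polynomial (Polynomial (Zl ℓ))) (hP : P.Monic)
    (hroot : (P.map (Polynomial.mapRingHom (algebraMap (Zl ℓ) ℚ))).eval₂
      (Polynomial.aeval jq).toRingHom (toQ u) = 0) :
    ∃ m : ℤ, ¬ (ℓ : ℤ) ∣ m ∧ IsIntegralOverZj ((m : LaurentSeries ℤ) * u) := by
  refine exists_mul_isIntegralOverZj_of_monic_rat u _ (hP.map _) hroot ?_
  intro i k hdvd
  have hmem : (((P.coeff i).coeff k : Zl ℓ) : ℚ) ∈ GaloisRep.ratLocalizedAt ℓ :=
    ((P.coeff i).coeff k).2
  have hcop : (((P.coeff i).coeff k : Zl ℓ) : ℚ).den.Coprime ℓ := hmem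
  have hcoeff : ((P.map (Polynomial.mapRingHom (algebraMap (Zl ℓ) ℚ))).coeff i).coeff k =
      (((P.coeff i).coeff k : Zl ℓ) : ℚ) := by
    rw [Polynomial.coeff_map, Polynomial.coe_mapRingHom, Polynomial.coeff_map]
    rfl
  rw [hcoeff] at hdvd
  exact hℓ.out.one_lt.ne' (Nat.Coprime.eq_one_of_dvd hcop.symm hdvd)

theorem algebraMap_Zl_laurentSeries (ℓ : ℕ) (r : Zl ℓ) :
    algebraMap (Zl ℓ) (LaurentSeries ℚ) r =
      algebraMap ℚ (LaurentSeries ℚ) (algebraMap (Zl ℓ) ℚ r) := by
  rw [HahnSeries.algebraMap_apply', HahnSeries.algebraMap_apply', PowerSeries.algebraMap_apply,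
    PowerSeries.algebraMap_apply]
  rfl

/-- The two ways of evaluating a polynomial over `ℤ_(ℓ)` at `jq` agree. -/
theorem aeval_Zl_jq_eq (ℓ : ℕ) :
    (Polynomial.aeval (R := Zl ℓ) jq).toRingHom =
      (Polynomial.aeval (R := ℚ) jq).toRingHom.comp
        (Polynomial.mapRingHom (algebraMap (Zl ℓ) ℚ)) := by
  apply Polynomial.ringHom_ext
  · intro r
    simp only [AlgHom.toRingHom_eq_coe, RingHom.coe_coe, Polynomial.aeval_C, RingHom.coe_comp,
      Function.comp_apply, Polynomial.coe_mapRingHom, Polynomial.map_C]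
    exact algebraMap_Zl_laurentSeries ℓ r
  · simp

/-- Same, for a monic polynomial over `ℤ_(ℓ)[j]`, evaluated through the `ℤ_(ℓ)`-algebra
structure of `ℚ((q))`. -/
theorem exists_mul_isIntegralOverZj_of_monic_Zl' {ℓ : ℕ} [hℓ : Fact ℓ.Prime]
    (u : LaurentSeries ℤ) (P : Polynomial (Polynomial (Zl ℓ))) (hP : P.Monic)
    (hroot : P.eval₂ (Polynomial.aeval (R := Zl ℓ) jq).toRingHom (toQ u) = 0) :
    ∃ m : ℤ, ¬ (ℓ : ℤ) ∣ m ∧ IsIntegralOverZj ((m : LaurentSeries ℤ) * u) := by
  refine exists_mul_isIntegralOverZj_of_monic_Zl u P hP ?_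
  rw [Polynomial.eval₂_map, ← aeval_Zl_jq_eq]
  exact hroot

/-- Same, from integrality of `u` over the subalgebra `ℤ_(ℓ)[jq]` of `ℚ((q))`. -/
theorem exists_mul_isIntegralOverZj_of_isIntegral_adjoin {ℓ : ℕ} [hℓ : Fact ℓ.Prime]
    (u : LaurentSeries ℤ)
    (h : IsIntegral (Algebra.adjoin (Zl ℓ) {jq}) (toQ u)) :
    ∃ m : ℤ, ¬ (ℓ : ℤ) ∣ m ∧ IsIntegralOverZj ((m : LaurentSeries ℤ) * u) := by
  obtain ⟨p, hp, hp0⟩ := h
  -- the surjection `ℤ_(ℓ)[Y] → ℤ_(ℓ)[jq]`
  let φ : Polynomial (Zl ℓ) →+* Algebra.adjoin (Zl ℓ) {jq} :=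
    (((Polynomial.aeval (R := Zl ℓ) jq).codRestrict (Algebra.adjoin (Zl ℓ) {jq}) (fun q => by
      rw [Algebra.adjoin_singleton_eq_range_aeval]
      exact ⟨q, rfl⟩)) : Polynomial (Zl ℓ) →ₐ[Zl ℓ] Algebra.adjoin (Zl ℓ) {jq}).toRingHom
  have hφ : Function.Surjective φ := by
    rintro ⟨y, hy⟩
    have hy' := hy
    rw [Algebra.adjoin_singleton_eq_range_aeval] at hy'
    obtain ⟨q, rfl⟩ := hy'
    exact ⟨q, rfl⟩
  have hlift : p ∈ Polynomial.lifts φ := by
    rw [Polynomial.lifts_iff_coeff_lifts]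
    intro k
    exact hφ _
  obtain ⟨P, hPmap, -, hPmonic⟩ := Polynomial.lifts_and_natDegree_eq_and_monic hlift hp
  refine exists_mul_isIntegralOverZj_of_monic_Zl' u P hPmonic ?_
  have hcomp : (algebraMap (Algebra.adjoin (Zl ℓ) {jq}) (LaurentSeries ℚ)).comp φ =
      (Polynomial.aeval (R := Zl ℓ) jq).toRingHom := by
    ext q <;> rfl
  rw [← hcomp, ← Polynomial.eval₂_map, hPmap]
  exact hp0

/-! ## The adapter -/

/-- **Adapter (route E ⟶ `Stmt_CoreInput`).**  Let `u ∈ ℤ((q))` lie in a field `L ⊇ F` with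
`[L : ℚ(j)] ≤ n`, such that `1, u, …, u^(n-1)` are linearly independent mod `ℓ` over `𝔽_ℓ[j̄]`
and `m * u` is integral over `ℤ[j]` for some integer `m` prime to `ℓ`.  Then
`Stmt_CoreInput N ℓ` holds, with the basis `b i = (m * u)^i`. -/
theorem stmt_CoreInput_of_powers {N ℓ : ℕ} [Fact ℓ.Prime] (n : ℕ)
    (L : IntermediateField ℚ (LaurentSeries ℚ)) (u : LaurentSeries ℤ) (m : ℤ)
    (hm : ¬ (ℓ : ℤ) ∣ m)
    (hFL : modularFunctionFieldFull N ≤ L) (hu : toQ u ∈ L)
    (hint : IsIntegralOverZj ((m : LaurentSeries ℤ) * u))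
    (hdeg : DegLE L n)
    (hLI : LinIndepModL ℓ (fun i : Fin n => u ^ (i : ℕ))) : Stmt_CoreInput N ℓ := by
  refine ⟨n, L, fun i => ((m : LaurentSeries ℤ) * u) ^ (i : ℕ), hFL, ?_, ?_, hdeg, ?_⟩
  · intro i
    rw [map_pow, map_mul, map_intCast]
    exact pow_mem (mul_mem (intCast_mem L m) hu) _
  · intro i
    exact isIntegralOverZj_pow hint _
  · intro c hc
    have hm0 : ((m : ℤ) : ZMod ℓ) ≠ 0 := by
      rw [Ne, ZMod.intCast_zmod_eq_zero_iff_dvd]
      exact hm
    have key : ∀ i : Fin n,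
        Polynomial.aeval (jqModC (ZMod ℓ)) (c i) * toFl ℓ (((m : LaurentSeries ℤ) * u) ^ (i : ℕ)) =
        Polynomial.aeval (jqModC (ZMod ℓ)) (c i * Polynomial.C (((m : ℤ) : ZMod ℓ) ^ (i : ℕ))) *
          toFl ℓ (u ^ (i : ℕ)) := by
      intro i
      rw [map_pow, map_mul, map_intCast, mul_pow, map_mul, Polynomial.aeval_C, map_pow,
        map_intCast, map_pow]
      ring
    have hc' : ∑ i, Polynomial.aeval (jqModC (ZMod ℓ))
        (c i * Polynomial.C (((m : ℤ) : ZMod ℓ) ^ (i : ℕ))) * toFl ℓ (u ^ (i : ℕ)) = 0 := by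
      rw [← hc]
      exact Finset.sum_congr rfl fun i _ => (key i).symm
    have h0 := hLI (fun i => c i * Polynomial.C (((m : ℤ) : ZMod ℓ) ^ (i : ℕ))) hc'
    funext i
    have hi := congrFun h0 i
    simp only [Pi.zero_apply] at hi ⊢
    rcases mul_eq_zero.mp hi with h | h
    · exact h
    · exact absurd (Polynomial.C_eq_zero.mp h) (pow_ne_zero _ hm0)

end Fermat.Agent.S28.helper808

end
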