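import Fermat.Statements.S28

/-!
# S28: the degree bridge (primitive-element glue)

* `aeval_jqModC_injective`, `aeval_jq_injective`, `aeval_jq_int_injective`: the formal `j`
  is transcendental.
* `deg_bridge`: if every element of the `ℚ`-algebra generated by `G ∋ jq` is killed by a
  nonzero polynomial of `X`-degree `≤ n` with coefficients in `ℚ[jq]`, then any `n + 1`
  elements of the field `ℚ(G) ⊆ ℚ((q))` are `ℤ[jq]`-linearly dependent.
-/

set_option autoImplicit false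

noncomputable section

namespace Fermat.Agent.S28.helper979

open ModularCurve Polynomial IntermediateField

section Transcendence

variable (K : Type*) [CommRing K]

theorem algebraMap_laurentSeries_eq_C (c : K) :
    algebraMap K (LaurentSeries K) c = HahnSeries.C c := by
  have h1 : algebraMap K (PowerSeries K) c = PowerSeries.C c := by
    simp
  rw [HahnSeries.algebraMap_apply', h1, HahnSeries.ofPowerSeries_C]

theorem coeff_algebraMap_mul (r : K) (x : LaurentSeries K) (a : ℤ) :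
    (algebraMap K (LaurentSeries K) r * x).coeff a = r * x.coeff a := by
  rw [algebraMap_laurentSeries_eq_C, HahnSeries.C_mul_eq_smul, HahnSeries.coeff_smul, smul_eq_mul]

/-- The coefficient of `q^(-deg P)` in `P(j)` is the leading coefficient of `P`. -/
theorem coeff_aeval_jqModC (P : K[X]) :
    (aeval (jqModC K) P).coeff (-(P.natDegree : ℤ)) = P.leadingCoeff := by
  rw [aeval_eq_sum_range, HahnSeries.coeff_sum, Finset.sum_range_succ, Finset.sum_eq_zero,
    zero_add, Algebra.smul_def, coeff_algebraMap_mul, coeff_jqModC_pow_self, mul_one]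
  · rfl
  · intro i hi
    rw [Algebra.smul_def, coeff_algebraMap_mul, coeff_jqModC_pow_of_lt K
      (by have := Finset.mem_range.mp hi; omega), mul_zero]

/-- The formal `j`-invariant over any nontrivial commutative ring is transcendental. -/
theorem aeval_jqModC_eq_zero_iff {P : K[X]} : aeval (jqModC K) P = 0 ↔ P = 0 := by
  refine ⟨fun h => ?_, fun h => by rw [h, map_zero]⟩
  have := coeff_aeval_jqModC K P
  rw [h, HahnSeries.coeff_zero] at this
  exact leadingCoeff_eq_zero.mp this.symm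

theorem aeval_jqModC_injective : Function.Injective (aeval (R := K) (jqModC K)) :=
  (injective_iff_map_eq_zero _).mpr fun _ h => (aeval_jqModC_eq_zero_iff K).mp h

end Transcendence

theorem aeval_jq_eq_zero_iff {P : ℚ[X]} : aeval jq P = 0 ↔ P = 0 :=
  aeval_jqModC_eq_zero_iff ℚ

theorem aeval_jq_injective : Function.Injective (aeval (R := ℚ) jq) :=
  aeval_jqModC_injective ℚ

theorem aeval_int_eq_aeval_map (x : LaurentSeries ℚ) (P : ℤ[X]) :
    aeval x P = aeval x (P.map (Int.castRingHom ℚ)) := by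
  rw [aeval_def, aeval_def, eval₂_map]
  congr 1
  exact RingHom.ext_int _ _

theorem aeval_jq_int_eq_zero_iff {P : ℤ[X]} : aeval jq P = 0 ↔ P = 0 := by
  rw [aeval_int_eq_aeval_map, aeval_jq_eq_zero_iff]
  exact Polynomial.map_eq_zero_iff (RingHom.injective_int _)

theorem aeval_jq_int_injective : Function.Injective (aeval (R := ℤ) jq) :=
  (injective_iff_map_eq_zero _).mpr fun _ h => aeval_jq_int_eq_zero_iff.mp h

section Bridge

/-- The hypothesis of the bridge: every element of the `ℚ`-algebra generated by `G` is a root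
of a nonzero polynomial of `X`-degree `≤ n` whose coefficients are polynomials in `jq`. -/
def BoundedDegree (G : Set (LaurentSeries ℚ)) (n : ℕ) : Prop :=
  ∀ x ∈ Algebra.adjoin ℚ G, ∃ p : Polynomial (Polynomial ℚ), p ≠ 0 ∧ p.natDegree ≤ n ∧
    p.eval₂ (Polynomial.aeval (R := ℚ) jq).toRingHom x = 0

/-- The conclusion of the bridge: any `n + 1` elements of `L` are `ℤ[jq]`-linearly dependent
(this is clause (DEG) of the core input, i.e. `[L : ℚ(jq)] ≤ n`). -/
def DegLE (L : IntermediateField ℚ (LaurentSeries ℚ)) (n : ℕ) : Prop :=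
  ∀ v : Fin (n + 1) → LaurentSeries ℚ, (∀ i, v i ∈ L) →
    ∃ c : Fin (n + 1) → Polynomial ℤ, c ≠ 0 ∧ ∑ i, Polynomial.aeval jq (c i) * v i = 0

theorem charZero_laurentSeries_rat : CharZero (LaurentSeries ℚ) :=
  charZero_of_injective_algebraMap (algebraMap ℚ (LaurentSeries ℚ)).injective

theorem aeval_jq_mem_adjoin_simple (s : ℚ[X]) : aeval jq s ∈ ℚ⟮jq⟯ :=
  IntermediateField.algebra_adjoin_le_adjoin ℚ _ (aeval_mem_adjoin_singleton ℚ jq)

/-- Evaluation of rational polynomials at `jq`, as a ring hom into `ℚ(jq)` (we avoid any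
`ℚ`-algebra structure on the subtype). -/
def toE : ℚ[X] →+* ℚ⟮jq⟯ :=
  (aeval (R := ℚ) jq).toRingHom.codRestrict ℚ⟮jq⟯ aeval_jq_mem_adjoin_simple

theorem algebraMap_toE (s : ℚ[X]) :
    algebraMap ℚ⟮jq⟯ (LaurentSeries ℚ) (toE s) = aeval jq s := rfl

theorem toE_eq_zero_iff {s : ℚ[X]} : toE s = 0 ↔ s = 0 := by
  rw [← aeval_jq_eq_zero_iff, ← algebraMap_toE, map_eq_zero_iff _
    (algebraMap ℚ⟮jq⟯ (LaurentSeries ℚ)).injective]

theorem toE_injective : Function.Injective toE :=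
  (injective_iff_map_eq_zero _).mpr fun _ hs => toE_eq_zero_iff.mp hs

/-- Clearing denominators in `ℚ(jq)`. -/
theorem exists_mul_eq_of_mem_adjoin_jq {e : LaurentSeries ℚ} (he : e ∈ ℚ⟮jq⟯) :
    ∃ a b : ℚ[X], b ≠ 0 ∧ aeval jq b * e = aeval jq a := by
  obtain ⟨r, s, rfl⟩ := (mem_adjoin_simple_iff ℚ e).mp he
  by_cases hs : s = 0
  · exact ⟨0, 1, one_ne_zero, by simp [hs]⟩
  · refine ⟨r, s, hs, ?_⟩
    have : aeval jq s ≠ 0 := fun h => hs (aeval_jq_eq_zero_iff.mp h)
    field_simp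

variable {G : Set (LaurentSeries ℚ)}

theorem aeval_jq_mem_adjoin (hj : jq ∈ G) (s : ℚ[X]) : aeval jq s ∈ Algebra.adjoin ℚ G :=
  Algebra.adjoin_mono (Set.singleton_subset_iff.mpr hj) (aeval_mem_adjoin_singleton ℚ jq)

/-- Clearing denominators of a polynomial expression with coefficients in `ℚ(jq)`. -/
theorem exists_mul_aeval_mem_adjoin (hj : jq ∈ G) {x : LaurentSeries ℚ}
    (hx : x ∈ Algebra.adjoin ℚ G) (Q : (ℚ⟮jq⟯)[X]) :
    ∃ c : ℚ[X], c ≠ 0 ∧ aeval jq c * aeval x Q ∈ Algebra.adjoin ℚ G := by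
  induction Q using Polynomial.induction_on' with
  | add P Q hP hQ =>
    obtain ⟨c₁, hc₁, h₁⟩ := hP
    obtain ⟨c₂, hc₂, h₂⟩ := hQ
    refine ⟨c₁ * c₂, mul_ne_zero hc₁ hc₂, ?_⟩
    have : aeval jq (c₁ * c₂) * aeval x (P + Q) =
        aeval jq c₂ * (aeval jq c₁ * aeval x P) + aeval jq c₁ * (aeval jq c₂ * aeval x Q) := by
      rw [map_mul, map_add]; ring
    rw [this]
    exact add_mem (mul_mem (aeval_jq_mem_adjoin hj _) h₁) (mul_mem (aeval_jq_mem_adjoin hj _) h₂)
  | monomial k e =>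
    obtain ⟨a, b, hb, hab⟩ := exists_mul_eq_of_mem_adjoin_jq e.2
    refine ⟨b, hb, ?_⟩
    have : aeval jq b * aeval x (monomial k e) = aeval jq a * x ^ k := by
      rw [aeval_monomial, ← mul_assoc]
      congr 1
    rw [this]
    exact mul_mem (aeval_jq_mem_adjoin hj _) (pow_mem hx k)

/-- An element of the `ℚ`-algebra generated by `G` is algebraic over `ℚ(jq)`, with a witness
of degree `≤ n`. -/
theorem exists_poly_of_mem_adjoin {n : ℕ} (h : BoundedDegree G n) {x : LaurentSeries ℚ}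
    (hx : x ∈ Algebra.adjoin ℚ G) :
    ∃ q : (ℚ⟮jq⟯)[X], q ≠ 0 ∧ q.natDegree ≤ n ∧ aeval x q = 0 := by
  obtain ⟨p, hp0, hpn, hpx⟩ := h x hx
  refine ⟨p.map toE, (Polynomial.map_ne_zero_iff toE_injective).mpr hp0,
    (natDegree_map_le).trans hpn, ?_⟩
  rw [aeval_def, eval₂_map, ← hpx]
  rfl

/-- Every element of the field generated by `G` becomes an element of the `ℚ`-algebra generated
by `G` after multiplication by a nonzero polynomial in `jq`. -/
theorem exists_mul_mem_adjoin {n : ℕ} (hj : jq ∈ G) (h : BoundedDegree G n)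
    {y : LaurentSeries ℚ} (hy : y ∈ IntermediateField.adjoin ℚ G) :
    ∃ s : ℚ[X], s ≠ 0 ∧ aeval jq s * y ∈ Algebra.adjoin ℚ G := by
  induction hy using IntermediateField.adjoin_induction with
  | mem x hx => exact ⟨1, one_ne_zero, by simpa using Algebra.subset_adjoin hx⟩
  | algebraMap r => exact ⟨1, one_ne_zero, by simpa using (Algebra.adjoin ℚ G).algebraMap_mem r⟩
  | add x y _ _ hx hy =>
    obtain ⟨s₁, hs₁, h₁⟩ := hx
    obtain ⟨s₂, hs₂, h₂⟩ := hy
    refine ⟨s₁ * s₂, mul_ne_zero hs₁ hs₂, ?_⟩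
    have : aeval jq (s₁ * s₂) * (x + y) =
        aeval jq s₂ * (aeval jq s₁ * x) + aeval jq s₁ * (aeval jq s₂ * y) := by
      rw [map_mul]; ring
    rw [this]
    exact add_mem (mul_mem (aeval_jq_mem_adjoin hj _) h₁) (mul_mem (aeval_jq_mem_adjoin hj _) h₂)
  | mul x y _ _ hx hy =>
    obtain ⟨s₁, hs₁, h₁⟩ := hx
    obtain ⟨s₂, hs₂, h₂⟩ := hy
    refine ⟨s₁ * s₂, mul_ne_zero hs₁ hs₂, ?_⟩
    have : aeval jq (s₁ * s₂) * (x * y) = (aeval jq s₁ * x) * (aeval jq s₂ * y) := by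
      rw [map_mul]; ring
    rw [this]
    exact mul_mem h₁ h₂
  | inv y _ hy =>
    obtain ⟨s, hs, h₁⟩ := hy
    by_cases hy0 : y = 0
    · exact ⟨1, one_ne_zero, by simp [hy0]⟩
    set x := aeval jq s * y with hxdef
    have hs0 : aeval jq s ≠ 0 := fun h0 => hs (aeval_jq_eq_zero_iff.mp h0)
    have hx0 : x ≠ 0 := mul_ne_zero hs0 hy0
    obtain ⟨q, hq0, -, hqx⟩ := exists_poly_of_mem_adjoin h h₁
    have halg : IsAlgebraic ℚ⟮jq⟯ x := ⟨q, hq0, hqx⟩
    have hinv : x⁻¹ ∈ Algebra.adjoin ℚ⟮jq⟯ {x} :=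
      Subalgebra.inv_mem_of_algebraic (A := Algebra.adjoin ℚ⟮jq⟯ {x})
        (x := ⟨x, Algebra.self_mem_adjoin_singleton _ x⟩) halg
    rw [Algebra.adjoin_singleton_eq_range_aeval] at hinv
    obtain ⟨Q, hQ⟩ := hinv
    obtain ⟨c, hc, hcm⟩ := exists_mul_aeval_mem_adjoin hj h₁ Q
    refine ⟨c, hc, ?_⟩
    have : aeval jq c * y⁻¹ = aeval jq s * (aeval jq c * aeval x Q) := by
      have hQ' : aeval x Q = x⁻¹ := hQ
      rw [hQ', hxdef, mul_inv]
      field_simp
    rw [this]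
    exact mul_mem (aeval_jq_mem_adjoin hj _) hcm

/-- Every element of the field generated by `G` has degree `≤ n` over `ℚ(jq)`. -/
theorem exists_poly_of_mem_field {n : ℕ} (hj : jq ∈ G) (h : BoundedDegree G n)
    {y : LaurentSeries ℚ} (hy : y ∈ IntermediateField.adjoin ℚ G) :
    ∃ q : (ℚ⟮jq⟯)[X], q ≠ 0 ∧ q.natDegree ≤ n ∧ aeval y q = 0 := by
  obtain ⟨s, hs, hx⟩ := exists_mul_mem_adjoin hj h hy
  obtain ⟨q, hq0, hqn, hqx⟩ := exists_poly_of_mem_adjoin h hx
  have hσ : toE s ≠ 0 := fun h0 => hs (toE_eq_zero_iff.mp h0)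
  have hdeg : (C (toE s) * X : (ℚ⟮jq⟯)[X]).natDegree = 1 := natDegree_C_mul_X _ hσ
  refine ⟨q.comp (C (toE s) * X), ?_, ?_, ?_⟩
  · intro h0
    have hlc := leadingCoeff_comp (p := q) (q := C (toE s) * X) (by rw [hdeg]; exact one_ne_zero)
    rw [h0, leadingCoeff_zero] at hlc
    have h1 : q.leadingCoeff ≠ 0 := leadingCoeff_ne_zero.mpr hq0
    have h2 : (C (toE s) * X : (ℚ⟮jq⟯)[X]).leadingCoeff ^ q.natDegree ≠ 0 :=
      pow_ne_zero _ (leadingCoeff_ne_zero.mpr (fun h3 => by rw [h3] at hdeg; simp at hdeg))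
    exact mul_ne_zero h1 h2 hlc.symm
  · rw [natDegree_comp, hdeg, mul_one]; exact hqn
  · rw [aeval_comp, map_mul, aeval_C, aeval_X, algebraMap_toE]
    exact hqx

/-- Clearing denominators in `ℚ(jq)`, with integer polynomials. -/
theorem exists_int_mul_eq_of_mem_adjoin_jq {e : LaurentSeries ℚ} (he : e ∈ ℚ⟮jq⟯) :
    ∃ a b : ℤ[X], b ≠ 0 ∧ aeval jq b * e = aeval jq a := by
  obtain ⟨a₀, b₀, hb₀, hab⟩ := exists_mul_eq_of_mem_adjoin_jq he
  obtain ⟨da, hdaM, hda⟩ := IsLocalization.integerNormalization_spec (nonZeroDivisors ℤ) a₀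
  obtain ⟨db, hdbM, hdb⟩ := IsLocalization.integerNormalization_spec (nonZeroDivisors ℤ) b₀
  set Ia := IsLocalization.integerNormalization (nonZeroDivisors ℤ) a₀
  set Ib := IsLocalization.integerNormalization (nonZeroDivisors ℤ) b₀
  have hda0 : da ≠ 0 := nonZeroDivisors.ne_zero hdaM
  have hdb0 : db ≠ 0 := nonZeroDivisors.ne_zero hdbM
  have hIa : aeval jq Ia = da • aeval jq a₀ := by
    rw [aeval_int_eq_aeval_map, ← algebraMap_int_eq, hda, map_zsmul]
  have hIb : aeval jq Ib = db • aeval jq b₀ := by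
    rw [aeval_int_eq_aeval_map, ← algebraMap_int_eq, hdb, map_zsmul]
  refine ⟨db • Ia, da • Ib, ?_, ?_⟩
  · intro h0
    have h1 : aeval jq (da • Ib) = 0 := by rw [h0, map_zero]
    rw [map_zsmul, hIb, smul_smul, zsmul_eq_mul] at h1
    have h2 : aeval jq b₀ ≠ 0 := fun h => hb₀ (aeval_jq_eq_zero_iff.mp h)
    have hcz : CharZero (LaurentSeries ℚ) := charZero_laurentSeries_rat
    rcases mul_eq_zero.mp h1 with h3 | h3
    · exact mul_ne_zero hda0 hdb0 (Int.cast_eq_zero.mp h3)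
    · exact h2 h3
  · rw [map_zsmul, map_zsmul, hIa, hIb, smul_smul, smul_smul, smul_mul_assoc, hab, mul_comm]

/-- A finite extension of `ℚ(jq)` inside `ℚ((q))` all of whose elements have degree `≤ n`
has degree `≤ n` (primitive element theorem). -/
theorem finrank_le_of_forall_exists_poly {n : ℕ}
    (L' : IntermediateField ℚ⟮jq⟯ (LaurentSeries ℚ)) [FiniteDimensional ℚ⟮jq⟯ L']
    (hdeg : ∀ θ ∈ L', ∃ q : (ℚ⟮jq⟯)[X], q ≠ 0 ∧ q.natDegree ≤ n ∧ aeval θ q = 0) :
    Module.finrank ℚ⟮jq⟯ L' ≤ n := by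
  have halg : Algebra.IsAlgebraic ℚ⟮jq⟯ L' := Algebra.IsAlgebraic.of_finite _ _
  have hsep : Algebra.IsSeparable ℚ⟮jq⟯ L' := Algebra.IsAlgebraic.isSeparable_of_perfectField
  obtain ⟨α, hα⟩ := Field.exists_primitive_element ℚ⟮jq⟯ L'
  have hfr := (Field.primitive_element_iff_minpoly_natDegree_eq ℚ⟮jq⟯ α).mp hα
  obtain ⟨q, hq0, hqn, hq⟩ := hdeg α α.2
  rw [← hfr, IntermediateField.minpoly_eq]
  exact (natDegree_le_of_dvd (minpoly.dvd _ _ hq) hq0).trans hqn

/-- Linear dependence over `ℚ(jq)` of `n + 1` elements of an extension of degree `≤ n`. -/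
theorem exists_dependence_of_finrank_le {n : ℕ}
    (L' : IntermediateField ℚ⟮jq⟯ (LaurentSeries ℚ)) [FiniteDimensional ℚ⟮jq⟯ L']
    (hle : Module.finrank ℚ⟮jq⟯ L' ≤ n) (v : Fin (n + 1) → LaurentSeries ℚ)
    (hv : ∀ i, v i ∈ L') :
    ∃ g : Fin (n + 1) → ℚ⟮jq⟯, (∃ i, g i ≠ 0) ∧ ∑ i, (g i : LaurentSeries ℚ) * v i = 0 := by
  let v' : Fin (n + 1) → L' := fun i => ⟨v i, hv i⟩
  have hnli : ¬ LinearIndependent ℚ⟮jq⟯ v' := fun hli => by
    have := hli.fintype_card_le_finrank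
    rw [Fintype.card_fin] at this
    omega
  obtain ⟨g, hg, i₀, hi₀⟩ := Fintype.not_linearIndependent_iff.mp hnli
  refine ⟨g, ⟨i₀, hi₀⟩, ?_⟩
  have := congrArg (fun z : L' => (z : LaurentSeries ℚ)) hg
  simpa [v', Algebra.smul_def] using this

/-- **The degree bridge.** If every element of the `ℚ`-algebra generated by `G ∋ jq` is a root
of a nonzero polynomial of `X`-degree `≤ n` over `ℚ[jq]`, then any `n + 1` elements of the field
generated by `G` are `ℤ[jq]`-linearly dependent. -/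
theorem deg_bridge {G : Set (LaurentSeries ℚ)} {n : ℕ} (hj : jq ∈ G) (h : BoundedDegree G n) :
    DegLE (IntermediateField.adjoin ℚ G) n := by
  intro v hv
  have hEL : ℚ⟮jq⟯ ≤ IntermediateField.adjoin ℚ G :=
    adjoin_le_iff.mpr (Set.singleton_subset_iff.mpr (subset_adjoin ℚ G hj))
  obtain ⟨L', hL'⟩ : ∃ L' : IntermediateField ℚ⟮jq⟯ (LaurentSeries ℚ),
      L' = IntermediateField.adjoin ℚ⟮jq⟯ (Set.range v) := ⟨_, rfl⟩
  have hL'L : ∀ θ ∈ L', θ ∈ IntermediateField.adjoin ℚ G := by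
    have hle : L' ≤ extendScalars hEL := by
      rw [hL']
      exact adjoin_le_iff.mpr (by rintro _ ⟨i, rfl⟩; exact hv i)
    exact fun θ hθ => hle hθ
  have hint : ∀ x ∈ Set.range v, IsIntegral ℚ⟮jq⟯ x := by
    rintro _ ⟨i, rfl⟩
    obtain ⟨q, hq0, -, hq⟩ := exists_poly_of_mem_field hj h (hv i)
    exact isAlgebraic_iff_isIntegral.mp ⟨q, hq0, hq⟩
  have hfd : FiniteDimensional ℚ⟮jq⟯ L' := by
    rw [hL']
    exact finiteDimensional_adjoin hint
  have hle : Module.finrank ℚ⟮jq⟯ L' ≤ n :=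
    finrank_le_of_forall_exists_poly L' fun θ hθ => exists_poly_of_mem_field hj h (hL'L θ hθ)
  obtain ⟨g, ⟨i₀, hi₀⟩, hg'⟩ := exists_dependence_of_finrank_le L' hle v
    (fun i => by rw [hL']; exact subset_adjoin _ _ (Set.mem_range_self i))
  choose a b hb hab using fun i => exists_int_mul_eq_of_mem_adjoin_jq (g i).2
  have hbne : ∀ k, aeval jq (b k) ≠ 0 := fun k h0 => hb k (aeval_jq_int_eq_zero_iff.mp h0)
  have hc : ∀ i, aeval jq (a i * ∏ k ∈ Finset.univ.erase i, b k) =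
      (∏ k, aeval jq (b k)) * (g i : LaurentSeries ℚ) := by
    intro i
    rw [map_mul, map_prod, ← hab i, ← Finset.mul_prod_erase Finset.univ _ (Finset.mem_univ i)]
    ring
  refine ⟨fun i => a i * ∏ k ∈ Finset.univ.erase i, b k, ?_, ?_⟩
  · intro h0
    have h1 := hc i₀
    rw [show a i₀ * ∏ k ∈ Finset.univ.erase i₀, b k = 0 from congrFun h0 i₀, map_zero] at h1
    have hg0 : (g i₀ : LaurentSeries ℚ) ≠ 0 := fun h => hi₀ (Subtype.ext h)
    exact mul_ne_zero (Finset.prod_ne_zero_iff.mpr fun k _ => hbne k) hg0 h1.symm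
  · simp_rw [hc, mul_assoc, ← Finset.mul_sum, hg', mul_zero]

/-- Variant of the hypothesis with integer polynomials (in terms of Prelude's `evalAtJ`). -/
theorem boundedDegree_of_int {G : Set (LaurentSeries ℚ)} {n : ℕ}
    (h : ∀ x ∈ Algebra.adjoin ℚ G, ∃ p : Polynomial (Polynomial ℤ), p ≠ 0 ∧ p.natDegree ≤ n ∧
      p.eval₂ evalAtJ x = 0) : BoundedDegree G n := by
  intro x hx
  obtain ⟨p, hp0, hpn, hpx⟩ := h x hx
  have hinj : Function.Injective (mapRingHom (Int.castRingHom ℚ)) :=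
    Polynomial.map_injective _ (RingHom.injective_int _)
  refine ⟨p.map (mapRingHom (Int.castRingHom ℚ)), (Polynomial.map_ne_zero_iff hinj).mpr hp0,
    (natDegree_map_le).trans hpn, ?_⟩
  rw [eval₂_map, ← hpx]
  congr 1
  refine RingHom.ext fun s => ?_
  exact (aeval_int_eq_aeval_map jq s).symm

/-- The degree bridge for the field generated by `jq`, the `j(q^d)` (`d ∣ N`) and one more
element `w` (the shape used by the single-eta-quotient route); `G` is spelled out. -/
theorem deg_bridge_insert {N : ℕ} {n : ℕ} (w : LaurentSeries ℚ)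
    (h : BoundedDegree (insert jq (insert w (divisorExpansions N))) n) :
    DegLE (IntermediateField.adjoin ℚ (insert jq (insert w (divisorExpansions N)))) n ∧
      modularFunctionFieldFull N ≤
        IntermediateField.adjoin ℚ (insert jq (insert w (divisorExpansions N))) ∧
      w ∈ IntermediateField.adjoin ℚ (insert jq (insert w (divisorExpansions N))) :=
  ⟨deg_bridge (Set.mem_insert _ _) h,
    IntermediateField.adjoin.mono ℚ _ _
      (fun _ hx => Set.mem_insert_of_mem _ (Set.mem_insert_of_mem _ hx)),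
    subset_adjoin ℚ _ (Set.mem_insert_of_mem _ (Set.mem_insert _ _))⟩

end Bridge

end Fermat.Agent.S28.helper979
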