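import Mathlib
import Fermat.Agent.S28.helper695_LightSpec
import Fermat.Agent.S28.helper2968_CoarseIrred
import Fermat.Agent.S28.helper808_IntAdapter
import Fermat.Agent.S28.helper979_DegBridge
import Fermat.Agent.S28.helper695_LightConsequences

/-!
# S28 (Igusa): from an integral light factorisation to `Spec.Stmt_CoreInput` (helper1050)

Input (the conclusion of the integrality transfer of `helper695`): an integer series `u`,
`χZ ∈ ℤ[Y][X]` monic of degree `D`, `ΓZ ∈ ℤ⟦q⟧[X]` monic with `ΓZ ≡ X^(D-1)` mod `q` and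
`χZ(j, X) = (X - u) * ΓZ(X)` in `ℤ((q))[X]`.

* `linIndep_of_fac` : over any field `κ`, a factorisation of this shape with `χ(Y, 0) ≠ 0` makes
  `1, U, …, U^(D-1)` linearly independent over `κ[j]` (no hypothesis on the pole of `U`).
* `derivative_eval₂_ne_zero` : `χ'(j, U) ≠ 0`.
* `full_le_of_lagrange` : the Lagrange clause over `ℂ` gives `F ≤ ℚ(j, u)`.
* `stmt_CoreInput_of_intFac` : the assembly.
-/

set_option autoImplicit false

noncomputable section

namespace Fermat.Agent.S28.helper1050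

open ModularCurve Polynomial

/-- Evaluation of polynomials at the formal `j`-series (same as `helper695.evalJ`). -/
abbrev evJ (R : Type) [CommRing R] : Polynomial R →+* LaurentSeries R :=
  (Polynomial.aeval (jqModC R)).toRingHom

/-- The data of a light factorisation over a commutative ring `R`: `χ ∈ R[Y][X]` monic of degree
`D`, `Γ ∈ R⟦q⟧[X]` monic, `Γ ≡ X^(D-1)` mod `q`, and `χ(j, X) = (X - U) * Γ(X)` in `R((q))[X]`. -/
structure Fac {R : Type} [CommRing R] (U : LaurentSeries R) (D : ℕ) (χ : R[X][X])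
    (Γ : (PowerSeries R)[X]) : Prop where
  monic : χ.Monic
  natDegree : χ.natDegree = D
  gmonic : Γ.Monic
  gconst : Γ.map (PowerSeries.constantCoeff (R := R)) = X ^ (D - 1)
  fac : χ.map (evJ R) = (X - C U) * Γ.map (HahnSeries.ofPowerSeries ℤ R)

/-- Base change of a light factorisation. -/
theorem Fac.map {R S : Type} [CommRing R] [CommRing S] [Nontrivial S] (f : R →+* S)
    {U : LaurentSeries R} {D : ℕ} {χ : R[X][X]} {Γ : (PowerSeries R)[X]} (h : Fac U D χ Γ) :
    Fac (coeffMap f U) D (χ.map (Polynomial.mapRingHom f)) (Γ.map (PowerSeries.map f)) where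
  monic := h.monic.map _
  natDegree := (h.monic.natDegree_map _).trans h.natDegree
  gmonic := h.gmonic.map _
  gconst := by
    have hc : (PowerSeries.constantCoeff (R := S)).comp (PowerSeries.map f) =
        f.comp (PowerSeries.constantCoeff (R := R)) := by
      ext p
      simp only [RingHom.comp_apply]
      rw [← PowerSeries.coeff_zero_eq_constantCoeff_apply, PowerSeries.coeff_map,
        PowerSeries.coeff_zero_eq_constantCoeff_apply]
    rw [Polynomial.map_map, hc, ← Polynomial.map_map, h.gconst, Polynomial.map_pow,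
      Polynomial.map_X]
  fac := by
    have h2 : (coeffMap f).comp (HahnSeries.ofPowerSeries ℤ R) =
        (HahnSeries.ofPowerSeries ℤ S).comp (PowerSeries.map f) :=
      RingHom.ext fun p => coeffMap_ofPowerSeries f p
    have hL : (χ.map (evJ R)).map (coeffMap f) = (χ.map (Polynomial.mapRingHom f)).map (evJ S) := by
      rw [Polynomial.map_map, Polynomial.map_map, helper808.coeffMap_comp_aeval_jqModC]
    have hR : (Γ.map (HahnSeries.ofPowerSeries ℤ R)).map (coeffMap f) =
        (Γ.map (PowerSeries.map f)).map (HahnSeries.ofPowerSeries ℤ S) := by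
      rw [Polynomial.map_map, Polynomial.map_map, h2]
    rw [← hL, ← hR, h.fac, Polynomial.map_mul, Polynomial.map_sub, Polynomial.map_X,
      Polynomial.map_C]

/-- `U` is a root of `χ(j, X)`. -/
theorem Fac.root' {R : Type} [CommRing R] {U : LaurentSeries R} {D : ℕ} {χ : R[X][X]}
    {Γ : (PowerSeries R)[X]} (h : Fac U D χ Γ) : χ.eval₂ (evJ R) U = 0 := by
  rw [Polynomial.eval₂_eq_eval_map, h.fac, eval_mul, eval_sub, eval_X, eval_C, sub_self, zero_mul]

section Field

variable {κ : Type} [Field κ]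

lemma orderTop_ofPowerSeries_nonneg (p : PowerSeries κ) :
    (0 : WithTop ℤ) ≤ (HahnSeries.ofPowerSeries ℤ κ p).orderTop := by
  rw [HahnSeries.le_orderTop_iff_forall]
  intro j hj
  have hj' : j < 0 := by exact_mod_cast hj
  exact ofPowerSeries_coeff_of_neg p hj'

lemma orderTop_ofPowerSeries_pos {p : PowerSeries κ} (hp : PowerSeries.constantCoeff p = 0) :
    (0 : WithTop ℤ) < (HahnSeries.ofPowerSeries ℤ κ p).orderTop := by
  have h1 : ((1 : ℤ) : WithTop ℤ) ≤ (HahnSeries.ofPowerSeries ℤ κ p).orderTop := by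
    rw [HahnSeries.le_orderTop_iff_forall]
    intro j hj
    have hj' : j < 1 := by exact_mod_cast hj
    rcases lt_or_eq_of_le (show j ≤ 0 by omega) with h | h
    · exact ofPowerSeries_coeff_of_neg p h
    · subst h
      rw [show (0 : ℤ) = ((0 : ℕ) : ℤ) from rfl, HahnSeries.ofPowerSeries_apply_coeff,
        PowerSeries.coeff_zero_eq_constantCoeff, hp]
  refine lt_of_lt_of_le ?_ h1
  exact_mod_cast Int.zero_lt_one

lemma orderTop_evJ {c : κ[X]} (hc : c ≠ 0) :
    (evJ κ c).orderTop = ((-(c.natDegree : ℤ) : ℤ) : WithTop ℤ) := by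
  refine le_antisymm ?_ (helper2968.le_orderTop_aeval helper2968.isJLike_jqModC c)
  refine HahnSeries.orderTop_le_of_coeff_ne_zero ?_
  have := helper2968.coeff_aeval_neg_natDegree (κ := κ) helper2968.isJLike_jqModC c
  show (aeval (jqModC κ) c).coeff (-(c.natDegree : ℤ)) ≠ 0
  rw [this]
  exact leadingCoeff_ne_zero.mpr hc

variable {U : LaurentSeries κ} {D : ℕ} {χ : κ[X][X]} {Γ : (PowerSeries κ)[X]}

lemma Fac.gdeg (h : Fac U D χ Γ) : Γ.natDegree = D - 1 := by
  have h1 := h.gmonic.natDegree_map (PowerSeries.constantCoeff (R := κ))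
  rw [h.gconst, natDegree_X_pow] at h1
  exact h1.symm

lemma Fac.one_le (h : Fac U D χ Γ) : 1 ≤ D := by
  have h1 : (χ.map (evJ κ)).natDegree = D := by rw [h.monic.natDegree_map, h.natDegree]
  rw [h.fac, (monic_X_sub_C _).natDegree_mul (h.gmonic.map _), natDegree_X_sub_C] at h1
  omega

lemma Fac.coeff_zero (h : Fac U D χ Γ) :
    evJ κ (χ.coeff 0) = -(U * HahnSeries.ofPowerSeries ℤ κ (Γ.coeff 0)) := by
  have := congrArg (fun P => P.coeff 0) h.fac
  simpa only [coeff_map, sub_mul, coeff_sub, coeff_X_mul_zero, coeff_C_mul, zero_sub] using this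

lemma Fac.coeff_succ (h : Fac U D χ Γ) (k : ℕ) :
    evJ κ (χ.coeff (k + 1)) = HahnSeries.ofPowerSeries ℤ κ (Γ.coeff k) -
      U * HahnSeries.ofPowerSeries ℤ κ (Γ.coeff (k + 1)) := by
  have := congrArg (fun P => P.coeff (k + 1)) h.fac
  simpa only [coeff_map, sub_mul, coeff_sub, coeff_X_mul, coeff_C_mul] using this

lemma Fac.constantCoeff_coeff (h : Fac U D χ Γ) {k : ℕ} (hk : k ≠ D - 1) :
    PowerSeries.constantCoeff (Γ.coeff k) = 0 := by
  have := congrArg (fun P => P.coeff k) h.gconst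
  simp only [coeff_map, coeff_X_pow] at this
  rw [this, if_neg hk]

lemma Fac.coeff_top (h : Fac U D χ Γ) : Γ.coeff (D - 1) = 1 := by
  rw [← h.gdeg]
  exact h.gmonic.coeff_natDegree

lemma Fac.root (h : Fac U D χ Γ) : χ.eval₂ (evJ κ) U = 0 := by
  rw [Polynomial.eval₂_eq_eval_map, h.fac, eval_mul, eval_sub, eval_X, eval_C, sub_self, zero_mul]

/-- The pole order of `U`. -/
lemma Fac.exists_order (h : Fac U D χ Γ) (h0 : χ.coeff 0 ≠ 0) :
    ∃ P : ℕ, U.orderTop = ((-(P : ℤ) : ℤ) : WithTop ℤ) ∧ (2 ≤ D → 1 ≤ P) := by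
  have h1 := h.coeff_zero
  have h2 := orderTop_evJ h0
  rw [h1, HahnSeries.orderTop_neg, helper2968.orderTop_mul'] at h2
  have hU : U ≠ 0 := by
    rintro rfl
    rw [HahnSeries.orderTop_zero, top_add] at h2
    exact WithTop.coe_ne_top h2.symm
  obtain ⟨a, ha⟩ := WithTop.ne_top_iff_exists.mp (HahnSeries.orderTop_ne_top.mpr hU)
  have hg : HahnSeries.ofPowerSeries ℤ κ (Γ.coeff 0) ≠ 0 := by
    intro hg
    rw [hg, HahnSeries.orderTop_zero, add_top] at h2
    exact WithTop.coe_ne_top h2.symm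
  obtain ⟨b, hb⟩ := WithTop.ne_top_iff_exists.mp (HahnSeries.orderTop_ne_top.mpr hg)
  have hb0 : (0 : ℤ) ≤ b := by
    have := orderTop_ofPowerSeries_nonneg (Γ.coeff 0)
    rw [← hb] at this
    exact_mod_cast this
  rw [← ha, ← hb, ← WithTop.coe_add, WithTop.coe_eq_coe] at h2
  refine ⟨(-a).toNat, ?_, ?_⟩
  · rw [← ha]
    congr 1
    have : (0 : ℤ) ≤ -a := by omega
    rw [Int.toNat_of_nonneg this]
    ring
  · intro hD
    have hpos := orderTop_ofPowerSeries_pos (h.constantCoeff_coeff (k := 0) (by omega))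
    rw [← hb] at hpos
    have hb1 : (0 : ℤ) < b := by exact_mod_cast hpos
    omega

/-- **Linear independence** of `1, U, …, U^(D-1)` over `κ[j]` from a light factorisation. -/
theorem linIndep_of_fac (h : Fac U D χ Γ) (h0 : χ.coeff 0 ≠ 0) :
    ∀ c : Fin D → κ[X], ∑ i, aeval (jqModC κ) (c i) * U ^ (i : ℕ) = 0 → c = 0 := by
  obtain ⟨P, hP, hP1⟩ := h.exists_order h0
  have key := helper2968.coarse_irreducible_jqModC U χ h.monic P
    (HahnSeries.coeff_orderTop_ne hP)
    (fun m hm => HahnSeries.coeff_eq_zero_of_lt_orderTop (by rw [hP]; exact_mod_cast hm))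
    h.root ?_ h0
  · rw [h.natDegree] at key
    exact key
  · intro i hi
    rw [h.natDegree] at hi
    have hP1' := hP1 (by omega)
    by_contra hcon
    have hcon' : P ≤ (χ.coeff i).natDegree := not_lt.mp hcon
    have hne : χ.coeff i ≠ 0 := by
      rintro h'
      rw [h', natDegree_zero] at hcon'
      omega
    have hord := orderTop_evJ hne
    -- lower bound for the order
    have hlow : ((-(P : ℤ) : ℤ) : WithTop ℤ) < (evJ κ (χ.coeff i)).orderTop := by
      have hUg : ∀ k, k ≠ D - 1 → ((-(P : ℤ) : ℤ) : WithTop ℤ) <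
          (U * HahnSeries.ofPowerSeries ℤ κ (Γ.coeff k)).orderTop := by
        intro k hk
        rw [helper2968.orderTop_mul', hP]
        have hpos := orderTop_ofPowerSeries_pos (h.constantCoeff_coeff hk)
        rcases eq_or_ne (HahnSeries.ofPowerSeries ℤ κ (Γ.coeff k)).orderTop ⊤ with hb | hb
        swap
        · obtain ⟨b, hb⟩ := WithTop.ne_top_iff_exists.mp hb
          rw [← hb] at hpos ⊢
          rw [← WithTop.coe_add, WithTop.coe_lt_coe]
          have : (0 : ℤ) < b := by exact_mod_cast hpos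
          omega
        · rw [hb, add_top]
          exact WithTop.coe_lt_top _
      rcases Nat.eq_zero_or_pos i with rfl | hipos
      · rw [h.coeff_zero, HahnSeries.orderTop_neg]
        exact hUg 0 (by omega)
      · obtain ⟨k, rfl⟩ : ∃ k, i = k + 1 := ⟨i - 1, by omega⟩
        rw [h.coeff_succ]
        refine lt_of_lt_of_le (lt_min ?_ (hUg (k + 1) (by omega)))
          HahnSeries.min_orderTop_le_orderTop_sub
        refine lt_of_le_of_lt ?_ (orderTop_ofPowerSeries_pos (h.constantCoeff_coeff (k := k)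
          (by omega)))
        have : -(P : ℤ) ≤ 0 := by omega
        exact_mod_cast this
    rw [hord, WithTop.coe_lt_coe] at hlow
    omega

/-- `χ'(j, U) ≠ 0`: the root `U` of `χ(j, X)` is simple. -/
theorem derivative_eval₂_ne_zero (h : Fac U D χ Γ) (h0 : χ.coeff 0 ≠ 0) :
    (derivative χ).eval₂ (evJ κ) U ≠ 0 := by
  obtain ⟨P, hP, -⟩ := h.exists_order h0
  have hD := h.one_le
  have e1 : (derivative χ).eval₂ (evJ κ) U =
      (Γ.map (HahnSeries.ofPowerSeries ℤ κ)).eval U := by
    rw [Polynomial.eval₂_eq_eval_map, ← Polynomial.derivative_map, h.fac, derivative_mul,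
      derivative_sub, derivative_X, derivative_C, sub_zero, one_mul, eval_add, eval_mul, eval_sub,
      eval_X, eval_C, sub_self, zero_mul, add_zero]
  rw [e1]
  set G := Γ.map (HahnSeries.ofPowerSeries ℤ κ) with hG
  have hGdeg : G.natDegree = D - 1 := by rw [hG, h.gmonic.natDegree_map, h.gdeg]
  rw [Polynomial.eval_eq_sum_range, hGdeg, Finset.sum_range_succ]
  have htopc : G.coeff (D - 1) = 1 := by rw [hG, coeff_map, h.coeff_top, map_one]
  rw [htopc, one_mul]
  set v := HahnSeries.addVal ℤ κ with hv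
  have hvU : ∀ k : ℕ, v (U ^ k) = ((-((k * P : ℕ) : ℤ) : ℤ) : WithTop ℤ) := by
    intro k
    rw [AddValuation.map_pow, hv, HahnSeries.addVal_apply, hP, ← WithTop.coe_nsmul]
    congr 1
    simp
  have hlow : ((-(((D - 1) * P : ℕ) : ℤ) : ℤ) : WithTop ℤ) <
      v (∑ k ∈ Finset.range (D - 1), G.coeff k * U ^ k) := by
    refine AddValuation.map_lt_sum v WithTop.coe_ne_top ?_
    intro k hk
    have hk' := Finset.mem_range.mp hk
    rw [AddValuation.map_mul, hvU]
    have hpos : (0 : WithTop ℤ) < v (G.coeff k) := by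
      rw [hG, coeff_map, hv, HahnSeries.addVal_apply]
      exact orderTop_ofPowerSeries_pos (h.constantCoeff_coeff (by omega))
    rcases eq_or_ne (v (G.coeff k)) ⊤ with hb | hb
    · rw [hb, top_add]
      exact WithTop.coe_lt_top _
    · obtain ⟨b, hb⟩ := WithTop.ne_top_iff_exists.mp hb
      rw [← hb] at hpos ⊢
      rw [← WithTop.coe_add, WithTop.coe_lt_coe]
      have hb0 : (0 : ℤ) < b := by exact_mod_cast hpos
      have h3 : k * P ≤ (D - 1) * P := Nat.mul_le_mul_right P (by omega)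
      have h3' : ((k * P : ℕ) : ℤ) ≤ (((D - 1) * P : ℕ) : ℤ) := by exact_mod_cast h3
      omega
  intro hzero
  have htop := hvU (D - 1)
  have := AddValuation.map_add_eq_of_lt_right v (x := ∑ k ∈ Finset.range (D - 1), G.coeff k * U ^ k)
    (y := U ^ (D - 1)) (by rw [htop]; exact hlow)
  rw [hzero, AddValuation.map_zero, htop] at this
  exact WithTop.coe_ne_top this.symm

end Field

/-! ## Descent `ℂ → ℚ` by a `ℚ`-linear retraction and the Lagrange clause -/

section Descent

/-- Coefficientwise application of a `ℚ`-linear map `ℂ → ℚ`. -/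
def mapCoeff (π : ℂ →ₗ[ℚ] ℚ) : LaurentSeries ℂ →+ LaurentSeries ℚ where
  toFun x := x.map π
  map_zero' := by
    ext k
    simp
  map_add' x y := by
    ext k
    simp

lemma mapCoeff_coeff (π : ℂ →ₗ[ℚ] ℚ) (x : LaurentSeries ℂ) (k : ℤ) :
    (mapCoeff π x).coeff k = π (x.coeff k) := rfl

lemma mapCoeff_single_mul (π : ℂ →ₗ[ℚ] ℚ) (c : ℂ) (a : LaurentSeries ℚ) :
    mapCoeff π (HahnSeries.single 0 c * coeffMap (algebraMap ℚ ℂ) a) =
      HahnSeries.single 0 (π c) * a := by
  ext k
  rw [mapCoeff_coeff, HahnSeries.coeff_single_mul, HahnSeries.coeff_single_mul, sub_zero,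
    coeffMap_coeff]
  have : c * algebraMap ℚ ℂ (a.coeff k) = (a.coeff k) • c := by
    rw [Algebra.smul_def, mul_comm]
  rw [this, map_smul, smul_eq_mul, mul_comm]

lemma mapCoeff_coeffMap (π : ℂ →ₗ[ℚ] ℚ) (hπ : ∀ r : ℚ, π (algebraMap ℚ ℂ r) = r)
    (x : LaurentSeries ℚ) : mapCoeff π (coeffMap (algebraMap ℚ ℂ) x) = x := by
  ext k
  rw [mapCoeff_coeff, coeffMap_coeff, hπ]

lemma exists_retraction : ∃ π : ℂ →ₗ[ℚ] ℚ, ∀ r : ℚ, π (algebraMap ℚ ℂ r) = r := by
  obtain ⟨g, hg⟩ := LinearMap.exists_leftInverse_of_injective (Algebra.linearMap ℚ ℂ)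
    (LinearMap.ker_eq_bot.mpr (algebraMap ℚ ℂ).injective)
  refine ⟨g, fun r => ?_⟩
  have := congrArg (fun f => f r) hg
  simpa using this

end Descent

section Lagrange

open Fermat.Agent.S28.Spec

lemma castR_eq (u : LaurentSeries ℤ) :
    helper695.castR ℂ u = coeffMap (algebraMap ℚ ℂ) (toQ u) := by
  rw [show toQ u = coeffMap (Int.castRingHom ℚ) u from rfl, coeffMap_coeffMap]
  exact coeffMap_congr (RingHom.ext_int _ _) u

lemma eval₂_mem_adjoin (u : LaurentSeries ℤ) (P : ℚ[X][X]) :
    P.eval₂ (evJ ℚ) (toQ u) ∈ IntermediateField.adjoin ℚ {jq, toQ u} := by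
  set L := IntermediateField.adjoin ℚ {jq, toQ u} with hL
  have hj : jq ∈ L := IntermediateField.subset_adjoin ℚ _ (Set.mem_insert _ _)
  have hu : toQ u ∈ L :=
    IntermediateField.subset_adjoin ℚ _ (Set.mem_insert_of_mem _ (Set.mem_singleton _))
  rw [Polynomial.eval₂_eq_sum_range]
  refine sum_mem fun i _ => L.mul_mem ?_ (pow_mem hu i)
  show aeval (jqModC ℚ) (P.coeff i) ∈ L
  rw [Polynomial.aeval_eq_sum_range]
  refine sum_mem fun k _ => ?_
  rw [Algebra.smul_def]
  exact L.mul_mem (L.algebraMap_mem _) (pow_mem hj k)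

/-- **H4**: the Lagrange clause (over `ℂ`) gives `F ≤ ℚ(j, u)`. -/
theorem full_le_of_lagrange (N : ℕ) (u : LaurentSeries ℤ) (D : ℕ) (χZ : ℤ[X][X])
    (ΓZ : (PowerSeries ℤ)[X]) (h : Fac u D χZ ΓZ) (h0 : χZ.coeff 0 ≠ 0)
    (hLag : ∀ d : ℕ, d ∣ N → ∀ _ : NeZero d, ∃ G : Polynomial (Polynomial ℂ),
      G.eval₂ (helper695.evalJ ℂ) (helper695.castR ℂ u) =
        qExpand ℂ d (jqModC ℂ) *
          (Polynomial.derivative (χZ.map (Polynomial.mapRingHom (Int.castRingHom ℂ)))).eval₂
            (helper695.evalJ ℂ) (helper695.castR ℂ u)) :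
    modularFunctionFieldFull N ≤ IntermediateField.adjoin ℚ {jq, toQ u} := by
  set L := IntermediateField.adjoin ℚ {jq, toQ u} with hL
  have hj : jq ∈ L := IntermediateField.subset_adjoin ℚ _ (Set.mem_insert _ _)
  have hu : toQ u ∈ L :=
    IntermediateField.subset_adjoin ℚ _ (Set.mem_insert_of_mem _ (Set.mem_singleton _))
  have hQ := h.map (Int.castRingHom ℚ)
  set χQ : ℚ[X][X] := χZ.map (Polynomial.mapRingHom (Int.castRingHom ℚ)) with hχQ
  have h0Q : χQ.coeff 0 ≠ 0 := by
    rw [hχQ, coeff_map, coe_mapRingHom]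
    intro h'
    exact h0 (Polynomial.map_injective _ Int.cast_injective (by rw [h', Polynomial.map_zero]))
  set y : LaurentSeries ℚ := (derivative χQ).eval₂ (evJ ℚ) (toQ u) with hy
  have hy0 : y ≠ 0 := derivative_eval₂_ne_zero hQ h0Q
  have hyL : y ∈ L := eval₂_mem_adjoin u _
  rw [modularFunctionFieldFull, IntermediateField.adjoin_le_iff]
  rintro x ⟨d, hne, hdvd, rfl⟩
  obtain ⟨G, hG⟩ := hLag d hdvd hne
  obtain ⟨π, hπ⟩ := exists_retraction
  -- the right-hand side comes from `ℚ((q))`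
  have hχC : χQ.map (Polynomial.mapRingHom (algebraMap ℚ ℂ)) =
      χZ.map (Polynomial.mapRingHom (Int.castRingHom ℂ)) := by
    rw [hχQ, Polynomial.map_map]
    congr 1
    refine RingHom.ext fun p => ?_
    simp only [RingHom.comp_apply, coe_mapRingHom]
    rw [Polynomial.map_map]
    congr 1
  have hR : qExpand ℂ d (jqModC ℂ) *
      (Polynomial.derivative (χZ.map (Polynomial.mapRingHom (Int.castRingHom ℂ)))).eval₂
        (helper695.evalJ ℂ) (helper695.castR ℂ u) =
      coeffMap (algebraMap ℚ ℂ) (qExpand ℚ d jq * y) := by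
    rw [← hχC, map_mul, coeffMap_qExpand, ← jqModC_rat, coeffMap_jqModC, hy,
      helper808.coeffMap_eval₂_aeval_jqModC, ← castR_eq, Polynomial.derivative_map]
  -- the left-hand side is mapped into `L` by the retraction
  have hLsum : mapCoeff π (G.eval₂ (helper695.evalJ ℂ) (helper695.castR ℂ u)) ∈ L := by
    rw [Polynomial.eval₂_eq_sum_range, map_sum]
    refine sum_mem fun i _ => ?_
    rw [show helper695.evalJ ℂ (G.coeff i) = aeval (jqModC ℂ) (G.coeff i) from rfl,
      Polynomial.aeval_eq_sum_range, Finset.sum_mul, map_sum]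
    refine sum_mem fun k _ => ?_
    have e : jqModC ℂ ^ k * helper695.castR ℂ u ^ i =
        coeffMap (algebraMap ℚ ℂ) (jq ^ k * toQ u ^ i) := by
      rw [map_mul, map_pow, map_pow, ← jqModC_rat, coeffMap_jqModC, ← castR_eq]
    rw [Algebra.smul_def, algebraMap_laurentSeries_eq_single, mul_assoc, e, mapCoeff_single_mul,
      ← algebraMap_laurentSeries_eq_single]
    exact L.mul_mem (L.algebraMap_mem _) (L.mul_mem (pow_mem hj k) (pow_mem hu i))
  rw [hG, hR, mapCoeff_coeffMap π hπ] at hLsum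
  have e2 : qExpand ℚ d jq = (qExpand ℚ d jq * y) * y⁻¹ := by
    rw [mul_assoc, mul_inv_cancel₀ hy0, mul_one]
  rw [e2]
  exact L.mul_mem hLsum (L.inv_mem hyL)

end Lagrange

/-! ## The degree bound `[ℚ(j, w) : ℚ(j)] ≤ D` in the `BoundedDegree` form of `helper979` -/

section Degree

/-- A polynomial, regarded as an element of the synonym `helper2968.Src J` (which acts on Laurent
series through `Y ↦ J`). -/
def toSrc (J : LaurentSeries ℚ) (r : ℚ[X]) : helper2968.Src J := r

lemma toSrc_smul (J : LaurentSeries ℚ) (r : ℚ[X]) (y : LaurentSeries ℚ) :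
    toSrc J r • y = aeval J r * y := by
  rw [Algebra.smul_def]
  rfl

/-- If `w` is a root of a monic polynomial of degree `D` over `ℚ[j]`, every element of the
`ℚ`-algebra generated by `j` and `w` is a root of a nonzero polynomial of degree `≤ D`
over `ℚ[j]`. -/
theorem boundedDegree_pair (w : LaurentSeries ℚ) (D : ℕ) (hD : 1 ≤ D) (χ : ℚ[X][X])
    (hχ : χ.Monic) (hdeg : χ.natDegree = D) (hroot : χ.eval₂ (evJ ℚ) w = 0) :
    helper979.BoundedDegree {jq, w} D := by
  classical
  intro x hx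
  set J : LaurentSeries ℚ := jqModC ℚ with hJ
  let gen : Fin D → LaurentSeries ℚ := fun i => w ^ (i : ℕ)
  let M : Submodule (helper2968.Src J) (LaurentSeries ℚ) := Submodule.span _ (Set.range gen)
  have hgen : ∀ k, k < D → w ^ k ∈ M := fun k hk =>
    Submodule.subset_span ⟨⟨k, hk⟩, rfl⟩
  have hsmul : ∀ (r : ℚ[X]) (y : LaurentSeries ℚ), y ∈ M → aeval J r * y ∈ M := by
    intro r y hy
    rw [← toSrc_smul]
    exact M.smul_mem _ hy
  -- `w ^ D ∈ M`
  have hwD : w ^ D ∈ M := by
    have h1 := hroot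
    rw [Polynomial.eval₂_eq_sum_range, hdeg, Finset.sum_range_succ, ← hdeg, hχ.coeff_natDegree,
      map_one, one_mul, hdeg] at h1
    have h2 : w ^ D = -∑ k ∈ Finset.range D, evJ ℚ (χ.coeff k) * w ^ k :=
      eq_neg_of_add_eq_zero_right h1
    rw [h2]
    refine M.neg_mem (M.sum_mem fun k hk => ?_)
    exact hsmul _ _ (hgen k (Finset.mem_range.mp hk))
  -- `M` is stable under multiplication by `w`
  have hwM : ∀ y ∈ M, w * y ∈ M := by
    intro y hy
    induction hy using Submodule.span_induction with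
    | mem y hy =>
      obtain ⟨i, rfl⟩ := hy
      show w * w ^ (i : ℕ) ∈ M
      rw [← pow_succ']
      rcases Nat.lt_or_ge ((i : ℕ) + 1) D with h | h
      · exact hgen _ h
      · have : (i : ℕ) + 1 = D := le_antisymm (Nat.succ_le_of_lt i.2) h
        rw [this]
        exact hwD
    | zero => rw [mul_zero]; exact M.zero_mem
    | add y z _ _ hy hz => rw [mul_add]; exact M.add_mem hy hz
    | smul r y _ hy => rw [mul_smul_comm]; exact M.smul_mem _ hy
  -- `M` is stable under multiplication by the algebra generated by `j` and `w`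
  have hAM : ∀ a ∈ Algebra.adjoin ℚ ({jq, w} : Set (LaurentSeries ℚ)), ∀ y ∈ M, a * y ∈ M := by
    intro a ha
    induction ha using Algebra.adjoin_induction with
    | mem a ha =>
      rcases ha with rfl | ha
      · intro y hy
        have := hsmul X y hy
        rwa [aeval_X] at this
      · rw [Set.mem_singleton_iff] at ha
        subst ha
        exact hwM
    | algebraMap r =>
      intro y hy
      have := hsmul (C r) y hy
      rwa [aeval_C] at this
    | add a b _ _ ha hb =>
      intro y hy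
      rw [add_mul]
      exact M.add_mem (ha y hy) (hb y hy)
    | mul a b _ _ ha hb =>
      intro y hy
      rw [mul_assoc]
      exact ha _ (hb y hy)
  have h1M : (1 : LaurentSeries ℚ) ∈ M := by
    have := hgen 0 (by omega)
    rwa [pow_zero] at this
  have hpow : ∀ i : ℕ, x ^ i ∈ M := by
    intro i
    have := hAM (x ^ i) (Subalgebra.pow_mem _ hx i) 1 h1M
    rwa [mul_one] at this
  -- linear dependence of `1, x, …, x ^ D`
  have hnli : ¬ LinearIndependent (helper2968.Src J) (fun i : Fin (D + 1) => x ^ (i : ℕ)) := by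
    intro hli
    have hle := linearIndependent_le_span_aux' _ hli (Set.range gen) (by
      rintro _ ⟨i, rfl⟩
      exact hpow i)
    have hcard : Fintype.card (Set.range gen) ≤ D := by
      have := Fintype.card_range_le gen
      rwa [Fintype.card_fin] at this
    rw [Fintype.card_fin] at hle
    omega
  obtain ⟨g, hg, i₀, hi₀⟩ := Fintype.not_linearIndependent_iff.mp hnli
  let g' : Fin (D + 1) → ℚ[X] := g
  refine ⟨∑ i : Fin (D + 1), monomial (i : ℕ) (g' i), ?_, ?_, ?_⟩
  · intro h0
    have := congrArg (fun q => q.coeff (i₀ : ℕ)) h0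
    simp only [finsetSum_coeff, coeff_monomial, coeff_zero] at this
    rw [Finset.sum_eq_single i₀ (fun b _ hb => if_neg (fun h => hb (Fin.ext h)))
      (fun h => absurd (Finset.mem_univ _) h), if_pos rfl] at this
    exact hi₀ this
  · refine Polynomial.natDegree_sum_le_of_forall_le _ _ fun i _ => ?_
    exact (natDegree_monomial_le _).trans (Nat.lt_succ_iff.mp i.2)
  · rw [Polynomial.eval₂_finsetSum, ← hg]
    refine Finset.sum_congr rfl fun i _ => ?_
    rw [eval₂_monomial]
    exact (toSrc_smul J (g' i) (x ^ (i : ℕ))).symm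

end Degree

/-! ## Assembly -/

section Assembly

open Fermat.Agent.S28.Spec

/-- **The formal half of the light route, from an integral factorisation.**
`u ∈ ℤ((q))`, `χZ ∈ ℤ[Y][X]` monic of degree `D`, `ΓZ ∈ ℤ⟦q⟧[X]` monic with `ΓZ ≡ X^(D-1)` mod `q`,
`χZ(j, X) = (X - u) * ΓZ(X)`, the constant coefficient `χZ(Y, 0)` nonzero mod `ℓ`, and the
Lagrange clause (L3) of `helper695.Stmt_ModDataLight` give `Spec.Stmt_CoreInput N ℓ`
(with `L = ℚ(j, u)`, `n = D`, `b i = u ^ i`). -/
theorem stmt_CoreInput_of_intFac (N ℓ : ℕ) [Fact ℓ.Prime] (u : LaurentSeries ℤ) (D : ℕ)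
    (χZ : ℤ[X][X]) (ΓZ : (PowerSeries ℤ)[X]) (h : Fac u D χZ ΓZ)
    (h0 : (χZ.coeff 0).map (Int.castRingHom (ZMod ℓ)) ≠ 0)
    (hLag : ∀ d : ℕ, d ∣ N → ∀ _ : NeZero d, ∃ G : Polynomial (Polynomial ℂ),
      G.eval₂ (helper695.evalJ ℂ) (helper695.castR ℂ u) =
        qExpand ℂ d (jqModC ℂ) *
          (Polynomial.derivative (χZ.map (Polynomial.mapRingHom (Int.castRingHom ℂ)))).eval₂
            (helper695.evalJ ℂ) (helper695.castR ℂ u)) :
    Stmt_CoreInput N ℓ := by
  have h0Z : χZ.coeff 0 ≠ 0 := fun h' => h0 (by rw [h', Polynomial.map_zero])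
  have hQ := h.map (Int.castRingHom ℚ)
  refine helper808.stmt_CoreInput_of_powers D (IntermediateField.adjoin ℚ {jq, toQ u}) u 1
    ?_ (full_le_of_lagrange N u D χZ ΓZ h h0Z hLag)
    (IntermediateField.subset_adjoin ℚ _ (Set.mem_insert_of_mem _ (Set.mem_singleton _)))
    ?_ ?_ ?_
  · intro hd
    have h1 := Int.le_of_dvd one_pos hd
    have h2 := (Fact.out : ℓ.Prime).two_le
    omega
  · rw [Int.cast_one, one_mul]
    exact ⟨χZ, h.monic, h.root'⟩
  · exact helper979.deg_bridge (Set.mem_insert _ _)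
      (boundedDegree_pair (toQ u) D hQ.one_le _ hQ.monic hQ.natDegree hQ.root)
  · intro c hc
    have hF := h.map (Int.castRingHom (ZMod ℓ))
    refine linIndep_of_fac hF ?_ c ?_
    · rw [coeff_map, coe_mapRingHom]
      exact h0
    · rw [← hc]
      refine Finset.sum_congr rfl fun i _ => ?_
      show _ = _ * toFl ℓ (u ^ (i : ℕ))
      rw [map_pow]

/-- **The formal half of the light route**: the light modular data of `helper695` imply the
modular input `Spec.Stmt_CoreInput N ℓ` of the algebra core, for every prime `ℓ ∤ N`. -/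
theorem stmt_CoreInput_of_light (N ℓ : ℕ) [Fact ℓ.Prime] (hℓN : ¬ ℓ ∣ N) (u : LaurentSeries ℤ)
    (D : ℕ) (h : helper695.Stmt_ModDataLight N u D) : Stmt_CoreInput N ℓ := by
  obtain ⟨χZ, ΓZ, hχZm, hχZd, hΓZm, hΓZ0, hfacZ, -, -, hprime, hLag⟩ :=
    helper695.exists_intPackage h
  refine stmt_CoreInput_of_intFac N ℓ u D χZ ΓZ ⟨hχZm, hχZd, hΓZm, hΓZ0, hfacZ⟩ ?_ hLag
  intro h0
  have h1 := congrArg (fun P => P.coeff (χZ.coeff 0).natDegree) h0
  have h2 : (((χZ.coeff 0).leadingCoeff : ℤ) : ZMod ℓ) = 0 := by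
    simpa [coeff_map] using h1
  exact hℓN (hprime ℓ Fact.out ((ZMod.intCast_zmod_eq_zero_iff_dvd _ ℓ).mp h2))

/-- The same for the existential form delivered by the analytic half. -/
theorem stmt_CoreInput_of_exists_light (N ℓ : ℕ) [Fact ℓ.Prime] (hℓN : ¬ ℓ ∣ N)
    (h : ∃ (u : LaurentSeries ℤ) (D : ℕ), helper695.Stmt_ModDataLight N u D) :
    Stmt_CoreInput N ℓ := by
  obtain ⟨u, D, hu⟩ := h
  exact stmt_CoreInput_of_light N ℓ hℓN u D hu

end Assembly

end Fermat.Agent.S28.helper1050

end
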