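import Mathlib

/-!
# Hermite form and the `Δ`-quotient at all cusps

For `δ ≥ 1` and `γ ∈ SL(2,ℤ)` the matrix `diag(δ,1) * γ` factors as `γ' * [[a,b],[0,e]]` with
`γ' ∈ SL(2,ℤ)`, `a = gcd(δ, γ₁₀)`, `a * e = δ`, `0 ≤ b < e`.  Consequently, for every
`SL(2,ℤ)`-invariant function `F` one has `F(δ·γτ) = F((aτ+b)/e)`, and for the discriminant
`Δ(δ·γτ) / Δ(γτ) = e⁻¹² · Δ((aτ+b)/e) / Δ(τ)`.
-/

set_option autoImplicit false

namespace Fermat.Agent.S28.helper1178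

open UpperHalfPlane ModularForm MatrixGroups Filter Asymptotics
open scoped Topology

local notation "Δ" => ModularForm.discriminant

/-- Integer Hermite form of `diag(δ,1) * γ`: there are integers `p q r s` with `p s - q r = 1`
and naturals `a b e` with `a = gcd(δ, c)`, `a e = δ`, `b < e` such that
`[[δα, δβ],[c, d]] = [[p,q],[r,s]] * [[a,b],[0,e]]`. -/
theorem exists_hermite_int (δ : ℕ) (hδ : 0 < δ) (α β c d : ℤ) (hdet : α * d - β * c = 1) :
    ∃ (p q r s : ℤ) (a b e : ℕ), p * s - q * r = 1 ∧ a = Nat.gcd δ c.natAbs ∧ a * e = δ ∧ b < e ∧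
      (δ : ℤ) * α = p * a ∧ (δ : ℤ) * β = p * b + q * e ∧ c = r * a ∧ d = r * b + s * e := by
  set a : ℕ := Nat.gcd δ c.natAbs with ha
  have ha_pos : 0 < a := Nat.gcd_pos_of_pos_left _ hδ
  obtain ⟨e, he⟩ : a ∣ δ := Nat.gcd_dvd_left _ _
  have he_pos : 0 < e := by
    rcases Nat.eq_zero_or_pos e with h | h
    · rw [h, mul_zero] at he; omega
    · exact h
  have hac : (a : ℤ) ∣ c := by
    have : a ∣ c.natAbs := Nat.gcd_dvd_right _ _
    exact Int.natCast_dvd.mpr this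
  obtain ⟨r, hr⟩ := hac
  -- coprimality of `e` and `r`
  have hcop_er : IsCoprime (e : ℤ) r := by
    rw [Int.isCoprime_iff_gcd_eq_one]
    have h1 : Nat.gcd δ c.natAbs = a := ha.symm
    have h2 : c.natAbs = a * r.natAbs := by rw [hr, Int.natAbs_mul, Int.natAbs_natCast]
    rw [he, h2, Nat.gcd_mul_left] at h1
    have h3 : Nat.gcd e r.natAbs = 1 := by
      have := Nat.eq_of_mul_eq_mul_left ha_pos (h1.trans (mul_one a).symm)
      exact this
    simpa [Int.gcd] using h3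
  have hcop_αr : IsCoprime α r := ⟨d, -(β * a), by rw [hr] at hdet; linear_combination hdet⟩
  have hcop : IsCoprime ((e : ℤ) * α) r := IsCoprime.mul_left hcop_er hcop_αr
  obtain ⟨x, y, hxy⟩ := hcop
  -- `b₀ = x δ β + y d`, reduce modulo `e`
  set b₀ : ℤ := x * δ * β + y * d with hb₀
  have heZ : (0 : ℤ) < e := by exact_mod_cast he_pos
  set k : ℤ := b₀ / e with hk
  set b : ℤ := b₀ % e with hb
  have hb_nonneg : 0 ≤ b := Int.emod_nonneg _ heZ.ne'
  have hb_lt : b < e := Int.emod_lt_of_pos _ heZ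
  have hb₀_eq : b₀ = e * k + b := (Int.mul_ediv_add_emod b₀ e).symm
  have hδZ : (δ : ℤ) = a * e := by exact_mod_cast he
  refine ⟨e * α, e * α * k - y, r, r * k + x, a, b.toNat, e, ?_, rfl, he.symm, ?_, ?_, ?_, ?_, ?_⟩
  · linear_combination hxy
  · have : (b.toNat : ℤ) < e := by rw [Int.toNat_of_nonneg hb_nonneg]; exact hb_lt
    exact_mod_cast this
  · rw [hδZ]; ring
  · rw [Int.toNat_of_nonneg hb_nonneg]
    have h1 : b = b₀ - e * k := by linarith
    rw [h1, hb₀, hδZ]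
    linear_combination (-(a * e * β : ℤ)) * hxy - (y * e : ℤ) * hdet - (y * e * β : ℤ) * hr
  · rw [hr]; ring
  · rw [Int.toNat_of_nonneg hb_nonneg]
    have h1 : b = b₀ - e * k := by linarith
    rw [h1, hb₀, hδZ]
    linear_combination (-d) * hxy + (x * e : ℤ) * hdet + (x * e * β : ℤ) * hr

/-- Hermite form, as an identity of Möbius actions: for `δ ≥ 1` and `γ ∈ SL(2,ℤ)` there are
`γ' ∈ SL(2,ℤ)` and `a b e` with `a = gcd(δ, γ₁₀)`, `a e = δ`, `b < e` such that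
`δ · (γ τ) = γ' ((a τ + b)/e)` and `denom γ' ((a τ + b)/e) = denom γ τ / e`. -/
theorem exists_hermite_smul (δ : ℕ) (hδ : 0 < δ) (γ : SL(2, ℤ)) :
    ∃ (γ' : SL(2, ℤ)) (a b e : ℕ), a = Nat.gcd δ (γ 1 0).natAbs ∧ a * e = δ ∧ b < e ∧
      ∀ τ : ℍ, 0 < (((a : ℂ) * τ + b) / e).im ∧
        (δ : ℂ) * ↑(γ • τ) = ↑(γ' • ofComplex (((a : ℂ) * τ + b) / e)) ∧
        denom γ' (ofComplex (((a : ℂ) * τ + b) / e)) = denom γ τ / e := by
  have hdet : γ 0 0 * γ 1 1 - γ 0 1 * γ 1 0 = 1 := by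
    have := γ.det_coe
    rwa [Matrix.det_fin_two] at this
  obtain ⟨p, q, r, s, a, b, e, hpqrs, ha, hae, hbe, h1, h2, h3, h4⟩ :=
    exists_hermite_int δ hδ (γ 0 0) (γ 0 1) (γ 1 0) (γ 1 1) hdet
  have he_pos : 0 < e := by
    rcases Nat.eq_zero_or_pos e with h | h
    · rw [h, mul_zero] at hae; omega
    · exact h
  have ha_pos : 0 < a := by
    rcases Nat.eq_zero_or_pos a with h | h
    · rw [h, zero_mul] at hae; omega
    · exact h
  let γ' : SL(2, ℤ) := ⟨!![p, q; r, s], by rw [Matrix.det_fin_two_of]; exact hpqrs⟩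
  refine ⟨γ', a, b, e, ha, hae, hbe, fun τ => ?_⟩
  have heC : (e : ℂ) ≠ 0 := by exact_mod_cast he_pos.ne'
  have him : 0 < (((a : ℂ) * τ + b) / e).im := by
    rw [Complex.div_natCast_im]
    have : ((a : ℂ) * τ + b).im = a * τ.im := by simp
    rw [this]
    have h1 : (0 : ℝ) < a := by exact_mod_cast ha_pos
    have h2 : (0 : ℝ) < e := by exact_mod_cast he_pos
    exact div_pos (mul_pos h1 τ.im_pos) h2
  have hden : (γ 1 0 : ℂ) * τ + γ 1 1 ≠ 0 := by
    have := denom_ne_zero γ τ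
    rwa [ModularGroup.denom_apply] at this
  have h1C : (δ : ℂ) * (γ 0 0 : ℂ) = p * a := by exact_mod_cast h1
  have h2C : (δ : ℂ) * (γ 0 1 : ℂ) = p * b + q * e := by exact_mod_cast h2
  have h3C : (γ 1 0 : ℂ) = r * a := by exact_mod_cast h3
  have h4C : (γ 1 1 : ℂ) = r * b + s * e := by exact_mod_cast h4
  have hγ'10 : γ' 1 0 = r := rfl
  have hγ'11 : γ' 1 1 = s := rfl
  have hγ'00 : γ' 0 0 = p := rfl
  have hγ'01 : γ' 0 1 = q := rfl
  rw [ofComplex_apply_of_im_pos him]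
  have hd' : (r : ℂ) * (((a : ℂ) * τ + b) / e) + s = ((γ 1 0 : ℂ) * τ + γ 1 1) / e := by
    rw [h3C, h4C]; field_simp; ring
  refine ⟨him, ?_, ?_⟩
  · rw [coe_specialLinearGroup_apply, coe_specialLinearGroup_apply]
    simp only [eq_intCast, Complex.ofReal_intCast, hγ'00, hγ'01, hγ'10, hγ'11]
    rw [hd']
    have hn' : (p : ℂ) * (((a : ℂ) * τ + b) / e) + q
        = (δ : ℂ) * ((γ 0 0 : ℂ) * τ + γ 0 1) / e := by
      rw [mul_add, ← mul_assoc, h1C, h2C]; field_simp; ring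
    rw [hn']
    field_simp
  · rw [ModularGroup.denom_apply, ModularGroup.denom_apply, hγ'10, hγ'11]
    exact hd'

/-! ### The affine maps `τ ↦ (a τ + b)/e` -/

/-- The affine map `τ ↦ (a τ + b)/e` on the upper half plane. -/
noncomputable def affMap (a b e : ℕ) (τ : ℍ) : ℍ := ofComplex (((a : ℂ) * τ + b) / e)

lemma affMap_im_pos_aux (a b e : ℕ) (ha : 0 < a) (he : 0 < e) (τ : ℍ) :
    0 < (((a : ℂ) * τ + b) / e).im := by
  rw [Complex.div_natCast_im]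
  have : ((a : ℂ) * τ + b).im = a * τ.im := by simp
  rw [this]
  have h1 : (0 : ℝ) < a := by exact_mod_cast ha
  have h2 : (0 : ℝ) < e := by exact_mod_cast he
  exact div_pos (mul_pos h1 τ.im_pos) h2

lemma coe_affMap (a b e : ℕ) (ha : 0 < a) (he : 0 < e) (τ : ℍ) :
    (affMap a b e τ : ℂ) = ((a : ℂ) * τ + b) / e := by
  rw [affMap, ofComplex_apply_of_im_pos (affMap_im_pos_aux a b e ha he τ)]

lemma affMap_im (a b e : ℕ) (ha : 0 < a) (he : 0 < e) (τ : ℍ) :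
    (affMap a b e τ).im = a * τ.im / e := by
  have h : (affMap a b e τ).im = (affMap a b e τ : ℂ).im := rfl
  rw [h, coe_affMap a b e ha he, Complex.div_natCast_im]
  simp

lemma tendsto_affMap (a b e : ℕ) (ha : 0 < a) (he : 0 < e) :
    Tendsto (affMap a b e) atImInfty atImInfty := by
  rw [atImInfty, tendsto_comap_iff]
  have h1 : (0 : ℝ) < a := by exact_mod_cast ha
  have h2 : (0 : ℝ) < e := by exact_mod_cast he
  have h3 : Tendsto (fun τ : ℍ => (a / e : ℝ) * τ.im) (comap UpperHalfPlane.im atTop) atTop :=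
    Tendsto.const_mul_atTop (div_pos h1 h2) tendsto_comap
  refine h3.congr (fun τ => ?_)
  rw [Function.comp_apply, affMap_im a b e ha he]
  ring

/-- Invariant functions: `F(δ · γτ) = F((aτ+b)/e)`. -/
theorem exists_affMap_of_invariant (δ : ℕ) (hδ : 0 < δ) (γ : SL(2, ℤ)) :
    ∃ (a b e : ℕ), a = Nat.gcd δ (γ 1 0).natAbs ∧ a * e = δ ∧ b < e ∧
      ∀ {α : Type} (F : ℍ → α), (∀ (g : SL(2, ℤ)) (z : ℍ), F (g • z) = F z) →
        ∀ τ : ℍ, F (ofComplex ((δ : ℂ) * ↑(γ • τ))) = F (affMap a b e τ) := by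
  obtain ⟨γ', a, b, e, ha, hae, hbe, h⟩ := exists_hermite_smul δ hδ γ
  refine ⟨a, b, e, ha, hae, hbe, fun F hF τ => ?_⟩
  obtain ⟨_, h2, _⟩ := h τ
  rw [h2, ofComplex_apply, hF]
  rfl

/-- `Δ (γ • z) = (c z + d)^12 Δ z`. -/
lemma discriminant_smul (γ : SL(2, ℤ)) (z : ℍ) :
    Δ (γ • z) = denom γ z ^ 12 * Δ z := by
  have h0 : (Δ : ℍ → ℂ) ∣[(12 : ℤ)] γ = Δ :=
    CuspForm.discriminant.slash_action_eq' _ ⟨γ, rfl⟩
  have h := congrFun h0 z
  rw [ModularForm.SL_slash_apply] at h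
  have hd : denom γ z ≠ 0 := denom_ne_zero γ z
  have h12 : denom γ z ^ 12 * denom γ z ^ (-(12 : ℤ)) = 1 := by
    rw [← zpow_natCast, ← zpow_add₀ hd]; simp
  calc Δ (γ • z) = Δ (γ • z) * (denom γ z ^ 12 * denom γ z ^ (-(12 : ℤ))) := by rw [h12, mul_one]
    _ = denom γ z ^ 12 * (Δ (γ • z) * denom γ z ^ (-(12 : ℤ))) := by ring
    _ = denom γ z ^ 12 * Δ z := by rw [h]

/-- The analytic avatar of `Δ(q^δ)/Δ(q)`. -/
noncomputable def discQuot (δ : ℕ) (τ : ℍ) : ℂ := Δ (ofComplex ((δ : ℂ) * τ)) / Δ τ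

/-- **The `Δ`-quotient at all cusps**: for `γ ∈ SL(2,ℤ)`,
`Δ(δ·γτ)/Δ(γτ) = e⁻¹² · Δ((aτ+b)/e)/Δ(τ)` with `a = gcd(δ, γ₁₀)`, `a e = δ`, `b < e`. -/
theorem exists_discQuot_smul (δ : ℕ) (hδ : 0 < δ) (γ : SL(2, ℤ)) :
    ∃ (a b e : ℕ), a = Nat.gcd δ (γ 1 0).natAbs ∧ a * e = δ ∧ b < e ∧
      ∀ τ : ℍ, discQuot δ (γ • τ) = ((e : ℂ)⁻¹) ^ 12 * Δ (affMap a b e τ) / Δ τ := by
  obtain ⟨γ', a, b, e, ha, hae, hbe, h⟩ := exists_hermite_smul δ hδ γ
  refine ⟨a, b, e, ha, hae, hbe, fun τ => ?_⟩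
  obtain ⟨_, h2, h3⟩ := h τ
  have hd : denom γ τ ≠ 0 := denom_ne_zero γ τ
  rw [discQuot, h2, ofComplex_apply, discriminant_smul γ' _, h3, discriminant_smul γ τ, affMap]
  have hΔ : Δ τ ≠ 0 := discriminant_ne_zero τ
  field_simp

/-! ### Growth at the cusp -/

open Real in
/-- `Δ = O(exp(-2π Im τ))` at `i∞`. -/
lemma isBigO_discriminant_exp :
    (fun τ : ℍ => Δ τ) =O[atImInfty] (fun τ : ℍ => Real.exp (-2 * π * τ.im)) := by
  refine .of_bound 2 ?_
  have hprod := tendsto_atImInfty_tprod_one_sub_eta_q_pow.eventually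
    (Metric.ball_mem_nhds 1 (by norm_num : (0 : ℝ) < 1/2))
  filter_upwards [hprod] with τ hτ
  rw [discriminant_eq_q_prod, norm_mul, Real.norm_of_nonneg (Real.exp_pos _).le]
  have hq_norm : ‖Function.Periodic.qParam 1 τ‖ = Real.exp (-2 * π * τ.im) := by
    simp [Function.Periodic.qParam, Complex.norm_exp]
  rw [← hq_norm]
  have hprod_bound : ‖∏' n, (1 - eta_q n τ) ^ 24‖ ≤ 2 := by
    have hsub : ‖∏' n, (1 - eta_q n τ) ^ 24 - 1‖ < 1 / 2 := by rwa [Complex.dist_eq] at hτ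
    have h1 := norm_add_le (∏' n, (1 - eta_q n τ) ^ 24 - 1) 1
    rw [sub_add_cancel, norm_one] at h1
    linarith
  rw [mul_comm]
  exact mul_le_mul_of_nonneg_right hprod_bound (norm_nonneg _)

open Real in
/-- `Δ(τ)^m / Δ((aτ+b)/e)^k` is bounded at `i∞` as soon as `k a ≤ m e`. -/
theorem isBoundedAtImInfty_pow_div_pow_affMap (a b e m k : ℕ) (ha : 0 < a) (he : 0 < e)
    (hm : k * a ≤ m * e) :
    IsBoundedAtImInfty (fun τ : ℍ => Δ τ ^ m / Δ (affMap a b e τ) ^ k) := by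
  have h1 : (fun τ : ℍ => Δ τ ^ m) =O[atImInfty] (fun τ : ℍ => Real.exp (-2 * π * τ.im) ^ m) :=
    isBigO_discriminant_exp.pow m
  have h2 : (fun τ : ℍ => Real.exp (-2 * π * (affMap a b e τ).im)) =O[atImInfty]
      (fun τ : ℍ => Δ (affMap a b e τ)) :=
    exp_isBigO_discriminant.comp_tendsto (tendsto_affMap a b e ha he)
  have h3 : (fun τ : ℍ => (Δ (affMap a b e τ) ^ k)⁻¹) =O[atImInfty]
      (fun τ : ℍ => (Real.exp (-2 * π * (affMap a b e τ).im) ^ k)⁻¹) :=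
    (h2.pow k).inv_rev (Eventually.of_forall fun τ h => absurd h (pow_ne_zero _ (Real.exp_pos _).ne'))
  have h4 := h1.mul h3
  have h5 : (fun τ : ℍ => Real.exp (-2 * π * τ.im) ^ m *
      (Real.exp (-2 * π * (affMap a b e τ).im) ^ k)⁻¹) =O[atImInfty] (1 : ℍ → ℝ) := by
    refine .of_bound 1 (Eventually.of_forall fun τ => ?_)
    rw [Pi.one_apply, norm_one, mul_one, affMap_im a b e ha he, ← Real.exp_nat_mul, ← Real.exp_nat_mul,
      ← Real.exp_neg, ← Real.exp_add, Real.norm_of_nonneg (Real.exp_pos _).le]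
    rw [Real.exp_le_one_iff]
    have h1 : (0 : ℝ) < e := by exact_mod_cast he
    have h2 : (k : ℝ) * a ≤ m * e := by exact_mod_cast hm
    have h3 : 0 < τ.im := τ.im_pos
    have h4 : (k : ℝ) * (a * τ.im / e) ≤ m * τ.im := by
      rw [mul_div_assoc', div_le_iff₀ h1]
      nlinarith
    nlinarith [Real.pi_pos]
  have h6 := h4.trans h5
  refine h6.congr_left (fun τ => ?_)
  rw [div_eq_mul_inv]

/-- If `Δ^k F` is bounded at `i∞` then so is `Δ(τ)^m · F((aτ+b)/e)` whenever `k a ≤ m e`. -/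
theorem isBoundedAtImInfty_pow_mul_comp_affMap {F : ℍ → ℂ} (k : ℕ)
    (hF : IsBoundedAtImInfty (fun τ : ℍ => Δ τ ^ k * F τ)) (a b e m : ℕ) (ha : 0 < a)
    (he : 0 < e) (hm : k * a ≤ m * e) :
    IsBoundedAtImInfty (fun τ : ℍ => Δ τ ^ m * F (affMap a b e τ)) := by
  have h1 := isBoundedAtImInfty_pow_div_pow_affMap a b e m k ha he hm
  have h2 : IsBoundedAtImInfty (fun τ : ℍ => Δ (affMap a b e τ) ^ k * F (affMap a b e τ)) :=
    hF.comp_tendsto (tendsto_affMap a b e ha he)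
  have h3 := h1.mul h2
  refine h3.congr_left (fun τ => ?_)
  have hΔ : Δ (affMap a b e τ) ≠ 0 := discriminant_ne_zero _
  simp only [Pi.mul_apply]
  field_simp

/-- `Δ ∘ affMap` is bounded at `i∞`. -/
lemma isBoundedAtImInfty_discriminant_affMap (a b e : ℕ) (ha : 0 < a) (he : 0 < e) :
    IsBoundedAtImInfty (fun τ : ℍ => Δ (affMap a b e τ)) := by
  have h : Tendsto (fun τ : ℍ => Δ (affMap a b e τ)) atImInfty (𝓝 0) :=
    Tendsto.comp discriminant_isZeroAtImInfty (tendsto_affMap a b e ha he)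
  exact h.isBigO_one ℝ

/-! ### Corollaries: `Γ₀(δ)`-invariance and moderate growth at all cusps -/

lemma affMap_zero_one (δ : ℕ) (τ : ℍ) : affMap δ 0 1 τ = ofComplex ((δ : ℂ) * τ) := by
  simp [affMap]

/-- `F(δ·γτ) = F(δτ)` for `SL(2,ℤ)`-invariant `F` and `γ ∈ Γ₀(δ)`. -/
theorem invariant_comp_mul_smul_of_dvd {α : Type} (F : ℍ → α)
    (hF : ∀ (g : SL(2, ℤ)) (z : ℍ), F (g • z) = F z) (δ : ℕ) (hδ : 0 < δ) (γ : SL(2, ℤ))
    (h : (δ : ℤ) ∣ γ 1 0) (τ : ℍ) :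
    F (ofComplex ((δ : ℂ) * ↑(γ • τ))) = F (ofComplex ((δ : ℂ) * τ)) := by
  obtain ⟨a, b, e, ha, hae, hbe, hh⟩ := exists_affMap_of_invariant δ hδ γ
  have ha' : a = δ := by
    rw [ha]
    exact Nat.gcd_eq_left (Int.natCast_dvd.mp h)
  subst ha'
  have he : e = 1 := by
    have : a * e = a * 1 := by rw [hae, mul_one]
    exact Nat.eq_of_mul_eq_mul_left hδ this
  subst he
  have hb : b = 0 := by omega
  subst hb
  rw [hh F hF τ, affMap_zero_one]

/-- `Γ₀(δ)`-invariance of `Δ(δτ)/Δ(τ)`. -/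
theorem discQuot_smul_of_dvd (δ : ℕ) (hδ : 0 < δ) (γ : SL(2, ℤ)) (h : (δ : ℤ) ∣ γ 1 0) (τ : ℍ) :
    discQuot δ (γ • τ) = discQuot δ τ := by
  obtain ⟨a, b, e, ha, hae, hbe, hh⟩ := exists_discQuot_smul δ hδ γ
  have ha' : a = δ := by
    rw [ha]
    exact Nat.gcd_eq_left (Int.natCast_dvd.mp h)
  subst ha'
  have he : e = 1 := by
    have : a * e = a * 1 := by rw [hae, mul_one]
    exact Nat.eq_of_mul_eq_mul_left hδ this
  subst he
  have hb : b = 0 := by omega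
  subst hb
  rw [hh τ, affMap_zero_one, discQuot]
  simp

/-- Moderate growth of `Δ(δτ)/Δ(τ)` at every cusp. -/
theorem isBoundedAtImInfty_discQuot_smul (δ : ℕ) (hδ : 0 < δ) (γ : SL(2, ℤ)) :
    IsBoundedAtImInfty (fun τ : ℍ => Δ τ ^ 1 * discQuot δ (γ • τ)) := by
  obtain ⟨a, b, e, ha, hae, hbe, hh⟩ := exists_discQuot_smul δ hδ γ
  have he_pos : 0 < e := by
    rcases Nat.eq_zero_or_pos e with h | h
    · rw [h, mul_zero] at hae; omega
    · exact h
  have ha_pos : 0 < a := by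
    rcases Nat.eq_zero_or_pos a with h | h
    · rw [h, zero_mul] at hae; omega
    · exact h
  have h1 := (isBoundedAtImInfty_discriminant_affMap a b e ha_pos he_pos).const_mul_left
    (((e : ℂ)⁻¹) ^ 12)
  refine h1.congr_left (fun τ => ?_)
  rw [hh τ]
  have hΔ : Δ τ ≠ 0 := discriminant_ne_zero τ
  field_simp

/-- Moderate growth of `(Δ(δτ)/Δ(τ))⁻¹` at every cusp. -/
theorem isBoundedAtImInfty_inv_discQuot_smul (δ : ℕ) (hδ : 0 < δ) (γ : SL(2, ℤ)) :
    IsBoundedAtImInfty (fun τ : ℍ => Δ τ ^ δ * (discQuot δ (γ • τ))⁻¹) := by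
  obtain ⟨a, b, e, ha, hae, hbe, hh⟩ := exists_discQuot_smul δ hδ γ
  have he_pos : 0 < e := by
    rcases Nat.eq_zero_or_pos e with h | h
    · rw [h, mul_zero] at hae; omega
    · exact h
  have ha_pos : 0 < a := by
    rcases Nat.eq_zero_or_pos a with h | h
    · rw [h, zero_mul] at hae; omega
    · exact h
  have hm : 1 * a ≤ (δ + 1) * e := by
    have : a ≤ δ := by rw [← hae]; exact Nat.le_mul_of_pos_right a he_pos
    nlinarith
  have h1 := (isBoundedAtImInfty_pow_div_pow_affMap a b e (δ + 1) 1 ha_pos he_pos hm).const_mul_left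
    ((e : ℂ) ^ 12)
  refine h1.congr_left (fun τ => ?_)
  rw [hh τ]
  have hΔ : Δ τ ≠ 0 := discriminant_ne_zero τ
  have hΔ' : Δ (affMap a b e τ) ≠ 0 := discriminant_ne_zero _
  have heC : (e : ℂ) ≠ 0 := by exact_mod_cast he_pos.ne'
  field_simp
  ring

/-- Moderate growth of `F(δτ)` at every cusp, for `SL(2,ℤ)`-invariant `F` with `Δ^k F` bounded
at `i∞`. -/
theorem isBoundedAtImInfty_invariant_comp_mul_smul (F : ℍ → ℂ)
    (hF : ∀ (g : SL(2, ℤ)) (z : ℍ), F (g • z) = F z) (k : ℕ)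
    (hbdd : IsBoundedAtImInfty (fun τ : ℍ => Δ τ ^ k * F τ)) (δ : ℕ) (hδ : 0 < δ) (γ : SL(2, ℤ)) :
    IsBoundedAtImInfty (fun τ : ℍ => Δ τ ^ (k * δ) * F (ofComplex ((δ : ℂ) * ↑(γ • τ)))) := by
  obtain ⟨a, b, e, ha, hae, hbe, hh⟩ := exists_affMap_of_invariant δ hδ γ
  have he_pos : 0 < e := by
    rcases Nat.eq_zero_or_pos e with h | h
    · rw [h, mul_zero] at hae; omega
    · exact h
  have ha_pos : 0 < a := by
    rcases Nat.eq_zero_or_pos a with h | h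
    · rw [h, zero_mul] at hae; omega
    · exact h
  have hm : k * a ≤ (k * δ) * e := by
    have h1 : a ≤ δ := by rw [← hae]; exact Nat.le_mul_of_pos_right a he_pos
    calc k * a ≤ k * δ := Nat.mul_le_mul_left k h1
      _ ≤ (k * δ) * e := Nat.le_mul_of_pos_right _ he_pos
  have h1 := isBoundedAtImInfty_pow_mul_comp_affMap k hbdd a b e (k * δ) ha_pos he_pos hm
  refine h1.congr_left (fun τ => ?_)
  rw [hh F hF τ]

/-! ### Holomorphy -/

open scoped Manifold in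
/-- `τ ↦ F(δτ)` is holomorphic if `F` is. -/
lemma mdifferentiable_comp_mul {F : ℍ → ℂ} (hF : MDiff F) (δ : ℕ) (hδ : 0 < δ) :
    MDiff (fun τ : ℍ => F (ofComplex ((δ : ℂ) * τ))) := by
  rw [UpperHalfPlane.mdifferentiable_iff] at hF ⊢
  have hδR : (0 : ℝ) < δ := by exact_mod_cast hδ
  have hmaps : ∀ w : ℂ, 0 < w.im → 0 < ((δ : ℂ) * w).im := by
    intro w hw
    have : ((δ : ℂ) * w).im = δ * w.im := by simp
    rw [this]
    exact mul_pos hδR hw
  intro z hz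
  have h1 : DifferentiableWithinAt ℂ (F ∘ ofComplex) {z | 0 < z.im} ((δ : ℂ) * z) :=
    hF _ (hmaps z hz)
  have h2 : DifferentiableWithinAt ℂ (fun w : ℂ => (δ : ℂ) * w) {z | 0 < z.im} z := by fun_prop
  have h3 := h1.comp z h2 (fun w hw => hmaps w hw)
  refine h3.congr (fun w hw => ?_) ?_
  · simp only [Function.comp_apply]
    rw [ofComplex_apply_of_im_pos hw]
  · simp only [Function.comp_apply]
    rw [ofComplex_apply_of_im_pos hz]

open scoped Manifold in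
/-- `Δ(δτ)/Δ(τ)` is holomorphic. -/
lemma mdifferentiable_discQuot (δ : ℕ) (hδ : 0 < δ) : MDiff (discQuot δ) :=
  (mdifferentiable_comp_mul CuspForm.discriminant.holo' δ hδ).div CuspForm.discriminant.holo'
    discriminant_ne_zero

lemma discQuot_ne_zero (δ : ℕ) (τ : ℍ) : discQuot δ τ ≠ 0 :=
  div_ne_zero (discriminant_ne_zero _) (discriminant_ne_zero _)

open scoped Manifold in
/-- `(Δ(δτ)/Δ(τ))⁻¹` is holomorphic. -/
lemma mdifferentiable_inv_discQuot (δ : ℕ) (hδ : 0 < δ) : MDiff (fun τ => (discQuot δ τ)⁻¹) := by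
  have h1 : MDiff (fun _ : ℍ => (1 : ℂ)) := mdifferentiable_const
  have h := h1.div (mdifferentiable_discQuot δ hδ) (discQuot_ne_zero δ)
  have heq : (fun τ : ℍ => (discQuot δ τ)⁻¹) = (fun _ : ℍ => (1 : ℂ)) / discQuot δ := by
    funext τ
    simp [one_div]
  rw [heq]
  exact h

end Fermat.Agent.S28.helper1178
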