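import Mathlib
import Fermat.Prelude.Def_ModularCurve_X0ModL

/-!
# S28: algebraic back half of the eta-quotient modular input

* `abstract_irred` : abstract irreducibility lemma in `LaurentSeries κ` (Gauss lemma + positive
  order argument).
* `li_of_factorisation_field`, `li_of_factorisation_ring`, `li_of_factorisation` : linear
  independence of `1, w̄, …, w̄ ^ n` over `𝔽_ℓ[j̄]` from a formal factorisation of a monic
  polynomial over `O((t))`.
-/

set_option autoImplicit false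

namespace Fermat.Agent.S28.helper1262

open Polynomial ModularCurve

noncomputable section

section Basic

variable {R : Type*} [CommRing R]

lemma algebraMap_eq_C (c : R) : algebraMap R (LaurentSeries R) c = HahnSeries.C c := by
  have h1 : algebraMap R (PowerSeries R) c = PowerSeries.C c := rfl
  rw [HahnSeries.algebraMap_apply', h1, HahnSeries.ofPowerSeries_C]

lemma coeff_algebra_smul (c : R) (f : LaurentSeries R) (k : ℤ) :
    (@HSMul.hSMul R (LaurentSeries R) (LaurentSeries R)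
      (@instHSMul R (LaurentSeries R) (HahnSeries.powerSeriesAlgebra ℤ R).toSMul) c f).coeff k
      = c * f.coeff k := by
  rw [Algebra.smul_def, algebraMap_eq_C, HahnSeries.C_mul_eq_smul, HahnSeries.coeff_smul]; rfl

end Basic

section Tgen

variable {κ : Type*} [Field κ]

/-- Coefficient of `P(J)` at `d • ord J` for a series `J` with a pole. -/
lemma coeff_aeval_top (J : LaurentSeries κ) (hJ : J.order < 0) (P : κ[X]) (d : ℕ)
    (hd : P.natDegree ≤ d) :
    (aeval J P).coeff (d • J.order) = P.coeff d * (J ^ d).coeff (d • J.order) := by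
  rw [aeval_eq_sum_range' (Nat.lt_succ_of_le hd), HahnSeries.coeff_sum, Finset.sum_range_succ,
    Finset.sum_eq_zero, zero_add, coeff_algebra_smul]
  intro k hk
  have hk' : k < d := Finset.mem_range.mp hk
  rw [coeff_algebra_smul, HahnSeries.coeff_eq_zero_of_lt_order, mul_zero]
  rw [HahnSeries.order_pow, nsmul_eq_mul, nsmul_eq_mul]
  exact mul_lt_mul_of_neg_right (by exact_mod_cast hk') hJ

lemma coeff_aeval_top_ne_zero (J : LaurentSeries κ) (hJ : J.order < 0) (P : κ[X]) (hP : P ≠ 0) :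
    (aeval J P).coeff (P.natDegree • J.order) ≠ 0 := by
  have hJ0 : J ≠ 0 := by
    rintro rfl
    simp at hJ
  rw [coeff_aeval_top J hJ P _ le_rfl]
  refine mul_ne_zero (by simpa using hP) ?_
  rw [← HahnSeries.order_pow]
  exact fun h => pow_ne_zero _ hJ0 (HahnSeries.coeff_order_eq_zero.mp h)

lemma aeval_ne_zero_of_ne_zero (J : LaurentSeries κ) (hJ : J.order < 0) (P : κ[X]) (hP : P ≠ 0) :
    aeval J P ≠ 0 :=
  HahnSeries.ne_zero_of_coeff_ne_zero (coeff_aeval_top_ne_zero J hJ P hP)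

lemma aeval_injective_of_order_neg (J : LaurentSeries κ) (hJ : J.order < 0) :
    Function.Injective (aeval J : κ[X] →ₐ[κ] LaurentSeries κ) := by
  rw [injective_iff_map_eq_zero]
  intro P hP
  by_contra h
  exact aeval_ne_zero_of_ne_zero J hJ P h hP

lemma order_aeval_nonpos (J : LaurentSeries κ) (hJ : J.order < 0) (P : κ[X]) (hP : P ≠ 0) :
    (aeval J P).order ≤ 0 := by
  refine (HahnSeries.order_le_of_coeff_ne_zero (coeff_aeval_top_ne_zero J hJ P hP)).trans ?_
  rw [nsmul_eq_mul]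
  exact mul_nonpos_of_nonneg_of_nonpos (by positivity) hJ.le

end Tgen

section Irred

variable {κ : Type*} [Field κ]

lemma prod_order_pos (s : Multiset (LaurentSeries κ)) (hs : ∀ r ∈ s, r ≠ 0 ∧ 0 < r.order) :
    s.prod ≠ 0 ∧ 0 ≤ s.prod.order ∧ (s ≠ 0 → 0 < s.prod.order) := by
  induction s using Multiset.induction with
  | empty => simp
  | cons a s ih =>
    obtain ⟨h1, h2, -⟩ := ih (fun r hr => hs r (Multiset.mem_cons_of_mem hr))
    obtain ⟨ha0, ha⟩ := hs a (Multiset.mem_cons_self a s)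
    rw [Multiset.prod_cons]
    have hord : (a * s.prod).order = a.order + s.prod.order := HahnSeries.order_mul ha0 h1
    refine ⟨mul_ne_zero ha0 h1, ?_, fun _ => ?_⟩ <;> rw [hord] <;> omega

/-- **Abstract irreducibility lemma.** Let `J ∈ κ((t))` have a pole and let `χ` be a monic
polynomial over `κ[Y]` such that `χ(J, X) = ∏ (X - w i)` in `κ((t))[X]`, where exactly one root
`w i₀` has a pole and all the other roots are nonzero of positive order. Then `χ(J, X)` is the
minimal polynomial of `w i₀` over `κ[J]`: a polynomial over `κ[Y]` of smaller degree killing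
`w i₀` is zero. -/
theorem abstract_irred (J : LaurentSeries κ) (hJ : J.order < 0)
    {ι : Type*} [Fintype ι] (i₀ : ι) (w : ι → LaurentSeries κ)
    (hw0 : (w i₀).order < 0)
    (hw : ∀ i, i ≠ i₀ → w i ≠ 0 ∧ 0 < (w i).order)
    (χ : Polynomial (Polynomial κ)) (hχ : χ.Monic)
    (hfac : χ.map (aeval J : κ[X] →ₐ[κ] LaurentSeries κ).toRingHom = ∏ i, (X - C (w i)))
    (p : Polynomial (Polynomial κ)) (hp : p.natDegree < Fintype.card ι)
    (hp0 : p.eval₂ (aeval J : κ[X] →ₐ[κ] LaurentSeries κ).toRingHom (w i₀) = 0) : p = 0 := by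
  classical
  let _ : Algebra κ[X] (LaurentSeries κ) :=
    (aeval J : κ[X] →ₐ[κ] LaurentSeries κ).toRingHom.toAlgebra
  have hinj : Function.Injective (algebraMap κ[X] (LaurentSeries κ)) :=
    aeval_injective_of_order_neg J hJ
  have : Module.IsTorsionFree κ[X] (LaurentSeries κ) :=
    Module.isTorsionFree_iff_algebraMap_injective.mpr hinj
  have hne : ∀ i, i ≠ i₀ → w i₀ ≠ w i := by
    intro i hi h
    have := (hw i hi).2
    rw [← h] at this
    exact lt_asymm this hw0
  set a := w i₀ with ha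
  set f : κ[X] →+* LaurentSeries κ := algebraMap κ[X] (LaurentSeries κ) with hf
  have hfac' : χ.map f = ∏ i, (X - C (w i)) := hfac
  have hroot : (χ.map f).eval a = 0 := by
    rw [hfac', eval_prod]
    exact Finset.prod_eq_zero (Finset.mem_univ i₀) (by simp [ha])
  have hint : IsIntegral κ[X] a := ⟨χ, hχ, by rw [← eval_map]; exact hroot⟩
  have hdvd : minpoly κ[X] a ∣ χ :=
    minpoly.isIntegrallyClosed_dvd hint (by rw [aeval_def, ← eval_map]; exact hroot)
  obtain ⟨m', hm'⟩ := hdvd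
  have hmonic0 : (minpoly κ[X] a).Monic := minpoly.monic hint
  have hm'monic : m'.Monic := hmonic0.of_mul_monic_left (hm' ▸ hχ)
  have hprod : ∏ i, (X - C (w i)) = (minpoly κ[X] a).map f * m'.map f := by
    rw [← Polynomial.map_mul, ← hm', hfac']
  have hprod_monic : (∏ i, (X - C (w i))).Monic := monic_prod_of_monic _ _ fun i _ => monic_X_sub_C _
  have hsplit : (m'.map f).Splits :=
    Splits.of_dvd (Splits.prod fun i _ => Splits.X_sub_C _) hprod_monic.ne_zero
      (Dvd.intro_left _ hprod.symm)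
  -- `a` is not a root of `m'.map f`
  have hnotroot : ¬ (m'.map f).IsRoot a := by
    intro h
    have h0 : ((minpoly κ[X] a).map f).IsRoot a := by
      rw [IsRoot, eval_map, ← aeval_def]
      exact minpoly.aeval _ _
    obtain ⟨A, hA⟩ := dvd_iff_isRoot.mpr h0
    obtain ⟨B, hB⟩ := dvd_iff_isRoot.mpr h
    have hsplit1 : ∏ i, (X - C (w i)) = (X - C a) * ∏ i ∈ Finset.univ.erase i₀, (X - C (w i)) :=
      (Finset.mul_prod_erase Finset.univ (fun i => X - C (w i)) (Finset.mem_univ i₀)).symm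
    have hcancel : ∏ i ∈ Finset.univ.erase i₀, (X - C (w i)) = (X - C a) * (A * B) := by
      have : (X - C a) * ∏ i ∈ Finset.univ.erase i₀, (X - C (w i))
          = (X - C a) * ((X - C a) * (A * B)) := by
        rw [← hsplit1, hprod, hA, hB]; ring
      exact mul_left_cancel₀ (X_sub_C_ne_zero a) this
    have hev := congrArg (eval a) hcancel
    rw [eval_prod, eval_mul, eval_sub, eval_X, eval_C, sub_self, zero_mul,
      Finset.prod_eq_zero_iff] at hev
    obtain ⟨i, hi, hi0⟩ := hev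
    rw [eval_sub, eval_X, eval_C, sub_eq_zero] at hi0
    exact hne i (Finset.ne_of_mem_erase hi) hi0
  have hroots : ∀ r ∈ (m'.map f).roots, r ≠ 0 ∧ 0 < r.order := by
    intro r hr
    have hr' : (m'.map f).IsRoot r := isRoot_of_mem_roots hr
    have hr0 : (∏ i, (X - C (w i))).eval r = 0 := by
      rw [hprod, eval_mul, hr'.eq_zero, mul_zero]
    rw [eval_prod, Finset.prod_eq_zero_iff] at hr0
    obtain ⟨i, -, hi0⟩ := hr0
    rw [eval_sub, eval_X, eval_C, sub_eq_zero] at hi0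
    have hi : i ≠ i₀ := by
      rintro rfl
      exact hnotroot (by rw [ha, ← hi0]; exact hr')
    rw [hi0]
    exact hw i hi
  have hdeg0 : (m'.map f).natDegree = 0 := by
    by_contra hd
    have hcard : (m'.map f).roots ≠ 0 := by
      intro h0
      apply hd
      rw [hsplit.natDegree_eq_card_roots, h0, Multiset.card_zero]
    obtain ⟨hp1, -, hp3⟩ := prod_order_pos _ hroots
    have hpos := hp3 hcard
    have hc0 : (m'.map f).coeff 0 = (-1) ^ (m'.map f).natDegree * (m'.map f).roots.prod :=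
      hsplit.coeff_zero_eq_prod_roots_of_monic (hm'monic.map f)
    rw [coeff_map] at hc0
    have hP : m'.coeff 0 ≠ 0 := by
      intro h
      rw [h, map_zero] at hc0
      exact mul_ne_zero (pow_ne_zero _ (by simp)) hp1 hc0.symm
    have hle : (f (m'.coeff 0)).order ≤ 0 := order_aeval_nonpos J hJ _ hP
    rw [hc0] at hle
    rcases neg_one_pow_eq_or (LaurentSeries κ) (m'.map f).natDegree with h | h
    · rw [h, one_mul] at hle
      exact absurd hle (not_le.mpr hpos)
    · rw [h, neg_one_mul, HahnSeries.order_neg] at hle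
      exact absurd hle (not_le.mpr hpos)
  have hm'1 : m' = 1 := by
    rw [← hm'monic.natDegree_eq_zero, ← hm'monic.natDegree_map f, hdeg0]
  have hdegχ : χ.natDegree = Fintype.card ι := by
    rw [← hχ.natDegree_map f, hfac', natDegree_prod_of_monic _ _ fun i _ => monic_X_sub_C _]
    simp
  have hdvd2 : minpoly κ[X] a ∣ p :=
    minpoly.isIntegrallyClosed_dvd hint (by rw [aeval_def]; exact hp0)
  rw [hm'1, mul_one] at hm'
  refine eq_zero_of_dvd_of_natDegree_lt hdvd2 ?_
  rw [← hm', hdegχ]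
  exact hp

end Irred

section Transfer

variable {R S : Type*} [CommRing R] [CommRing S]

lemma coeffMap_C (f : R →+* S) (r : R) :
    coeffMap f (HahnSeries.C r : LaurentSeries R) = HahnSeries.C (f r) := by
  rw [HahnSeries.C_apply, coeffMap_single, HahnSeries.C_apply]

/-- A ring hom of Laurent series rings which is `f` on constants commutes with `aeval`. -/
lemma map_aeval_eq (f : R →+* S) (g : LaurentSeries R →+* LaurentSeries S)
    (hg : ∀ r : R, g (HahnSeries.C r) = HahnSeries.C (f r)) (x : LaurentSeries R) (P : R[X]) :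
    g (aeval x P) = aeval (g x) (P.map f) := by
  rw [aeval_def, aeval_def, hom_eval₂, eval₂_map]
  congr 1
  ext r
  simp only [RingHom.coe_comp, Function.comp_apply, algebraMap_eq_C, hg]

lemma coeffMap_aeval (f : R →+* S) (x : LaurentSeries R) (P : R[X]) :
    coeffMap f (aeval x P) = aeval (coeffMap f x) (P.map f) :=
  map_aeval_eq f (coeffMap f) (coeffMap_C f) x P

lemma qExpand_aeval (N : ℕ) [NeZero N] (x : LaurentSeries R) (P : R[X]) :
    qExpand R N (aeval x P) = aeval (qExpand R N x) P := by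
  have h := map_aeval_eq (RingHom.id R) (qExpand R N) (fun r => by simp) x P
  rwa [Polynomial.map_id] at h

lemma coeffMap_injective (f : R →+* S) (hf : Function.Injective f) :
    Function.Injective (coeffMap f) := by
  intro x y h
  ext k
  apply hf
  rw [← coeffMap_coeff, ← coeffMap_coeff, h]

/-- `x ≠ 0` with vanishing coefficients below `k` has order at least `k`. -/
lemma le_order_of_coeff_eq_zero (x : LaurentSeries R) (hx : x ≠ 0) (k : ℤ)
    (h : ∀ k' < k, x.coeff k' = 0) : k ≤ x.order := by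
  by_contra hlt
  exact hx (HahnSeries.coeff_order_eq_zero.mp (h _ (not_le.mp hlt)))

lemma order_jqNModC_neg (N : ℕ) [NeZero N] [Nontrivial R] : (jqNModC R N).order < 0 := by
  have h1 : (jqNModC R N).coeff ((N : ℤ) * (-1)) = 1 := by
    rw [jqNModC, qExpand_coeff_mul, coeff_jqModC_neg_one]
  have hN : (0 : ℤ) < N := by exact_mod_cast Nat.pos_of_ne_zero (NeZero.ne N)
  refine lt_of_le_of_lt (HahnSeries.order_le_of_coeff_ne_zero (g := (N : ℤ) * (-1)) ?_) (by linarith)
  rw [h1]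
  exact one_ne_zero

end Transfer

section FieldForm

/-- **Field form.** Linear independence of `1, w̄, …, w̄^(D-1)` over `𝔽_ℓ[j̄]` from a factorisation
over `κ((t))`, `κ` a field of characteristic `ℓ`, `t = q^(1/N)`: the root `w i₀ = w̄(t^N)` has a
pole, all the other roots have positive order. -/
theorem li_of_factorisation_field (N : ℕ) [NeZero N] (ℓ : ℕ) [Fact ℓ.Prime]
    {κ : Type*} [Field κ] [CharP κ ℓ] (W : LaurentSeries ℤ)
    {ι : Type*} [Fintype ι] (D : ℕ) (hD : Fintype.card ι = D) (i₀ : ι) (w : ι → LaurentSeries κ)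
    (hw0 : w i₀ = qExpand κ N (coeffMap (Int.castRingHom κ) W))
    (hpole : (w i₀).order < 0)
    (hw : ∀ i, i ≠ i₀ → 0 < (w i).order)
    (χ : Polynomial (Polynomial κ)) (hχ : χ.Monic)
    (hfac : χ.map (aeval (jqNModC κ N) : κ[X] →ₐ[κ] LaurentSeries κ).toRingHom
      = ∏ i, (X - C (w i)))
    (c : Fin D → Polynomial (ZMod ℓ))
    (hc : ∑ i, aeval (jqModC (ZMod ℓ)) (c i) * (coeffMap (Int.castRingHom (ZMod ℓ)) W) ^ (i : ℕ)
      = 0) : c = 0 := by
  classical
  let φ : ZMod ℓ →+* κ := ZMod.castHom (dvd_refl ℓ) κ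
  have hφ : Function.Injective φ := φ.injective
  have hJ : (jqNModC κ N).order < 0 := order_jqNModC_neg N
  have hw' : ∀ i, i ≠ i₀ → w i ≠ 0 ∧ 0 < (w i).order := by
    intro i hi
    refine ⟨?_, hw i hi⟩
    intro h0
    have := hw i hi
    rw [h0, HahnSeries.order_zero] at this
    exact lt_irrefl _ this
  -- transfer the relation to `κ((t))`
  let ρ : LaurentSeries (ZMod ℓ) →+* LaurentSeries κ := (qExpand κ N).comp (coeffMap φ)
  have hρW : ρ (coeffMap (Int.castRingHom (ZMod ℓ)) W) = w i₀ := by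
    rw [hw0]
    show qExpand κ N (coeffMap φ (coeffMap (Int.castRingHom (ZMod ℓ)) W)) = _
    rw [coeffMap_coeffMap]
    congr 1
    exact coeffMap_congr (RingHom.ext_int _ _) W
  have hρP : ∀ P : (ZMod ℓ)[X], ρ (aeval (jqModC (ZMod ℓ)) P)
      = aeval (jqNModC κ N) (P.map φ) := by
    intro P
    show qExpand κ N (coeffMap φ (aeval (jqModC (ZMod ℓ)) P)) = _
    rw [coeffMap_aeval, qExpand_aeval, coeffMap_jqModC, jqNModC]
  set p : Polynomial (Polynomial κ) :=
    ∑ i : Fin D, C ((c i).map φ) * X ^ (i : ℕ) with hp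
  have hpdeg : p.natDegree < Fintype.card ι ∨ p = 0 := by
    by_cases h0 : p = 0
    · exact Or.inr h0
    · left
      have := Polynomial.degree_sum_fin_lt (fun i : Fin D => (c i).map φ)
      rw [← hp] at this
      rw [hD]
      exact (natDegree_lt_iff_degree_lt h0).mpr this
  have hp0 : p.eval₂ (aeval (jqNModC κ N) : κ[X] →ₐ[κ] LaurentSeries κ).toRingHom (w i₀) = 0 := by
    have h := congrArg ρ hc
    rw [map_zero, map_sum] at h
    rw [hp, eval₂_finsetSum, ← h]
    refine Finset.sum_congr rfl fun i _ => ?_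
    rw [eval₂_mul, eval₂_C, eval₂_pow, eval₂_X, map_mul, map_pow, hρW, hρP]
    rfl
  have hpz : p = 0 := by
    rcases hpdeg with h | h
    · exact abstract_irred (jqNModC κ N) hJ i₀ w hpole hw' χ hχ hfac p h hp0
    · exact h
  funext i
  have hcoeff : p.coeff (i : ℕ) = (c i).map φ := by
    rw [hp, finsetSum_coeff]
    rw [Finset.sum_eq_single i]
    · rw [coeff_C_mul, coeff_X_pow, if_pos rfl, mul_one]
    · intro j _ hji
      rw [coeff_C_mul, coeff_X_pow, if_neg, mul_zero]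
      exact fun h => hji (Fin.ext h.symm)
    · intro h
      exact absurd (Finset.mem_univ i) h
  rw [hpz, coeff_zero] at hcoeff
  exact Polynomial.map_injective φ hφ (by rw [← hcoeff, Pi.zero_apply, Polynomial.map_zero])

/-- The trivial case `D = 1`: `j̄` is transcendental over `𝔽_ℓ`. -/
theorem li_of_card_one (ℓ : ℕ) [Fact ℓ.Prime] (W : LaurentSeries ℤ)
    (c : Fin 1 → Polynomial (ZMod ℓ))
    (hc : ∑ i, aeval (jqModC (ZMod ℓ)) (c i) * (coeffMap (Int.castRingHom (ZMod ℓ)) W) ^ (i : ℕ)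
      = 0) : c = 0 := by
  have hJ : (jqModC (ZMod ℓ)).order < 0 := by
    have := order_jqNModC_neg (R := ZMod ℓ) 1
    rwa [jqNModC_one] at this
  rw [Fin.sum_univ_one, Fin.val_zero, pow_zero, mul_one] at hc
  funext i
  rw [Subsingleton.elim i 0, Pi.zero_apply]
  exact aeval_injective_of_order_neg _ hJ (by rw [hc, map_zero])

/-- **`Stmt_ModDataModL → Stmt_H3`** (Spec-independent form): from the reduced modular data to
the linear independence of `1, ū, …, ū^(D-1)` over `𝔽_ℓ[j̄]`. -/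
theorem li_of_modL (N : ℕ) [NeZero N] (ℓ : ℕ) [Fact ℓ.Prime] (u : LaurentSeries ℤ) (D : ℕ)
    {κ : Type*} [Field κ] [CharP κ ℓ] (χ : Polynomial (Polynomial κ))
    (ρ : Fin D → LaurentSeries κ) (i₀ : Fin D) (hχ : χ.Monic)
    (hfac : χ.map (aeval (jqNModC κ N) : κ[X] →ₐ[κ] LaurentSeries κ).toRingHom
      = ∏ i, (X - C (ρ i)))
    (hρ0 : ρ i₀ = qExpand κ N (coeffMap (Int.castRingHom κ) u))
    (hpole : (ρ i₀).order < 0 ∨ D = 1)
    (hpos : ∀ i, i ≠ i₀ → 0 < (ρ i).order)
    (c : Fin D → Polynomial (ZMod ℓ))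
    (hc : ∑ i, aeval (jqModC (ZMod ℓ)) (c i) * (coeffMap (Int.castRingHom (ZMod ℓ)) u) ^ (i : ℕ)
      = 0) : c = 0 := by
  rcases hpole with hpole | rfl
  · exact li_of_factorisation_field N ℓ u D (Fintype.card_fin D) i₀ ρ hρ0 hpole hpos χ hχ hfac c hc
  · exact li_of_card_one ℓ u c hc

end FieldForm

section Triangular

variable (R : Type*) [CommRing R] (N : ℕ) [NeZero N]

/-- Triangularity: the coefficient of `P(j(t^N))` at `t^(-N d)` is the `d`-th coefficient of `P`
when `deg P ≤ d`. -/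
lemma coeff_aeval_jqN (P : R[X]) (d : ℕ) (hd : P.natDegree ≤ d) :
    (aeval (jqNModC R N) P).coeff (-((N : ℤ) * d)) = P.coeff d := by
  have hneg : -((N : ℤ) * d) = (N : ℤ) * (-(d : ℤ)) := by ring
  rw [aeval_eq_sum_range' (Nat.lt_succ_of_le hd), HahnSeries.coeff_sum, Finset.sum_range_succ,
    Finset.sum_eq_zero, zero_add, coeff_algebra_smul]
  · rw [jqNModC, ← map_pow, hneg, qExpand_coeff_mul, coeff_jqModC_pow_self, mul_one]
  · intro k hk
    have hk' : k < d := Finset.mem_range.mp hk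
    rw [coeff_algebra_smul, jqNModC, ← map_pow, hneg, qExpand_coeff_mul,
      coeff_jqModC_pow_of_lt, mul_zero]
    exact neg_lt_neg (by exact_mod_cast hk')

variable {R}

lemma coeff_jqN_pow_mem (O : Subring R) (d : ℕ) (k : ℤ) : (jqNModC R N ^ d).coeff k ∈ O := by
  have h : jqNModC R N ^ d = coeffMap (Int.castRingHom R) (jqNModC ℤ N ^ d) := by
    rw [map_pow, coeffMap_jqNModC]
  rw [h, coeffMap_coeff, eq_intCast]
  exact intCast_mem O _

/-- If all coefficients of `P(j(t^N))` lie in a subring `O`, then so do those of `P`. -/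
lemma coeff_mem_of_aeval_coeff_mem (O : Subring R) :
    ∀ (d : ℕ) (P : R[X]), P.natDegree ≤ d → (∀ k, (aeval (jqNModC R N) P).coeff k ∈ O) →
      ∀ i, P.coeff i ∈ O := by
  intro d
  induction d with
  | zero =>
    intro P hP h i
    have h0 := coeff_aeval_jqN R N P 0 hP
    rcases Nat.eq_zero_or_pos i with rfl | hi
    · rw [← h0]; exact h _
    · rw [coeff_eq_zero_of_natDegree_lt (by omega)]; exact O.zero_mem
  | succ d ih =>
    intro P hP h i
    have hc : P.coeff (d + 1) ∈ O := by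
      rw [← coeff_aeval_jqN R N P (d + 1) hP]; exact h _
    have hP'deg : (P.erase (d + 1)).natDegree ≤ d := by
      rw [natDegree_le_iff_coeff_eq_zero]
      intro m hm
      rw [coeff_erase]
      split_ifs with h1
      · rfl
      · exact coeff_eq_zero_of_natDegree_lt (by omega)
    have hP'aeval : ∀ k, (aeval (jqNModC R N) (P.erase (d + 1))).coeff k ∈ O := by
      intro k
      have h1 : aeval (jqNModC R N) P = HahnSeries.C (P.coeff (d + 1)) * jqNModC R N ^ (d + 1)
          + aeval (jqNModC R N) (P.erase (d + 1)) := by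
        conv_lhs => rw [← monomial_add_erase P (d + 1)]
        rw [map_add, aeval_monomial, algebraMap_eq_C]
      have h2 : (aeval (jqNModC R N) (P.erase (d + 1))).coeff k
          = (aeval (jqNModC R N) P).coeff k - P.coeff (d + 1) * (jqNModC R N ^ (d + 1)).coeff k := by
        rw [h1, HahnSeries.coeff_add, HahnSeries.C_mul_eq_smul, HahnSeries.coeff_smul,
          smul_eq_mul]
        ring
      rw [h2]
      exact sub_mem (h k) (mul_mem hc (coeff_jqN_pow_mem N O _ _))
    by_cases hi : i = d + 1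
    · rw [hi]; exact hc
    · have := ih (P.erase (d + 1)) hP'deg hP'aeval i
      rwa [coeff_erase, if_neg hi] at this

end Triangular

section Lift

variable {B : Type*} [CommRing B] (O : Subring B)

/-- Lift a Laurent series whose coefficients lie in a subring. -/
def liftSeries (E : LaurentSeries B) (h : ∀ k, E.coeff k ∈ O) : LaurentSeries O where
  coeff k := ⟨E.coeff k, h k⟩
  isPWO_support' := E.isPWO_support.mono fun k hk => by
    simp only [Function.mem_support, ne_eq] at hk ⊢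
    exact fun h0 => hk (Subtype.ext h0)

@[simp] lemma coeffMap_liftSeries (E : LaurentSeries B) (h : ∀ k, E.coeff k ∈ O) :
    coeffMap O.subtype (liftSeries O E h) = E := by
  ext k
  rfl

/-- A monic polynomial over `B[Y]` whose coefficients, evaluated at `j(t^N)`, have all their
Laurent coefficients in `O`, comes from a monic polynomial over `O[Y]`. -/
lemma exists_lift_poly (N : ℕ) [NeZero N] (χ : Polynomial (Polynomial B)) (hχ : χ.Monic)
    (h : ∀ n k, (aeval (jqNModC B N) (χ.coeff n)).coeff k ∈ O) :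
    ∃ χ' : Polynomial (Polynomial O), χ'.Monic ∧ χ'.map (mapRingHom O.subtype) = χ := by
  have h1 : ∀ n, χ.coeff n ∈ lifts O.subtype := fun n =>
    (lifts_iff_coeff_lifts _).mpr fun k =>
      ⟨⟨_, coeff_mem_of_aeval_coeff_mem N O _ (χ.coeff n) le_rfl (h n) k⟩, rfl⟩
  have h2 : χ ∈ lifts (mapRingHom O.subtype) :=
    (lifts_iff_coeff_lifts _).mpr fun n => by
      obtain ⟨q, hq⟩ := (mem_lifts _).mp (h1 n)
      exact ⟨q, hq⟩
  obtain ⟨χ', hχ', -, hmonic⟩ := lifts_and_natDegree_eq_and_monic h2 hχ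
  exact ⟨χ', hmonic, hχ'⟩

end Lift

section Reduce

/-- **Reduction, ring form.** A factorisation over `O((t))` (`O` any commutative ring in which `ℓ`
is not a unit) with one root `= u(t^N)` and all other roots of positive order with unit leading
coefficient reduces to a factorisation over `κ((t))`, `κ = O/𝔪` a field of characteristic `ℓ`. -/
theorem reduce_factorisation_ring (N : ℕ) [NeZero N] (ℓ : ℕ) [Fact ℓ.Prime]
    {O : Type} [CommRing O] (hℓ : ¬ IsUnit ((ℓ : ℕ) : O))
    (u : LaurentSeries ℤ) {D : ℕ} (i₀ : Fin D) (E : Fin D → LaurentSeries O)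
    (hE0 : E i₀ = qExpand O N (coeffMap (Int.castRingHom O) u))
    (hu : (∃ m : ℤ, m < 0 ∧ u.coeff m = 1) ∨ D = 1)
    (hEpos : ∀ i, i ≠ i₀ →
      ∃ k : ℤ, 0 < k ∧ (∀ k' < k, (E i).coeff k' = 0) ∧ IsUnit ((E i).coeff k))
    (χ : Polynomial (Polynomial O)) (hχ : χ.Monic) (hdeg : χ.natDegree = D)
    (hfac : χ.map (aeval (jqNModC O N) : O[X] →ₐ[O] LaurentSeries O).toRingHom
      = ∏ i, (X - C (E i))) :
    ∃ (κ : Type) (_ : Field κ) (_ : CharP κ ℓ) (χ' : Polynomial (Polynomial κ))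
      (ρ : Fin D → LaurentSeries κ) (i₁ : Fin D),
      χ'.Monic ∧ χ'.natDegree = D ∧
      χ'.map (aeval (jqNModC κ N) : κ[X] →ₐ[κ] LaurentSeries κ).toRingHom
        = ∏ i, (X - C (ρ i)) ∧
      ρ i₁ = qExpand κ N (coeffMap (Int.castRingHom κ) u) ∧
      ((ρ i₁).order < 0 ∨ D = 1) ∧
      (∀ i, i ≠ i₁ → 0 < (ρ i).order) := by
  obtain ⟨M, hMmax, hM⟩ := Ideal.exists_le_maximal (Ideal.span {((ℓ : ℕ) : O)})
    (by rwa [Ne, Ideal.span_singleton_eq_top])
  have := hMmax
  let _ : Field (O ⧸ M) := Ideal.Quotient.field M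
  let π : O →+* O ⧸ M := Ideal.Quotient.mk M
  have hπℓ : ((ℓ : ℕ) : O ⧸ M) = 0 := by
    have h : π ((ℓ : ℕ) : O) = 0 :=
      Ideal.Quotient.eq_zero_iff_mem.mpr (hM (Ideal.subset_span rfl))
    rwa [map_natCast] at h
  have : CharP (O ⧸ M) ℓ := (CharP.charP_iff_prime_eq_zero (Fact.out : ℓ.Prime)).mpr hπℓ
  have hN : (0 : ℤ) < N := by exact_mod_cast Nat.pos_of_ne_zero (NeZero.ne N)
  have hroot : coeffMap π (E i₀) = qExpand (O ⧸ M) N (coeffMap (Int.castRingHom (O ⧸ M)) u) := by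
    rw [hE0, coeffMap_qExpand, coeffMap_coeffMap,
      coeffMap_congr (RingHom.ext_int (π.comp (Int.castRingHom O)) (Int.castRingHom (O ⧸ M))) u]
  refine ⟨O ⧸ M, inferInstance, inferInstance, χ.map (mapRingHom π), fun i => coeffMap π (E i),
    i₀, hχ.map _, (hχ.natDegree_map _).trans hdeg, ?_, hroot, ?_, ?_⟩
  · have hcomp : (aeval (jqNModC (O ⧸ M) N) : (O ⧸ M)[X] →ₐ[O ⧸ M] LaurentSeries (O ⧸ M)).toRingHom.comp
        (mapRingHom π)
        = (coeffMap π).comp (aeval (jqNModC O N) : O[X] →ₐ[O] LaurentSeries O).toRingHom := by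
      refine RingHom.ext fun P => ?_
      show aeval (jqNModC (O ⧸ M) N) (P.map π) = coeffMap π (aeval (jqNModC O N) P)
      rw [coeffMap_aeval, coeffMap_jqNModC]
    rw [Polynomial.map_map, hcomp, ← Polynomial.map_map, hfac, Polynomial.map_prod]
    refine Finset.prod_congr rfl fun i _ => ?_
    rw [Polynomial.map_sub, Polynomial.map_X, Polynomial.map_C]
  · rcases hu with ⟨m, hm, hum⟩ | hD
    · left
      show (coeffMap π (E i₀)).order < 0
      have h1 : (coeffMap π (E i₀)).coeff ((N : ℤ) * m) = 1 := by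
        rw [hroot, qExpand_coeff_mul, coeffMap_coeff, hum, map_one]
      refine lt_of_le_of_lt (HahnSeries.order_le_of_coeff_ne_zero (g := (N : ℤ) * m) ?_)
        (mul_neg_of_pos_of_neg hN hm)
      rw [h1]
      exact one_ne_zero
    · exact Or.inr hD
  · intro i hi
    obtain ⟨k, hk0, hlt, hunit⟩ := hEpos i hi
    show 0 < (coeffMap π (E i)).order
    have hne : (coeffMap π (E i)).coeff k ≠ 0 := by
      rw [coeffMap_coeff]
      exact (hunit.map π).ne_zero
    refine lt_of_lt_of_le hk0 (le_order_of_coeff_eq_zero _ (HahnSeries.ne_zero_of_coeff_ne_zero hne)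
      k fun k' hk' => ?_)
    rw [coeffMap_coeff, hlt k' hk', map_zero]

/-- **Reduction, complex form** (`Stmt_ModData → Stmt_ModDataModL`, Spec-independent form, without
the Lagrange clause): the polynomial `χ` is only assumed to have complex coefficients; they lie in
`O[Y]` automatically (triangularity). -/
theorem reduce_factorisation (N : ℕ) [NeZero N] (ℓ : ℕ) [Fact ℓ.Prime]
    (O : Subring ℂ) (hℓ : ¬ IsUnit ((ℓ : ℕ) : O))
    (u : LaurentSeries ℤ) {D : ℕ} (i₀ : Fin D) (ρ : Fin D → LaurentSeries ℂ)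
    (hρ0 : ρ i₀ = qExpand ℂ N (coeffMap (Int.castRingHom ℂ) u))
    (hu : (∃ m : ℤ, m < 0 ∧ u.coeff m = 1) ∨ D = 1)
    (hρ : ∀ i, i ≠ i₀ → (∀ n, (ρ i).coeff n ∈ O) ∧
      ∃ k : ℤ, 0 < k ∧ (∀ k' < k, (ρ i).coeff k' = 0) ∧ ∃ v ∈ O, (ρ i).coeff k * v = 1)
    (χ : Polynomial (Polynomial ℂ)) (hχ : χ.Monic) (hdeg : χ.natDegree = D)
    (hfac : χ.map (aeval (jqNModC ℂ N) : ℂ[X] →ₐ[ℂ] LaurentSeries ℂ).toRingHom
      = ∏ i, (X - C (ρ i))) :
    ∃ (κ : Type) (_ : Field κ) (_ : CharP κ ℓ) (χ' : Polynomial (Polynomial κ))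
      (ρ' : Fin D → LaurentSeries κ) (i₁ : Fin D),
      χ'.Monic ∧ χ'.natDegree = D ∧
      χ'.map (aeval (jqNModC κ N) : κ[X] →ₐ[κ] LaurentSeries κ).toRingHom
        = ∏ i, (X - C (ρ' i)) ∧
      ρ' i₁ = qExpand κ N (coeffMap (Int.castRingHom κ) u) ∧
      ((ρ' i₁).order < 0 ∨ D = 1) ∧
      (∀ i, i ≠ i₁ → 0 < (ρ' i).order) := by
  classical
  have hinjO : Function.Injective (coeffMap O.subtype) :=
    coeffMap_injective _ Subtype.coe_injective
  -- all coefficients of all roots lie in `O`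
  have hmem : ∀ i n, (ρ i).coeff n ∈ O := by
    intro i n
    by_cases hi : i = i₀
    · rw [hi, hρ0, ← coeffMap_qExpand, coeffMap_coeff, eq_intCast]
      exact intCast_mem O _
    · exact (hρ i hi).1 n
  let E : Fin D → LaurentSeries O := fun i => liftSeries O (ρ i) (hmem i)
  have hE : ∀ i, coeffMap O.subtype (E i) = ρ i := fun i => coeffMap_liftSeries O _ _
  have hprod : ∏ i, (X - C (ρ i)) = (∏ i, (X - C (E i))).map (coeffMap O.subtype) := by
    rw [Polynomial.map_prod]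
    refine Finset.prod_congr rfl fun i _ => ?_
    rw [Polynomial.map_sub, Polynomial.map_X, Polynomial.map_C, hE]
  -- lift `χ`
  obtain ⟨χ', hχ', hχ'map⟩ := exists_lift_poly O N χ hχ (by
    intro n k
    have h1 : aeval (jqNModC ℂ N) (χ.coeff n)
        = coeffMap O.subtype ((∏ i, (X - C (E i))).coeff n) := by
      rw [← coeff_map, ← hprod, ← hfac, coeff_map]
      rfl
    rw [h1, coeffMap_coeff]
    exact Subtype.property _)
  have hcomp : (coeffMap O.subtype).comp
      (aeval (jqNModC O N) : (↥O)[X] →ₐ[↥O] LaurentSeries ↥O).toRingHom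
      = (aeval (jqNModC ℂ N) : ℂ[X] →ₐ[ℂ] LaurentSeries ℂ).toRingHom.comp
        (mapRingHom O.subtype) := by
    refine RingHom.ext fun P => ?_
    show coeffMap O.subtype (aeval (jqNModC O N) P) = aeval (jqNModC ℂ N) (P.map O.subtype)
    rw [coeffMap_aeval, coeffMap_jqNModC]
  have hfac' : χ'.map (aeval (jqNModC O N) : (↥O)[X] →ₐ[↥O] LaurentSeries ↥O).toRingHom
      = ∏ i, (X - C (E i)) := by
    apply Polynomial.map_injective _ hinjO
    rw [Polynomial.map_map, hcomp, ← Polynomial.map_map]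
    show (χ'.map (mapRingHom O.subtype)).map _ = _
    rw [hχ'map, hfac, hprod]
  have hE0 : E i₀ = qExpand O N (coeffMap (Int.castRingHom O) u) := by
    apply hinjO
    rw [hE, hρ0, coeffMap_qExpand, coeffMap_coeffMap,
      coeffMap_congr (RingHom.ext_int (O.subtype.comp (Int.castRingHom O)) (Int.castRingHom ℂ)) u]
  have hdeg' : χ'.natDegree = D := by
    rw [← hdeg, ← hχ'map, hχ'.natDegree_map]
  refine reduce_factorisation_ring N ℓ hℓ u i₀ E hE0 hu ?_ χ' hχ' hdeg' hfac'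
  intro i hi
  obtain ⟨-, k, hk0, hlt, v, hv, hkv⟩ := hρ i hi
  refine ⟨k, hk0, fun k' hk' => Subtype.ext (hlt k' hk'), ?_⟩
  exact IsUnit.of_mul_eq_one (⟨v, hv⟩ : O) (Subtype.ext hkv)

end Reduce

section NotUnit

/-- In a subring `O ⊆ ℂ` all of whose elements become integral over `ℤ` after multiplication by a
power of `N`, a prime `ℓ ∤ N` is not a unit. -/
lemma not_isUnit_natCast_of_integral (O : Subring ℂ) (N ℓ : ℕ) [Fact ℓ.Prime] (hℓN : ¬ ℓ ∣ N)
    (hO : ∀ x ∈ O, ∃ k : ℕ, IsIntegral ℤ ((N : ℂ) ^ k * x)) : ¬ IsUnit ((ℓ : ℕ) : O) := by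
  intro h
  obtain ⟨v, hv⟩ := h.exists_right_inv
  have hv' : (ℓ : ℂ) * (v : ℂ) = 1 := by
    have := congrArg (Subtype.val) hv
    simpa using this
  obtain ⟨k, hk⟩ := hO v v.2
  have hℓ0 : (ℓ : ℂ) ≠ 0 := by
    exact_mod_cast (Fact.out : ℓ.Prime).ne_zero
  have hveq : (v : ℂ) = ((ℓ : ℂ))⁻¹ := eq_inv_of_mul_eq_one_right hv'
  have hq : (N : ℂ) ^ k * (v : ℂ) = algebraMap ℚ ℂ ((N : ℚ) ^ k / ℓ) := by
    rw [hveq]
    simp [div_eq_mul_inv]
  rw [hq] at hk
  have hk' : IsIntegral ℤ ((N : ℚ) ^ k / ℓ) :=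
    (isIntegral_algebraMap_iff (algebraMap ℚ ℂ).injective).mp hk
  obtain ⟨z, hz⟩ := IsIntegrallyClosed.isIntegral_iff.mp hk'
  have hℓ0' : (ℓ : ℚ) ≠ 0 := by
    exact_mod_cast (Fact.out : ℓ.Prime).ne_zero
  have hz' : (z : ℚ) * ℓ = (N : ℚ) ^ k := by
    have : (z : ℚ) = (N : ℚ) ^ k / ℓ := by simpa using hz
    rw [this, div_mul_cancel₀ _ hℓ0']
  have hz'' : z * (ℓ : ℤ) = (N : ℤ) ^ k := by exact_mod_cast hz'
  have hdvd : (ℓ : ℤ) ∣ (N : ℤ) ^ k := ⟨z, by rw [← hz'', mul_comm]⟩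
  have hdvd' : ℓ ∣ N ^ k := by exact_mod_cast hdvd
  exact hℓN ((Fact.out : ℓ.Prime).dvd_of_dvd_pow hdvd')

/-- The ring `ℤ[1/N, μ_N] ⊆ ℂ`. -/
def cycloRing (N : ℕ) : Subring ℂ := Subring.closure ({(N : ℂ)⁻¹} ∪ {z | z ^ N = 1})

lemma inv_mem_cycloRing (N : ℕ) : (N : ℂ)⁻¹ ∈ cycloRing N :=
  Subring.subset_closure (Or.inl rfl)

lemma root_mem_cycloRing (N : ℕ) (z : ℂ) (hz : z ^ N = 1) : z ∈ cycloRing N :=
  Subring.subset_closure (Or.inr hz)

lemma cycloRing_integral (N : ℕ) [NeZero N] :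
    ∀ x ∈ cycloRing N, ∃ k : ℕ, IsIntegral ℤ ((N : ℂ) ^ k * x) := by
  have hN0 : (N : ℂ) ≠ 0 := by exact_mod_cast NeZero.ne N
  have hNint : ∀ k : ℕ, IsIntegral ℤ ((N : ℂ) ^ k) := by
    intro k
    have h := (isIntegral_algebraMap (R := ℤ) (A := ℂ) (x := (N : ℤ))).pow k
    simpa using h
  intro x hx
  induction hx using Subring.closure_induction with
  | mem y hy =>
    rcases hy with rfl | hy
    · exact ⟨1, by rw [pow_one, mul_inv_cancel₀ hN0]; exact isIntegral_one⟩
    · refine ⟨0, ?_⟩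
      rw [pow_zero, one_mul]
      exact IsIntegral.of_pow (Nat.pos_of_ne_zero (NeZero.ne N)) (by rw [hy]; exact isIntegral_one)
  | zero => exact ⟨0, by simp [isIntegral_zero]⟩
  | one => exact ⟨0, by simp [isIntegral_one]⟩
  | add y z _ _ hy hz =>
    obtain ⟨a, ha⟩ := hy
    obtain ⟨b, hb⟩ := hz
    refine ⟨a + b, ?_⟩
    have : (N : ℂ) ^ (a + b) * (y + z)
        = (N : ℂ) ^ b * ((N : ℂ) ^ a * y) + (N : ℂ) ^ a * ((N : ℂ) ^ b * z) := by ring
    rw [this]
    exact ((hNint b).mul ha).add ((hNint a).mul hb)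
  | neg y _ hy =>
    obtain ⟨a, ha⟩ := hy
    exact ⟨a, by rw [mul_neg]; exact ha.neg⟩
  | mul y z _ _ hy hz =>
    obtain ⟨a, ha⟩ := hy
    obtain ⟨b, hb⟩ := hz
    refine ⟨a + b, ?_⟩
    have : (N : ℂ) ^ (a + b) * (y * z) = ((N : ℂ) ^ a * y) * ((N : ℂ) ^ b * z) := by ring
    rw [this]
    exact ha.mul hb

lemma not_isUnit_cycloRing (N ℓ : ℕ) [NeZero N] [Fact ℓ.Prime] (hℓN : ¬ ℓ ∣ N) :
    ¬ IsUnit ((ℓ : ℕ) : cycloRing N) :=
  not_isUnit_natCast_of_integral _ N ℓ hℓN (cycloRing_integral N)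

end NotUnit

section Main

/-- **Formal back half of the eta-quotient modular input** (general subring `O ⊆ ℂ`).
Input: a monic `χ` over `ℂ[Y]` with `χ(j(t^N), X) = ∏ (X - ρ i)` in `ℂ((t))[X]`, where
`ρ i₀ = u(t^N)` for an integral series `u` with a pole and a coefficient `1` there (or `D = 1`),
and every other root has coefficients in `O`, positive order and a unit (of `O`) lowest
coefficient; `ℓ` is not a unit of `O`.
Output: `1, ū, …, ū^(D-1)` are linearly independent over `𝔽_ℓ[j̄]` in `𝔽_ℓ((q))`. -/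
theorem li_of_factorisation (N : ℕ) [NeZero N] (ℓ : ℕ) [Fact ℓ.Prime]
    (O : Subring ℂ) (hℓ : ¬ IsUnit ((ℓ : ℕ) : O))
    (u : LaurentSeries ℤ) {D : ℕ} (i₀ : Fin D) (ρ : Fin D → LaurentSeries ℂ)
    (hρ0 : ρ i₀ = qExpand ℂ N (coeffMap (Int.castRingHom ℂ) u))
    (hu : (∃ m : ℤ, m < 0 ∧ u.coeff m = 1) ∨ D = 1)
    (hρ : ∀ i, i ≠ i₀ → (∀ n, (ρ i).coeff n ∈ O) ∧
      ∃ k : ℤ, 0 < k ∧ (∀ k' < k, (ρ i).coeff k' = 0) ∧ ∃ v ∈ O, (ρ i).coeff k * v = 1)
    (χ : Polynomial (Polynomial ℂ)) (hχ : χ.Monic) (hdeg : χ.natDegree = D)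
    (hfac : χ.map (aeval (jqNModC ℂ N) : ℂ[X] →ₐ[ℂ] LaurentSeries ℂ).toRingHom
      = ∏ i, (X - C (ρ i)))
    (c : Fin D → Polynomial (ZMod ℓ))
    (hc : ∑ i, aeval (jqModC (ZMod ℓ)) (c i) * (coeffMap (Int.castRingHom (ZMod ℓ)) u) ^ (i : ℕ)
      = 0) : c = 0 := by
  obtain ⟨κ, _, _, χ', ρ', i₁, hχ', -, hfac', hroot, hpole, hpos⟩ :=
    reduce_factorisation N ℓ O hℓ u i₀ ρ hρ0 hu hρ χ hχ hdeg hfac
  exact li_of_modL N ℓ u D χ' ρ' i₁ hχ' hfac' hroot hpole hpos c hc

/-- The same with `O = ℤ[1/N, μ_N]` universally quantified as in helper1603's `eta_factorisation`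
output: the integrality data is assumed for every subring of `ℂ` containing `1/N` and the `N`-th
roots of unity. -/
theorem li_of_eta_factorisation (N : ℕ) [NeZero N] (ℓ : ℕ) [Fact ℓ.Prime] (hℓN : ¬ ℓ ∣ N)
    (n : ℕ) (W : LaurentSeries ℤ) (χ : Polynomial (Polynomial ℂ))
    (U : Fin (n + 1) → LaurentSeries ℂ)
    (hW : (∃ m : ℤ, m < 0 ∧ W.coeff m = 1) ∨ n = 0)
    (hχ : χ.Monic) (hdeg : χ.natDegree = n + 1)
    (hfac : χ.map (aeval (jqNModC ℂ N) : ℂ[X] →ₐ[ℂ] LaurentSeries ℂ).toRingHom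
      = ∏ i, (X - C (U i)))
    (hU0 : U 0 = qExpand ℂ N (coeffMap (Int.castRingHom ℂ) W))
    (hO : ∀ O : Subring ℂ, (N : ℂ)⁻¹ ∈ O → (∀ z : ℂ, z ^ N = 1 → z ∈ O) →
      (∀ i k, (U i).coeff k ∈ O) ∧ ∀ i, i ≠ 0 →
        ∃ k : ℤ, 0 < k ∧ (∀ k' < k, (U i).coeff k' = 0) ∧ ∃ v ∈ O, (U i).coeff k * v = 1)
    (c : Fin (n + 1) → Polynomial (ZMod ℓ))
    (hc : ∑ i, aeval (jqModC (ZMod ℓ)) (c i) * (coeffMap (Int.castRingHom (ZMod ℓ)) W) ^ (i : ℕ)
      = 0) : c = 0 := by
  obtain ⟨h1, h2⟩ := hO (cycloRing N) (inv_mem_cycloRing N) (root_mem_cycloRing N)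
  refine li_of_factorisation N ℓ (cycloRing N) (not_isUnit_cycloRing N ℓ hℓN) W 0 U hU0
    (hW.imp id fun h => by omega) (fun i hi => ⟨h1 i, h2 i hi⟩) χ hχ hdeg hfac c hc

end Main

end

end Fermat.Agent.S28.helper1262
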