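import Fermat.Agent.S28.helper868_Spec
import Fermat.Agent.S28.helper1262_ModLIndep

/-!
# S28: the two formal links `hE1`, `hE2` of `helper868.chartRed_of`

* `modDataModL_of_modData` : `¬ ℓ ∣ N → Stmt_ModData N u D → Stmt_ModDataModL N ℓ u D`
* `H3_of_modDataModL` : `Stmt_ModDataModL N ℓ u D → Stmt_H3 ℓ u D`
-/

set_option autoImplicit false

namespace Fermat.Agent.S28.helper1262

open Polynomial ModularCurve Fermat.Agent.S28.helper868

/-- `hE2` of `helper868.chartRed_of`. -/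
theorem H3_of_modDataModL (N ℓ : ℕ) [NeZero N] [Fact ℓ.Prime] (u : LaurentSeries ℤ) (D : ℕ)
    (h : Stmt_ModDataModL N ℓ u D) : Stmt_H3 ℓ u D := by
  obtain ⟨κ, _, _, χ, ρ, i₀, hχ, -, hfac, hroot, hpole, hpos⟩ := h
  intro c hc
  exact li_of_modL N ℓ u D χ ρ i₀ hχ hfac hroot hpole hpos c hc

/-- `hE1` of `helper868.chartRed_of`. -/
theorem modDataModL_of_modData (N ℓ : ℕ) [NeZero N] [Fact ℓ.Prime] (u : LaurentSeries ℤ) (D : ℕ)
    (hℓN : ¬ ℓ ∣ N) (h : Stmt_ModData N u D) : Stmt_ModDataModL N ℓ u D := by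
  obtain ⟨O, χ, ρ, i₀, hO, hχ, hdeg, hfac, hroot, hlead, hord, hpos, -⟩ := h
  have hu : (∃ m : ℤ, m < 0 ∧ u.coeff m = 1) ∨ D = 1 := by
    rcases hord with hord | hD
    · exact Or.inl ⟨u.order, hord, by rw [← HahnSeries.leadingCoeff_eq]; exact hlead⟩
    · exact Or.inr hD
  refine reduce_factorisation N ℓ O (not_isUnit_natCast_of_integral O N ℓ hℓN hO) u i₀ ρ hroot hu
    ?_ χ hχ hdeg hfac
  intro i hi
  obtain ⟨hpos_i, hmem, v, hv, hlv⟩ := hpos i hi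
  refine ⟨hmem, (ρ i).order, hpos_i, fun k' hk' => HahnSeries.coeff_eq_zero_of_lt_order hk', v, hv,
    ?_⟩
  rw [← HahnSeries.leadingCoeff_eq]
  exact hlv

/-- `hE1` and `hE2` combined: `Stmt_ModData N u D → Stmt_H3 ℓ u D` for `ℓ ∤ N`. -/
theorem H3_of_modData (N ℓ : ℕ) [NeZero N] [Fact ℓ.Prime] (u : LaurentSeries ℤ) (D : ℕ)
    (hℓN : ¬ ℓ ∣ N) (h : Stmt_ModData N u D) : Stmt_H3 ℓ u D :=
  H3_of_modDataModL N ℓ u D (modDataModL_of_modData N ℓ u D hℓN h)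

end Fermat.Agent.S28.helper1262
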