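/-
S28 (Igusa), route E, leaf E-TRANSFER (helper1267).

Formal transfer from functions on the upper half plane to Laurent series in t = q^(1/N).

* `tP N τ = exp (2 π i τ / N)`, the parameter at the cusp.
* `HasTExp N f E` : `f : ℍ → ℂ` has the Laurent expansion `E ∈ ℂ((t))` in `t = tP N τ`, convergent
  on all of `ℍ` (`E = t^(-m) G(t)` with `t^m f τ = ∑ G_n t^n`).
  Closed under constants, `+`, `*`, `-`, powers, finite sums and products (`texpSubalgebra`);
  the expansion is unique (`HasTExp.unique`); a function with an expansion is holomorphic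
  (`HasTExp.mdiff`) and has exponential growth at the cusp (`HasTExp.hasExpGrowth`).
* constructors: `hasTExp_const`, `hasTExp_tP_zpow`, `hasTExp_ofPowerSeries`,
  `hasTExp_of_hasSum_zpow` (`f τ = c t^K ∑ H_n t^n`), `HasTExp.qExpand` (change of level),
  `hasTExp_jFun` (Klein's `j = E₄³/Δ` has the expansion `jqNModC ℂ N = j(t^N)`).
* `exists_polynomial_of_invariant` : an `SL(2,ℤ)`-invariant function with expansion `C` has
  `C ∈ ℂ[j(t^N)]`.
* `exists_monic_factorisation` : for a finite family `φ x` permuted by `SL(2,ℤ)` with expansions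
  `E x`, there is a monic `P ∈ ℂ[Y][X]` of degree `card X` with
  `P(j(t^N), X) = ∏ (X - E x)` in `ℂ((t))[X]`;  `exists_monic_root` (root form);
  `exists_monic_factorisation_of_invariant` (cosets of a finite index subgroup).
* `exists_lagrange`, `exists_monic_and_lagrange` : the Lagrange interpolation polynomial
  `∑_x F x ∏_{y ≠ x} (X - E y)` has coefficients in `ℂ[j(t^N)]`, and
  `G(j, E x₀) = F x₀ * P'(j, E x₀)`.

Built on two modules of the S24 team: `helper167_SymmetricJ` (symmetric functions of an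
`SL(2,ℤ)`-permuted family are polynomials in `j`) and `helper1644_AnalyticJ` (the expansion of
`j`).
-/
import Mathlib
import Fermat.Prelude.Def_ModularCurve_X0ModL
import Fermat.Agent.S24.helper1644_AnalyticJ
import Fermat.Agent.S24.helper167_SymmetricJ

set_option autoImplicit false

open UpperHalfPlane Filter
open scoped Manifold Topology MatrixGroups

namespace Fermat.Agent.S28.helper1267

noncomputable section

/-- The local parameter `t = exp (2 π i τ / N)` at the cusp `∞`. -/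
def tP (N : ℕ) (τ : ℍ) : ℂ := Function.Periodic.qParam (N : ℝ) (τ : ℂ)

theorem tP_ne_zero (N : ℕ) (τ : ℍ) : tP N τ ≠ 0 := Function.Periodic.qParam_ne_zero _

theorem norm_tP_lt_one (N : ℕ) [NeZero N] (τ : ℍ) : ‖tP N τ‖ < 1 :=
  Function.Periodic.norm_qParam_lt_one (by exact_mod_cast Nat.pos_of_ne_zero (NeZero.ne N)) τ.im_pos

theorem norm_tP (N : ℕ) (τ : ℍ) : ‖tP N τ‖ = Real.exp (-2 * Real.pi * τ.im / N) :=
  Function.Periodic.norm_qParam _ _

theorem tP_pow (N M : ℕ) [NeZero N] (τ : ℍ) : tP (N * M) τ ^ N = tP M τ := by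
  unfold tP Function.Periodic.qParam
  rw [← Complex.exp_nat_mul]
  congr 1
  have hN : (N : ℂ) ≠ 0 := by exact_mod_cast NeZero.ne N
  by_cases hM : (M : ℂ) = 0
  · simp [hM]
  · push_cast
    field_simp

/-- `(m, G)` represents `f`: `t^m * f τ = ∑ G_n t^n` on all of `ℍ`. -/
def Rep (N : ℕ) (f : ℍ → ℂ) (m : ℕ) (G : PowerSeries ℂ) : Prop :=
  ∀ τ : ℍ, HasSum (fun n : ℕ => PowerSeries.coeff n G * tP N τ ^ n) (tP N τ ^ m * f τ)

theorem Rep.summable_norm {N : ℕ} {f : ℍ → ℂ} {m : ℕ} {G : PowerSeries ℂ} (h : Rep N f m G)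
    (τ : ℍ) : Summable (fun n : ℕ => ‖PowerSeries.coeff n G * tP N τ ^ n‖) :=
  (h τ).summable.norm

theorem Rep.mul {N : ℕ} {f₁ f₂ : ℍ → ℂ} {m₁ m₂ : ℕ} {G₁ G₂ : PowerSeries ℂ}
    (h₁ : Rep N f₁ m₁ G₁) (h₂ : Rep N f₂ m₂ G₂) : Rep N (f₁ * f₂) (m₁ + m₂) (G₁ * G₂) := by
  intro τ
  have hs := summable_norm_sum_mul_antidiagonal_of_summable_norm (h₁.summable_norm τ)
    (h₂.summable_norm τ)
  have ht := tsum_mul_tsum_eq_tsum_sum_antidiagonal_of_summable_norm (h₁.summable_norm τ)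
    (h₂.summable_norm τ)
  rw [(h₁ τ).tsum_eq, (h₂ τ).tsum_eq] at ht
  have hfun : (fun n : ℕ => PowerSeries.coeff n (G₁ * G₂) * tP N τ ^ n) = fun n : ℕ =>
      ∑ kl ∈ Finset.HasAntidiagonal.antidiagonal n, (PowerSeries.coeff kl.1 G₁ * tP N τ ^ kl.1) *
        (PowerSeries.coeff kl.2 G₂ * tP N τ ^ kl.2) := by
    funext n
    rw [PowerSeries.coeff_mul, Finset.sum_mul]
    refine Finset.sum_congr rfl fun kl hkl => ?_
    rw [← (Finset.HasAntidiagonal.mem_antidiagonal.mp hkl), pow_add]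
    ring
  rw [hfun]
  have hval : tP N τ ^ (m₁ + m₂) * (f₁ * f₂) τ = tP N τ ^ m₁ * f₁ τ * (tP N τ ^ m₂ * f₂ τ) := by
    rw [Pi.mul_apply, pow_add]; ring
  rw [hval, ht]
  exact hs.of_norm.hasSum

theorem Rep.add {N : ℕ} {f₁ f₂ : ℍ → ℂ} {m : ℕ} {G₁ G₂ : PowerSeries ℂ}
    (h₁ : Rep N f₁ m G₁) (h₂ : Rep N f₂ m G₂) : Rep N (f₁ + f₂) m (G₁ + G₂) := by
  intro τ
  have := (h₁ τ).add (h₂ τ)
  convert this using 1
  · funext n; rw [map_add, add_mul]
  · rw [Pi.add_apply, mul_add]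

theorem rep_X_pow (N k : ℕ) : Rep N 1 k (PowerSeries.X ^ k) := by
  intro τ
  have h := hasSum_single (f := fun n : ℕ => PowerSeries.coeff n (PowerSeries.X ^ k : PowerSeries ℂ)
    * tP N τ ^ n) k (fun n hn => by
      simp only [PowerSeries.coeff_X_pow, if_neg hn, zero_mul])
  simpa [PowerSeries.coeff_X_pow] using h

theorem rep_C (N : ℕ) (c : ℂ) : Rep N (fun _ => c) 0 (PowerSeries.C c) := by
  intro τ
  have h := hasSum_single (f := fun n : ℕ => PowerSeries.coeff n (PowerSeries.C c : PowerSeries ℂ)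
    * tP N τ ^ n) 0 (fun n hn => by
      simp only [PowerSeries.coeff_C, if_neg hn, zero_mul])
  simpa using h

theorem Rep.shift {N : ℕ} {f : ℍ → ℂ} {m : ℕ} {G : PowerSeries ℂ} (h : Rep N f m G) (k : ℕ) :
    Rep N f (m + k) (G * PowerSeries.X ^ k) := by
  have := h.mul (rep_X_pow N k)
  rwa [mul_one] at this

theorem Rep.neg {N : ℕ} {f : ℍ → ℂ} {m : ℕ} {G : PowerSeries ℂ} (h : Rep N f m G) :
    Rep N (-f) m (-G) := by
  intro τ
  have := (h τ).neg
  simpa only [map_neg, neg_mul, Pi.neg_apply, mul_neg] using this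

/-! ### The analytic function on the unit disc attached to a representation -/

/-- The function defined by a power series (junk value where it does not converge). -/
def psFun (G : PowerSeries ℂ) (z : ℂ) : ℂ := ∑' n : ℕ, PowerSeries.coeff n G * z ^ n

theorem exists_tP_eq (N : ℕ) [NeZero N] {z : ℂ} (hz : ‖z‖ < 1) (hz0 : z ≠ 0) :
    ∃ τ : ℍ, tP N τ = z := by
  have hN : (0 : ℝ) < N := by exact_mod_cast Nat.pos_of_ne_zero (NeZero.ne N)
  exact ⟨⟨Function.Periodic.invQParam N z,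
    Function.Periodic.im_invQParam_pos_of_norm_lt_one hN hz hz0⟩,
    Function.Periodic.qParam_right_inv hN.ne' hz0⟩

theorem Rep.hasSum_disc {N : ℕ} [NeZero N] {f : ℍ → ℂ} {m : ℕ} {G : PowerSeries ℂ}
    (h : Rep N f m G) {z : ℂ} (hz : ‖z‖ < 1) :
    HasSum (fun n : ℕ => PowerSeries.coeff n G * z ^ n) (psFun G z) := by
  have hs : Summable (fun n : ℕ => PowerSeries.coeff n G * z ^ n) := by
    by_cases hz0 : z = 0
    · subst hz0
      exact (hasSum_single (f := fun n : ℕ => PowerSeries.coeff n G * (0 : ℂ) ^ n) 0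
        (fun n hn => by simp [hn])).summable
    · obtain ⟨τ, rfl⟩ := exists_tP_eq N hz hz0
      exact (h τ).summable
  exact hs.hasSum

theorem Rep.psFun_tP {N : ℕ} {f : ℍ → ℂ} {m : ℕ} {G : PowerSeries ℂ}
    (h : Rep N f m G) (τ : ℍ) : psFun G (tP N τ) = tP N τ ^ m * f τ := (h τ).tsum_eq

theorem Rep.hasFPowerSeriesOnBall {N : ℕ} [NeZero N] {f : ℍ → ℂ} {m : ℕ} {G : PowerSeries ℂ}
    (h : Rep N f m G) :
    HasFPowerSeriesOnBall (psFun G)
      (FormalMultilinearSeries.ofScalars ℂ (fun n => PowerSeries.coeff n G)) 0 1 := by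
  have := Fermat.Agent.S24.helper1644.hasFPowerSeriesOnBall_of_hasSum (f := psFun G)
    (c := fun n => PowerSeries.coeff n G) (r := 1) one_pos
    (fun z hz => h.hasSum_disc (by simpa using hz))
  simpa using this

theorem Rep.differentiableOn {N : ℕ} [NeZero N] {f : ℍ → ℂ} {m : ℕ} {G : PowerSeries ℂ}
    (h : Rep N f m G) : DifferentiableOn ℂ (psFun G) (Metric.ball 0 1) := by
  have := h.hasFPowerSeriesOnBall.differentiableOn
  rwa [← ENNReal.ofReal_one, Metric.eball_ofReal] at this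

/-- **Uniqueness**: the zero function only has the zero expansion. -/
theorem Rep.eq_zero {N : ℕ} [NeZero N] {m : ℕ} {G : PowerSeries ℂ}
    (h : Rep N (0 : ℍ → ℂ) m G) : G = 0 := by
  have hb := h.hasFPowerSeriesOnBall
  have hzero : ∀ z : ℂ, ‖z‖ < 1 → z ≠ 0 → psFun G z = 0 := by
    intro z hz hz0
    obtain ⟨τ, rfl⟩ := exists_tP_eq N hz hz0
    rw [h.psFun_tP τ, Pi.zero_apply, mul_zero]
  have hev : ∀ᶠ z in 𝓝[≠] (0 : ℂ), psFun G z = 0 := by
    have h1 : ∀ᶠ z in 𝓝 (0 : ℂ), ‖z‖ < 1 := by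
      have : Metric.ball (0 : ℂ) 1 ∈ 𝓝 (0 : ℂ) := Metric.ball_mem_nhds 0 one_pos
      filter_upwards [this] with z hz
      simpa using hz
    have h2 : ∀ᶠ z in 𝓝[≠] (0 : ℂ), ‖z‖ < 1 := h1.filter_mono nhdsWithin_le_nhds
    filter_upwards [h2, self_mem_nhdsWithin] with z hz hz0
    exact hzero z hz hz0
  have h0 : ∀ᶠ z in 𝓝 (0 : ℂ), psFun G z = 0 := by
    rcases hb.analyticAt.eventually_eq_zero_or_eventually_ne_zero with h1 | h1
    · exact h1
    · exfalso
      have := (hev.and h1).exists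
      obtain ⟨z, hz, hz'⟩ := this
      exact hz' hz
  have hp := (hb.hasFPowerSeriesAt.congr (g := 0) h0).eq_zero
  ext n
  have h1 : (FormalMultilinearSeries.ofScalars ℂ (fun n => PowerSeries.coeff n G)).coeff n =
      (0 : FormalMultilinearSeries ℂ ℂ ℂ).coeff n := by rw [hp]
  rw [FormalMultilinearSeries.coeff_ofScalars] at h1
  simpa [FormalMultilinearSeries.coeff] using h1

/-- Growth at `i∞` from an expansion. -/
theorem Rep.hasExpGrowth {N : ℕ} [NeZero N] {f : ℍ → ℂ} {m : ℕ} {G : PowerSeries ℂ}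
    (h : Rep N f m G) : Fermat.Agent.S24.helper167.HasExpGrowth f := by
  have hN : (0 : ℝ) < N := by exact_mod_cast Nat.pos_of_ne_zero (NeZero.ne N)
  have hN1 : (1 : ℝ) ≤ N := by exact_mod_cast Nat.one_le_iff_ne_zero.mpr (NeZero.ne N)
  set r : ℝ := ‖tP N UpperHalfPlane.I‖ with hr
  have hsI : Summable (fun n : ℕ => ‖PowerSeries.coeff n G‖ * r ^ n) := by
    have := h.summable_norm UpperHalfPlane.I
    simpa [norm_mul, norm_pow] using this
  refine ⟨m, ∑' n : ℕ, ‖PowerSeries.coeff n G‖ * r ^ n, fun τ hτ => ?_⟩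
  have hle : ‖tP N τ‖ ≤ r := by
    rw [hr, norm_tP, norm_tP, UpperHalfPlane.I_im]
    apply Real.exp_le_exp.mpr
    have h2 : (0 : ℝ) ≤ 2 * Real.pi := by positivity
    rw [div_le_div_iff_of_pos_right hN]
    nlinarith
  have hsτ : Summable (fun n : ℕ => ‖PowerSeries.coeff n G‖ * ‖tP N τ‖ ^ n) := by
    have := h.summable_norm τ
    simpa [norm_mul, norm_pow] using this
  have h1 : ‖tP N τ ^ m * f τ‖ ≤ ∑' n : ℕ, ‖PowerSeries.coeff n G‖ * r ^ n := by
    rw [← (h τ).tsum_eq]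
    refine (norm_tsum_le_tsum_norm (h.summable_norm τ)).trans ?_
    have : (fun n : ℕ => ‖PowerSeries.coeff n G * tP N τ ^ n‖) =
        fun n : ℕ => ‖PowerSeries.coeff n G‖ * ‖tP N τ‖ ^ n := by
      funext n; rw [norm_mul, norm_pow]
    rw [this]
    exact hsτ.tsum_le_tsum (fun n => mul_le_mul_of_nonneg_left
      (pow_le_pow_left₀ (norm_nonneg _) hle n) (norm_nonneg _)) hsI
  have ht0 : 0 < ‖tP N τ‖ ^ m := pow_pos (norm_pos_iff.mpr (tP_ne_zero N τ)) m
  have hB0 : 0 ≤ ∑' n : ℕ, ‖PowerSeries.coeff n G‖ * r ^ n := (norm_nonneg _).trans h1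
  rw [norm_mul, norm_pow] at h1
  have h2 : ‖f τ‖ ≤ (∑' n : ℕ, ‖PowerSeries.coeff n G‖ * r ^ n) * (‖tP N τ‖ ^ m)⁻¹ := by
    rw [le_mul_inv_iff₀ ht0, mul_comm]
    exact h1
  refine h2.trans (mul_le_mul_of_nonneg_left ?_ hB0)
  rw [norm_tP, ← Real.exp_nat_mul, ← Real.exp_neg]
  apply Real.exp_le_exp.mpr
  have hy : 0 ≤ τ.im := τ.im_pos.le
  have h3 : (0 : ℝ) ≤ 2 * Real.pi * m * τ.im := by positivity
  have h4 : -(m * (-2 * Real.pi * τ.im / N)) = (2 * Real.pi * m * τ.im) / N := by ring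
  rw [h4]
  exact div_le_self h3 hN1

/-- Holomorphy from an expansion. -/
theorem Rep.mdiff {N : ℕ} [NeZero N] {f : ℍ → ℂ} {m : ℕ} {G : PowerSeries ℂ}
    (h : Rep N f m G) : MDiff f := by
  rw [UpperHalfPlane.mdifferentiable_iff]
  have hq : Differentiable ℂ (Function.Periodic.qParam (N : ℝ)) :=
    Function.Periodic.differentiable_qParam
  have hN : (0 : ℝ) < N := by exact_mod_cast Nat.pos_of_ne_zero (NeZero.ne N)
  have hF : DifferentiableOn ℂ (fun z : ℂ => ((Function.Periodic.qParam (N : ℝ) z)⁻¹) ^ m *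
      psFun G (Function.Periodic.qParam (N : ℝ) z)) {z | 0 < z.im} := by
    refine DifferentiableOn.mul ?_ ?_
    · exact ((hq.inv (fun z => Function.Periodic.qParam_ne_zero z)).pow m).differentiableOn
    · refine h.differentiableOn.comp hq.differentiableOn ?_
      intro z hz
      simpa using Function.Periodic.norm_qParam_lt_one hN hz
  refine hF.congr fun z hz => ?_
  have hz' : 0 < z.im := hz
  have hτ := h.psFun_tP ⟨z, hz'⟩
  simp only [Function.comp_apply, UpperHalfPlane.ofComplex_apply_of_im_pos hz']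
  have hne : Function.Periodic.qParam (N : ℝ) z ≠ 0 := Function.Periodic.qParam_ne_zero z
  have hτ' : psFun G (Function.Periodic.qParam (N : ℝ) z) =
      Function.Periodic.qParam (N : ℝ) z ^ m * f ⟨z, hz'⟩ := hτ
  rw [hτ', inv_pow, ← mul_assoc, inv_mul_cancel₀ (pow_ne_zero m hne), one_mul]

/-! ### Laurent expansions in `t = q^(1/N)` -/

/-- `f : ℍ → ℂ` has the Laurent expansion `E ∈ ℂ((t))` in `t = exp (2 π i τ / N)`, convergent on
all of `ℍ`: `E = t^(-m) * G(t)` for a power series `G` with `t^m * f τ = ∑ G_n t^n`. -/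
def HasTExp (N : ℕ) (f : ℍ → ℂ) (E : LaurentSeries ℂ) : Prop :=
  ∃ (m : ℕ) (G : PowerSeries ℂ),
    E = HahnSeries.single (-(m : ℤ)) (1 : ℂ) * HahnSeries.ofPowerSeries ℤ ℂ G ∧ Rep N f m G

theorem single_neg_mul_ofPowerSeries_shift (m k : ℕ) (G : PowerSeries ℂ) :
    HahnSeries.single (-(m : ℤ)) (1 : ℂ) * HahnSeries.ofPowerSeries ℤ ℂ G =
      HahnSeries.single (-((m + k : ℕ) : ℤ)) (1 : ℂ) *
        HahnSeries.ofPowerSeries ℤ ℂ (G * PowerSeries.X ^ k) := by
  rw [map_mul, HahnSeries.ofPowerSeries_X_pow, mul_comm (HahnSeries.ofPowerSeries ℤ ℂ G),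
    ← mul_assoc, HahnSeries.single_mul_single, mul_one]
  have : -((m + k : ℕ) : ℤ) + (k : ℤ) = -(m : ℤ) := by push_cast; ring
  rw [this]

theorem hasTExp_const (N : ℕ) (c : ℂ) : HasTExp N (fun _ => c) (HahnSeries.C c) :=
  ⟨0, PowerSeries.C c, by
    rw [HahnSeries.ofPowerSeries_C, Nat.cast_zero, neg_zero, HahnSeries.single_zero_one, one_mul],
    rep_C N c⟩

theorem HasTExp.mul {N : ℕ} {f₁ f₂ : ℍ → ℂ} {E₁ E₂ : LaurentSeries ℂ}
    (h₁ : HasTExp N f₁ E₁) (h₂ : HasTExp N f₂ E₂) : HasTExp N (f₁ * f₂) (E₁ * E₂) := by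
  obtain ⟨m₁, G₁, rfl, r₁⟩ := h₁
  obtain ⟨m₂, G₂, rfl, r₂⟩ := h₂
  refine ⟨m₁ + m₂, G₁ * G₂, ?_, r₁.mul r₂⟩
  rw [map_mul, mul_mul_mul_comm, HahnSeries.single_mul_single, mul_one]
  have : (-(m₁ : ℤ)) + -(m₂ : ℤ) = -((m₁ + m₂ : ℕ) : ℤ) := by push_cast; ring
  rw [this]

theorem HasTExp.add {N : ℕ} {f₁ f₂ : ℍ → ℂ} {E₁ E₂ : LaurentSeries ℂ}
    (h₁ : HasTExp N f₁ E₁) (h₂ : HasTExp N f₂ E₂) : HasTExp N (f₁ + f₂) (E₁ + E₂) := by
  obtain ⟨m₁, G₁, rfl, r₁⟩ := h₁
  obtain ⟨m₂, G₂, rfl, r₂⟩ := h₂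
  refine ⟨m₁ + m₂, G₁ * PowerSeries.X ^ m₂ + G₂ * PowerSeries.X ^ m₁, ?_, ?_⟩
  · rw [single_neg_mul_ofPowerSeries_shift m₁ m₂ G₁, single_neg_mul_ofPowerSeries_shift m₂ m₁ G₂,
      Nat.add_comm m₂ m₁, ← mul_add, ← map_add]
  · have := r₂.shift m₁
    rw [Nat.add_comm m₂ m₁] at this
    exact (r₁.shift m₂).add this

theorem HasTExp.neg {N : ℕ} {f : ℍ → ℂ} {E : LaurentSeries ℂ} (h : HasTExp N f E) :
    HasTExp N (-f) (-E) := by
  obtain ⟨m, G, rfl, r⟩ := h
  exact ⟨m, -G, by rw [map_neg]; ring, r.neg⟩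

theorem HasTExp.sub {N : ℕ} {f₁ f₂ : ℍ → ℂ} {E₁ E₂ : LaurentSeries ℂ}
    (h₁ : HasTExp N f₁ E₁) (h₂ : HasTExp N f₂ E₂) : HasTExp N (f₁ - f₂) (E₁ - E₂) := by
  rw [sub_eq_add_neg, sub_eq_add_neg]
  exact h₁.add h₂.neg

theorem hasTExp_one (N : ℕ) : HasTExp N 1 1 := by
  have := hasTExp_const N 1
  rwa [map_one] at this

theorem hasTExp_zero (N : ℕ) : HasTExp N 0 0 := by
  have := hasTExp_const N 0
  rwa [map_zero] at this

theorem HasTExp.pow {N : ℕ} {f : ℍ → ℂ} {E : LaurentSeries ℂ} (h : HasTExp N f E) (n : ℕ) :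
    HasTExp N (f ^ n) (E ^ n) := by
  induction n with
  | zero => simpa using hasTExp_one N
  | succ n ih => rw [pow_succ, pow_succ]; exact ih.mul h

theorem HasTExp.eq_zero {N : ℕ} [NeZero N] {E : LaurentSeries ℂ} (h : HasTExp N 0 E) : E = 0 := by
  obtain ⟨m, G, rfl, r⟩ := h
  rw [r.eq_zero, map_zero, mul_zero]

/-- **Uniqueness of the expansion.** -/
theorem HasTExp.unique {N : ℕ} [NeZero N] {f : ℍ → ℂ} {E₁ E₂ : LaurentSeries ℂ}
    (h₁ : HasTExp N f E₁) (h₂ : HasTExp N f E₂) : E₁ = E₂ := by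
  have := (h₁.sub h₂)
  rw [sub_self] at this
  exact sub_eq_zero.mp this.eq_zero

theorem HasTExp.mdiff {N : ℕ} [NeZero N] {f : ℍ → ℂ} {E : LaurentSeries ℂ} (h : HasTExp N f E) :
    MDiff f := by
  obtain ⟨m, G, -, r⟩ := h
  exact r.mdiff

theorem HasTExp.hasExpGrowth {N : ℕ} [NeZero N] {f : ℍ → ℂ} {E : LaurentSeries ℂ}
    (h : HasTExp N f E) : Fermat.Agent.S24.helper167.HasExpGrowth f := by
  obtain ⟨m, G, -, r⟩ := h
  exact r.hasExpGrowth

/-- The pairs (function, expansion) form a `ℂ`-subalgebra of `(ℍ → ℂ) × ℂ((t))`. -/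
def texpSubalgebra (N : ℕ) : Subalgebra ℂ ((ℍ → ℂ) × LaurentSeries ℂ) where
  carrier := {p | HasTExp N p.1 p.2}
  mul_mem' := fun ha hb => HasTExp.mul ha hb
  add_mem' := fun ha hb => HasTExp.add ha hb
  one_mem' := hasTExp_one N
  zero_mem' := hasTExp_zero N
  algebraMap_mem' := fun c => by
    show HasTExp N (fun _ => c) (algebraMap ℂ (LaurentSeries ℂ) c)
    have h1 : algebraMap ℂ (PowerSeries ℂ) c = PowerSeries.C c := by simp
    rw [HahnSeries.algebraMap_apply', h1, HahnSeries.ofPowerSeries_C]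
    exact hasTExp_const N c

theorem mem_texpSubalgebra {N : ℕ} {p : (ℍ → ℂ) × LaurentSeries ℂ} :
    p ∈ texpSubalgebra N ↔ HasTExp N p.1 p.2 := Iff.rfl

theorem hasTExp_finset_sum {N : ℕ} {ι : Type*} (s : Finset ι) (f : ι → ℍ → ℂ)
    (E : ι → LaurentSeries ℂ) (h : ∀ i ∈ s, HasTExp N (f i) (E i)) :
    HasTExp N (∑ i ∈ s, f i) (∑ i ∈ s, E i) := by
  have := Subalgebra.sum_mem (texpSubalgebra N) (t := s) (f := fun i => ((f i, E i) : (ℍ → ℂ) × _))
    (fun i hi => h i hi)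
  rw [mem_texpSubalgebra, Prod.fst_sum, Prod.snd_sum] at this
  exact this

theorem hasTExp_finset_prod {N : ℕ} {ι : Type*} (s : Finset ι) (f : ι → ℍ → ℂ)
    (E : ι → LaurentSeries ℂ) (h : ∀ i ∈ s, HasTExp N (f i) (E i)) :
    HasTExp N (∏ i ∈ s, f i) (∏ i ∈ s, E i) := by
  have := Subalgebra.prod_mem (texpSubalgebra N) (t := s) (f := fun i => ((f i, E i) : (ℍ → ℂ) × _))
    (fun i hi => h i hi)
  rw [mem_texpSubalgebra, Prod.fst_prod, Prod.snd_prod] at this
  exact this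

/-! ### Change of level `t ↦ t^N` and the expansion of `j` -/

theorem qExpand_ofPowerSeries (N : ℕ) [NeZero N] (G : PowerSeries ℂ) :
    ModularCurve.qExpand ℂ N (HahnSeries.ofPowerSeries ℤ ℂ G) =
      HahnSeries.ofPowerSeries ℤ ℂ (PowerSeries.expand N (NeZero.ne N) G) := by
  have hN : (0 : ℤ) < N := by exact_mod_cast Nat.pos_of_ne_zero (NeZero.ne N)
  ext k
  by_cases hk : (N : ℤ) ∣ k
  · obtain ⟨j, rfl⟩ := hk
    rw [ModularCurve.qExpand_coeff_mul]
    rcases lt_or_ge j 0 with hj | hj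
    · rw [ModularCurve.ofPowerSeries_coeff_of_neg _ hj,
        ModularCurve.ofPowerSeries_coeff_of_neg _ (mul_neg_of_pos_of_neg hN hj)]
    · lift j to ℕ using hj
      rw [HahnSeries.ofPowerSeries_apply_coeff, ← Nat.cast_mul,
        HahnSeries.ofPowerSeries_apply_coeff, PowerSeries.coeff_expand_mul]
  · rw [ModularCurve.qExpand_coeff_of_not_dvd N _ hk]
    rcases lt_or_ge k 0 with hk0 | hk0
    · rw [ModularCurve.ofPowerSeries_coeff_of_neg _ hk0]
    · lift k to ℕ using hk0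
      rw [HahnSeries.ofPowerSeries_apply_coeff, PowerSeries.coeff_expand_of_not_dvd]
      intro h
      exact hk (by exact_mod_cast h)

theorem Rep.expand {M : ℕ} {f : ℍ → ℂ} {m : ℕ} {G : PowerSeries ℂ} (h : Rep M f m G)
    (N : ℕ) [NeZero N] : Rep (N * M) f (N * m) (PowerSeries.expand N (NeZero.ne N) G) := by
  intro τ
  have hinj : Function.Injective (fun k : ℕ => N * k) :=
    fun a b hab => Nat.eq_of_mul_eq_mul_left (Nat.pos_of_ne_zero (NeZero.ne N)) hab
  rw [← hinj.hasSum_iff]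
  · have h1 := h τ
    rw [← tP_pow N M τ] at h1
    convert h1 using 1
    · funext k
      simp only [Function.comp_apply, PowerSeries.coeff_expand_mul, pow_mul]
    · rw [pow_mul]
  · intro n hn
    have hnd : ¬ N ∣ n := fun ⟨k, hk⟩ => hn ⟨k, hk.symm⟩
    rw [PowerSeries.coeff_expand_of_not_dvd N (NeZero.ne N) G hnd, zero_mul]

/-- Passing from the parameter `exp (2 π i τ / M)` to `exp (2 π i τ / (N M))`. -/
theorem HasTExp.qExpand {M : ℕ} {f : ℍ → ℂ} {E : LaurentSeries ℂ} (h : HasTExp M f E)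
    (N : ℕ) [NeZero N] : HasTExp (N * M) f (ModularCurve.qExpand ℂ N E) := by
  obtain ⟨m, G, rfl, r⟩ := h
  refine ⟨N * m, PowerSeries.expand N (NeZero.ne N) G, ?_, r.expand N⟩
  rw [map_mul, ModularCurve.qExpand_single, qExpand_ofPowerSeries]
  have : (N : ℤ) * -(m : ℤ) = -((N * m : ℕ) : ℤ) := by push_cast; ring
  rw [this]

/-- Klein's `j = E₄³ / Δ` has the expansion `jq` in `q = exp (2 π i τ)`. -/
theorem hasTExp_jFun_one : HasTExp 1 Fermat.Agent.S24.helper1644.jFun (ModularCurve.jqModC ℂ) := by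
  refine ⟨1, ModularCurve.jNum.map (Int.castRingHom ℂ), ?_, ?_⟩
  · rw [ModularCurve.jqModC, Nat.cast_one]
  · intro τ
    have h := Fermat.Agent.S24.helper1644.hasSum_jNumQ τ
    simp only [Fermat.Agent.S24.helper1644.coeff_jNumQ_cast] at h
    simpa [tP] using h

/-- Klein's `j = E₄³ / Δ` has the expansion `j(t^N)` in `t = exp (2 π i τ / N)`. -/
theorem hasTExp_jFun (N : ℕ) [NeZero N] :
    HasTExp N Fermat.Agent.S24.helper1644.jFun (ModularCurve.jqNModC ℂ N) := by
  have := hasTExp_jFun_one.qExpand N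
  rwa [mul_one] at this

/-! ### The transfer theorem -/

theorem algebraMap_laurent (c : ℂ) : algebraMap ℂ (LaurentSeries ℂ) c = HahnSeries.C c := by
  have h1 : algebraMap ℂ (PowerSeries ℂ) c = PowerSeries.C c := by simp
  rw [HahnSeries.algebraMap_apply', h1, HahnSeries.ofPowerSeries_C]

/-- Polynomials in a function with an expansion. -/
theorem HasTExp.eval_polynomial {N : ℕ} {f : ℍ → ℂ} {E : LaurentSeries ℂ} (h : HasTExp N f E)
    (p : Polynomial ℂ) : HasTExp N (fun τ => p.eval (f τ)) (Polynomial.aeval E p) := by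
  induction p using Polynomial.induction_on' with
  | add p q hp hq =>
    have := hp.add hq
    rw [map_add]
    convert this using 1
    funext τ
    rw [Polynomial.eval_add, Pi.add_apply]
  | monomial n a =>
    have := (hasTExp_const N a).mul (h.pow n)
    rw [Polynomial.aeval_monomial, algebraMap_laurent]
    convert this using 1
    funext τ
    rw [Polynomial.eval_monomial, Pi.mul_apply, Pi.pow_apply]

/-- The coefficients of `∏ (X - φ x)` have the expansions given by the coefficients of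
`∏ (X - E x)`. -/
theorem hasTExp_coeff_prod_X_sub_C {N : ℕ} {X : Type*} (φ : X → ℍ → ℂ)
    (E : X → LaurentSeries ℂ) (hE : ∀ x, HasTExp N (φ x) (E x)) (s : Finset X) :
    ∀ k : ℕ, HasTExp N (fun τ => (∏ x ∈ s, (Polynomial.X - Polynomial.C (φ x τ))).coeff k)
      ((∏ x ∈ s, (Polynomial.X - Polynomial.C (E x))).coeff k) := by
  classical
  induction s using Finset.induction_on with
  | empty =>
    intro k
    simp only [Finset.prod_empty, Polynomial.coeff_one]
    split_ifs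
    · exact hasTExp_one N
    · exact hasTExp_zero N
  | insert a s ha ih =>
    intro k
    simp only [Finset.prod_insert ha]
    rcases k with _ | k
    · have h1 : (fun τ => ((Polynomial.X - Polynomial.C (φ a τ)) *
          ∏ x ∈ s, (Polynomial.X - Polynomial.C (φ x τ))).coeff 0)
          = -(φ a) * fun τ => (∏ x ∈ s, (Polynomial.X - Polynomial.C (φ x τ))).coeff 0 := by
        funext τ
        rw [Polynomial.mul_coeff_zero]
        simp
      have h2 : ((Polynomial.X - Polynomial.C (E a)) *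
          ∏ x ∈ s, (Polynomial.X - Polynomial.C (E x))).coeff 0
          = -(E a) * (∏ x ∈ s, (Polynomial.X - Polynomial.C (E x))).coeff 0 := by
        rw [Polynomial.mul_coeff_zero]
        simp
      rw [h1, h2]
      exact (hE a).neg.mul (ih 0)
    · have h1 : (fun τ => ((Polynomial.X - Polynomial.C (φ a τ)) *
          ∏ x ∈ s, (Polynomial.X - Polynomial.C (φ x τ))).coeff (k + 1))
          = (fun τ => (∏ x ∈ s, (Polynomial.X - Polynomial.C (φ x τ))).coeff k)
            - φ a * (fun τ => (∏ x ∈ s, (Polynomial.X - Polynomial.C (φ x τ))).coeff (k + 1)) := by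
        funext τ
        rw [Polynomial.coeff_X_sub_C_mul]
        rfl
      have h2 : ((Polynomial.X - Polynomial.C (E a)) *
          ∏ x ∈ s, (Polynomial.X - Polynomial.C (E x))).coeff (k + 1)
          = (∏ x ∈ s, (Polynomial.X - Polynomial.C (E x))).coeff k
            - E a * (∏ x ∈ s, (Polynomial.X - Polynomial.C (E x))).coeff (k + 1) :=
        Polynomial.coeff_X_sub_C_mul
      rw [h1, h2]
      exact (ih k).sub ((hE a).mul (ih (k + 1)))

/-- **Formal transfer.** A finite family of functions on `ℍ`, permuted by `SL(2, ℤ)`, each with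
a Laurent expansion `E x` in `t = exp (2 π i τ / N)` convergent on `ℍ`: the polynomial
`∏ (X - E x) ∈ ℂ((t))[X]` has coefficients which are polynomials in `j(t^N)`. -/
theorem exists_monic_factorisation (N : ℕ) [NeZero N] {X : Type*} [Fintype X]
    (φ : X → ℍ → ℂ) (E : X → LaurentSeries ℂ) (hE : ∀ x, HasTExp N (φ x) (E x))
    (hperm : ∀ g : SL(2, ℤ), ∃ s : Equiv.Perm X, ∀ (x : X) (τ : ℍ), φ x (g • τ) = φ (s x) τ) :
    ∃ P : Polynomial (Polynomial ℂ), P.Monic ∧ P.natDegree = Fintype.card X ∧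
      P.map (Polynomial.aeval (ModularCurve.jqNModC ℂ N)).toRingHom =
        ∏ x, (Polynomial.X - Polynomial.C (E x)) := by
  classical
  obtain ⟨P, hmonic, hdeg, hP⟩ := Fermat.Agent.S24.helper167.exists_monic_relation φ
    (fun x => (hE x).mdiff) hperm (fun x => (hE x).hasExpGrowth)
  refine ⟨P, hmonic, hdeg, Polynomial.ext fun k => ?_⟩
  rw [Polynomial.coeff_map]
  have h1 := (hasTExp_jFun N).eval_polynomial (P.coeff k)
  have h2 := hasTExp_coeff_prod_X_sub_C φ E hE Finset.univ k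
  have h3 : (fun τ => (P.coeff k).eval (Fermat.Agent.S24.helper1644.jFun τ)) =
      fun τ => (∏ x, (Polynomial.X - Polynomial.C (φ x τ))).coeff k := by
    funext τ
    rw [← hP τ, Polynomial.coeff_map]
    rfl
  rw [h3] at h1
  exact h1.unique h2

/-- Root form: every member of the family is a root of the monic polynomial. -/
theorem exists_monic_root (N : ℕ) [NeZero N] {X : Type*} [Fintype X]
    (φ : X → ℍ → ℂ) (E : X → LaurentSeries ℂ) (hE : ∀ x, HasTExp N (φ x) (E x))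
    (hperm : ∀ g : SL(2, ℤ), ∃ s : Equiv.Perm X, ∀ (x : X) (τ : ℍ), φ x (g • τ) = φ (s x) τ) :
    ∃ P : Polynomial (Polynomial ℂ), P.Monic ∧ P.natDegree = Fintype.card X ∧
      ∀ x, P.eval₂ (Polynomial.aeval (ModularCurve.jqNModC ℂ N)).toRingHom (E x) = 0 := by
  obtain ⟨P, hmonic, hdeg, hP⟩ := exists_monic_factorisation N φ E hE hperm
  refine ⟨P, hmonic, hdeg, fun x => ?_⟩
  rw [Polynomial.eval₂_eq_eval_map, hP, Polynomial.eval_prod]
  exact Finset.prod_eq_zero (Finset.mem_univ x) (by simp)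

/-! ### Constructors for expansions -/

/-- A convergent power series in `t` (no pole). -/
theorem hasTExp_ofPowerSeries {N : ℕ} {f : ℍ → ℂ} {H : PowerSeries ℂ}
    (h : ∀ τ : ℍ, HasSum (fun n : ℕ => PowerSeries.coeff n H * tP N τ ^ n) (f τ)) :
    HasTExp N f (HahnSeries.ofPowerSeries ℤ ℂ H) :=
  ⟨0, H, by rw [Nat.cast_zero, neg_zero, HahnSeries.single_zero_one, one_mul],
    fun τ => by simpa using h τ⟩

/-- The monomials `t^K`, `K ∈ ℤ`. -/
theorem hasTExp_tP_zpow (N : ℕ) (K : ℤ) :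
    HasTExp N (fun τ => tP N τ ^ K) (HahnSeries.single K (1 : ℂ)) := by
  rcases le_or_gt 0 K with hK | hK
  · lift K to ℕ using hK
    refine ⟨0, PowerSeries.X ^ K, ?_, fun τ => ?_⟩
    · rw [HahnSeries.ofPowerSeries_X_pow, Nat.cast_zero, neg_zero, HahnSeries.single_zero_one,
        one_mul]
    · have := rep_X_pow N K τ
      simpa using this
  · obtain ⟨k, rfl⟩ : ∃ k : ℕ, K = -(k : ℤ) := ⟨K.natAbs, by omega⟩
    refine ⟨k, 1, ?_, fun τ => ?_⟩
    · rw [show HahnSeries.ofPowerSeries ℤ ℂ (1 : PowerSeries ℂ) = 1 from map_one _, mul_one]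
    · have h1 : tP N τ ^ k * tP N τ ^ (-(k : ℤ)) = 1 := by
        rw [zpow_neg, zpow_natCast, mul_inv_cancel₀ (pow_ne_zero k (tP_ne_zero N τ))]
      rw [h1]
      have := rep_C N 1 τ
      simpa using this

/-- The shape produced by explicit product expansions: `f τ = c * t^K * ∑ H_n t^n`. -/
theorem hasTExp_of_hasSum_zpow {N : ℕ} {g : ℍ → ℂ} {H : PowerSeries ℂ} (c : ℂ) (K : ℤ)
    (h : ∀ τ : ℍ, HasSum (fun n : ℕ => PowerSeries.coeff n H * tP N τ ^ n) (g τ)) :
    HasTExp N (fun τ => c * tP N τ ^ K * g τ)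
      (HahnSeries.single K c * HahnSeries.ofPowerSeries ℤ ℂ H) := by
  have := ((hasTExp_const N c).mul (hasTExp_tP_zpow N K)).mul (hasTExp_ofPowerSeries h)
  have h1 : (HahnSeries.C c : LaurentSeries ℂ) * HahnSeries.single K (1 : ℂ) =
      HahnSeries.single K c := by
    rw [HahnSeries.C_apply, HahnSeries.single_mul_single, zero_add, mul_one]
  rw [h1] at this
  exact this

/-! ### Invariant functions are polynomials in `j` (formal version) -/

/-- An `SL(2, ℤ)`-invariant function with a Laurent expansion `C` in `t = exp (2 π i τ / N)`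
(convergent on `ℍ`): `C` is a polynomial in `j(t^N)`. -/
theorem exists_polynomial_of_invariant (N : ℕ) [NeZero N] {c : ℍ → ℂ} {C : LaurentSeries ℂ}
    (hc : HasTExp N c C) (hinv : ∀ (γ : SL(2, ℤ)) (τ : ℍ), c (γ • τ) = c τ) :
    ∃ p : Polynomial ℂ, Polynomial.aeval (ModularCurve.jqNModC ℂ N) p = C := by
  obtain ⟨m, B, hB⟩ := hc.hasExpGrowth
  obtain ⟨p, -, hp⟩ := Fermat.Agent.S24.helper167.polyInJ_of_invariant c hc.mdiff hinv m
    (Fermat.Agent.S24.helper167.isBoundedAtImInfty_disc_pow_mul hB)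
  refine ⟨p, ?_⟩
  have h1 := (hasTExp_jFun N).eval_polynomial p
  have h3 : (fun τ => p.eval (Fermat.Agent.S24.helper1644.jFun τ)) = c := by
    funext τ
    exact (hp τ).symm
  rw [h3] at h1
  exact h1.unique hc

/-! ### Lagrange interpolation polynomials -/

/-- **Lagrange polynomials.** For two families `φ, ψ` permuted simultaneously by `SL(2, ℤ)`, with
expansions `E, F`: the polynomial `∑_x F x ∏_{y ≠ x} (X - E y)` has coefficients in
`ℂ[j(t^N)]`. -/
theorem exists_lagrange (N : ℕ) [NeZero N] {X : Type*} [Fintype X] [DecidableEq X]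
    (φ ψ : X → ℍ → ℂ) (E F : X → LaurentSeries ℂ)
    (hE : ∀ x, HasTExp N (φ x) (E x)) (hF : ∀ x, HasTExp N (ψ x) (F x))
    (hperm : ∀ g : SL(2, ℤ), ∃ s : Equiv.Perm X, ∀ (x : X) (τ : ℍ),
      φ x (g • τ) = φ (s x) τ ∧ ψ x (g • τ) = ψ (s x) τ) :
    ∃ G : Polynomial (Polynomial ℂ),
      G.map (Polynomial.aeval (ModularCurve.jqNModC ℂ N)).toRingHom =
        ∑ x, Polynomial.C (F x) *
          ∏ y ∈ Finset.univ.erase x, (Polynomial.X - Polynomial.C (E y)) := by
  classical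
  set L : Polynomial (LaurentSeries ℂ) := ∑ x, Polynomial.C (F x) *
    ∏ y ∈ Finset.univ.erase x, (Polynomial.X - Polynomial.C (E y)) with hL
  let Lf : ℍ → Polynomial ℂ := fun τ => ∑ x, Polynomial.C (ψ x τ) *
    ∏ y ∈ Finset.univ.erase x, (Polynomial.X - Polynomial.C (φ y τ))
  have hexp : ∀ k : ℕ, HasTExp N (fun τ => (Lf τ).coeff k) (L.coeff k) := by
    intro k
    have h1 : (fun τ => (Lf τ).coeff k) = ∑ x : X, ψ x * fun τ =>
        (∏ y ∈ Finset.univ.erase x, (Polynomial.X - Polynomial.C (φ y τ))).coeff k := by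
      funext τ
      simp only [Lf, Polynomial.finsetSum_coeff, Polynomial.coeff_C_mul, Finset.sum_apply,
        Pi.mul_apply]
    have h2 : L.coeff k = ∑ x : X, F x *
        (∏ y ∈ Finset.univ.erase x, (Polynomial.X - Polynomial.C (E y))).coeff k := by
      simp only [hL, Polynomial.finsetSum_coeff, Polynomial.coeff_C_mul]
    rw [h1, h2]
    exact hasTExp_finset_sum Finset.univ _ _ fun x _ =>
      (hF x).mul (hasTExp_coeff_prod_X_sub_C φ E hE (Finset.univ.erase x) k)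
  have hinv : ∀ (k : ℕ) (γ : SL(2, ℤ)) (τ : ℍ), (Lf (γ • τ)).coeff k = (Lf τ).coeff k := by
    intro k γ τ
    obtain ⟨s, hs⟩ := hperm γ
    have : Lf (γ • τ) = Lf τ := by
      simp only [Lf]
      rw [← Equiv.sum_comp s (fun x => Polynomial.C (ψ x τ) *
        ∏ y ∈ Finset.univ.erase x, (Polynomial.X - Polynomial.C (φ y τ)))]
      refine Finset.sum_congr rfl fun x _ => ?_
      rw [(hs x τ).2]
      congr 1
      refine Finset.prod_equiv s (fun y => ?_) (fun y _ => ?_)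
      · simp only [Finset.mem_erase, Finset.mem_univ, and_true, ne_eq, s.apply_eq_iff_eq]
      · rw [(hs y τ).1]
    rw [this]
  choose p hp using fun k => exists_polynomial_of_invariant N (hexp k) (hinv k)
  refine ⟨∑ k ∈ Finset.range (L.natDegree + 1), Polynomial.C (p k) * Polynomial.X ^ k, ?_⟩
  conv_rhs => rw [L.as_sum_range_C_mul_X_pow]
  rw [Polynomial.map_sum]
  refine Finset.sum_congr rfl fun k _ => ?_
  rw [Polynomial.map_mul, Polynomial.map_C, Polynomial.map_pow, Polynomial.map_X]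
  congr 2
  exact hp k

/-! ### Conjugates of a function invariant under a subgroup of finite index -/

/-- The conjugates `f ∘ g⁻¹` of a function `f` on `ℍ`, indexed by the cosets `g Γ`
(via the chosen representatives `Quotient.out`). -/
def conjFamily (Γ : Subgroup SL(2, ℤ)) (f : ℍ → ℂ) (x : SL(2, ℤ) ⧸ Γ) : ℍ → ℂ :=
  fun τ => f ((Quotient.out x)⁻¹ • τ)

theorem conjFamily_mk (Γ : Subgroup SL(2, ℤ)) (f : ℍ → ℂ)
    (hf : ∀ g ∈ Γ, ∀ τ : ℍ, f (g • τ) = f τ) (g : SL(2, ℤ)) (τ : ℍ) :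
    conjFamily Γ f (QuotientGroup.mk g) τ = f (g⁻¹ • τ) := by
  obtain ⟨h, hh⟩ := QuotientGroup.mk_out_eq_mul Γ g
  unfold conjFamily
  rw [hh, mul_inv_rev, mul_smul]
  exact hf _ (Γ.inv_mem h.2) _

theorem conjFamily_perm (Γ : Subgroup SL(2, ℤ)) (f : ℍ → ℂ)
    (hf : ∀ g ∈ Γ, ∀ τ : ℍ, f (g • τ) = f τ) (γ : SL(2, ℤ)) :
    ∃ s : Equiv.Perm (SL(2, ℤ) ⧸ Γ), ∀ (x : SL(2, ℤ) ⧸ Γ) (τ : ℍ),
      conjFamily Γ f x (γ • τ) = conjFamily Γ f (s x) τ := by
  refine ⟨MulAction.toPerm γ⁻¹, fun x τ => ?_⟩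
  induction x using QuotientGroup.induction_on with
  | H g =>
    rw [MulAction.toPerm_apply, MulAction.Quotient.smul_mk, conjFamily_mk Γ f hf,
      conjFamily_mk Γ f hf, smul_eq_mul, mul_inv_rev, inv_inv, mul_smul]

/-- Coset form of the transfer theorem: for `f` invariant under a subgroup `Γ` of finite index,
the conjugates `f ∘ g⁻¹` (`g` running over `SL(2, ℤ) ⧸ Γ`) with expansions `E x`. -/
theorem exists_monic_factorisation_of_invariant (N : ℕ) [NeZero N] (Γ : Subgroup SL(2, ℤ))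
    [Fintype (SL(2, ℤ) ⧸ Γ)] (f : ℍ → ℂ) (hf : ∀ g ∈ Γ, ∀ τ : ℍ, f (g • τ) = f τ)
    (E : SL(2, ℤ) ⧸ Γ → LaurentSeries ℂ)
    (hE : ∀ x : SL(2, ℤ) ⧸ Γ, HasTExp N (fun τ => f ((Quotient.out x)⁻¹ • τ)) (E x)) :
    ∃ P : Polynomial (Polynomial ℂ), P.Monic ∧ P.natDegree = Fintype.card (SL(2, ℤ) ⧸ Γ) ∧
      P.map (Polynomial.aeval (ModularCurve.jqNModC ℂ N)).toRingHom =
        ∏ x, (Polynomial.X - Polynomial.C (E x)) :=
  exists_monic_factorisation N (conjFamily Γ f) E hE (conjFamily_perm Γ f hf)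

/-! ### Evaluation at a root: derivative and Lagrange polynomial -/

theorem eval_derivative_prod_X_sub_C {R : Type*} [CommRing R] {X : Type*} [Fintype X]
    [DecidableEq X] (E : X → R) (x₀ : X) :
    (Polynomial.derivative (∏ x, (Polynomial.X - Polynomial.C (E x)))).eval (E x₀) =
      ∏ y ∈ Finset.univ.erase x₀, (E x₀ - E y) := by
  rw [Polynomial.derivative_prod_finset, Polynomial.eval_finsetSum]
  rw [Finset.sum_eq_single x₀]
  · simp [Polynomial.eval_prod]
  · intro b _ hb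
    rw [Polynomial.eval_mul, Polynomial.eval_prod]
    rw [Finset.prod_eq_zero (Finset.mem_erase.mpr ⟨Ne.symm hb, Finset.mem_univ x₀⟩) (by simp),
      zero_mul]
  · intro h
    exact absurd (Finset.mem_univ x₀) h

theorem eval_lagrange {R : Type*} [CommRing R] {X : Type*} [Fintype X]
    [DecidableEq X] (E F : X → R) (x₀ : X) :
    (∑ x, Polynomial.C (F x) *
      ∏ y ∈ Finset.univ.erase x, (Polynomial.X - Polynomial.C (E y))).eval (E x₀) =
      F x₀ * ∏ y ∈ Finset.univ.erase x₀, (E x₀ - E y) := by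
  rw [Polynomial.eval_finsetSum, Finset.sum_eq_single x₀]
  · simp [Polynomial.eval_prod]
  · intro b _ hb
    rw [Polynomial.eval_mul, Polynomial.eval_prod]
    rw [Finset.prod_eq_zero (Finset.mem_erase.mpr ⟨Ne.symm hb, Finset.mem_univ x₀⟩) (by simp),
      mul_zero]
  · intro h
    exact absurd (Finset.mem_univ x₀) h

/-- **Lagrange form at a root**: `G(j, E x₀) = F x₀ * χ'(j, E x₀)` where `χ = ∏ (X - E x)` is
the polynomial of `exists_monic_factorisation` (both with coefficients in `ℂ[j(t^N)]`). -/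
theorem exists_monic_and_lagrange (N : ℕ) [NeZero N] {X : Type*} [Fintype X] [DecidableEq X]
    (φ ψ : X → ℍ → ℂ) (E F : X → LaurentSeries ℂ)
    (hE : ∀ x, HasTExp N (φ x) (E x)) (hF : ∀ x, HasTExp N (ψ x) (F x))
    (hperm : ∀ g : SL(2, ℤ), ∃ s : Equiv.Perm X, ∀ (x : X) (τ : ℍ),
      φ x (g • τ) = φ (s x) τ ∧ ψ x (g • τ) = ψ (s x) τ) :
    ∃ P G : Polynomial (Polynomial ℂ), P.Monic ∧ P.natDegree = Fintype.card X ∧
      P.map (Polynomial.aeval (ModularCurve.jqNModC ℂ N)).toRingHom =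
        ∏ x, (Polynomial.X - Polynomial.C (E x)) ∧
      ∀ x₀ : X, G.eval₂ (Polynomial.aeval (ModularCurve.jqNModC ℂ N)).toRingHom (E x₀) =
        F x₀ * (Polynomial.derivative P).eval₂
          (Polynomial.aeval (ModularCurve.jqNModC ℂ N)).toRingHom (E x₀) := by
  obtain ⟨P, hmonic, hdeg, hP⟩ := exists_monic_factorisation N φ E hE
    (fun g => by
      obtain ⟨s, hs⟩ := hperm g
      exact ⟨s, fun x τ => (hs x τ).1⟩)
  obtain ⟨G, hG⟩ := exists_lagrange N φ ψ E F hE hF hperm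
  refine ⟨P, G, hmonic, hdeg, hP, fun x₀ => ?_⟩
  rw [Polynomial.eval₂_eq_eval_map, Polynomial.eval₂_eq_eval_map, hG, ← Polynomial.derivative_map,
    hP, eval_lagrange, eval_derivative_prod_X_sub_C]

end

end Fermat.Agent.S28.helper1267
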