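/-
S28, Route E, leaf E2 (helper407): Hermite form of `diag(e,1) * g` for `g ∈ SL(2,ℤ)`,
the transformation law of `τ ↦ Δ(e τ)` under `SL(2,ℤ)`, and the resulting orbit formula and
`Γ₀(N)`-invariance of eta quotients `∏_{δ ∣ N} Δ(δ τ) ^ r δ` with `∑ r δ = 0`.
Mathlib only.
-/
import Mathlib

set_option autoImplicit false

open UpperHalfPlane ModularForm MatrixGroups CongruenceSubgroup
open scoped Manifold

noncomputable section

namespace Fermat.Agent.S28.helper407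

local notation "Δ" => ModularForm.discriminant

/-! ### Hermite form -/

/-- Hermite form, entrywise: for integers `c`, `δ` and `e > 0`, put
`a = gcd(e, c)`, `d = e / a`; then there are `b < d` and integers `c'`, `k` with
`c = a * c'`, `δ = c' * b + k * d`. -/
theorem hermite_aux (e : ℕ) (he : 0 < e) (c δ : ℤ) :
    ∃ (a b d : ℕ) (c' k : ℤ), a = Nat.gcd e c.natAbs ∧ a * d = e ∧ b < d ∧
      c = a * c' ∧ δ = c' * b + k * d := by
  obtain ⟨a, ha⟩ : ∃ a : ℕ, a = Nat.gcd e c.natAbs := ⟨_, rfl⟩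
  have ha_pos : 0 < a := ha ▸ Nat.gcd_pos_of_pos_left _ he
  obtain ⟨d, hd⟩ : a ∣ e := ha ▸ Nat.gcd_dvd_left _ _
  have hd_pos : 0 < d := by
    rcases Nat.eq_zero_or_pos d with h | h
    · rw [h, Nat.mul_zero] at hd; omega
    · exact h
  obtain ⟨c', hc'⟩ : (a : ℤ) ∣ c := by
    have : a ∣ c.natAbs := ha ▸ Nat.gcd_dvd_right _ _
    exact Int.natCast_dvd.mpr this
  -- `c'` and `d` are coprime
  have hcop' : IsCoprime c' (d : ℤ) := by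
    have h1 : Int.gcd (e : ℤ) c = a := by
      rw [ha]; simp [Int.gcd]
    have h2 : Int.gcd ((a : ℤ) * d) ((a : ℤ) * c') = a := by
      have he' : ((a : ℤ) * d) = (e : ℤ) := by rw [hd]; push_cast; rfl
      rw [he', ← hc']; exact h1
    rw [Int.gcd_mul_left, Int.natAbs_natCast] at h2
    have h3 : Int.gcd (d : ℤ) c' = 1 :=
      Nat.eq_of_mul_eq_mul_left ha_pos (h2.trans (Nat.mul_one a).symm)
    exact (Int.isCoprime_iff_gcd_eq_one.mpr h3).symm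
  obtain ⟨x, y, hxy⟩ := hcop'
  -- `x * c' + y * d = 1`
  set b0 : ℤ := (δ * x) % d with hb0
  have hdZ : (0 : ℤ) < d := by exact_mod_cast hd_pos
  have hb0_nonneg : 0 ≤ b0 := Int.emod_nonneg _ hdZ.ne'
  have hb0_lt : b0 < d := Int.emod_lt_of_pos _ hdZ
  refine ⟨a, b0.toNat, d, c', δ * y + c' * ((δ * x) / d), ha, hd.symm, ?_, hc', ?_⟩
  · have : (b0.toNat : ℤ) < d := by rw [Int.toNat_of_nonneg hb0_nonneg]; exact hb0_lt
    exact_mod_cast this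
  · rw [Int.toNat_of_nonneg hb0_nonneg, hb0]
    have hdiv := Int.emod_add_mul_ediv (δ * x) d
    -- δ * x = (δ x) % d + d * ((δ x)/d)
    have : δ = δ * (x * c' + y * d) := by rw [hxy, mul_one]
    linear_combination this - c' * hdiv

/-- **Hermite form**: for `g ∈ SL(2,ℤ)` and `e > 0` there are `g' ∈ SL(2,ℤ)` and `a, b, d` with
`a = gcd(e, c_g)`, `a d = e`, `b < d` and `diag(e,1) * g = g' * [[a, b], [0, d]]`. -/
theorem hermite (e : ℕ) (he : 0 < e) (g : SL(2, ℤ)) :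
    ∃ (g' : SL(2, ℤ)) (a b d : ℕ), a = Nat.gcd e (g 1 0).natAbs ∧ a * d = e ∧ b < d ∧
      !![(e : ℤ), 0; 0, 1] * (g : Matrix (Fin 2) (Fin 2) ℤ) =
        (g' : Matrix (Fin 2) (Fin 2) ℤ) * !![(a : ℤ), (b : ℤ); 0, (d : ℤ)] := by
  have hdet : g 0 0 * g 1 1 - g 0 1 * g 1 0 = 1 := by
    have := g.det_coe
    rwa [Matrix.det_fin_two] at this
  obtain ⟨a, b, d, c', k, ha, had, hbd, hc, hδ⟩ := hermite_aux e he (g 1 0) (g 1 1)
  have hadZ : (a : ℤ) * d = e := by exact_mod_cast had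
  refine ⟨⟨!![g 0 0 * d, g 0 1 * a - g 0 0 * b; c', k], ?_⟩, a, b, d, ha, had, hbd, ?_⟩
  · rw [Matrix.det_fin_two_of]
    linear_combination hdet + (g 0 1) * hc - (g 0 0) * hδ
  · ext i j
    fin_cases i <;> fin_cases j <;>
      simp [Matrix.mul_apply, Fin.sum_univ_two]
    · linear_combination (-(g 0 0)) * hadZ
    · linear_combination (-(g 0 1)) * hadZ
    · linear_combination hc
    · linear_combination hδ

/-! ### Points `(a τ + b) / d` of the upper half plane -/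

/-- The point `(a τ + b) / d` of the upper half plane (junk value unless `0 < a`, `0 < d`). -/
def pt (a b d : ℕ) (τ : ℍ) : ℍ := ofComplex (((a : ℂ) * (τ : ℂ) + (b : ℂ)) / (d : ℂ))

theorem im_pt_pos {a d : ℕ} (ha : 0 < a) (hd : 0 < d) (b : ℕ) (τ : ℍ) :
    0 < (((a : ℂ) * (τ : ℂ) + (b : ℂ)) / (d : ℂ)).im := by
  have h1 : (((a : ℂ) * (τ : ℂ) + (b : ℂ)) / (d : ℂ)) =
      (((a : ℝ) / (d : ℝ) : ℝ) : ℂ) * (τ : ℂ) + (((b : ℝ) / (d : ℝ) : ℝ) : ℂ) := by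
    have hd' : (d : ℂ) ≠ 0 := by exact_mod_cast hd.ne'
    push_cast
    field_simp
  rw [h1, Complex.add_im, Complex.ofReal_im, add_zero, Complex.im_ofReal_mul]
  have : (0 : ℝ) < (a : ℝ) / (d : ℝ) := by positivity
  exact mul_pos this τ.im_pos

theorem coe_pt {a d : ℕ} (ha : 0 < a) (hd : 0 < d) (b : ℕ) (τ : ℍ) :
    ((pt a b d τ : ℍ) : ℂ) = ((a : ℂ) * (τ : ℂ) + (b : ℂ)) / (d : ℂ) := by
  rw [pt, ofComplex_apply_of_im_pos (im_pt_pos ha hd b τ)]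

@[simp]
theorem pt_one_zero_one (τ : ℍ) : pt 1 0 1 τ = τ := by
  ext1
  rw [coe_pt one_pos one_pos]
  simp

/-! ### Transformation of `Δ` -/

theorem coe_smul_SL2Z (g : SL(2, ℤ)) (τ : ℍ) :
    ((g • τ : ℍ) : ℂ) = ((g 0 0 : ℂ) * τ + (g 0 1 : ℂ)) / ((g 1 0 : ℂ) * τ + (g 1 1 : ℂ)) := by
  rw [UpperHalfPlane.coe_specialLinearGroup_apply]
  simp

theorem denom_SL2Z_ne_zero (g : SL(2, ℤ)) (τ : ℍ) :
    ((g 1 0 : ℂ) * (τ : ℂ) + (g 1 1 : ℂ)) ≠ 0 := by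
  have := UpperHalfPlane.denom_ne_zero
    (Matrix.SpecialLinearGroup.toGL ((Matrix.SpecialLinearGroup.map (Int.castRingHom ℝ)) g)) τ
  rwa [ModularGroup.denom_apply] at this

/-- Modularity of `Δ` in explicit form. -/
theorem discriminant_smul (γ : SL(2, ℤ)) (τ : ℍ) :
    Δ (γ • τ) = ((γ 1 0 : ℂ) * (τ : ℂ) + (γ 1 1 : ℂ)) ^ 12 * Δ τ := by
  have h := congrFun (SlashInvariantForm.slash_action_generators_SL2Z discriminant_S_invariant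
    discriminant_T_invariant γ) τ
  rw [ModularForm.SL_slash_apply, ModularGroup.denom_apply] at h
  have hne := denom_SL2Z_ne_zero γ τ
  conv_rhs => rw [← h]
  rw [mul_comm, mul_assoc, ← zpow_natCast, ← zpow_add₀ hne]
  simp

/-- The four entry identities contained in a Hermite decomposition
`diag(e,1) * g = g' * [[a, b], [0, d]]`. -/
theorem hermite_entries {e a b d : ℕ} {g g' : SL(2, ℤ)}
    (hmat : !![(e : ℤ), 0; 0, 1] * (g : Matrix (Fin 2) (Fin 2) ℤ) =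
      (g' : Matrix (Fin 2) (Fin 2) ℤ) * !![(a : ℤ), (b : ℤ); 0, (d : ℤ)]) :
    (e : ℤ) * g 0 0 = g' 0 0 * a ∧ (e : ℤ) * g 0 1 = g' 0 0 * b + g' 0 1 * d ∧
      g 1 0 = g' 1 0 * a ∧ g 1 1 = g' 1 0 * b + g' 1 1 * d := by
  have h00 := congrFun (congrFun hmat 0) 0
  have h01 := congrFun (congrFun hmat 0) 1
  have h10 := congrFun (congrFun hmat 1) 0
  have h11 := congrFun (congrFun hmat 1) 1
  simp [Matrix.mul_apply, Fin.sum_univ_two] at h00 h01 h10 h11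
  exact ⟨h00, h01, h10, h11⟩

/-- Under a Hermite decomposition `diag(e,1) * g = g' * [[a, b], [0, d]]`, the point
`e * (g • τ)` equals `g' • ((a τ + b) / d)`. -/
theorem pt_smul_eq {e a b d : ℕ} (he : 0 < e) (ha : 0 < a) (hd : 0 < d) {g g' : SL(2, ℤ)}
    (hmat : !![(e : ℤ), 0; 0, 1] * (g : Matrix (Fin 2) (Fin 2) ℤ) =
      (g' : Matrix (Fin 2) (Fin 2) ℤ) * !![(a : ℤ), (b : ℤ); 0, (d : ℤ)]) (τ : ℍ) :
    pt e 0 1 (g • τ) = g' • pt a b d τ := by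
  obtain ⟨h00, h01, h10, h11⟩ := hermite_entries hmat
  have h00' : (e : ℂ) * (g 0 0 : ℂ) = (g' 0 0 : ℂ) * a := by exact_mod_cast h00
  have h01' : (e : ℂ) * (g 0 1 : ℂ) = (g' 0 0 : ℂ) * b + (g' 0 1 : ℂ) * d := by exact_mod_cast h01
  have h10' : (g 1 0 : ℂ) = (g' 1 0 : ℂ) * a := by exact_mod_cast h10
  have h11' : (g 1 1 : ℂ) = (g' 1 0 : ℂ) * b + (g' 1 1 : ℂ) * d := by exact_mod_cast h11
  have hd' : (d : ℂ) ≠ 0 := by exact_mod_cast hd.ne'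
  have hne := denom_SL2Z_ne_zero g τ
  have hne' := denom_SL2Z_ne_zero g' (pt a b d τ)
  rw [coe_pt ha hd] at hne'
  ext1
  rw [coe_pt he one_pos, coe_smul_SL2Z, coe_smul_SL2Z, coe_pt ha hd]
  have key : (g' 1 0 : ℂ) * (((a : ℂ) * (τ : ℂ) + (b : ℂ)) / (d : ℂ)) + (g' 1 1 : ℂ) =
      ((g 1 0 : ℂ) * (τ : ℂ) + (g 1 1 : ℂ)) / (d : ℂ) := by
    rw [h10', h11']; field_simp; ring
  rw [key] at hne' ⊢
  have key2 : (g' 0 0 : ℂ) * (((a : ℂ) * (τ : ℂ) + (b : ℂ)) / (d : ℂ)) + (g' 0 1 : ℂ) =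
      ((e : ℂ) * ((g 0 0 : ℂ) * (τ : ℂ) + (g 0 1 : ℂ))) / (d : ℂ) := by
    field_simp
    linear_combination (-(τ : ℂ)) * h00' - h01'
  rw [key2]
  simp only [Nat.cast_zero, Nat.cast_one, add_zero, div_one]
  field_simp

/-- **Transformation law** of `τ ↦ Δ(e τ)` under `g ∈ SL(2,ℤ)`, given a Hermite decomposition
`diag(e,1) * g = g' * [[a, b], [0, d]]`:
`Δ(e (g τ)) = ((c τ + δ) / d) ^ 12 * Δ((a τ + b) / d)`. -/
theorem discriminant_pt_smul {e a b d : ℕ} (he : 0 < e) (ha : 0 < a) (hd : 0 < d)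
    {g g' : SL(2, ℤ)}
    (hmat : !![(e : ℤ), 0; 0, 1] * (g : Matrix (Fin 2) (Fin 2) ℤ) =
      (g' : Matrix (Fin 2) (Fin 2) ℤ) * !![(a : ℤ), (b : ℤ); 0, (d : ℤ)]) (τ : ℍ) :
    Δ (pt e 0 1 (g • τ)) =
      (((g 1 0 : ℂ) * (τ : ℂ) + (g 1 1 : ℂ)) / (d : ℂ)) ^ 12 * Δ (pt a b d τ) := by
  obtain ⟨-, -, h10, h11⟩ := hermite_entries hmat
  have h10' : (g 1 0 : ℂ) = (g' 1 0 : ℂ) * a := by exact_mod_cast h10
  have h11' : (g 1 1 : ℂ) = (g' 1 0 : ℂ) * b + (g' 1 1 : ℂ) * d := by exact_mod_cast h11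
  have hd' : (d : ℂ) ≠ 0 := by exact_mod_cast hd.ne'
  rw [pt_smul_eq he ha hd hmat, discriminant_smul, coe_pt ha hd]
  congr 2
  rw [h10', h11']; field_simp; ring

/-- **Transformation law**, existential form: for `g ∈ SL(2,ℤ)` and `e > 0` there are
`a = gcd(e, c_g)`, `d = e / a` and `b < d` with
`Δ(e (g τ)) = ((c τ + δ) / d) ^ 12 * Δ((a τ + b) / d)` for all `τ`. -/
theorem exists_discriminant_pt_smul (e : ℕ) (he : 0 < e) (g : SL(2, ℤ)) :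
    ∃ a b d : ℕ, a = Nat.gcd e (g 1 0).natAbs ∧ a * d = e ∧ b < d ∧ ∀ τ : ℍ,
      Δ (pt e 0 1 (g • τ)) =
        (((g 1 0 : ℂ) * (τ : ℂ) + (g 1 1 : ℂ)) / (d : ℂ)) ^ 12 * Δ (pt a b d τ) := by
  obtain ⟨g', a, b, d, ha, had, hbd, hmat⟩ := hermite e he g
  have ha_pos : 0 < a := by
    rcases Nat.eq_zero_or_pos a with h | h
    · rw [h, Nat.zero_mul] at had; omega
    · exact h
  have hd_pos : 0 < d := by omega
  exact ⟨a, b, d, ha, had, hbd, fun τ => discriminant_pt_smul he ha_pos hd_pos hmat τ⟩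

/-- `Γ₀(N)` case: for `g ∈ Γ₀(N)` and `δ ∣ N`, `Δ(δ (g τ)) = (c τ + d) ^ 12 * Δ(δ τ)`. -/
theorem discriminant_pt_smul_of_mem_Gamma0 {N δ : ℕ} (hδ0 : 0 < δ) (hδ : δ ∣ N) {g : SL(2, ℤ)}
    (hg : g ∈ Gamma0 N) (τ : ℍ) :
    Δ (pt δ 0 1 (g • τ)) = ((g 1 0 : ℂ) * (τ : ℂ) + (g 1 1 : ℂ)) ^ 12 * Δ (pt δ 0 1 τ) := by
  obtain ⟨a, b, d, ha, had, hbd, h⟩ := exists_discriminant_pt_smul δ hδ0 g
  have hNc : (N : ℤ) ∣ g 1 0 := by
    rw [Gamma0_mem] at hg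
    exact (ZMod.intCast_zmod_eq_zero_iff_dvd _ _).mp hg
  have hδc : δ ∣ (g 1 0).natAbs := by
    have : (δ : ℤ) ∣ g 1 0 := (Int.natCast_dvd_natCast.mpr hδ).trans hNc
    exact Int.natCast_dvd.mp this
  have ha' : a = δ := by rw [ha]; exact Nat.gcd_eq_left hδc
  subst ha'
  have hd : d = 1 := by
    have : a * d = a * 1 := by rw [had, Nat.mul_one]
    exact Nat.eq_of_mul_eq_mul_left hδ0 this
  subst hd
  have hb : b = 0 := by omega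
  subst hb
  rw [h τ]
  simp

/-! ### Eta quotients -/

/-- The eta quotient `∏_{δ ∣ N} Δ(δ τ) ^ r δ` (integer exponents). -/
def etaQuot (N : ℕ) (r : ℕ → ℤ) (τ : ℍ) : ℂ := ∏ δ ∈ N.divisors, Δ (pt δ 0 1 τ) ^ r δ

theorem etaQuot_ne_zero (N : ℕ) (r : ℕ → ℤ) (τ : ℍ) : etaQuot N r τ ≠ 0 :=
  Finset.prod_ne_zero_iff.mpr fun _ _ => zpow_ne_zero _ (discriminant_ne_zero _)

theorem prod_zpow_eq_zpow_sum {ι : Type*} (s : Finset ι) (f : ι → ℤ) {x : ℂ} (hx : x ≠ 0) :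
    ∏ i ∈ s, x ^ f i = x ^ ∑ i ∈ s, f i := by
  classical
  induction s using Finset.induction_on with
  | empty => simp
  | insert i s hi ih => rw [Finset.prod_insert hi, Finset.sum_insert hi, ih, zpow_add₀ hx]

/-- **Orbit formula for eta quotients**: if `∑_{δ ∣ N} r δ = 0`, then for every `g ∈ SL(2,ℤ)`
there are `a δ = gcd(δ, c_g)`, `d δ = δ / a δ`, `b δ < d δ` with
`U(g τ) = ∏_{δ ∣ N} ((d δ)⁻¹² * Δ((a δ τ + b δ) / d δ)) ^ r δ` for all `τ`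
(the automorphy factors cancel). -/
theorem etaQuot_smul (N : ℕ) (r : ℕ → ℤ) (hr : ∑ δ ∈ N.divisors, r δ = 0) (g : SL(2, ℤ)) :
    ∃ a b d : ℕ → ℕ,
      (∀ δ ∈ N.divisors, a δ = Nat.gcd δ (g 1 0).natAbs ∧ a δ * d δ = δ ∧ b δ < d δ) ∧
      ∀ τ : ℍ, etaQuot N r (g • τ) =
        ∏ δ ∈ N.divisors, (((d δ : ℂ) ^ 12)⁻¹ * Δ (pt (a δ) (b δ) (d δ) τ)) ^ r δ := by
  have H : ∀ δ : ℕ, ∃ a b d : ℕ, δ ∈ N.divisors →
      (a = Nat.gcd δ (g 1 0).natAbs ∧ a * d = δ ∧ b < d ∧ ∀ τ : ℍ,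
        Δ (pt δ 0 1 (g • τ)) =
          (((g 1 0 : ℂ) * (τ : ℂ) + (g 1 1 : ℂ)) / (d : ℂ)) ^ 12 * Δ (pt a b d τ)) := by
    intro δ
    by_cases hδ : δ ∈ N.divisors
    · obtain ⟨a, b, d, h⟩ := exists_discriminant_pt_smul δ (Nat.pos_of_mem_divisors hδ) g
      exact ⟨a, b, d, fun _ => h⟩
    · exact ⟨0, 0, 0, fun h => absurd h hδ⟩
  choose a b d h using H
  refine ⟨a, b, d, fun δ hδ => ⟨(h δ hδ).1, (h δ hδ).2.1, (h δ hδ).2.2.1⟩, fun τ => ?_⟩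
  have hne := denom_SL2Z_ne_zero g τ
  have hne12 : ((g 1 0 : ℂ) * (τ : ℂ) + (g 1 1 : ℂ)) ^ 12 ≠ 0 := pow_ne_zero _ hne
  calc etaQuot N r (g • τ)
      = ∏ δ ∈ N.divisors, ((((g 1 0 : ℂ) * (τ : ℂ) + (g 1 1 : ℂ)) ^ 12) ^ r δ *
          (((d δ : ℂ) ^ 12)⁻¹ * Δ (pt (a δ) (b δ) (d δ) τ)) ^ r δ) := by
        refine Finset.prod_congr rfl fun δ hδ => ?_
        rw [(h δ hδ).2.2.2 τ, ← mul_zpow, div_pow, div_eq_mul_inv, mul_assoc]
    _ = (((g 1 0 : ℂ) * (τ : ℂ) + (g 1 1 : ℂ)) ^ 12) ^ (∑ δ ∈ N.divisors, r δ) *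
          ∏ δ ∈ N.divisors, (((d δ : ℂ) ^ 12)⁻¹ * Δ (pt (a δ) (b δ) (d δ) τ)) ^ r δ := by
        rw [Finset.prod_mul_distrib, prod_zpow_eq_zpow_sum _ _ hne12]
    _ = _ := by rw [hr, zpow_zero, one_mul]

/-- **`Γ₀(N)`-invariance of eta quotients** with `∑_{δ ∣ N} r δ = 0`. -/
theorem etaQuot_smul_of_mem_Gamma0 (N : ℕ) (r : ℕ → ℤ) (hr : ∑ δ ∈ N.divisors, r δ = 0)
    {g : SL(2, ℤ)} (hg : g ∈ Gamma0 N) (τ : ℍ) : etaQuot N r (g • τ) = etaQuot N r τ := by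
  have hne := denom_SL2Z_ne_zero g τ
  have hne12 : ((g 1 0 : ℂ) * (τ : ℂ) + (g 1 1 : ℂ)) ^ 12 ≠ 0 := pow_ne_zero _ hne
  calc etaQuot N r (g • τ)
      = ∏ δ ∈ N.divisors, ((((g 1 0 : ℂ) * (τ : ℂ) + (g 1 1 : ℂ)) ^ 12) ^ r δ *
          Δ (pt δ 0 1 τ) ^ r δ) := by
        refine Finset.prod_congr rfl fun δ hδ => ?_
        rw [discriminant_pt_smul_of_mem_Gamma0 (Nat.pos_of_mem_divisors hδ)
          (Nat.dvd_of_mem_divisors hδ) hg τ, mul_zpow]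
    _ = (((g 1 0 : ℂ) * (τ : ℂ) + (g 1 1 : ℂ)) ^ 12) ^ (∑ δ ∈ N.divisors, r δ) *
          etaQuot N r τ := by
        rw [Finset.prod_mul_distrib, prod_zpow_eq_zpow_sum _ _ hne12, etaQuot]
    _ = _ := by rw [hr, zpow_zero, one_mul]

/-! ### Holomorphy -/

theorem mdifferentiable_discriminant_pt {a d : ℕ} (ha : 0 < a) (hd : 0 < d) (b : ℕ) :
    MDiff (fun τ : ℍ => Δ (pt a b d τ)) := by
  rw [UpperHalfPlane.mdifferentiable_iff]
  have hΔ : DifferentiableOn ℂ (Δ ∘ ofComplex) upperHalfPlaneSet :=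
    UpperHalfPlane.mdifferentiable_iff.mp CuspForm.discriminant.holo'
  have haff : DifferentiableOn ℂ (fun z : ℂ => ((a : ℂ) * z + (b : ℂ)) / (d : ℂ))
      upperHalfPlaneSet := by
    fun_prop
  have hmaps : Set.MapsTo (fun z : ℂ => ((a : ℂ) * z + (b : ℂ)) / (d : ℂ))
      upperHalfPlaneSet upperHalfPlaneSet := by
    intro z hz
    exact im_pt_pos ha hd b ⟨z, hz⟩
  refine (hΔ.comp haff hmaps).congr fun z hz => ?_
  simp only [Function.comp_apply, pt]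
  rw [ofComplex_apply_of_im_pos hz]

theorem mdifferentiable_zpow {f : ℍ → ℂ} (hf : MDiff f) (hne : ∀ τ, f τ ≠ 0) (n : ℤ) :
    MDiff (fun τ : ℍ => f τ ^ n) := by
  rw [UpperHalfPlane.mdifferentiable_iff] at hf ⊢
  intro z hz
  exact (hf z hz).zpow (m := n) (Or.inl (hne _))

theorem mdifferentiable_finset_prod {ι : Type*} (s : Finset ι) {f : ι → ℍ → ℂ}
    (hf : ∀ i ∈ s, MDiff (f i)) : MDiff (fun τ : ℍ => ∏ i ∈ s, f i τ) := by
  simp only [UpperHalfPlane.mdifferentiable_iff] at hf ⊢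
  have := DifferentiableOn.finsetProd (u := s) (f := fun i => f i ∘ ofComplex) (s := upperHalfPlaneSet) hf
  refine this.congr fun z hz => ?_
  simp

theorem mdifferentiable_etaQuot (N : ℕ) (r : ℕ → ℤ) : MDiff (etaQuot N r) := by
  unfold etaQuot
  exact mdifferentiable_finset_prod _ fun δ hδ =>
    mdifferentiable_zpow (mdifferentiable_discriminant_pt (Nat.pos_of_mem_divisors hδ) one_pos 0)
      (fun τ => discriminant_ne_zero _) _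

end Fermat.Agent.S28.helper407
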