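import Mathlib
import Fermat.Prelude.Def_ModularCurve_X0
import Fermat.Agent.S28.helper407_DeltaHermite

/-!
# Cusp expansions of eta quotients (helper1594, S28 route E, leaf E2-expansion)

Built on `helper407_DeltaHermite` (Hermite transformation of `Δ`, `pt`, `etaQuot`, `etaQuot_smul`).

* `PSConv G H`: `G` is holomorphic on the open unit disc with Taylor series `H` at `0`
  (closed under products, inverses, integer powers, finite products, substitution `z ↦ c z^m`).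
* `psConv_eulerFun`: the Taylor series of `∏ (1 - q^(n+1))` is the Prelude `etaProd`.
* `etaQuot_cusp_expansion`: for `∑_{δ ∣ N} r δ = 0` and `g ∈ SL(2,ℤ)` with lower-left entry `c`:
  `etaQuot N r (g • τ) = C * t^K * G(t)`, `t = exp(2πiτ/N)`, with
  `K = ∑ r δ * gcd(δ,c)^2 * (N/δ)`, `G` holomorphic on the disc, `G(0) = 1`, and `C`, `C⁻¹` and all
  Taylor coefficients of `G` in every subring of `ℂ` containing `1/N` and the `N`-th roots of unity.
* `etaQuot_infty_expansion`: `etaQuot N r τ = q^(∑ r δ · δ) · G(q)` with Taylor series of `G` the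
  explicit formal product `etaQuotPS N r`; `exists_int_etaQuotPS` (integer coefficients);
  `etaQuot_laurent`, `qExpand_deltaLS` (Laurent form `∏ (qExpand δ Δ̂)^(r δ)`).
-/

set_option autoImplicit false

namespace Fermat.Agent.S28.helper1594

open ModularForm Complex MatrixGroups Function
open UpperHalfPlane hiding I
open scoped Real Topology

local notation "Δ" => ModularForm.discriminant
local notation "𝕢" => Periodic.qParam

noncomputable section

/-! ### Taylor series on the unit disc -/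

/-- Taylor series at `0` as a formal power series. -/
def taylorPS (f : ℂ → ℂ) : PowerSeries ℂ :=
  PowerSeries.mk fun n => (n.factorial : ℂ)⁻¹ * iteratedDeriv n f 0

@[simp] lemma coeff_taylorPS (f : ℂ → ℂ) (n : ℕ) :
    PowerSeries.coeff n (taylorPS f) = (n.factorial : ℂ)⁻¹ * iteratedDeriv n f 0 := by
  simp [taylorPS]

/-- `G` is holomorphic on the open unit disc with Taylor series `H` at `0`. -/
def PSConv (G : ℂ → ℂ) (H : PowerSeries ℂ) : Prop :=
  DifferentiableOn ℂ G (Metric.ball 0 1) ∧ taylorPS G = H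

lemma ball_mem_nhds_zero : Metric.ball (0 : ℂ) 1 ∈ 𝓝 (0 : ℂ) := Metric.ball_mem_nhds 0 one_pos

lemma PSConv.differentiableOn {G : ℂ → ℂ} {H : PowerSeries ℂ} (h : PSConv G H) :
    DifferentiableOn ℂ G (Metric.ball 0 1) := h.1

lemma PSConv.analyticAt {G : ℂ → ℂ} {H : PowerSeries ℂ} (h : PSConv G H) : AnalyticAt ℂ G 0 :=
  h.1.analyticAt ball_mem_nhds_zero

lemma PSConv.hasSum {G : ℂ → ℂ} {H : PowerSeries ℂ} (h : PSConv G H) {z : ℂ} (hz : ‖z‖ < 1) :
    HasSum (fun n => PowerSeries.coeff n H * z ^ n) (G z) := by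
  have h1 := Complex.hasSum_taylorSeries_on_ball h.1 (z := z) (by simpa using hz)
  have h2 : (fun n => PowerSeries.coeff n H * z ^ n) =
      fun n : ℕ => ((n.factorial : ℂ))⁻¹ • (z - 0) ^ n • iteratedDeriv n G 0 := by
    funext n
    rw [← h.2]
    simp only [coeff_taylorPS, sub_zero, smul_eq_mul]
    ring
  rw [h2]
  exact h1

lemma PSConv.constantCoeff {G : ℂ → ℂ} {H : PowerSeries ℂ} (h : PSConv G H) :
    PowerSeries.constantCoeff H = G 0 := by
  rw [← h.2, ← PowerSeries.coeff_zero_eq_constantCoeff_apply, coeff_taylorPS]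
  simp

/-- Uniqueness: a power series expansion near `0` of a function holomorphic on the disc is its
Taylor series. -/
lemma PSConv.of_hasSum {G : ℂ → ℂ} {c : ℕ → ℂ} (hG : DifferentiableOn ℂ G (Metric.ball 0 1))
    (h : ∀ᶠ z in 𝓝 (0 : ℂ), HasSum (fun n => c n * z ^ n) (G z)) : PSConv G (PowerSeries.mk c) := by
  refine ⟨hG, ?_⟩
  have h1 : HasFPowerSeriesAt G (FormalMultilinearSeries.ofScalars ℂ c) 0 := by
    rw [hasFPowerSeriesAt_iff]
    filter_upwards [h] with z hz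
    simpa [FormalMultilinearSeries.coeff_ofScalars, mul_comm] using hz
  have h2 := (hG.analyticAt ball_mem_nhds_zero).hasFPowerSeriesAt
  ext n
  have := congr_arg (FormalMultilinearSeries.coeff · n) (h1.eq_formalMultilinearSeries h2)
  simp only [FormalMultilinearSeries.coeff_ofScalars] at this
  simp [this, div_eq_mul_inv, mul_comm]

lemma taylorPS_mul {f g : ℂ → ℂ} (hf : AnalyticAt ℂ f 0) (hg : AnalyticAt ℂ g 0) :
    taylorPS (f * g) = taylorPS f * taylorPS g := by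
  ext n
  simp only [coeff_taylorPS, iteratedDeriv_mul hf.contDiffAt hg.contDiffAt, Finset.mul_sum,
    PowerSeries.coeff_mul, Finset.Nat.sum_antidiagonal_eq_sum_range_succ_mk, Nat.succ_eq_add_one]
  refine Finset.sum_congr rfl fun i hi ↦ ?_
  rw [Nat.cast_choose _ (by grind)]
  field_simp [Nat.factorial_ne_zero]

lemma PSConv.mul {G₁ G₂ : ℂ → ℂ} {H₁ H₂ : PowerSeries ℂ} (h₁ : PSConv G₁ H₁) (h₂ : PSConv G₂ H₂) :
    PSConv (G₁ * G₂) (H₁ * H₂) :=
  ⟨h₁.1.mul h₂.1, by rw [taylorPS_mul h₁.analyticAt h₂.analyticAt, h₁.2, h₂.2]⟩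

lemma PSConv.one : PSConv (1 : ℂ → ℂ) 1 := by
  refine ⟨differentiableOn_const (c := (1 : ℂ)), ?_⟩
  ext n
  rw [coeff_taylorPS, PowerSeries.coeff_one]
  have : (1 : ℂ → ℂ) = fun _ => (1 : ℂ) := rfl
  rw [this, iteratedDeriv_const]
  split_ifs with h
  · simp [h]
  · simp

lemma PSConv.congr {G G' : ℂ → ℂ} {H : PowerSeries ℂ} (h : PSConv G H)
    (he : ∀ z, ‖z‖ < 1 → G' z = G z) : PSConv G' H := by
  have hev : G' =ᶠ[𝓝 0] G := by
    filter_upwards [ball_mem_nhds_zero] with z hz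
    exact he z (by simpa using hz)
  refine ⟨h.1.congr fun z hz => he z (by simpa using hz), ?_⟩
  rw [← h.2]
  ext n
  simp only [coeff_taylorPS, hev.iteratedDeriv_eq n]

lemma PSConv.inv {G : ℂ → ℂ} {H : PowerSeries ℂ} (h : PSConv G H)
    (hne : ∀ z, ‖z‖ < 1 → G z ≠ 0) : PSConv G⁻¹ H⁻¹ := by
  have hd : DifferentiableOn ℂ G⁻¹ (Metric.ball 0 1) :=
    h.1.inv fun z hz => hne z (by simpa using hz)
  refine ⟨hd, ?_⟩
  have h1 : PSConv (G⁻¹ * G) (taylorPS G⁻¹ * H) := PSConv.mul ⟨hd, rfl⟩ h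
  have h2 : PSConv (G⁻¹ * G) 1 := PSConv.one.congr fun z hz => by
    simp [inv_mul_cancel₀ (hne z hz)]
  have h3 : taylorPS G⁻¹ * H = 1 := h1.2.symm.trans h2.2
  have hc : PowerSeries.constantCoeff H ≠ 0 := by
    rw [h.constantCoeff]; exact hne 0 (by simp)
  exact (PowerSeries.inv_eq_iff_mul_eq_one hc).mpr h3 |>.symm

lemma PSConv.pow {G : ℂ → ℂ} {H : PowerSeries ℂ} (h : PSConv G H) (n : ℕ) :
    PSConv (G ^ n) (H ^ n) := by
  induction n with
  | zero => simpa using PSConv.one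
  | succ n ih => rw [pow_succ, pow_succ]; exact ih.mul h

lemma PSConv.prod {ι : Type*} (s : Finset ι) {G : ι → ℂ → ℂ} {H : ι → PowerSeries ℂ}
    (h : ∀ i ∈ s, PSConv (G i) (H i)) : PSConv (∏ i ∈ s, G i) (∏ i ∈ s, H i) := by
  classical
  induction s using Finset.induction_on with
  | empty => simpa using PSConv.one
  | insert i s hi ih =>
    rw [Finset.prod_insert hi, Finset.prod_insert hi]
    exact (h i (Finset.mem_insert_self i s)).mul
      (ih fun j hj => h j (Finset.mem_insert_of_mem hj))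

/-- Substitution `z ↦ c z^m`. -/
lemma PSConv.comp_mul_pow {G : ℂ → ℂ} {H : PowerSeries ℂ} (h : PSConv G H) {c : ℂ}
    (hc : ‖c‖ ≤ 1) (m : ℕ) (hm : m ≠ 0) :
    PSConv (fun z => G (c * z ^ m)) (PowerSeries.expand m hm (PowerSeries.rescale c H)) := by
  have hmaps : ∀ z : ℂ, ‖z‖ < 1 → ‖c * z ^ m‖ < 1 := by
    intro z hz
    rw [norm_mul, norm_pow]
    calc ‖c‖ * ‖z‖ ^ m ≤ 1 * ‖z‖ ^ m := by gcongr
      _ = ‖z‖ ^ m := one_mul _
      _ < 1 := pow_lt_one₀ (norm_nonneg _) hz hm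
  have hd : DifferentiableOn ℂ (fun z => G (c * z ^ m)) (Metric.ball 0 1) := by
    refine h.1.comp (by fun_prop) fun z hz => ?_
    simpa using hmaps z (by simpa using hz)
  have key : PSConv (fun z => G (c * z ^ m))
      (PowerSeries.mk fun n => PowerSeries.coeff n
        (PowerSeries.expand m hm (PowerSeries.rescale c H))) := by
    refine PSConv.of_hasSum hd ?_
    filter_upwards [ball_mem_nhds_zero] with z hz
    have hz' : ‖z‖ < 1 := by simpa using hz
    have h1 := h.hasSum (hmaps z hz')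
    have hinj : Function.Injective fun k : ℕ => m * k :=
      fun a b hab => Nat.eq_of_mul_eq_mul_left (Nat.pos_of_ne_zero hm) hab
    rw [← hinj.hasSum_iff]
    · convert h1 using 1
      funext k
      simp only [Function.comp_apply, PowerSeries.coeff_expand_mul, PowerSeries.coeff_rescale]
      rw [mul_pow, pow_mul]
      ring
    · intro n hn
      have : ¬ m ∣ n := fun ⟨k, hk⟩ => hn ⟨k, hk.symm⟩
      rw [PowerSeries.coeff_expand_of_not_dvd m hm _ this, zero_mul]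
  convert key using 1
  ext n
  simp

/-! ### Euler's function `∏ (1 - q^(n+1))` and its Taylor series -/

/-- Euler's function `∏ (1 - q^(n+1))`. -/
def eulerFun (q : ℂ) : ℂ := ∏' n : ℕ, (1 - q ^ (n + 1))

/-- The formal Euler product (Prelude `etaProd`) with complex coefficients. -/
def eulerPS : PowerSeries ℂ := ModularCurve.etaProd.map (Int.castRingHom ℂ)

lemma differentiableOn_eulerFun : DifferentiableOn ℂ eulerFun (Metric.ball 0 1) :=
  ModularForm.differentiableOn_tprod_one_sub_pow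

lemma eulerFun_zero : eulerFun 0 = 1 := by
  simp [eulerFun]

lemma eulerFun_ne_zero {q : ℂ} (hq : ‖q‖ < 1) : eulerFun q ≠ 0 := by
  by_cases hq0 : q = 0
  · simp [hq0, eulerFun_zero]
  · have him := Function.Periodic.im_invQParam_pos_of_norm_lt_one one_pos hq hq0
    have := ModularForm.eta_tprod_ne_zero (z := Function.Periodic.invQParam 1 q) him
    simpa [eulerFun, ModularForm.eta_q, Function.Periodic.qParam_right_inv one_ne_zero hq0]
      using this

lemma tendstoLocallyUniformlyOn_iteratedDeriv {ι : Type*} {φ : Filter ι} {F : ι → ℂ → ℂ}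
    {f : ℂ → ℂ} {U : Set ℂ} (hU : IsOpen U) (hF : TendstoLocallyUniformlyOn F f φ U)
    (hd : ∀ᶠ n in φ, DifferentiableOn ℂ (F n) U) (k : ℕ) :
    TendstoLocallyUniformlyOn (fun n => iteratedDeriv k (F n)) (iteratedDeriv k f) φ U ∧
      ∀ᶠ n in φ, DifferentiableOn ℂ (iteratedDeriv k (F n)) U := by
  induction k with
  | zero =>
    simp only [iteratedDeriv_zero]
    exact ⟨hF, hd⟩
  | succ k ih =>
    obtain ⟨ih1, ih2⟩ := ih
    refine ⟨?_, ?_⟩
    · have := ih1.deriv ih2 hU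
      simp only [iteratedDeriv_succ]
      exact this
    · filter_upwards [ih2] with n hn
      rw [iteratedDeriv_succ]
      exact hn.deriv hU

lemma tendsto_coeff_taylorPS {ι : Type*} {φ : Filter ι} {F : ι → ℂ → ℂ}
    {f : ℂ → ℂ} {U : Set ℂ} (hU : IsOpen U) (h0 : (0 : ℂ) ∈ U)
    (hF : TendstoLocallyUniformlyOn F f φ U)
    (hd : ∀ᶠ n in φ, DifferentiableOn ℂ (F n) U) (k : ℕ) :
    Filter.Tendsto (fun n => PowerSeries.coeff k (taylorPS (F n))) φ
      (𝓝 (PowerSeries.coeff k (taylorPS f))) := by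
  have h1 := ((tendstoLocallyUniformlyOn_iteratedDeriv hU hF hd k).1).tendsto_at h0
  simp only [coeff_taylorPS]
  exact h1.const_mul _

lemma taylorPS_polynomial (p : Polynomial ℂ) :
    taylorPS (fun z => p.eval z) = (p : PowerSeries ℂ) := by
  have h : PSConv (fun z => p.eval z) (PowerSeries.mk fun n => p.coeff n) := by
    refine PSConv.of_hasSum (by fun_prop) (Filter.Eventually.of_forall fun z => ?_)
    rw [Polynomial.eval_eq_sum_range]
    refine hasSum_sum_of_ne_finset_zero ?_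
    intro b hb
    have : p.natDegree < b := by
      simp only [Finset.mem_range, not_lt] at hb
      omega
    simp [Polynomial.coeff_eq_zero_of_natDegree_lt this]
  rw [h.2]
  ext n
  simp

open scoped PowerSeries.WithPiTopology in
/-- The Taylor series of Euler's function is the formal Euler product. -/
lemma psConv_eulerFun : PSConv eulerFun eulerPS := by
  refine ⟨differentiableOn_eulerFun, ?_⟩
  ext k
  -- analytic side
  have hA := tendsto_coeff_taylorPS (φ := Filter.atTop)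
    (F := fun (s : Finset ℕ) (q : ℂ) => ∏ n ∈ s, (1 - q ^ (n + 1))) (f := eulerFun)
    Metric.isOpen_ball (Metric.mem_ball_self one_pos)
    ModularForm.multipliableLocallyUniformlyOn_one_sub_pow.hasProdLocallyUniformlyOn
    (Filter.Eventually.of_forall fun s => by fun_prop) k
  -- formal side
  have hF : Filter.Tendsto
      (fun s : Finset ℕ => ∏ n ∈ s, ((1 : PowerSeries ℤ) - PowerSeries.X ^ (n + 1)))
      Filter.atTop (𝓝 ModularCurve.etaProd) :=
    (PowerSeries.WithPiTopology.multipliable_one_sub_X_pow ℤ).hasProd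
  have hF2 : Filter.Tendsto (fun s : Finset ℕ =>
      ((PowerSeries.coeff k (∏ n ∈ s, ((1 : PowerSeries ℤ) - PowerSeries.X ^ (n + 1))) : ℤ) : ℂ))
      Filter.atTop (𝓝 ((PowerSeries.coeff k ModularCurve.etaProd : ℤ) : ℂ)) :=
    ((continuous_of_discreteTopology (f := fun n : ℤ => (n : ℂ))).tendsto _).comp
      (((PowerSeries.WithPiTopology.continuous_coeff ℤ k).tendsto _).comp hF)
  have hEq : ∀ s : Finset ℕ,
      PowerSeries.coeff k (taylorPS (fun q : ℂ => ∏ n ∈ s, (1 - q ^ (n + 1)))) =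
      ((PowerSeries.coeff k (∏ n ∈ s, ((1 : PowerSeries ℤ) - PowerSeries.X ^ (n + 1))) : ℤ) : ℂ) := by
    intro s
    have h1 : (fun q : ℂ => ∏ n ∈ s, (1 - q ^ (n + 1))) =
        fun q => (∏ n ∈ s, ((1 : Polynomial ℂ) - Polynomial.X ^ (n + 1))).eval q := by
      funext q
      simp [Polynomial.eval_prod]
    rw [h1, taylorPS_polynomial]
    have h2 : ((∏ n ∈ s, ((1 : Polynomial ℂ) - Polynomial.X ^ (n + 1)) : Polynomial ℂ) :
        PowerSeries ℂ) = (∏ n ∈ s, ((1 : PowerSeries ℤ) - PowerSeries.X ^ (n + 1))).map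
          (Int.castRingHom ℂ) := by
      rw [← Polynomial.coeToPowerSeries.ringHom_apply, map_prod, map_prod]
      refine Finset.prod_congr rfl fun n _ => ?_
      simp
    rw [h2, PowerSeries.coeff_map]
    simp
  have hA' := hA.congr hEq
  rw [eulerPS, PowerSeries.coeff_map]
  exact tendsto_nhds_unique hA' hF2

/-! ### Power series with coefficients in a subring -/

/-- Constant coefficient `1` and all coefficients in the subring `O`. -/
def PSIn (O : Subring ℂ) (H : PowerSeries ℂ) : Prop :=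
  PowerSeries.constantCoeff H = 1 ∧ ∀ n, PowerSeries.coeff n H ∈ O

lemma PSIn.one (O : Subring ℂ) : PSIn O 1 := by
  refine ⟨by simp, fun n => ?_⟩
  rw [PowerSeries.coeff_one]
  split_ifs
  exacts [O.one_mem, O.zero_mem]

lemma PSIn.mul {O : Subring ℂ} {H₁ H₂ : PowerSeries ℂ} (h₁ : PSIn O H₁) (h₂ : PSIn O H₂) :
    PSIn O (H₁ * H₂) := by
  refine ⟨by rw [map_mul, h₁.1, h₂.1, mul_one], fun n => ?_⟩
  rw [PowerSeries.coeff_mul]
  exact O.sum_mem fun p _ => O.mul_mem (h₁.2 _) (h₂.2 _)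

lemma PSIn.pow {O : Subring ℂ} {H : PowerSeries ℂ} (h : PSIn O H) (n : ℕ) : PSIn O (H ^ n) := by
  induction n with
  | zero => simpa using PSIn.one O
  | succ n ih => rw [pow_succ]; exact ih.mul h

lemma PSIn.prod {O : Subring ℂ} {ι : Type*} (s : Finset ι) {H : ι → PowerSeries ℂ}
    (h : ∀ i ∈ s, PSIn O (H i)) : PSIn O (∏ i ∈ s, H i) := by
  classical
  induction s using Finset.induction_on with
  | empty => simpa using PSIn.one O
  | insert i s hi ih =>
    rw [Finset.prod_insert hi]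
    exact (h i (Finset.mem_insert_self i s)).mul
      (ih fun j hj => h j (Finset.mem_insert_of_mem hj))

lemma PSIn.inv {O : Subring ℂ} {H : PowerSeries ℂ} (h : PSIn O H) : PSIn O H⁻¹ := by
  set H₀ : PowerSeries O := PowerSeries.mk fun n => ⟨PowerSeries.coeff n H, h.2 n⟩ with hH₀
  have hmap : PowerSeries.map O.subtype H₀ = H := by
    ext n
    simp [hH₀]
  have hc : PowerSeries.constantCoeff H₀ = ((1 : Oˣ) : O) := by
    rw [← PowerSeries.coeff_zero_eq_constantCoeff_apply, hH₀, PowerSeries.coeff_mk]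
    ext
    simp [h.1]
  have hmul := PowerSeries.mul_invOfUnit H₀ 1 hc
  have hmul' : PowerSeries.map O.subtype (PowerSeries.invOfUnit H₀ 1) * H = 1 := by
    rw [← hmap, ← map_mul, mul_comm, hmul, map_one]
  have hcH : PowerSeries.constantCoeff H ≠ 0 := by rw [h.1]; exact one_ne_zero
  have hinv : H⁻¹ = PowerSeries.map O.subtype (PowerSeries.invOfUnit H₀ 1) :=
    (PowerSeries.inv_eq_iff_mul_eq_one hcH).mpr hmul'
  refine ⟨?_, fun n => ?_⟩
  · rw [PowerSeries.constantCoeff_inv, h.1, inv_one]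
  · rw [hinv, PowerSeries.coeff_map]
    exact (PowerSeries.coeff n (PowerSeries.invOfUnit H₀ 1)).2

lemma PSIn.expand_rescale {O : Subring ℂ} {H : PowerSeries ℂ} (h : PSIn O H) {c : ℂ}
    (hc : c ∈ O) (m : ℕ) (hm : m ≠ 0) :
    PSIn O (PowerSeries.expand m hm (PowerSeries.rescale c H)) := by
  refine ⟨?_, fun n => ?_⟩
  · rw [PowerSeries.constantCoeff_expand, ← PowerSeries.coeff_zero_eq_constantCoeff_apply,
      PowerSeries.coeff_rescale, pow_zero, one_mul, PowerSeries.coeff_zero_eq_constantCoeff_apply,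
      h.1]
  · rw [PowerSeries.coeff_expand]
    split_ifs
    · rw [PowerSeries.coeff_rescale]
      exact O.mul_mem (O.pow_mem hc _) (h.2 _)
    · exact O.zero_mem

lemma psIn_eulerPS (O : Subring ℂ) : PSIn O eulerPS := by
  refine ⟨?_, fun n => ?_⟩
  · rw [eulerPS, ← PowerSeries.coeff_zero_eq_constantCoeff_apply, PowerSeries.coeff_map,
      PowerSeries.coeff_zero_eq_constantCoeff_apply, ModularCurve.constantCoeff_etaProd]
    simp
  · rw [eulerPS, PowerSeries.coeff_map]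
    simp

/-- Integer powers of a power series (via the inverse for negative exponents). -/
def zpowPS (H : PowerSeries ℂ) (n : ℤ) : PowerSeries ℂ :=
  if 0 ≤ n then H ^ n.toNat else H⁻¹ ^ (-n).toNat

lemma PSIn.zpowPS {O : Subring ℂ} {H : PowerSeries ℂ} (h : PSIn O H) (n : ℤ) :
    PSIn O (zpowPS H n) := by
  unfold helper1594.zpowPS
  split_ifs
  exacts [h.pow _, h.inv.pow _]

lemma PSConv.zpow {G : ℂ → ℂ} {H : PowerSeries ℂ} (h : PSConv G H)
    (hne : ∀ z, ‖z‖ < 1 → G z ≠ 0) (n : ℤ) : PSConv (fun z => G z ^ n) (zpowPS H n) := by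
  unfold zpowPS
  split_ifs with hn
  · refine (h.pow n.toNat).congr fun z _ => ?_
    simp only [Pi.pow_apply]
    conv_lhs => rw [← Int.toNat_of_nonneg hn]
    rw [zpow_natCast]
  · refine ((h.inv hne).pow (-n).toNat).congr fun z _ => ?_
    simp only [Pi.pow_apply, Pi.inv_apply]
    have hn' : n = -((-n).toNat : ℤ) := by
      rw [Int.toNat_of_nonneg (by omega)]; ring
    conv_lhs => rw [hn']
    rw [zpow_neg, zpow_natCast, inv_pow]

/-! ### `Δ((aτ+b)/d)` as a function of `t = exp(2πiτ/N)` -/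

open Fermat.Agent.S28.helper407 (pt etaQuot coe_pt etaQuot_smul prod_zpow_eq_zpow_sum)

lemma discriminant_eq_eulerFun (z : ℍ) : Δ z = 𝕢 1 z * eulerFun (𝕢 1 z) ^ 24 := by
  have hmul : Multipliable fun n : ℕ => 1 - 𝕢 1 (z : ℂ) ^ (n + 1) :=
    ModularForm.multipliable_one_sub_pow (Function.Periodic.norm_qParam_lt_one one_pos z.im_pos)
  rw [discriminant_eq_q_prod, eulerFun, ← hmul.tprod_pow]

lemma qParam_pt {a d : ℕ} (ha : 0 < a) (hd : 0 < d) (b : ℕ) {N k : ℕ} (hN : N = d * k)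
    (hk : 0 < k) (τ : ℍ) :
    𝕢 1 (pt a b d τ : ℂ) = cexp (2 * π * I * b / d) * (𝕢 N (τ : ℂ)) ^ (a * k) := by
  have hd' : (d : ℂ) ≠ 0 := by exact_mod_cast hd.ne'
  have hk' : (k : ℂ) ≠ 0 := by exact_mod_cast hk.ne'
  rw [coe_pt ha hd, Periodic.qParam, Periodic.qParam, ← Complex.exp_nat_mul, ← Complex.exp_add]
  congr 1
  subst hN
  push_cast
  field_simp
  ring

/-- `Δ((aτ+b)/d) = Q · eulerFun(Q)^24` with `Q = ζ · t^(a k)`, `N = d k`, `t = exp(2πiτ/N)`. -/
lemma discriminant_pt_eq {a d : ℕ} (ha : 0 < a) (hd : 0 < d) (b : ℕ) {N k : ℕ} (hN : N = d * k)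
    (hk : 0 < k) (τ : ℍ) :
    Δ (pt a b d τ) = cexp (2 * π * I * b / d) * 𝕢 N (τ : ℂ) ^ (a * k) *
      eulerFun (cexp (2 * π * I * b / d) * 𝕢 N (τ : ℂ) ^ (a * k)) ^ 24 := by
  rw [discriminant_eq_eulerFun, qParam_pt ha hd b hN hk]

lemma rootOfUnity_pow_eq_one (b : ℕ) {d : ℕ} (hd : 0 < d) {N k : ℕ} (hN : N = d * k) :
    cexp (2 * π * I * b / d) ^ N = 1 := by
  have hd' : (d : ℂ) ≠ 0 := by exact_mod_cast hd.ne'
  rw [← Complex.exp_nat_mul]
  have : (N : ℂ) * (2 * π * I * b / d) = ((b * k : ℕ) : ℂ) * (2 * π * I) := by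
    subst hN
    push_cast
    field_simp
  rw [this, Complex.exp_nat_mul_two_pi_mul_I]

lemma norm_mul_pow_lt_one {c z : ℂ} (hc : ‖c‖ ≤ 1) (hz : ‖z‖ < 1) {m : ℕ} (hm : m ≠ 0) :
    ‖c * z ^ m‖ < 1 := by
  rw [norm_mul, norm_pow]
  calc ‖c‖ * ‖z‖ ^ m ≤ 1 * ‖z‖ ^ m := by gcongr
    _ = ‖z‖ ^ m := one_mul _
    _ < 1 := pow_lt_one₀ (norm_nonneg _) hz hm

/-- Integer powers of a unit of a subring stay in the subring. -/
lemma zpow_mem_of_mem {O : Subring ℂ} {x : ℂ} (hx : x ∈ O) (hx' : x⁻¹ ∈ O) (n : ℤ) :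
    x ^ n ∈ O := by
  obtain ⟨k, rfl | rfl⟩ := n.eq_nat_or_neg
  · rw [zpow_natCast]; exact O.pow_mem hx k
  · rw [zpow_neg, zpow_natCast, ← inv_pow]; exact O.pow_mem hx' k

/-! ### The cusp expansion of an eta quotient -/

/-- **Cusp expansion of eta quotients.** Let `∑_{δ ∣ N} r δ = 0` and `g ∈ SL(2,ℤ)` with lower-left
entry `c`. Then, with `t = exp(2πiτ/N)`,
`etaQuot N r (g • τ) = C · t^K · G(t)`, `K = ∑_{δ ∣ N} r δ · gcd(δ,c)² · (N/δ)`, where `G` is
holomorphic on the unit disc with Taylor series `H`, `H(0) = 1`, and `C`, `C⁻¹` and all coefficients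
of `H` lie in every subring of `ℂ` containing `1/N` and the `N`-th roots of unity. -/
theorem etaQuot_cusp_expansion (N : ℕ) (hN : 0 < N) (r : ℕ → ℤ)
    (hr : ∑ δ ∈ N.divisors, r δ = 0) (g : SL(2, ℤ)) :
    ∃ (C : ℂ) (G : ℂ → ℂ) (H : PowerSeries ℂ),
      C ≠ 0 ∧ PSConv G H ∧ PowerSeries.constantCoeff H = 1 ∧
      (∀ O : Subring ℂ, (N : ℂ)⁻¹ ∈ O → (∀ z : ℂ, z ^ N = 1 → z ∈ O) →
        C ∈ O ∧ C⁻¹ ∈ O ∧ ∀ n, PowerSeries.coeff n H ∈ O) ∧
      ∀ τ : ℍ, etaQuot N r (g • τ) =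
        C * 𝕢 N (τ : ℂ) ^ (∑ δ ∈ N.divisors,
          r δ * (((Nat.gcd δ (g 1 0).natAbs : ℕ) : ℤ) ^ 2 * ((N / δ : ℕ) : ℤ))) *
          G (𝕢 N (τ : ℂ)) := by
  classical
  obtain ⟨a, b, d, habd, hτ⟩ := etaQuot_smul N r hr g
  -- per-divisor data
  have hfacts : ∀ δ ∈ N.divisors, 0 < a δ ∧ 0 < d δ ∧ N = d δ * (N / d δ) ∧ 0 < N / d δ ∧
      ((a δ * (N / d δ) : ℕ) : ℤ) =
        ((Nat.gcd δ (g 1 0).natAbs : ℕ) : ℤ) ^ 2 * ((N / δ : ℕ) : ℤ) := by
    intro δ hδ
    obtain ⟨ha, had, -⟩ := habd δ hδ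
    have hδpos : 0 < δ := Nat.pos_of_mem_divisors hδ
    have hδN : δ ∣ N := Nat.dvd_of_mem_divisors hδ
    have ha_pos : 0 < a δ := by
      rcases Nat.eq_zero_or_pos (a δ) with h | h
      · rw [h, Nat.zero_mul] at had; omega
      · exact h
    have hd_pos : 0 < d δ := by
      rcases Nat.eq_zero_or_pos (d δ) with h | h
      · rw [h, Nat.mul_zero] at had; omega
      · exact h
    have hdN : d δ ∣ N := (Dvd.intro_left _ had).trans hδN
    have hNk : N = d δ * (N / d δ) := (Nat.mul_div_cancel' hdN).symm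
    have hk_pos : 0 < N / d δ := Nat.div_pos (Nat.le_of_dvd hN hdN) hd_pos
    refine ⟨ha_pos, hd_pos, hNk, hk_pos, ?_⟩
    set k := N / d δ with hk
    have hak : a δ ∣ k := by
      have h1 : a δ * d δ ∣ d δ * k := by rw [had, ← hNk]; exact hδN
      rw [mul_comm (a δ)] at h1
      exact (Nat.mul_dvd_mul_iff_left hd_pos).mp h1
    have hNδ : N / δ = k / a δ := by
      have h2 : N / δ = (d δ * k) / (d δ * a δ) := by rw [← hNk, mul_comm (d δ) (a δ), had]
      rw [h2, Nat.mul_div_mul_left _ _ hd_pos]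
    rw [hNδ, ← ha]
    obtain ⟨e, he⟩ := hak
    rw [he, Nat.mul_div_cancel_left _ ha_pos]
    push_cast
    ring
  set M : ℕ → ℕ := fun δ => if δ ∈ N.divisors then a δ * (N / d δ) else 1 with hMdef
  have hM : ∀ δ, M δ ≠ 0 := by
    intro δ
    by_cases hδ : δ ∈ N.divisors
    · obtain ⟨ha_pos, -, -, hk_pos, -⟩ := hfacts δ hδ
      simp only [hMdef, if_pos hδ]
      exact (Nat.mul_pos ha_pos hk_pos).ne'
    · simp only [hMdef, if_neg hδ]
      exact one_ne_zero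
  have hMeq : ∀ δ ∈ N.divisors, M δ = a δ * (N / d δ) := fun δ hδ => if_pos hδ
  set ζ : ℕ → ℂ := fun δ => cexp (2 * π * I * b δ / d δ) with hζdef
  have hζN : ∀ δ ∈ N.divisors, ζ δ ^ N = 1 := fun δ hδ =>
    rootOfUnity_pow_eq_one (b δ) (hfacts δ hδ).2.1 (hfacts δ hδ).2.2.1
  have hζnorm : ∀ δ ∈ N.divisors, ‖ζ δ‖ ≤ 1 := by
    intro δ hδ
    have h1 : ‖ζ δ‖ ^ N = 1 := by rw [← norm_pow, hζN δ hδ, norm_one]
    exact ((pow_eq_one_iff_of_nonneg (norm_nonneg _) hN.ne').mp h1).le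
  have hζ0 : ∀ δ, ζ δ ≠ 0 := fun δ => Complex.exp_ne_zero _
  set P : ℕ → PowerSeries ℂ := fun δ =>
    PowerSeries.expand (M δ) (hM δ) (PowerSeries.rescale (ζ δ) eulerPS) with hPdef
  set Gδ : ℕ → ℂ → ℂ := fun δ z => (eulerFun (ζ δ * z ^ M δ) ^ 24) ^ r δ with hGdef
  set Hδ : ℕ → PowerSeries ℂ := fun δ => zpowPS (P δ ^ 24) (r δ) with hHdef
  have hconv : ∀ δ ∈ N.divisors, PSConv (Gδ δ) (Hδ δ) := by
    intro δ hδ
    have h1 := (psConv_eulerFun.comp_mul_pow (hζnorm δ hδ) (M δ) (hM δ)).pow 24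
    have hne : ∀ z : ℂ, ‖z‖ < 1 → ((fun z => eulerFun (ζ δ * z ^ M δ)) ^ 24) z ≠ 0 := by
      intro z hz
      simp only [Pi.pow_apply]
      exact pow_ne_zero _ (eulerFun_ne_zero (norm_mul_pow_lt_one (hζnorm δ hδ) hz (hM δ)))
    exact h1.zpow hne (r δ)
  have hIn : ∀ O : Subring ℂ, (∀ δ ∈ N.divisors, ζ δ ∈ O) → ∀ δ ∈ N.divisors, PSIn O (Hδ δ) :=
    fun O hO δ hδ => (((psIn_eulerPS O).expand_rescale (hO δ hδ) (M δ) (hM δ)).pow 24).zpowPS (r δ)
  have hdne : ∀ δ ∈ N.divisors, (d δ : ℂ) ≠ 0 := fun δ hδ => by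
    exact_mod_cast (hfacts δ hδ).2.1.ne'
  refine ⟨∏ δ ∈ N.divisors, (((d δ : ℂ) ^ 12)⁻¹ * ζ δ) ^ r δ,
    fun z => ∏ δ ∈ N.divisors, Gδ δ z, ∏ δ ∈ N.divisors, Hδ δ, ?_, ?_, ?_, ?_, ?_⟩
  · exact Finset.prod_ne_zero_iff.mpr fun δ hδ =>
      zpow_ne_zero _ (mul_ne_zero (inv_ne_zero (pow_ne_zero _ (hdne δ hδ))) (hζ0 δ))
  · exact (PSConv.prod N.divisors hconv).congr fun z _ => by simp [Finset.prod_apply]
  · exact (PSIn.prod (O := ⊤) N.divisors (hIn ⊤ fun _ _ => Subring.mem_top _)).1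
  · intro O hNinv hroots
    have hζO : ∀ δ ∈ N.divisors, ζ δ ∈ O := fun δ hδ => hroots _ (hζN δ hδ)
    have hζinvO : ∀ δ ∈ N.divisors, (ζ δ)⁻¹ ∈ O := fun δ hδ =>
      hroots _ (by rw [inv_pow, hζN δ hδ, inv_one])
    have hdinv : ∀ δ ∈ N.divisors, ((d δ : ℂ))⁻¹ ∈ O := by
      intro δ hδ
      obtain ⟨-, hd_pos, hNk, hk_pos, -⟩ := hfacts δ hδ
      have h1 : ((d δ : ℂ))⁻¹ = ((N / d δ : ℕ) : ℂ) * (N : ℂ)⁻¹ := by
        have hk' : ((N / d δ : ℕ) : ℂ) ≠ 0 := by exact_mod_cast hk_pos.ne'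
        have hNc : (N : ℂ) = (d δ : ℂ) * ((N / d δ : ℕ) : ℂ) := by exact_mod_cast hNk
        rw [hNc]
        field_simp [hdne δ hδ]
      rw [h1]
      exact O.mul_mem (natCast_mem O _) hNinv
    have hx : ∀ δ ∈ N.divisors, ((d δ : ℂ) ^ 12)⁻¹ * ζ δ ∈ O := fun δ hδ => by
      rw [← inv_pow]
      exact O.mul_mem (O.pow_mem (hdinv δ hδ) 12) (hζO δ hδ)
    have hx' : ∀ δ ∈ N.divisors, (((d δ : ℂ) ^ 12)⁻¹ * ζ δ)⁻¹ ∈ O := fun δ hδ => by
      rw [mul_inv, inv_inv]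
      exact O.mul_mem (O.pow_mem (natCast_mem O _) 12) (hζinvO δ hδ)
    refine ⟨O.prod_mem fun δ hδ => zpow_mem_of_mem (hx δ hδ) (hx' δ hδ) _, ?_,
      (PSIn.prod N.divisors (hIn O hζO)).2⟩
    rw [← Finset.prod_inv_distrib]
    refine O.prod_mem fun δ hδ => ?_
    rw [← zpow_neg]
    exact zpow_mem_of_mem (hx δ hδ) (hx' δ hδ) _
  · intro τ
    rw [hτ τ]
    have ht0 : 𝕢 N (τ : ℂ) ≠ 0 := Periodic.qParam_ne_zero _
    have hterm : ∀ δ ∈ N.divisors,
        (((d δ : ℂ) ^ 12)⁻¹ * Δ (pt (a δ) (b δ) (d δ) τ)) ^ r δ =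
          ((((d δ : ℂ) ^ 12)⁻¹ * ζ δ) ^ r δ * 𝕢 N (τ : ℂ) ^ ((M δ : ℤ) * r δ)) *
            Gδ δ (𝕢 N (τ : ℂ)) := by
      intro δ hδ
      obtain ⟨ha_pos, hd_pos, hNk, hk_pos, -⟩ := hfacts δ hδ
      rw [discriminant_pt_eq ha_pos hd_pos (b δ) hNk hk_pos τ, ← hMeq δ hδ]
      simp only [hGdef]
      rw [zpow_mul, zpow_natCast, ← mul_zpow, ← mul_zpow]
      congr 1
      ring
    rw [Finset.prod_congr rfl hterm, Finset.prod_mul_distrib, Finset.prod_mul_distrib,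
      prod_zpow_eq_zpow_sum _ _ ht0]
    congr 3
    refine Finset.sum_congr rfl fun δ hδ => ?_
    rw [mul_comm, hMeq δ hδ, (hfacts δ hδ).2.2.2.2]

/-! ### The expansion at `i∞` (identity coset), in explicit formal shape -/

lemma qParam_pt_one {δ : ℕ} (hδ : 0 < δ) (τ : ℍ) :
    𝕢 1 (pt δ 0 1 τ : ℂ) = 𝕢 1 (τ : ℂ) ^ δ := by
  rw [coe_pt hδ one_pos, Periodic.qParam, Periodic.qParam, ← Complex.exp_nat_mul]
  congr 1
  push_cast
  ring

lemma qParam_one_eq_pow {N : ℕ} (hN : 0 < N) (z : ℂ) : 𝕢 1 z = 𝕢 N z ^ N := by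
  have hN' : (N : ℂ) ≠ 0 := by exact_mod_cast hN.ne'
  rw [Periodic.qParam, Periodic.qParam, ← Complex.exp_nat_mul]
  congr 1
  push_cast
  field_simp

/-- The formal series `∏ (1 - X^(δ(n+1)))` (`1` for `δ = 0`). -/
def eulerExp (δ : ℕ) : PowerSeries ℂ :=
  if h : δ = 0 then 1 else PowerSeries.expand δ h eulerPS

lemma psConv_eulerExp {δ : ℕ} (hδ : δ ≠ 0) : PSConv (fun z => eulerFun (z ^ δ)) (eulerExp δ) := by
  have h := psConv_eulerFun.comp_mul_pow (c := 1) (by simp) δ hδ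
  rw [PowerSeries.rescale_one, RingHom.id_apply] at h
  rw [eulerExp, dif_neg hδ]
  exact h.congr fun z _ => by rw [one_mul]

lemma psIn_eulerExp (O : Subring ℂ) (δ : ℕ) : PSIn O (eulerExp δ) := by
  unfold eulerExp
  split_ifs with h
  · exact PSIn.one O
  · have := (psIn_eulerPS O).expand_rescale O.one_mem δ h
    rwa [PowerSeries.rescale_one, RingHom.id_apply] at this

/-- The power series part `∏_{δ ∣ N} (∏_n (1 - q^(δ n)))^(24 r δ)` of the formal eta quotient. -/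
def etaQuotPS (N : ℕ) (r : ℕ → ℤ) : PowerSeries ℂ :=
  ∏ δ ∈ N.divisors, zpowPS (eulerExp δ ^ 24) (r δ)

lemma psIn_etaQuotPS (O : Subring ℂ) (N : ℕ) (r : ℕ → ℤ) : PSIn O (etaQuotPS N r) :=
  PSIn.prod _ fun δ _ => ((psIn_eulerExp O δ).pow 24).zpowPS (r δ)

/-- The power series part of the formal eta quotient has integer coefficients and constant
coefficient `1`. -/
theorem exists_int_etaQuotPS (N : ℕ) (r : ℕ → ℤ) :
    ∃ W : PowerSeries ℤ, PowerSeries.constantCoeff W = 1 ∧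
      W.map (Int.castRingHom ℂ) = etaQuotPS N r := by
  have h := psIn_etaQuotPS (Int.castRingHom ℂ).range N r
  choose w hw using h.2
  refine ⟨PowerSeries.mk w, ?_, ?_⟩
  · have h0 : ((w 0 : ℤ) : ℂ) = 1 := by
      have := hw 0
      rw [PowerSeries.coeff_zero_eq_constantCoeff_apply, h.1] at this
      exact this
    rw [← PowerSeries.coeff_zero_eq_constantCoeff_apply, PowerSeries.coeff_mk]
    exact_mod_cast h0
  · ext n
    rw [PowerSeries.coeff_map, PowerSeries.coeff_mk]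
    exact hw n

/-- **Expansion of the eta quotient at `i∞`** (period `1`):
`etaQuot N r τ = q^(∑ r δ · δ) · G(q)`, `q = exp(2πiτ)`, with `G` holomorphic on the unit disc
with Taylor series the explicit formal product `etaQuotPS N r` (integer coefficients, constant
coefficient `1`). -/
theorem etaQuot_infty_expansion (N : ℕ) (r : ℕ → ℤ) :
    ∃ G : ℂ → ℂ, PSConv G (etaQuotPS N r) ∧
      ∀ τ : ℍ, etaQuot N r τ =
        𝕢 1 (τ : ℂ) ^ (∑ δ ∈ N.divisors, r δ * (δ : ℤ)) * G (𝕢 1 (τ : ℂ)) := by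
  classical
  set Gδ : ℕ → ℂ → ℂ := fun δ z => (eulerFun (z ^ δ) ^ 24) ^ r δ with hGdef
  have hconv : ∀ δ ∈ N.divisors, PSConv (Gδ δ) (zpowPS (eulerExp δ ^ 24) (r δ)) := by
    intro δ hδ
    have hδ0 : δ ≠ 0 := (Nat.pos_of_mem_divisors hδ).ne'
    have h1 := (psConv_eulerExp hδ0).pow 24
    have hne : ∀ z : ℂ, ‖z‖ < 1 → ((fun z => eulerFun (z ^ δ)) ^ 24) z ≠ 0 := by
      intro z hz
      simp only [Pi.pow_apply]
      refine pow_ne_zero _ (eulerFun_ne_zero ?_)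
      rw [norm_pow]
      exact pow_lt_one₀ (norm_nonneg _) hz hδ0
    exact h1.zpow hne (r δ)
  refine ⟨fun z => ∏ δ ∈ N.divisors, Gδ δ z,
    (PSConv.prod N.divisors hconv).congr fun z _ => by simp [Finset.prod_apply], fun τ => ?_⟩
  have hq0 : 𝕢 1 (τ : ℂ) ≠ 0 := Periodic.qParam_ne_zero _
  have hterm : ∀ δ ∈ N.divisors, Δ (pt δ 0 1 τ) ^ r δ =
      𝕢 1 (τ : ℂ) ^ ((δ : ℤ) * r δ) * Gδ δ (𝕢 1 (τ : ℂ)) := by
    intro δ hδ
    rw [discriminant_eq_eulerFun, qParam_pt_one (Nat.pos_of_mem_divisors hδ)]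
    simp only [hGdef]
    rw [zpow_mul, zpow_natCast, ← mul_zpow]
  rw [etaQuot, Finset.prod_congr rfl hterm, Finset.prod_mul_distrib,
    prod_zpow_eq_zpow_sum _ _ hq0]
  congr 2
  exact Finset.sum_congr rfl fun δ _ => mul_comm _ _

/-! ### Laurent series form of the formal eta quotient -/

lemma constantCoeff_zpowPS {P : PowerSeries ℂ} (hP : PowerSeries.constantCoeff P = 1) (n : ℤ) :
    PowerSeries.constantCoeff (zpowPS P n) = 1 := by
  have h : PSIn ⊤ P := ⟨hP, fun _ => Subring.mem_top _⟩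
  exact (h.zpowPS n).1

lemma ofPowerSeries_zpowPS {P : PowerSeries ℂ} (hP : PowerSeries.constantCoeff P ≠ 0) (n : ℤ) :
    HahnSeries.ofPowerSeries ℤ ℂ (zpowPS P n) = (HahnSeries.ofPowerSeries ℤ ℂ P) ^ n := by
  unfold zpowPS
  split_ifs with hn
  · rw [map_pow]
    conv_rhs => rw [← Int.toNat_of_nonneg hn]
    rw [zpow_natCast]
  · have hinv : HahnSeries.ofPowerSeries ℤ ℂ P⁻¹ = (HahnSeries.ofPowerSeries ℤ ℂ P)⁻¹ := by
      apply eq_inv_of_mul_eq_one_left
      rw [← map_mul, PowerSeries.inv_mul_cancel _ hP, map_one]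
    rw [map_pow, hinv, inv_pow]
    have hn' : n = -((-n).toNat : ℤ) := by
      rw [Int.toNat_of_nonneg (by omega)]; ring
    conv_rhs => rw [hn']
    rw [zpow_neg, zpow_natCast]

lemma single_one_zpow (n : ℤ) :
    (HahnSeries.single (1 : ℤ) (1 : ℂ)) ^ n = HahnSeries.single n (1 : ℂ) :=
  (RatFunc.single_zpow n).symm

lemma prod_zpow_eq_zpow_sum' {K : Type*} [Field K] {ι : Type*} (s : Finset ι) (f : ι → ℤ) {x : K}
    (hx : x ≠ 0) : ∏ i ∈ s, x ^ f i = x ^ ∑ i ∈ s, f i := by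
  classical
  induction s using Finset.induction_on with
  | empty => simp
  | insert i s hi ih => rw [Finset.prod_insert hi, Finset.sum_insert hi, ih, zpow_add₀ hx]

/-- **Laurent form of the formal eta quotient**: `q^(∑ r δ · δ) · etaQuotPS N r` is the product of
the `(q^δ ∏_n (1 - q^(δ n))^24)^(r δ)` in the field `ℂ((q))`. -/
theorem etaQuot_laurent (N : ℕ) (r : ℕ → ℤ) :
    HahnSeries.single (∑ δ ∈ N.divisors, r δ * (δ : ℤ)) (1 : ℂ) *
        HahnSeries.ofPowerSeries ℤ ℂ (etaQuotPS N r) =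
      ∏ δ ∈ N.divisors, (HahnSeries.single (δ : ℤ) (1 : ℂ) *
        HahnSeries.ofPowerSeries ℤ ℂ (eulerExp δ ^ 24)) ^ r δ := by
  have hx : (HahnSeries.single (1 : ℤ) (1 : ℂ)) ≠ 0 := by
    simp
  have hterm : ∀ δ ∈ N.divisors, (HahnSeries.single (δ : ℤ) (1 : ℂ) *
      HahnSeries.ofPowerSeries ℤ ℂ (eulerExp δ ^ 24)) ^ r δ =
      (HahnSeries.single (1 : ℤ) (1 : ℂ)) ^ (r δ * (δ : ℤ)) *
        HahnSeries.ofPowerSeries ℤ ℂ (zpowPS (eulerExp δ ^ 24) (r δ)) := by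
    intro δ _
    have hc : PowerSeries.constantCoeff (eulerExp δ ^ 24) ≠ 0 := by
      rw [((psIn_eulerExp ⊤ δ).pow 24).1]; exact one_ne_zero
    rw [mul_zpow, ofPowerSeries_zpowPS hc, ← single_one_zpow (δ : ℤ), ← zpow_mul, mul_comm (δ : ℤ)]
  rw [Finset.prod_congr rfl hterm, Finset.prod_mul_distrib, prod_zpow_eq_zpow_sum' _ _ hx,
    single_one_zpow, etaQuotPS, map_prod]

/-- `qExpand` of a power series is `PowerSeries.expand`. -/
lemma qExpand_ofPowerSeries (δ : ℕ) [NeZero δ] (F : PowerSeries ℂ) :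
    ModularCurve.qExpand ℂ δ (HahnSeries.ofPowerSeries ℤ ℂ F) =
      HahnSeries.ofPowerSeries ℤ ℂ (PowerSeries.expand δ (NeZero.ne δ) F) := by
  have hδ : (0 : ℤ) < (δ : ℤ) := by exact_mod_cast Nat.pos_of_ne_zero (NeZero.ne δ)
  ext k
  by_cases hk : (δ : ℤ) ∣ k
  · obtain ⟨m, rfl⟩ := hk
    rw [ModularCurve.qExpand_coeff_mul]
    rcases le_or_gt 0 m with hm | hm
    · lift m to ℕ using hm
      rw [HahnSeries.ofPowerSeries_apply_coeff,
        show (δ : ℤ) * (m : ℤ) = ((δ * m : ℕ) : ℤ) by push_cast; ring,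
        HahnSeries.ofPowerSeries_apply_coeff, PowerSeries.coeff_expand_mul]
    · rw [ModularCurve.ofPowerSeries_coeff_of_neg _ hm,
        ModularCurve.ofPowerSeries_coeff_of_neg _ (mul_neg_of_pos_of_neg hδ hm)]
  · rw [ModularCurve.qExpand_coeff_of_not_dvd δ _ hk]
    rcases le_or_gt 0 k with hk0 | hk0
    · lift k to ℕ using hk0
      rw [HahnSeries.ofPowerSeries_apply_coeff, PowerSeries.coeff_expand_of_not_dvd]
      exact fun h => hk (Int.natCast_dvd_natCast.mpr h)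
    · rw [ModularCurve.ofPowerSeries_coeff_of_neg _ hk0]

/-- The formal discriminant `q ∏ (1 - q^n)^24` with complex coefficients. -/
def deltaLS : LaurentSeries ℂ :=
  HahnSeries.single (1 : ℤ) (1 : ℂ) * HahnSeries.ofPowerSeries ℤ ℂ (eulerPS ^ 24)

/-- `Δ(q^δ)` formally: `qExpand δ (q ∏ (1 - q^n)^24) = q^δ ∏ (1 - q^(δ n))^24`. -/
theorem qExpand_deltaLS (δ : ℕ) [NeZero δ] :
    ModularCurve.qExpand ℂ δ deltaLS =
      HahnSeries.single (δ : ℤ) (1 : ℂ) * HahnSeries.ofPowerSeries ℤ ℂ (eulerExp δ ^ 24) := by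
  rw [deltaLS, map_mul, ModularCurve.qExpand_single, mul_one, qExpand_ofPowerSeries, map_pow,
    eulerExp, dif_neg (NeZero.ne δ)]

end

end Fermat.Agent.S28.helper1594
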