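/-
S28, route E (heavy form), analytic half (helper1267).

The conjugates `etaQuot N r ∘ g⁻¹` of an eta quotient of weight zero (`∑ r δ = 0`), `g` running
over `SL(2, ℤ) ⧸ Γ₀(N)`, all have Laurent expansions in `t = exp (2 π i τ / N)` of the explicit
shape `C · t^K · H(t)` (`helper1594.etaQuot_cusp_expansion`); by the transfer theorem of
`helper1267_FormalTransfer` the polynomial `∏ (X - U x) ∈ ℂ((t))[X]` built from these expansions
has coefficients which are polynomials in `j(t^N)`.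
-/
import Mathlib
import Fermat.Agent.S28.helper1267_FormalTransfer
import Fermat.Agent.S28.helper1594_EtaCusp

set_option autoImplicit false

open UpperHalfPlane ModularForm MatrixGroups CongruenceSubgroup

noncomputable section

namespace Fermat.Agent.S28.helper1267

open Fermat.Agent.S28.helper407 (etaQuot etaQuot_smul_of_mem_Gamma0)

/-- The exponent of `t = exp (2 π i τ / N)` in the expansion of `etaQuot N r (g • τ)` for `g` with
lower left entry of absolute value `c`. -/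
def etaOrd (N : ℕ) (r : ℕ → ℤ) (c : ℕ) : ℤ :=
  ∑ δ ∈ N.divisors, r δ * (((Nat.gcd δ c : ℕ) : ℤ) ^ 2 * ((N / δ : ℕ) : ℤ))

theorem etaOrd_def (N : ℕ) (r : ℕ → ℤ) (c : ℕ) :
    etaOrd N r c = ∑ δ ∈ N.divisors, r δ * (((Nat.gcd δ c : ℕ) : ℤ) ^ 2 * ((N / δ : ℕ) : ℤ)) :=
  rfl

/-- **Expansion of an eta quotient at any cusp**, as a `HasTExp` statement:
`etaQuot N r (g • τ) = C · t^K · H(t)` with `H(0) = 1` and `C`, `C⁻¹`, and the coefficients of `H`
in every subring of `ℂ` containing `1/N` and the `N`-th roots of unity. -/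
theorem hasTExp_etaQuot_smul (N : ℕ) [NeZero N] (r : ℕ → ℤ)
    (hr : ∑ δ ∈ N.divisors, r δ = 0) (g : SL(2, ℤ)) :
    ∃ (C : ℂ) (H : PowerSeries ℂ), C ≠ 0 ∧ PowerSeries.constantCoeff H = 1 ∧
      (∀ O : Subring ℂ, (N : ℂ)⁻¹ ∈ O → (∀ z : ℂ, z ^ N = 1 → z ∈ O) →
        C ∈ O ∧ C⁻¹ ∈ O ∧ ∀ n, PowerSeries.coeff n H ∈ O) ∧
      HasTExp N (fun τ => etaQuot N r (g • τ))
        (HahnSeries.single (etaOrd N r (g 1 0).natAbs) C * HahnSeries.ofPowerSeries ℤ ℂ H) := by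
  obtain ⟨C, G, H, hC, hconv, hH0, hO, hτ⟩ :=
    Fermat.Agent.S28.helper1594.etaQuot_cusp_expansion N (NeZero.pos N) r hr g
  refine ⟨C, H, hC, hH0, hO, ?_⟩
  have h1 := hasTExp_of_hasSum_zpow (N := N) (g := fun τ => G (tP N τ)) (H := H) C
    (etaOrd N r (g 1 0).natAbs) (fun τ => hconv.hasSum (norm_tP_lt_one N τ))
  have h2 : (fun τ : ℍ => etaQuot N r (g • τ)) =
      fun τ => C * tP N τ ^ (etaOrd N r (g 1 0).natAbs) * G (tP N τ) := by
    funext τ
    exact hτ τ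
  rw [h2]
  exact h1

/-- **Expansion of an eta quotient at `i∞`** in `t = exp (2 π i τ / N)`:
the formal eta quotient `q^(∑ r δ · δ) · etaQuotPS N r` with `q = t^N`. -/
theorem hasTExp_etaQuot (N : ℕ) [NeZero N] (r : ℕ → ℤ) :
    HasTExp N (etaQuot N r)
      (ModularCurve.qExpand ℂ N
        (HahnSeries.single (∑ δ ∈ N.divisors, r δ * (δ : ℤ)) (1 : ℂ) *
          HahnSeries.ofPowerSeries ℤ ℂ (Fermat.Agent.S28.helper1594.etaQuotPS N r))) := by
  obtain ⟨G, hconv, hτ⟩ := Fermat.Agent.S28.helper1594.etaQuot_infty_expansion N r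
  have h1 := hasTExp_of_hasSum_zpow (N := 1) (g := fun τ => G (tP 1 τ))
    (H := Fermat.Agent.S28.helper1594.etaQuotPS N r) 1
    (∑ δ ∈ N.divisors, r δ * (δ : ℤ)) (fun τ => hconv.hasSum (norm_tP_lt_one 1 τ))
  have h2 : etaQuot N r =
      fun τ => 1 * tP 1 τ ^ (∑ δ ∈ N.divisors, r δ * (δ : ℤ)) * G (tP 1 τ) := by
    funext τ
    rw [one_mul, hτ τ]
    simp [tP]
  rw [← h2] at h1
  have h3 := h1.qExpand N
  rwa [mul_one] at h3

/-- **Analytic factorisation for eta quotients.** For `∑ r δ = 0`, the expansions `U x` of the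
conjugates of `etaQuot N r` (indexed by `SL(2, ℤ) ⧸ Γ₀(N)`) are the roots of a monic polynomial
over `ℂ[j(t^N)]`; the identity coset carries the formal eta quotient, and every `U x` has the
shape `C · t^K · H(t)` with `K = etaOrd N r c`, where `N ∤ c` off the identity coset. -/
theorem etaQuot_factorisation (N : ℕ) [NeZero N] (r : ℕ → ℤ)
    (hr : ∑ δ ∈ N.divisors, r δ = 0) [Fintype (SL(2, ℤ) ⧸ Gamma0 N)] :
    ∃ (χ : Polynomial (Polynomial ℂ)) (U : SL(2, ℤ) ⧸ Gamma0 N → LaurentSeries ℂ),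
      χ.Monic ∧ χ.natDegree = Fintype.card (SL(2, ℤ) ⧸ Gamma0 N) ∧
      χ.map (Polynomial.aeval (ModularCurve.jqNModC ℂ N)).toRingHom =
        ∏ x, (Polynomial.X - Polynomial.C (U x)) ∧
      U (QuotientGroup.mk 1) = ModularCurve.qExpand ℂ N
        (HahnSeries.single (∑ δ ∈ N.divisors, r δ * (δ : ℤ)) (1 : ℂ) *
          HahnSeries.ofPowerSeries ℤ ℂ (Fermat.Agent.S28.helper1594.etaQuotPS N r)) ∧
      ∀ x, ∃ (c : ℕ) (C : ℂ) (H : PowerSeries ℂ),
        (x ≠ QuotientGroup.mk 1 → ¬ N ∣ c) ∧ C ≠ 0 ∧ PowerSeries.constantCoeff H = 1 ∧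
        (∀ O : Subring ℂ, (N : ℂ)⁻¹ ∈ O → (∀ z : ℂ, z ^ N = 1 → z ∈ O) →
          C ∈ O ∧ C⁻¹ ∈ O ∧ ∀ n, PowerSeries.coeff n H ∈ O) ∧
        U x = HahnSeries.single
          (∑ δ ∈ N.divisors, r δ * (((Nat.gcd δ c : ℕ) : ℤ) ^ 2 * ((N / δ : ℕ) : ℤ))) C *
            HahnSeries.ofPowerSeries ℤ ℂ H := by
  classical
  have hinv : ∀ g ∈ Gamma0 N, ∀ τ : ℍ, etaQuot N r (g • τ) = etaQuot N r τ :=
    fun g hg τ => etaQuot_smul_of_mem_Gamma0 N r hr hg τ
  -- the expansions of the conjugates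
  have hex : ∀ x : SL(2, ℤ) ⧸ Gamma0 N, ∃ (C : ℂ) (H : PowerSeries ℂ), C ≠ 0 ∧
      PowerSeries.constantCoeff H = 1 ∧
      (∀ O : Subring ℂ, (N : ℂ)⁻¹ ∈ O → (∀ z : ℂ, z ^ N = 1 → z ∈ O) →
        C ∈ O ∧ C⁻¹ ∈ O ∧ ∀ n, PowerSeries.coeff n H ∈ O) ∧
      HasTExp N (fun τ => etaQuot N r ((Quotient.out x)⁻¹ • τ))
        (HahnSeries.single (etaOrd N r (((Quotient.out x)⁻¹ : SL(2, ℤ)) 1 0).natAbs) C *
          HahnSeries.ofPowerSeries ℤ ℂ H) :=
    fun x => hasTExp_etaQuot_smul N r hr (Quotient.out x)⁻¹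
  choose Cc Hh hC hH0 hO hE using hex
  set U : SL(2, ℤ) ⧸ Gamma0 N → LaurentSeries ℂ := fun x =>
    HahnSeries.single (etaOrd N r (((Quotient.out x)⁻¹ : SL(2, ℤ)) 1 0).natAbs) (Cc x) *
      HahnSeries.ofPowerSeries ℤ ℂ (Hh x) with hU
  obtain ⟨χ, hmonic, hdeg, hfac⟩ :=
    exists_monic_factorisation_of_invariant N (Gamma0 N) (etaQuot N r) hinv U hE
  refine ⟨χ, U, hmonic, hdeg, hfac, ?_, fun x => ?_⟩
  · -- the identity coset
    have h1 : (fun τ : ℍ => etaQuot N r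
        ((Quotient.out (QuotientGroup.mk 1 : SL(2, ℤ) ⧸ Gamma0 N))⁻¹ • τ)) = etaQuot N r := by
      funext τ
      have := conjFamily_mk (Gamma0 N) (etaQuot N r) hinv 1 τ
      rw [inv_one, one_smul] at this
      exact this
    have h2 := hE (QuotientGroup.mk 1)
    rw [h1] at h2
    exact h2.unique (hasTExp_etaQuot N r)
  · refine ⟨(((Quotient.out x)⁻¹ : SL(2, ℤ)) 1 0).natAbs, Cc x, Hh x, fun hx => ?_, hC x, hH0 x,
      hO x, rfl⟩
    intro hdvd
    apply hx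
    have hmem : ((Quotient.out x)⁻¹ : SL(2, ℤ)) ∈ Gamma0 N := by
      rw [Gamma0_mem]
      exact (ZMod.intCast_zmod_eq_zero_iff_dvd _ _).mpr (Int.natCast_dvd.mpr hdvd)
    have h3 : (QuotientGroup.mk (Quotient.out x) : SL(2, ℤ) ⧸ Gamma0 N) = x := Quotient.out_eq x
    rw [← h3]
    exact QuotientGroup.eq.mpr (by rwa [mul_one])

end Fermat.Agent.S28.helper1267

end
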