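import Mathlib
import Fermat.Agent.Lib.helper843_JPolynomial

/-!
# Symmetric functions of an `SL(2,ℤ)`-permuted family are polynomials in `j`

Let `S` be a finite `SL(2,ℤ)`-set and `F : S → ℍ → ℂ` a family of holomorphic functions of moderate
growth at `i∞` (`Δ^m F_x` bounded) which is permuted by `SL(2,ℤ)`: `F (g • x) (g • τ) = F x τ`.
Then the coefficients of `∏ x, (X - F x τ)` are polynomials in Klein's invariant `jInv τ`.

Specialisation: `S = SL(2,ℤ) ⧸ Γ` and `F x τ = f (x.out⁻¹ • τ)` for a `Γ`-invariant `f`.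
-/

set_option autoImplicit false

namespace Fermat.Agent.S28.helper2788

open UpperHalfPlane ModularForm MatrixGroups Filter Polynomial
open Fermat.Agent.Lib.helper843 (jInv)
open scoped Manifold

local notation "Δ" => ModularForm.discriminant

/-- `Δ` is bounded at `i∞`. -/
lemma isBoundedAtImInfty_discriminant : IsBoundedAtImInfty (Δ : ℍ → ℂ) :=
  ZeroAtFilter.boundedAtFilter discriminant_isZeroAtImInfty

lemma isBoundedAtImInfty_discriminant_pow (m : ℕ) :
    IsBoundedAtImInfty (fun z : ℍ => Δ z ^ m) := by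
  induction m with
  | zero =>
    simp only [pow_zero]
    exact const_boundedAtFilter atImInfty (1 : ℂ)
  | succ m ih =>
    have h := ih.mul isBoundedAtImInfty_discriminant
    have e : (fun z : ℍ => Δ z ^ (m + 1)) = (fun z : ℍ => Δ z ^ m) * Δ := by
      funext z; simp [pow_succ]
    rw [e]; exact h

/-- Holomorphic functions on `ℍ` of moderate growth at `i∞`: `Δ^m f` is bounded for some `m`. -/
def ModGrowth (f : ℍ → ℂ) : Prop :=
  MDiff f ∧ ∃ m : ℕ, IsBoundedAtImInfty (fun z => Δ z ^ m * f z)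

lemma bdd_of_le {f : ℍ → ℂ} {m m' : ℕ} (hmm : m ≤ m')
    (h : IsBoundedAtImInfty (fun z => Δ z ^ m * f z)) :
    IsBoundedAtImInfty (fun z => Δ z ^ m' * f z) := by
  obtain ⟨k, rfl⟩ := Nat.exists_eq_add_of_le hmm
  have h2 := (isBoundedAtImInfty_discriminant_pow k).mul h
  have e : (fun z : ℍ => Δ z ^ (m + k) * f z) =
      (fun z : ℍ => Δ z ^ k) * (fun z => Δ z ^ m * f z) := by
    funext z; simp [pow_add]; ring
  rw [e]; exact h2

lemma modGrowth_const (c : ℂ) : ModGrowth (fun _ => c) := by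
  refine ⟨mdifferentiable_const, 0, ?_⟩
  simp only [pow_zero, one_mul]
  exact const_boundedAtFilter atImInfty c

lemma ModGrowth.add {f g : ℍ → ℂ} (hf : ModGrowth f) (hg : ModGrowth g) : ModGrowth (f + g) := by
  obtain ⟨hf1, m, hm⟩ := hf
  obtain ⟨hg1, m', hm'⟩ := hg
  refine ⟨hf1.add hg1, m + m', ?_⟩
  have h1 := bdd_of_le (Nat.le_add_right m m') hm
  have h2 := bdd_of_le (Nat.le_add_left m' m) hm'
  have e : (fun z : ℍ => Δ z ^ (m + m') * (f + g) z) =
      (fun z : ℍ => Δ z ^ (m + m') * f z) + (fun z => Δ z ^ (m + m') * g z) := by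
    funext z; simp [mul_add]
  rw [e]; exact h1.add h2

lemma ModGrowth.mul {f g : ℍ → ℂ} (hf : ModGrowth f) (hg : ModGrowth g) : ModGrowth (f * g) := by
  obtain ⟨hf1, m, hm⟩ := hf
  obtain ⟨hg1, m', hm'⟩ := hg
  refine ⟨hf1.mul hg1, m + m', ?_⟩
  have e : (fun z : ℍ => Δ z ^ (m + m') * (f * g) z) =
      (fun z : ℍ => Δ z ^ m * f z) * (fun z => Δ z ^ m' * g z) := by
    funext z; simp [pow_add]; ring
  rw [e]; exact hm.mul hm'

/-- The subalgebra of holomorphic functions of moderate growth. -/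
def modGrowthSubalgebra : Subalgebra ℂ (ℍ → ℂ) where
  carrier := {f | ModGrowth f}
  mul_mem' hf hg := hf.mul hg
  add_mem' hf hg := hf.add hg
  algebraMap_mem' c := modGrowth_const c

lemma mem_modGrowthSubalgebra {f : ℍ → ℂ} : f ∈ modGrowthSubalgebra ↔ ModGrowth f := Iff.rfl

/-- Precomposition with a self-map of `ℍ`, as a ring homomorphism. -/
def compHom (φ : ℍ → ℍ) : (ℍ → ℂ) →+* (ℍ → ℂ) where
  toFun f := f ∘ φ
  map_one' := rfl
  map_mul' _ _ := rfl
  map_zero' := rfl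
  map_add' _ _ := rfl

@[simp] lemma compHom_apply (φ : ℍ → ℍ) (f : ℍ → ℂ) (τ : ℍ) : compHom φ f τ = f (φ τ) := rfl

/-- **Symmetric functions of an `SL(2,ℤ)`-permuted family of moderate growth are polynomials
in `j`.** -/
theorem exists_poly_of_permuted_family {S : Type*} [Fintype S] [MulAction SL(2, ℤ) S]
    (F : S → ℍ → ℂ) (hF : ∀ x, ModGrowth (F x))
    (hequiv : ∀ (g : SL(2, ℤ)) (x : S) (τ : ℍ), F (g • x) (g • τ) = F x τ) :
    ∃ P : ℕ → Polynomial ℂ, ∀ τ : ℍ,
      ∏ x : S, (X - C (F x τ)) =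
        X ^ Fintype.card S + ∑ k ∈ Finset.range (Fintype.card S), C ((P k).eval (jInv τ)) * X ^ k := by
  classical
  -- the polynomial with function coefficients
  set Qf : Polynomial (ℍ → ℂ) := ∏ x : S, (X - C (F x)) with hQf
  -- its coefficients have moderate growth
  have hcoeff_mem : ∀ k, ModGrowth (Qf.coeff k) := by
    intro k
    let Ft : S → modGrowthSubalgebra := fun x => ⟨F x, hF x⟩
    have hmap : Qf = (∏ x : S, (X - C (Ft x))).map (modGrowthSubalgebra.val : _ →+* (ℍ → ℂ)) := by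
      rw [hQf, Polynomial.map_prod]
      refine Finset.prod_congr rfl fun x _ => ?_
      simp [Ft]
    rw [hmap, Polynomial.coeff_map]
    exact ((∏ x : S, (X - C (Ft x))).coeff k).2
  -- evaluation at a point
  have heval : ∀ τ : ℍ, Qf.map (Pi.evalRingHom (fun _ : ℍ => ℂ) τ) = ∏ x : S, (X - C (F x τ)) := by
    intro τ
    rw [hQf, Polynomial.map_prod]
    refine Finset.prod_congr rfl fun x _ => ?_
    simp
  -- invariance
  have hinv : ∀ (g : SL(2, ℤ)) (k : ℕ) (τ : ℍ), Qf.coeff k (g • τ) = Qf.coeff k τ := by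
    intro g k τ
    have h1 : Qf.map (compHom (fun τ => g • τ)) = Qf := by
      rw [hQf, Polynomial.map_prod]
      have : ∀ x : S, (X - C (F x)).map (compHom (fun τ => g • τ)) = X - C (F (g⁻¹ • x)) := by
        intro x
        simp only [Polynomial.map_sub, Polynomial.map_X, Polynomial.map_C]
        congr 2
        funext τ
        have := hequiv g (g⁻¹ • x) τ
        rw [smul_inv_smul] at this
        simpa using this
      simp_rw [this]
      exact Fintype.prod_equiv (MulAction.toPerm g⁻¹) _ _ (fun x => rfl)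
    have h2 := congrArg (fun p => p.coeff k τ) h1
    simpa [Polynomial.coeff_map] using h2
  -- apply the level one structure theorem
  have hex : ∀ k, ∃ P : Polynomial ℂ, ∀ τ, Qf.coeff k τ = P.eval (jInv τ) := by
    intro k
    obtain ⟨hmd, m, hm⟩ := hcoeff_mem k
    obtain ⟨P, -, hP⟩ := Fermat.Agent.Lib.helper843.exists_polynomial_jInv hmd
      (fun γ z => hinv γ k z) m hm
    exact ⟨P, hP⟩
  choose P hP using hex
  refine ⟨P, fun τ => ?_⟩
  rw [← heval τ]
  have hmonic : (Qf.map (Pi.evalRingHom (fun _ : ℍ => ℂ) τ)).Monic := by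
    rw [heval τ]
    exact Polynomial.monic_prod_of_monic _ _ fun x _ => Polynomial.monic_X_sub_C _
  have hdeg : (Qf.map (Pi.evalRingHom (fun _ : ℍ => ℂ) τ)).natDegree = Fintype.card S := by
    rw [heval τ, Polynomial.natDegree_prod_of_monic _ _ fun x _ => Polynomial.monic_X_sub_C _]
    simp
  rw [Polynomial.as_sum_range' (Qf.map (Pi.evalRingHom (fun _ : ℍ => ℂ) τ)) (Fintype.card S + 1)
    (by rw [hdeg]; exact Nat.lt_succ_self _)]
  rw [Finset.sum_range_succ, add_comm]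
  congr 1
  · rw [← hdeg, hmonic.coeff_natDegree, Polynomial.monomial_one_right_eq_X_pow]
  · refine Finset.sum_congr rfl fun k _ => ?_
    rw [Polynomial.coeff_map, ← Polynomial.C_mul_X_pow_eq_monomial]
    congr 2
    exact hP k τ

/-- `τ ↦ f (γ • τ)` is holomorphic for `γ ∈ SL(2,ℤ)`. -/
lemma mdifferentiable_comp_smul {f : ℍ → ℂ} (hf : MDiff f) (γ : SL(2, ℤ)) :
    MDiff (fun τ : ℍ => f (γ • τ)) := by
  have h : MDiff (fun τ : ℍ => γ • τ) := by
    have hdet : 0 < ((γ : GL (Fin 2) ℝ)).det.val := by simp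
    exact UpperHalfPlane.mdifferentiable_smul hdet
  exact hf.comp h

/-- **Coset polynomial.** For a subgroup `Γ ≤ SL(2,ℤ)` of finite index and a holomorphic
`Γ`-invariant function `f` such that every translate `f ∘ γ` has moderate growth at `i∞`,
the polynomial `∏_{x ∈ SL(2,ℤ)/Γ} (X - f (x⁻¹ τ))` has coefficients which are polynomials in
`jInv τ`. -/
theorem exists_poly_of_invariant (Γ : Subgroup SL(2, ℤ)) [Fintype (SL(2, ℤ) ⧸ Γ)] (f : ℍ → ℂ)
    (hf : MDiff f) (hinv : ∀ g ∈ Γ, ∀ τ : ℍ, f (g • τ) = f τ)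
    (hgrowth : ∀ γ : SL(2, ℤ), ∃ m : ℕ, IsBoundedAtImInfty (fun τ => Δ τ ^ m * f (γ • τ))) :
    ∃ P : ℕ → Polynomial ℂ, ∀ τ : ℍ,
      ∏ x : SL(2, ℤ) ⧸ Γ, (X - C (f ((Quotient.out x : SL(2, ℤ))⁻¹ • τ))) =
        X ^ Fintype.card (SL(2, ℤ) ⧸ Γ) +
          ∑ k ∈ Finset.range (Fintype.card (SL(2, ℤ) ⧸ Γ)), C ((P k).eval (jInv τ)) * X ^ k := by
  refine exists_poly_of_permuted_family
    (fun (x : SL(2, ℤ) ⧸ Γ) τ => f ((Quotient.out x : SL(2, ℤ))⁻¹ • τ))
    (fun x => ⟨mdifferentiable_comp_smul hf _, hgrowth _⟩) ?_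
  intro g x τ
  obtain ⟨h, hh⟩ := QuotientGroup.mk_out_eq_mul Γ (g * Quotient.out x)
  have hx : g • x = ((g * Quotient.out x : SL(2, ℤ)) : SL(2, ℤ) ⧸ Γ) := by
    conv_lhs => rw [← QuotientGroup.out_eq' x]
    rfl
  show f ((Quotient.out (g • x) : SL(2, ℤ))⁻¹ • g • τ) = f ((Quotient.out x : SL(2, ℤ))⁻¹ • τ)
  rw [hx, hh]
  have e : (g * Quotient.out x * (h : SL(2, ℤ)))⁻¹ • g • τ
      = ((h : SL(2, ℤ))⁻¹) • ((Quotient.out x : SL(2, ℤ))⁻¹ • τ) := by
    rw [mul_inv_rev, mul_inv_rev, mul_smul, mul_smul, inv_smul_smul]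
  rw [e]
  exact hinv _ (Γ.inv_mem h.2) _

end Fermat.Agent.S28.helper2788
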