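import Mathlib
import Fermat.Agent.S28.helper2788_CosetPoly

/-!
# S28 light route, analytic side (helper1288): generic lemmas

* `NSmooth N c` : `c` is a quotient of two positive naturals all of whose prime factors divide `N`.
* `tendsto_coeff_prod_X_sub_C` : coefficients of `∏ (X - a_i)` depend continuously on the roots.
* `sum_mul_prod_erase_eq` : Lagrange evaluation at a root.
* `mem_lifts_jHom` : a polynomial over `ℍ → ℂ` with `SL(2,ℤ)`-invariant coefficients of moderate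
  growth is the image of a polynomial over `ℂ[j]`.
* `coset_family_equivariant` : the family `x ↦ f ∘ x.out⁻¹` indexed by cosets is equivariant.
-/

set_option autoImplicit false
set_option linter.unusedSectionVars false
set_option linter.unusedVariables false

open UpperHalfPlane ModularForm MatrixGroups Filter Polynomial
open scoped Manifold Topology

noncomputable section

namespace Fermat.Agent.S28.helper1288

open Fermat.Agent.Lib.helper843 (jInv)
open Fermat.Agent.S28.helper2788 (ModGrowth modGrowthSubalgebra compHom)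

local notation "Δ" => ModularForm.discriminant

/-! ### `N`-smooth positive rationals -/

/-- `c = a / b` with `a, b` positive naturals all of whose prime factors divide `N`. -/
def NSmooth (N : ℕ) (c : ℝ) : Prop :=
  ∃ a b : ℕ, 0 < a ∧ 0 < b ∧ (∀ p : ℕ, p.Prime → p ∣ a * b → p ∣ N) ∧ c * (b : ℝ) = (a : ℝ)

lemma NSmooth.pos {N : ℕ} {c : ℝ} (h : NSmooth N c) : 0 < c := by
  obtain ⟨a, b, ha, hb, -, h⟩ := h
  have ha' : (0 : ℝ) < a := by exact_mod_cast ha
  have hb' : (0 : ℝ) < b := by exact_mod_cast hb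
  by_contra hc
  push Not at hc
  nlinarith

lemma NSmooth.one (N : ℕ) : NSmooth N 1 :=
  ⟨1, 1, one_pos, one_pos, fun p hp h => absurd (by simpa using h) hp.one_lt.ne', by simp⟩

lemma NSmooth.mul {N : ℕ} {c c' : ℝ} (h : NSmooth N c) (h' : NSmooth N c') :
    NSmooth N (c * c') := by
  obtain ⟨a, b, ha, hb, hp, h⟩ := h
  obtain ⟨a', b', ha', hb', hp', h'⟩ := h'
  refine ⟨a * a', b * b', Nat.mul_pos ha ha', Nat.mul_pos hb hb', fun p hpp hdvd => ?_, ?_⟩
  · have e : a * a' * (b * b') = (a * b) * (a' * b') := by ring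
    rw [e] at hdvd
    rcases (Nat.Prime.dvd_mul hpp).mp hdvd with h1 | h1
    · exact hp p hpp h1
    · exact hp' p hpp h1
  · push_cast
    linear_combination (c' * (b' : ℝ)) * h + (a : ℝ) * h'

lemma NSmooth.inv {N : ℕ} {c : ℝ} (h : NSmooth N c) : NSmooth N c⁻¹ := by
  have hc := h.pos
  obtain ⟨a, b, ha, hb, hp, h⟩ := h
  refine ⟨b, a, hb, ha, fun p hpp hdvd => hp p hpp (by rwa [mul_comm]), ?_⟩
  field_simp
  linarith

lemma NSmooth.natCast {N d : ℕ} (hd : 0 < d) (hdN : d ∣ N) : NSmooth N (d : ℝ) :=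
  ⟨d, 1, hd, one_pos, fun p _ h => dvd_trans (by simpa using h) hdN, by simp⟩

lemma NSmooth.pow {N : ℕ} {c : ℝ} (h : NSmooth N c) (n : ℕ) : NSmooth N (c ^ n) := by
  induction n with
  | zero => simpa using NSmooth.one N
  | succ n ih => rw [pow_succ]; exact ih.mul h

lemma NSmooth.zpow {N : ℕ} {c : ℝ} (h : NSmooth N c) (n : ℤ) : NSmooth N (c ^ n) := by
  cases n with
  | ofNat n => simpa using h.pow n
  | negSucc n =>
    rw [zpow_negSucc]
    exact (h.pow (n + 1)).inv

lemma NSmooth.prod {N : ℕ} {ι : Type*} (s : Finset ι) (c : ι → ℝ) (h : ∀ i ∈ s, NSmooth N (c i)) :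
    NSmooth N (∏ i ∈ s, c i) := by
  classical
  induction s using Finset.induction_on with
  | empty => simpa using NSmooth.one N
  | insert i s hi ih =>
    rw [Finset.prod_insert hi]
    exact (h i (Finset.mem_insert_self i s)).mul
      (ih fun j hj => h j (Finset.mem_insert_of_mem hj))

/-! ### Coefficients of `∏ (X - a_i)` -/

lemma tendsto_coeff_prod_X_sub_C {ι α : Type*} (s : Finset ι) (a : ι → α → ℂ) (b : ι → ℂ)
    {l : Filter α} (h : ∀ i ∈ s, Tendsto (a i) l (𝓝 (b i))) :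
    ∀ k : ℕ, Tendsto (fun t => (∏ i ∈ s, (X - C (a i t))).coeff k) l
      (𝓝 ((∏ i ∈ s, (X - C (b i))).coeff k)) := by
  classical
  induction s using Finset.induction_on with
  | empty =>
    intro k
    simp only [Finset.prod_empty]
    exact tendsto_const_nhds
  | insert i s hi ih =>
    have ih' := ih fun j hj => h j (Finset.mem_insert_of_mem hj)
    have hi' := h i (Finset.mem_insert_self i s)
    intro k
    simp only [Finset.prod_insert hi]
    cases k with
    | zero =>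
      simp only [mul_coeff_zero, coeff_sub, coeff_X_zero, coeff_C_zero, zero_sub]
      exact hi'.neg.mul (ih' 0)
    | succ k =>
      have e : ∀ (c : ℂ) (p : ℂ[X]), ((X - C c) * p).coeff (k + 1)
          = p.coeff k - c * p.coeff (k + 1) := by
        intro c p
        rw [sub_mul, coeff_sub, coeff_X_mul, coeff_C_mul]
      simp only [e]
      exact (ih' k).sub (hi'.mul (ih' (k + 1)))

/-! ### Lagrange evaluation -/

lemma sum_mul_prod_erase_eq {ι : Type*} [DecidableEq ι] (s : Finset ι) (x0 : ι) (hx0 : x0 ∈ s)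
    (w a : ι → ℂ) :
    ∑ x ∈ s, w x * ∏ y ∈ s.erase x, (a x0 - a y) = w x0 * ∏ y ∈ s.erase x0, (a x0 - a y) := by
  refine Finset.sum_eq_single x0 (fun x hx hne => ?_) (fun h => absurd hx0 h)
  have hmem : x0 ∈ s.erase x := Finset.mem_erase.mpr ⟨fun h => hne h.symm, hx0⟩
  rw [Finset.prod_eq_zero hmem (sub_self _), mul_zero]

/-! ### Polynomials over `ℍ → ℂ` with invariant coefficients -/

/-- `ℂ[X] → (ℍ → ℂ)`, `X ↦ j`. -/
def jHom : ℂ[X] →+* (ℍ → ℂ) := (Polynomial.aeval (jInv : ℍ → ℂ)).toRingHom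

lemma jHom_apply (p : ℂ[X]) (τ : ℍ) : jHom p τ = p.eval (jInv τ) := by
  have h := Polynomial.aeval_algHom_apply (Pi.evalAlgHom ℂ (fun _ : ℍ => ℂ) τ)
    (jInv : ℍ → ℂ) p
  simp only [Pi.evalAlgHom_apply] at h
  rw [Polynomial.coe_aeval_eq_eval] at h
  exact h.symm

/-- A polynomial over `ℍ → ℂ` whose coefficients are `SL(2,ℤ)`-invariant holomorphic functions
of moderate growth comes from a polynomial over `ℂ[j]`. -/
theorem mem_lifts_jHom (Q : Polynomial (ℍ → ℂ)) (hmg : ∀ k, ModGrowth (Q.coeff k))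
    (hinv : ∀ (g : SL(2, ℤ)) (k : ℕ) (τ : ℍ), Q.coeff k (g • τ) = Q.coeff k τ) :
    Q ∈ Polynomial.lifts jHom := by
  rw [Polynomial.lifts_iff_coeff_lifts]
  intro k
  obtain ⟨hmd, m, hm⟩ := hmg k
  obtain ⟨P, -, hP⟩ := Fermat.Agent.Lib.helper843.exists_polynomial_jInv hmd
    (fun γ z => hinv γ k z) m hm
  refine ⟨P, ?_⟩
  funext τ
  rw [jHom_apply, hP τ]

/-- Coefficients of a polynomial lifted from the subalgebra of moderate growth. -/
lemma modGrowth_coeff_of_map (q : Polynomial modGrowthSubalgebra) (k : ℕ) :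
    ModGrowth ((q.map (modGrowthSubalgebra.val : modGrowthSubalgebra →+* (ℍ → ℂ))).coeff k) := by
  rw [Polynomial.coeff_map]
  exact (q.coeff k).2

/-! ### Cosets -/

lemma coset_family_equivariant (Γ : Subgroup SL(2, ℤ)) (f : ℍ → ℂ)
    (hinv : ∀ g ∈ Γ, ∀ τ : ℍ, f (g • τ) = f τ) (g : SL(2, ℤ)) (x : SL(2, ℤ) ⧸ Γ) (τ : ℍ) :
    f ((Quotient.out (g • x) : SL(2, ℤ))⁻¹ • g • τ) = f ((Quotient.out x : SL(2, ℤ))⁻¹ • τ) := by
  obtain ⟨h, hh⟩ := QuotientGroup.mk_out_eq_mul Γ (g * Quotient.out x)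
  have hx : g • x = ((g * Quotient.out x : SL(2, ℤ)) : SL(2, ℤ) ⧸ Γ) := by
    conv_lhs => rw [← QuotientGroup.out_eq' x]
    rfl
  rw [hx, hh]
  have e : (g * Quotient.out x * (h : SL(2, ℤ)))⁻¹ • g • τ
      = ((h : SL(2, ℤ))⁻¹) • ((Quotient.out x : SL(2, ℤ))⁻¹ • τ) := by
    rw [mul_inv_rev, mul_inv_rev, mul_smul, mul_smul, inv_smul_smul]
  rw [e]
  exact hinv _ (Γ.inv_mem h.2) _

lemma out_one_mem (Γ : Subgroup SL(2, ℤ)) :
    (Quotient.out ((1 : SL(2, ℤ)) : SL(2, ℤ) ⧸ Γ) : SL(2, ℤ)) ∈ Γ := by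
  have h := QuotientGroup.out_eq' ((1 : SL(2, ℤ)) : SL(2, ℤ) ⧸ Γ)
  rw [QuotientGroup.eq] at h
  simpa using Γ.inv_mem h

lemma out_not_mem (Γ : Subgroup SL(2, ℤ)) (x : SL(2, ℤ) ⧸ Γ)
    (hx : x ≠ ((1 : SL(2, ℤ)) : SL(2, ℤ) ⧸ Γ)) : (Quotient.out x : SL(2, ℤ))⁻¹ ∉ Γ := by
  intro h
  apply hx
  rw [← QuotientGroup.out_eq' x, QuotientGroup.eq]
  simpa using h


/-! ### Equivariant families indexed by a finite `SL(2,ℤ)`-set -/

section Family

variable {S : Type*} [Fintype S] [DecidableEq S] [MulAction SL(2, ℤ) S]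

/-- `∏_x (X - F_x)`. -/
def prodPoly (F : S → ℍ → ℂ) : Polynomial (ℍ → ℂ) := ∏ x : S, (X - C (F x))

/-- `∏_{x ≠ x₀} (X - F_x)`. -/
def erasePoly (F : S → ℍ → ℂ) (x0 : S) : Polynomial (ℍ → ℂ) :=
  ∏ x ∈ Finset.univ.erase x0, (X - C (F x))

/-- `∑_x G_x ∏_{y ≠ x} (X - F_y)`. -/
def lagrangePoly (F G : S → ℍ → ℂ) : Polynomial (ℍ → ℂ) :=
  ∑ x : S, C (G x) * ∏ y ∈ Finset.univ.erase x, (X - C (F y))

lemma prodPoly_eq_mul_erasePoly (F : S → ℍ → ℂ) (x0 : S) :
    prodPoly F = (X - C (F x0)) * erasePoly F x0 :=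
  (Finset.mul_prod_erase Finset.univ (fun x => X - C (F x)) (Finset.mem_univ x0)).symm

lemma monic_prodPoly (F : S → ℍ → ℂ) : (prodPoly F).Monic :=
  Polynomial.monic_prod_of_monic _ _ fun x _ => Polynomial.monic_X_sub_C _

lemma monic_erasePoly (F : S → ℍ → ℂ) (x0 : S) : (erasePoly F x0).Monic :=
  Polynomial.monic_prod_of_monic _ _ fun x _ => Polynomial.monic_X_sub_C _

lemma natDegree_prodPoly (F : S → ℍ → ℂ) : (prodPoly F).natDegree = Fintype.card S := by
  rw [prodPoly, Polynomial.natDegree_prod_of_monic _ _ fun x _ => Polynomial.monic_X_sub_C _]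
  simp

lemma natDegree_erasePoly (F : S → ℍ → ℂ) (x0 : S) :
    (erasePoly F x0).natDegree = Fintype.card S - 1 := by
  rw [erasePoly, Polynomial.natDegree_prod_of_monic _ _ fun x _ => Polynomial.monic_X_sub_C _]
  simp [Finset.card_erase_of_mem]

lemma prodPoly_map_eval (F : S → ℍ → ℂ) (τ : ℍ) :
    (prodPoly F).map (Pi.evalRingHom (fun _ : ℍ => ℂ) τ) = ∏ x : S, (X - C (F x τ)) := by
  rw [prodPoly, Polynomial.map_prod]
  refine Finset.prod_congr rfl fun x _ => ?_
  simp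

lemma erasePoly_map_eval (F : S → ℍ → ℂ) (x0 : S) (τ : ℍ) :
    (erasePoly F x0).map (Pi.evalRingHom (fun _ : ℍ => ℂ) τ)
      = ∏ x ∈ Finset.univ.erase x0, (X - C (F x τ)) := by
  rw [erasePoly, Polynomial.map_prod]
  refine Finset.prod_congr rfl fun x _ => ?_
  simp

lemma lagrangePoly_map_eval (F G : S → ℍ → ℂ) (τ : ℍ) :
    (lagrangePoly F G).map (Pi.evalRingHom (fun _ : ℍ => ℂ) τ)
      = ∑ x : S, C (G x τ) * ∏ y ∈ Finset.univ.erase x, (X - C (F y τ)) := by
  rw [lagrangePoly, Polynomial.map_sum]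
  refine Finset.sum_congr rfl fun x _ => ?_
  rw [Polynomial.map_mul, Polynomial.map_prod]
  congr 1
  · simp
  · refine Finset.prod_congr rfl fun y _ => ?_
    simp

/-- Lagrange interpolation identity at the root `F x₀ τ`. -/
lemma lagrange_eval (F G : S → ℍ → ℂ) (x0 : S) (τ : ℍ) :
    ((lagrangePoly F G).map (Pi.evalRingHom (fun _ : ℍ => ℂ) τ)).eval (F x0 τ)
      = G x0 τ * (Polynomial.derivative
          ((prodPoly F).map (Pi.evalRingHom (fun _ : ℍ => ℂ) τ))).eval (F x0 τ) := by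
  rw [lagrangePoly_map_eval, prodPoly_eq_mul_erasePoly F x0, Polynomial.map_mul,
    erasePoly_map_eval, Polynomial.eval_finsetSum]
  have h1 : ∀ x : S, (C (G x τ) * ∏ y ∈ Finset.univ.erase x, (X - C (F y τ))).eval (F x0 τ)
      = G x τ * ∏ y ∈ Finset.univ.erase x, (F x0 τ - F y τ) := by
    intro x
    rw [Polynomial.eval_mul, Polynomial.eval_C, Polynomial.eval_prod]
    congr 1
    refine Finset.prod_congr rfl fun y _ => ?_
    simp
  simp only [h1]
  rw [sum_mul_prod_erase_eq Finset.univ x0 (Finset.mem_univ x0) (fun x => G x τ) (fun x => F x τ)]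
  congr 1
  rw [Polynomial.derivative_mul]
  simp only [Polynomial.map_sub, Polynomial.map_X, Polynomial.map_C, Pi.evalRingHom_apply,
    Polynomial.derivative_sub, Polynomial.derivative_X, Polynomial.derivative_C, sub_zero,
    one_mul, Polynomial.eval_add, Polynomial.eval_mul, Polynomial.eval_sub, Polynomial.eval_X,
    Polynomial.eval_C, sub_self, zero_mul, add_zero, Polynomial.eval_prod]

lemma compHom_family (F : S → ℍ → ℂ)
    (hF : ∀ (g : SL(2, ℤ)) (x : S) (τ : ℍ), F (g • x) (g • τ) = F x τ) (g : SL(2, ℤ)) (x : S) :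
    compHom (fun τ => g • τ) (F x) = F (g⁻¹ • x) := by
  funext τ
  have := hF g (g⁻¹ • x) τ
  rw [smul_inv_smul] at this
  simpa using this

lemma prodPoly_map_compHom (F : S → ℍ → ℂ)
    (hF : ∀ (g : SL(2, ℤ)) (x : S) (τ : ℍ), F (g • x) (g • τ) = F x τ) (g : SL(2, ℤ)) :
    (prodPoly F).map (compHom (fun τ => g • τ)) = prodPoly F := by
  rw [prodPoly, Polynomial.map_prod]
  have : ∀ x : S, (X - C (F x)).map (compHom (fun τ => g • τ)) = X - C (F (g⁻¹ • x)) := by
    intro x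
    simp only [Polynomial.map_sub, Polynomial.map_X, Polynomial.map_C, compHom_family F hF]
  simp_rw [this]
  exact Fintype.prod_equiv (MulAction.toPerm g⁻¹) _ _ (fun x => rfl)

lemma erasePoly_map_compHom (F : S → ℍ → ℂ)
    (hF : ∀ (g : SL(2, ℤ)) (x : S) (τ : ℍ), F (g • x) (g • τ) = F x τ) (x0 : S) (g : SL(2, ℤ))
    (hg : g⁻¹ • x0 = x0) :
    (erasePoly F x0).map (compHom (fun τ => g • τ)) = erasePoly F x0 := by
  rw [erasePoly, Polynomial.map_prod]
  have : ∀ x : S, (X - C (F x)).map (compHom (fun τ => g • τ)) = X - C (F (g⁻¹ • x)) := by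
    intro x
    simp only [Polynomial.map_sub, Polynomial.map_X, Polynomial.map_C, compHom_family F hF]
  simp_rw [this]
  refine Finset.prod_equiv (MulAction.toPerm g⁻¹) (fun x => ?_) (fun x _ => rfl)
  simp only [Finset.mem_erase, Finset.mem_univ, and_true, MulAction.toPerm_apply, ne_eq]
  constructor
  · intro h h'
    apply h
    rw [← hg] at h'
    exact smul_left_cancel _ h'
  · intro h h'
    apply h
    rw [h', hg]

lemma lagrangePoly_map_compHom (F G : S → ℍ → ℂ)
    (hF : ∀ (g : SL(2, ℤ)) (x : S) (τ : ℍ), F (g • x) (g • τ) = F x τ)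
    (hG : ∀ (g : SL(2, ℤ)) (x : S) (τ : ℍ), G (g • x) (g • τ) = G x τ) (g : SL(2, ℤ)) :
    (lagrangePoly F G).map (compHom (fun τ => g • τ)) = lagrangePoly F G := by
  rw [lagrangePoly, Polynomial.map_sum]
  have : ∀ x : S, (C (G x) * ∏ y ∈ Finset.univ.erase x, (X - C (F y))).map
        (compHom (fun τ => g • τ))
      = C (G (g⁻¹ • x)) * ∏ y ∈ Finset.univ.erase (g⁻¹ • x), (X - C (F y)) := by
    intro x
    rw [Polynomial.map_mul, Polynomial.map_C, compHom_family G hG, Polynomial.map_prod]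
    congr 1
    have h2 : ∀ y : S, (X - C (F y)).map (compHom (fun τ => g • τ)) = X - C (F (g⁻¹ • y)) := by
      intro y
      simp only [Polynomial.map_sub, Polynomial.map_X, Polynomial.map_C, compHom_family F hF]
    simp_rw [h2]
    refine Finset.prod_equiv (MulAction.toPerm g⁻¹) (fun y => ?_) (fun y _ => rfl)
    simp only [Finset.mem_erase, Finset.mem_univ, and_true, MulAction.toPerm_apply, ne_eq]
    exact (smul_left_cancel_iff _).not.symm
  simp_rw [this]
  exact Fintype.sum_equiv (MulAction.toPerm g⁻¹) _ _ (fun x => rfl)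

lemma coeff_invariant_of_map_compHom (Q : Polynomial (ℍ → ℂ)) (g : SL(2, ℤ))
    (h : Q.map (compHom (fun τ => g • τ)) = Q) (k : ℕ) (τ : ℍ) :
    Q.coeff k (g • τ) = Q.coeff k τ := by
  have h2 := congrArg (fun p => p.coeff k τ) h
  simpa [Polynomial.coeff_map] using h2

lemma modGrowth_coeff_prodPoly (F : S → ℍ → ℂ) (hmg : ∀ x, ModGrowth (F x)) (k : ℕ) :
    ModGrowth ((prodPoly F).coeff k) := by
  let Ft : S → modGrowthSubalgebra := fun x => ⟨F x, hmg x⟩
  have hmap : prodPoly F = (∏ x : S, (X - C (Ft x))).map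
      (modGrowthSubalgebra.val : modGrowthSubalgebra →+* (ℍ → ℂ)) := by
    rw [prodPoly, Polynomial.map_prod]
    refine Finset.prod_congr rfl fun x _ => ?_
    simp [Ft]
  rw [hmap]
  exact modGrowth_coeff_of_map _ k

lemma modGrowth_coeff_erasePoly (F : S → ℍ → ℂ) (hmg : ∀ x, ModGrowth (F x)) (x0 : S) (k : ℕ) :
    ModGrowth ((erasePoly F x0).coeff k) := by
  let Ft : S → modGrowthSubalgebra := fun x => ⟨F x, hmg x⟩
  have hmap : erasePoly F x0 = (∏ x ∈ Finset.univ.erase x0, (X - C (Ft x))).map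
      (modGrowthSubalgebra.val : modGrowthSubalgebra →+* (ℍ → ℂ)) := by
    rw [erasePoly, Polynomial.map_prod]
    refine Finset.prod_congr rfl fun x _ => ?_
    simp [Ft]
  rw [hmap]
  exact modGrowth_coeff_of_map _ k

lemma modGrowth_coeff_lagrangePoly (F G : S → ℍ → ℂ) (hmg : ∀ x, ModGrowth (F x))
    (hmgG : ∀ x, ModGrowth (G x)) (k : ℕ) : ModGrowth ((lagrangePoly F G).coeff k) := by
  let Ft : S → modGrowthSubalgebra := fun x => ⟨F x, hmg x⟩
  let Gt : S → modGrowthSubalgebra := fun x => ⟨G x, hmgG x⟩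
  have hmap : lagrangePoly F G
      = (∑ x : S, C (Gt x) * ∏ y ∈ Finset.univ.erase x, (X - C (Ft y))).map
      (modGrowthSubalgebra.val : modGrowthSubalgebra →+* (ℍ → ℂ)) := by
    rw [lagrangePoly, Polynomial.map_sum]
    refine Finset.sum_congr rfl fun x _ => ?_
    rw [Polynomial.map_mul, Polynomial.map_prod]
    congr 1
    · simp [Gt]
    · refine Finset.prod_congr rfl fun y _ => ?_
      simp [Ft]
  rw [hmap]
  exact modGrowth_coeff_of_map _ k

theorem prodPoly_mem_lifts (F : S → ℍ → ℂ) (hmg : ∀ x, ModGrowth (F x))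
    (hF : ∀ (g : SL(2, ℤ)) (x : S) (τ : ℍ), F (g • x) (g • τ) = F x τ) :
    prodPoly F ∈ Polynomial.lifts jHom :=
  mem_lifts_jHom _ (modGrowth_coeff_prodPoly F hmg)
    (fun g k τ => coeff_invariant_of_map_compHom _ g (prodPoly_map_compHom F hF g) k τ)

theorem lagrangePoly_mem_lifts (F G : S → ℍ → ℂ) (hmg : ∀ x, ModGrowth (F x))
    (hmgG : ∀ x, ModGrowth (G x))
    (hF : ∀ (g : SL(2, ℤ)) (x : S) (τ : ℍ), F (g • x) (g • τ) = F x τ)
    (hG : ∀ (g : SL(2, ℤ)) (x : S) (τ : ℍ), G (g • x) (g • τ) = G x τ) :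
    lagrangePoly F G ∈ Polynomial.lifts jHom :=
  mem_lifts_jHom _ (modGrowth_coeff_lagrangePoly F G hmg hmgG)
    (fun g k τ => coeff_invariant_of_map_compHom _ g (lagrangePoly_map_compHom F G hF hG g) k τ)

end Family

end Fermat.Agent.S28.helper1288

end
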