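import Mathlib

/-!
# S28 (Igusa) -- exponents of the eta quotient `u_N` (helper388)

`u_N = ∏_{δ ∣ N} Δ(q^δ)^{r_δ}` with

`r_δ = Φ(N)·[δ = 1] − ∑_{S ⊆ primeFactors N} (−1)^{|S|} (∏_{p ∉ S} p) [δ = N / ∏ S]`,
`Φ(N) = ∏_{p ∣ N} (p − 1)`.

(With `s = ∏ S` this is `φ(rad N)[δ=1] − ∑_{s ∣ rad N} μ(s) (rad N / s) [δ = N/s]`.)

* `sum_etaExp` : `∑_{δ ∣ N} r_δ = 0` (weight zero);
* `sum_etaExp_gcd` : for `N ∤ c`: `∑_{δ ∣ N} r_δ · gcd(δ,c)² · (N/δ) = N · Φ(N)`
  (the order in `t = q^{1/N}` of `u_N ∘ γ` for `γ ∉ Γ₀(N)` with lower left entry `c`; positive);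
* `sum_etaExp_mul_self_neg` : for `1 < N`: `∑_{δ ∣ N} r_δ · δ < 0` (the `q`-order of `u_N` itself).
-/

set_option autoImplicit false

namespace Fermat.Agent.S28.helper388

open Finset

/-- `Φ(N) = ∏_{p ∣ N} (p - 1)`, as an integer (`= φ(rad N)`). -/
def etaPhi (N : ℕ) : ℤ := ∏ p ∈ N.primeFactors, ((p : ℤ) - 1)

/-- `rad N = ∏_{p ∣ N} p`. -/
def etaRad (N : ℕ) : ℕ := ∏ p ∈ N.primeFactors, p

/-- The exponent of `Δ(q^δ)` in the eta quotient `u_N`. -/
def etaExp (N δ : ℕ) : ℤ :=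
  (if δ = 1 then etaPhi N else 0) -
    ∑ S ∈ N.primeFactors.powerset,
      if δ = N / ∏ p ∈ S, p then (-1) ^ S.card * ∏ p ∈ N.primeFactors \ S, (p : ℤ) else 0

theorem etaPhi_pos (N : ℕ) : 0 < etaPhi N := by
  unfold etaPhi
  refine Finset.prod_pos fun p hp => ?_
  have := (Nat.prime_of_mem_primeFactors hp).two_le
  have : (2 : ℤ) ≤ p := by exact_mod_cast this
  linarith

theorem etaRad_pos (N : ℕ) : 0 < etaRad N :=
  Finset.prod_pos fun _ hp => (Nat.prime_of_mem_primeFactors hp).pos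

theorem etaRad_dvd (N : ℕ) : etaRad N ∣ N := Nat.prod_primeFactors_dvd N

theorem prod_subset_mul_sdiff {N : ℕ} {S : Finset ℕ} (hS : S ∈ N.primeFactors.powerset) :
    (∏ p ∈ S, p) * ∏ p ∈ N.primeFactors \ S, p = etaRad N := by
  rw [mul_comm]
  exact Finset.prod_sdiff (Finset.mem_powerset.mp hS)

theorem prod_subset_dvd {N : ℕ} {S : Finset ℕ} (hS : S ∈ N.primeFactors.powerset) :
    (∏ p ∈ S, p) ∣ N :=
  (Dvd.intro _ (prod_subset_mul_sdiff hS)).trans (etaRad_dvd N)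

theorem prod_subset_pos {N : ℕ} {S : Finset ℕ} (hS : S ∈ N.primeFactors.powerset) :
    0 < ∏ p ∈ S, p :=
  Finset.prod_pos fun _ hp =>
    (Nat.prime_of_mem_primeFactors (Finset.mem_powerset.mp hS hp)).pos

/-- General summation formula against the exponents. -/
theorem sum_etaExp_mul {N : ℕ} (hN : N ≠ 0) (g : ℕ → ℤ) :
    ∑ δ ∈ N.divisors, etaExp N δ * g δ =
      etaPhi N * g 1 - ∑ S ∈ N.primeFactors.powerset,
        (-1) ^ S.card * (∏ p ∈ N.primeFactors \ S, (p : ℤ)) * g (N / ∏ p ∈ S, p) := by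
  classical
  simp only [etaExp, sub_mul, Finset.sum_sub_distrib]
  congr 1
  · rw [Finset.sum_eq_single 1]
    · simp
    · intro b _ hb; simp [hb]
    · intro h; exact absurd (Nat.one_mem_divisors.mpr hN) h
  · simp only [Finset.sum_mul]
    rw [Finset.sum_comm]
    refine Finset.sum_congr rfl fun S hS => ?_
    rw [Finset.sum_eq_single (N / ∏ p ∈ S, p)]
    · simp
    · intro b _ hb; simp [hb]
    · intro h
      exact absurd (Nat.mem_divisors.mpr ⟨Nat.div_dvd_of_dvd (prod_subset_dvd hS), hN⟩) h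

/-- Weight zero: the exponents sum to `0`. -/
theorem sum_etaExp {N : ℕ} (hN : N ≠ 0) : ∑ δ ∈ N.divisors, etaExp N δ = 0 := by
  have h := sum_etaExp_mul hN (fun _ => 1)
  simp only [mul_one] at h
  rw [h, sub_eq_zero, etaPhi]
  have : ∀ p ∈ N.primeFactors, ((p : ℤ) - 1) = (-1 : ℤ) + p := fun p _ => by ring
  rw [Finset.prod_congr rfl this, Finset.prod_add]
  refine Finset.sum_congr rfl fun S _ => ?_
  rw [Finset.prod_const]

theorem natCast_div_prod {N : ℕ} {S : Finset ℕ} (hS : S ∈ N.primeFactors.powerset) :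
    ((N / ∏ p ∈ S, p : ℕ) : ℤ) = ((N / etaRad N : ℕ) : ℤ) * ∏ p ∈ N.primeFactors \ S, (p : ℤ) := by
  have h1 : (∏ p ∈ S, p) * ∏ p ∈ N.primeFactors \ S, p = etaRad N := prod_subset_mul_sdiff hS
  have h2 : N / ∏ p ∈ S, p = (N / etaRad N) * ∏ p ∈ N.primeFactors \ S, p := by
    obtain ⟨m, hm⟩ := etaRad_dvd N
    have hR := etaRad_pos N
    have hSpos := prod_subset_pos hS
    have hNR : N / etaRad N = m := Nat.div_eq_of_eq_mul_right hR hm
    rw [hNR]
    apply Nat.div_eq_of_eq_mul_right hSpos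
    calc N = etaRad N * m := hm
      _ = ((∏ p ∈ S, p) * ∏ p ∈ N.primeFactors \ S, p) * m := by rw [h1]
      _ = (∏ p ∈ S, p) * (m * ∏ p ∈ N.primeFactors \ S, p) := by ring
  rw [h2]
  push_cast
  rfl

/-- The `q`-order of `u_N`: `∑ r_δ δ = Φ(N) − (N / rad N) ∏_{p ∣ N} (p² − 1)`. -/
theorem sum_etaExp_mul_self {N : ℕ} (hN : N ≠ 0) :
    ∑ δ ∈ N.divisors, etaExp N δ * (δ : ℤ) =
      etaPhi N - ((N / etaRad N : ℕ) : ℤ) * ∏ p ∈ N.primeFactors, ((p : ℤ) ^ 2 - 1) := by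
  have h := sum_etaExp_mul hN (fun δ => (δ : ℤ))
  rw [h]
  congr 1
  · simp
  · have : ∀ p ∈ N.primeFactors, ((p : ℤ) ^ 2 - 1) = (-1 : ℤ) + (p : ℤ) ^ 2 := fun p _ => by ring
    rw [Finset.prod_congr rfl this, Finset.prod_add, Finset.mul_sum]
    refine Finset.sum_congr rfl fun S hS => ?_
    rw [natCast_div_prod hS, Finset.prod_const, Finset.prod_pow]
    ring

/-- For `1 < N` the `q`-order of `u_N` is negative. -/
theorem sum_etaExp_mul_self_neg {N : ℕ} (hN : 1 < N) :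
    ∑ δ ∈ N.divisors, etaExp N δ * (δ : ℤ) < 0 := by
  have hN0 : N ≠ 0 := by omega
  rw [sum_etaExp_mul_self hN0]
  have hfac : ∏ p ∈ N.primeFactors, ((p : ℤ) ^ 2 - 1) =
      etaPhi N * ∏ p ∈ N.primeFactors, ((p : ℤ) + 1) := by
    rw [etaPhi, ← Finset.prod_mul_distrib]
    refine Finset.prod_congr rfl fun p _ => by ring
  have hne : N.primeFactors.Nonempty := Nat.nonempty_primeFactors.mpr hN
  obtain ⟨p₀, hp₀⟩ := hne
  have hprod : (2 : ℤ) ≤ ∏ p ∈ N.primeFactors, ((p : ℤ) + 1) := by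
    have h1 : ∀ p ∈ N.primeFactors, (1 : ℤ) ≤ (p : ℤ) + 1 := fun p _ => by
      have : (0 : ℤ) ≤ p := Int.natCast_nonneg p
      linarith
    have h2 : (2 : ℤ) ≤ (p₀ : ℤ) + 1 := by
      have := (Nat.prime_of_mem_primeFactors hp₀).two_le
      have : (2 : ℤ) ≤ p₀ := by exact_mod_cast this
      linarith
    have h3 : (1 : ℤ) ≤ ∏ p ∈ N.primeFactors.erase p₀, ((p : ℤ) + 1) := by
      calc (1 : ℤ) = ∏ p ∈ N.primeFactors.erase p₀, (1 : ℤ) := by simp
        _ ≤ _ := Finset.prod_le_prod (fun _ _ => zero_le_one)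
            (fun p hp => h1 p (Finset.mem_of_mem_erase hp))
    rw [← Finset.mul_prod_erase _ _ hp₀]
    nlinarith
  have hquot : (1 : ℤ) ≤ ((N / etaRad N : ℕ) : ℤ) := by
    have : 1 ≤ N / etaRad N :=
      Nat.div_pos (Nat.le_of_dvd (by omega) (etaRad_dvd N)) (etaRad_pos N)
    exact_mod_cast this
  have hΦ := etaPhi_pos N
  rw [hfac]
  nlinarith [mul_le_mul hquot hprod (by norm_num : (0:ℤ) ≤ 2) (by linarith : (0:ℤ) ≤ ((N / etaRad N : ℕ) : ℤ))]

/-- Removing one factor `p` from `m` does not change `gcd(m, c)` when `v_p(c) < v_p(m)`. -/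
theorem gcd_div_prime_eq {m c p : ℕ} (hp : p.Prime) (hm : m ≠ 0) (hc : c ≠ 0)
    (hlt : c.factorization p < m.factorization p) : Nat.gcd (m / p) c = Nat.gcd m c := by
  have hpm : p ∣ m := by
    by_contra h
    rw [Nat.factorization_eq_zero_of_not_dvd h] at hlt
    omega
  have hmp : m / p ≠ 0 := by
    intro h
    have := Nat.div_mul_cancel hpm
    rw [h] at this
    exact hm (by omega)
  apply Nat.eq_of_factorization_eq (Nat.gcd_ne_zero_right hc) (Nat.gcd_ne_zero_right hc)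
  intro q
  rw [Nat.factorization_gcd hmp hc, Nat.factorization_gcd hm hc, Nat.factorization_div hpm,
    hp.factorization]
  simp only [Finsupp.inf_apply, Finsupp.coe_tsub, Pi.sub_apply]
  by_cases hq : q = p
  · subst hq
    simp only [Finsupp.single_eq_same]
    omega
  · rw [Finsupp.single_eq_of_ne (by exact fun h => hq h)]
    simp

/-- The alternating sum of `gcd(N/∏S, c)²` over subsets of the prime factors vanishes if `N ∤ c`. -/
theorem sum_neg_one_pow_gcd_sq {N c : ℕ} (hN : N ≠ 0) (hc : ¬ N ∣ c) :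
    ∑ S ∈ N.primeFactors.powerset, (-1 : ℤ) ^ S.card * ((Nat.gcd (N / ∏ p ∈ S, p) c : ℕ) : ℤ) ^ 2
      = 0 := by
  classical
  have hc0 : c ≠ 0 := by rintro rfl; exact hc (dvd_zero N)
  -- a prime with v_p(c) < v_p(N)
  obtain ⟨p, hplt⟩ : ∃ p, c.factorization p < N.factorization p := by
    by_contra h
    simp only [not_exists, not_lt] at h
    exact hc ((Nat.factorization_le_iff_dvd hN hc0).mp (fun p => h p))
  have hpN : p ∈ N.primeFactors := by
    have : N.factorization p ≠ 0 := by omega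
    exact Nat.support_factorization N ▸ Finsupp.mem_support_iff.mpr this
  have hp : p.Prime := Nat.prime_of_mem_primeFactors hpN
  -- key: for S not containing p, the two gcd's agree
  have key : ∀ S ∈ N.primeFactors.powerset, p ∉ S →
      Nat.gcd (N / ∏ q ∈ insert p S, q) c = Nat.gcd (N / ∏ q ∈ S, q) c := by
    intro S hS hpS
    have hSdvd := prod_subset_dvd hS
    have hSpos := prod_subset_pos hS
    rw [Finset.prod_insert hpS, Nat.mul_comm, ← Nat.div_div_eq_div_mul]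
    have hm : N / ∏ q ∈ S, q ≠ 0 := by
      intro h
      have := Nat.div_mul_cancel hSdvd
      rw [h] at this
      exact hN (by omega)
    apply gcd_div_prime_eq hp hm hc0
    rw [Nat.factorization_div hSdvd]
    have hS0 : (∏ q ∈ S, q).factorization p = 0 := by
      apply Nat.factorization_eq_zero_of_not_dvd
      intro hdvd
      obtain ⟨q, hqS, hpq⟩ := (Prime.dvd_finsetProd_iff hp.prime _).mp hdvd
      have hq : q.Prime := Nat.prime_of_mem_primeFactors (Finset.mem_powerset.mp hS hqS)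
      have : p = q := (Nat.prime_dvd_prime_iff_eq hp hq).mp hpq
      exact hpS (this ▸ hqS)
    simp only [Finsupp.coe_tsub, Pi.sub_apply, hS0]
    omega
  refine Finset.sum_involution (fun S _ => if p ∈ S then S.erase p else insert p S) ?_ ?_ ?_ ?_
  · intro S hS
    by_cases hpS : p ∈ S
    · simp only [hpS, if_true]
      have hS' : S.erase p ∈ N.primeFactors.powerset :=
        Finset.mem_powerset.mpr ((Finset.erase_subset p S).trans (Finset.mem_powerset.mp hS))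
      have hk := key (S.erase p) hS' (Finset.notMem_erase p S)
      rw [Finset.insert_erase hpS] at hk
      rw [hk, Finset.card_erase_of_mem hpS]
      have hcard : 0 < S.card := Finset.card_pos.mpr ⟨p, hpS⟩
      obtain ⟨k, hk'⟩ : ∃ k, S.card = k + 1 := ⟨S.card - 1, by omega⟩
      rw [hk', Nat.add_sub_cancel, pow_succ]
      ring
    · simp only [hpS, if_false]
      rw [key S hS hpS, Finset.card_insert_of_notMem hpS, pow_succ]
      ring
  · intro S _ _
    by_cases hpS : p ∈ S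
    · simp only [hpS, if_true]
      intro h
      have := h ▸ Finset.notMem_erase p S
      exact this hpS
    · simp only [hpS, if_false]
      intro h
      exact hpS (h ▸ Finset.mem_insert_self p S)
  · intro S hS
    by_cases hpS : p ∈ S
    · simp only [hpS, if_true]
      exact Finset.mem_powerset.mpr ((Finset.erase_subset p S).trans (Finset.mem_powerset.mp hS))
    · simp only [hpS, if_false]
      exact Finset.mem_powerset.mpr
        (Finset.insert_subset hpN (Finset.mem_powerset.mp hS))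
  · intro S _
    by_cases hpS : p ∈ S
    · simp [hpS, Finset.insert_erase hpS]
    · simp [hpS, Finset.erase_insert hpS]

/-- **Order of `u_N ∘ γ`** (in `t = q^{1/N}`) for `γ ∉ Γ₀(N)` with lower-left entry `c`:
`∑_{δ ∣ N} r_δ · gcd(δ,c)² · (N/δ) = N · Φ(N)`. -/
theorem sum_etaExp_gcd {N c : ℕ} (hN : N ≠ 0) (hc : ¬ N ∣ c) :
    ∑ δ ∈ N.divisors, etaExp N δ * (((Nat.gcd δ c : ℕ) : ℤ) ^ 2 * ((N / δ : ℕ) : ℤ)) =
      (N : ℤ) * etaPhi N := by
  have h := sum_etaExp_mul hN (fun δ => ((Nat.gcd δ c : ℕ) : ℤ) ^ 2 * ((N / δ : ℕ) : ℤ))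
  rw [h]
  have hsum : ∑ S ∈ N.primeFactors.powerset,
      (-1 : ℤ) ^ S.card * (∏ p ∈ N.primeFactors \ S, (p : ℤ)) *
        (((Nat.gcd (N / ∏ p ∈ S, p) c : ℕ) : ℤ) ^ 2 * ((N / (N / ∏ p ∈ S, p) : ℕ) : ℤ)) =
      (etaRad N : ℤ) * ∑ S ∈ N.primeFactors.powerset,
        (-1 : ℤ) ^ S.card * ((Nat.gcd (N / ∏ p ∈ S, p) c : ℕ) : ℤ) ^ 2 := by
    rw [Finset.mul_sum]
    refine Finset.sum_congr rfl fun S hS => ?_
    have h1 : N / (N / ∏ p ∈ S, p) = ∏ p ∈ S, p :=
      Nat.div_div_self (prod_subset_dvd hS) hN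
    have h2 : (etaRad N : ℤ) = (∏ p ∈ S, (p : ℤ)) * ∏ p ∈ N.primeFactors \ S, (p : ℤ) := by
      rw [← prod_subset_mul_sdiff hS]; push_cast; rfl
    rw [h1, h2]
    push_cast
    ring
  rw [hsum, sum_neg_one_pow_gcd_sq hN hc]
  simp [mul_comm]

/-- Positivity form of `sum_etaExp_gcd`. -/
theorem sum_etaExp_gcd_pos {N c : ℕ} (hN : N ≠ 0) (hc : ¬ N ∣ c) :
    0 < ∑ δ ∈ N.divisors, etaExp N δ * (((Nat.gcd δ c : ℕ) : ℤ) ^ 2 * ((N / δ : ℕ) : ℤ)) := by
  rw [sum_etaExp_gcd hN hc]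
  have : (0 : ℤ) < N := by exact_mod_cast Nat.pos_of_ne_zero hN
  exact mul_pos this (etaPhi_pos N)

end Fermat.Agent.S28.helper388
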