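/-
S28, Route E, leaf AS (helper407): asymptotics at `i∞` of the `SL(2,ℤ)`-conjugates of eta quotients
`etaQuot N r τ = ∏_{δ ∣ N} Δ(δ τ) ^ r δ` (`∑ r δ = 0`):
`etaQuot N r (g τ) * e^{-2πi E τ} → C ≠ 0` with `E = cuspExp N r |c_g| = ∑ r δ gcd(δ,c_g)²/δ`,
`‖C‖ = ∏ ((δ / gcd(δ,c_g))^12)^(-r δ)` (a quotient of integers supported on the primes of `N`);
vanishing at `i∞` of the conjugates of helper388's `u_N` for `g ∉ Γ₀(N)`; moderate growth.
Builds on `helper407_DeltaHermite` and `helper388_EtaExp`.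
-/
import Fermat.Agent.S28.helper407_DeltaHermite
import Fermat.Agent.S28.helper388_EtaExp

set_option autoImplicit false

open ModularForm MatrixGroups CongruenceSubgroup Filter Complex
open UpperHalfPlane hiding I
open scoped Manifold Topology Real

noncomputable section

namespace Fermat.Agent.S28.helper407

local notation "Δ" => ModularForm.discriminant

/-- `Δ(τ) / e^{2πiτ} → 1` as `Im τ → ∞`. -/
theorem tendsto_discriminant_div_exp :
    Tendsto (fun τ : ℍ => Δ τ / cexp (2 * π * I * τ)) atImInfty (𝓝 1) := by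
  refine tendsto_atImInfty_tprod_one_sub_eta_q_pow.congr fun τ => ?_
  rw [discriminant_eq_q_prod]
  have h : Function.Periodic.qParam 1 (τ : ℂ) = cexp (2 * π * I * τ) := by
    simp [Function.Periodic.qParam]
  rw [h, mul_div_assoc, mul_comm, div_mul_cancel₀]
  exact Complex.exp_ne_zero _

theorem im_pt {a d : ℕ} (ha : 0 < a) (hd : 0 < d) (b : ℕ) (τ : ℍ) :
    (pt a b d τ).im = (a : ℝ) / (d : ℝ) * τ.im := by
  have h := coe_pt ha hd b τ
  have h1 : (((a : ℂ) * (τ : ℂ) + (b : ℂ)) / (d : ℂ)) =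
      (((a : ℝ) / (d : ℝ) : ℝ) : ℂ) * (τ : ℂ) + (((b : ℝ) / (d : ℝ) : ℝ) : ℂ) := by
    have hd' : (d : ℂ) ≠ 0 := by exact_mod_cast hd.ne'
    push_cast
    field_simp
  rw [h1] at h
  have h2 := congrArg Complex.im h
  rw [Complex.add_im, Complex.ofReal_im, add_zero, Complex.im_ofReal_mul] at h2
  exact h2

theorem tendsto_pt_atImInfty {a d : ℕ} (ha : 0 < a) (hd : 0 < d) (b : ℕ) :
    Tendsto (pt a b d) atImInfty atImInfty := by
  rw [atImInfty, tendsto_comap_iff]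
  have h : (UpperHalfPlane.im ∘ pt a b d) = fun τ : ℍ => (a : ℝ) / (d : ℝ) * τ.im := by
    funext τ; exact im_pt ha hd b τ
  rw [h]
  have hpos : (0 : ℝ) < (a : ℝ) / (d : ℝ) := by positivity
  exact Tendsto.const_mul_atTop hpos tendsto_comap

/-- `Δ((aτ+b)/d) / e^{2πi(aτ+b)/d} → 1` as `Im τ → ∞`. -/
theorem tendsto_discriminant_pt_div_exp {a d : ℕ} (ha : 0 < a) (hd : 0 < d) (b : ℕ) :
    Tendsto (fun τ : ℍ => Δ (pt a b d τ) /
      cexp (2 * π * I * (((a : ℂ) * (τ : ℂ) + (b : ℂ)) / (d : ℂ)))) atImInfty (𝓝 1) := by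
  have h := tendsto_discriminant_div_exp.comp (tendsto_pt_atImInfty ha hd b)
  refine h.congr fun τ => ?_
  simp only [Function.comp_apply, coe_pt ha hd]

/-- The exponent (order at `i∞`, in `q`) of the conjugate `etaQuot N r ∘ g` for `g ∈ SL(2,ℤ)` with
lower-left entry `±c`: `∑_{δ ∣ N} r δ * gcd(δ,c)² / δ`. -/
def cuspExp (N : ℕ) (r : ℕ → ℤ) (c : ℕ) : ℚ :=
  ∑ δ ∈ N.divisors, (r δ : ℚ) * ((Nat.gcd δ c : ℕ) : ℚ) ^ 2 / (δ : ℚ)

theorem prod_cexp_zpow {ι : Type*} (s : Finset ι) (f : ι → ℂ) (r : ι → ℤ) :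
    ∏ i ∈ s, cexp (f i) ^ r i = cexp (∑ i ∈ s, (r i : ℂ) * f i) := by
  rw [Complex.exp_sum]
  refine Finset.prod_congr rfl fun i _ => ?_
  rw [← Complex.exp_int_mul]

/-- **Asymptotics of the conjugates of an eta quotient at `i∞`**: for `∑_{δ ∣ N} r δ = 0` and
`g ∈ SL(2,ℤ)` with lower-left entry `c`, `etaQuot N r (g τ) * e^{-2πi E τ} → C ≠ 0` where
`E = cuspExp N r |c|` and `‖C‖ = ∏_{δ ∣ N} ((δ / gcd(δ,c))^12)^(-r δ)`. -/
theorem etaQuot_smul_tendsto (N : ℕ) (r : ℕ → ℤ) (hr : ∑ δ ∈ N.divisors, r δ = 0)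
    (g : SL(2, ℤ)) :
    ∃ C : ℂ, C ≠ 0 ∧
      ‖C‖ = ∏ δ ∈ N.divisors, ((((δ / Nat.gcd δ (g 1 0).natAbs : ℕ) : ℝ) ^ 12)⁻¹) ^ r δ ∧
      Tendsto (fun τ : ℍ => etaQuot N r (g • τ) *
        cexp (-(2 * π * I * ((cuspExp N r (g 1 0).natAbs : ℚ) : ℂ) * τ))) atImInfty (𝓝 C) := by
  obtain ⟨a, b, d, habd, hU⟩ := etaQuot_smul N r hr g
  have hpos : ∀ δ ∈ N.divisors, 0 < a δ ∧ 0 < d δ := by
    intro δ hδ
    obtain ⟨-, h2, h3⟩ := habd δ hδ
    have hδ0 := Nat.pos_of_mem_divisors hδ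
    refine ⟨?_, by omega⟩
    rcases Nat.eq_zero_or_pos (a δ) with h | h
    · rw [h, Nat.zero_mul] at h2; omega
    · exact h
  have hd_eq : ∀ δ ∈ N.divisors, d δ = δ / Nat.gcd δ (g 1 0).natAbs := by
    intro δ hδ
    obtain ⟨h1, h2, -⟩ := habd δ hδ
    rw [← h1]
    exact (Nat.div_eq_of_eq_mul_right (hpos δ hδ).1 h2.symm).symm
  -- the constant
  set B : ℂ := ∑ δ ∈ N.divisors, (r δ : ℂ) * (2 * π * I * ((b δ : ℂ) / (d δ : ℂ))) with hB
  set C₀ : ℂ := ∏ δ ∈ N.divisors, (((d δ : ℂ) ^ 12)⁻¹) ^ r δ with hC₀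
  have hC₀_ne : C₀ ≠ 0 := by
    refine Finset.prod_ne_zero_iff.mpr fun δ hδ => zpow_ne_zero _ (inv_ne_zero (pow_ne_zero _ ?_))
    exact_mod_cast (hpos δ hδ).2.ne'
  refine ⟨C₀ * cexp B, mul_ne_zero hC₀_ne (Complex.exp_ne_zero _), ?_, ?_⟩
  · -- norm
    have hBnorm : ‖cexp B‖ = 1 := by
      rw [Complex.norm_exp]
      have : B.re = 0 := by
        rw [hB, Complex.re_sum]
        refine Finset.sum_eq_zero fun δ _ => ?_
        have : (r δ : ℂ) * (2 * π * I * ((b δ : ℂ) / (d δ : ℂ))) =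
            (((r δ : ℝ) * (2 * π * ((b δ : ℝ) / (d δ : ℝ))) : ℝ) : ℂ) * I := by
          push_cast; ring
        rw [this, Complex.re_ofReal_mul, Complex.I_re, mul_zero]
      rw [this, Real.exp_zero]
    rw [norm_mul, hBnorm, mul_one, hC₀, norm_prod]
    refine Finset.prod_congr rfl fun δ hδ => ?_
    rw [norm_zpow, norm_inv, norm_pow, Complex.norm_natCast, hd_eq δ hδ]
  · -- the limit
    have hlim : Tendsto (fun τ : ℍ => ∏ δ ∈ N.divisors, (((d δ : ℂ) ^ 12)⁻¹ *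
        (Δ (pt (a δ) (b δ) (d δ) τ) /
          cexp (2 * π * I * (((a δ : ℂ) * (τ : ℂ) + (b δ : ℂ)) / (d δ : ℂ))))) ^ r δ)
        atImInfty (𝓝 C₀) := by
      rw [hC₀]
      refine tendsto_finsetProd _ fun δ hδ => ?_
      have h1 := tendsto_discriminant_pt_div_exp (hpos δ hδ).1 (hpos δ hδ).2 (b δ)
      have h2 : Tendsto (fun τ : ℍ => ((d δ : ℂ) ^ 12)⁻¹ *
          (Δ (pt (a δ) (b δ) (d δ) τ) /
            cexp (2 * π * I * (((a δ : ℂ) * (τ : ℂ) + (b δ : ℂ)) / (d δ : ℂ)))))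
          atImInfty (𝓝 (((d δ : ℂ) ^ 12)⁻¹)) := by
        simpa using h1.const_mul (((d δ : ℂ) ^ 12)⁻¹)
      refine h2.zpow₀ (r δ) (Or.inl (inv_ne_zero (pow_ne_zero _ ?_)))
      exact_mod_cast (hpos δ hδ).2.ne'
    have hfinal := hlim.mul_const (cexp B)
    refine hfinal.congr fun τ => ?_
    rw [hU τ]
    -- algebra: split off the exponentials
    have hsplit : ∀ δ ∈ N.divisors,
        (((d δ : ℂ) ^ 12)⁻¹ * Δ (pt (a δ) (b δ) (d δ) τ)) ^ r δ =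
        (((d δ : ℂ) ^ 12)⁻¹ * (Δ (pt (a δ) (b δ) (d δ) τ) /
          cexp (2 * π * I * (((a δ : ℂ) * (τ : ℂ) + (b δ : ℂ)) / (d δ : ℂ))))) ^ r δ *
        cexp (2 * π * I * (((a δ : ℂ) * (τ : ℂ) + (b δ : ℂ)) / (d δ : ℂ))) ^ r δ := by
      intro δ _
      rw [← mul_zpow]
      congr 1
      have := Complex.exp_ne_zero (2 * π * I * (((a δ : ℂ) * (τ : ℂ) + (b δ : ℂ)) / (d δ : ℂ)))
      field_simp
    rw [Finset.prod_congr rfl hsplit, Finset.prod_mul_distrib, prod_cexp_zpow]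
    -- exponent identity
    have hE : ((cuspExp N r (g 1 0).natAbs : ℚ) : ℂ) =
        ∑ δ ∈ N.divisors, (r δ : ℂ) * ((a δ : ℂ) / (d δ : ℂ)) := by
      rw [cuspExp]
      push_cast
      refine Finset.sum_congr rfl fun δ hδ => ?_
      obtain ⟨h1, h2, -⟩ := habd δ hδ
      have hd0 : (d δ : ℂ) ≠ 0 := by exact_mod_cast (hpos δ hδ).2.ne'
      have ha0 : (a δ : ℂ) ≠ 0 := by exact_mod_cast (hpos δ hδ).1.ne'
      have hδc : (δ : ℂ) = (a δ : ℂ) * (d δ : ℂ) := by exact_mod_cast h2.symm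
      rw [← h1, hδc]
      field_simp
    have key : cexp (∑ δ ∈ N.divisors, (r δ : ℂ) *
          (2 * π * I * (((a δ : ℂ) * (τ : ℂ) + (b δ : ℂ)) / (d δ : ℂ)))) *
        cexp (-(2 * π * I * ((cuspExp N r (g 1 0).natAbs : ℚ) : ℂ) * τ)) = cexp B := by
      rw [← Complex.exp_add]
      congr 1
      rw [hE, hB, Finset.mul_sum, Finset.sum_mul, ← Finset.sum_neg_distrib,
        ← Finset.sum_add_distrib]
      refine Finset.sum_congr rfl fun δ hδ => ?_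
      have hd0 : (d δ : ℂ) ≠ 0 := by exact_mod_cast (hpos δ hδ).2.ne'
      field_simp
      ring
    rw [← key]
    ring

/-- `e^{2πi E τ} → 0` at `i∞` for `E > 0`. -/
theorem tendsto_cexp_mul_atImInfty {E : ℝ} (hE : 0 < E) :
    Tendsto (fun τ : ℍ => cexp (2 * π * I * (E : ℂ) * τ)) atImInfty (𝓝 0) := by
  rw [tendsto_zero_iff_norm_tendsto_zero]
  have hnorm : ∀ τ : ℍ, ‖cexp (2 * π * I * (E : ℂ) * τ)‖ = Real.exp (-(2 * π * E) * τ.im) := by
    intro τ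
    rw [Complex.norm_exp]
    congr 1
    have : (2 * π * I * (E : ℂ) * (τ : ℂ)) = (((2 * π * E : ℝ)) : ℂ) * (I * (τ : ℂ)) := by
      push_cast; ring
    rw [this, Complex.re_ofReal_mul]
    simp
  simp only [hnorm]
  have h1 : Tendsto (fun τ : ℍ => (2 * π * E) * τ.im) atImInfty atTop :=
    Tendsto.const_mul_atTop (by positivity) tendsto_comap
  have h2 := Real.tendsto_exp_neg_atTop_nhds_zero.comp h1
  refine h2.congr fun τ => ?_
  simp [neg_mul]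

theorem norm_cexp_mul_le_one {E : ℝ} (hE : 0 ≤ E) (τ : ℍ) :
    ‖cexp (2 * π * I * (E : ℂ) * τ)‖ ≤ 1 := by
  rw [Complex.norm_exp]
  have : (2 * π * I * (E : ℂ) * (τ : ℂ)) = (((2 * π * E : ℝ)) : ℂ) * (I * (τ : ℂ)) := by
    push_cast; ring
  rw [this, Complex.re_ofReal_mul]
  simp only [Complex.mul_re, Complex.I_re, Complex.I_im, zero_mul, one_mul, zero_sub,
    UpperHalfPlane.coe_im]
  rw [Real.exp_le_one_iff]
  have := τ.im_pos
  have hπ := Real.pi_pos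
  nlinarith [mul_nonneg (mul_nonneg (by positivity : (0:ℝ) ≤ 2 * π) hE) this.le]

/-- If the exponent `cuspExp` is positive, the conjugate tends to `0` at `i∞`. -/
theorem etaQuot_smul_tendsto_zero (N : ℕ) (r : ℕ → ℤ) (hr : ∑ δ ∈ N.divisors, r δ = 0)
    (g : SL(2, ℤ)) (hE : 0 < cuspExp N r (g 1 0).natAbs) :
    Tendsto (fun τ : ℍ => etaQuot N r (g • τ)) atImInfty (𝓝 0) := by
  obtain ⟨C, -, -, hC⟩ := etaQuot_smul_tendsto N r hr g
  have hE' : (0 : ℝ) < ((cuspExp N r (g 1 0).natAbs : ℚ) : ℝ) := by exact_mod_cast hE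
  have h := hC.mul (tendsto_cexp_mul_atImInfty hE')
  rw [mul_zero] at h
  refine h.congr fun τ => ?_
  rw [mul_assoc, ← Complex.exp_add]
  have : -(2 * π * I * ((cuspExp N r (g 1 0).natAbs : ℚ) : ℂ) * (τ : ℂ)) +
      2 * π * I * (((cuspExp N r (g 1 0).natAbs : ℚ) : ℝ) : ℂ) * (τ : ℂ) = 0 := by
    push_cast; ring
  rw [this, Complex.exp_zero, mul_one]

/-- **Moderate growth of the conjugates**: `Δ^m * (etaQuot N r ∘ g)` is bounded at `i∞` as soon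
as `-cuspExp ≤ m`. -/
theorem isBoundedAtImInfty_discriminant_pow_mul_etaQuot_smul (N : ℕ) (r : ℕ → ℤ)
    (hr : ∑ δ ∈ N.divisors, r δ = 0) (g : SL(2, ℤ)) (m : ℕ)
    (hm : -(cuspExp N r (g 1 0).natAbs) ≤ (m : ℚ)) :
    IsBoundedAtImInfty (fun τ : ℍ => Δ τ ^ m * etaQuot N r (g • τ)) := by
  obtain ⟨C, -, -, hC⟩ := etaQuot_smul_tendsto N r hr g
  set E : ℚ := cuspExp N r (g 1 0).natAbs with hEdef
  have h1 : IsBoundedAtImInfty (fun τ : ℍ => (Δ τ / cexp (2 * π * I * τ)) ^ m) :=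
    (tendsto_discriminant_div_exp.pow m).isBigO_one ℝ
  have h2 : IsBoundedAtImInfty (fun τ : ℍ => etaQuot N r (g • τ) *
      cexp (-(2 * π * I * ((E : ℚ) : ℂ) * τ))) := hC.isBigO_one ℝ
  have hmE : (0 : ℝ) ≤ (m : ℝ) + (E : ℝ) := by
    have : (0 : ℚ) ≤ (m : ℚ) + E := by linarith
    exact_mod_cast this
  have h3 : IsBoundedAtImInfty (fun τ : ℍ => cexp (2 * π * I * (((m : ℝ) + (E : ℝ) : ℝ) : ℂ) * τ)) := by
    refine Asymptotics.IsBigO.of_bound 1 (Filter.Eventually.of_forall fun τ => ?_)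
    simpa using norm_cexp_mul_le_one hmE τ
  have h := (h1.mul h2).mul h3
  refine h.congr_left fun τ => ?_
  have he : cexp (2 * π * I * τ) ≠ 0 := Complex.exp_ne_zero _
  have hexp : cexp (2 * π * I * (((m : ℝ) + (E : ℝ) : ℝ) : ℂ) * τ) =
      cexp (2 * π * I * τ) ^ m * cexp (2 * π * I * ((E : ℚ) : ℂ) * τ) := by
    rw [← Complex.exp_nat_mul, ← Complex.exp_add]
    congr 1
    push_cast
    ring
  simp only [Pi.mul_apply]
  rw [hexp, div_pow]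
  have hcancel : cexp (-(2 * π * I * ((E : ℚ) : ℂ) * τ)) * cexp (2 * π * I * ((E : ℚ) : ℂ) * τ) = 1 := by
    rw [← Complex.exp_add, neg_add_cancel, Complex.exp_zero]
  have hpow : cexp (2 * π * I * τ) ^ m ≠ 0 := pow_ne_zero _ he
  calc Δ τ ^ m / cexp (2 * π * I * τ) ^ m *
        (etaQuot N r (g • τ) * cexp (-(2 * π * I * ((E : ℚ) : ℂ) * τ))) *
        (cexp (2 * π * I * τ) ^ m * cexp (2 * π * I * ((E : ℚ) : ℂ) * τ))
      = Δ τ ^ m * etaQuot N r (g • τ) * ((cexp (2 * π * I * τ) ^ m)⁻¹ * cexp (2 * π * I * τ) ^ m) *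
          (cexp (-(2 * π * I * ((E : ℚ) : ℂ) * τ)) * cexp (2 * π * I * ((E : ℚ) : ℂ) * τ)) := by
        rw [div_eq_mul_inv]; ring
    _ = Δ τ ^ m * etaQuot N r (g • τ) := by
        rw [inv_mul_cancel₀ hpow, hcancel, mul_one, mul_one]

/-- Existence form of moderate growth. -/
theorem exists_isBoundedAtImInfty_etaQuot_smul (N : ℕ) (r : ℕ → ℤ)
    (hr : ∑ δ ∈ N.divisors, r δ = 0) (g : SL(2, ℤ)) :
    ∃ m : ℕ, IsBoundedAtImInfty (fun τ : ℍ => Δ τ ^ m * etaQuot N r (g • τ)) := by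
  obtain ⟨m, hm⟩ := exists_nat_ge (-(cuspExp N r (g 1 0).natAbs))
  exact ⟨m, isBoundedAtImInfty_discriminant_pow_mul_etaQuot_smul N r hr g m hm⟩

/-! ### Arithmetic shape of the leading constants -/

/-- A product `∏ ((k δ ^ 12)⁻¹) ^ r δ` with all `k δ` positive divisors of `N` is a quotient
`A / B` of positive integers all of whose prime factors divide `N`. -/
theorem exists_nat_div_nat_eq_prod (s : Finset ℕ) (k : ℕ → ℕ) (r : ℕ → ℤ) (N : ℕ)
    (hk : ∀ δ ∈ s, 0 < k δ ∧ k δ ∣ N) :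
    ∃ A B : ℕ, 0 < A ∧ 0 < B ∧ (∀ p : ℕ, p.Prime → p ∣ A * B → p ∣ N) ∧
      ∏ δ ∈ s, ((((k δ : ℕ) : ℝ) ^ 12)⁻¹) ^ r δ = (A : ℝ) / (B : ℝ) := by
  classical
  induction s using Finset.induction_on with
  | empty => exact ⟨1, 1, one_pos, one_pos, fun p hp h => by simp [hp.ne_one] at h, by simp⟩
  | insert δ s hδ ih =>
    obtain ⟨A, B, hA, hB, hp, hprod⟩ := ih fun δ' hδ' => hk δ' (Finset.mem_insert_of_mem hδ')
    obtain ⟨hk0, hkN⟩ := hk δ (Finset.mem_insert_self δ s)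
    have hkR : ((k δ : ℕ) : ℝ) ≠ 0 := by exact_mod_cast hk0.ne'
    have hAR : (A : ℝ) ≠ 0 := by exact_mod_cast hA.ne'
    have hBR : (B : ℝ) ≠ 0 := by exact_mod_cast hB.ne'
    have hdvd : ∀ (n : ℕ) (p : ℕ), p.Prime → p ∣ k δ ^ (12 * n) → p ∣ N :=
      fun n p hpp h => (hpp.dvd_of_dvd_pow h).trans hkN
    rw [Finset.prod_insert hδ, hprod]
    rcases Int.eq_nat_or_neg (r δ) with ⟨n, hn | hn⟩
    · refine ⟨A, B * k δ ^ (12 * n), hA, Nat.mul_pos hB (pow_pos hk0 _), ?_, ?_⟩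
      · intro p hpp h
        rw [← mul_assoc] at h
        rcases (Nat.Prime.dvd_mul hpp).mp h with h | h
        · exact hp p hpp h
        · exact hdvd n p hpp h
      · rw [hn, zpow_natCast, inv_pow, ← pow_mul]
        push_cast
        field_simp
    · refine ⟨A * k δ ^ (12 * n), B, Nat.mul_pos hA (pow_pos hk0 _), hB, ?_, ?_⟩
      · intro p hpp h
        rw [mul_right_comm] at h
        rcases (Nat.Prime.dvd_mul hpp).mp h with h | h
        · exact hp p hpp h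
        · exact hdvd n p hpp h
      · rw [hn, zpow_neg, zpow_natCast, inv_pow, inv_inv, ← pow_mul]
        push_cast
        field_simp

/-- The norm of the leading constant of a conjugate of an eta quotient is a quotient `A / B` of
positive integers all of whose prime factors divide `N`. -/
theorem etaQuot_smul_tendsto' (N : ℕ) (r : ℕ → ℤ)
    (hr : ∑ δ ∈ N.divisors, r δ = 0) (g : SL(2, ℤ)) :
    ∃ (C : ℂ) (A B : ℕ), C ≠ 0 ∧ 0 < A ∧ 0 < B ∧ (∀ p : ℕ, p.Prime → p ∣ A * B → p ∣ N) ∧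
      ‖C‖ = (A : ℝ) / (B : ℝ) ∧
      Tendsto (fun τ : ℍ => etaQuot N r (g • τ) *
        cexp (-(2 * π * I * ((cuspExp N r (g 1 0).natAbs : ℚ) : ℂ) * τ))) atImInfty (𝓝 C) := by
  obtain ⟨C, hC0, hCnorm, hC⟩ := etaQuot_smul_tendsto N r hr g
  obtain ⟨A, B, hA, hB, hp, hprod⟩ := exists_nat_div_nat_eq_prod N.divisors
    (fun δ => δ / Nat.gcd δ (g 1 0).natAbs) r N (fun δ hδ => by
      have hδ0 := Nat.pos_of_mem_divisors hδ
      have hg : Nat.gcd δ (g 1 0).natAbs ∣ δ := Nat.gcd_dvd_left _ _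
      refine ⟨Nat.div_pos (Nat.le_of_dvd hδ0 hg) (Nat.gcd_pos_of_pos_left _ hδ0), ?_⟩
      exact (Nat.div_dvd_of_dvd hg).trans (Nat.dvd_of_mem_divisors hδ))
  exact ⟨C, A, B, hC0, hA, hB, hp, hCnorm.trans hprod, hC⟩

/-! ### Inverses -/

theorem etaQuot_neg (N : ℕ) (r : ℕ → ℤ) (τ : ℍ) :
    etaQuot N (fun δ => -r δ) τ = (etaQuot N r τ)⁻¹ := by
  unfold etaQuot
  rw [← Finset.prod_inv_distrib]
  exact Finset.prod_congr rfl fun δ _ => zpow_neg _ _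

theorem cuspExp_neg (N : ℕ) (r : ℕ → ℤ) (c : ℕ) :
    cuspExp N (fun δ => -r δ) c = -cuspExp N r c := by
  unfold cuspExp
  rw [← Finset.sum_neg_distrib]
  refine Finset.sum_congr rfl fun δ _ => ?_
  push_cast
  ring

/-- Moderate growth of the inverse of a conjugate. -/
theorem exists_isBoundedAtImInfty_etaQuot_smul_inv (N : ℕ) (r : ℕ → ℤ)
    (hr : ∑ δ ∈ N.divisors, r δ = 0) (g : SL(2, ℤ)) :
    ∃ m : ℕ, IsBoundedAtImInfty (fun τ : ℍ => Δ τ ^ m * (etaQuot N r (g • τ))⁻¹) := by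
  have hr' : ∑ δ ∈ N.divisors, (fun δ => -r δ) δ = 0 := by
    rw [Finset.sum_neg_distrib, hr, neg_zero]
  obtain ⟨m, hm⟩ := exists_isBoundedAtImInfty_etaQuot_smul N (fun δ => -r δ) hr' g
  exact ⟨m, by simpa only [etaQuot_neg] using hm⟩

/-! ### The exponents of helper388's eta quotient `u_N` -/

open Fermat.Agent.S28.helper388 in
/-- For `N ∤ c` the exponent of `u_N ∘ g` at `i∞` is `Φ(N) = ∏_{p ∣ N} (p - 1) > 0`. -/
theorem cuspExp_etaExp {N c : ℕ} (hN : N ≠ 0) (hc : ¬ N ∣ c) :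
    cuspExp N (etaExp N) c = (etaPhi N : ℚ) := by
  have h := sum_etaExp_gcd hN hc
  have hN' : (N : ℚ) ≠ 0 := by exact_mod_cast hN
  have h2 : (N : ℚ) * cuspExp N (etaExp N) c = (N : ℚ) * (etaPhi N : ℚ) := by
    have h3 : ((∑ δ ∈ N.divisors, etaExp N δ * (((Nat.gcd δ c : ℕ) : ℤ) ^ 2 *
        ((N / δ : ℕ) : ℤ)) : ℤ) : ℚ) = (N : ℚ) * (etaPhi N : ℚ) := by
      rw [h]; push_cast; ring
    rw [← h3, cuspExp, Finset.mul_sum, Int.cast_sum]
    refine Finset.sum_congr rfl fun δ hδ => ?_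
    have hδ0 : (δ : ℚ) ≠ 0 := by exact_mod_cast (Nat.pos_of_mem_divisors hδ).ne'
    rw [Int.cast_mul, Int.cast_mul, Int.cast_pow, Int.cast_natCast, Int.cast_natCast,
      Nat.cast_div (Nat.dvd_of_mem_divisors hδ) hδ0]
    field_simp
  exact mul_left_cancel₀ hN' h2

/-- For `N ∣ c` (i.e. `g ∈ Γ₀(N)`) the exponent is `∑ r δ * δ`. -/
theorem cuspExp_of_dvd {N c : ℕ} (r : ℕ → ℤ) (hc : N ∣ c) :
    cuspExp N r c = ∑ δ ∈ N.divisors, (r δ : ℚ) * (δ : ℚ) := by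
  unfold cuspExp
  refine Finset.sum_congr rfl fun δ hδ => ?_
  have hδ0 : (δ : ℚ) ≠ 0 := by exact_mod_cast (Nat.pos_of_mem_divisors hδ).ne'
  rw [Nat.gcd_eq_left ((Nat.dvd_of_mem_divisors hδ).trans hc)]
  field_simp

theorem not_dvd_natAbs_of_not_mem_Gamma0 {N : ℕ} {g : SL(2, ℤ)} (hg : g ∉ Gamma0 N) :
    ¬ N ∣ (g 1 0).natAbs := by
  intro h
  apply hg
  rw [Gamma0_mem]
  exact (ZMod.intCast_zmod_eq_zero_iff_dvd _ _).mpr (Int.natCast_dvd.mpr h)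

open Fermat.Agent.S28.helper388 in
/-- **The conjugates of `u_N` at the other cusps vanish at `i∞`**: for `g ∉ Γ₀(N)`,
`u_N(g τ) → 0` as `Im τ → ∞`. -/
theorem etaQuot_etaExp_smul_tendsto_zero {N : ℕ} (hN : N ≠ 0) {g : SL(2, ℤ)}
    (hg : g ∉ Gamma0 N) :
    Tendsto (fun τ : ℍ => etaQuot N (etaExp N) (g • τ)) atImInfty (𝓝 0) := by
  refine etaQuot_smul_tendsto_zero N (etaExp N) (sum_etaExp hN) g ?_
  rw [cuspExp_etaExp hN (not_dvd_natAbs_of_not_mem_Gamma0 hg)]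
  exact_mod_cast etaPhi_pos N

end Fermat.Agent.S28.helper407
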