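import Mathlib
import Fermat.Agent.S28.helper1288_LightAux
import Fermat.Agent.S28.helper407_EtaAsymp

/-!
# S28 light route (helper1288): function-level clauses (L1), (L2) for the eta quotient

For `u = helper407.etaQuot N r` (`∑ r = 0`) and the coset family
`etaFam N r x τ = u (x.out⁻¹ • τ)`, `x ∈ SL(2,ℤ) ⧸ Γ₀(N)`:

* `exists_chi_etaFam` : `χ ∈ ℂ[j][Y]` monic of degree `[SL₂(ℤ) : Γ₀(N)]` with
  `χ(j(τ), Y) = ∏_x (Y - etaFam x τ)`, and the leading coefficient of `χ(j, 0)` has absolute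
  value `a / b` with `a, b` supported on the primes dividing `N`;
* `etaFam_tendsto_zero` : for `r = etaExp N` the conjugates at the other cosets tend to `0`.

Only the moderate-growth form of the coset polynomial (`helper2788`, C4 shape) and the
asymptotics of `helper407_EtaAsymp` are used.
-/

set_option autoImplicit false
set_option linter.unusedSectionVars false

open UpperHalfPlane ModularForm MatrixGroups Filter Polynomial CongruenceSubgroup
open scoped Manifold Topology Real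

noncomputable section

namespace Fermat.Agent.S28.helper1288

open Fermat.Agent.Lib.helper843 (jInv)
open Fermat.Agent.S28.helper2788 (ModGrowth modGrowthSubalgebra compHom)
open Fermat.Agent.S28.helper407 (etaQuot)

local notation "Δ" => ModularForm.discriminant
local notation "𝕢" => Function.Periodic.qParam

/-- `Δ(z) / q(z) → 1` at `i∞`. -/
lemma tendsto_disc_div_q : Tendsto (fun z : ℍ => Δ z / 𝕢 1 (z : ℂ)) atImInfty (𝓝 1) := by
  refine tendsto_atImInfty_tprod_one_sub_eta_q_pow.congr fun z => ?_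
  rw [discriminant_eq_q_prod z, mul_div_cancel_left₀ _ (Function.Periodic.qParam_ne_zero _)]

/-! ### Asymptotics of polynomials in `j` -/

lemma tendsto_jInv_mul_q : Tendsto (fun τ : ℍ => jInv τ * 𝕢 1 (τ : ℂ)) atImInfty (𝓝 1) := by
  have h1 := Fermat.Agent.Lib.helper843.tendsto_discriminant_mul_jInv
  have h2 := tendsto_disc_div_q
  have h3 := h1.div h2 one_ne_zero
  rw [div_one] at h3
  refine h3.congr fun τ => ?_
  have hΔ := discriminant_ne_zero τ
  have hq : 𝕢 1 (τ : ℂ) ≠ 0 := Function.Periodic.qParam_ne_zero _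
  simp only [Pi.div_apply]
  field_simp

lemma tendsto_eval_jInv_mul_q_pow (p : ℂ[X]) :
    Tendsto (fun τ : ℍ => p.eval (jInv τ) * 𝕢 1 (τ : ℂ) ^ p.natDegree) atImInfty
      (𝓝 p.leadingCoeff) := by
  have hq : Tendsto (fun τ : ℍ => 𝕢 1 (τ : ℂ)) atImInfty (𝓝 0) :=
    UpperHalfPlane.qParam_tendsto_atImInfty one_pos
  have e : ∀ τ : ℍ, p.eval (jInv τ) * 𝕢 1 (τ : ℂ) ^ p.natDegree
      = ∑ i ∈ Finset.range (p.natDegree + 1),
          p.coeff i * (jInv τ * 𝕢 1 (τ : ℂ)) ^ i * 𝕢 1 (τ : ℂ) ^ (p.natDegree - i) := by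
    intro τ
    rw [Polynomial.eval_eq_sum_range, Finset.sum_mul]
    refine Finset.sum_congr rfl fun i hi => ?_
    have hi' : i ≤ p.natDegree := Nat.lt_succ_iff.mp (Finset.mem_range.mp hi)
    rw [mul_pow, mul_assoc, mul_assoc, mul_assoc, ← pow_add, Nat.add_sub_cancel' hi']
  simp_rw [e]
  have hlim : Tendsto (fun τ : ℍ => ∑ i ∈ Finset.range (p.natDegree + 1),
      p.coeff i * (jInv τ * 𝕢 1 (τ : ℂ)) ^ i * 𝕢 1 (τ : ℂ) ^ (p.natDegree - i)) atImInfty
      (𝓝 (∑ i ∈ Finset.range (p.natDegree + 1),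
        p.coeff i * (1 : ℂ) ^ i * (0 : ℂ) ^ (p.natDegree - i))) :=
    tendsto_finsetSum _ fun i _ =>
      ((tendsto_const_nhds.mul (tendsto_jInv_mul_q.pow i)).mul (hq.pow _))
  convert hlim using 2
  rw [Finset.sum_range_succ, Finset.sum_eq_zero, zero_add]
  · rw [Nat.sub_self, pow_zero, one_pow, mul_one, mul_one]
    rfl
  · intro i hi
    rw [zero_pow (Nat.sub_ne_zero_of_lt (Finset.mem_range.mp hi)), mul_zero]

lemma tendsto_norm_eval_jInv (p : ℂ[X]) :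
    Tendsto (fun τ : ℍ => ‖p.eval (jInv τ)‖ * Real.exp (-(2 * π * p.natDegree * τ.im)))
      atImInfty (𝓝 ‖p.leadingCoeff‖) := by
  refine (tendsto_eval_jInv_mul_q_pow p).norm.congr fun τ => ?_
  rw [norm_mul, norm_pow, Function.Periodic.norm_qParam, ← Real.exp_nat_mul]
  congr 2
  simp only [UpperHalfPlane.coe_im]
  ring

lemma eq_one_of_tendsto_exp (c ℓ : ℝ) (hℓ : ℓ ≠ 0)
    (h : Tendsto (fun τ : ℍ => Real.exp (c * τ.im)) atImInfty (𝓝 ℓ)) : ℓ = 1 := by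
  have hrange : Set.range UpperHalfPlane.im ∈ (atTop : Filter ℝ) := by
    refine Filter.mem_of_superset (Ioi_mem_atTop 0) fun y hy => ?_
    exact ⟨⟨Complex.I * y, by simpa using hy⟩, by simp [UpperHalfPlane.im]⟩
  have h' : Tendsto (fun y : ℝ => Real.exp (c * y)) atTop (𝓝 ℓ) :=
    (Filter.tendsto_comap'_iff (m := fun y : ℝ => Real.exp (c * y)) (i := UpperHalfPlane.im)
      hrange).mp h
  rcases lt_trichotomy c 0 with hc | hc | hc
  · have h0 : Tendsto (fun y : ℝ => Real.exp (c * y)) atTop (𝓝 0) :=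
      Real.tendsto_exp_atBot.comp (tendsto_id.const_mul_atTop_of_neg hc)
    exact absurd (tendsto_nhds_unique h' h0) hℓ
  · subst hc
    simp only [zero_mul, Real.exp_zero] at h'
    exact tendsto_nhds_unique h' tendsto_const_nhds
  · have h0 : Tendsto (fun y : ℝ => Real.exp (c * y)) atTop atTop :=
      Real.tendsto_exp_atTop.comp (tendsto_id.const_mul_atTop hc)
    exact absurd h' (not_tendsto_nhds_of_tendsto_atTop h0 ℓ)

/-- If `P(j(τ))` never vanishes and `‖P(j(τ))‖ exp(2π E Im τ) → C > 0`, then the leading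
coefficient of `P` has absolute value `C`. -/
lemma norm_leadingCoeff_eq (p : ℂ[X]) (hp : ∀ τ : ℍ, p.eval (jInv τ) ≠ 0) (E C : ℝ) (hC : 0 < C)
    (h : Tendsto (fun τ : ℍ => ‖p.eval (jInv τ)‖ * Real.exp (2 * π * E * τ.im)) atImInfty
      (𝓝 C)) : ‖p.leadingCoeff‖ = C := by
  have hp0 : p ≠ 0 := by
    rintro rfl
    exact hp UpperHalfPlane.I (by simp)
  have hlc : ‖p.leadingCoeff‖ ≠ 0 := by
    rw [norm_ne_zero_iff]
    exact Polynomial.leadingCoeff_ne_zero.mpr hp0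
  have h1 := (tendsto_norm_eval_jInv p).div h hC.ne'
  have h2 : Tendsto (fun τ : ℍ => Real.exp ((-(2 * π * p.natDegree) - 2 * π * E) * τ.im))
      atImInfty (𝓝 (‖p.leadingCoeff‖ / C)) := by
    refine h1.congr fun τ => ?_
    have hne : ‖p.eval (jInv τ)‖ ≠ 0 := norm_ne_zero_iff.mpr (hp τ)
    simp only [Pi.div_apply]
    rw [mul_div_mul_left _ _ hne, ← Real.exp_sub]
    congr 1
    ring
  have h3 := eq_one_of_tendsto_exp _ _ (div_ne_zero hlc hC.ne') h2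
  rwa [div_eq_one_iff_eq hC.ne'] at h3

/-! ### The coset family of an eta quotient -/

/-- The conjugates `u ∘ x⁻¹` of the eta quotient, indexed by the cosets of `Γ₀(N)`. -/
def etaFam (N : ℕ) (r : ℕ → ℤ) (x : SL(2, ℤ) ⧸ Gamma0 N) (τ : ℍ) : ℂ :=
  etaQuot N r ((Quotient.out x : SL(2, ℤ))⁻¹ • τ)

lemma etaFam_one (N : ℕ) (r : ℕ → ℤ) (hr : ∑ δ ∈ N.divisors, r δ = 0) :
    etaFam N r ((1 : SL(2, ℤ)) : SL(2, ℤ) ⧸ Gamma0 N) = etaQuot N r :=
  funext fun τ => Fermat.Agent.S28.helper407.etaQuot_smul_of_mem_Gamma0 N r hr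
    ((Gamma0 N).inv_mem (out_one_mem _)) τ

lemma etaFam_ne_zero (N : ℕ) (r : ℕ → ℤ) (x : SL(2, ℤ) ⧸ Gamma0 N) (τ : ℍ) :
    etaFam N r x τ ≠ 0 :=
  Fermat.Agent.S28.helper407.etaQuot_ne_zero N r _

lemma etaFam_modGrowth (N : ℕ) (r : ℕ → ℤ) (hr : ∑ δ ∈ N.divisors, r δ = 0)
    (x : SL(2, ℤ) ⧸ Gamma0 N) : ModGrowth (etaFam N r x) :=
  ⟨Fermat.Agent.S28.helper2788.mdifferentiable_comp_smul
      (Fermat.Agent.S28.helper407.mdifferentiable_etaQuot N r) _,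
    Fermat.Agent.S28.helper407.exists_isBoundedAtImInfty_etaQuot_smul N r hr _⟩

lemma etaFam_equivariant (N : ℕ) (r : ℕ → ℤ) (hr : ∑ δ ∈ N.divisors, r δ = 0) (g : SL(2, ℤ))
    (x : SL(2, ℤ) ⧸ Gamma0 N) (τ : ℍ) : etaFam N r (g • x) (g • τ) = etaFam N r x τ :=
  coset_family_equivariant (Gamma0 N) (etaQuot N r)
    (fun _ hg τ => Fermat.Agent.S28.helper407.etaQuot_smul_of_mem_Gamma0 N r hr hg τ) g x τ

/-- For the exponents of `helper388`, the conjugates at the non-trivial cosets vanish at `i∞`. -/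
lemma etaFam_tendsto_zero {N : ℕ} (hN : N ≠ 0) {x : SL(2, ℤ) ⧸ Gamma0 N}
    (hx : x ≠ ((1 : SL(2, ℤ)) : SL(2, ℤ) ⧸ Gamma0 N)) :
    Tendsto (etaFam N (Fermat.Agent.S28.helper388.etaExp N) x) atImInfty (𝓝 0) :=
  Fermat.Agent.S28.helper407.etaQuot_etaExp_smul_tendsto_zero hN (out_not_mem _ x hx)

/-- Norm asymptotics of one conjugate. -/
lemma etaFam_norm_tendsto (N : ℕ) (r : ℕ → ℤ) (hr : ∑ δ ∈ N.divisors, r δ = 0)
    (x : SL(2, ℤ) ⧸ Gamma0 N) :
    ∃ E C : ℝ, NSmooth N C ∧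
      Tendsto (fun τ : ℍ => ‖etaFam N r x τ‖ * Real.exp (2 * π * E * τ.im)) atImInfty (𝓝 C) := by
  obtain ⟨C, A, B, -, hA, hB, hp, hC, hT⟩ :=
    Fermat.Agent.S28.helper407.etaQuot_smul_tendsto' N r hr (Quotient.out x : SL(2, ℤ))⁻¹
  refine ⟨((Fermat.Agent.S28.helper407.cuspExp N r
    (((Quotient.out x : SL(2, ℤ))⁻¹ : SL(2, ℤ)) 1 0).natAbs : ℚ) : ℝ), ‖C‖, ⟨A, B, hA, hB, hp, ?_⟩, ?_⟩
  · rw [hC]
    have hB' : (B : ℝ) ≠ 0 := by exact_mod_cast hB.ne'
    field_simp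
  · refine hT.norm.congr fun τ => ?_
    rw [norm_mul, Complex.norm_exp]
    congr 2
    simp only [Complex.neg_re, Complex.mul_re, Complex.mul_im, Complex.re_ofNat, Complex.im_ofNat,
      Complex.ofReal_re, Complex.ofReal_im, Complex.I_re, Complex.I_im, Complex.ratCast_re,
      Complex.ratCast_im, UpperHalfPlane.coe_re, UpperHalfPlane.coe_im]
    ring

lemma prod_norm_tendsto {N : ℕ} {ι : Type*} [Fintype ι] (f : ι → ℍ → ℂ)
    (h : ∀ x, ∃ E C : ℝ, NSmooth N C ∧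
      Tendsto (fun τ : ℍ => ‖f x τ‖ * Real.exp (2 * π * E * τ.im)) atImInfty (𝓝 C)) :
    ∃ E C : ℝ, NSmooth N C ∧
      Tendsto (fun τ : ℍ => ‖∏ x, f x τ‖ * Real.exp (2 * π * E * τ.im)) atImInfty (𝓝 C) := by
  choose E C hC hT using h
  refine ⟨∑ x, E x, ∏ x, C x, NSmooth.prod _ _ (fun x _ => hC x), ?_⟩
  have h1 := tendsto_finsetProd Finset.univ (fun x _ => hT x)
  refine h1.congr fun τ => ?_
  rw [Finset.prod_mul_distrib, norm_prod, ← Real.exp_sum]
  congr 2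
  rw [Finset.mul_sum, Finset.sum_mul]

/-- **Clauses (L1) and (L2) at function level.** -/
theorem exists_chi_etaFam (N : ℕ) [Fintype (SL(2, ℤ) ⧸ Gamma0 N)] (r : ℕ → ℤ)
    (hr : ∑ δ ∈ N.divisors, r δ = 0) :
    ∃ χ : Polynomial (Polynomial ℂ), χ.Monic ∧
      χ.natDegree = Fintype.card (SL(2, ℤ) ⧸ Gamma0 N) ∧
      (∀ τ : ℍ, χ.map (Polynomial.evalRingHom (jInv τ)) =
        ∏ x : SL(2, ℤ) ⧸ Gamma0 N, (X - C (etaFam N r x τ))) ∧
      ∃ a b : ℕ, 0 < a ∧ 0 < b ∧ (∀ p : ℕ, p.Prime → p ∣ a * b → p ∣ N) ∧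
        ‖(χ.coeff 0).leadingCoeff‖ * (b : ℝ) = (a : ℝ) := by
  classical
  have hlift := prodPoly_mem_lifts (etaFam N r) (etaFam_modGrowth N r hr)
    (etaFam_equivariant N r hr)
  obtain ⟨χ, hχmap, hχdeg, hχm⟩ :=
    Polynomial.lifts_and_natDegree_eq_and_monic hlift (monic_prodPoly _)
  have hχ : ∀ τ : ℍ, χ.map (Polynomial.evalRingHom (jInv τ)) =
      ∏ x : SL(2, ℤ) ⧸ Gamma0 N, (X - C (etaFam N r x τ)) := by
    intro τ
    rw [← prodPoly_map_eval, ← hχmap, Polynomial.map_map]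
    congr 1
    ext p
    · simp [jHom]
    · simp [jHom_apply]
  refine ⟨χ, hχm, by rw [hχdeg, natDegree_prodPoly], hχ, ?_⟩
  -- the norm clause
  have hev : ∀ τ : ℍ, (χ.coeff 0).eval (jInv τ)
      = ∏ x : SL(2, ℤ) ⧸ Gamma0 N, (-etaFam N r x τ) := by
    intro τ
    have h1 := congrArg (fun q : ℂ[X] => q.coeff 0) (hχ τ)
    simp only [Polynomial.coeff_map, Polynomial.coe_evalRingHom] at h1
    rw [h1, Polynomial.coeff_zero_eq_eval_zero, Polynomial.eval_prod]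
    refine Finset.prod_congr rfl fun x _ => ?_
    simp
  obtain ⟨E, Cc, hC, hT⟩ := prod_norm_tendsto (N := N) (etaFam N r) (etaFam_norm_tendsto N r hr)
  have hnorm : ∀ τ : ℍ, ‖(χ.coeff 0).eval (jInv τ)‖
      = ‖∏ x : SL(2, ℤ) ⧸ Gamma0 N, etaFam N r x τ‖ := by
    intro τ
    rw [hev τ, norm_prod, norm_prod]
    refine Finset.prod_congr rfl fun x _ => ?_
    rw [norm_neg]
  have hlc := norm_leadingCoeff_eq (χ.coeff 0) (fun τ => by
      rw [hev τ]
      exact Finset.prod_ne_zero_iff.mpr fun x _ => neg_ne_zero.mpr (etaFam_ne_zero N r x τ))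
    E Cc hC.pos (hT.congr fun τ => by rw [hnorm τ])
  obtain ⟨a, b, ha, hb, hp, hab⟩ := hC
  exact ⟨a, b, ha, hb, hp, by rw [hlc]; exact hab⟩

end Fermat.Agent.S28.helper1288

end
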