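import Mathlib
import Fermat.Agent.Lib.helper843_JPolynomial
import Fermat.Agent.S28.helper2788_CosetPoly
import Fermat.Agent.S28.helper407_EtaAsymp
import Fermat.Agent.S28.helper1178_DeltaConj
import Fermat.Agent.S24.helper315_CuspExp
import Fermat.Agent.S24.helper1644_AnalyticJ
import Fermat.Agent.S28.helper695_LightSpec

/-!
# S28 (Igusa), light modular input: the Lagrange clause (L3)

For a subgroup `Γ ≤ SL(2,ℤ)` of finite index and two holomorphic `Γ`-invariant functions `f`, `g`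
all of whose `SL(2,ℤ)`-translates have moderate growth at `i∞`, the Lagrange interpolation
polynomial `∑_x g_x ∏_{y ≠ x} (X - f_y)` (`x, y` cosets) has coefficients which are polynomials
in `j`; evaluated at `X = f` it equals `g · χ'(f)` where `χ = ∏_x (X - f_x)`.

Specialised to `f =` an eta quotient and `g = j(dτ)`, `d ∣ N`, and transported through the
`q`-expansion dictionary at `i∞`, this is clause (L3) of `helper695.Stmt_ModDataLight`.
-/

set_option autoImplicit false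

noncomputable section

namespace Fermat.Agent.S28.helper388

open UpperHalfPlane ModularForm MatrixGroups Filter Polynomial CongruenceSubgroup
open Fermat.Agent.Lib.helper843 (jInv)
open Fermat.Agent.S28.helper2788 (ModGrowth modGrowthSubalgebra compHom)
open scoped Manifold

local notation "Δ" => ModularForm.discriminant

/-! ### Generic Lagrange interpolation for an `SL(2,ℤ)`-permuted family -/

/-- **Lagrange interpolation polynomial of a permuted family.** For two families `F`, `G` of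
holomorphic functions of moderate growth, simultaneously permuted by `SL(2,ℤ)`, the coefficients
of `∑ x, G x · ∏_{y ≠ x} (X - F y)` are polynomials in `jInv`. -/
theorem exists_lagrange_of_permuted_family {S : Type*} [Fintype S] [DecidableEq S]
    [MulAction SL(2, ℤ) S] (F G : S → ℍ → ℂ) (hF : ∀ x, ModGrowth (F x))
    (hG : ∀ x, ModGrowth (G x))
    (hFe : ∀ (g : SL(2, ℤ)) (x : S) (τ : ℍ), F (g • x) (g • τ) = F x τ)
    (hGe : ∀ (g : SL(2, ℤ)) (x : S) (τ : ℍ), G (g • x) (g • τ) = G x τ) :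
    ∃ R : ℕ → Polynomial ℂ, ∀ (τ : ℍ) (k : ℕ),
      (∑ x : S, C (G x τ) * ∏ y ∈ Finset.univ.erase x, (X - C (F y τ))).coeff k =
        (R k).eval (jInv τ) := by
  classical
  set Qf : Polynomial (ℍ → ℂ) :=
    ∑ x : S, C (G x) * ∏ y ∈ Finset.univ.erase x, (X - C (F y)) with hQf
  have hcoeff_mem : ∀ k, ModGrowth (Qf.coeff k) := by
    intro k
    let Ft : S → modGrowthSubalgebra := fun x => ⟨F x, hF x⟩
    let Gt : S → modGrowthSubalgebra := fun x => ⟨G x, hG x⟩
    have hmap : Qf = (∑ x : S, C (Gt x) * ∏ y ∈ Finset.univ.erase x, (X - C (Ft y))).map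
        (modGrowthSubalgebra.val : _ →+* (ℍ → ℂ)) := by
      rw [hQf, Polynomial.map_sum]
      refine Finset.sum_congr rfl fun x _ => ?_
      rw [Polynomial.map_mul, Polynomial.map_prod]
      congr 1
      · simp [Gt]
      · refine Finset.prod_congr rfl fun y _ => ?_
        simp [Ft]
    rw [hmap, Polynomial.coeff_map]
    exact ((∑ x : S, C (Gt x) * ∏ y ∈ Finset.univ.erase x, (X - C (Ft y))).coeff k).2
  have heval : ∀ τ : ℍ, Qf.map (Pi.evalRingHom (fun _ : ℍ => ℂ) τ) =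
      ∑ x : S, C (G x τ) * ∏ y ∈ Finset.univ.erase x, (X - C (F y τ)) := by
    intro τ
    rw [hQf, Polynomial.map_sum]
    refine Finset.sum_congr rfl fun x _ => ?_
    rw [Polynomial.map_mul, Polynomial.map_prod]
    congr 1
    · simp
    · refine Finset.prod_congr rfl fun y _ => ?_
      simp
  have hinv : ∀ (g : SL(2, ℤ)) (k : ℕ) (τ : ℍ), Qf.coeff k (g • τ) = Qf.coeff k τ := by
    intro g k τ
    have hFg : ∀ x : S, compHom (fun τ => g • τ) (F x) = F (g⁻¹ • x) := by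
      intro x
      funext τ
      have := hFe g (g⁻¹ • x) τ
      rw [smul_inv_smul] at this
      simpa using this
    have hGg : ∀ x : S, compHom (fun τ => g • τ) (G x) = G (g⁻¹ • x) := by
      intro x
      funext τ
      have := hGe g (g⁻¹ • x) τ
      rw [smul_inv_smul] at this
      simpa using this
    have h1 : Qf.map (compHom (fun τ => g • τ)) = Qf := by
      rw [hQf, Polynomial.map_sum]
      have hterm : ∀ x : S,
          (C (G x) * ∏ y ∈ Finset.univ.erase x, (X - C (F y))).map (compHom (fun τ => g • τ)) =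
            C (G (g⁻¹ • x)) * ∏ y ∈ Finset.univ.erase (g⁻¹ • x), (X - C (F y)) := by
        intro x
        rw [Polynomial.map_mul, Polynomial.map_prod, Polynomial.map_C, hGg]
        congr 1
        refine Finset.prod_equiv (MulAction.toPerm g⁻¹) ?_ ?_
        · intro y
          simp only [Finset.mem_erase, Finset.mem_univ, and_true, MulAction.toPerm_apply, ne_eq]
          exact (smul_left_cancel_iff g⁻¹).not.symm
        · intro y _
          simp only [Polynomial.map_sub, Polynomial.map_X, Polynomial.map_C, hFg,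
            MulAction.toPerm_apply]
      simp_rw [hterm]
      exact Fintype.sum_equiv (MulAction.toPerm g⁻¹) _ _ (fun x => rfl)
    have h2 := congrArg (fun p => p.coeff k τ) h1
    simpa [Polynomial.coeff_map] using h2
  have hex : ∀ k, ∃ P : Polynomial ℂ, ∀ τ, Qf.coeff k τ = P.eval (jInv τ) := by
    intro k
    obtain ⟨hmd, m, hm⟩ := hcoeff_mem k
    obtain ⟨P, -, hP⟩ := Fermat.Agent.Lib.helper843.exists_polynomial_jInv hmd
      (fun γ z => hinv γ k z) m hm
    exact ⟨P, hP⟩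
  choose P hP using hex
  refine ⟨P, fun τ k => ?_⟩
  rw [← heval τ, Polynomial.coeff_map, ← hP k τ]
  rfl

/-- **Lagrange clause, function level.** For a finite index subgroup `Γ ≤ SL(2,ℤ)` and two
holomorphic `Γ`-invariant functions `f`, `g` all of whose translates have moderate growth, there
are polynomials `R k` with `∑_k R_k(j) f^k = g · χ'(f)`, where `χ = ∏_x (X - f ∘ x⁻¹)` is the
coset polynomial of `f`. -/
theorem exists_lagrange_of_invariant (Γ : Subgroup SL(2, ℤ)) [Fintype (SL(2, ℤ) ⧸ Γ)]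
    (f g : ℍ → ℂ) (hf : MDiff f) (hg : MDiff g)
    (hfinv : ∀ γ ∈ Γ, ∀ τ : ℍ, f (γ • τ) = f τ) (hginv : ∀ γ ∈ Γ, ∀ τ : ℍ, g (γ • τ) = g τ)
    (hfgr : ∀ γ : SL(2, ℤ), ∃ m : ℕ, IsBoundedAtImInfty (fun τ => Δ τ ^ m * f (γ • τ)))
    (hggr : ∀ γ : SL(2, ℤ), ∃ m : ℕ, IsBoundedAtImInfty (fun τ => Δ τ ^ m * g (γ • τ))) :
    ∃ R : ℕ → Polynomial ℂ, ∀ τ : ℍ,
      ∑ k ∈ Finset.range (Fintype.card (SL(2, ℤ) ⧸ Γ)), (R k).eval (jInv τ) * f τ ^ k =
        g τ * (derivative (∏ x : SL(2, ℤ) ⧸ Γ,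
          (X - C (f ((Quotient.out x : SL(2, ℤ))⁻¹ • τ))))).eval (f τ) := by
  classical
  set F : SL(2, ℤ) ⧸ Γ → ℍ → ℂ := fun x τ => f ((Quotient.out x : SL(2, ℤ))⁻¹ • τ) with hFdef
  set G : SL(2, ℤ) ⧸ Γ → ℍ → ℂ := fun x τ => g ((Quotient.out x : SL(2, ℤ))⁻¹ • τ) with hGdef
  have hequiv : ∀ (φ : ℍ → ℂ), (∀ γ ∈ Γ, ∀ τ : ℍ, φ (γ • τ) = φ τ) →
      ∀ (a : SL(2, ℤ)) (x : SL(2, ℤ) ⧸ Γ) (τ : ℍ),
        φ ((Quotient.out (a • x) : SL(2, ℤ))⁻¹ • a • τ) =
          φ ((Quotient.out x : SL(2, ℤ))⁻¹ • τ) := by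
    intro φ hφ a x τ
    obtain ⟨h, hh⟩ := QuotientGroup.mk_out_eq_mul Γ (a * Quotient.out x)
    have hx : a • x = ((a * Quotient.out x : SL(2, ℤ)) : SL(2, ℤ) ⧸ Γ) := by
      conv_lhs => rw [← QuotientGroup.out_eq' x]
      rfl
    rw [hx, hh]
    have e : (a * Quotient.out x * (h : SL(2, ℤ)))⁻¹ • a • τ
        = ((h : SL(2, ℤ))⁻¹) • ((Quotient.out x : SL(2, ℤ))⁻¹ • τ) := by
      rw [mul_inv_rev, mul_inv_rev, mul_smul, mul_smul, inv_smul_smul]
    rw [e]
    exact hφ _ (Γ.inv_mem h.2) _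
  obtain ⟨R, hR⟩ := exists_lagrange_of_permuted_family F G
    (fun x => ⟨Fermat.Agent.S28.helper2788.mdifferentiable_comp_smul hf _, hfgr _⟩)
    (fun x => ⟨Fermat.Agent.S28.helper2788.mdifferentiable_comp_smul hg _, hggr _⟩)
    (hequiv f hfinv) (hequiv g hginv)
  refine ⟨R, fun τ => ?_⟩
  -- the identity coset
  set x₀ : SL(2, ℤ) ⧸ Γ := ((1 : SL(2, ℤ)) : SL(2, ℤ) ⧸ Γ) with hx₀
  have hout : (Quotient.out x₀ : SL(2, ℤ)) ∈ Γ := by
    obtain ⟨h, hh⟩ := QuotientGroup.mk_out_eq_mul Γ (1 : SL(2, ℤ))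
    rw [hx₀, hh, one_mul]
    exact h.2
  have hF₀ : F x₀ τ = f τ := hfinv _ (Γ.inv_mem hout) τ
  have hG₀ : G x₀ τ = g τ := hginv _ (Γ.inv_mem hout) τ
  -- the interpolation polynomial at `τ`
  set p : Polynomial ℂ :=
    ∑ x : SL(2, ℤ) ⧸ Γ, C (G x τ) * ∏ y ∈ Finset.univ.erase x, (X - C (F y τ)) with hp
  have hcard : 0 < Fintype.card (SL(2, ℤ) ⧸ Γ) := Fintype.card_pos_iff.mpr ⟨x₀⟩
  have hdeg : p.natDegree < Fintype.card (SL(2, ℤ) ⧸ Γ) := by
    have h1 : p.natDegree ≤ Fintype.card (SL(2, ℤ) ⧸ Γ) - 1 := by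
      refine Polynomial.natDegree_sum_le_of_forall_le _ _ fun x _ => ?_
      refine (Polynomial.natDegree_C_mul_le _ _).trans ?_
      rw [Polynomial.natDegree_prod_of_monic _ _ fun y _ => Polynomial.monic_X_sub_C _]
      simp [Finset.card_erase_of_mem]
    omega
  have hvanish : ∀ x : SL(2, ℤ) ⧸ Γ, x ≠ x₀ →
      ∏ y ∈ Finset.univ.erase x, (f τ - F y τ) = 0 := by
    intro x hx
    refine Finset.prod_eq_zero (i := x₀) ?_ ?_
    · exact Finset.mem_erase.mpr ⟨fun h => hx h.symm, Finset.mem_univ _⟩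
    · rw [hF₀, sub_self]
  have hpeval : p.eval (f τ) = g τ * ∏ y ∈ Finset.univ.erase x₀, (f τ - F y τ) := by
    rw [hp, Polynomial.eval_finsetSum]
    rw [Finset.sum_eq_single x₀]
    · rw [Polynomial.eval_mul, Polynomial.eval_C, Polynomial.eval_prod, hG₀]
      simp
    · intro x _ hx
      rw [Polynomial.eval_mul, Polynomial.eval_prod]
      have := hvanish x hx
      simp only [Polynomial.eval_sub, Polynomial.eval_X, Polynomial.eval_C]
      rw [this, mul_zero]
    · intro h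
      exact absurd (Finset.mem_univ _) h
  have hderiv : (derivative (∏ x : SL(2, ℤ) ⧸ Γ, (X - C (F x τ)))).eval (f τ) =
      ∏ y ∈ Finset.univ.erase x₀, (f τ - F y τ) := by
    rw [Polynomial.derivative_prod_finset, Polynomial.eval_finsetSum]
    rw [Finset.sum_eq_single x₀]
    · simp [Polynomial.eval_prod]
    · intro x _ hx
      have := hvanish x hx
      simp only [Polynomial.derivative_X_sub_C, mul_one, Polynomial.eval_prod,
        Polynomial.eval_sub, Polynomial.eval_X, Polynomial.eval_C]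
      exact this
    · intro h
      exact absurd (Finset.mem_univ _) h
  calc ∑ k ∈ Finset.range (Fintype.card (SL(2, ℤ) ⧸ Γ)), (R k).eval (jInv τ) * f τ ^ k
      = ∑ k ∈ Finset.range (Fintype.card (SL(2, ℤ) ⧸ Γ)), p.coeff k * f τ ^ k := by
        refine Finset.sum_congr rfl fun k _ => ?_
        rw [hp, hR τ k]
    _ = p.eval (f τ) := (Polynomial.eval_eq_sum_range' hdeg (f τ)).symm
    _ = g τ * (derivative (∏ x : SL(2, ℤ) ⧸ Γ, (X - C (F x τ)))).eval (f τ) := by
        rw [hpeval, hderiv]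

/-! ### The functions `j(dτ)` and the eta quotients: invariance, growth -/

open Fermat.Agent.S28.helper407 (etaQuot)
open Fermat.Agent.S24.helper315 (HPeriodic IsCuspHol IsCuspMer cuspMer cuspExp cuspExpFun qH)
open ModularCurve (qExpand jqModC jNum jNumQ)

/-- The function `τ ↦ j(dτ)`. -/
def jScale (d : ℕ) (τ : ℍ) : ℂ := jInv (ofComplex ((d : ℂ) * τ))

theorem coe_ofComplex_mul {d : ℕ} (hd : 0 < d) (τ : ℍ) :
    ((ofComplex ((d : ℂ) * τ) : ℍ) : ℂ) = (d : ℂ) * τ := by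
  have him : 0 < ((d : ℂ) * (τ : ℂ)).im := by
    have h1 : ((d : ℂ) * (τ : ℂ)).im = (d : ℝ) * τ.im := by simp
    rw [h1]
    exact mul_pos (by exact_mod_cast hd) τ.im_pos
  rw [ofComplex_apply_of_im_pos him]

theorem mdifferentiable_jScale {d : ℕ} (hd : 0 < d) : MDiff (jScale d) :=
  Fermat.Agent.S28.helper1178.mdifferentiable_comp_mul
    Fermat.Agent.Lib.helper843.mdifferentiable_jInv d hd

theorem intCast_dvd_of_mem_Gamma0 {N d : ℕ} (hd : d ∣ N) {γ : SL(2, ℤ)} (hγ : γ ∈ Gamma0 N) :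
    (d : ℤ) ∣ γ 1 0 := by
  rw [Gamma0_mem] at hγ
  exact (Int.natCast_dvd_natCast.mpr hd).trans ((ZMod.intCast_zmod_eq_zero_iff_dvd _ _).mp hγ)

theorem jScale_smul_of_mem_Gamma0 {N d : ℕ} (hd0 : 0 < d) (hd : d ∣ N) {γ : SL(2, ℤ)}
    (hγ : γ ∈ Gamma0 N) (τ : ℍ) : jScale d (γ • τ) = jScale d τ :=
  Fermat.Agent.S28.helper1178.invariant_comp_mul_smul_of_dvd jInv
    Fermat.Agent.Lib.helper843.jInv_smul d hd0 γ (intCast_dvd_of_mem_Gamma0 hd hγ) τ

theorem isBoundedAtImInfty_discriminant_mul_jInv :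
    IsBoundedAtImInfty (fun τ : ℍ => Δ τ ^ 1 * jInv τ) := by
  have h := Fermat.Agent.Lib.helper843.tendsto_discriminant_mul_jInv
  have h' : Tendsto (fun τ : ℍ => Δ τ ^ 1 * jInv τ) atImInfty (nhds 1) := by
    refine h.congr fun τ => ?_
    rw [pow_one]
  exact h'.isBigO_one ℝ

theorem exists_isBoundedAtImInfty_jScale_smul {d : ℕ} (hd : 0 < d) (γ : SL(2, ℤ)) :
    ∃ m : ℕ, IsBoundedAtImInfty (fun τ : ℍ => Δ τ ^ m * jScale d (γ • τ)) :=
  ⟨1 * d, Fermat.Agent.S28.helper1178.isBoundedAtImInfty_invariant_comp_mul_smul jInv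
    Fermat.Agent.Lib.helper843.jInv_smul 1 isBoundedAtImInfty_discriminant_mul_jInv d hd γ⟩

theorem T_mem_Gamma0 (N : ℕ) : ModularGroup.T ∈ Gamma0 N := by
  rw [Gamma0_mem]
  simp [ModularGroup.T]

/-- **(L3), function level**: Lagrange interpolation of `j(dτ)` along the conjugates of an eta
quotient `u`: `∑_k R_k(j) u^k = j(dτ) · χ'(u)`. -/
theorem exists_lagrange_etaQuot (N : ℕ) [Fintype (SL(2, ℤ) ⧸ Gamma0 N)] (r : ℕ → ℤ)
    (hr : ∑ δ ∈ N.divisors, r δ = 0) (d : ℕ) (hd0 : 0 < d) (hd : d ∣ N) :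
    ∃ R : ℕ → Polynomial ℂ, ∀ τ : ℍ,
      ∑ k ∈ Finset.range (Fintype.card (SL(2, ℤ) ⧸ Gamma0 N)),
          (R k).eval (jInv τ) * etaQuot N r τ ^ k =
        jScale d τ * (derivative (∏ x : SL(2, ℤ) ⧸ Gamma0 N,
          (X - C (etaQuot N r ((Quotient.out x : SL(2, ℤ))⁻¹ • τ))))).eval (etaQuot N r τ) :=
  exists_lagrange_of_invariant (Gamma0 N) (etaQuot N r) (jScale d)
    (Fermat.Agent.S28.helper407.mdifferentiable_etaQuot N r) (mdifferentiable_jScale hd0)
    (fun _ hγ τ => Fermat.Agent.S28.helper407.etaQuot_smul_of_mem_Gamma0 N r hr hγ τ)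
    (fun _ hγ τ => jScale_smul_of_mem_Gamma0 hd0 hd hγ τ)
    (fun γ => Fermat.Agent.S28.helper407.exists_isBoundedAtImInfty_etaQuot_smul N r hr γ)
    (fun γ => exists_isBoundedAtImInfty_jScale_smul hd0 γ)

/-! ### The `q`-expansion dictionary at `i∞` (period `1`) for `j`, `j(dτ)` and eta quotients -/

theorem hPeriodic_of_T_invariant {f : ℍ → ℂ} (hf : ∀ τ : ℍ, f (ModularGroup.T • τ) = f τ) :
    HPeriodic ((1 : ℕ) : ℝ) f := by
  intro τ
  rw [Nat.cast_one, ← UpperHalfPlane.modular_T_smul]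
  exact hf τ

theorem hPeriodic_jInv : HPeriodic ((1 : ℕ) : ℝ) jInv :=
  hPeriodic_of_T_invariant fun τ => Fermat.Agent.Lib.helper843.jInv_smul _ τ

theorem hPeriodic_jScale {d : ℕ} (hd : 0 < d) : HPeriodic ((1 : ℕ) : ℝ) (jScale d) :=
  hPeriodic_of_T_invariant fun τ =>
    jScale_smul_of_mem_Gamma0 hd (dvd_refl d) (T_mem_Gamma0 d) τ

theorem hPeriodic_etaQuot (N : ℕ) (r : ℕ → ℤ) (hr : ∑ δ ∈ N.divisors, r δ = 0) :
    HPeriodic ((1 : ℕ) : ℝ) (etaQuot N r) :=
  hPeriodic_of_T_invariant fun τ =>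
    Fermat.Agent.S28.helper407.etaQuot_smul_of_mem_Gamma0 N r hr (T_mem_Gamma0 N) τ

theorem qH_one_eq (τ : ℍ) : qH ((1 : ℕ) : ℝ) τ = Function.Periodic.qParam 1 (τ : ℂ) := by
  rw [Fermat.Agent.S24.helper315.qH_apply, Nat.cast_one]

/-- The coefficients of `q · j`. -/
def jNumC : PowerSeries ℂ := jNum.map (Int.castRingHom ℂ)

theorem coeff_jNumC (n : ℕ) : PowerSeries.coeff n jNumC = ((PowerSeries.coeff n jNumQ : ℚ) : ℂ) := by
  simp [jNumC, jNumQ]

theorem jqModC_eq : jqModC ℂ = HahnSeries.single (-1 : ℤ) (1 : ℂ) * HahnSeries.ofPowerSeries ℤ ℂ jNumC :=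
  rfl

theorem hasSum_jInv (τ : ℍ) :
    HasSum (fun n : ℕ => PowerSeries.coeff n jNumC * qH ((1 : ℕ) : ℝ) τ ^ n)
      (qH ((1 : ℕ) : ℝ) τ ^ 1 * jInv τ) := by
  have h : HasSum (fun n : ℕ => ((PowerSeries.coeff n jNumQ : ℚ) : ℂ) *
      Function.Periodic.qParam 1 (τ : ℂ) ^ n) (Function.Periodic.qParam 1 (τ : ℂ) * jInv τ) :=
    Fermat.Agent.S24.helper1644.hasSum_jNumQ τ
  rw [qH_one_eq, pow_one]
  simpa only [coeff_jNumC] using h

theorem isCuspMer_jInv : IsCuspMer ((1 : ℕ) : ℝ) jInv :=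
  ⟨1, (Fermat.Agent.S24.helper315.cuspExpFun_eq_of_hasSum
    (Fermat.Agent.S24.helper315.natCast_pos' 1)
    Fermat.Agent.Lib.helper843.mdifferentiable_jInv hPeriodic_jInv hasSum_jInv).1⟩

/-- The `q`-expansion of the analytic `j` is the formal `j`. -/
theorem cuspExpFun_jInv : cuspExpFun ((1 : ℕ) : ℝ) jInv = jqModC ℂ := by
  rw [(Fermat.Agent.S24.helper315.cuspExpFun_eq_of_hasSum
    (Fermat.Agent.S24.helper315.natCast_pos' 1)
    Fermat.Agent.Lib.helper843.mdifferentiable_jInv hPeriodic_jInv hasSum_jInv).2, jqModC_eq]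
  congr 2
  ext n
  simp

/-- `qExpand` (substitution `q ↦ q^d`) of a power series. -/
theorem qExpand_ofPowerSeries {R : Type*} [CommRing R] (d : ℕ) [NeZero d] (P : PowerSeries R) :
    qExpand R d (HahnSeries.ofPowerSeries ℤ R P) =
      HahnSeries.ofPowerSeries ℤ R
        (PowerSeries.mk fun n => if d ∣ n then PowerSeries.coeff (n / d) P else 0) := by
  have hd0 : 0 < d := Nat.pos_of_ne_zero (NeZero.ne d)
  ext k
  by_cases hk : 0 ≤ k
  · obtain ⟨n, rfl⟩ := Int.eq_ofNat_of_zero_le hk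
    rw [HahnSeries.ofPowerSeries_apply_coeff, PowerSeries.coeff_mk]
    by_cases hdn : d ∣ n
    · obtain ⟨m, rfl⟩ := hdn
      rw [if_pos (dvd_mul_right d m), Nat.mul_div_cancel_left m hd0]
      have e : ((d * m : ℕ) : ℤ) = (d : ℤ) * (m : ℤ) := by push_cast; ring
      rw [e, ModularCurve.qExpand_coeff_mul, HahnSeries.ofPowerSeries_apply_coeff]
    · rw [if_neg hdn]
      exact ModularCurve.qExpand_coeff_of_not_dvd d _ (fun h => hdn (Int.natCast_dvd_natCast.mp h))
  · have hk' : k < 0 := not_le.mp hk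
    rw [ModularCurve.ofPowerSeries_coeff_of_neg _ hk']
    by_cases hdk : (d : ℤ) ∣ k
    · obtain ⟨m, rfl⟩ := hdk
      rw [ModularCurve.qExpand_coeff_mul]
      refine ModularCurve.ofPowerSeries_coeff_of_neg _ ?_
      have hdz : (0 : ℤ) < (d : ℤ) := by exact_mod_cast hd0
      by_contra hm
      have : 0 ≤ (d : ℤ) * m := mul_nonneg hdz.le (not_lt.mp hm)
      omega
    · exact ModularCurve.qExpand_coeff_of_not_dvd d _ hdk

theorem qH_one_ofComplex_mul {d : ℕ} (hd : 0 < d) (τ : ℍ) :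
    qH ((1 : ℕ) : ℝ) (ofComplex ((d : ℂ) * τ)) = qH ((1 : ℕ) : ℝ) τ ^ d := by
  rw [qH_one_eq, qH_one_eq, coe_ofComplex_mul hd, Function.Periodic.qParam,
    Function.Periodic.qParam, ← Complex.exp_nat_mul]
  congr 1
  push_cast
  ring

theorem hasSum_jScale {d : ℕ} (hd : 0 < d) (τ : ℍ) :
    HasSum (fun n : ℕ => (if d ∣ n then PowerSeries.coeff (n / d) jNumC else 0) *
      qH ((1 : ℕ) : ℝ) τ ^ n) (qH ((1 : ℕ) : ℝ) τ ^ d * jScale d τ) := by
  have h1 := hasSum_jInv (ofComplex ((d : ℂ) * τ))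
  rw [qH_one_ofComplex_mul hd, pow_one] at h1
  have hinj : Function.Injective (fun n : ℕ => d * n) := fun a b h =>
    Nat.eq_of_mul_eq_mul_left hd h
  refine (Function.Injective.hasSum_iff hinj ?_).mp ?_
  · intro x hx
    have hx' : ¬ d ∣ x := fun ⟨m, hm⟩ => hx ⟨m, hm.symm⟩
    simp [hx']
  · have e : ((fun n : ℕ => (if d ∣ n then PowerSeries.coeff (n / d) jNumC else 0) *
        qH ((1 : ℕ) : ℝ) τ ^ n) ∘ fun n : ℕ => d * n)
        = fun n : ℕ => PowerSeries.coeff n jNumC * (qH ((1 : ℕ) : ℝ) τ ^ d) ^ n := by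
      funext n
      simp only [Function.comp_apply, dvd_mul_right, if_true,
        Nat.mul_div_cancel_left n hd, pow_mul]
    rw [e]
    exact h1

theorem isCuspMer_jScale {d : ℕ} (hd : 0 < d) : IsCuspMer ((1 : ℕ) : ℝ) (jScale d) :=
  ⟨d, (Fermat.Agent.S24.helper315.cuspExpFun_eq_of_hasSum
    (Fermat.Agent.S24.helper315.natCast_pos' 1)
    (mdifferentiable_jScale hd) (hPeriodic_jScale hd) (hasSum_jScale hd)).1⟩

/-- The `q`-expansion of `j(dτ)` is the formal `j(q^d)`. -/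
theorem cuspExpFun_jScale (d : ℕ) [NeZero d] :
    cuspExpFun ((1 : ℕ) : ℝ) (jScale d) = qExpand ℂ d (jqModC ℂ) := by
  have hd : 0 < d := Nat.pos_of_ne_zero (NeZero.ne d)
  rw [(Fermat.Agent.S24.helper315.cuspExpFun_eq_of_hasSum
    (Fermat.Agent.S24.helper315.natCast_pos' 1)
    (mdifferentiable_jScale hd) (hPeriodic_jScale hd) (hasSum_jScale hd)).2, jqModC_eq, map_mul,
    ModularCurve.qExpand_single, qExpand_ofPowerSeries, mul_neg_one]

theorem tendsto_qH_div_discriminant :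
    Tendsto (fun τ : ℍ => qH ((1 : ℕ) : ℝ) τ / Δ τ) atImInfty (nhds 1) := by
  have h := (Fermat.Agent.S28.helper407.tendsto_discriminant_div_exp).inv₀ one_ne_zero
  rw [inv_one] at h
  refine h.congr fun τ => ?_
  rw [qH_one_eq, inv_div, Function.Periodic.qParam]
  congr 2
  simp

/-- A holomorphic `1`-periodic function of moderate growth (`Δ^m f` bounded at `i∞`) is
meromorphic at the cusp. -/
theorem isCuspMer_of_isBoundedAtImInfty {f : ℍ → ℂ} (hf : MDiff f)
    (hper : HPeriodic ((1 : ℕ) : ℝ) f) {m : ℕ}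
    (hbdd : IsBoundedAtImInfty (fun τ : ℍ => Δ τ ^ m * f τ)) : IsCuspMer ((1 : ℕ) : ℝ) f := by
  have hh := Fermat.Agent.S24.helper315.natCast_pos' 1
  refine ⟨m, ⟨((Fermat.Agent.S24.helper315.mdiff_qH _).pow m).mul hf,
    ((Fermat.Agent.S24.helper315.isCuspHol_qH hh).pow m).periodic.mul hper, ?_⟩⟩
  have h1 : IsBoundedAtImInfty (fun τ : ℍ => (qH ((1 : ℕ) : ℝ) τ / Δ τ) ^ m) :=
    (tendsto_qH_div_discriminant.pow m).isBigO_one ℝ
  have h2 := h1.mul hbdd
  refine h2.congr_left fun τ => ?_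
  have hΔ : Δ τ ≠ 0 := discriminant_ne_zero τ
  simp only [Pi.mul_apply, Pi.pow_apply]
  rw [div_pow]
  field_simp

theorem isCuspMer_etaQuot (N : ℕ) (r : ℕ → ℤ) (hr : ∑ δ ∈ N.divisors, r δ = 0) :
    IsCuspMer ((1 : ℕ) : ℝ) (etaQuot N r) := by
  obtain ⟨m, hm⟩ := Fermat.Agent.S28.helper407.exists_isBoundedAtImInfty_etaQuot_smul N r hr 1
  refine isCuspMer_of_isBoundedAtImInfty (Fermat.Agent.S28.helper407.mdifferentiable_etaQuot N r)
    (hPeriodic_etaQuot N r hr) (m := m) ?_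
  simpa only [one_smul] using hm

/-! ### Transfer to formal `q`-series: clause (L3) -/

/-- Constants, as elements of the ring of functions meromorphic at the cusp. -/
def constHom : ℂ →+* cuspMer 1 where
  toFun c := ⟨fun _ => c, (IsCuspHol.const _ c).isCuspMer⟩
  map_one' := rfl
  map_mul' _ _ := rfl
  map_zero' := rfl
  map_add' _ _ := rfl

theorem cuspExp_constHom (c : ℂ) : cuspExp 1 (constHom c) = HahnSeries.C c :=
  Fermat.Agent.S24.helper315.cuspExpFun_const (Fermat.Agent.S24.helper315.natCast_pos' 1) c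

/-- The analytic `j`, as an element of `cuspMer 1`. -/
def jHat : cuspMer 1 := ⟨jInv, isCuspMer_jInv⟩

/-- Evaluation of a polynomial at the analytic `j`. -/
def evalJA : Polynomial ℂ →+* cuspMer 1 := Polynomial.eval₂RingHom constHom jHat

theorem algebraMap_laurentSeries_eq_C (c : ℂ) :
    algebraMap ℂ (LaurentSeries ℂ) c = HahnSeries.C c := by
  have h1 : algebraMap ℂ (PowerSeries ℂ) c = PowerSeries.C c := by simp
  rw [HahnSeries.algebraMap_apply', h1, HahnSeries.ofPowerSeries_C]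

theorem cuspExp_comp_evalJA :
    (cuspExp 1).comp evalJA = Fermat.Agent.S28.helper695.evalJ ℂ := by
  apply Polynomial.ringHom_ext
  · intro c
    simp only [RingHom.comp_apply, evalJA, Polynomial.coe_eval₂RingHom, Polynomial.eval₂_C,
      cuspExp_constHom, AlgHom.toRingHom_eq_coe, RingHom.coe_coe, Polynomial.aeval_C,
      algebraMap_laurentSeries_eq_C]
  · simp only [RingHom.comp_apply, evalJA, Polynomial.coe_eval₂RingHom, Polynomial.eval₂_X,
      AlgHom.toRingHom_eq_coe, RingHom.coe_coe, Polynomial.aeval_X]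
    exact cuspExpFun_jInv

/-- Evaluation at a point of the upper half plane. -/
def evalAt (τ : ℍ) : cuspMer 1 →+* ℂ :=
  (Pi.evalRingHom (fun _ : ℍ => ℂ) τ).comp (cuspMer 1).subtype

theorem evalAt_apply (τ : ℍ) (a : cuspMer 1) : evalAt τ a = a.1 τ := rfl

theorem evalAt_comp_evalJA (τ : ℍ) :
    (evalAt τ).comp evalJA = Polynomial.evalRingHom (jInv τ) := by
  apply Polynomial.ringHom_ext
  · intro c
    simp only [RingHom.comp_apply, evalJA, Polynomial.coe_eval₂RingHom, Polynomial.eval₂_C,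
      Polynomial.coe_evalRingHom, Polynomial.eval_C]
    rfl
  · simp only [RingHom.comp_apply, evalJA, Polynomial.coe_eval₂RingHom, Polynomial.eval₂_X,
      Polynomial.coe_evalRingHom, Polynomial.eval_X]
    rfl

/-- **Clause (L3) of `helper695.Stmt_ModDataLight`** for an eta quotient `u = etaQuot N r`
(`∑ r = 0`) and any `χ` specialising to the coset polynomial of `u`, stated with the `q`-expansion
`cuspExpFun 1 u` of `u` in place of `castR ℂ u`. -/
theorem lagrange_clause (N : ℕ) [Fintype (SL(2, ℤ) ⧸ Gamma0 N)] (r : ℕ → ℤ)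
    (hr : ∑ δ ∈ N.divisors, r δ = 0) (χ : Polynomial (Polynomial ℂ))
    (hχ : ∀ τ : ℍ, χ.map (Polynomial.evalRingHom (jInv τ)) =
      ∏ x : SL(2, ℤ) ⧸ Gamma0 N, (X - C (etaQuot N r ((Quotient.out x : SL(2, ℤ))⁻¹ • τ))))
    (d : ℕ) [NeZero d] (hd : d ∣ N) :
    ∃ G : Polynomial (Polynomial ℂ),
      G.eval₂ (Fermat.Agent.S28.helper695.evalJ ℂ) (cuspExpFun ((1 : ℕ) : ℝ) (etaQuot N r)) =
        qExpand ℂ d (jqModC ℂ) *
          (Polynomial.derivative χ).eval₂ (Fermat.Agent.S28.helper695.evalJ ℂ)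
            (cuspExpFun ((1 : ℕ) : ℝ) (etaQuot N r)) := by
  have hd0 : 0 < d := Nat.pos_of_ne_zero (NeZero.ne d)
  obtain ⟨R, hR⟩ := exists_lagrange_etaQuot N r hr d hd0 hd
  set G : Polynomial (Polynomial ℂ) :=
    ∑ k ∈ Finset.range (Fintype.card (SL(2, ℤ) ⧸ Gamma0 N)), Polynomial.monomial k (R k) with hG
  set uHat : cuspMer 1 := ⟨etaQuot N r, isCuspMer_etaQuot N r hr⟩ with huHat
  set jdHat : cuspMer 1 := ⟨jScale d, isCuspMer_jScale hd0⟩ with hjdHat
  have key : G.eval₂ evalJA uHat = jdHat * (Polynomial.derivative χ).eval₂ evalJA uHat := by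
    apply Subtype.ext
    funext τ
    have hL : (G.eval₂ evalJA uHat : cuspMer 1).1 τ =
        ∑ k ∈ Finset.range (Fintype.card (SL(2, ℤ) ⧸ Gamma0 N)),
          (R k).eval (jInv τ) * etaQuot N r τ ^ k := by
      rw [← evalAt_apply, Polynomial.hom_eval₂, evalAt_comp_evalJA, hG,
        Polynomial.eval₂_finsetSum]
      refine Finset.sum_congr rfl fun k _ => ?_
      rw [Polynomial.eval₂_monomial]
      rfl
    have hRr : (jdHat * (Polynomial.derivative χ).eval₂ evalJA uHat : cuspMer 1).1 τ =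
        jScale d τ * (derivative (∏ x : SL(2, ℤ) ⧸ Gamma0 N,
          (X - C (etaQuot N r ((Quotient.out x : SL(2, ℤ))⁻¹ • τ))))).eval (etaQuot N r τ) := by
      rw [← evalAt_apply, map_mul, Polynomial.hom_eval₂, evalAt_comp_evalJA, ← hχ τ,
        Polynomial.derivative_map, Polynomial.eval_map]
      rfl
    rw [hL, hRr]
    exact hR τ
  refine ⟨G, ?_⟩
  have h := congrArg (cuspExp 1) key
  rw [map_mul, Polynomial.hom_eval₂, Polynomial.hom_eval₂, cuspExp_comp_evalJA] at h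
  have hu : cuspExp 1 uHat = cuspExpFun ((1 : ℕ) : ℝ) (etaQuot N r) := rfl
  have hj : cuspExp 1 jdHat = qExpand ℂ d (jqModC ℂ) := cuspExpFun_jScale d
  rw [hu, hj] at h
  exact h

end Fermat.Agent.S28.helper388

end
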