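import Fermat.Prelude.Def_ModularCurve_X0ModL
import Fermat.Agent.S28.helper1594_EtaCusp
import Fermat.Agent.S24.helper315_CuspJ

/-!
# S28, route E (light): the eta quotient in the period-one cusp dictionary of S24/helper315

Adapter between

* `helper1594.etaQuot_infty_expansion` / `exists_int_etaQuotPS`
  (`etaQuot N r τ = q^(∑ r δ · δ) · G(q)`, Taylor series of `G` with integer coefficients), and
* the cusp dictionary `IsCuspMer 1`, `cuspExpFun 1` of `Fermat.Agent.S24.helper315`.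

Main statement `cuspExpFun_etaQuot`: for every `N` and `r` the eta quotient
`∏_{δ ∣ N} Δ(δ τ)^(r δ)` is meromorphic at the cusp `i∞` (period `1`) and its Laurent expansion
is the image in `ℂ((q))` of the INTEGRAL Laurent series
`u = q^(∑ r δ · δ) · W`, `W ∈ ℤ⟦q⟧`, `W(0) = 1`.
Also `jqC_eq_jqModC : helper315.jqC = jqModC ℂ` and the versions for `j`, `j(d τ)` with `jqModC ℂ`.
-/

set_option autoImplicit false

noncomputable section

namespace Fermat.Agent.S28.helper868

open UpperHalfPlane ModularCurve Function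
open Fermat.Agent.S24.helper315
open Fermat.Agent.S28.helper407 (etaQuot mdifferentiable_etaQuot)
open Fermat.Agent.S28.helper1594 (PSConv etaQuotPS etaQuot_infty_expansion exists_int_etaQuotPS)

/-- The integral Laurent series `q^s · W`. -/
def laurentOf (s : ℤ) (W : PowerSeries ℤ) : LaurentSeries ℤ :=
  HahnSeries.single s (1 : ℤ) * HahnSeries.ofPowerSeries ℤ ℤ W

theorem coeffMap_laurentOf (s : ℤ) (W : PowerSeries ℤ) :
    coeffMap (Int.castRingHom ℂ) (laurentOf s W) =
      HahnSeries.single s (1 : ℂ) *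
        HahnSeries.ofPowerSeries ℤ ℂ (W.map (Int.castRingHom ℂ)) := by
  rw [laurentOf, map_mul, coeffMap_single, ModularCurve.coeffMap_ofPowerSeries, map_one]

/-- The analytic monomial `z ↦ z ^ k` with its Taylor series `X ^ k`. -/
theorem psConv_pow (k : ℕ) : PSConv (fun z : ℂ => z ^ k) (PowerSeries.X ^ k) := by
  refine ⟨by fun_prop, ?_⟩
  have h := helper1594.taylorPS_polynomial (Polynomial.X ^ k)
  simp only [Polynomial.eval_pow, Polynomial.eval_X] at h
  rw [h]
  simp

theorem hPeriodic_etaQuot (N : ℕ) (r : ℕ → ℤ) : HPeriodic 1 (etaQuot N r) := by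
  obtain ⟨G, -, hG⟩ := etaQuot_infty_expansion N r
  intro τ
  have hq : Periodic.qParam 1 (((1 : ℝ) +ᵥ τ : ℍ) : ℂ) = Periodic.qParam 1 (τ : ℂ) := by
    have := hPeriodic_qH (h := 1) one_ne_zero τ
    simpa [qH_apply] using this
  rw [hG, hG, hq]

/-- **The eta quotient at the cusp `i∞`, period one**: it is meromorphic at the cusp and its
expansion is (the image in `ℂ((q))` of) an integral Laurent series `q^(∑ r δ · δ) · W`,
`W ∈ ℤ⟦q⟧` with `W(0) = 1`. -/
theorem cuspExpFun_etaQuot (N : ℕ) (r : ℕ → ℤ) :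
    ∃ W : PowerSeries ℤ, PowerSeries.constantCoeff W = 1 ∧
      IsCuspMer 1 (etaQuot N r) ∧
      cuspExpFun 1 (etaQuot N r) =
        coeffMap (Int.castRingHom ℂ) (laurentOf (∑ δ ∈ N.divisors, r δ * (δ : ℤ)) W) := by
  obtain ⟨W, hW0, hW⟩ := exists_int_etaQuotPS N r
  obtain ⟨G, hG, hGeq⟩ := etaQuot_infty_expansion N r
  set s : ℤ := ∑ δ ∈ N.divisors, r δ * (δ : ℤ) with hs
  set m : ℕ := (-s).toNat with hm
  set k : ℕ := s.toNat with hk
  have hskm : s = (k : ℤ) - (m : ℤ) := by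
    rw [hk, hm]; omega
  -- the expansion of `q^m * etaQuot`
  have hconv : PSConv ((fun z : ℂ => z ^ k) * G) (PowerSeries.X ^ k * etaQuotPS N r) :=
    (psConv_pow k).mul hG
  have hsum : ∀ τ : ℍ, HasSum
      (fun n : ℕ => PowerSeries.coeff n (PowerSeries.X ^ k * etaQuotPS N r) * qH 1 τ ^ n)
      (qH 1 τ ^ m * etaQuot N r τ) := by
    intro τ
    have hq0 : qH 1 τ ≠ 0 := qH_ne_zero 1 τ
    have hlt : ‖qH 1 τ‖ < 1 := by
      rw [qH_apply]
      exact Periodic.norm_qParam_lt_one one_pos τ.im_pos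
    have h1 := hconv.hasSum hlt
    have hz : qH 1 τ ^ s = qH 1 τ ^ k / qH 1 τ ^ m := by
      rw [hskm, zpow_sub₀ hq0, zpow_natCast, zpow_natCast]
    have e : ((fun z : ℂ => z ^ k) * G) (qH 1 τ) = qH 1 τ ^ m * etaQuot N r τ := by
      rw [Pi.mul_apply, hGeq τ, ← qH_apply, hz]
      field_simp
    rw [e] at h1
    exact h1
  obtain ⟨h1, h2⟩ := cuspExpFun_eq_of_hasSum one_pos (mdifferentiable_etaQuot N r)
    (hPeriodic_etaQuot N r) (m := m)
    (c := fun n => PowerSeries.coeff n (PowerSeries.X ^ k * etaQuotPS N r)) hsum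
  refine ⟨W, hW0, ⟨m, h1⟩, ?_⟩
  rw [h2, coeffMap_laurentOf, hW]
  have hmk : PowerSeries.mk (fun n => PowerSeries.coeff n (PowerSeries.X ^ k * etaQuotPS N r))
      = PowerSeries.X ^ k * etaQuotPS N r := by
    ext n; simp
  rw [hmk, map_mul, map_pow, HahnSeries.ofPowerSeries_X, HahnSeries.single_pow, ← mul_assoc,
    HahnSeries.single_mul_single, hskm]
  congr 2
  · simp only [nsmul_eq_mul, mul_one]; rw [neg_add_eq_sub]
  · simp

/-- The complexified Prelude `j`-series in the two notations in use. -/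
theorem jqC_eq_jqModC : jqC = jqModC ℂ := by
  rw [jqC, ← jqModC_rat, coeffMap_jqModC]

/-- `j` at the cusp, with the series `jqModC ℂ`. -/
theorem cuspExpFun_jFun' :
    IsCuspMer 1 Fermat.Agent.S24.helper24.jFun ∧
      cuspExpFun 1 Fermat.Agent.S24.helper24.jFun = jqModC ℂ := by
  rw [← jqC_eq_jqModC]
  exact cuspExpFun_jFun

/-- `τ ↦ j(d τ)` at the cusp (period one), with the series `qExpand ℂ d (jqModC ℂ)`. -/
theorem cuspExpFun_jFun_mul' (d : ℕ) [NeZero d] :
    IsCuspMer 1 (fun τ : ℍ => Fermat.Agent.S24.helper24.jFun (ofComplex ((d : ℂ) * (τ : ℂ)))) ∧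
      cuspExpFun 1 (fun τ : ℍ => Fermat.Agent.S24.helper24.jFun (ofComplex ((d : ℂ) * (τ : ℂ))))
        = qExpand ℂ d (jqModC ℂ) := by
  have h := cuspExpFun_jFun_mul 1 d
  rw [← jqC_eq_jqModC]
  refine ⟨by simpa using h.1, ?_⟩
  have h2 := h.2
  simp only [Nat.cast_one] at h2
  rw [h2]
  exact qExpand_congr (one_mul d) jqC

end Fermat.Agent.S28.helper868

end
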