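import Fermat.Agent.S24.helper315_CuspJ
import Fermat.Agent.S28.helper695_LightSpec

/-!
# S28, route E (light): the generic transfer "function-level coset data ⇒ `Stmt_ModDataLight`"

`modDataLight_of_family` turns FUNCTION-LEVEL statements about a finite family `φ x : ℍ → ℂ`
(the conjugates `u ∘ g_x⁻¹` of a `Γ₀(N)`-invariant function `u = φ x₀`), namely

* `χ ∈ ℂ[j][Y]` monic with `χ(j(τ), Y) = ∏_x (Y - φ x τ)` for all `τ`,
* `φ x → 0` at `i∞` for `x ≠ x₀`,
* the norm clause on `χ.coeff 0`,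
* the Lagrange clause `G_d(j(τ), u(τ)) = j(dτ) · χ'(j(τ), u(τ))`,

together with the period-one cusp expansions `j ↦ jqModC ℂ`, `u ↦ castR ℂ û`,
`j(d·) ↦ qExpand ℂ d (jqModC ℂ)` (dictionary of `Fermat.Agent.S24.helper315`), into
`helper695.Stmt_ModDataLight N û (card X)`.
-/

set_option autoImplicit false

noncomputable section

namespace Fermat.Agent.S28.helper868

open UpperHalfPlane ModularCurve Function Filter Topology Polynomial
open Fermat.Agent.S24.helper315

/-! ### Transfer of polynomial expressions through the cusp expansion -/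

section transfer

variable {f g : ℍ → ℂ}

theorem isCuspMer_pow (hf : IsCuspMer 1 f) (n : ℕ) :
    IsCuspMer 1 (f ^ n) ∧ cuspExpFun 1 (f ^ n) = cuspExpFun 1 f ^ n := by
  induction n with
  | zero =>
    simp only [pow_zero]
    exact ⟨(IsCuspHol.one 1).isCuspMer, cuspExpFun_one one_pos⟩
  | succ n ih =>
    rw [pow_succ, pow_succ]
    exact ⟨ih.1.mul hf, by rw [cuspExpFun_mul one_pos ih.1 hf, ih.2]⟩

theorem algebraMap_laurent_eq_C (c : ℂ) :
    algebraMap ℂ (LaurentSeries ℂ) c = HahnSeries.C c := by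
  have h1 : algebraMap ℂ (PowerSeries ℂ) c = PowerSeries.C c := by simp
  rw [HahnSeries.algebraMap_apply', h1, HahnSeries.ofPowerSeries_C]

/-- One variable: `τ ↦ P(f τ)` expands to `P(f̂)`. -/
theorem cuspExpFun_polyEval (hf : IsCuspMer 1 f) (P : Polynomial ℂ) :
    IsCuspMer 1 (fun τ => P.eval (f τ)) ∧
      cuspExpFun 1 (fun τ => P.eval (f τ)) = Polynomial.aeval (cuspExpFun 1 f) P := by
  induction P using Polynomial.induction_on' with
  | add p q hp hq =>
    have e : (fun τ => (p + q).eval (f τ)) = (fun τ => p.eval (f τ)) + fun τ => q.eval (f τ) := by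
      funext τ; simp
    rw [e]
    exact ⟨hp.1.add one_pos hq.1, by rw [cuspExpFun_add one_pos hp.1 hq.1, hp.2, hq.2, map_add]⟩
  | monomial n a =>
    have e : (fun τ => (Polynomial.monomial n a).eval (f τ)) = (fun _ => a) * f ^ n := by
      funext τ; simp
    have hc : IsCuspMer 1 (fun _ : ℍ => a) := (IsCuspHol.const 1 a).isCuspMer
    obtain ⟨h1, h2⟩ := isCuspMer_pow hf n
    rw [e]
    refine ⟨hc.mul h1, ?_⟩
    rw [cuspExpFun_mul one_pos hc h1, h2, cuspExpFun_const one_pos, Polynomial.aeval_monomial,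
      algebraMap_laurent_eq_C]

/-- Two variables: `τ ↦ G(f τ, g τ)` expands to `G(f̂, ĝ)`. -/
theorem cuspExpFun_polyEval₂ (hf : IsCuspMer 1 f) (hg : IsCuspMer 1 g)
    (G : Polynomial (Polynomial ℂ)) :
    IsCuspMer 1 (fun τ => (G.map (Polynomial.evalRingHom (f τ))).eval (g τ)) ∧
      cuspExpFun 1 (fun τ => (G.map (Polynomial.evalRingHom (f τ))).eval (g τ)) =
        G.eval₂ (Polynomial.aeval (cuspExpFun 1 f)).toRingHom (cuspExpFun 1 g) := by
  induction G using Polynomial.induction_on' with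
  | add p q hp hq =>
    have e : (fun τ => ((p + q).map (Polynomial.evalRingHom (f τ))).eval (g τ)) =
        (fun τ => (p.map (Polynomial.evalRingHom (f τ))).eval (g τ)) +
          fun τ => (q.map (Polynomial.evalRingHom (f τ))).eval (g τ) := by
      funext τ; simp
    rw [e]
    exact ⟨hp.1.add one_pos hq.1,
      by rw [cuspExpFun_add one_pos hp.1 hq.1, hp.2, hq.2, Polynomial.eval₂_add]⟩
  | monomial n a =>
    have e : (fun τ => ((Polynomial.monomial n a).map (Polynomial.evalRingHom (f τ))).eval (g τ)) =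
        (fun τ => a.eval (f τ)) * g ^ n := by
      funext τ; simp
    obtain ⟨h1, h2⟩ := cuspExpFun_polyEval hf a
    obtain ⟨h3, h4⟩ := isCuspMer_pow hg n
    rw [e]
    refine ⟨h1.mul h3, ?_⟩
    rw [cuspExpFun_mul one_pos h1 h3, h2, h4, Polynomial.eval₂_monomial]
    rfl

end transfer

/-! ### Limits of the coefficients of `∏ (Y - a i)` when all `a i → 0` -/

theorem tendsto_coeff_prod_X_sub_C {α ι : Type*} {l : Filter α} (s : Finset ι)
    (a : ι → α → ℂ) (h : ∀ i ∈ s, Tendsto (a i) l (𝓝 0)) :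
    ∀ k : ℕ, Tendsto (fun t => (∏ i ∈ s, (Polynomial.X - Polynomial.C (a i t))).coeff k) l
      (𝓝 ((Polynomial.X ^ s.card : Polynomial ℂ).coeff k)) := by
  classical
  induction s using Finset.induction_on with
  | empty =>
    intro k
    simp only [Finset.prod_empty, Finset.card_empty, pow_zero]
    exact tendsto_const_nhds
  | insert i s hi ih =>
    intro k
    have ih' := ih fun j hj => h j (Finset.mem_insert_of_mem hj)
    have hi0 : Tendsto (a i) l (𝓝 0) := h i (Finset.mem_insert_self i s)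
    simp only [Finset.prod_insert hi, Finset.card_insert_of_notMem hi]
    rcases k with _ | k
    · have e : ∀ t, ((Polynomial.X - Polynomial.C (a i t)) *
          ∏ j ∈ s, (Polynomial.X - Polynomial.C (a j t))).coeff 0 =
          -(a i t) * (∏ j ∈ s, (Polynomial.X - Polynomial.C (a j t))).coeff 0 := by
        intro t
        rw [Polynomial.mul_coeff_zero]
        simp
      simp only [e]
      have h1 := (hi0.neg).mul (ih' 0)
      simpa [Polynomial.coeff_X_pow] using h1
    · have e : ∀ t, ((Polynomial.X - Polynomial.C (a i t)) *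
          ∏ j ∈ s, (Polynomial.X - Polynomial.C (a j t))).coeff (k + 1) =
          (∏ j ∈ s, (Polynomial.X - Polynomial.C (a j t))).coeff k -
            (∏ j ∈ s, (Polynomial.X - Polynomial.C (a j t))).coeff (k + 1) * a i t := by
        intro t
        rw [mul_comm, Polynomial.coeff_mul_X_sub_C]
      simp only [e]
      have h1 := (ih' k).sub ((ih' (k + 1)).mul hi0)
      simpa [Polynomial.coeff_X_pow] using h1

/-! ### Constant coefficient = value at the cusp -/

theorem constantCoeff_qExpansion_of_tendsto {f : ℍ → ℂ} (hf : IsCuspHol 1 f) {c : ℂ}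
    (h : Tendsto f atImInfty (𝓝 c)) :
    PowerSeries.constantCoeff (qExpansion 1 f) = c := by
  rw [← PowerSeries.coeff_zero_eq_constantCoeff_apply,
    qExpansion_coeff_zero one_pos (hf.analyticAt one_pos) hf.periodic']
  exact h.limUnder_eq

/-! ### The generic transfer theorem -/

/-- **Generic transfer.** Function-level coset data for `u = φ x₀` (see the module docstring)
imply the light modular data `helper695.Stmt_ModDataLight N û (card ι)`. -/
theorem modDataLight_of_family (N : ℕ) (u : LaurentSeries ℤ) {ι : Type} [Fintype ι]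
    [DecidableEq ι] (φ : ι → ℍ → ℂ) (x₀ : ι) (J : ℍ → ℂ)
    (hJ : IsCuspMer 1 J) (hJexp : cuspExpFun 1 J = jqModC ℂ)
    (hU : IsCuspMer 1 (φ x₀)) (hUexp : cuspExpFun 1 (φ x₀) = helper695.castR ℂ u)
    (χ : Polynomial (Polynomial ℂ)) (hχm : χ.Monic) (hχd : χ.natDegree = Fintype.card ι)
    (hχ : ∀ τ : ℍ, χ.map (Polynomial.evalRingHom (J τ)) =
      ∏ x, (Polynomial.X - Polynomial.C (φ x τ)))
    (hzero : ∀ x, x ≠ x₀ → Tendsto (φ x) atImInfty (𝓝 0))
    (hnorm : ∃ a b : ℕ, 0 < a ∧ 0 < b ∧ (∀ p : ℕ, p.Prime → p ∣ a * b → p ∣ N) ∧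
      ‖(χ.coeff 0).leadingCoeff‖ * (b : ℝ) = (a : ℝ))
    (hlag : ∀ d : ℕ, d ∣ N → ∀ _ : NeZero d, ∃ (Jd : ℍ → ℂ) (G : Polynomial (Polynomial ℂ)),
      IsCuspMer 1 Jd ∧ cuspExpFun 1 Jd = qExpand ℂ d (jqModC ℂ) ∧
      ∀ τ : ℍ, (G.map (Polynomial.evalRingHom (J τ))).eval (φ x₀ τ) =
        Jd τ * ((Polynomial.derivative χ).map (Polynomial.evalRingHom (J τ))).eval (φ x₀ τ)) :
    helper695.Stmt_ModDataLight N u (Fintype.card ι) := by
  classical
  set n := Fintype.card ι with hn
  have hnpos : 0 < n := Fintype.card_pos_iff.mpr ⟨x₀⟩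
  set U : ℍ → ℂ := φ x₀ with hUdef
  set û : LaurentSeries ℂ := helper695.castR ℂ u with hû
  have hevJ : (Polynomial.aeval (cuspExpFun 1 J)).toRingHom = helper695.evalJ ℂ := by
    rw [hJexp]
  -- transfer of two-variable polynomial expressions
  have htr : ∀ G : Polynomial (Polynomial ℂ),
      IsCuspMer 1 (fun τ => (G.map (Polynomial.evalRingHom (J τ))).eval (U τ)) ∧
        cuspExpFun 1 (fun τ => (G.map (Polynomial.evalRingHom (J τ))).eval (U τ)) =
          G.eval₂ (helper695.evalJ ℂ) û := by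
    intro G
    have h := cuspExpFun_polyEval₂ hJ hU G
    rw [hevJ, hUexp] at h
    exact h
  -- the formal root
  have hroot : ∀ τ : ℍ, (χ.map (Polynomial.evalRingHom (J τ))).eval (U τ) = 0 := by
    intro τ
    rw [hχ τ, Polynomial.eval_prod]
    exact Finset.prod_eq_zero (Finset.mem_univ x₀) (by simp [hUdef])
  have hroot' : (χ.map (helper695.evalJ ℂ)).IsRoot û := by
    have h := (htr χ).2
    have e : (fun τ => (χ.map (Polynomial.evalRingHom (J τ))).eval (U τ)) = 0 := by
      funext τ; exact hroot τ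
    rw [e, cuspExpFun_zero one_pos] at h
    rw [Polynomial.IsRoot, Polynomial.eval_map]
    exact h.symm
  -- the formal cofactor
  set Γh : Polynomial (LaurentSeries ℂ) :=
    (χ.map (helper695.evalJ ℂ)) /ₘ (Polynomial.X - Polynomial.C û) with hΓh
  have hΓh_mul : (Polynomial.X - Polynomial.C û) * Γh = χ.map (helper695.evalJ ℂ) :=
    Polynomial.mul_divByMonic_eq_iff_isRoot.mpr hroot'
  have hχmap_monic : (χ.map (helper695.evalJ ℂ)).Monic := hχm.map _
  have hχmap_deg : (χ.map (helper695.evalJ ℂ)).natDegree = n := by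
    rw [hχm.natDegree_map, hχd]
  have hΓh_monic : Γh.Monic :=
    Polynomial.Monic.of_mul_monic_left (Polynomial.monic_X_sub_C û) (hΓh_mul ▸ hχmap_monic)
  have hΓh_deg : Γh.natDegree = n - 1 := by
    rw [hΓh, Polynomial.natDegree_divByMonic _ (Polynomial.monic_X_sub_C û), hχmap_deg,
      Polynomial.natDegree_X_sub_C]
  -- the function-level cofactor
  set Γf : ℍ → Polynomial ℂ := fun τ =>
    ∏ x ∈ Finset.univ.erase x₀, (Polynomial.X - Polynomial.C (φ x τ)) with hΓf
  have hχ' : ∀ τ : ℍ, χ.map (Polynomial.evalRingHom (J τ)) =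
      (Polynomial.X - Polynomial.C (U τ)) * Γf τ := by
    intro τ
    rw [hχ τ, hΓf, ← Finset.mul_prod_erase Finset.univ _ (Finset.mem_univ x₀)]
  have hΓf_div : ∀ τ : ℍ, Γf τ =
      (χ.map (Polynomial.evalRingHom (J τ))) /ₘ (Polynomial.X - Polynomial.C (U τ)) := by
    intro τ
    rw [hχ' τ, Polynomial.mul_divByMonic_cancel_left _ (Polynomial.monic_X_sub_C _)]
  -- Horner polynomials
  set H : ℕ → Polynomial (Polynomial ℂ) := fun k =>
    ∑ i ∈ Finset.Icc (k + 1) n, Polynomial.X ^ (i - (k + 1)) * Polynomial.C (χ.coeff i) with hH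
  have hHfun : ∀ (k : ℕ) (τ : ℍ),
      ((H k).map (Polynomial.evalRingHom (J τ))).eval (U τ) = (Γf τ).coeff k := by
    intro k τ
    rw [hΓf_div τ, Polynomial.coeff_divByMonic_X_sub_C, hχm.natDegree_map, hχd, hH]
    simp only [Polynomial.map_sum, Polynomial.map_mul, Polynomial.map_pow, Polynomial.map_X,
      Polynomial.map_C, Polynomial.eval_finsetSum, Polynomial.eval_mul, Polynomial.eval_pow,
      Polynomial.eval_X, Polynomial.eval_C, Polynomial.coe_evalRingHom, Polynomial.coeff_map]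
  have hHformal : ∀ k : ℕ, (H k).eval₂ (helper695.evalJ ℂ) û = Γh.coeff k := by
    intro k
    rw [hΓh, Polynomial.coeff_divByMonic_X_sub_C, hχmap_deg, hH]
    simp only [Polynomial.eval₂_finsetSum, Polynomial.eval₂_mul, Polynomial.eval₂_pow,
      Polynomial.eval₂_X, Polynomial.eval₂_C, Polynomial.coeff_map]
  -- the coefficient functions of the cofactor
  set γ : ℕ → ℍ → ℂ := fun k τ => (Γf τ).coeff k with hγ
  have hγeq : ∀ k : ℕ, γ k = fun τ => ((H k).map (Polynomial.evalRingHom (J τ))).eval (U τ) := by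
    intro k; funext τ; exact (hHfun k τ).symm
  have hγmer : ∀ k : ℕ, IsCuspMer 1 (γ k) ∧ cuspExpFun 1 (γ k) = Γh.coeff k := by
    intro k
    rw [hγeq k, ← hHformal k]
    exact htr (H k)
  have hcard : (Finset.univ.erase x₀).card = n - 1 := by
    rw [Finset.card_erase_of_mem (Finset.mem_univ x₀), Finset.card_univ]
  have hγlim : ∀ k : ℕ, Tendsto (γ k) atImInfty
      (𝓝 ((Polynomial.X ^ (n - 1) : Polynomial ℂ).coeff k)) := by
    intro k
    have h := tendsto_coeff_prod_X_sub_C (l := atImInfty) (Finset.univ.erase x₀)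
      (fun x τ => φ x τ) (fun x hx => hzero x (Finset.ne_of_mem_erase hx)) k
    rw [hcard] at h
    exact h
  have hγhol : ∀ k : ℕ, IsCuspHol 1 (γ k) := fun k =>
    ⟨(hγmer k).1.mdiff, (hγmer k).1.periodic one_pos, (hγlim k).isBigO_one ℝ⟩
  have hγexp : ∀ k : ℕ, HahnSeries.ofPowerSeries ℤ ℂ (qExpansion 1 (γ k)) = Γh.coeff k := by
    intro k
    rw [← (hγmer k).2, cuspExpFun_of_isCuspHol one_pos (hγhol k)]
  have hγconst : ∀ k : ℕ, PowerSeries.constantCoeff (qExpansion 1 (γ k)) =
      (Polynomial.X ^ (n - 1) : Polynomial ℂ).coeff k := fun k =>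
    constantCoeff_qExpansion_of_tendsto (hγhol k) (hγlim k)
  -- the cofactor over `ℂ⟦q⟧`
  set Γ : Polynomial (PowerSeries ℂ) :=
    ∑ k ∈ Finset.range n, Polynomial.monomial k (qExpansion 1 (γ k)) with hΓ
  have hΓcoeff : ∀ k : ℕ, Γ.coeff k = if k < n then qExpansion 1 (γ k) else 0 := by
    intro k
    rw [hΓ, Polynomial.finsetSum_coeff]
    simp only [Polynomial.coeff_monomial]
    rw [Finset.sum_ite_eq' (Finset.range n) k (fun j => qExpansion 1 (γ j))]
    simp
  have hΓmap : Γ.map (HahnSeries.ofPowerSeries ℤ ℂ) = Γh := by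
    refine Polynomial.ext fun k => ?_
    rw [Polynomial.coeff_map, hΓcoeff k]
    split_ifs with hk
    · exact hγexp k
    · rw [map_zero]
      have hlt : Γh.natDegree < k := by rw [hΓh_deg]; omega
      exact (Polynomial.coeff_eq_zero_of_natDegree_lt hlt).symm
  have hΓmonic : Γ.Monic :=
    Polynomial.monic_of_injective (HahnSeries.ofPowerSeries_injective) (hΓmap ▸ hΓh_monic)
  have hΓconst : Γ.map (PowerSeries.constantCoeff (R := ℂ)) = Polynomial.X ^ (n - 1) := by
    refine Polynomial.ext fun k => ?_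
    rw [Polynomial.coeff_map, hΓcoeff k]
    split_ifs with hk
    · exact hγconst k
    · have hne : k ≠ n - 1 := by omega
      rw [map_zero, Polynomial.coeff_X_pow, if_neg hne]
  refine ⟨χ, Γ, hχm, hχd, hΓmonic, hΓconst, ?_, hnorm, ?_⟩
  · rw [hΓmap, hΓh_mul]
  · intro d hd inst
    obtain ⟨Jd, G, hJd, hJdexp, hG⟩ := hlag d hd inst
    refine ⟨G, ?_⟩
    have h1 := htr G
    have h2 := htr (Polynomial.derivative χ)
    have e : (fun τ => (G.map (Polynomial.evalRingHom (J τ))).eval (U τ)) =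
        Jd * fun τ => ((Polynomial.derivative χ).map (Polynomial.evalRingHom (J τ))).eval (U τ) := by
      funext τ; exact hG τ
    rw [← h1.2, e, cuspExpFun_mul one_pos hJd h2.1, hJdexp, h2.2]

end Fermat.Agent.S28.helper868

end
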