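import Fermat.Agent.S28.helper1288_LightAnalytic
import Fermat.Agent.S28.helper868_LightTransfer
import Fermat.Agent.S28.helper868_EtaCuspExp
import Fermat.Agent.S28.helper388_Lagrange

/-!
# S28 light route: the modular input `∃ u D, Stmt_ModDataLight N u D` (helper1288)

Instantiation of the generic transfer `helper868.modDataLight_of_family` with

* the coset family `etaFam N (etaExp N)` of the eta quotient `u_N` and `exists_chi_etaFam`
  ((L1) at function level and the norm clause (L2); `helper1288_LightAnalytic`),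
* `etaFam_tendsto_zero` (the other conjugates vanish at `i∞`; from `helper407_EtaAsymp`),
* `helper388.exists_lagrange_etaQuot` (Lagrange clause (L3) at function level),
* the period-one expansions `helper868.cuspExpFun_etaQuot`, `cuspExpFun_jFun'`,
  `cuspExpFun_jFun_mul'`.
-/

set_option autoImplicit false

open UpperHalfPlane ModularForm MatrixGroups CongruenceSubgroup Filter Polynomial
open scoped Topology

noncomputable section

namespace Fermat.Agent.S28.helper1288

/-- **The light modular data exist for every level `N ≥ 1`**: `u` is the integral `q`-series of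
the eta quotient `∏_{δ ∣ N} Δ(δτ)^(etaExp N δ)` and `D = [SL₂(ℤ) : Γ₀(N)]`. -/
theorem modDataLight_index (N : ℕ) [NeZero N] :
    ∃ u : LaurentSeries ℤ, Fermat.Agent.S28.helper695.Stmt_ModDataLight N u (Gamma0 N).index := by
  classical
  haveI : Fintype (SL(2, ℤ) ⧸ Gamma0 N) := Subgroup.fintypeQuotientOfFiniteIndex
  have hD : (Gamma0 N).index = Fintype.card (SL(2, ℤ) ⧸ Gamma0 N) := by
    rw [Subgroup.index, Nat.card_eq_fintype_card]
  have hN : N ≠ 0 := NeZero.ne N
  have hr : ∑ δ ∈ N.divisors, Fermat.Agent.S28.helper388.etaExp N δ = 0 :=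
    Fermat.Agent.S28.helper388.sum_etaExp hN
  obtain ⟨W, -, hUmer, hUexp⟩ :=
    Fermat.Agent.S28.helper868.cuspExpFun_etaQuot N (Fermat.Agent.S28.helper388.etaExp N)
  obtain ⟨χ, hχm, hχd, hχ, hnorm⟩ :=
    exists_chi_etaFam N (Fermat.Agent.S28.helper388.etaExp N) hr
  have hφ0 := etaFam_one N (Fermat.Agent.S28.helper388.etaExp N) hr
  refine ⟨Fermat.Agent.S28.helper868.laurentOf
    (∑ δ ∈ N.divisors, Fermat.Agent.S28.helper388.etaExp N δ * (δ : ℤ)) W, ?_⟩
  rw [hD]
  refine Fermat.Agent.S28.helper868.modDataLight_of_family N _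
    (etaFam N (Fermat.Agent.S28.helper388.etaExp N))
    ((1 : SL(2, ℤ)) : SL(2, ℤ) ⧸ Gamma0 N) Fermat.Agent.S24.helper24.jFun
    Fermat.Agent.S28.helper868.cuspExpFun_jFun'.1 Fermat.Agent.S28.helper868.cuspExpFun_jFun'.2
    (by rw [hφ0]; exact hUmer) (by rw [hφ0]; exact hUexp) χ hχm hχd hχ
    (fun x hx => etaFam_tendsto_zero hN hx) hnorm (fun d hd hd0 => ?_)
  haveI := hd0
  have hdpos : 0 < d := Nat.pos_of_ne_zero (NeZero.ne d)
  obtain ⟨R, hR⟩ := Fermat.Agent.S28.helper388.exists_lagrange_etaQuot N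
    (Fermat.Agent.S28.helper388.etaExp N) hr d hdpos hd
  refine ⟨fun τ => Fermat.Agent.S24.helper24.jFun (ofComplex ((d : ℂ) * (τ : ℂ))),
    ∑ k ∈ Finset.range (Fintype.card (SL(2, ℤ) ⧸ Gamma0 N)),
      Polynomial.C (R k) * Polynomial.X ^ k,
    (Fermat.Agent.S28.helper868.cuspExpFun_jFun_mul' d).1,
    (Fermat.Agent.S28.helper868.cuspExpFun_jFun_mul' d).2, fun τ => ?_⟩
  rw [hφ0]
  have h1 := hR τ
  have h2 : ((∑ k ∈ Finset.range (Fintype.card (SL(2, ℤ) ⧸ Gamma0 N)),
      Polynomial.C (R k) * Polynomial.X ^ k).map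
        (Polynomial.evalRingHom (Fermat.Agent.S24.helper24.jFun τ))).eval
        (Fermat.Agent.S28.helper407.etaQuot N (Fermat.Agent.S28.helper388.etaExp N) τ)
      = ∑ k ∈ Finset.range (Fintype.card (SL(2, ℤ) ⧸ Gamma0 N)),
        (R k).eval (Fermat.Agent.Lib.helper843.jInv τ) *
          Fermat.Agent.S28.helper407.etaQuot N (Fermat.Agent.S28.helper388.etaExp N) τ ^ k := by
    rw [Polynomial.map_sum, Polynomial.eval_finsetSum]
    refine Finset.sum_congr rfl fun k _ => ?_
    simp only [Polynomial.map_mul, Polynomial.map_C, Polynomial.map_pow, Polynomial.map_X,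
      Polynomial.eval_mul, Polynomial.eval_C, Polynomial.eval_pow, Polynomial.eval_X,
      Polynomial.coe_evalRingHom]
    rfl
  rw [h2, h1, ← Polynomial.derivative_map]
  have h3 : χ.map (Polynomial.evalRingHom (Fermat.Agent.S24.helper24.jFun τ))
      = ∏ x : SL(2, ℤ) ⧸ Gamma0 N, (Polynomial.X - Polynomial.C
        (Fermat.Agent.S28.helper407.etaQuot N (Fermat.Agent.S28.helper388.etaExp N)
          ((Quotient.out x : SL(2, ℤ))⁻¹ • τ))) := hχ τ
  rw [h3]
  rfl

/-- Existential form consumed by `helper695_LightFormal` / `helper868_Spec.chartRed_of`. -/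
theorem modDataLight (N : ℕ) [NeZero N] :
    ∃ (u : LaurentSeries ℤ) (D : ℕ), Fermat.Agent.S28.helper695.Stmt_ModDataLight N u D := by
  obtain ⟨u, hu⟩ := modDataLight_index N
  exact ⟨u, _, hu⟩

end Fermat.Agent.S28.helper1288

end
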