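import Fermat.Agent.S28.helper1302_TensorDomain
import Fermat.Agent.S28.helper2608_Spec
import Fermat.Agent.S28.helper385_SchemeReduction

/-!
# S28: adapters to `helper2608_Spec` and the final assembly

* `stmt_tensor`  : `Spec.Stmt_Tensor ℓ`   (from `helper1302_TensorDomain`)
* `stmt_glue`    : `Spec.Stmt_Glue N ℓ`   (from `helper385_SchemeReduction`)
* `isIntegral_of_stmt_red`  : the three `Spec.Stmt_Red` give the conclusion of S28
* `isIntegral_of_core`      : `Spec.Stmt_Core N ℓ` + `Spec.Stmt_CoreInput N ℓ` give the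
  conclusion of S28.
-/

set_option autoImplicit false

open AlgebraicGeometry CategoryTheory CategoryTheory.Limits ModularCurve ModularCurve.IgusaScheme
open TensorProduct

noncomputable section

namespace Fermat.Agent.S28.helper1302

open Fermat.Agent.S28.Spec

/-- The tensor step of the Spec. -/
theorem stmt_tensor (ℓ : ℕ) [Fact ℓ.Prime] : Stmt_Tensor ℓ := by
  intro A _ _ K _ _ _ red h
  exact isDomain_tensor_of_ker ℓ A red K h

/-- The scheme step of the Spec. -/
theorem stmt_glue (N : ℕ) [NeZero N] (ℓ : ℕ) [Fact ℓ.Prime] : Stmt_Glue N ℓ := by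
  intro K _ _ _ hFin hInf hMid
  exact Fermat.Agent.S28.helper385.isIntegral_pullback_igusaTo_of_isDomain N ℓ K hFin hInf hMid

/-- A chart with a reduction map has a domain as special fibre. -/
theorem isDomain_chart_of_stmt_red (N : ℕ) [NeZero N] (ℓ : ℕ) [Fact ℓ.Prime]
    (S : Set ↥(modularFunctionFieldFull N)) (h : Stmt_Red N ℓ S)
    (K : Type) [Field K] [CharP K ℓ] [Algebra (Zl ℓ) K] :
    IsDomain (↥(chartAlg N ℓ S) ⊗[Zl ℓ] K) := by
  obtain ⟨red, hred⟩ := h
  exact isDomain_tensor_of_ker ℓ ↥(chartAlg N ℓ S) red K hred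

/-- **Final assembly from the three reduction maps.** -/
theorem isIntegral_of_stmt_red (N : ℕ) [NeZero N] (ℓ : ℕ) [Fact ℓ.Prime]
    (hFin : Stmt_Red N ℓ {jFull N}) (hInf : Stmt_Red N ℓ {(jFull N)⁻¹})
    (hMid : Stmt_Red N ℓ {jFull N, (jFull N)⁻¹})
    (K : Type) [Field K] [CharP K ℓ] [Algebra ↥(GaloisRep.ratLocalizedAt ℓ) K] :
    IsIntegral ↑(pullback (igusaTo N ℓ)
      (Spec.map (CommRingCat.ofHom (algebraMap ↥(GaloisRep.ratLocalizedAt ℓ) K)))) :=
  Fermat.Agent.S28.helper385.isIntegral_pullback_igusaTo_of_isDomain N ℓ K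
    (isDomain_chart_of_stmt_red N ℓ _ hFin K)
    (isDomain_chart_of_stmt_red N ℓ _ hInf K)
    (isDomain_chart_of_stmt_red N ℓ _ hMid K).toNontrivial

/-- **Final assembly from the algebra core and the modular input.** -/
theorem isIntegral_of_core (N : ℕ) [NeZero N] (ℓ : ℕ) [Fact ℓ.Prime]
    (hcore : Stmt_Core N ℓ) (hin : Stmt_CoreInput N ℓ)
    (K : Type) [Field K] [CharP K ℓ] [Algebra ↥(GaloisRep.ratLocalizedAt ℓ) K] :
    IsIntegral ↑(pullback (igusaTo N ℓ)
      (Spec.map (CommRingCat.ofHom (algebraMap ↥(GaloisRep.ratLocalizedAt ℓ) K)))) := by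
  obtain ⟨h1, h2, h3⟩ := hcore hin
  exact isIntegral_of_stmt_red N ℓ h1 h2 h3 K

end Fermat.Agent.S28.helper1302

end
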