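import Mathlib
import Fermat.Prelude.Def_GaloisRep_Flat

set_option autoImplicit false
set_option linter.unusedSectionVars false

namespace Fermat.Agent.S28.helper1302

open TensorProduct

noncomputable section

/-- Coefficientwise map of Laurent series along a ring hom, as a ring hom. -/
def lsMap {R S : Type*} [CommRing R] [CommRing S] (f : R →+* S) :
    LaurentSeries R →+* LaurentSeries S where
  toFun x := x.map f
  map_one' := by
    have := HahnSeries.map_one (Γ := ℤ) f.toMonoidWithZeroHom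
    exact this
  map_mul' x y := by
    have := HahnSeries.map_mul (Γ := ℤ) (f : R →ₙ+* S) (x := x) (y := y)
    exact this
  map_zero' := by
    ext n
    simp
  map_add' x y := by
    ext n
    simp

@[simp] theorem lsMap_coeff {R S : Type*} [CommRing R] [CommRing S] (f : R →+* S)
    (x : LaurentSeries R) (n : ℤ) : (lsMap f x).coeff n = f (x.coeff n) := rfl

/-- Ring homs out of `ℤ_(ℓ)` are unique. -/
theorem ratLocalizedAt_ringHom_ext {ℓ : ℕ} {T : Type*} [Ring T]
    (φ ψ : (GaloisRep.ratLocalizedAt ℓ) →+* T) : φ = ψ := by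
  ext r
  have hd : ((r.1.den : ℚ)⁻¹) ∈ GaloisRep.ratLocalizedAt ℓ := by
    show ((r.1.den : ℚ)⁻¹).den.Coprime ℓ
    rw [Rat.inv_natCast_den]
    simp only [r.1.den_ne_zero, if_false]
    exact r.2
  set v : GaloisRep.ratLocalizedAt ℓ := ⟨_, hd⟩ with hvdef
  have hv : v * (r.1.den : GaloisRep.ratLocalizedAt ℓ) = 1 := by
    apply Subtype.ext
    have : (r.1.den : ℚ) ≠ 0 := by exact_mod_cast r.1.den_ne_zero
    simp [hvdef, this]
  have hr : (r.1.den : GaloisRep.ratLocalizedAt ℓ) * r = (r.1.num : GaloisRep.ratLocalizedAt ℓ) := by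
    apply Subtype.ext
    push_cast
    exact Rat.den_mul_eq_num r.1
  have key : ∀ χ : GaloisRep.ratLocalizedAt ℓ →+* T, χ r = χ v * (r.1.num : T) := by
    intro χ
    calc χ r = χ (v * (r.1.den : GaloisRep.ratLocalizedAt ℓ) * r) := by rw [hv, one_mul]
      _ = χ v * χ ((r.1.den : GaloisRep.ratLocalizedAt ℓ) * r) := by rw [mul_assoc, map_mul]
      _ = χ v * (r.1.num : T) := by rw [hr, map_intCast]
  have hφψ : φ v = ψ v := by
    have h1 : φ v * (r.1.den : T) = 1 := by
      rw [← map_natCast φ, ← map_mul, hv, map_one]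
    have h2 : (r.1.den : T) * ψ v = 1 := by
      rw [← map_natCast ψ, ← map_mul, mul_comm, hv, map_one]
    calc φ v = φ v * ((r.1.den : T) * ψ v) := by rw [h2, mul_one]
      _ = (φ v * (r.1.den : T)) * ψ v := by rw [mul_assoc]
      _ = ψ v := by rw [h1, one_mul]
  rw [key φ, key ψ, hφψ]

section Main

variable (ℓ : ℕ) [Fact ℓ.Prime]
variable (A : Type*) [CommRing A] [Algebra (GaloisRep.ratLocalizedAt ℓ) A]
variable (ρ : A →+* LaurentSeries (ZMod ℓ))
variable (K : Type*) [Field K] [CharP K ℓ] [Algebra (GaloisRep.ratLocalizedAt ℓ) K]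

/-- `A → K((q))`: apply `ρ`, then extend coefficients from `ZMod ℓ` to `K`. -/
def redK : A →ₐ[GaloisRep.ratLocalizedAt ℓ] LaurentSeries K :=
  { (lsMap (ZMod.castHom (dvd_refl ℓ) K)).comp ρ with
    commutes' := fun r => by
      have := ratLocalizedAt_ringHom_ext (ℓ := ℓ)
        (((lsMap (ZMod.castHom (dvd_refl ℓ) K)).comp ρ).comp
          (algebraMap (GaloisRep.ratLocalizedAt ℓ) A))
        (algebraMap (GaloisRep.ratLocalizedAt ℓ) (LaurentSeries K))
      exact DFunLike.congr_fun this r }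

theorem redK_apply (a : A) :
    redK ℓ A ρ K a = lsMap (ZMod.castHom (dvd_refl ℓ) K) (ρ a) := rfl

/-- Constants `K → K((q))` as a `ℤ_(ℓ)`-algebra hom. -/
def constK : K →ₐ[GaloisRep.ratLocalizedAt ℓ] LaurentSeries K :=
  { (HahnSeries.C : K →+* LaurentSeries K) with
    commutes' := fun r => by
      have := ratLocalizedAt_ringHom_ext (ℓ := ℓ)
        ((HahnSeries.C : K →+* LaurentSeries K).comp (algebraMap (GaloisRep.ratLocalizedAt ℓ) K))
        (algebraMap (GaloisRep.ratLocalizedAt ℓ) (LaurentSeries K))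
      exact DFunLike.congr_fun this r }

theorem constK_apply (c : K) : constK ℓ K c = HahnSeries.C c := rfl

/-- The comparison map `A ⊗[ℤ_(ℓ)] K → K((q))`, `a ⊗ c ↦ ρ(a) · c`. -/
def tensorToLaurent : A ⊗[GaloisRep.ratLocalizedAt ℓ] K →ₐ[GaloisRep.ratLocalizedAt ℓ]
    LaurentSeries K :=
  Algebra.TensorProduct.productMap (redK ℓ A ρ K) (constK ℓ K)

theorem tensorToLaurent_tmul (a : A) (c : K) :
    tensorToLaurent ℓ A ρ K (a ⊗ₜ c) =
      lsMap (ZMod.castHom (dvd_refl ℓ) K) (ρ a) * HahnSeries.C c := by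
  simp [tensorToLaurent, redK_apply, constK_apply]

theorem tensorToLaurent_tmul_coeff (a : A) (c : K) (n : ℤ) :
    (tensorToLaurent ℓ A ρ K (a ⊗ₜ c)).coeff n =
      ZMod.castHom (dvd_refl ℓ) K ((ρ a).coeff n) * c := by
  rw [tensorToLaurent_tmul, HahnSeries.C_apply, HahnSeries.coeff_mul_single_zero, lsMap_coeff]

/-- Every element of `A ⊗[ℤ_(ℓ)] K` is a finite sum `∑ aⱼ ⊗ bⱼ` along a fixed `𝔽_ℓ`-basis of `K`. -/
theorem exists_finsupp_repr {J : Type*} [Algebra (ZMod ℓ) K] (b : Module.Basis J (ZMod ℓ) K)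
    (x : A ⊗[GaloisRep.ratLocalizedAt ℓ] K) :
    ∃ a : J →₀ A, x = a.sum (fun j aj => aj ⊗ₜ[GaloisRep.ratLocalizedAt ℓ] (b j)) := by
  induction x using TensorProduct.induction_on with
  | zero => exact ⟨0, by simp⟩
  | tmul a₀ c =>
    refine ⟨(b.repr c).mapRange (fun z => (z.val : A) * a₀) (by simp), ?_⟩
    rw [Finsupp.sum_mapRange_index (by intro j; simp)]
    conv_lhs => rw [← b.linearCombination_repr c]
    rw [Finsupp.linearCombination_apply, Finsupp.sum, TensorProduct.tmul_sum]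
    refine Finset.sum_congr rfl (fun j _ => ?_)
    have hz : (b.repr c j) • b j = (((b.repr c j).val : ℕ) : GaloisRep.ratLocalizedAt ℓ) • b j := by
      rw [Algebra.smul_def, Algebra.smul_def, map_natCast]
      congr 1
      rw [← map_natCast (algebraMap (ZMod ℓ) K), ZMod.natCast_zmod_val]
    have ha : (((b.repr c j).val : ℕ) : A) * a₀ =
        (((b.repr c j).val : ℕ) : GaloisRep.ratLocalizedAt ℓ) • a₀ := by
      rw [Algebra.smul_def, map_natCast]
    rw [hz]
    beta_reduce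
    rw [ha, TensorProduct.smul_tmul]
  | add x y hx hy =>
    obtain ⟨a, rfl⟩ := hx
    obtain ⟨a', rfl⟩ := hy
    refine ⟨a + a', ?_⟩
    rw [Finsupp.sum_add_index']
    · intro j; simp
    · intro j a₁ a₂; simp [TensorProduct.add_tmul]

/-- **Key lemma.** If `ker ρ ⊆ ℓ·A` then `A ⊗[ℤ_(ℓ)] K → K((q))` is injective. -/
theorem tensorToLaurent_injective
    (hker : ∀ a : A, ρ a = 0 → ∃ b : A, a = (ℓ : A) * b) :
    Function.Injective (tensorToLaurent ℓ A ρ K) := by
  let _ : Algebra (ZMod ℓ) K := (ZMod.castHom (dvd_refl ℓ) K).toAlgebra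
  let b := Module.Basis.ofVectorSpace (ZMod ℓ) K
  rw [injective_iff_map_eq_zero]
  intro x hx
  obtain ⟨a, rfl⟩ := exists_finsupp_repr ℓ A K b x
  have h1 : ∀ n : ℤ, ∑ j ∈ a.support, ((ρ (a j)).coeff n) • b j = 0 := by
    intro n
    have h := congrArg (fun s : LaurentSeries K => s.coeff n) hx
    simp only [Finsupp.sum, map_sum, HahnSeries.coeff_sum, tensorToLaurent_tmul_coeff,
      HahnSeries.coeff_zero] at h
    rw [← h]
    refine Finset.sum_congr rfl (fun j _ => ?_)
    rw [Algebra.smul_def]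
    rfl
  have h2 : ∀ j ∈ a.support, ρ (a j) = 0 := by
    intro j hj
    ext n
    exact linearIndependent_iff'.mp b.linearIndependent a.support
      (fun j => (ρ (a j)).coeff n) (h1 n) j hj
  rw [Finsupp.sum]
  refine Finset.sum_eq_zero (fun j hj => ?_)
  obtain ⟨a', ha'⟩ := hker (a j) (h2 j hj)
  have h3 : ((ℓ : A) * a') = ((ℓ : ℕ) : GaloisRep.ratLocalizedAt ℓ) • a' := by
    rw [Algebra.smul_def, map_natCast]
  rw [ha', h3, TensorProduct.smul_tmul, Algebra.smul_def, map_natCast, CharP.cast_eq_zero K ℓ,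
    zero_mul, TensorProduct.tmul_zero]

/-- **S28-B3.** If `ρ : A →+* 𝔽_ℓ((q))` has kernel contained in `ℓ·A`, then `A ⊗[ℤ_(ℓ)] K` is a
domain for every field `K` of characteristic `ℓ`. -/
theorem isDomain_tensor_of_ker
    (hker : ∀ a : A, ρ a = 0 → ∃ b : A, a = (ℓ : A) * b) :
    IsDomain (A ⊗[GaloisRep.ratLocalizedAt ℓ] K) :=
  Function.Injective.isDomain (tensorToLaurent ℓ A ρ K).toRingHom
    (tensorToLaurent_injective ℓ A ρ K hker)

/-- Variant of `isDomain_tensor_of_ker` with the hypothesis stated via `RingHom.ker`. -/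
theorem isDomain_tensor_of_ker_le
    (hker : RingHom.ker ρ ≤ Ideal.span {(ℓ : A)}) :
    IsDomain (A ⊗[GaloisRep.ratLocalizedAt ℓ] K) :=
  isDomain_tensor_of_ker ℓ A ρ K (fun a ha => by
    obtain ⟨b, hb⟩ := Ideal.mem_span_singleton'.mp (hker ((RingHom.mem_ker).mpr ha))
    exact ⟨b, by rw [← hb, mul_comm]⟩)

/-- In particular the tensor product is nontrivial. -/
theorem nontrivial_tensor_of_ker
    (hker : ∀ a : A, ρ a = 0 → ∃ b : A, a = (ℓ : A) * b) :
    Nontrivial (A ⊗[GaloisRep.ratLocalizedAt ℓ] K) :=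
  (isDomain_tensor_of_ker ℓ A ρ K hker).toNontrivial

end Main

end

end Fermat.Agent.S28.helper1302
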