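import Mathlib

/-!
# S28 (Igusa), leaf P4-NT: Newton transfer (helper1318)

Let `L` be a commutative `ℚ`-algebra, `A` a `ℚ`-subalgebra and `z : ι → L` a finite family.
If the power sums `∑ i, z i ^ r` lie in `A` for `1 ≤ r ≤ card ι`, then all elementary symmetric
functions of the `z i` lie in `A`, i.e. all coefficients of `∏ i, (X - C (z i))` lie in `A`.

Mathlib only (Newton's identities `MvPolynomial.mul_esymm_eq_sum` + Vieta).
-/

set_option autoImplicit false

namespace Fermat.Agent.S28.helper1318

open Polynomial

section Newton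

variable {L : Type*} [CommRing L] [Algebra ℚ L]

/-- **Newton transfer**, elementary symmetric form. -/
theorem esymm_mem_of_psum_mem (A : Subalgebra ℚ L) {ι : Type*} [Fintype ι] (z : ι → L)
    (h : ∀ r, 1 ≤ r → r ≤ Fintype.card ι → ∑ i, z i ^ r ∈ A) (k : ℕ) :
    (Finset.univ.val.map z).esymm k ∈ A := by
  classical
  induction k using Nat.strong_induction_on with
  | _ k ih =>
    rcases Nat.eq_zero_or_pos k with rfl | hk
    · have h0 : (Finset.univ.val.map z).esymm 0 = 1 := by simp [Multiset.esymm]
      rw [h0]; exact A.one_mem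
    · by_cases hkc : k ≤ Fintype.card ι
      · have hN := congrArg (MvPolynomial.aeval (R := ℚ) z) (MvPolynomial.mul_esymm_eq_sum ι ℚ k)
        simp only [map_mul, map_natCast, map_pow, map_neg, map_one, map_sum,
          MvPolynomial.aeval_esymm_eq_multiset_esymm, MvPolynomial.psum, MvPolynomial.aeval_X]
          at hN
        have hmem : (k : L) * (Finset.univ.val.map z).esymm k ∈ A := by
          rw [hN]
          refine A.mul_mem (A.pow_mem (A.neg_mem A.one_mem) _) (A.sum_mem ?_)
          intro a ha
          obtain ⟨ha1, ha2⟩ := Finset.mem_filter.mp ha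
          have ha3 : a.1 + a.2 = k := Finset.HasAntidiagonal.mem_antidiagonal.mp ha1
          refine A.mul_mem (A.mul_mem (A.pow_mem (A.neg_mem A.one_mem) _) (ih a.1 ha2))
            (h a.2 ?_ ?_)
          · omega
          · omega
        have hk0 : (k : ℚ) ≠ 0 := by exact_mod_cast hk.ne'
        have hdiv : (Finset.univ.val.map z).esymm k
            = ((k : ℚ)⁻¹) • ((k : L) * (Finset.univ.val.map z).esymm k) := by
          rw [Algebra.smul_def, ← mul_assoc, ← map_natCast (algebraMap ℚ L), ← map_mul,
            inv_mul_cancel₀ hk0, map_one, one_mul]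
        rw [hdiv]
        exact A.smul_mem hmem _
      · have hcard : Multiset.card (Finset.univ.val.map z) < k := by
          rw [Multiset.card_map]
          exact not_le.mp hkc
        rw [Multiset.esymm, Multiset.powersetCard_eq_empty k hcard]
        simp

/-- **Newton transfer**, polynomial form: if the power sums of the `z i` lie in the
`ℚ`-subalgebra `A`, so do all coefficients of `∏ i, (X - C (z i))`. -/
theorem coeff_prod_X_sub_C_mem (A : Subalgebra ℚ L) {ι : Type*} [Fintype ι] (z : ι → L)
    (h : ∀ r, 1 ≤ r → r ≤ Fintype.card ι → ∑ i, z i ^ r ∈ A) (k : ℕ) :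
    (∏ i, (X - C (z i))).coeff k ∈ A := by
  classical
  rcases subsingleton_or_nontrivial L with hL | hL
  · have h0 : (∏ i, (X - C (z i))).coeff k = 0 := Subsingleton.elim _ _
    rw [h0]; exact A.zero_mem
  have hprod : ∏ i, (X - C (z i)) = ((Finset.univ.val.map z).map fun t => X - C t).prod := by
    rw [Multiset.map_map]; rfl
  rw [hprod]
  by_cases hk : k ≤ Fintype.card ι
  · have hk' : k ≤ Multiset.card (Finset.univ.val.map z) := by
      rw [Multiset.card_map]; exact hk
    rw [Multiset.prod_X_sub_C_coeff _ hk']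
    exact A.mul_mem (A.pow_mem (A.neg_mem A.one_mem) _) (esymm_mem_of_psum_mem A z h _)
  · rw [Polynomial.coeff_eq_zero_of_natDegree_lt]
    · exact A.zero_mem
    · rw [Polynomial.natDegree_multiset_prod_X_sub_C_eq_card, Multiset.card_map]
      exact not_le.mp hk

/-- Polynomial form, packaged: the polynomial `∏ i, (X - C (z i))` is the image of a monic
polynomial with coefficients in `A`. -/
theorem exists_poly_eq_prod_X_sub_C [Nontrivial L] (A : Subalgebra ℚ L) {ι : Type*} [Fintype ι]
    (z : ι → L) (h : ∀ r, 1 ≤ r → r ≤ Fintype.card ι → ∑ i, z i ^ r ∈ A) :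
    ∃ P : Polynomial A, P.map (algebraMap A L) = ∏ i, (X - C (z i)) ∧ P.Monic ∧
      P.natDegree = Fintype.card ι := by
  classical
  have hmonic : (∏ i, (X - C (z i))).Monic := Polynomial.monic_prod_of_monic _ _
    (fun i _ => Polynomial.monic_X_sub_C (z i))
  have hlift : (∏ i, (X - C (z i))) ∈ Polynomial.lifts (algebraMap A L) := by
    rw [Polynomial.lifts_iff_coeff_lifts]
    intro k
    exact ⟨⟨_, coeff_prod_X_sub_C_mem A z h k⟩, rfl⟩
  obtain ⟨P, hP, hdeg, hPm⟩ := Polynomial.lifts_and_natDegree_eq_and_monic hlift hmonic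
  refine ⟨P, hP, hPm, ?_⟩
  rw [hdeg, Polynomial.natDegree_prod_of_monic _ _ (fun i _ => Polynomial.monic_X_sub_C (z i))]
  simp

end Newton

end Fermat.Agent.S28.helper1318
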