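import Fermat.Agent.S28.helper328_PrimeSpec

/-!
# S28 (Igusa), leaf P4-RF: base change of the root formula (helper1318)

`helper328.Stmt_FormalPrime p` ends with the *root formula* over every field `k` containing a
primitive `p`-th root of unity `ω`, for every `ξ : kˣ` and `m : ℕ+`.  This file shows that it
suffices to know ONE instance: over one field `K₀` of characteristic `0`, for one primitive
`p`-th root of unity `ω₀`, at `ξ = 1`, `m = 1`.

Route: the identity over `K₀` descends to the universal ring `AdjoinRoot (cyclotomic p ℤ)`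
(which injects into `K₀` because `cyclotomic p ℤ` is the minimal polynomial of `ω₀`), is pushed
forward to `k` along `root ↦ ω`, and then the substitution `t ↦ ξ * t ^ m`
(`qExpand k m ∘ twist ξ`) is applied to the coefficients.

Also exported: the calculus of `coeffMap`, `twist`, `qExpand` on `Jsub` (`J(ζ, m) = j(ζ t^m)`).
-/

set_option autoImplicit false

namespace Fermat.Agent.S28.helper1318

open Polynomial ModularCurve
open Fermat.Agent.S28.helper328

noncomputable section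

section Calculus

variable {R S : Type*} [CommRing R] [CommRing S]

/-- `coeffMap` of an injective ring hom is injective. -/
theorem coeffMap_injective_of_injective (f : R →+* S) (hf : Function.Injective f) :
    Function.Injective (coeffMap f) := by
  intro x y hxy
  ext n
  apply hf
  have := congrArg (fun z => HahnSeries.coeff z n) hxy
  simpa using this

/-- `coeffMap` commutes with `twist`. -/
theorem coeffMap_twist (f : R →+* S) (ζ : Rˣ) (x : LaurentSeries R) :
    coeffMap f (twist ζ x) = twist (Units.map (f : R →* S) ζ) (coeffMap f x) := by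
  ext n
  rw [coeffMap_coeff, twist_coeff, twist_coeff, coeffMap_coeff, map_mul, ← map_zpow,
    Units.coe_map]
  rfl

@[simp] theorem twist_one_unit (x : LaurentSeries R) : twist (1 : Rˣ) x = x := by
  ext n
  rw [twist_coeff, one_zpow, Units.val_one, one_mul]

theorem twist_twist (ξ ζ : Rˣ) (x : LaurentSeries R) :
    twist ξ (twist ζ x) = twist (ξ * ζ) x := by
  ext n
  rw [twist_coeff, twist_coeff, twist_coeff, mul_zpow, Units.val_mul, mul_assoc]

/-- `twist` past `qExpand`: `(f(t^n))(ξ t) = (f(ξ^n t))(t^n)`. -/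
theorem twist_qExpand (ξ : Rˣ) (n : ℕ) [NeZero n] (x : LaurentSeries R) :
    twist ξ (qExpand R n x) = qExpand R n (twist (ξ ^ n) x) := by
  ext k
  by_cases hk : (n : ℤ) ∣ k
  · obtain ⟨i, rfl⟩ := hk
    rw [twist_coeff, qExpand_coeff_mul, qExpand_coeff_mul, twist_coeff, zpow_mul, zpow_natCast]
  · rw [twist_coeff, qExpand_coeff_of_not_dvd _ _ hk, qExpand_coeff_of_not_dvd _ _ hk, mul_zero]

theorem Jsub_one_left (m : ℕ+) : Jsub R (1 : Rˣ) m = qExpand R (m : ℕ) (jqModC R) := by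
  rw [Jsub, twist_one_unit]

theorem Jsub_one_right (ζ : Rˣ) : Jsub R ζ 1 = twist ζ (jqModC R) := by
  rw [Jsub]
  exact qExpand_one_apply _

/-- `coeffMap` on `Jsub`. -/
theorem coeffMap_Jsub (f : R →+* S) (ζ : Rˣ) (m : ℕ+) :
    coeffMap f (Jsub R ζ m) = Jsub S (Units.map (f : R →* S) ζ) m := by
  rw [Jsub, Jsub, coeffMap_qExpand, coeffMap_twist, coeffMap_jqModC]

/-- The substitution `t ↦ ξ t^m` on `Jsub`: `J(ζ, n)(ξ t^m) = J(ξ^n ζ, n m)`. -/
theorem qExpand_twist_Jsub (ξ ζ : Rˣ) (n m : ℕ+) :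
    qExpand R (m : ℕ) (twist ξ (Jsub R ζ n)) = Jsub R (ξ ^ (n : ℕ) * ζ) (n * m) := by
  rw [Jsub, twist_qExpand, twist_twist, qExpand_qExpand, Jsub]
  exact qExpand_congr (by rw [PNat.mul_coe, mul_comm]) _

/-- A ring hom of Laurent series rings carries `evalJ J` to `evalJ` of the image. -/
theorem ringHom_comp_evalJ (g : LaurentSeries R →+* LaurentSeries S) (J : LaurentSeries R) :
    g.comp (evalJ J) = evalJ (g J) := by
  apply Polynomial.ringHom_ext
  · intro a
    simp [evalJ]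
  · simp [evalJ]

theorem map_map_evalJ (g : LaurentSeries R →+* LaurentSeries S) (J : LaurentSeries R)
    (Φ : Polynomial (Polynomial ℤ)) :
    (Φ.map (evalJ J)).map g = Φ.map (evalJ (g J)) := by
  rw [Polynomial.map_map, ringHom_comp_evalJ]

end Calculus

section Universal

variable (p : ℕ) [hp : Fact p.Prime]

/-- The universal ring with a primitive `p`-th root of unity. -/
abbrev CycRing : Type := AdjoinRoot (cyclotomic p ℤ)

omit hp in
theorem cycRoot_pow : (AdjoinRoot.root (cyclotomic p ℤ)) ^ p = 1 := by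
  have h : AdjoinRoot.mk (cyclotomic p ℤ) (X ^ p - 1) = 0 :=
    AdjoinRoot.mk_eq_zero.mpr (cyclotomic.dvd_X_pow_sub_one p ℤ)
  rw [map_sub, map_pow, AdjoinRoot.mk_X, map_one, sub_eq_zero] at h
  exact h

/-- The universal primitive `p`-th root of unity, as a unit. -/
def cycUnit : (CycRing p)ˣ :=
  Units.ofPowEqOne (AdjoinRoot.root (cyclotomic p ℤ)) p (cycRoot_pow p) hp.out.ne_zero

@[simp] theorem cycUnit_val : ((cycUnit p : (CycRing p)ˣ) : CycRing p)
    = AdjoinRoot.root (cyclotomic p ℤ) := rfl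

variable {p}

theorem eval₂_cyclotomic_eq_zero {k : Type*} [Field k] (ω : kˣ) (hω : IsPrimitiveRoot ω p) :
    (cyclotomic p ℤ).eval₂ (Int.castRingHom k) (ω : k) = 0 := by
  rw [eval₂_eq_eval_map, map_cyclotomic_int]
  exact (IsPrimitiveRoot.coe_units_iff.mpr hω).isRoot_cyclotomic hp.out.pos

/-- The specialisation `root ↦ ω`. -/
def cycLift {k : Type*} [Field k] (ω : kˣ) (hω : IsPrimitiveRoot ω p) : CycRing p →+* k :=
  AdjoinRoot.lift (Int.castRingHom k) (ω : k) (eval₂_cyclotomic_eq_zero ω hω)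

theorem cycLift_root {k : Type*} [Field k] (ω : kˣ) (hω : IsPrimitiveRoot ω p) :
    cycLift ω hω (AdjoinRoot.root (cyclotomic p ℤ)) = (ω : k) :=
  AdjoinRoot.lift_root _

theorem map_cycUnit {k : Type*} [Field k] (ω : kˣ) (hω : IsPrimitiveRoot ω p) :
    Units.map (cycLift ω hω : CycRing p →* k) (cycUnit p) = ω := by
  ext
  rw [Units.coe_map]
  exact cycLift_root ω hω

theorem cycLift_injective {K₀ : Type*} [Field K₀] [CharZero K₀] (ω₀ : K₀ˣ)
    (hω₀ : IsPrimitiveRoot ω₀ p) : Function.Injective (cycLift ω₀ hω₀) := by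
  rw [injective_iff_map_eq_zero]
  intro x hx
  obtain ⟨f, rfl⟩ := AdjoinRoot.mk_surjective x
  rw [AdjoinRoot.mk_eq_zero]
  have hprim : IsPrimitiveRoot (ω₀ : K₀) p := IsPrimitiveRoot.coe_units_iff.mpr hω₀
  rw [cyclotomic_eq_minpoly hprim hp.out.pos]
  refine minpoly.isIntegrallyClosed_dvd (hprim.isIntegral hp.out.pos) ?_
  rw [aeval_def]
  have h2 : cycLift ω₀ hω₀ (AdjoinRoot.mk (cyclotomic p ℤ) f)
      = f.eval₂ (Int.castRingHom K₀) (ω₀ : K₀) := AdjoinRoot.lift_mk _ f
  rw [h2] at hx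
  rw [← hx]
  congr 1

end Universal

section Main

variable (p : ℕ) [hp : Fact p.Prime]

/-- The root formula at `ξ = 1`, `m = 1` over a commutative ring `A` with a unit `ω`. -/
def RootFormulaAt (Φ : Polynomial (Polynomial ℤ)) (A : Type*) [CommRing A] (ω : Aˣ) : Prop :=
  Φ.map (evalJ (Jsub A 1 ⟨p, hp.out.pos⟩)) =
    (X - C (Jsub A 1 (⟨p, hp.out.pos⟩ ^ 2))) *
      ∏ b ∈ Finset.range p, (X - C (Jsub A (ω ^ b) 1))

variable {p}

/-- Transport of the basic root formula along a ring hom. -/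
theorem RootFormulaAt.map {Φ : Polynomial (Polynomial ℤ)} {A B : Type*} [CommRing A]
    [CommRing B] {ω : Aˣ} (h : RootFormulaAt p Φ A ω) (f : A →+* B) :
    RootFormulaAt p Φ B (Units.map (f : A →* B) ω) := by
  have h' := congrArg (Polynomial.map (coeffMap f)) h
  rw [map_map_evalJ, Polynomial.map_mul, Polynomial.map_sub, Polynomial.map_X, Polynomial.map_C,
    Polynomial.map_prod, coeffMap_Jsub, coeffMap_Jsub, map_one] at h'
  rw [RootFormulaAt, h']
  congr 1
  refine Finset.prod_congr rfl fun b _ => ?_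
  rw [Polynomial.map_sub, Polynomial.map_X, Polynomial.map_C, coeffMap_Jsub, map_pow]

/-- Descent of the basic root formula along an injective ring hom. -/
theorem RootFormulaAt.of_map {Φ : Polynomial (Polynomial ℤ)} {A B : Type*} [CommRing A]
    [CommRing B] {ω : Aˣ} (f : A →+* B) (hf : Function.Injective f)
    (h : RootFormulaAt p Φ B (Units.map (f : A →* B) ω)) : RootFormulaAt p Φ A ω := by
  apply Polynomial.map_injective (coeffMap f) (coeffMap_injective_of_injective f hf)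
  rw [map_map_evalJ, Polynomial.map_mul, Polynomial.map_sub, Polynomial.map_X, Polynomial.map_C,
    Polynomial.map_prod, coeffMap_Jsub, coeffMap_Jsub, map_one]
  rw [RootFormulaAt] at h
  rw [h]
  congr 1
  refine Finset.prod_congr rfl fun b _ => ?_
  rw [Polynomial.map_sub, Polynomial.map_X, Polynomial.map_C, coeffMap_Jsub, map_pow]

/-- From the basic root formula to the general one (`t ↦ ξ t^m`). -/
theorem RootFormulaAt.general {Φ : Polynomial (Polynomial ℤ)} {A : Type*} [CommRing A]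
    {ω : Aˣ} (h : RootFormulaAt p Φ A ω) (ξ : Aˣ) (m : ℕ+) :
    Φ.map (evalJ (Jsub A (ξ ^ p) (⟨p, hp.out.pos⟩ * m))) =
      (X - C (Jsub A (ξ ^ (p ^ 2)) (⟨p, hp.out.pos⟩ ^ 2 * m))) *
        ∏ b ∈ Finset.range p, (X - C (Jsub A (ω ^ b * ξ) m)) := by
  have h' := congrArg (Polynomial.map ((qExpand A (m : ℕ)).comp (twist ξ))) h
  rw [map_map_evalJ, Polynomial.map_mul, Polynomial.map_sub, Polynomial.map_X, Polynomial.map_C,
    Polynomial.map_prod] at h'
  simp only [RingHom.comp_apply, qExpand_twist_Jsub] at h'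
  rw [PNat.mk_coe, mul_one] at h'
  rw [h']
  congr 1
  · rw [PNat.pow_coe, PNat.mk_coe, mul_one]
  · refine Finset.prod_congr rfl fun b _ => ?_
    rw [Polynomial.map_sub, Polynomial.map_X, Polynomial.map_C, RingHom.comp_apply,
      qExpand_twist_Jsub, PNat.one_coe, pow_one, one_mul, mul_comm]

/-- **Root-formula base change.**  If the root formula holds over ONE field `K₀` of
characteristic zero, for ONE primitive `p`-th root of unity `ω₀`, at `ξ = 1`, `m = 1`, then it
holds over every field `k` with a primitive `p`-th root of unity `ω`, for all `ξ`, `m`.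
The conclusion is verbatim the last clause of `helper328.Stmt_FormalPrime p`. -/
theorem rootFormula_of_charZero (Φ : Polynomial (Polynomial ℤ))
    (K₀ : Type*) [Field K₀] [CharZero K₀] (ω₀ : K₀ˣ) (hω₀ : IsPrimitiveRoot ω₀ p)
    (h₀ : Φ.map (evalJ (Jsub K₀ 1 ⟨p, hp.out.pos⟩)) =
      (X - C (Jsub K₀ 1 (⟨p, hp.out.pos⟩ ^ 2))) *
        ∏ b ∈ Finset.range p, (X - C (Jsub K₀ (ω₀ ^ b) 1))) :
    ∀ (k : Type) [Field k] (ω : kˣ), IsPrimitiveRoot ω p → ∀ (ξ : kˣ) (m : ℕ+),
      Φ.map (evalJ (Jsub k (ξ ^ p) (⟨p, hp.out.pos⟩ * m))) =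
        (X - C (Jsub k (ξ ^ (p ^ 2)) (⟨p, hp.out.pos⟩ ^ 2 * m))) *
          ∏ b ∈ Finset.range p, (X - C (Jsub k (ω ^ b * ξ) m)) := by
  intro k _ ω hω ξ m
  have hK₀ : RootFormulaAt p Φ K₀ (Units.map (cycLift ω₀ hω₀ : CycRing p →* K₀) (cycUnit p)) := by
    rw [map_cycUnit]; exact h₀
  have hU : RootFormulaAt p Φ (CycRing p) (cycUnit p) :=
    RootFormulaAt.of_map (cycLift ω₀ hω₀) (cycLift_injective ω₀ hω₀) hK₀
  have hk : RootFormulaAt p Φ k ω := by
    have := hU.map (cycLift ω hω)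
    rwa [map_cycUnit] at this
  exact hk.general ξ m

/-- `helper328.Stmt_FormalPrime p` with the root formula only required over ONE field of
characteristic zero, for ONE primitive `p`-th root of unity, at `ξ = 1`, `m = 1`
(all other clauses verbatim). -/
def Stmt_FormalPrimeLite (p : ℕ) [hp : Fact p.Prime] : Prop :=
  haveI : NeZero p := ⟨hp.out.ne_zero⟩
  ∃ (Φ G : Polynomial (Polynomial ℤ)) (T : ℕ → Polynomial ℤ) (Ψ : Polynomial (LaurentSeries ℤ)),
    Φ.Monic ∧ Φ.natDegree = p + 1 ∧ G.Monic ∧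
    (G.coeff 0 = C ((p : ℤ) ^ 12) ∨ G.coeff 0 = C (-(p : ℤ) ^ 12)) ∧
    (G.map (evalJ (jqModC ℤ))).eval (gHat p) = 0 ∧
    Φ.map (evalJ (jqModC ℤ)) = (X - C (qExpand ℤ p (jqModC ℤ))) * Ψ ∧
    Ψ.eval (qExpand ℤ p (jqModC ℤ)) * gHat p =
      ∑ i ∈ Finset.range (p + 1), Ψ.coeff i * evalJ (jqModC ℤ) (T i) ∧
    ∃ (K₀ : Type) (_ : Field K₀) (_ : CharZero K₀) (ω₀ : K₀ˣ), IsPrimitiveRoot ω₀ p ∧
      Φ.map (evalJ (Jsub K₀ 1 ⟨p, hp.out.pos⟩)) =
        (X - C (Jsub K₀ 1 (⟨p, hp.out.pos⟩ ^ 2))) *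
          ∏ b ∈ Finset.range p, (X - C (Jsub K₀ (ω₀ ^ b) 1))

/-- The lite statement implies `helper328.Stmt_FormalPrime p`. -/
theorem stmt_FormalPrime_of_lite (p : ℕ) [hp : Fact p.Prime] (h : Stmt_FormalPrimeLite p) :
    Stmt_FormalPrime p := by
  obtain ⟨Φ, G, T, Ψ, h1, h2, h3, h4, h5, h6, h7, K₀, _, _, ω₀, hω₀, h₀⟩ := h
  exact ⟨Φ, G, T, Ψ, h1, h2, h3, h4, h5, h6, h7, rootFormula_of_charZero Φ K₀ ω₀ hω₀ h₀⟩

/-- Conversely (sanity check of the interface): `Stmt_FormalPrime p` gives the lite statement,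
with `K₀ = ℂ`. -/
theorem stmt_FormalPrimeLite_of_stmt (p : ℕ) [hp : Fact p.Prime] (h : Stmt_FormalPrime p) :
    Stmt_FormalPrimeLite p := by
  obtain ⟨Φ, G, T, Ψ, h1, h2, h3, h4, h5, h6, h7, h8⟩ := h
  obtain ⟨ζ, hζ⟩ : ∃ ζ : ℂ, IsPrimitiveRoot ζ p :=
    ⟨_, Complex.isPrimitiveRoot_exp p hp.out.ne_zero⟩
  have hζ0 : ζ ≠ 0 := hζ.ne_zero hp.out.ne_zero
  let ω₀ : ℂˣ := Units.mk0 ζ hζ0
  have hω₀ : IsPrimitiveRoot ω₀ p := IsPrimitiveRoot.coe_units_iff.mp hζ
  refine ⟨Φ, G, T, Ψ, h1, h2, h3, h4, h5, h6, h7, ℂ, inferInstance, inferInstance, ω₀, hω₀, ?_⟩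
  have h9 := h8 ℂ ω₀ hω₀ 1 1
  simpa using h9

end Main

end

end Fermat.Agent.S28.helper1318
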