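import Fermat.Agent.S28.helper2608_Spec

/-!
# S28: the field (INT) of `Spec.Stmt_CoreInput` is automatic

`Spec.Stmt_CoreInput N ℓ` asks for a field `L ⊇ F`, a family `b : Fin n → ℤ((q))` in `L` with
(DEG) `[L : ℚ(j)] ≤ n`, (LI) reductions mod `ℓ` linearly independent over `𝔽_ℓ[j̄]`, and
(INT) every `b i` integral over `ℤ[j]`.

This file shows that (INT) costs nothing: from (MEM), (DEG), (LI) alone, every `x ∈ ℤ((q))` with
`toQ x ∈ L` has a multiple `s(j) * x`, `s ∈ ℤ[X]`, `s ≢ 0 mod ℓ`, which is integral over `ℤ[j]`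
(`exists_scaled_integral`).  Replacing `b i` by `s_i(j) * b i` keeps (MEM) and (LI), hence

* `stmt_CoreInput_of_noInt` : `(F ≤ L) → (MEM) → (DEG) → (LI) → Spec.Stmt_CoreInput N ℓ`.

Proof of the key lemma: (DEG) applied to `x * b i, b 0, …, b (n-1)` gives a relation
`s_i(j) * x * b i = ∑ k, a_{ik}(j) * b k` over `ℤ[j]`; after dividing by the `ℓ`-content, (LI) forces
`s_i ≢ 0 mod ℓ`.  With `s = ∏ s_i` the element `y = s(j) * x` satisfies `y • b = A b` for a matrix
`A` over `ℤ[j]`, so the characteristic polynomial of `A` (monic, over `ℤ[j]`) kills `y`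
(`ℤ((q))` is a domain and `b ≠ 0`).
-/

set_option autoImplicit false

noncomputable section

namespace Fermat.Agent.S28.helper1348

open ModularCurve Polynomial
open Fermat.Agent.S28.Spec

/-! ## Change of coefficients and evaluation at `j` -/

theorem toQ_inj : Function.Injective toQ := by
  intro x y h
  ext k
  have := congrArg (fun z => z.coeff k) h
  simpa using this

/-- `toQ (P(j)) = P(j)` for `P ∈ ℤ[X]`. -/
theorem toQ_aeval (p : Polynomial ℤ) :
    toQ (Polynomial.aeval (jqModC ℤ) p) = Polynomial.aeval jq p := by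
  rw [Polynomial.aeval_def, Polynomial.aeval_def, Polynomial.hom_eval₂]
  have h1 : toQ (jqModC ℤ) = jq := by
    rw [show toQ = coeffMap (Int.castRingHom ℚ) from rfl, coeffMap_jqModC, jqModC_rat]
  rw [h1]
  congr 1
  exact RingHom.ext_int _ _

/-- `toFl (P(j)) = P̄(j̄)` for `P ∈ ℤ[X]`. -/
theorem toFl_aeval (ℓ : ℕ) (p : Polynomial ℤ) :
    toFl ℓ (Polynomial.aeval (jqModC ℤ) p) =
      Polynomial.aeval (jqModC (ZMod ℓ)) (p.map (Int.castRingHom (ZMod ℓ))) := by
  rw [Polynomial.aeval_def, Polynomial.aeval_def, Polynomial.hom_eval₂, Polynomial.eval₂_map]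
  have h1 : toFl ℓ (jqModC ℤ) = jqModC (ZMod ℓ) := by
    rw [show toFl ℓ = coeffMap (Int.castRingHom (ZMod ℓ)) from rfl, coeffMap_jqModC]
  rw [h1]
  congr 1
  exact RingHom.ext_int _ _

/-! ## Dividing a family of integer polynomials by its `ℓ`-content -/

theorem exists_normalize_aux (ℓ : ℕ) (hℓ : 1 < ℓ) {m : ℕ} (k0 : Fin m) (d : ℕ) :
    ∀ (B : ℕ) (c : Fin m → Polynomial ℤ), ((c k0).coeff d).natAbs ≤ B → (c k0).coeff d ≠ 0 →
      ∃ (e : ℕ) (c' : Fin m → Polynomial ℤ), (∀ k, c k = C ((ℓ : ℤ) ^ e) * c' k) ∧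
        ∃ k, (c' k).map (Int.castRingHom (ZMod ℓ)) ≠ 0 := by
  intro B
  induction B with
  | zero =>
    intro c hB h0
    exact absurd (Int.natAbs_eq_zero.mp (Nat.le_zero.mp hB)) h0
  | succ B ih =>
    intro c hB h0
    by_cases h : ∃ k, (c k).map (Int.castRingHom (ZMod ℓ)) ≠ 0
    · exact ⟨0, c, fun k => by simp, h⟩
    · push Not at h
      have hdiv : ∀ k, ∃ c'' : Polynomial ℤ, c k = C (ℓ : ℤ) * c'' := by
        intro k
        have hk := h k
        have : C (ℓ : ℤ) ∣ c k := by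
          rw [Polynomial.C_dvd_iff_dvd_coeff]
          intro i
          have h2 := congrArg (fun p => p.coeff i) hk
          simp only [Polynomial.coeff_map, Polynomial.coeff_zero, eq_intCast] at h2
          exact (ZMod.intCast_zmod_eq_zero_iff_dvd _ _).mp h2
        exact this
      choose c'' hc'' using hdiv
      have h1 : (c k0).coeff d = (ℓ : ℤ) * (c'' k0).coeff d := by
        rw [hc'' k0, Polynomial.coeff_C_mul]
      have h0' : (c'' k0).coeff d ≠ 0 := by
        intro h2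
        rw [h2, mul_zero] at h1
        exact h0 h1
      have hlt : ((c'' k0).coeff d).natAbs ≤ B := by
        have h3 : ((c k0).coeff d).natAbs = ℓ * ((c'' k0).coeff d).natAbs := by
          rw [h1, Int.natAbs_mul, Int.natAbs_natCast]
        have h4 : 0 < ((c'' k0).coeff d).natAbs := Int.natAbs_pos.mpr h0'
        have h5 : 2 * ((c'' k0).coeff d).natAbs ≤ ℓ * ((c'' k0).coeff d).natAbs :=
          Nat.mul_le_mul_right _ hℓ
        omega
      obtain ⟨e, c', hc', hk⟩ := ih c'' hlt h0'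
      refine ⟨e + 1, c', fun k => ?_, hk⟩
      rw [hc'' k, hc' k, pow_succ, C_mul]
      ring

theorem exists_normalize (ℓ : ℕ) (hℓ : 1 < ℓ) {m : ℕ} (c : Fin m → Polynomial ℤ) (hc : c ≠ 0) :
    ∃ (e : ℕ) (c' : Fin m → Polynomial ℤ), (∀ k, c k = C ((ℓ : ℤ) ^ e) * c' k) ∧
      ∃ k, (c' k).map (Int.castRingHom (ZMod ℓ)) ≠ 0 := by
  obtain ⟨k0, hk0⟩ : ∃ k0, c k0 ≠ 0 := by
    by_contra h
    push Not at h
    exact hc (funext h)
  obtain ⟨d, hd⟩ : ∃ d, (c k0).coeff d ≠ 0 := by
    by_contra h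
    push Not at h
    exact hk0 (Polynomial.ext h)
  exact exists_normalize_aux ℓ hℓ k0 d _ c le_rfl hd

/-! ## The key relation -/

section Key

variable {ℓ : ℕ} [hℓ : Fact ℓ.Prime] {n : ℕ} (L : IntermediateField ℚ (LaurentSeries ℚ))
  (b : Fin n → LaurentSeries ℤ)

theorem intCast_laurentQ_ne_zero {a : ℤ} (ha : a ≠ 0) : (a : LaurentSeries ℚ) ≠ 0 := by
  have h : (a : LaurentSeries ℚ) = algebraMap ℚ (LaurentSeries ℚ) (a : ℚ) := by
    rw [map_intCast]
  rw [h]
  intro h0
  have := (algebraMap ℚ (LaurentSeries ℚ)).injective (h0.trans (map_zero _).symm)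
  exact ha (by exact_mod_cast this)

/-- For `y ∈ ℤ((q))` with `toQ y ∈ L` there is a relation `s(j) * y = ∑ k, a k (j) * b k` over
`ℤ[j]` with `s ≢ 0 mod ℓ`. -/
theorem exists_rel (hmem : ∀ i, toQ (b i) ∈ L) (hdeg : DegLE L n) (hLI : LinIndepModL ℓ b)
    (y : LaurentSeries ℤ) (hy : toQ y ∈ L) :
    ∃ (s : Polynomial ℤ) (a : Fin n → Polynomial ℤ),
      s.map (Int.castRingHom (ZMod ℓ)) ≠ 0 ∧
      Polynomial.aeval (jqModC ℤ) s * y = ∑ k, Polynomial.aeval (jqModC ℤ) (a k) * b k := by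
  classical
  set v : Fin (n + 1) → LaurentSeries ℚ := Fin.cons (toQ y) (fun k => toQ (b k)) with hv
  have hvL : ∀ i, v i ∈ L := by
    intro i
    refine Fin.cases ?_ ?_ i
    · simpa [hv] using hy
    · intro k
      simpa [hv] using hmem k
  obtain ⟨c, hc0, hc⟩ := hdeg v hvL
  obtain ⟨e, c', hcc', k1, hk1⟩ := exists_normalize ℓ hℓ.out.one_lt c hc0
  -- the normalized relation over ℚ
  have hrel : ∑ i, Polynomial.aeval jq (c' i) * v i = 0 := by
    have h1 : ∑ i, Polynomial.aeval jq (c i) * v i =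
        (((ℓ : ℤ) ^ e : ℤ) : LaurentSeries ℚ) * ∑ i, Polynomial.aeval jq (c' i) * v i := by
      rw [Finset.mul_sum]
      refine Finset.sum_congr rfl fun i _ => ?_
      rw [hcc' i, map_mul, Polynomial.aeval_C, eq_intCast, mul_assoc]
    rw [h1] at hc
    rcases mul_eq_zero.mp hc with h | h
    · exact absurd h (intCast_laurentQ_ne_zero
        (pow_ne_zero _ (by exact_mod_cast hℓ.out.ne_zero)))
    · exact h
  -- the relation over ℤ
  have hZ : Polynomial.aeval (jqModC ℤ) (c' 0) * y +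
      ∑ k : Fin n, Polynomial.aeval (jqModC ℤ) (c' k.succ) * b k = 0 := by
    apply toQ_inj
    rw [map_zero, map_add, map_mul, map_sum, toQ_aeval]
    rw [Fin.sum_univ_succ] at hrel
    rw [← hrel]
    congr 1
    refine Finset.sum_congr rfl fun k _ => ?_
    rw [map_mul, toQ_aeval]
    simp [hv]
  -- reduce mod ℓ
  have hFl : Polynomial.aeval (jqModC (ZMod ℓ)) ((c' 0).map (Int.castRingHom (ZMod ℓ))) * toFl ℓ y +
      ∑ k : Fin n, Polynomial.aeval (jqModC (ZMod ℓ))
        ((c' k.succ).map (Int.castRingHom (ZMod ℓ))) * toFl ℓ (b k) = 0 := by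
    have h := congrArg (toFl ℓ) hZ
    rw [map_zero, map_add, map_mul, map_sum, toFl_aeval] at h
    rw [← h]
    congr 1
    refine Finset.sum_congr rfl fun k _ => ?_
    rw [map_mul, toFl_aeval]
  have hs : (c' 0).map (Int.castRingHom (ZMod ℓ)) ≠ 0 := by
    intro h0
    rw [h0, map_zero, zero_mul, zero_add] at hFl
    have hall := hLI (fun k => (c' k.succ).map (Int.castRingHom (ZMod ℓ))) hFl
    apply hk1
    refine Fin.cases ?_ ?_ k1
    · exact h0
    · intro k
      exact congrFun hall k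
  refine ⟨c' 0, fun k => -c' k.succ, hs, ?_⟩
  rw [eq_neg_of_add_eq_zero_left hZ, ← Finset.sum_neg_distrib]
  refine Finset.sum_congr rfl fun k _ => ?_
  rw [map_neg, neg_mul]

/-- **Key lemma.** From (MEM), (DEG), (LI): every `x ∈ ℤ((q))` with `toQ x ∈ L` has a multiple
`s(j) * x`, `s ≢ 0 mod ℓ`, integral over `ℤ[j]`. -/
theorem exists_scaled_integral (hn : 0 < n) (hmem : ∀ i, toQ (b i) ∈ L) (hdeg : DegLE L n)
    (hLI : LinIndepModL ℓ b) (x : LaurentSeries ℤ) (hx : toQ x ∈ L) :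
    ∃ s : Polynomial ℤ, s.map (Int.castRingHom (ZMod ℓ)) ≠ 0 ∧
      IsIntegralOverZj (Polynomial.aeval (jqModC ℤ) s * x) := by
  classical
  -- `b ≠ 0`
  have hb0 : b ≠ 0 := by
    intro hb
    have h := hLI (fun _ => 1) (by simp [hb])
    have h1 := congrFun h ⟨0, hn⟩
    simp at h1
  -- relations for every `i`
  have hrel : ∀ i, ∃ (s : Polynomial ℤ) (a : Fin n → Polynomial ℤ),
      s.map (Int.castRingHom (ZMod ℓ)) ≠ 0 ∧
      Polynomial.aeval (jqModC ℤ) s * (x * b i) =
        ∑ k, Polynomial.aeval (jqModC ℤ) (a k) * b k := by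
    intro i
    refine exists_rel L b hmem hdeg hLI (x * b i) ?_
    rw [map_mul]
    exact mul_mem hx (hmem i)
  choose s a hs hsa using hrel
  set S : Polynomial ℤ := ∏ i, s i with hS
  have hSne : S.map (Int.castRingHom (ZMod ℓ)) ≠ 0 := by
    rw [hS, Polynomial.map_prod]
    exact Finset.prod_ne_zero_iff.mpr fun i _ => hs i
  set A : Matrix (Fin n) (Fin n) (Polynomial ℤ) :=
    fun i k => (∏ i' ∈ Finset.univ.erase i, s i') * a i k with hA
  set y : LaurentSeries ℤ := Polynomial.aeval (jqModC ℤ) S * x with hy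
  have hyb : ∀ i, y * b i = ∑ k, Polynomial.aeval (jqModC ℤ) (A i k) * b k := by
    intro i
    have h1 : S = s i * ∏ i' ∈ Finset.univ.erase i, s i' :=
      (Finset.mul_prod_erase Finset.univ s (Finset.mem_univ i)).symm
    calc y * b i = Polynomial.aeval (jqModC ℤ) (∏ i' ∈ Finset.univ.erase i, s i') *
          (Polynomial.aeval (jqModC ℤ) (s i) * (x * b i)) := by
          rw [hy, h1, map_mul]; ring
      _ = ∑ k, Polynomial.aeval (jqModC ℤ) (A i k) * b k := by
          rw [hsa i, Finset.mul_sum]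
          refine Finset.sum_congr rfl fun k _ => ?_
          rw [hA, map_mul]; ring
  set f : Polynomial ℤ →+* LaurentSeries ℤ := (Polynomial.aeval (jqModC ℤ)).toRingHom with hf
  have hdet : (Matrix.scalar (Fin n) y - A.map f).det = 0 := by
    rw [← Matrix.exists_mulVec_eq_zero_iff]
    refine ⟨b, hb0, ?_⟩
    funext i
    rw [Matrix.sub_mulVec, Pi.sub_apply, Pi.zero_apply, sub_eq_zero]
    have h2 : (Matrix.scalar (Fin n) y).mulVec b i = y * b i := by
      rw [Matrix.scalar_apply, Matrix.mulVec_diagonal]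
    rw [h2, hyb i]
    simp [Matrix.mulVec, dotProduct, hf]
  refine ⟨S, hSne, A.charpoly, Matrix.charpoly_monic A, ?_⟩
  rw [← Polynomial.eval_map, ← Matrix.charpoly_map, Matrix.eval_charpoly]
  exact hdet

end Key

/-! ## The adapter -/

/-- `ℚ(j)`-polynomials in `j` with integer coefficients lie in every intermediate field
containing `jq`. -/
theorem aeval_jq_mem (L : IntermediateField ℚ (LaurentSeries ℚ)) (hj : jq ∈ L)
    (p : Polynomial ℤ) : Polynomial.aeval jq p ∈ L := by
  rw [Polynomial.aeval_def, Polynomial.eval₂_eq_sum_range]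
  refine sum_mem fun i _ => mul_mem ?_ (pow_mem hj i)
  rw [eq_intCast]
  exact intCast_mem L _

/-- **(INT) is free.** `(F ≤ L)`, (MEM), (DEG) and (LI) alone give `Spec.Stmt_CoreInput N ℓ`. -/
theorem stmt_CoreInput_of_noInt {N ℓ : ℕ} [hℓ : Fact ℓ.Prime] (n : ℕ)
    (L : IntermediateField ℚ (LaurentSeries ℚ)) (b : Fin n → LaurentSeries ℤ)
    (hFL : modularFunctionFieldFull N ≤ L) (hmem : ∀ i, toQ (b i) ∈ L)
    (hdeg : DegLE L n) (hLI : LinIndepModL ℓ b) : Stmt_CoreInput N ℓ := by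
  classical
  have hjL : jq ∈ L := by
    apply hFL
    have h := jqd_mem_full N (d := 1) (one_dvd N)
    rwa [qExpand_one_apply] at h
  have hkey : ∀ i : Fin n, ∃ s : Polynomial ℤ, s.map (Int.castRingHom (ZMod ℓ)) ≠ 0 ∧
      IsIntegralOverZj (Polynomial.aeval (jqModC ℤ) s * b i) := fun i =>
    exists_scaled_integral L b (lt_of_le_of_lt (Nat.zero_le _) i.isLt) hmem hdeg hLI (b i) (hmem i)
  choose s hs hint using hkey
  refine ⟨n, L, fun i => Polynomial.aeval (jqModC ℤ) (s i) * b i, hFL, ?_, hint, hdeg, ?_⟩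
  · intro i
    rw [map_mul, toQ_aeval]
    exact mul_mem (aeval_jq_mem L hjL _) (hmem i)
  · intro c hc
    have h1 : ∑ i, Polynomial.aeval (jqModC (ZMod ℓ))
        (c i * (s i).map (Int.castRingHom (ZMod ℓ))) * toFl ℓ (b i) = 0 := by
      rw [← hc]
      refine Finset.sum_congr rfl fun i _ => ?_
      rw [map_mul (toFl ℓ), toFl_aeval, map_mul]
      ring
    have h2 := hLI (fun i => c i * (s i).map (Int.castRingHom (ZMod ℓ))) h1
    funext i
    have h3 := congrFun h2 i
    simp only [Pi.zero_apply] at h3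
    rcases mul_eq_zero.mp h3 with h | h
    · exact h
    · exact absurd h (hs i)

end Fermat.Agent.S28.helper1348
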