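import Mathlib

/-!
# A dictionary between holomorphic functions on `ℍ` with a pole at `i∞` and Laurent series

For a width `N ≥ 1` we use the local parameter `t = exp (2 π i τ / N)` at `i∞`.
`IsMero N M f` says that `f : ℍ → ℂ` is holomorphic, `N`-periodic and `t ^ M * f` is bounded at
`i∞`.  For such functions `Lexp N f : LaurentSeries ℂ` is the expansion of `f` in powers of `t`.
`Lexp N` is an injective `ℂ`-algebra homomorphism on the algebra `merAlg N` of all such functions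
(`LexpHom`).  Everything is built on Mathlib's `UpperHalfPlane.qExpansion`.
-/

set_option autoImplicit false

namespace Fermat.Agent.S28.helper1422

open UpperHalfPlane Filter Function Complex
open scoped Manifold Topology

local notation "𝕢" => Periodic.qParam

/-- The local parameter `t = exp (2 π i τ / N)` at `i∞`. -/
noncomputable def tpar (N : ℕ) (τ : ℍ) : ℂ := 𝕢 (N : ℝ) τ

section tpar

variable (N : ℕ) [NeZero N]

lemma natCast_pos' : (0 : ℝ) < (N : ℝ) := by
  exact_mod_cast Nat.pos_of_ne_zero (NeZero.ne N)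

omit [NeZero N] in
lemma tpar_ne_zero (τ : ℍ) : tpar N τ ≠ 0 := Periodic.qParam_ne_zero _

omit [NeZero N] in
lemma tpar_eq (τ : ℍ) : tpar N τ = Complex.exp (2 * Real.pi * Complex.I * (τ : ℂ) / (N : ℂ)) := by
  simp [tpar, Periodic.qParam]

lemma tpar_vadd (τ : ℍ) : tpar N ((N : ℝ) +ᵥ τ) = tpar N τ := by
  have hN : (N : ℂ) ≠ 0 := by exact_mod_cast NeZero.ne N
  rw [tpar_eq, tpar_eq, UpperHalfPlane.coe_vadd]
  have : 2 * (Real.pi : ℂ) * Complex.I * (((N : ℝ) : ℂ) + (τ : ℂ)) / (N : ℂ)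
      = 2 * Real.pi * Complex.I * (τ : ℂ) / (N : ℂ) + 2 * Real.pi * Complex.I := by
    push_cast
    field_simp
    ring
  rw [this, Complex.exp_add, Complex.exp_two_pi_mul_I, mul_one]

omit [NeZero N] in
lemma mdiff_tpar : MDiff (tpar N) := by
  rw [UpperHalfPlane.mdifferentiable_iff]
  have h1 : DifferentiableOn ℂ (𝕢 (N : ℝ)) {z : ℂ | 0 < z.im} :=
    (Periodic.differentiable_qParam (h := (N : ℝ))).differentiableOn
  refine h1.congr fun z hz => ?_
  simp [tpar, Function.comp, UpperHalfPlane.ofComplex_apply_of_im_pos hz]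

lemma tendsto_tpar : Tendsto (tpar N) atImInfty (𝓝 0) :=
  UpperHalfPlane.qParam_tendsto_atImInfty (natCast_pos' N)

lemma norm_tpar_lt_one (τ : ℍ) : ‖tpar N τ‖ < 1 :=
  Periodic.norm_qParam_lt_one (natCast_pos' N) τ.im_pos

lemma isBoundedAtImInfty_tpar : IsBoundedAtImInfty (tpar N) :=
  (tendsto_tpar N).isBigO_one ℝ

end tpar

/-- Holomorphic and `N`-periodic. -/
structure IsPer (N : ℕ) (f : ℍ → ℂ) : Prop where
  mdiff : MDiff f
  periodic : ∀ τ : ℍ, f ((N : ℝ) +ᵥ τ) = f τ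

/-- Holomorphic, `N`-periodic and bounded at `i∞`. -/
structure IsHol (N : ℕ) (f : ℍ → ℂ) : Prop extends IsPer N f where
  bdd : IsBoundedAtImInfty f

/-- Holomorphic, `N`-periodic and `t ^ M * f` bounded at `i∞`: a pole of order at most `M`
in the parameter `t = exp (2 π i τ / N)`. -/
structure IsMero (N M : ℕ) (f : ℍ → ℂ) : Prop extends IsPer N f where
  bdd : IsBoundedAtImInfty (fun τ => tpar N τ ^ M * f τ)

section IsPer

variable {N : ℕ} {f g : ℍ → ℂ}

lemma IsPer.periodic_comp (hf : IsPer N f) : Periodic (f ∘ ofComplex) ((N : ℝ) : ℂ) := by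
  intro w
  by_cases hw : 0 < w.im
  · have hw' : 0 < (w + ((N : ℝ) : ℂ)).im := by simpa using hw
    simp only [comp_apply, ofComplex_apply_of_im_pos hw', ofComplex_apply_of_im_pos hw]
    rw [← hf.periodic ⟨w, hw⟩]
    congr 1
    ext
    simp [UpperHalfPlane.coe_vadd, add_comm]
  · have hw1 : w.im ≤ 0 := not_lt.mp hw
    have hw' : (w + ((N : ℝ) : ℂ)).im ≤ 0 := by simpa using hw1
    simp only [comp_apply]
    rw [ofComplex_apply_of_im_nonpos hw', ofComplex_apply_of_im_nonpos hw1]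

lemma IsPer.const (N : ℕ) (c : ℂ) : IsPer N (fun _ => c) :=
  ⟨mdifferentiable_const, fun _ => rfl⟩

lemma IsPer.add (hf : IsPer N f) (hg : IsPer N g) : IsPer N (fun τ => f τ + g τ) :=
  ⟨hf.mdiff.add hg.mdiff, fun τ => by rw [hf.periodic, hg.periodic]⟩

lemma IsPer.mul (hf : IsPer N f) (hg : IsPer N g) : IsPer N (fun τ => f τ * g τ) :=
  ⟨hf.mdiff.mul hg.mdiff, fun τ => by rw [hf.periodic, hg.periodic]⟩

lemma IsPer.neg (hf : IsPer N f) : IsPer N (fun τ => -f τ) :=
  ⟨hf.mdiff.neg, fun τ => by rw [hf.periodic]⟩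

lemma isPer_tpar (N : ℕ) [NeZero N] : IsPer N (tpar N) :=
  ⟨mdiff_tpar N, tpar_vadd N⟩

lemma IsPer.pow (hf : IsPer N f) (k : ℕ) : IsPer N (fun τ => f τ ^ k) :=
  ⟨hf.mdiff.pow k, fun τ => by rw [hf.periodic]⟩

end IsPer

section IsHol

variable {N : ℕ} [NeZero N] {f g : ℍ → ℂ}

lemma IsHol.analyticAt (hf : IsHol N f) : AnalyticAt ℂ (cuspFunction (N : ℝ) f) 0 :=
  analyticAt_cuspFunction_zero (natCast_pos' N) hf.toIsPer.periodic_comp hf.mdiff hf.bdd

lemma IsHol.hasSum (hf : IsHol N f) (τ : ℍ) :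
    HasSum (fun m : ℕ => (qExpansion (N : ℝ) f).coeff m * tpar N τ ^ m) (f τ) := by
  simpa [tpar, smul_eq_mul] using
    hasSum_qExpansion (natCast_pos' N) hf.toIsPer.periodic_comp hf.mdiff hf.bdd τ

omit [NeZero N] in
lemma IsHol.const (N : ℕ) (c : ℂ) : IsHol N (fun _ => c) :=
  ⟨IsPer.const N c, (tendsto_const_nhds (x := c)).isBigO_one ℝ⟩

omit [NeZero N] in
lemma IsHol.add (hf : IsHol N f) (hg : IsHol N g) : IsHol N (fun τ => f τ + g τ) :=
  ⟨hf.toIsPer.add hg.toIsPer, hf.bdd.add hg.bdd⟩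

omit [NeZero N] in
lemma IsHol.mul (hf : IsHol N f) (hg : IsHol N g) : IsHol N (fun τ => f τ * g τ) :=
  ⟨hf.toIsPer.mul hg.toIsPer, hf.bdd.mul hg.bdd⟩

omit [NeZero N] in
lemma IsHol.neg (hf : IsHol N f) : IsHol N (fun τ => -f τ) :=
  ⟨hf.toIsPer.neg, hf.bdd.neg⟩

lemma isHol_tpar (N : ℕ) [NeZero N] : IsHol N (tpar N) :=
  ⟨isPer_tpar N, isBoundedAtImInfty_tpar N⟩

lemma isHol_tpar_pow (N : ℕ) [NeZero N] (k : ℕ) : IsHol N (fun τ => tpar N τ ^ k) := by
  induction k with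
  | zero => simpa using IsHol.const N 1
  | succ k ih => simpa [pow_succ] using ih.mul (isHol_tpar N)

/-- A wrapper making a plain function `FunLike` (only used to call Mathlib lemmas stated for
`FunLike` types). -/
structure FunWrap where
  /-- the underlying function -/
  toFun : ℍ → ℂ

instance : FunLike FunWrap ℍ ℂ := ⟨FunWrap.toFun, fun a b h => by cases a; cases b; congr⟩

omit [NeZero N] in
lemma qExpansion_coeff_unique' {h : ℝ} (hh : 0 < h) {c : ℕ → ℂ}
    (hfanalytic : AnalyticAt ℂ (cuspFunction h f) 0)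
    (hf : ∀ τ : ℍ, HasSum (fun m ↦ c m • 𝕢 h τ ^ m) (f τ)) (m : ℕ) :
    c m = (qExpansion h f).coeff m :=
  qExpansion_coeff_unique (FunWrap.mk f) hh hfanalytic hf m

/-- A holomorphic periodic function given everywhere by a convergent power series in `t` is
bounded at `i∞` and the power series is its `q`-expansion. -/
lemma isHol_of_hasSum (hf : IsPer N f) (c : ℕ → ℂ)
    (h : ∀ τ : ℍ, HasSum (fun m : ℕ => c m * tpar N τ ^ m) (f τ)) :
    IsHol N f ∧ qExpansion (N : ℝ) f = PowerSeries.mk c := by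
  have h' : ∀ τ : ℍ, HasSum (fun m : ℕ => c m • 𝕢 (N : ℝ) τ ^ m) (f τ) := fun τ => h τ
  have hbdd : IsBoundedAtImInfty f := isBoundedAtImInfty_of_hasSum_qExpansion (natCast_pos' N) h'
  have hH : IsHol N f := ⟨hf, hbdd⟩
  refine ⟨hH, ?_⟩
  ext m
  rw [PowerSeries.coeff_mk]
  exact (qExpansion_coeff_unique' (natCast_pos' N) hH.analyticAt h' m).symm

lemma IsHol.qExpansion_mul (hf : IsHol N f) (hg : IsHol N g) :
    qExpansion (N : ℝ) (fun τ => f τ * g τ) = qExpansion (N : ℝ) f * qExpansion (N : ℝ) g :=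
  UpperHalfPlane.qExpansion_mul hf.analyticAt hg.analyticAt

lemma IsHol.qExpansion_add (hf : IsHol N f) (hg : IsHol N g) :
    qExpansion (N : ℝ) (fun τ => f τ + g τ) = qExpansion (N : ℝ) f + qExpansion (N : ℝ) g :=
  UpperHalfPlane.qExpansion_add hf.analyticAt hg.analyticAt

lemma qExpansion_const (N : ℕ) [NeZero N] (c : ℂ) :
    qExpansion (N : ℝ) (fun _ : ℍ => c) = PowerSeries.C c := by
  have h := (isHol_of_hasSum (IsPer.const N c) (fun m => if m = 0 then c else 0) ?_).2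
  · rw [h]
    ext m
    simp [PowerSeries.coeff_C]
  · intro τ
    convert hasSum_ite_eq (0 : ℕ) c using 1
    ext m
    split_ifs with hm <;> simp [hm]

lemma qExpansion_tpar (N : ℕ) [NeZero N] : qExpansion (N : ℝ) (tpar N) = PowerSeries.X := by
  have h := (isHol_of_hasSum (isPer_tpar N) (fun m => if m = 1 then 1 else 0) ?_).2
  · rw [h]
    ext m
    simp [PowerSeries.coeff_X]
  · intro τ
    convert hasSum_ite_eq (1 : ℕ) (tpar N τ) using 1
    ext m
    split_ifs with hm <;> simp [hm]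

lemma IsHol.eq_zero (hf : IsHol N f) (h : qExpansion (N : ℝ) f = 0) : f = 0 :=
  (qExpansion_eq_zero_iff (natCast_pos' N) hf.toIsPer.periodic_comp hf.mdiff hf.bdd).mp h

end IsHol

section lexp

variable {N : ℕ} [NeZero N] {M M' : ℕ} {f g : ℍ → ℂ}

lemma IsMero.isHol (hf : IsMero N M f) : IsHol N (fun τ => tpar N τ ^ M * f τ) :=
  ⟨((isPer_tpar N).pow M).mul hf.toIsPer, hf.bdd⟩

omit [NeZero N] in
lemma IsHol.isMero (hf : IsHol N f) : IsMero N 0 f :=
  ⟨hf.toIsPer, by simpa using hf.bdd⟩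

lemma IsMero.succ (hf : IsMero N M f) : IsMero N (M + 1) f := by
  refine ⟨hf.toIsPer, ?_⟩
  have h := ((isHol_tpar N).mul hf.isHol).bdd
  have e : (fun τ => tpar N τ ^ (M + 1) * f τ) = fun τ => tpar N τ * (tpar N τ ^ M * f τ) := by
    funext τ; ring
  rw [e]; exact h

lemma IsMero.mono (hf : IsMero N M f) (h : M ≤ M') : IsMero N M' f := by
  induction M', h using Nat.le_induction with
  | base => exact hf
  | succ k _ ih => exact ih.succ

omit [NeZero N] in
lemma IsMero.const (N : ℕ) (c : ℂ) : IsMero N 0 (fun _ => c) := (IsHol.const N c).isMero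

omit [NeZero N] in
lemma IsMero.add (hf : IsMero N M f) (hg : IsMero N M g) : IsMero N M (fun τ => f τ + g τ) := by
  refine ⟨hf.toIsPer.add hg.toIsPer, ?_⟩
  have e : (fun τ => tpar N τ ^ M * (f τ + g τ))
      = fun τ => tpar N τ ^ M * f τ + tpar N τ ^ M * g τ := by
    funext τ; ring
  rw [e]; exact hf.bdd.add hg.bdd

omit [NeZero N] in
lemma IsMero.mul (hf : IsMero N M f) (hg : IsMero N M' g) :
    IsMero N (M + M') (fun τ => f τ * g τ) := by
  refine ⟨hf.toIsPer.mul hg.toIsPer, ?_⟩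
  have e : (fun τ => tpar N τ ^ (M + M') * (f τ * g τ))
      = fun τ => (tpar N τ ^ M * f τ) * (tpar N τ ^ M' * g τ) := by
    funext τ; ring
  rw [e]; exact hf.bdd.mul hg.bdd

omit [NeZero N] in
lemma IsMero.neg (hf : IsMero N M f) : IsMero N M (fun τ => -f τ) := by
  refine ⟨hf.toIsPer.neg, ?_⟩
  have e : (fun τ => tpar N τ ^ M * (-f τ)) = fun τ => -(tpar N τ ^ M * f τ) := by
    funext τ; ring
  rw [e]; exact hf.bdd.neg

/-- The power series part of the expansion: the `q`-expansion of `t ^ M * f`. -/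
noncomputable def pexp (N M : ℕ) (f : ℍ → ℂ) : PowerSeries ℂ :=
  qExpansion (N : ℝ) (fun τ => tpar N τ ^ M * f τ)

/-- The Laurent expansion `t ^ (-M) * pexp N M f` of `f` in the parameter `t`. -/
noncomputable def lexp (N M : ℕ) (f : ℍ → ℂ) : LaurentSeries ℂ :=
  HahnSeries.single (-(M : ℤ)) (1 : ℂ) * HahnSeries.ofPowerSeries ℤ ℂ (pexp N M f)

lemma IsMero.hasSum (hf : IsMero N M f) (τ : ℍ) :
    HasSum (fun m : ℕ => (pexp N M f).coeff m * tpar N τ ^ m) (tpar N τ ^ M * f τ) :=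
  hf.isHol.hasSum τ

/-- Criterion: a convergent expansion of `t ^ M * f` computes `pexp`. -/
lemma isMero_of_hasSum (hf : IsPer N f) (c : ℕ → ℂ)
    (h : ∀ τ : ℍ, HasSum (fun m : ℕ => c m * tpar N τ ^ m) (tpar N τ ^ M * f τ)) :
    IsMero N M f ∧ pexp N M f = PowerSeries.mk c := by
  obtain ⟨h1, h2⟩ := isHol_of_hasSum (((isPer_tpar N).pow M).mul hf) c h
  exact ⟨⟨hf, h1.bdd⟩, h2⟩

lemma pexp_succ (hf : IsMero N M f) : pexp N (M + 1) f = PowerSeries.X * pexp N M f := by
  have e : (fun τ => tpar N τ ^ (M + 1) * f τ) = fun τ => tpar N τ * (tpar N τ ^ M * f τ) := by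
    funext τ; ring
  rw [pexp, e, (isHol_tpar N).qExpansion_mul hf.isHol, qExpansion_tpar, pexp]

lemma single_neg_succ_mul (M : ℕ) (P : PowerSeries ℂ) :
    HahnSeries.single (-((M + 1 : ℕ) : ℤ)) (1 : ℂ) * HahnSeries.ofPowerSeries ℤ ℂ (PowerSeries.X * P)
      = HahnSeries.single (-(M : ℤ)) (1 : ℂ) * HahnSeries.ofPowerSeries ℤ ℂ P := by
  have e : (-((M + 1 : ℕ) : ℤ) + 1) = -(M : ℤ) := by push_cast; ring
  rw [map_mul, HahnSeries.ofPowerSeries_X, ← mul_assoc, HahnSeries.single_mul_single, e, mul_one]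

lemma lexp_succ (hf : IsMero N M f) : lexp N (M + 1) f = lexp N M f := by
  rw [lexp, pexp_succ hf, single_neg_succ_mul, lexp]

lemma lexp_mono (hf : IsMero N M f) (h : M ≤ M') : lexp N M' f = lexp N M f := by
  induction M', h using Nat.le_induction with
  | base => rfl
  | succ k hk ih => rw [lexp_succ (hf.mono hk), ih]

lemma lexp_add (hf : IsMero N M f) (hg : IsMero N M g) :
    lexp N M (fun τ => f τ + g τ) = lexp N M f + lexp N M g := by
  have e : (fun τ => tpar N τ ^ M * (f τ + g τ))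
      = fun τ => tpar N τ ^ M * f τ + tpar N τ ^ M * g τ := by
    funext τ; ring
  rw [lexp, pexp, e, hf.isHol.qExpansion_add hg.isHol, map_add, mul_add]
  rfl

lemma lexp_mul (hf : IsMero N M f) (hg : IsMero N M' g) :
    lexp N (M + M') (fun τ => f τ * g τ) = lexp N M f * lexp N M' g := by
  have e : (fun τ => tpar N τ ^ (M + M') * (f τ * g τ))
      = fun τ => (tpar N τ ^ M * f τ) * (tpar N τ ^ M' * g τ) := by
    funext τ; ring
  have e2 : HahnSeries.single (-((M + M' : ℕ) : ℤ)) (1 : ℂ)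
      = HahnSeries.single (-(M : ℤ)) (1 : ℂ) * HahnSeries.single (-(M' : ℤ)) (1 : ℂ) := by
    have e3 : (-((M + M' : ℕ) : ℤ)) = -(M : ℤ) + -(M' : ℤ) := by push_cast; ring
    rw [HahnSeries.single_mul_single, e3, mul_one]
  rw [lexp, pexp, e, hf.isHol.qExpansion_mul hg.isHol, map_mul, e2, lexp, lexp, pexp, pexp]
  ring

lemma lexp_const (N : ℕ) [NeZero N] (c : ℂ) :
    lexp N 0 (fun _ => c) = HahnSeries.C c := by
  have e : (fun τ : ℍ => tpar N τ ^ 0 * c) = fun _ => c := by funext τ; simp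
  rw [lexp, pexp, e, qExpansion_const, HahnSeries.ofPowerSeries_C]
  simp

lemma lexp_eq_zero (hf : IsMero N M f) (h : lexp N M f = 0) : f = 0 := by
  have h1 : HahnSeries.ofPowerSeries ℤ ℂ (pexp N M f) = 0 := by
    have hu : HahnSeries.single (M : ℤ) (1 : ℂ) * lexp N M f = 0 := by rw [h, mul_zero]
    rw [lexp, ← mul_assoc, HahnSeries.single_mul_single] at hu
    simpa using hu
  have h2 : pexp N M f = 0 := by
    apply HahnSeries.ofPowerSeries_injective (Γ := ℤ)
    rw [h1, map_zero]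
  have h3 := hf.isHol.eq_zero h2
  funext τ
  have h4 := congrFun h3 τ
  simp only [Pi.zero_apply, mul_eq_zero] at h4
  rcases h4 with h4 | h4
  · exact absurd (pow_eq_zero_iff (n := M) (by
      intro hM; subst hM; simp at h4) |>.mp h4) (tpar_ne_zero N τ)
  · exact h4

open Classical in
/-- The Laurent expansion of `f` in `t = exp (2 π i τ / N)` (junk value `0` unless `f` is
holomorphic, `N`-periodic and meromorphic at `i∞`). -/
noncomputable def Lexp (N : ℕ) (f : ℍ → ℂ) : LaurentSeries ℂ :=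
  if h : ∃ M, IsMero N M f then lexp N h.choose f else 0

lemma Lexp_eq (hf : IsMero N M f) : Lexp N f = lexp N M f := by
  have h : ∃ M, IsMero N M f := ⟨M, hf⟩
  rw [Lexp, dif_pos h, ← lexp_mono h.choose_spec (le_max_left _ M),
    ← lexp_mono hf (le_max_right h.choose M)]

lemma Lexp_add (hf : IsMero N M f) (hg : IsMero N M' g) :
    Lexp N (fun τ => f τ + g τ) = Lexp N f + Lexp N g := by
  have hf' := hf.mono (le_max_left M M')
  have hg' := hg.mono (le_max_right M M')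
  rw [Lexp_eq (hf'.add hg'), Lexp_eq hf', Lexp_eq hg', lexp_add hf' hg']

lemma Lexp_mul (hf : IsMero N M f) (hg : IsMero N M' g) :
    Lexp N (fun τ => f τ * g τ) = Lexp N f * Lexp N g := by
  rw [Lexp_eq (hf.mul hg), Lexp_eq hf, Lexp_eq hg, lexp_mul hf hg]

lemma Lexp_const (N : ℕ) [NeZero N] (c : ℂ) : Lexp N (fun _ => c) = HahnSeries.C c := by
  rw [Lexp_eq (IsMero.const N c), lexp_const]

lemma Lexp_eq_zero (hf : IsMero N M f) (h : Lexp N f = 0) : f = 0 :=
  lexp_eq_zero hf (by rwa [Lexp_eq hf] at h)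

lemma ofPowerSeries_coeff_neg (P : PowerSeries ℂ) {k : ℤ} (hk : k < 0) :
    (HahnSeries.ofPowerSeries ℤ ℂ P).coeff k = 0 := by
  rw [HahnSeries.ofPowerSeries_apply]
  refine HahnSeries.embDomain_of_notMem_range ?_
  rintro ⟨m, rfl⟩
  exact absurd hk (not_lt.mpr (Int.natCast_nonneg m))

omit [NeZero N] in
lemma lexp_coeff (N M : ℕ) (f : ℍ → ℂ) (m : ℕ) :
    (lexp N M f).coeff ((m : ℤ) - M) = (pexp N M f).coeff m := by
  rw [lexp, HahnSeries.coeff_single_mul, one_mul, sub_neg_eq_add, sub_add_cancel,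
    HahnSeries.ofPowerSeries_apply_coeff]

omit [NeZero N] in
lemma lexp_coeff_of_lt (N M : ℕ) (f : ℍ → ℂ) {k : ℤ} (hk : k < -(M : ℤ)) :
    (lexp N M f).coeff k = 0 := by
  rw [lexp, HahnSeries.coeff_single_mul, one_mul]
  exact ofPowerSeries_coeff_neg _ (by omega)

/-- Criterion computing `Lexp` from a convergent expansion of `t ^ M * f`. -/
lemma Lexp_of_hasSum (hf : IsPer N f) (c : ℕ → ℂ)
    (h : ∀ τ : ℍ, HasSum (fun m : ℕ => c m * tpar N τ ^ m) (tpar N τ ^ M * f τ)) :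
    IsMero N M f ∧ Lexp N f
      = HahnSeries.single (-(M : ℤ)) (1 : ℂ) * HahnSeries.ofPowerSeries ℤ ℂ (PowerSeries.mk c) := by
  obtain ⟨h1, h2⟩ := isMero_of_hasSum hf c h
  exact ⟨h1, by rw [Lexp_eq h1, lexp, h2]⟩

end lexp

section algebra

variable (N : ℕ) [NeZero N]

/-- The `ℂ`-algebra of holomorphic `N`-periodic functions on `ℍ` that are meromorphic at `i∞`. -/
def merAlg : Subalgebra ℂ (ℍ → ℂ) where
  carrier := {f | ∃ M, IsMero N M f}
  mul_mem' := by
    rintro f g ⟨M, hf⟩ ⟨M', hg⟩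
    exact ⟨M + M', hf.mul hg⟩
  add_mem' := by
    rintro f g ⟨M, hf⟩ ⟨M', hg⟩
    exact ⟨max M M', (hf.mono (le_max_left _ _)).add (hg.mono (le_max_right _ _))⟩
  algebraMap_mem' := fun c => ⟨0, IsMero.const N c⟩

variable {N}

lemma mem_merAlg {f : ℍ → ℂ} : f ∈ merAlg N ↔ ∃ M, IsMero N M f := Iff.rfl

lemma IsMero.mem_merAlg {M : ℕ} {f : ℍ → ℂ} (hf : IsMero N M f) : f ∈ merAlg N := ⟨M, hf⟩

variable (N)

/-- The expansion map as a `ℂ`-algebra homomorphism. -/
noncomputable def LexpHom : merAlg N →ₐ[ℂ] LaurentSeries ℂ where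
  toFun f := Lexp N f.1
  map_one' := by
    show Lexp N (fun _ => (1 : ℂ)) = 1
    rw [Lexp_const, map_one]
  map_mul' := by
    rintro ⟨f, M, hf⟩ ⟨g, M', hg⟩
    exact Lexp_mul hf hg
  map_zero' := by
    show Lexp N (fun _ => (0 : ℂ)) = 0
    rw [Lexp_const, map_zero]
  map_add' := by
    rintro ⟨f, M, hf⟩ ⟨g, M', hg⟩
    exact Lexp_add hf hg
  commutes' := by
    intro c
    show Lexp N (fun _ => c) = algebraMap ℂ (LaurentSeries ℂ) c
    rw [Lexp_const, HahnSeries.algebraMap_apply',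
      show algebraMap ℂ (PowerSeries ℂ) c = PowerSeries.C c by simp, HahnSeries.ofPowerSeries_C]

variable {N}

@[simp] lemma LexpHom_apply (f : merAlg N) : LexpHom N f = Lexp N f.1 := rfl

lemma LexpHom_injective : Function.Injective (LexpHom N) := by
  rw [injective_iff_map_eq_zero]
  rintro ⟨f, M, hf⟩ h
  exact Subtype.ext (Lexp_eq_zero hf h)

end algebra

end Fermat.Agent.S28.helper1422
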