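import Mathlib
import Fermat.Agent.Lib.helper843_JPolynomial
import Fermat.Agent.S28.helper1422_Dict

/-!
# Coset products of modular functions for `Γ₀(N)` are polynomials in `j`

`modFunAlg N` is the `ℂ`-algebra of functions on `ℍ` that are `Γ₀(N)`-invariant, holomorphic and
meromorphic at every cusp.  For `g` in it and a coset `x` of `Γ₀(N)` in `SL(2,ℤ)` we have the
expansion `cuspExp N x g : LaurentSeries ℂ` of `g ∘ γ⁻¹` (`γ` a representative of `x`) in the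
parameter `t = exp (2 π i τ / N)`.  Main result `coset_product`: there is a monic polynomial
`P ∈ ℂ[Y][X]` of degree the index of `Γ₀(N)` with
`P(J, X) = ∏ x, (X - cuspExp N x g)` in `ℂ((t))[X]`, `J = Lexp N jInv`.
-/

set_option autoImplicit false

namespace Fermat.Agent.S28.helper1422

open UpperHalfPlane ModularForm Filter Function Complex MatrixGroups CongruenceSubgroup
open Fermat.Agent.Lib.helper843
open scoped Manifold Topology

local notation "𝕢" => Periodic.qParam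
local notation "Δ" => ModularForm.discriminant

section bdd

variable {f g : ℍ → ℂ}

lemma isBdd_mul (hf : IsBoundedAtImInfty f) (hg : IsBoundedAtImInfty g) :
    IsBoundedAtImInfty (fun τ => f τ * g τ) := hf.mul hg

lemma isBdd_const (c : ℂ) : IsBoundedAtImInfty (fun _ : ℍ => c) :=
  (tendsto_const_nhds (x := c)).isBigO_one ℝ

lemma isBdd_pow (hf : IsBoundedAtImInfty f) (m : ℕ) :
    IsBoundedAtImInfty (fun τ => f τ ^ m) := by
  induction m with
  | zero => simpa using isBdd_const 1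
  | succ k ih => simpa [pow_succ] using isBdd_mul ih hf

end bdd

section disc

variable (N : ℕ) [NeZero N]

lemma tpar_pow_self (τ : ℍ) : tpar N τ ^ N = 𝕢 1 τ := by
  have hN : (N : ℂ) ≠ 0 := by exact_mod_cast NeZero.ne N
  rw [tpar_eq, ← Complex.exp_nat_mul]
  simp only [Periodic.qParam, ofReal_one, div_one]
  congr 1
  field_simp

lemma tendsto_disc_div : Tendsto (fun τ : ℍ => Δ τ / tpar N τ ^ N) atImInfty (𝓝 1) := by
  refine tendsto_atImInfty_tprod_one_sub_eta_q_pow.congr fun τ => ?_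
  rw [tpar_pow_self, discriminant_eq_q_prod, mul_div_cancel_left₀ _ (Periodic.qParam_ne_zero _)]

lemma tendsto_div_disc : Tendsto (fun τ : ℍ => tpar N τ ^ N / Δ τ) atImInfty (𝓝 1) := by
  have h := (tendsto_disc_div N).inv₀ one_ne_zero
  rw [inv_one] at h
  refine h.congr fun τ => ?_
  rw [inv_div]

lemma isBoundedAtImInfty_disc_div : IsBoundedAtImInfty (fun τ : ℍ => Δ τ / tpar N τ ^ N) :=
  (tendsto_disc_div N).isBigO_one ℝ

lemma isBoundedAtImInfty_div_disc : IsBoundedAtImInfty (fun τ : ℍ => tpar N τ ^ N / Δ τ) :=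
  (tendsto_div_disc N).isBigO_one ℝ

lemma isBoundedAtImInfty_disc_div_pow (m : ℕ) :
    IsBoundedAtImInfty (fun τ : ℍ => (Δ τ / tpar N τ ^ N) ^ m) :=
  isBdd_pow (isBoundedAtImInfty_disc_div N) m

/-- Growth transfer: a pole of order `≤ M` in `t` is killed by `Δ ^ m` as soon as `M ≤ N * m`. -/
lemma IsMero.isBoundedAtImInfty_disc_pow_mul {M : ℕ} {f : ℍ → ℂ} (hf : IsMero N M f) (m : ℕ)
    (hm : M ≤ N * m) : IsBoundedAtImInfty (fun τ : ℍ => Δ τ ^ m * f τ) := by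
  have h3 := isBdd_mul (isBoundedAtImInfty_disc_div_pow N m) (hf.mono hm).bdd
  have e : (fun τ : ℍ => Δ τ ^ m * f τ)
      = fun τ => (Δ τ / tpar N τ ^ N) ^ m * (tpar N τ ^ (N * m) * f τ) := by
    funext τ
    have ht : tpar N τ ^ N ≠ 0 := pow_ne_zero _ (tpar_ne_zero N τ)
    rw [div_pow, pow_mul]
    field_simp
  rw [e]; exact h3

/-- Klein's `j` is holomorphic, `N`-periodic with a pole of order `N` in `t`. -/
lemma isMero_jInv : IsMero N N jInv := by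
  refine ⟨⟨mdifferentiable_jInv, fun τ => ?_⟩, ?_⟩
  · have h := UpperHalfPlane.modular_T_zpow_smul τ (N : ℤ)
    have h2 := jInv_smul (ModularGroup.T ^ (N : ℤ)) τ
    rw [h] at h2
    simpa using h2
  · have h1 : IsBoundedAtImInfty (fun τ : ℍ => E₄ τ ^ 3) :=
      isBdd_pow (ModularFormClass.bdd_at_infty E₄) 3
    have h3 := isBdd_mul h1 (isBoundedAtImInfty_div_disc N)
    have e : (fun τ : ℍ => tpar N τ ^ N * jInv τ)
        = fun τ : ℍ => E₄ τ ^ 3 * (tpar N τ ^ N / Δ τ) := by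
      funext τ
      simp only [jInv]
      ring
    rw [e]; exact h3

end disc

section modfun

variable (N : ℕ) [NeZero N]

omit [NeZero N] in
lemma mdiff_comp_smul {g : ℍ → ℂ} (hg : MDiff g) (γ : SL(2, ℤ)) :
    MDiff (fun τ : ℍ => g (γ • τ)) := by
  have h : MDiff (fun τ : ℍ => ((γ : GL (Fin 2) ℝ) • τ)) := mdifferentiable_smul (by simp)
  exact hg.comp h

omit [NeZero N] in
lemma conj_T_pow_mem_Gamma0 (γ : SL(2, ℤ)) :
    γ * ModularGroup.T ^ (N : ℤ) * γ⁻¹ ∈ Gamma0 N := by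
  have h1 : ModularGroup.T ^ (N : ℤ) ∈ CongruenceSubgroup.Gamma N := by
    simpa using ModularGroup_T_pow_mem_Gamma (N : ℤ) (N : ℤ) dvd_rfl
  have h2 := (CongruenceSubgroup.Gamma_normal N).conj_mem _ h1 γ
  rw [CongruenceSubgroup.Gamma_mem] at h2
  exact Gamma0_mem.mpr h2.2.2.1

omit [NeZero N] in
/-- Translates of `Γ₀(N)`-invariant functions are `N`-periodic. -/
lemma periodic_of_inv {g : ℍ → ℂ} (hinv : ∀ γ ∈ Gamma0 N, ∀ τ : ℍ, g (γ • τ) = g τ)
    (γ : SL(2, ℤ)) (τ : ℍ) : g (γ • ((N : ℝ) +ᵥ τ)) = g (γ • τ) := by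
  have h := UpperHalfPlane.modular_T_zpow_smul τ (N : ℤ)
  have h' : ((N : ℝ) +ᵥ τ) = ModularGroup.T ^ (N : ℤ) • τ := by rw [h]; simp
  rw [h', ← mul_smul]
  have e : γ * ModularGroup.T ^ (N : ℤ) = (γ * ModularGroup.T ^ (N : ℤ) * γ⁻¹) * γ := by group
  rw [e, mul_smul]
  exact hinv _ (conj_T_pow_mem_Gamma0 N γ) _

/-- The `ℂ`-algebra of modular functions for `Γ₀(N)`: invariant functions on `ℍ` all of whose
`SL(2,ℤ)`-translates are holomorphic, `N`-periodic and meromorphic at `i∞`. -/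
def modFunAlg : Subalgebra ℂ (ℍ → ℂ) where
  carrier := {g | (∀ γ ∈ Gamma0 N, ∀ τ : ℍ, g (γ • τ) = g τ) ∧
    ∀ γ : SL(2, ℤ), (fun τ : ℍ => g (γ • τ)) ∈ merAlg N}
  mul_mem' := by
    rintro f g ⟨hf1, hf2⟩ ⟨hg1, hg2⟩
    refine ⟨fun γ hγ τ => by simp only [Pi.mul_apply, hf1 γ hγ τ, hg1 γ hγ τ], fun γ => ?_⟩
    exact (merAlg N).mul_mem (hf2 γ) (hg2 γ)
  add_mem' := by
    rintro f g ⟨hf1, hf2⟩ ⟨hg1, hg2⟩
    refine ⟨fun γ hγ τ => by simp only [Pi.add_apply, hf1 γ hγ τ, hg1 γ hγ τ], fun γ => ?_⟩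
    exact (merAlg N).add_mem (hf2 γ) (hg2 γ)
  algebraMap_mem' := fun c => ⟨fun _ _ _ => rfl, fun _ => (merAlg N).algebraMap_mem c⟩

variable {N}

lemma mem_modFunAlg {g : ℍ → ℂ} : g ∈ modFunAlg N ↔
    (∀ γ ∈ Gamma0 N, ∀ τ : ℍ, g (γ • τ) = g τ) ∧
      ∀ γ : SL(2, ℤ), (fun τ : ℍ => g (γ • τ)) ∈ merAlg N := Iff.rfl

/-- Constructor: holomorphic + invariant + moderate growth of all translates. -/
lemma mem_modFunAlg_of_growth {g : ℍ → ℂ} (hg : MDiff g)
    (hinv : ∀ γ ∈ Gamma0 N, ∀ τ : ℍ, g (γ • τ) = g τ)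
    (hgrowth : ∀ γ : SL(2, ℤ), ∃ M : ℕ,
      IsBoundedAtImInfty (fun τ : ℍ => tpar N τ ^ M * g (γ • τ))) : g ∈ modFunAlg N := by
  refine ⟨hinv, fun γ => ?_⟩
  obtain ⟨M, hM⟩ := hgrowth γ
  exact ⟨M, ⟨mdiff_comp_smul hg γ, periodic_of_inv N hinv γ⟩, hM⟩

lemma modFunAlg_le_merAlg : modFunAlg N ≤ merAlg N := by
  intro g hg
  have h := hg.2 1
  simpa using h

lemma modFunAlg_inv (g : modFunAlg N) {γ : SL(2, ℤ)} (hγ : γ ∈ Gamma0 N) (τ : ℍ) :
    g.1 (γ • τ) = g.1 τ := g.2.1 γ hγ τ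

variable (N)

/-- Translation by `γ ∈ SL(2,ℤ)`, as an algebra homomorphism into `merAlg N`. -/
noncomputable def transHom (γ : SL(2, ℤ)) : modFunAlg N →ₐ[ℂ] merAlg N where
  toFun g := ⟨fun τ => g.1 (γ • τ), g.2.2 γ⟩
  map_one' := rfl
  map_mul' _ _ := rfl
  map_zero' := rfl
  map_add' _ _ := rfl
  commutes' _ := rfl

variable {N}

@[simp] lemma transHom_apply (γ : SL(2, ℤ)) (g : modFunAlg N) (τ : ℍ) :
    (transHom N γ g).1 τ = g.1 (γ • τ) := rfl

lemma transHom_mul_of_mem {γ' : SL(2, ℤ)} (hγ' : γ' ∈ Gamma0 N) (γ : SL(2, ℤ)) :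
    transHom N (γ' * γ) = transHom N γ := by
  ext g τ
  simp only [transHom_apply, mul_smul]
  exact modFunAlg_inv g hγ' _

variable (N)

/-- The expansion at the cusp corresponding to the coset `x` of `Γ₀(N)`: the `t`-expansion of
`g ∘ γ⁻¹` for the representative `γ = x.out`. -/
noncomputable def cuspExp (x : SL(2, ℤ) ⧸ Gamma0 N) : modFunAlg N →ₐ[ℂ] LaurentSeries ℂ :=
  (LexpHom N).comp (transHom N (x.out)⁻¹)

variable {N}

lemma cuspExp_apply (x : SL(2, ℤ) ⧸ Gamma0 N) (g : modFunAlg N) :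
    cuspExp N x g = Lexp N (fun τ => g.1 ((x.out)⁻¹ • τ)) := rfl

/-- `cuspExp` at the coset of `γ⁻¹` is the expansion of `g ∘ γ`. -/
lemma cuspExp_mk_inv (γ : SL(2, ℤ)) (g : modFunAlg N) :
    cuspExp N (QuotientGroup.mk γ⁻¹) g = Lexp N (fun τ => g.1 (γ • τ)) := by
  obtain ⟨h, hh⟩ := QuotientGroup.mk_out_eq_mul (Gamma0 N) γ⁻¹
  have e : ((QuotientGroup.mk γ⁻¹ : SL(2, ℤ) ⧸ Gamma0 N).out)⁻¹ = (h : SL(2, ℤ))⁻¹ * γ := by
    rw [hh]; group
  rw [cuspExp_apply, e]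
  congr 1
  funext τ
  rw [mul_smul]
  exact modFunAlg_inv g (inv_mem h.2) _

lemma cuspExp_one (g : modFunAlg N) :
    cuspExp N (QuotientGroup.mk 1) g = Lexp N g.1 := by
  have h := cuspExp_mk_inv (1 : SL(2, ℤ)) g
  simpa using h

end modfun

section cosetprod

variable (N : ℕ) [NeZero N]

/-- Klein's `j` as an element of `merAlg N`. -/
noncomputable def jMer : merAlg N := ⟨jInv, (isMero_jInv N).mem_merAlg⟩

/-- Evaluation at a point, as an algebra homomorphism. -/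
noncomputable def evalHom (τ : ℍ) : merAlg N →ₐ[ℂ] ℂ :=
  (Pi.evalAlgHom ℂ (fun _ : ℍ => ℂ) τ).comp (merAlg N).val

variable {N}

@[simp] lemma evalHom_apply (τ : ℍ) (f : merAlg N) : evalHom N τ f = f.1 τ := rfl

omit [NeZero N] in
lemma out_smul_inv (γ : SL(2, ℤ)) (x : SL(2, ℤ) ⧸ Gamma0 N) :
    ∃ h : Gamma0 N, ((γ⁻¹ • x).out)⁻¹ = (h : SL(2, ℤ)) * (x.out)⁻¹ * γ := by
  have e1 : γ⁻¹ • x = QuotientGroup.mk (γ⁻¹ * x.out) := by
    conv_lhs => rw [← QuotientGroup.out_eq' x]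
    rfl
  obtain ⟨h, hh⟩ := QuotientGroup.mk_out_eq_mul (Gamma0 N) (γ⁻¹ * x.out)
  refine ⟨h⁻¹, ?_⟩
  rw [e1, hh]
  push_cast
  group

variable (N)

open Polynomial in
/-- **Coset product theorem.** For a modular function `g` for `Γ₀(N)` the polynomial
`∏ₓ (X - g ∘ γₓ⁻¹)` over the cosets of `Γ₀(N)` in `SL(2,ℤ)` has coefficients which are
polynomials in `j`; in terms of expansions in `t = exp (2 π i τ / N)`. -/
theorem coset_product [Fintype (SL(2, ℤ) ⧸ Gamma0 N)] (g : modFunAlg N) :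
    ∃ P : Polynomial (Polynomial ℂ), P.Monic ∧
      P.natDegree = Fintype.card (SL(2, ℤ) ⧸ Gamma0 N) ∧
      P.map ((Polynomial.aeval (Lexp N jInv) : Polynomial ℂ →ₐ[ℂ] LaurentSeries ℂ) :
          Polynomial ℂ →+* LaurentSeries ℂ)
        = ∏ x : SL(2, ℤ) ⧸ Gamma0 N, (X - C (cuspExp N x g)) := by
  classical
  set Q : Polynomial (merAlg N) :=
    ∏ x : SL(2, ℤ) ⧸ Gamma0 N, (X - C (transHom N (x.out)⁻¹ g)) with hQ
  have hQmonic : Q.Monic := monic_prod_X_sub_C _ _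
  have hQdeg : Q.natDegree = Fintype.card (SL(2, ℤ) ⧸ Gamma0 N) := by
    rw [hQ, natDegree_prod_of_monic _ _ (fun x _ => monic_X_sub_C _)]
    simp
  have hinvQ : ∀ (γ : SL(2, ℤ)) (τ : ℍ),
      Q.map (evalHom N (γ • τ) : merAlg N →+* ℂ) = Q.map (evalHom N τ : merAlg N →+* ℂ) := by
    intro γ τ
    simp only [hQ, Polynomial.map_prod, Polynomial.map_sub, Polynomial.map_X, Polynomial.map_C]
    refine Fintype.prod_equiv (MulAction.toPerm γ⁻¹) _ _ (fun x => ?_)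
    congr 2
    show g.1 ((x.out)⁻¹ • γ • τ) = g.1 (((γ⁻¹ • x).out)⁻¹ • τ)
    obtain ⟨h, hh⟩ := out_smul_inv γ x
    rw [hh, mul_smul, mul_smul]
    exact (modFunAlg_inv g h.2 _).symm
  have hcoef : ∀ k, ∃ p : Polynomial ℂ, (Polynomial.aeval (jMer N)) p = Q.coeff k := by
    intro k
    have hcinv : ∀ (γ : SL(2, ℤ)) (τ : ℍ), (Q.coeff k).1 (γ • τ) = (Q.coeff k).1 τ := by
      intro γ τ
      have h1 : ∀ σ : ℍ, (Q.coeff k).1 σ = (Q.map (evalHom N σ : merAlg N →+* ℂ)).coeff k := by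
        intro σ; rw [Polynomial.coeff_map]; rfl
      rw [h1, h1, hinvQ]
    obtain ⟨M, hM⟩ := (Q.coeff k).2
    have hbdd := hM.isBoundedAtImInfty_disc_pow_mul N M
      (Nat.le_mul_of_pos_left M (Nat.pos_of_ne_zero (NeZero.ne N)))
    obtain ⟨p, -, hp⟩ := exists_polynomial_jInv hM.mdiff hcinv M hbdd
    refine ⟨p, Subtype.ext (funext fun τ => ?_)⟩
    have e : ((Polynomial.aeval (jMer N)) p).1 τ = evalHom N τ (Polynomial.aeval (jMer N) p) := rfl
    rw [e, ← Polynomial.aeval_algHom_apply, hp τ]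
    show Polynomial.aeval (jInv τ) p = _
    rw [Polynomial.coe_aeval_eq_eval]
  have hlifts : Q ∈ Polynomial.lifts
      ((Polynomial.aeval (jMer N) : Polynomial ℂ →ₐ[ℂ] merAlg N) : Polynomial ℂ →+* merAlg N) :=
    (Polynomial.lifts_iff_coeff_lifts Q).mpr fun k => by
      obtain ⟨p, hp⟩ := hcoef k
      exact ⟨p, hp⟩
  obtain ⟨P, hPQ, hPdeg, hPmonic⟩ := Polynomial.lifts_and_natDegree_eq_and_monic hlifts hQmonic
  refine ⟨P, hPmonic, hPdeg.trans hQdeg, ?_⟩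
  have h2 : ((LexpHom N : merAlg N →ₐ[ℂ] LaurentSeries ℂ) : merAlg N →+* LaurentSeries ℂ).comp
      ((Polynomial.aeval (jMer N) : Polynomial ℂ →ₐ[ℂ] merAlg N) : Polynomial ℂ →+* merAlg N)
      = ((Polynomial.aeval (Lexp N jInv) : Polynomial ℂ →ₐ[ℂ] LaurentSeries ℂ) :
          Polynomial ℂ →+* LaurentSeries ℂ) := by
    have h3 := Polynomial.aeval_algHom (LexpHom N) (jMer N)
    have h4 : LexpHom N (jMer N) = Lexp N jInv := rfl
    rw [h4] at h3
    rw [h3]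
    rfl
  rw [← h2, ← Polynomial.map_map, hPQ, hQ, Polynomial.map_prod]
  refine Finset.prod_congr rfl fun x _ => ?_
  rw [Polynomial.map_sub, Polynomial.map_X, Polynomial.map_C]
  rfl

/-- Every modular function for `Γ₀(N)` is, through its expansion at `i∞`, a root of a monic
polynomial of degree `[SL(2,ℤ) : Γ₀(N)]` with coefficients polynomials in the expansion of `j`. -/
theorem exists_monic_root [Fintype (SL(2, ℤ) ⧸ Gamma0 N)] (g : modFunAlg N) :
    ∃ P : Polynomial (Polynomial ℂ), P.Monic ∧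
      P.natDegree = Fintype.card (SL(2, ℤ) ⧸ Gamma0 N) ∧
      P.eval₂ ((Polynomial.aeval (Lexp N jInv) : Polynomial ℂ →ₐ[ℂ] LaurentSeries ℂ) :
          Polynomial ℂ →+* LaurentSeries ℂ) (Lexp N g.1) = 0 := by
  obtain ⟨P, hm, hd, hP⟩ := coset_product N g
  refine ⟨P, hm, hd, ?_⟩
  rw [Polynomial.eval₂_eq_eval_map, hP, Polynomial.eval_prod]
  refine Finset.prod_eq_zero (Finset.mem_univ (QuotientGroup.mk 1)) ?_
  rw [cuspExp_one]
  simp

end cosetprod

end Fermat.Agent.S28.helper1422
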