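/-
helper1448 — S28 (Igusa): the field of ratios of `q`-expansions of modular forms on `Γ₀(N)`
and the polynomial relation over `ℂ[j]` satisfied by each of its elements.
-/
import Fermat.Agent.S28.helper1448_DegBound

set_option autoImplicit false

open UpperHalfPlane ModularForm CongruenceSubgroup
open scoped MatrixGroups ModularForm

namespace Fermat.Agent.S28.helper1448

noncomputable section

local notation "Δ" => ModularForm.discriminant

/-- The embedding of complex power series into complex Laurent series. -/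
abbrev ιC : PowerSeries ℂ →+* LaurentSeries ℂ := HahnSeries.ofPowerSeries ℤ ℂ

lemma ιC_injective : Function.Injective ιC := HahnSeries.ofPowerSeries_injective

lemma ιC_smul (c : ℂ) (p : PowerSeries ℂ) : ιC (c • p) = c • ιC p := PowerSeries.coe_smul c p

/-- `x` is the ratio of the `q`-expansions of two modular forms of the same weight on `Γ₀(N)`. -/
def IsRatio (N : ℕ) (x : LaurentSeries ℂ) : Prop :=
  ∃ (k : ℤ) (F H : ℍ → ℂ), IsMF N k F ∧ IsMF N k H ∧ H ≠ 0 ∧
    ιC (qExpansion 1 H) * x = ιC (qExpansion 1 F)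

lemma IsMF.ιC_qExpansion_ne_zero {N : ℕ} {k : ℤ} {H : ℍ → ℂ} (hH : IsMF N k H) (h0 : H ≠ 0) :
    ιC (qExpansion 1 H) ≠ 0 := by
  intro h
  exact h0 (hH.qExpansion_eq_zero_iff.mp (ιC_injective (by simpa using h)))

lemma IsMF.mul_ne_zero {N : ℕ} {k₁ k₂ : ℤ} {H₁ H₂ : ℍ → ℂ} (h₁ : IsMF N k₁ H₁)
    (h₂ : IsMF N k₂ H₂) (h₁0 : H₁ ≠ 0) (h₂0 : H₂ ≠ 0) : H₁ * H₂ ≠ 0 := by
  intro h
  have := (h₁.mul h₂).qExpansion_eq_zero_iff.mpr h
  rw [h₁.qExpansion_mul h₂] at this
  rcases mul_eq_zero.mp this with h | h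
  · exact h₁0 (h₁.qExpansion_eq_zero_iff.mp h)
  · exact h₂0 (h₂.qExpansion_eq_zero_iff.mp h)

namespace IsRatio

variable {N : ℕ} {x y : LaurentSeries ℂ}

lemma const (c : ℂ) : IsRatio N (HahnSeries.C c) := by
  refine ⟨0, c • (1 : ℍ → ℂ), 1, IsMF.one.smul c, IsMF.one, one_ne_zero, ?_⟩
  rw [(IsMF.one (N := N)).qExpansion_smul, UpperHalfPlane.qExpansion_one, map_one, one_mul,
    ιC_smul, map_one, ← HahnSeries.C_mul_eq_smul, mul_one]

lemma zero : IsRatio N 0 := by simpa using (const (N := N) 0)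

lemma one : IsRatio N 1 := by simpa using (const (N := N) 1)

lemma mul (hx : IsRatio N x) (hy : IsRatio N y) : IsRatio N (x * y) := by
  obtain ⟨k, F, H, hF, hH, hH0, hxe⟩ := hx
  obtain ⟨k', F', H', hF', hH', hH'0, hye⟩ := hy
  refine ⟨k + k', F * F', H * H', hF.mul hF', hH.mul hH', hH.mul_ne_zero hH' hH0 hH'0, ?_⟩
  rw [hH.qExpansion_mul hH', hF.qExpansion_mul hF', map_mul, map_mul, ← hxe, ← hye]
  ring

lemma add (hx : IsRatio N x) (hy : IsRatio N y) : IsRatio N (x + y) := by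
  obtain ⟨k, F, H, hF, hH, hH0, hxe⟩ := hx
  obtain ⟨k', F', H', hF', hH', hH'0, hye⟩ := hy
  refine ⟨k + k', F * H' + H * F', H * H', (hF.mul hH').add (hH.mul hF'), hH.mul hH',
    hH.mul_ne_zero hH' hH0 hH'0, ?_⟩
  rw [hH.qExpansion_mul hH', (hF.mul hH').qExpansion_add (hH.mul hF'), hF.qExpansion_mul hH',
    hH.qExpansion_mul hF', map_mul, map_add, map_mul, map_mul, ← hxe, ← hye]
  ring

lemma neg (hx : IsRatio N x) : IsRatio N (-x) := by
  have h := (const (N := N) (-1)).mul hx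
  have e : HahnSeries.C (-1 : ℂ) * x = -x := by
    rw [map_neg, map_one, neg_mul, one_mul]
  rwa [e] at h

lemma inv (hx : IsRatio N x) : IsRatio N x⁻¹ := by
  rcases eq_or_ne x 0 with rfl | hx0
  · simpa using (zero : IsRatio N 0)
  obtain ⟨k, F, H, hF, hH, hH0, hxe⟩ := hx
  have hF0 : F ≠ 0 := by
    rintro rfl
    rw [UpperHalfPlane.qExpansion_zero, map_zero] at hxe
    rcases mul_eq_zero.mp hxe with h | h
    · exact hH.ιC_qExpansion_ne_zero hH0 h
    · exact hx0 h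
  refine ⟨k, H, F, hH, hF, hF0, ?_⟩
  rw [← hxe, mul_assoc, mul_inv_cancel₀ hx0, mul_one]

end IsRatio

/-- The field of ratios of `q`-expansions of modular forms of equal weight on `Γ₀(N)`. -/
def ratioField (N : ℕ) : Subfield (LaurentSeries ℂ) where
  carrier := {x | IsRatio N x}
  mul_mem' := IsRatio.mul
  one_mem' := IsRatio.one
  add_mem' := IsRatio.add
  zero_mem' := IsRatio.zero
  neg_mem' := IsRatio.neg
  inv_mem' _ := IsRatio.inv

lemma mem_ratioField {N : ℕ} {x : LaurentSeries ℂ} : x ∈ ratioField N ↔ IsRatio N x := Iff.rfl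

lemma ιC_qExpansion_discriminant_ne_zero : ιC (qExpansion 1 Δ) ≠ 0 := by
  intro h
  have h0 : qExpansion 1 Δ = 0 := ιC_injective (by simpa using h)
  have := ModularForm.discriminant_qExpansion_coeff_one
  rw [h0] at this
  simp at this

/-- **The relation over `ℂ[j]`.** If `y` is "`j`" (i.e. `Δ·y = E₄³` on `q`-expansions), every
ratio `x` satisfies a nontrivial relation `∑ c a i • y^a x^i = 0` with `i ≤ [SL₂(ℤ):Γ₀(N)]`. -/
theorem IsRatio.exists_relation {N : ℕ} [NeZero N] {x y : LaurentSeries ℂ} (hx : IsRatio N x)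
    (hy : ιC (qExpansion 1 Δ) * y = ιC (qExpansion 1 E₄) ^ 3) :
    ∃ (D : ℕ) (c : Fin (D + 1) → Fin ((Gamma0 N).index + 1) → ℂ), c ≠ 0 ∧
      ∑ a : Fin (D + 1), ∑ i : Fin ((Gamma0 N).index + 1),
        c a i • (y ^ (a : ℕ) * x ^ (i : ℕ)) = 0 := by
  obtain ⟨k, F, H, hF, hH, hH0, hxe⟩ := hx
  obtain ⟨D, c, hc, hrel⟩ := Fermat.Agent.S28.helper1448.exists_relation N hF hH
  refine ⟨D, c, hc, ?_⟩
  have hδ0 : ιC (qExpansion 1 Δ) ≠ 0 := ιC_qExpansion_discriminant_ne_zero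
  have hh0 : ιC (qExpansion 1 H) ≠ 0 := hH.ιC_qExpansion_ne_zero hH0
  have key : ιC (qExpansion 1 Δ) ^ D * ιC (qExpansion 1 H) ^ (Gamma0 N).index *
      ∑ a : Fin (D + 1), ∑ i : Fin ((Gamma0 N).index + 1),
      c a i • (y ^ (a : ℕ) * x ^ (i : ℕ)) = 0 := by
    have := congrArg ιC hrel
    rw [map_zero, map_sum] at this
    rw [← this, Finset.mul_sum]
    refine Finset.sum_congr rfl fun a _ => ?_
    rw [map_sum, Finset.mul_sum]
    refine Finset.sum_congr rfl fun i _ => ?_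
    have ha : (a : ℕ) ≤ D := Nat.lt_succ_iff.mp a.2
    have hi : (i : ℕ) ≤ (Gamma0 N).index := Nat.lt_succ_iff.mp i.2
    rw [ιC_smul, map_mul, map_mul, map_mul, map_pow, map_pow, map_pow, map_pow, ← hxe,
      pow_mul, ← hy, ← HahnSeries.C_mul_eq_smul, ← HahnSeries.C_mul_eq_smul]
    have e1 : ιC (qExpansion 1 Δ) ^ D =
        ιC (qExpansion 1 Δ) ^ (a : ℕ) * ιC (qExpansion 1 Δ) ^ (D - (a : ℕ)) := by
      rw [← pow_add, Nat.add_sub_cancel' ha]
    have e2 : ιC (qExpansion 1 H) ^ (Gamma0 N).index =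
        ιC (qExpansion 1 H) ^ (i : ℕ) * ιC (qExpansion 1 H) ^ ((Gamma0 N).index - (i : ℕ)) := by
      rw [← pow_add, Nat.add_sub_cancel' hi]
    rw [e1, e2, mul_pow, mul_pow]
    ring
  rcases mul_eq_zero.mp key with h1 | h1
  · exact absurd h1 (mul_ne_zero (pow_ne_zero _ hδ0) (pow_ne_zero _ hh0))
  · exact h1

end

end Fermat.Agent.S28.helper1448
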