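/-
helper1448 — S28 (Igusa): level raising `τ ↦ f(dτ)` for level-one forms, as function-level
modular forms on `Γ₀(N)` (`d ∣ N`), with `q`-expansion `q ↦ q^d`; membership of `j(q^d)` and of
`Δ(q^d)/Δ(q)` in the field of ratios.
-/
import Fermat.Agent.S28.helper1448_RatioField
import Fermat.Prelude.Def_ModularCurve_X0
import Fermat.Prelude.Def_ModularCurve_JqCoeff

set_option autoImplicit false

open UpperHalfPlane ModularForm CongruenceSubgroup ModularCurve
open scoped MatrixGroups ModularForm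

namespace Fermat.Agent.S28.helper1448

noncomputable section

local notation "Δ" => ModularForm.discriminant

/-- The matrix `diag(d, 1)` in `GL(2, ℝ)`. -/
def dmat (d : ℕ) [NeZero d] : GL (Fin 2) ℝ :=
  Matrix.GeneralLinearGroup.mkOfDetNeZero !![(d : ℝ), 0; 0, 1]
    (by simp [Matrix.det_fin_two_of, NeZero.ne d])

lemma mapGL_apply (γ : SL(2, ℤ)) (i j : Fin 2) :
    ((Matrix.SpecialLinearGroup.mapGL ℝ γ : GL (Fin 2) ℝ) : Matrix (Fin 2) (Fin 2) ℝ) i j =
      ((γ i j : ℤ) : ℝ) := by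
  simp

variable (d : ℕ) [NeZero d]

lemma dmat_coe : ((dmat d : GL (Fin 2) ℝ) : Matrix (Fin 2) (Fin 2) ℝ) = !![(d : ℝ), 0; 0, 1] :=
  rfl

lemma dmat_det' : ((dmat d : GL (Fin 2) ℝ) : Matrix (Fin 2) (Fin 2) ℝ).det = (d : ℝ) := by
  rw [dmat_coe, Matrix.det_fin_two_of]; ring

lemma dmat_det : (dmat d).det.val = (d : ℝ) := by
  rw [Matrix.GeneralLinearGroup.val_det_apply, dmat_det']

lemma dmat_det_pos : 0 < (dmat d).det.val := by
  rw [dmat_det]; exact_mod_cast Nat.pos_of_ne_zero (NeZero.ne d)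

lemma σ_dmat (z : ℂ) : σ (dmat d) z = z := by
  have h := dmat_det_pos d
  rw [σ, if_pos h]
  rfl

lemma denom_dmat (τ : ℍ) : denom (dmat d) τ = 1 := by
  simp [denom, dmat_coe]

lemma coe_dmat_smul (τ : ℍ) : ((dmat d • τ : ℍ) : ℂ) = (d : ℂ) * τ := by
  rw [UpperHalfPlane.coe_smul, σ_dmat, denom_dmat]
  simp [num, dmat_coe]

/-- The function `τ ↦ f(dτ)`. -/
def raise (f : ℍ → ℂ) : ℍ → ℂ := fun τ => f (dmat d • τ)

lemma raise_apply (f : ℍ → ℂ) (τ : ℍ) : raise d f τ = f (dmat d • τ) := rfl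

lemma raise_mul (f g : ℍ → ℂ) : raise d (f * g) = raise d f * raise d g := rfl

lemma raise_pow (f : ℍ → ℂ) (n : ℕ) : raise d (f ^ n) = raise d f ^ n := rfl

lemma slash_dmat (k : ℤ) (f : ℍ → ℂ) :
    f ∣[k] dmat d = ((d : ℂ) ^ (k - 1)) • raise d f := by
  ext τ
  rw [ModularForm.slash_apply, σ_dmat, denom_dmat, dmat_det, one_zpow, mul_one, Pi.smul_apply,
    smul_eq_mul, raise_apply, mul_comm]
  simp [abs_of_nonneg (Nat.cast_nonneg d : (0 : ℝ) ≤ d)]

open ConjAct Pointwise in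
lemma G0_le_conj {N : ℕ} (hd : d ∣ N) : G0 N ≤ toConjAct (dmat d)⁻¹ • 𝒮ℒ := by
  rintro x ⟨γ, hγ, rfl⟩
  rw [Subgroup.mem_pointwise_smul_iff_inv_smul_mem, ConjAct.smul_def]
  simp only [map_inv, inv_inv, ofConjAct_toConjAct]
  -- `γ = [[a, b], [c, e]]` with `N ∣ c`
  have hc : (d : ℤ) ∣ γ 1 0 := by
    have h1 : (N : ℤ) ∣ γ 1 0 := (ZMod.intCast_zmod_eq_zero_iff_dvd _ _).mp (Gamma0_mem.mp hγ)
    exact (Int.natCast_dvd_natCast.mpr hd).trans h1
  obtain ⟨c', hc'⟩ := hc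
  have hdet : γ 0 0 * γ 1 1 - γ 0 1 * γ 1 0 = 1 := by
    have := γ.det_coe
    rwa [Matrix.det_fin_two] at this
  obtain ⟨γ', h00, h01, h10, h11⟩ : ∃ γ' : SL(2, ℤ), γ' 0 0 = γ 0 0 ∧
      γ' 0 1 = (d : ℤ) * γ 0 1 ∧ γ' 1 0 = c' ∧ γ' 1 1 = γ 1 1 :=
    ⟨⟨!![γ 0 0, (d : ℤ) * γ 0 1; c', γ 1 1], by
      rw [Matrix.det_fin_two_of]
      rw [hc'] at hdet
      linarith⟩, rfl, rfl, rfl, rfl⟩
  refine ⟨γ', ?_⟩
  rw [eq_mul_inv_iff_mul_eq]
  apply Matrix.GeneralLinearGroup.ext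
  intro i j
  simp only [Matrix.GeneralLinearGroup.coe_mul, Matrix.mul_apply, Fin.sum_univ_two, dmat_coe,
    mapGL_apply]
  fin_cases i <;> fin_cases j <;> simp [h00, h01, h10, h11, hc'] <;> ring

lemma isMF_raise {N : ℕ} {k : ℤ} (hd : d ∣ N) (f : ModularForm 𝒮ℒ k) :
    IsMF N k (raise d f) := by
  have hle := G0_le_conj d hd
  have h1 : IsMF N k (⇑f ∣[k] dmat d) :=
    ⟨{ toFun := ⇑f ∣[k] dmat d
       slash_action_eq' := fun γ hγ =>
        (ModularForm.translate f (dmat d)).slash_action_eq' γ (hle hγ)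
       holo' := (ModularForm.translate f (dmat d)).holo'
       bdd_at_cusps' := fun hc =>
        (ModularForm.translate f (dmat d)).bdd_at_cusps' (hc.mono hle) }, rfl⟩
  have hd0 : (d : ℂ) ^ (k - 1) ≠ 0 := zpow_ne_zero _ (Nat.cast_ne_zero.mpr (NeZero.ne d))
  have h2 := h1.smul (((d : ℂ) ^ (k - 1))⁻¹)
  rwa [slash_dmat, smul_smul, inv_mul_cancel₀ hd0, one_smul] at h2

lemma qParam_dmat_smul (τ : ℍ) :
    Function.Periodic.qParam 1 ((dmat d • τ : ℍ) : ℂ) = Function.Periodic.qParam 1 (τ : ℂ) ^ d := by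
  rw [coe_dmat_smul, Function.Periodic.qParam, Function.Periodic.qParam, ← Complex.exp_nat_mul]
  congr 1
  push_cast
  ring

lemma hasSum_raise {k : ℤ} (f : ModularForm 𝒮ℒ k) (τ : ℍ) :
    HasSum (fun m : ℕ =>
      (if d ∣ m then (qExpansion 1 f).coeff (m / d) else 0) •
        Function.Periodic.qParam 1 (τ : ℂ) ^ m) (raise d f τ) := by
  have h1 := ModularForm.hasSum_qExpansion (f := f) one_pos one_mem_strictPeriods_SL
    (dmat d • τ)
  rw [qParam_dmat_smul] at h1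
  have hinj : Function.Injective (fun n : ℕ => d * n) :=
    fun a b h => Nat.eq_of_mul_eq_mul_left (Nat.pos_of_ne_zero (NeZero.ne d)) h
  rw [raise_apply]
  have h3 : ∀ x ∉ Set.range (fun n : ℕ => d * n), (fun m : ℕ =>
      (if d ∣ m then (qExpansion 1 f).coeff (m / d) else 0) •
        Function.Periodic.qParam 1 (τ : ℂ) ^ m) x = 0 := by
    intro x hx
    have : ¬ d ∣ x := fun ⟨c, hc⟩ => hx ⟨c, hc.symm⟩
    simp only
    rw [if_neg this, zero_smul]
  have h2 : ((fun m : ℕ => (if d ∣ m then (qExpansion 1 f).coeff (m / d) else 0) •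
      Function.Periodic.qParam 1 (τ : ℂ) ^ m) ∘ fun n : ℕ => d * n) =
      fun n : ℕ => (qExpansion 1 f).coeff n * (Function.Periodic.qParam 1 (τ : ℂ) ^ d) ^ n := by
    funext n
    simp only [Function.comp_apply]
    rw [if_pos (Dvd.intro n rfl), Nat.mul_div_cancel_left _ (Nat.pos_of_ne_zero (NeZero.ne d)),
      smul_eq_mul, pow_mul]
  exact (Function.Injective.hasSum_iff hinj h3).mp (by rw [h2]; exact h1)

/-- The `q`-expansion of `τ ↦ f(dτ)` is obtained from that of `f` by `q ↦ q^d`. -/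
lemma qExpansion_raise_coeff {N : ℕ} {k : ℤ} (hd : d ∣ N) (f : ModularForm 𝒮ℒ k) (m : ℕ) :
    (qExpansion 1 (raise d f)).coeff m =
      if d ∣ m then (qExpansion 1 f).coeff (m / d) else 0 := by
  obtain ⟨G, hG⟩ := isMF_raise (N := N) d hd f
  have h := ModularFormClass.qExpansion_coeff_unique (f := G) one_pos
    (IsMF.one_mem_strictPeriods N)
    (c := fun m : ℕ => if d ∣ m then (qExpansion 1 f).coeff (m / d) else 0)
    (fun τ => by rw [hG]; exact hasSum_raise d f τ) m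
  rw [hG] at h
  exact h.symm

lemma ιC_qExpansion_raise {N : ℕ} {k : ℤ} (hd : d ∣ N) (f : ModularForm 𝒮ℒ k) :
    ιC (qExpansion 1 (raise d f)) = qExpand ℂ d (ιC (qExpansion 1 f)) := by
  ext n
  rcases lt_or_ge n 0 with hn | hn
  · rw [ofPowerSeries_coeff_of_neg _ hn]
    by_cases hdn : (d : ℤ) ∣ n
    · obtain ⟨c, rfl⟩ := hdn
      rw [qExpand_coeff_mul]
      have hc : c < 0 := by
        by_contra hc
        push Not at hc
        have : (0 : ℤ) ≤ (d : ℤ) * c := mul_nonneg (Int.natCast_nonneg d) hc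
        omega
      rw [ofPowerSeries_coeff_of_neg _ hc]
    · rw [qExpand_coeff_of_not_dvd d _ hdn]
  · lift n to ℕ using hn
    rw [HahnSeries.ofPowerSeries_apply_coeff, qExpansion_raise_coeff d hd]
    by_cases hdn : d ∣ n
    · rw [if_pos hdn]
      obtain ⟨c, rfl⟩ := hdn
      rw [Nat.mul_div_cancel_left _ (Nat.pos_of_ne_zero (NeZero.ne d))]
      push_cast
      rw [qExpand_coeff_mul, HahnSeries.ofPowerSeries_apply_coeff]
    · rw [if_neg hdn, qExpand_coeff_of_not_dvd d _ (by exact_mod_cast hdn)]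

end

end Fermat.Agent.S28.helper1448
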