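/-
helper1448 — S28 (Igusa): the characteristic-zero degree bound, final form.

`ratFieldQ N` is the field of all `x ∈ ℚ((q))` which are ratios of `q`-expansions of modular forms
of equal weight on `Γ₀(N)`.  Given the bridge `BridgeJ` ("`jq` is the `q`-expansion of
`E₄³/Δ`"), it contains `modularFunctionFieldFull N`, every element of it has degree
`≤ [SL₂(ℤ):Γ₀(N)]` over `ℚ⟮jq⟯`, and any `[SL₂(ℤ):Γ₀(N)]` elements of a subfield `L ∋ jq` that
are independent over `ℚ⟮jq⟯` span `L`.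
-/
import Fermat.Agent.S28.helper1448_LevelRaise
import Fermat.Agent.S28.helper1448_Descent
import Fermat.Prelude.Thm_ModularCurve_coeffMap_qExpand

set_option autoImplicit false

open UpperHalfPlane ModularForm CongruenceSubgroup ModularCurve IntermediateField
open scoped MatrixGroups ModularForm

namespace Fermat.Agent.S28.helper1448

noncomputable section

local notation "Δ" => ModularForm.discriminant

/-- **Bridge (to be supplied by the analytic dictionary).** The Prelude's formal `j` (over `ℂ`)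
is the quotient of the `q`-expansions of `E₄³` and `Δ`. -/
def BridgeJ : Prop :=
  ιC (qExpansion 1 Δ) * jqModC ℂ = ιC (qExpansion 1 E₄) ^ 3

lemma discriminant_ne_zero_fun : (Δ : ℍ → ℂ) ≠ 0 := fun h =>
  ModularForm.discriminant_ne_zero UpperHalfPlane.I (congrFun h _)

lemma isMF_levelOne_discriminant :
    ∃ D : ModularForm 𝒮ℒ 12, (D : ℍ → ℂ) = Δ :=
  ⟨ModularFormClass.modularForm CuspForm.discriminant, rfl⟩

theorem isRatio_j (hj : BridgeJ) (N : ℕ) : IsRatio N (jqModC ℂ) := by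
  refine ⟨12, (E₄ : ℍ → ℂ) ^ 3, Δ, ((isMF_E4 N).pow 3).cast (by norm_num),
    isMF_discriminant N, discriminant_ne_zero_fun, ?_⟩
  rw [(isMF_E4 N).qExpansion_pow, map_pow]
  exact hj

theorem isRatio_jd (hj : BridgeJ) {d N : ℕ} [NeZero d] (hd : d ∣ N) :
    IsRatio N (qExpand ℂ d (jqModC ℂ)) := by
  obtain ⟨D, hD⟩ := isMF_levelOne_discriminant
  have hE := isMF_raise d hd E₄
  have hDr := isMF_raise d hd D
  refine ⟨12, (raise d E₄) ^ 3, raise d D, (hE.pow 3).cast (by norm_num), hDr, ?_, ?_⟩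
  · intro h
    have := congrFun h UpperHalfPlane.I
    rw [raise_apply, hD] at this
    exact ModularForm.discriminant_ne_zero _ this
  · rw [hE.qExpansion_pow, map_pow, ιC_qExpansion_raise d hd, ιC_qExpansion_raise d hd, hD,
      ← map_mul, ← map_pow, hj]

theorem isRatio_deltaRatio {d N : ℕ} [NeZero d] (hd : d ∣ N) :
    IsRatio N (qExpand ℂ d (ιC (qExpansion 1 Δ)) / ιC (qExpansion 1 Δ)) := by
  obtain ⟨D, hD⟩ := isMF_levelOne_discriminant
  have hDr := isMF_raise d hd D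
  refine ⟨12, raise d D, Δ, hDr, isMF_discriminant N, discriminant_ne_zero_fun, ?_⟩
  rw [ιC_qExpansion_raise d hd, hD, mul_div_cancel₀ _ ιC_qExpansion_discriminant_ne_zero]

/-- The field of rational Laurent series which are ratios of `q`-expansions of modular forms
of equal weight on `Γ₀(N)`. -/
def ratFieldQ (N : ℕ) : IntermediateField ℚ (LaurentSeries ℚ) :=
  ((ratioField N).comap toC).toIntermediateField fun r => by
    rw [eq_ratCast]
    exact SubfieldClass.ratCast_mem _ r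

lemma mem_ratFieldQ {N : ℕ} {x : LaurentSeries ℚ} : x ∈ ratFieldQ N ↔ IsRatio N (toC x) :=
  Iff.rfl

lemma toC_jq : toC jq = jqModC ℂ := map_jqModC (algebraMap ℚ ℂ)

theorem jq_mem_ratFieldQ (hj : BridgeJ) (N : ℕ) : jq ∈ ratFieldQ N := by
  rw [mem_ratFieldQ, toC_jq]
  exact isRatio_j hj N

theorem jqd_mem_ratFieldQ (hj : BridgeJ) {d N : ℕ} [NeZero d] (hd : d ∣ N) :
    qExpand ℚ d jq ∈ ratFieldQ N := by
  rw [mem_ratFieldQ, toC, coeffMap_qExpand]
  have := toC_jq
  rw [toC] at this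
  rw [this]
  exact isRatio_jd hj hd

theorem full_le_ratFieldQ (hj : BridgeJ) (N : ℕ) [NeZero N] :
    modularFunctionFieldFull N ≤ ratFieldQ N := by
  rw [modularFunctionFieldFull, IntermediateField.adjoin_le_iff]
  rintro x ⟨d, hne, hd, rfl⟩
  exact jqd_mem_ratFieldQ hj hd

/-- **(T1), polynomial form.** Every element of `ratFieldQ N` is a root of a nonzero
`P ∈ ℚ[Y][X]` of `X`-degree `≤ [SL₂(ℤ):Γ₀(N)]`, with `Y = jq`. -/
theorem exists_poly_of_mem_ratFieldQ (hj : BridgeJ) {N : ℕ} [NeZero N] {x : LaurentSeries ℚ}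
    (hx : x ∈ ratFieldQ N) :
    ∃ P : Polynomial (Polynomial ℚ), P ≠ 0 ∧ P.natDegree ≤ (Gamma0 N).index ∧
      Polynomial.eval₂ (Polynomial.aeval jq : Polynomial ℚ →ₐ[ℚ] LaurentSeries ℚ).toRingHom x P
        = 0 := by
  obtain ⟨D, c, hc, hrel⟩ := (mem_ratFieldQ.mp hx).exists_relation (y := jqModC ℂ) hj
  rw [← toC_jq] at hrel
  obtain ⟨c', hc', hrel'⟩ := descent x jq c hc hrel
  exact exists_poly_of_relation x jq c' hc' hrel'

/-- **(T1).** Every element of `ratFieldQ N` is integral over `ℚ⟮jq⟯` of degree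
`≤ [SL₂(ℤ):Γ₀(N)]`. -/
theorem degree_le_of_mem_ratFieldQ (hj : BridgeJ) {N : ℕ} [NeZero N] {x : LaurentSeries ℚ}
    (hx : x ∈ ratFieldQ N) :
    IsIntegral ℚ⟮jq⟯ x ∧ (minpoly ℚ⟮jq⟯ x).natDegree ≤ (Gamma0 N).index := by
  obtain ⟨P, hP, hdeg, hroot⟩ := exists_poly_of_mem_ratFieldQ hj hx
  exact isIntegral_and_natDegree_minpoly_le x P hP hdeg hroot

/-- **(T2).** Let `L ≤ ratFieldQ N` be a field containing `jq`.  Any `[SL₂(ℤ):Γ₀(N)]` elements of
`L` that are linearly independent over `ℚ⟮jq⟯` span `L` over `ℚ⟮jq⟯`. -/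
theorem span_of_le_ratFieldQ (hj : BridgeJ) {N : ℕ} [NeZero N]
    (L : IntermediateField ℚ (LaurentSeries ℚ)) (hL : L ≤ ratFieldQ N) (hjL : jq ∈ L)
    (y : Fin (Gamma0 N).index → LaurentSeries ℚ) (hy : ∀ i, y i ∈ L)
    (hind : ∀ c : Fin (Gamma0 N).index → LaurentSeries ℚ, (∀ i, c i ∈ ℚ⟮jq⟯) →
      ∑ i, c i * y i = 0 → ∀ i, c i = 0) :
    ∀ x ∈ L, ∃ c : Fin (Gamma0 N).index → LaurentSeries ℚ,
      (∀ i, c i ∈ ℚ⟮jq⟯) ∧ x = ∑ i, c i * y i :=
  span_of_linearIndependent L hjL (fun _ hx => degree_le_of_mem_ratFieldQ hj (hL hx)) y hy hind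

end

end Fermat.Agent.S28.helper1448
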