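import Fermat.Agent.S28.helper1595_CoreInput
import Fermat.Agent.S28.helper1348_IntFree
import Fermat.Agent.S28.helper4768_DegSpec
import Fermat.Agent.Lib.helper1356_Gamma0Index

/-!
# S28: the `Φ`-free final adapter (helper4768)

* `degLE_full_psi` (GLUE): `Spec.DegLE (modularFunctionFieldFull N) (dedekindPsi N)`,
  unconditionally (Sturm counting of `helper4768_DegSturm` and `[SL₂(ℤ) : Γ₀(N)] = ψ(N)`).
* `stmt_CoreInput_of_relrank` (FIN2): if the field `𝔽_ℓ(j̄(q^d) : d ∣ N)` has degree `ψ(N)` over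
  `𝔽_ℓ(j̄)`, then `Spec.Stmt_CoreInput N ℓ` holds.  No modular polynomial is needed: algebraicity
  of the generators follows from finiteness of the degree, and integrality over `ℤ[j]` is supplied
  by `helper1348.stmt_CoreInput_of_noInt`.
-/

set_option autoImplicit false

noncomputable section

namespace Fermat.Agent.S28.helper4768

open IntermediateField ModularCurve Polynomial

/-- (GLUE) the characteristic zero degree bound with the Dedekind psi function. -/
theorem degLE_full_psi (N : ℕ) [NeZero N] :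
    Spec.DegLE (modularFunctionFieldFull N) (dedekindPsi N) := by
  have h := degLE_full N
  rwa [Fermat.Agent.Lib.helper1356.index_Gamma0 N (NeZero.ne N)] at h

/-- (FIN2) The `Φ`-free final adapter: the degree `ψ(N)` of the mod `ℓ` function field gives the
modular input of the algebra core. -/
theorem stmt_CoreInput_of_relrank (N : ℕ) [NeZero N] (ℓ : ℕ) [Fact ℓ.Prime]
    (hrank : ((ZMod ℓ)⟮jqModC (ZMod ℓ)⟯).relrank (modularFunctionFieldFullC (ZMod ℓ) N) =
      (dedekindPsi N : Cardinal)) :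
    Spec.Stmt_CoreInput N ℓ := by
  classical
  set J := jqModC (ZMod ℓ) with hJ
  have h : (ZMod ℓ)⟮J⟯ ≤ adjoin (ZMod ℓ) (divisorExpansionsC (ZMod ℓ) N) :=
    helper1595.adjoin_jqModC_le (ZMod ℓ) N
  have hrank' : Module.rank ↥((ZMod ℓ)⟮J⟯) ↥(extendScalars h) = (dedekindPsi N : Cardinal) := by
    rw [← relrank_eq_rank_of_le h]; exact hrank
  have hfin : Module.Finite ↥((ZMod ℓ)⟮J⟯) ↥(extendScalars h) :=
    Module.finite_of_rank_eq_nat hrank'
  have halg : ∀ x ∈ divisorExpansionsC (ZMod ℓ) N, IsAlgebraic ↥((ZMod ℓ)⟮J⟯) x := by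
    intro x hx
    have hxmem : x ∈ extendScalars h := by
      rw [mem_extendScalars]
      exact subset_adjoin _ _ hx
    have h1 : IsAlgebraic ↥((ZMod ℓ)⟮J⟯) (⟨x, hxmem⟩ : ↥(extendScalars h)) :=
      Algebra.IsAlgebraic.isAlgebraic _
    exact (IntermediateField.isAlgebraic_iff (S := extendScalars h) (x := ⟨x, hxmem⟩)).mp h1
  have hspan : Module.rank ↥((ZMod ℓ)⟮J⟯) ↥(Submodule.span ↥((ZMod ℓ)⟮J⟯)
      (Submonoid.closure (divisorExpansionsC (ZMod ℓ) N) : Set (LaurentSeries (ZMod ℓ)))) =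
      (dedekindPsi N : Cardinal) := by
    rw [← hrank', extendScalars_adjoin h, ← Algebra.adjoin_eq_span,
      Subalgebra.rank_toSubmodule, ← adjoin_toSubalgebra_of_isAlgebraic halg,
      IntermediateField.rank_eq_rank_subalgebra]
  obtain ⟨B, hBT, hBspan, hBli⟩ := exists_linearIndependent ↥((ZMod ℓ)⟮J⟯)
    (Submonoid.closure (divisorExpansionsC (ZMod ℓ) N) : Set (LaurentSeries (ZMod ℓ)))
  have hcard : Cardinal.mk B = (dedekindPsi N : Cardinal) := by
    rw [← hspan, ← hBspan]
    exact (rank_span_set hBli).symm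
  obtain ⟨e⟩ := Cardinal.mk_eq_nat_iff.mp hcard
  have hlift : ∀ i : Fin (dedekindPsi N), ∃ b : LaurentSeries ℤ,
      b ∈ Submonoid.closure (helper1595.genZ N) ∧
        Spec.toFl ℓ b = ((e.symm i : B) : LaurentSeries (ZMod ℓ)) := by
    intro i
    have := hBT (e.symm i).2
    rw [← helper1595.toFl_image_closure N ℓ] at this
    obtain ⟨b, hb, hb'⟩ := this
    exact ⟨b, hb, hb'⟩
  choose bZ hbZ_mem hbZ_red using hlift
  refine helper1348.stmt_CoreInput_of_noInt (dedekindPsi N) (modularFunctionFieldFull N) bZ le_rfl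
    (fun i => helper1595.toQ_mem_full_of_mem_closure N (hbZ_mem i)) (degLE_full_psi N) ?_
  intro c hc
  have hli : LinearIndependent ↥((ZMod ℓ)⟮J⟯)
      (fun i : Fin (dedekindPsi N) => ((e.symm i : B) : LaurentSeries (ZMod ℓ))) :=
    hBli.comp _ e.symm.injective
  rw [Fintype.linearIndependent_iff] at hli
  have hsum : ∑ i, (helper1595.toAdj J (c i)) • ((e.symm i : B) : LaurentSeries (ZMod ℓ)) = 0 := by
    rw [← hc]
    refine Finset.sum_congr rfl (fun i _ => ?_)
    rw [Algebra.smul_def, hbZ_red i]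
    congr 1
    have e1 := helper1595.algebraMap_comp_toAdj (k := ZMod ℓ) J
    rw [← RingHom.comp_apply, e1]
    rfl
  funext i
  have h0 := hli _ hsum i
  have h1 : aeval J (c i) = 0 := by
    have e1 := helper1595.algebraMap_comp_toAdj (k := ZMod ℓ) J
    have : algebraMap ↥((ZMod ℓ)⟮J⟯) (LaurentSeries (ZMod ℓ)) (helper1595.toAdj J (c i)) =
        aeval J (c i) := by
      rw [← RingHom.comp_apply, e1]; rfl
    rw [← this, h0, map_zero]
  exact helper3292.aeval_jqModC_injective (ZMod ℓ) (by rw [h1, Pi.zero_apply, map_zero])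

end Fermat.Agent.S28.helper4768
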