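import Fermat.Agent.S28.helper1348_IntFree
import Fermat.Agent.S28.helper4768_DegSpec
import Fermat.Agent.S28.helper979_DegBridge
import Fermat.Agent.Lib.helper1356_Gamma0Index

/-!
# S28: the adapter (HUB) — the char-0 degree bound passes to characteristic `ℓ`

* `degLE_full_dedekindPsi` (GLUE) : `Spec.DegLE (modularFunctionFieldFull N) (dedekindPsi N)`,
  unconditionally (Sturm counting of `helper4768` + the index formula of `Lib.helper1356`).
* `relrank_le_of_dep` : a general rank bound — if every element of the field `B` is a quotient of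
  elements of a subalgebra `R`, and any `n + 1` elements of `R` are linearly dependent over the
  field `A ≤ B`, then `[B : A] ≤ n`.
* `exists_dep_modL` : any `n + 1` elements of `𝔽_ℓ[j̄(q^d) : d ∣ M]` are linearly dependent over
  `𝔽_ℓ[j̄]`, if `Spec.DegLE (modularFunctionFieldFull M) n` (lift to `ℤ[j(q^d)]`, take the char-0
  relation over `ℤ[j]`, divide by its `ℓ`-content, reduce mod `ℓ`).
* `hub_of_degLE` (HUB) : `Spec.DegLE (modularFunctionFieldFull M) n →
  [𝔽_ℓ(j̄(q^d) : d ∣ M) : 𝔽_ℓ(j̄)] ≤ n`.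
* `hub` : the unconditional form with `n = dedekindPsi M`, and `hub_all` in the exact shape of the
  hypothesis `hub` of `helper1595.relrank_full_eq_dedekindPsi`.
-/

set_option autoImplicit false

noncomputable section

namespace Fermat.Agent.S28.helper7095

open ModularCurve Polynomial IntermediateField Cardinal
open Fermat.Agent.S28.Spec

/-! ## (GLUE): the char-0 degree bound with `dedekindPsi` -/

/-- Clause (DEG) of `Spec.Stmt_CoreInput` for `L = F = ℚ(j(q^d) : d ∣ N)` and `n = dedekindPsi N`,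
unconditionally. -/
theorem degLE_full_dedekindPsi (N : ℕ) [NeZero N] :
    DegLE (modularFunctionFieldFull N) (dedekindPsi N) := by
  have h := helper4768.degLE_full N
  rwa [Fermat.Agent.Lib.helper1356.index_Gamma0 N (NeZero.ne N)] at h

/-! ## A general rank bound -/

/-- If every element of the field `B` is a quotient of two elements of the subalgebra `R`, and any
`n + 1` elements of `R` satisfy a nontrivial linear relation with coefficients in the field
`A ≤ B`, then `[B : A] ≤ n`. -/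
theorem relrank_le_of_dep {k E : Type*} [Field k] [Field E] [Algebra k E]
    (A B : IntermediateField k E) (hAB : A ≤ B) (R : Subalgebra k E)
    (hB : ∀ x ∈ B, ∃ r ∈ R, ∃ s ∈ R, x = r / s) (n : ℕ)
    (hdep : ∀ y : Fin (n + 1) → E, (∀ i, y i ∈ R) →
      ∃ g : Fin (n + 1) → E, (∀ i, g i ∈ A) ∧ g ≠ 0 ∧ ∑ i, g i * y i = 0) :
    A.relrank B ≤ (n : Cardinal) := by
  rw [relrank_eq_rank_of_le hAB]
  refine rank_le fun s hli => ?_
  by_contra hlt
  have hlt' : n + 1 ≤ s.card := by omega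
  -- `n + 1` distinct elements of `s`
  let e : Fin (n + 1) → s := fun i => s.equivFin.symm (Fin.castLE hlt' i)
  have he : Function.Injective e := fun i j hij =>
    Fin.castLE_injective hlt' (s.equivFin.symm.injective hij)
  have hli' : LinearIndependent ↥A (fun i : Fin (n + 1) => ((e i : s) : ↥(extendScalars hAB))) :=
    hli.comp e he
  let v : Fin (n + 1) → E := fun i => (((e i : s) : ↥(extendScalars hAB)) : E)
  have hvB : ∀ i, v i ∈ B := fun i => ((e i : s) : ↥(extendScalars hAB)).2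
  -- write `v i = r i / t i` with `t i ≠ 0`
  have hfrac : ∀ i, ∃ r ∈ R, ∃ t ∈ R, t ≠ 0 ∧ v i * t = r := by
    intro i
    obtain ⟨r, hr, t, ht, hrt⟩ := hB (v i) (hvB i)
    by_cases ht0 : t = 0
    · refine ⟨0, R.zero_mem, 1, R.one_mem, one_ne_zero, ?_⟩
      rw [hrt, ht0, div_zero, zero_mul]
    · exact ⟨r, hr, t, ht, ht0, by rw [hrt, div_mul_cancel₀ _ ht0]⟩
  choose r hr t ht ht0 hrt using hfrac
  have hD : (∏ i, t i) ≠ 0 := Finset.prod_ne_zero_iff.mpr fun i _ => ht0 i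
  have hy : ∀ i, r i * ∏ j ∈ Finset.univ.erase i, t j = (∏ j, t j) * v i := by
    intro i
    rw [← hrt i, ← Finset.mul_prod_erase Finset.univ t (Finset.mem_univ i)]
    ring
  obtain ⟨g, hgA, hg0, hsum⟩ := hdep (fun i => r i * ∏ j ∈ Finset.univ.erase i, t j)
    (fun i => R.mul_mem (hr i) (R.prod_mem fun j _ => ht j))
  have hsum' : ∑ i, g i * v i = 0 := by
    have h1 : (∏ j, t j) * ∑ i, g i * v i = 0 := by
      rw [Finset.mul_sum, ← hsum]
      refine Finset.sum_congr rfl fun i _ => ?_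
      rw [hy i]
      ring
    exact (mul_eq_zero.mp h1).resolve_left hD
  -- contradiction with linear independence
  have hzero : ∑ i, (⟨g i, hgA i⟩ : ↥A) • ((e i : s) : ↥(extendScalars hAB)) = 0 := by
    apply Subtype.ext
    have h2 : ((∑ i, (⟨g i, hgA i⟩ : ↥A) • ((e i : s) : ↥(extendScalars hAB)) :
        ↥(extendScalars hAB)) : E) = ∑ i, g i * v i := by
      rw [AddSubmonoidClass.coe_finsetSum]
      rfl
    rw [h2, hsum']
    rfl
  have hall := Fintype.linearIndependent_iff.mp hli' (fun i => (⟨g i, hgA i⟩ : ↥A)) hzero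
  exact hg0 (funext fun i => congrArg Subtype.val (hall i))

/-! ## Lifting `𝔽_ℓ[j̄(q^d)]` to `ℤ[j(q^d)]` -/

/-- The generators `j(q^d)`, `d ∣ M`, over `ℤ`. -/
def intGens (M : ℕ) : Set (LaurentSeries ℤ) :=
  {x | ∃ (d : ℕ) (_ : NeZero d), d ∣ M ∧ x = qExpand ℤ d (jqModC ℤ)}

/-- The ring `ℤ[j(q^d) : d ∣ M] ⊆ ℤ((q))`. -/
def intRing (M : ℕ) : Subring (LaurentSeries ℤ) := Subring.closure (intGens M)

theorem toQ_mem_full (M : ℕ) {y : LaurentSeries ℤ} (hy : y ∈ intRing M) :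
    toQ y ∈ modularFunctionFieldFull M := by
  refine Subring.closure_induction (p := fun y _ => toQ y ∈ modularFunctionFieldFull M)
    ?_ ?_ ?_ ?_ ?_ ?_ hy
  · rintro x ⟨d, hd, hdM, rfl⟩
    have h1 : toQ (qExpand ℤ d (jqModC ℤ)) = qExpand ℚ d (jqModC ℚ) := by
      rw [show toQ = coeffMap (Int.castRingHom ℚ) from rfl, coeffMap_qExpand, coeffMap_jqModC]
    rw [h1]
    exact jqModCd_mem_full ℚ M hdM
  · rw [map_zero]; exact zero_mem _
  · rw [map_one]; exact one_mem _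
  · intro x y _ _ hx hy
    rw [map_add]; exact add_mem hx hy
  · intro x _ hx
    rw [map_neg]; exact neg_mem hx
  · intro x y _ _ hx hy
    rw [map_mul]; exact mul_mem hx hy

theorem exists_lift (ℓ : ℕ) [Fact ℓ.Prime] (M : ℕ) {y : LaurentSeries (ZMod ℓ)}
    (hy : y ∈ Algebra.adjoin (ZMod ℓ) (divisorExpansionsC (ZMod ℓ) M)) :
    ∃ z ∈ intRing M, toFl ℓ z = y := by
  refine Algebra.adjoin_induction (p := fun y _ => ∃ z ∈ intRing M, toFl ℓ z = y)
    ?_ ?_ ?_ ?_ hy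
  · rintro x ⟨d, hd, hdM, rfl⟩
    refine ⟨qExpand ℤ d (jqModC ℤ), Subring.subset_closure ⟨d, hd, hdM, rfl⟩, ?_⟩
    rw [show toFl ℓ = coeffMap (Int.castRingHom (ZMod ℓ)) from rfl, coeffMap_qExpand,
      coeffMap_jqModC]
  · intro c
    refine ⟨((c.val : ℕ) : LaurentSeries ℤ), natCast_mem _ _, ?_⟩
    rw [map_natCast]
    conv_rhs => rw [← ZMod.natCast_zmod_val c]
    rw [map_natCast]
  · rintro x y _ _ ⟨a, ha, rfl⟩ ⟨b, hb, rfl⟩
    exact ⟨a + b, add_mem ha hb, map_add _ _ _⟩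
  · rintro x y _ _ ⟨a, ha, rfl⟩ ⟨b, hb, rfl⟩
    exact ⟨a * b, mul_mem ha hb, map_mul _ _ _⟩

/-! ## Dependence mod `ℓ` -/

theorem intCast_laurentZ_ne_zero {a : ℤ} (ha : a ≠ 0) : (a : LaurentSeries ℤ) ≠ 0 := by
  intro h
  have h1 : toQ (a : LaurentSeries ℤ) = 0 := by rw [h, map_zero]
  rw [map_intCast] at h1
  exact helper1348.intCast_laurentQ_ne_zero ha h1

/-- Any `n + 1` elements of `𝔽_ℓ[j̄(q^d) : d ∣ M]` are linearly dependent over `𝔽_ℓ[j̄]`, if
`[ℚ(j(q^d) : d ∣ M) : ℚ(j)] ≤ n` in the sense of `Spec.DegLE`. -/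
theorem exists_dep_modL (ℓ : ℕ) [hℓ : Fact ℓ.Prime] (M : ℕ) (n : ℕ)
    (h : DegLE (modularFunctionFieldFull M) n)
    (y : Fin (n + 1) → LaurentSeries (ZMod ℓ))
    (hy : ∀ i, y i ∈ Algebra.adjoin (ZMod ℓ) (divisorExpansionsC (ZMod ℓ) M)) :
    ∃ c : Fin (n + 1) → Polynomial (ZMod ℓ), c ≠ 0 ∧
      ∑ i, Polynomial.aeval (jqModC (ZMod ℓ)) (c i) * y i = 0 := by
  choose z hz hzy using fun i => exists_lift ℓ M (hy i)
  obtain ⟨c, hc, hrel⟩ := h (fun i => toQ (z i)) (fun i => toQ_mem_full M (hz i))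
  -- the relation holds over `ℤ`
  have hrelZ : ∑ i, Polynomial.aeval (jqModC ℤ) (c i) * z i = 0 := by
    apply helper1348.toQ_inj
    rw [map_sum, map_zero, ← hrel]
    refine Finset.sum_congr rfl fun i _ => ?_
    rw [map_mul, helper1348.toQ_aeval]
  -- divide by the `ℓ`-content
  obtain ⟨e, c', hc', k0, hk0⟩ := helper1348.exists_normalize ℓ hℓ.out.one_lt c hc
  have hpow : (((ℓ : ℤ) ^ e : ℤ) : LaurentSeries ℤ) ≠ 0 :=
    intCast_laurentZ_ne_zero (pow_ne_zero e (by exact_mod_cast hℓ.out.ne_zero))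
  have hrelZ' : ∑ i, Polynomial.aeval (jqModC ℤ) (c' i) * z i = 0 := by
    have h1 : (((ℓ : ℤ) ^ e : ℤ) : LaurentSeries ℤ) *
        ∑ i, Polynomial.aeval (jqModC ℤ) (c' i) * z i = 0 := by
      rw [Finset.mul_sum, ← hrelZ]
      refine Finset.sum_congr rfl fun i _ => ?_
      rw [hc' i, map_mul, Polynomial.aeval_C, eq_intCast]
      ring
    exact (mul_eq_zero.mp h1).resolve_left hpow
  -- reduce mod `ℓ`
  refine ⟨fun i => (c' i).map (Int.castRingHom (ZMod ℓ)), ?_, ?_⟩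
  · intro h0
    exact hk0 (congrFun h0 k0)
  · have h2 := congrArg (toFl ℓ) hrelZ'
    rw [map_sum, map_zero] at h2
    rw [← h2]
    refine Finset.sum_congr rfl fun i _ => ?_
    rw [map_mul, helper1348.toFl_aeval, hzy i]

/-! ## (HUB) -/

/-- **(HUB)**: the char-0 degree bound `Spec.DegLE (modularFunctionFieldFull M) n` gives
`[𝔽_ℓ(j̄(q^d) : d ∣ M) : 𝔽_ℓ(j̄)] ≤ n`. -/
theorem hub_of_degLE (ℓ : ℕ) [Fact ℓ.Prime] (M : ℕ) (n : ℕ)
    (h : DegLE (modularFunctionFieldFull M) n) :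
    ((ZMod ℓ)⟮jqModC (ZMod ℓ)⟯).relrank (modularFunctionFieldFullC (ZMod ℓ) M) ≤ (n : Cardinal) := by
  have hAB : (ZMod ℓ)⟮jqModC (ZMod ℓ)⟯ ≤ modularFunctionFieldFullC (ZMod ℓ) M :=
    adjoin_simple_le_iff.mpr (jqModC_mem_full (ZMod ℓ) M)
  refine relrank_le_of_dep _ _ hAB (Algebra.adjoin (ZMod ℓ) (divisorExpansionsC (ZMod ℓ) M))
    (fun x hx => mem_adjoin_iff_div.mp hx) n ?_
  intro y hy
  obtain ⟨c, hc, hrel⟩ := exists_dep_modL ℓ M n h y hy
  refine ⟨fun i => Polynomial.aeval (jqModC (ZMod ℓ)) (c i), fun i => ?_, ?_, hrel⟩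
  · exact IntermediateField.algebra_adjoin_le_adjoin (ZMod ℓ) _
      (Polynomial.aeval_mem_adjoin_singleton (ZMod ℓ) (jqModC (ZMod ℓ)))
  · intro h0
    apply hc
    funext i
    have h1 : Polynomial.aeval (jqModC (ZMod ℓ)) (c i) = 0 := congrFun h0 i
    exact (helper979.aeval_jqModC_eq_zero_iff (ZMod ℓ)).mp h1

/-- **(HUB)**, unconditional: `[𝔽_ℓ(j̄(q^d) : d ∣ M) : 𝔽_ℓ(j̄)] ≤ dedekindPsi M` for every prime `ℓ`
and every `M ≠ 0`. -/
theorem hub (ℓ : ℕ) [Fact ℓ.Prime] (M : ℕ) [NeZero M] :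
    ((ZMod ℓ)⟮jqModC (ZMod ℓ)⟯).relrank (modularFunctionFieldFullC (ZMod ℓ) M) ≤
      (dedekindPsi M : Cardinal) :=
  hub_of_degLE ℓ M (dedekindPsi M) (degLE_full_dedekindPsi M)

/-- **(HUB)** in the exact shape of the hypothesis `hub` of
`helper1595.relrank_full_eq_dedekindPsi` (with `k = ZMod ℓ`). -/
theorem hub_all (ℓ : ℕ) [Fact ℓ.Prime] (N : ℕ) (hN : 0 < N) :
    ∀ M, M ∣ N → ((ZMod ℓ)⟮jqModC (ZMod ℓ)⟯).relrank (modularFunctionFieldFullC (ZMod ℓ) M) ≤
      (dedekindPsi M : Cardinal) := by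
  intro M hM
  have : NeZero M := ⟨fun h0 => by subst h0; exact absurd (Nat.eq_zero_of_zero_dvd hM) hN.ne'⟩
  exact hub ℓ M

end Fermat.Agent.S28.helper7095
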