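/-
S28 (Igusa) — the modular input `Spec.Stmt_CoreInput N ℓ` for `ℓ ∤ N`, without the modular
polynomial (no `Stmt_FormalPrime`).

Author: helper1457.  Pure assembly:

* `helper7095.hub_all`                       : `[𝔽_ℓ(j̄(q^d) : d ∣ M) : 𝔽_ℓ(j̄)] ≤ ψ(M)`;
* `helper1457.relrank_full_eq_dedekindPsi_of_hub` : equality at `M = N` (`ℓ ∤ N`);
* `helper4768.stmt_CoreInput_of_relrank`     : the adapter to `Spec.Stmt_CoreInput`.
-/
import Mathlib
import Fermat.Agent.S28.helper1457_TowerNoPhi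
import Fermat.Agent.S28.helper7095_Hub
import Fermat.Agent.S28.helper4768_Final

set_option autoImplicit false

noncomputable section

namespace Fermat.Agent.S28.helper1457

open IntermediateField ModularCurve

/-- `[𝔽_ℓ(j̄(q^d) : d ∣ N) : 𝔽_ℓ(j̄)] = ψ(N)` for `ℓ ∤ N`, unconditionally. -/
theorem relrank_full_eq_dedekindPsi_modL (N : ℕ) [NeZero N] (ℓ : ℕ) [Fact ℓ.Prime]
    (hℓN : ¬ ℓ ∣ N) :
    ((ZMod ℓ)⟮jqModC (ZMod ℓ)⟯).relrank (modularFunctionFieldFullC (ZMod ℓ) N) =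
      (dedekindPsi N : Cardinal) := by
  have hN : 0 < N := Nat.pos_of_ne_zero (NeZero.ne N)
  refine relrank_full_eq_dedekindPsi_of_hub (ZMod ℓ) N hN (helper7095.hub_all ℓ N hN) ?_
  intro p hp hpN h0
  rw [ZMod.natCast_eq_zero_iff] at h0
  have hℓp : ℓ = p := (Nat.prime_dvd_prime_iff_eq (Fact.out : ℓ.Prime) hp).mp h0
  exact hℓN (hℓp ▸ hpN)

/-- **The modular input of S28**, for `ℓ ∤ N`. -/
theorem stmt_CoreInput (N : ℕ) [NeZero N] (ℓ : ℕ) [Fact ℓ.Prime] (hℓN : ¬ ℓ ∣ N) :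
    Spec.Stmt_CoreInput N ℓ :=
  helper4768.stmt_CoreInput_of_relrank N ℓ (relrank_full_eq_dedekindPsi_modL N ℓ hℓN)

end Fermat.Agent.S28.helper1457
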