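import Mathlib
import Fermat.Prelude.Def_ModularCurve_X0ModL

set_option autoImplicit false

noncomputable section

namespace Fermat.Agent.S28.helper1526

open Polynomial

/-! ## Part 1: the abstract irreducibility lemma (Gauss lemma argument) -/

section Irreducibility

variable {κ : Type*} [Field κ]

/-- A nonempty multiset product of Laurent series of positive order has positive order. -/
theorem orderTop_multiset_prod_pos (s : Multiset (LaurentSeries κ))
    (hs : ∀ r ∈ s, 0 < r.orderTop) (hne : s ≠ 0) : 0 < s.prod.orderTop := by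
  induction s using Multiset.induction_on with
  | empty => exact absurd rfl hne
  | cons a s ih =>
    rw [Multiset.prod_cons, HahnSeries.orderTop_mul]
    have ha : 0 < a.orderTop := hs a (Multiset.mem_cons_self a s)
    by_cases hs0 : s = 0
    · subst hs0
      simpa using ha
    · have := ih (fun r hr => hs r (Multiset.mem_cons_of_mem hr)) hs0
      exact add_pos_of_pos_of_nonneg ha this.le

/-- **Abstract irreducibility lemma** (Gauss lemma argument).
`J` is a Laurent series such that no nonzero polynomial in `J` has positive order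
(e.g. `J` has a pole). If a monic `χ ∈ κ[Y][X]` of degree `n` factors over `κ((t))` as
`χ(J, X) = ∏ (X - v i)` where all roots except `v i0` are nonzero of positive order and `v i0`
does not have positive order, then `1, v i0, …, (v i0)^(n-1)` are linearly independent
over `κ[J]`. -/
theorem independent_of_factorization (J : LaurentSeries κ)
    (hJ : ∀ a : Polynomial κ, 0 < (Polynomial.aeval J a).orderTop → a = 0)
    (n : ℕ) (χ : Polynomial (Polynomial κ)) (hχ : χ.Monic)
    (v : Fin n → LaurentSeries κ) (i0 : Fin n)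
    (hfac : χ.map (Polynomial.aeval J).toRingHom = ∏ i, (X - C (v i)))
    (hpos : ∀ i, i ≠ i0 → v i ≠ 0 ∧ 0 < (v i).orderTop)
    (h0 : ¬ (0 < (v i0).orderTop))
    (c : Fin n → Polynomial κ)
    (hc : ∑ i, Polynomial.aeval J (c i) * (v i0) ^ (i : ℕ) = 0) : c = 0 := by
  classical
  set φ : Polynomial κ →+* LaurentSeries κ := (Polynomial.aeval J).toRingHom with hφ
  have hφinj : Function.Injective φ := by
    rw [injective_iff_map_eq_zero]
    intro a ha
    apply hJ
    have : Polynomial.aeval J a = 0 := ha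
    rw [this, HahnSeries.orderTop_zero]
    exact WithTop.coe_lt_top 0
  by_contra hc0
  let K := FractionRing (Polynomial κ)
  let Φ : K →+* LaurentSeries κ := IsFractionRing.lift hφinj
  have hΦ : ∀ a, Φ (algebraMap (Polynomial κ) K a) = φ a :=
    fun a => IsFractionRing.lift_algebraMap hφinj a
  let _ : Algebra K (LaurentSeries κ) := Φ.toAlgebra
  have hinjK : Function.Injective (algebraMap (Polynomial κ) K) :=
    IsFractionRing.injective (Polynomial κ) K
  -- the polynomial `Q`
  set Q : Polynomial (Polynomial κ) := ∑ i : Fin n, C (c i) * X ^ (i : ℕ) with hQ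
  have hQcoeff : ∀ i : Fin n, Q.coeff (i : ℕ) = c i := by
    intro i
    rw [hQ, Polynomial.finsetSum_coeff]
    simp only [Polynomial.coeff_C_mul_X_pow]
    rw [Finset.sum_eq_single i]
    · simp
    · intro b _ hb
      rw [if_neg]
      intro h
      exact hb (Fin.ext h.symm)
    · intro h; exact absurd (Finset.mem_univ i) h
  have hQne : Q ≠ 0 := by
    intro h
    apply hc0
    funext i
    rw [← hQcoeff i, h]; simp
  have hQdeg : Q.natDegree < n := by
    have hn : 0 < n := Fin.pos i0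
    rw [hQ]
    refine lt_of_le_of_lt (Polynomial.natDegree_sum_le _ _) ?_
    rw [Finset.fold_max_lt]
    refine ⟨hn, fun i _ => ?_⟩
    exact lt_of_le_of_lt (Polynomial.natDegree_C_mul_X_pow_le _ _) i.2
  -- evaluation of polynomials over `K` coming from `κ[Y]`
  have haeval : ∀ (p : Polynomial (Polynomial κ)) (x : LaurentSeries κ),
      Polynomial.aeval x (p.map (algebraMap (Polynomial κ) K)) = (p.map φ).eval x := by
    intro p x
    rw [Polynomial.aeval_def, Polynomial.eval₂_map, Polynomial.eval_map]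
    congr 1
    exact RingHom.ext fun a => hΦ a
  have hQroot : Polynomial.aeval (v i0) (Q.map (algebraMap (Polynomial κ) K)) = 0 := by
    rw [haeval, hQ, Polynomial.map_sum, Polynomial.eval_finsetSum, ← hc]
    refine Finset.sum_congr rfl fun i _ => ?_
    simp [hφ]
  have hχroot : Polynomial.aeval (v i0) (χ.map (algebraMap (Polynomial κ) K)) = 0 := by
    rw [haeval, hfac, Polynomial.eval_prod]
    exact Finset.prod_eq_zero (Finset.mem_univ i0) (by simp)
  have hχK : (χ.map (algebraMap (Polynomial κ) K)).Monic := hχ.map _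
  have hint : IsIntegral K (v i0) := ⟨_, hχK, hχroot⟩
  set m := minpoly K (v i0) with hm
  have hmmonic : m.Monic := minpoly.monic hint
  have hmQ : m ∣ Q.map (algebraMap (Polynomial κ) K) := minpoly.dvd K (v i0) hQroot
  obtain ⟨m', hm'⟩ : m ∣ χ.map (algebraMap (Polynomial κ) K) := minpoly.dvd K (v i0) hχroot
  have hQKne : Q.map (algebraMap (Polynomial κ) K) ≠ 0 :=
    (Polynomial.map_ne_zero_iff hinjK).mpr hQne
  have hmdeg : m.natDegree < n :=
    lt_of_le_of_lt (Polynomial.natDegree_le_of_dvd hmQ hQKne)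
      (lt_of_le_of_lt (Polynomial.natDegree_map_le) hQdeg)
  have hm'monic : m'.Monic := hmmonic.of_mul_monic_left (hm' ▸ hχK)
  -- Gauss lemma
  obtain ⟨g', hg'⟩ := IsIntegrallyClosed.eq_map_mul_C_of_dvd K hχ (g := m') ⟨m, by rw [hm', mul_comm]⟩
  obtain ⟨h', hh'⟩ := IsIntegrallyClosed.eq_map_mul_C_of_dvd K hχ (g := m) ⟨m', hm'⟩
  rw [hm'monic.leadingCoeff, map_one, mul_one] at hg'
  rw [hmmonic.leadingCoeff, map_one, mul_one] at hh'
  have hg'monic : g'.Monic := Polynomial.monic_of_injective hinjK (hg' ▸ hm'monic)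
  have hh'monic : h'.Monic := Polynomial.monic_of_injective hinjK (hh' ▸ hmmonic)
  have hχeq : χ = h' * g' := by
    apply Polynomial.map_injective _ hinjK
    rw [Polynomial.map_mul, hh', hg', hm']
  set G := g'.map φ with hG
  set H := h'.map φ with hH
  have hGmonic : G.Monic := hg'monic.map _
  have hHmonic : H.Monic := hh'monic.map _
  have hHG : H * G = ∏ i, (X - C (v i)) := by
    rw [← hfac, hχeq, Polynomial.map_mul]
  have hHroot : H.eval (v i0) = 0 := by
    rw [hH, ← haeval, hh']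
    exact minpoly.aeval K (v i0)
  -- degrees
  have hdegHG : H.natDegree + G.natDegree = n := by
    rw [← hHmonic.natDegree_mul hGmonic, hHG, Polynomial.natDegree_finsetProd_X_sub_C_eq_card]
    simp
  have hHdeg : H.natDegree = m.natDegree := by
    rw [hH, hh'monic.natDegree_map, ← hh', hh'monic.natDegree_map]
  have hGdeg : 0 < G.natDegree := by omega
  -- roots
  have hprodroots : (∏ i, (X - C (v i))).roots = Finset.univ.val.map v := by
    have : (∏ i, (X - C (v i))) = ((Finset.univ.val.map v).map fun a => X - C a).prod := by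
      rw [Multiset.map_map]; rfl
    rw [this, Polynomial.roots_multiset_prod_X_sub_C]
  have hHGne : H * G ≠ 0 := (hHmonic.mul hGmonic).ne_zero
  have hroots : H.roots + G.roots = Finset.univ.val.map v := by
    rw [← Polynomial.roots_mul hHGne, hHG, hprodroots]
  have hcard : Multiset.card G.roots = G.natDegree := by
    have h1 := Polynomial.card_roots' H
    have h2 := Polynomial.card_roots' G
    have h3 : Multiset.card H.roots + Multiset.card G.roots = n := by
      rw [← Multiset.card_add, hroots]; simp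
    omega
  have hvi0 : ∀ i, i ≠ i0 → v i ≠ v i0 := by
    intro i hi h
    exact h0 (h ▸ (hpos i hi).2)
  have hcount : Multiset.count (v i0) (Finset.univ.val.map v) = 1 := by
    rw [Multiset.count_map]
    have : (Finset.univ.val.filter fun a => v i0 = v a) = {i0} := by
      ext a
      rw [Multiset.count_filter, Multiset.count_singleton]
      by_cases ha : a = i0
      · subst ha; simp
      · rw [if_neg (fun h => hvi0 a ha h.symm), if_neg ha]
    rw [this]; simp
  have hnotroot : v i0 ∉ G.roots := by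
    intro hmem
    have h1 : 1 ≤ Multiset.count (v i0) H.roots := by
      rw [Multiset.one_le_count_iff_mem, Polynomial.mem_roots hHmonic.ne_zero]
      exact hHroot
    have h2 : 1 ≤ Multiset.count (v i0) G.roots := Multiset.one_le_count_iff_mem.mpr hmem
    have h3 := congrArg (Multiset.count (v i0)) hroots
    rw [Multiset.count_add, hcount] at h3
    omega
  have hrootsG : ∀ r ∈ G.roots, r ≠ 0 ∧ 0 < r.orderTop := by
    intro r hr
    have hr' : r ∈ Finset.univ.val.map v := by
      rw [← hroots]; exact Multiset.mem_add.mpr (Or.inr hr)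
    obtain ⟨i, -, rfl⟩ := Multiset.mem_map.mp hr'
    refine hpos i ?_
    rintro rfl
    exact hnotroot hr
  -- `G` is the product over its roots
  have hGprod : (G.roots.map fun a => X - C a).prod = G :=
    Polynomial.prod_multiset_X_sub_C_of_monic_of_roots_card_eq hGmonic hcard
  have hG0 : G.coeff 0 = (G.roots.map fun a => -a).prod := by
    conv_lhs => rw [← hGprod]
    rw [Polynomial.coeff_zero_eq_eval_zero, Polynomial.eval_multiset_prod, Multiset.map_map]
    congr 1
    refine Multiset.map_congr rfl fun a _ => ?_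
    simp
  have hrootsne : G.roots ≠ 0 := by
    intro h
    rw [h] at hcard
    simp at hcard
    omega
  have hG0pos : 0 < (G.coeff 0).orderTop := by
    rw [hG0]
    refine orderTop_multiset_prod_pos _ ?_ ?_
    · intro r hr
      obtain ⟨a, ha, rfl⟩ := Multiset.mem_map.mp hr
      rw [HahnSeries.orderTop_neg]
      exact (hrootsG a ha).2
    · intro h
      exact hrootsne (Multiset.map_eq_zero.mp h)
  have hG0' : G.coeff 0 = Polynomial.aeval J (g'.coeff 0) := by
    rw [hG, Polynomial.coeff_map]; rfl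
  have hg0 : g'.coeff 0 = 0 := hJ _ (hG0' ▸ hG0pos)
  have hG00 : G.coeff 0 = 0 := by rw [hG0', hg0, map_zero]
  have h0root : (0 : LaurentSeries κ) ∈ G.roots := by
    rw [Polynomial.mem_roots hGmonic.ne_zero, Polynomial.IsRoot, ← Polynomial.coeff_zero_eq_eval_zero]
    exact hG00
  exact (hrootsG 0 h0root).1 rfl

end Irreducibility

/-! ## Part 2: coefficient lemmas for `J(t^N)` and compatibility with `coeffMap` -/

section JtLemmas

open ModularCurve

variable {R S : Type*} [CommRing R] [CommRing S]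

/-- The Laurent series `j(t^N)` with coefficients in `R`. -/
def jt (R : Type*) [CommRing R] (N : ℕ) [NeZero N] : LaurentSeries R :=
  qExpand R N (jqModC R)

theorem algebraMap_eq_single (c : R) :
    algebraMap R (LaurentSeries R) c = HahnSeries.single 0 c := by
  rw [HahnSeries.algebraMap_apply']
  simp

theorem coeffMap_algebraMap' (f : R →+* S) (c : R) :
    coeffMap f (algebraMap R (LaurentSeries R) c) = algebraMap S (LaurentSeries S) (f c) := by
  rw [algebraMap_eq_single, algebraMap_eq_single, coeffMap_single]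

theorem qExpand_algebraMap (N : ℕ) [NeZero N] (c : R) :
    qExpand R N (algebraMap R (LaurentSeries R) c) = algebraMap R (LaurentSeries R) c := by
  rw [algebraMap_eq_single, qExpand_single, mul_zero]

theorem coeffMap_jt (f : R →+* S) (N : ℕ) [NeZero N] : coeffMap f (jt R N) = jt S N := by
  rw [jt, coeffMap_qExpand, coeffMap_jqModC, jt]

theorem coeffMap_aeval (f : R →+* S) (x : LaurentSeries R) (p : Polynomial R) :
    coeffMap f (Polynomial.aeval x p) = Polynomial.aeval (coeffMap f x) (p.map f) := by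
  rw [Polynomial.aeval_def, Polynomial.aeval_def, Polynomial.eval₂_map, Polynomial.hom_eval₂]
  congr 1
  exact RingHom.ext fun c => coeffMap_algebraMap' f c

theorem qExpand_aeval (N : ℕ) [NeZero N] (x : LaurentSeries R) (p : Polynomial R) :
    qExpand R N (Polynomial.aeval x p) = Polynomial.aeval (qExpand R N x) p := by
  rw [Polynomial.aeval_def, Polynomial.aeval_def, Polynomial.hom_eval₂]
  congr 1
  exact RingHom.ext fun c => qExpand_algebraMap N c

theorem coeffMap_injective {f : R →+* S} (hf : Function.Injective f) :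
    Function.Injective (coeffMap f) := by
  intro x y h
  ext k
  apply hf
  have := congrArg (fun z => HahnSeries.coeff z k) h
  simpa using this

/-- Coefficients of powers of `j(t^N)`. -/
theorem coeff_jt_pow (N : ℕ) [NeZero N] (i e : ℕ) (hie : i ≤ e) :
    ((jt R N) ^ i).coeff (-((N : ℤ) * e)) = if i = e then 1 else 0 := by
  rw [jt, ← map_pow, show (-((N : ℤ) * e)) = (N : ℤ) * (-(e : ℤ)) by ring, qExpand_coeff_mul]
  split_ifs with h
  · subst h
    exact coeff_jqModC_pow_self R i
  · refine coeff_jqModC_pow_of_lt R ?_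
    have : i < e := lt_of_le_of_ne hie h
    omega

theorem coeff_jt_pow_of_lt (N : ℕ) [NeZero N] (i e : ℕ) (hie : i ≤ e) {m : ℤ}
    (hm : m < -((N : ℤ) * e)) : ((jt R N) ^ i).coeff m = 0 := by
  rw [jt, ← map_pow]
  by_cases hdvd : (N : ℤ) ∣ m
  · obtain ⟨k, rfl⟩ := hdvd
    rw [qExpand_coeff_mul]
    refine coeff_jqModC_pow_of_lt R ?_
    have hN : (0 : ℤ) < N := by exact_mod_cast Nat.pos_of_ne_zero (NeZero.ne N)
    have h1 : (N : ℤ) * k < (N : ℤ) * (-(e : ℤ)) := by linarith
    have h2 : k < -(e : ℤ) := lt_of_mul_lt_mul_left h1 hN.le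
    omega
  · exact qExpand_coeff_of_not_dvd N _ hdvd

/-- The coefficient of `p(j(t^N))` at `-(N e)` is `p.coeff e` when `natDegree p ≤ e`. -/
theorem coeff_aeval_jt (N : ℕ) [NeZero N] (p : Polynomial R) (e : ℕ) (he : p.natDegree ≤ e) :
    (Polynomial.aeval (jt R N) p).coeff (-((N : ℤ) * e)) = p.coeff e := by
  rw [Polynomial.aeval_eq_sum_range' (Nat.lt_succ_of_le he), HahnSeries.coeff_sum]
  simp only [Algebra.smul_def, algebraMap_eq_single, HahnSeries.coeff_single_mul, sub_zero]
  rw [Finset.sum_eq_single e]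
  · rw [coeff_jt_pow N e e le_rfl, if_pos rfl, mul_one]
  · intro i hi hne
    rw [coeff_jt_pow N i e (Nat.lt_succ_iff.mp (Finset.mem_range.mp hi)), if_neg hne, mul_zero]
  · intro h
    exact absurd (Finset.mem_range.mpr (Nat.lt_succ_self e)) h

/-- No nonzero polynomial in `j(t^N)` has positive order (over a nontrivial ring). -/
theorem eq_zero_of_orderTop_aeval_jt_pos [Nontrivial R] (N : ℕ) [NeZero N] (p : Polynomial R)
    (h : 0 < (Polynomial.aeval (jt R N) p).orderTop) : p = 0 := by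
  by_contra hp
  have hcoeff := coeff_aeval_jt N p p.natDegree le_rfl
  have hne : (Polynomial.aeval (jt R N) p).coeff (-((N : ℤ) * p.natDegree)) ≠ 0 := by
    rw [hcoeff]
    exact Polynomial.leadingCoeff_ne_zero.mpr hp
  have hle := HahnSeries.orderTop_le_of_coeff_ne_zero hne
  have h2 : (0 : WithTop ℤ) < ((-((N : ℤ) * p.natDegree) : ℤ) : WithTop ℤ) := lt_of_lt_of_le h hle
  have h3 : (0 : ℤ) < -((N : ℤ) * p.natDegree) := by exact_mod_cast h2
  have h4 : (0 : ℤ) ≤ (N : ℤ) * p.natDegree := by positivity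
  omega

end JtLemmas

/-! ## Part 3: Laurent series with coefficients in a subring; triangularity -/

section Subring

open ModularCurve

variable {S : Type*} [CommRing S] (O : Subring S)

/-- Lift a Laurent series whose coefficients lie in a subring. -/
def liftCoeff (x : LaurentSeries S) (h : ∀ k, x.coeff k ∈ O) : LaurentSeries O where
  coeff k := ⟨x.coeff k, h k⟩
  isPWO_support' := by
    have : (Function.support fun k => (⟨x.coeff k, h k⟩ : O)) = x.support := by
      ext k
      simp [Subtype.ext_iff]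
    rw [this]
    exact x.isPWO_support

@[simp]
theorem coeffMap_liftCoeff (x : LaurentSeries S) (h : ∀ k, x.coeff k ∈ O) :
    coeffMap O.subtype (liftCoeff O x h) = x := by
  ext k
  rfl

theorem coeff_coeffMap_subtype_mem (y : LaurentSeries O) (k : ℤ) :
    (coeffMap O.subtype y).coeff k ∈ O := by
  rw [coeffMap_coeff]
  exact (y.coeff k).2

/-- `j(t^N)^d` has coefficients in any subring. -/
theorem coeff_jt_pow_mem (N : ℕ) [NeZero N] (d : ℕ) (k : ℤ) : ((jt S N) ^ d).coeff k ∈ O := by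
  rw [← coeffMap_jt O.subtype N, ← map_pow]
  exact coeff_coeffMap_subtype_mem O _ k

/-- **Triangularity**: if `p(j(t^N))` has all coefficients in the subring `O`, then so does `p`. -/
theorem coeff_mem_of_aeval_jt_mem (N : ℕ) [NeZero N] :
    ∀ (d : ℕ) (p : Polynomial S), p.natDegree ≤ d →
      (∀ k, (Polynomial.aeval (jt S N) p).coeff k ∈ O) → ∀ i, p.coeff i ∈ O := by
  intro d
  induction d with
  | zero =>
    intro p hp h i
    have h0 : p.coeff 0 ∈ O := by
      have := h (-((N : ℤ) * (0 : ℕ)))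
      rwa [coeff_aeval_jt N p 0 hp] at this
    rcases Nat.eq_zero_or_pos i with rfl | hi
    · exact h0
    · rw [Polynomial.coeff_eq_zero_of_natDegree_lt (lt_of_le_of_lt hp hi)]
      exact O.zero_mem
  | succ d ih =>
    intro p hp h i
    have hd : p.coeff (d + 1) ∈ O := by
      have := h (-((N : ℤ) * ((d + 1 : ℕ) : ℤ)))
      rwa [coeff_aeval_jt N p (d + 1) hp] at this
    set p' : Polynomial S := p - Polynomial.C (p.coeff (d + 1)) * Polynomial.X ^ (d + 1) with hp'
    have hp'deg : p'.natDegree ≤ d := by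
      rw [Polynomial.natDegree_le_iff_coeff_eq_zero]
      intro m hm
      rw [hp', Polynomial.coeff_sub, Polynomial.coeff_C_mul_X_pow]
      rcases Nat.lt_or_ge (d + 1) m with hlt | hge
      · rw [Polynomial.coeff_eq_zero_of_natDegree_lt (lt_of_le_of_lt hp hlt),
          if_neg (by omega), sub_zero]
      · have : m = d + 1 := by omega
        subst this
        simp
    have hp'mem : ∀ k, (Polynomial.aeval (jt S N) p').coeff k ∈ O := by
      intro k
      rw [hp', map_sub, map_mul, Polynomial.aeval_C, map_pow, Polynomial.aeval_X,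
        HahnSeries.coeff_sub, algebraMap_eq_single, HahnSeries.coeff_single_mul, sub_zero]
      exact O.sub_mem (h k) (O.mul_mem hd (coeff_jt_pow_mem O N (d + 1) k))
    have := ih p' hp'deg hp'mem i
    have hpi : p.coeff i = p'.coeff i + (if i = d + 1 then p.coeff (d + 1) else 0) := by
      rw [hp', Polynomial.coeff_sub, Polynomial.coeff_C_mul_X_pow]
      ring
    rw [hpi]
    refine O.add_mem this ?_
    split_ifs
    · exact hd
    · exact O.zero_mem

end Subring

/-! ## Part 4: subrings of `Zbar[1/N] ⊆ ℂ` and their residue fields of characteristic `ℓ ∤ N` -/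

section OBar

theorem isIntegral_natCast_pow_complex (N c : ℕ) : IsIntegral ℤ ((N : ℂ) ^ c) := by
  have h : IsIntegral ℤ (N : ℂ) := by
    have := isIntegral_algebraMap (R := ℤ) (A := ℂ) (x := (N : ℤ))
    simpa using this
  exact h.pow c

/-- The subring `Zbar[1/N]` of `ℂ`: complex numbers `z` such that `N^a * z` is an algebraic
integer for some `a`. -/
def OBar (N : ℕ) : Subring ℂ where
  carrier := {z | ∃ a : ℕ, IsIntegral ℤ ((N : ℂ) ^ a * z)}
  mul_mem' := by
    rintro x y ⟨a, ha⟩ ⟨b, hb⟩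
    refine ⟨a + b, ?_⟩
    have : (N : ℂ) ^ (a + b) * (x * y) = ((N : ℂ) ^ a * x) * ((N : ℂ) ^ b * y) := by ring
    rw [this]
    exact ha.mul hb
  one_mem' := ⟨0, by simpa using isIntegral_one⟩
  add_mem' := by
    rintro x y ⟨a, ha⟩ ⟨b, hb⟩
    refine ⟨a + b, ?_⟩
    have : (N : ℂ) ^ (a + b) * (x + y) =
        (N : ℂ) ^ b * ((N : ℂ) ^ a * x) + (N : ℂ) ^ a * ((N : ℂ) ^ b * y) := by ring
    rw [this]
    exact ((isIntegral_natCast_pow_complex N b).mul ha).add
      ((isIntegral_natCast_pow_complex N a).mul hb)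
  zero_mem' := ⟨0, by simpa using isIntegral_zero⟩
  neg_mem' := by
    rintro x ⟨a, ha⟩
    refine ⟨a, ?_⟩
    rw [mul_neg]
    exact ha.neg

theorem mem_OBar {N : ℕ} {z : ℂ} : z ∈ OBar N ↔ ∃ a : ℕ, IsIntegral ℤ ((N : ℂ) ^ a * z) :=
  Iff.rfl

theorem inv_natCast_mem_OBar (N : ℕ) [NeZero N] : ((N : ℂ))⁻¹ ∈ OBar N := by
  refine ⟨1, ?_⟩
  have hN : (N : ℂ) ≠ 0 := by exact_mod_cast NeZero.ne N
  rw [pow_one, mul_inv_cancel₀ hN]
  exact isIntegral_one

theorem rootOfUnity_mem_OBar (N : ℕ) [NeZero N] (z : ℂ) (hz : z ^ N = 1) : z ∈ OBar N := by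
  refine ⟨0, ?_⟩
  rw [pow_zero, one_mul]
  refine IsIntegral.of_pow (Nat.pos_of_ne_zero (NeZero.ne N)) ?_
  rw [hz]
  exact isIntegral_one

/-- A prime `ℓ ∤ N` is not a unit of a subring of `Zbar[1/N]`. -/
theorem not_isUnit_prime_of_integral (N : ℕ) (ℓ : ℕ) (hℓ : ℓ.Prime) (hℓN : ¬ ℓ ∣ N)
    (O : Subring ℂ) (hO : ∀ x ∈ O, ∃ a : ℕ, IsIntegral ℤ ((N : ℂ) ^ a * x)) :
    ¬ IsUnit ((ℓ : ℤ) : O) := by
  rintro ⟨⟨x, y, hxy, hyx⟩, hx⟩
  have hx' : x = ((ℓ : ℤ) : O) := hx
  obtain ⟨a, ha⟩ := hO y y.2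
  have hℓ0 : (ℓ : ℂ) ≠ 0 := by exact_mod_cast hℓ.ne_zero
  have hy : (y : ℂ) = (ℓ : ℂ)⁻¹ := by
    have h1 : ((x * y : O) : ℂ) = 1 := by rw [hxy]; rfl
    rw [Subring.coe_mul, hx'] at h1
    have h2 : (ℓ : ℂ) * (y : ℂ) = 1 := by simpa using h1
    field_simp
    rw [mul_comm]; exact h2
  rw [hy] at ha
  -- `N^a / ℓ` is a rational number integral over ℤ
  have hq : IsIntegral ℤ (((N : ℚ) ^ a * (ℓ : ℚ)⁻¹ : ℚ)) := by
    have : ((N : ℂ) ^ a * (ℓ : ℂ)⁻¹) = algebraMap ℚ ℂ ((N : ℚ) ^ a * (ℓ : ℚ)⁻¹) := by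
      simp
    rw [this] at ha
    exact (isIntegral_algebraMap_iff (algebraMap ℚ ℂ).injective).mp ha
  obtain ⟨z, hz⟩ := IsIntegrallyClosed.isIntegral_iff.mp hq
  have hℓq : (ℓ : ℚ) ≠ 0 := by exact_mod_cast hℓ.ne_zero
  have h3 : ((z * ℓ : ℤ) : ℚ) = ((N ^ a : ℕ) : ℚ) := by
    have : (z : ℚ) = (N : ℚ) ^ a * (ℓ : ℚ)⁻¹ := by simpa using hz
    push_cast
    rw [this]
    field_simp
  have h4 : z * ℓ = ((N ^ a : ℕ) : ℤ) := by exact_mod_cast h3
  have h5 : (ℓ : ℤ) ∣ ((N ^ a : ℕ) : ℤ) := ⟨z, by rw [← h4, mul_comm]⟩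
  have h6 : ℓ ∣ N ^ a := by exact_mod_cast h5
  exact hℓN (hℓ.dvd_of_dvd_pow h6)

/-- There is a ring hom from a subring of `Zbar[1/N]` onto a field of characteristic `ℓ`
(for `ℓ ∤ N`). -/
theorem exists_residue_field_of_integral (N : ℕ) (ℓ : ℕ) (hℓ : ℓ.Prime) (hℓN : ¬ ℓ ∣ N)
    (O : Subring ℂ) (hO : ∀ x ∈ O, ∃ a : ℕ, IsIntegral ℤ ((N : ℂ) ^ a * x)) :
    ∃ (κ : Type) (_ : Field κ) (_ : CharP κ ℓ) (ρ : O →+* κ), Function.Surjective ρ := by
  have hne : Ideal.span {((ℓ : ℤ) : O)} ≠ ⊤ := by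
    rw [Ne, Ideal.span_singleton_eq_top]
    exact not_isUnit_prime_of_integral N ℓ hℓ hℓN O hO
  obtain ⟨M, hM, hle⟩ := Ideal.exists_le_maximal _ hne
  let _ : Field (O ⧸ M) := Ideal.Quotient.field M
  have hℓM : ((ℓ : ℤ) : O) ∈ M := hle (Ideal.subset_span rfl)
  have hzero : ((ℓ : ℕ) : O ⧸ M) = 0 := by
    have : (Ideal.Quotient.mk M) ((ℓ : ℤ) : O) = 0 := Ideal.Quotient.eq_zero_iff_mem.mpr hℓM
    simpa using this
  have hchar : CharP (O ⧸ M) ℓ := by
    obtain ⟨p, hp⟩ := CharP.exists (O ⧸ M)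
    have hdvd : p ∣ ℓ := (CharP.cast_eq_zero_iff (O ⧸ M) p ℓ).mp hzero
    rcases (Nat.dvd_prime hℓ).mp hdvd with h1 | h1
    · subst h1
      exact absurd rfl (CharP.char_ne_one (O ⧸ M) 1)
    · subst h1; exact hp
  exact ⟨O ⧸ M, inferInstance, hchar, Ideal.Quotient.mk M, Ideal.Quotient.mk_surjective⟩

end OBar

/-! ## Part 5: mod-`ℓ` independence from the factorization -/

section Main

open ModularCurve

theorem jt_eq_jqNModC (R : Type*) [CommRing R] (N : ℕ) [NeZero N] : jt R N = jqNModC R N := rfl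

theorem coeffMap_comp_aeval_jt {R S : Type*} [CommRing R] [CommRing S] (f : R →+* S) (N : ℕ)
    [NeZero N] :
    (coeffMap f).comp (Polynomial.aeval (jt R N)).toRingHom =
      ((Polynomial.aeval (jt S N)).toRingHom).comp (Polynomial.mapRingHom f) := by
  refine RingHom.ext fun p => ?_
  simp only [RingHom.comp_apply, AlgHom.toRingHom_eq_coe, RingHom.coe_coe,
    Polynomial.coe_mapRingHom]
  rw [coeffMap_aeval, coeffMap_jt]

variable {S : Type*} [CommRing S] (O : Subring S)

/-- If `χ(j(t^N), X) = ∏ (X - U i)` and the `U i` have coefficients in the subring `O`, then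
`χ` has coefficients in `O[Y]` (triangularity). -/
theorem coeff_coeff_mem_of_factorization (N : ℕ) [NeZero N] (n : ℕ)
    (χ : Polynomial (Polynomial S)) (U : Fin n → LaurentSeries S)
    (hfac : χ.map (Polynomial.aeval (jt S N)).toRingHom = ∏ i, (X - C (U i)))
    (hUO : ∀ i k, (U i).coeff k ∈ O) (k i : ℕ) : (χ.coeff k).coeff i ∈ O := by
  have hQ : (∏ j, (X - C (liftCoeff O (U j) (hUO j)))).map (coeffMap O.subtype) =
      ∏ j, (X - C (U j)) := by
    rw [Polynomial.map_prod]
    refine Finset.prod_congr rfl fun j _ => ?_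
    rw [Polynomial.map_sub, Polynomial.map_X, Polynomial.map_C, coeffMap_liftCoeff]
  refine coeff_mem_of_aeval_jt_mem O N (χ.coeff k).natDegree (χ.coeff k) le_rfl ?_ i
  intro m
  have h1 : Polynomial.aeval (jt S N) (χ.coeff k) =
      (χ.map (Polynomial.aeval (jt S N)).toRingHom).coeff k := by
    rw [Polynomial.coeff_map]; rfl
  rw [h1, hfac, ← hQ, Polynomial.coeff_map]
  exact coeff_coeffMap_subtype_mem O _ m

/-- Lift of the factorization to the subring `O`. -/
theorem exists_lift_of_factorization (N : ℕ) [NeZero N] (n : ℕ)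
    (χ : Polynomial (Polynomial S)) (hχ : χ.Monic) (U : Fin n → LaurentSeries S)
    (hfac : χ.map (Polynomial.aeval (jt S N)).toRingHom = ∏ i, (X - C (U i)))
    (hUO : ∀ i k, (U i).coeff k ∈ O) :
    ∃ χO : Polynomial (Polynomial O), χO.Monic ∧
      χO.map (Polynomial.mapRingHom O.subtype) = χ ∧
      χO.map (Polynomial.aeval (jt O N)).toRingHom =
        ∏ i, (X - C (liftCoeff O (U i) (hUO i))) := by
  have hl : χ ∈ Polynomial.lifts (Polynomial.mapRingHom O.subtype) := by
    rw [Polynomial.lifts_iff_coeff_lifts]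
    intro k
    have : χ.coeff k ∈ Polynomial.lifts O.subtype := by
      rw [Polynomial.lifts_iff_coeff_lifts]
      intro i
      exact ⟨⟨_, coeff_coeff_mem_of_factorization O N n χ U hfac hUO k i⟩, rfl⟩
    obtain ⟨q, hq⟩ := (Polynomial.mem_lifts _).mp this
    exact ⟨q, hq⟩
  obtain ⟨χO, hχO, -, hmonic⟩ := Polynomial.lifts_and_natDegree_eq_and_monic hl hχ
  refine ⟨χO, hmonic, hχO, ?_⟩
  apply Polynomial.map_injective (coeffMap O.subtype) (coeffMap_injective Subtype.val_injective)
  rw [Polynomial.map_map, coeffMap_comp_aeval_jt, ← Polynomial.map_map, hχO, hfac,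
    Polynomial.map_prod]
  refine Finset.prod_congr rfl fun j _ => ?_
  rw [Polynomial.map_sub, Polynomial.map_X, Polynomial.map_C, coeffMap_liftCoeff]

/-- A Laurent series whose coefficients below `k` vanish has order at least `k`. -/
theorem orderTop_pos_of_coeff_eq_zero {R : Type*} [CommRing R] (x : LaurentSeries R) (k : ℤ)
    (hk : 0 < k) (h : ∀ k' < k, x.coeff k' = 0) : 0 < x.orderTop := by
  by_contra hcon
  have hx : x ≠ 0 := by
    rintro rfl
    exact hcon (by rw [HahnSeries.orderTop_zero]; exact WithTop.coe_lt_top 0)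
  have hne : x.coeff x.order ≠ 0 := fun h0 => hx (HahnSeries.coeff_order_eq_zero.mp h0)
  have hle : x.order ≤ 0 := by
    by_contra hlt
    apply hcon
    rw [← HahnSeries.order_eq_orderTop_of_ne_zero hx]
    exact_mod_cast not_le.mp hlt
  exact hne (h _ (lt_of_le_of_lt hle hk))

/-- **Mod-`ℓ` independence from the factorization** (general form).
`O ⊆ S` is a subring with a ring hom `ρ` to a field `κ` of characteristic `ℓ`; `W ∈ ℤ((q))` has a
coefficient of index `≤ 0` prime to `ℓ`; `χ ∈ S[Y][X]` is monic and `χ(j(t^N), X) = ∏ (X - U i)`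
in `S((t))[X]`, where `U i0 = W(t^N)`, all `U i` have coefficients in `O`, and every other `U i`
starts in positive degree with a coefficient which is a unit of `O`. Then
`1, W̄, …, W̄^(n-1)` are linearly independent over `𝔽_ℓ[j̄]` in `𝔽_ℓ((q))`. -/
theorem linIndep_of_factorization (N : ℕ) [NeZero N]
    (ℓ : ℕ) [Fact ℓ.Prime] {κ : Type*} [Field κ] [CharP κ ℓ] (ρ : O →+* κ)
    (W : LaurentSeries ℤ) (hW : ∃ k : ℤ, k ≤ 0 ∧ ¬ (ℓ : ℤ) ∣ W.coeff k)
    (n : ℕ) (χ : Polynomial (Polynomial S)) (hχ : χ.Monic) (U : Fin n → LaurentSeries S)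
    (i0 : Fin n)
    (hfac : χ.map (Polynomial.aeval (jt S N)).toRingHom = ∏ i, (X - C (U i)))
    (hU0 : U i0 = qExpand S N (coeffMap (Int.castRingHom S) W))
    (hUO : ∀ i k, (U i).coeff k ∈ O)
    (hUpos : ∀ i, i ≠ i0 → ∃ k : ℤ, 0 < k ∧ (∀ k' < k, (U i).coeff k' = 0) ∧
      ∃ v ∈ O, (U i).coeff k * v = 1)
    (c : Fin n → Polynomial (ZMod ℓ))
    (hc : ∑ i, Polynomial.aeval (jqModC (ZMod ℓ)) (c i) *
      (coeffMap (Int.castRingHom (ZMod ℓ)) W) ^ (i : ℕ) = 0) : c = 0 := by
  obtain ⟨χO, hχO, hχOmap, hfacO⟩ := exists_lift_of_factorization O N n χ hχ U hfac hUO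
  -- reduction mod `ρ`
  set v : Fin n → LaurentSeries κ := fun i => coeffMap ρ (liftCoeff O (U i) (hUO i)) with hv
  have hfacκ : (χO.map (Polynomial.mapRingHom ρ)).map (Polynomial.aeval (jt κ N)).toRingHom =
      ∏ i, (X - C (v i)) := by
    rw [Polynomial.map_map, ← coeffMap_comp_aeval_jt, ← Polynomial.map_map, hfacO,
      Polynomial.map_prod]
    refine Finset.prod_congr rfl fun j _ => ?_
    rw [Polynomial.map_sub, Polynomial.map_X, Polynomial.map_C]
  have hv0 : v i0 = qExpand κ N (coeffMap (Int.castRingHom κ) W) := by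
    have h1 : liftCoeff O (U i0) (hUO i0) = qExpand O N (coeffMap (Int.castRingHom O) W) := by
      apply coeffMap_injective (f := O.subtype) Subtype.val_injective
      rw [coeffMap_liftCoeff, coeffMap_qExpand, coeffMap_coeffMap, hU0,
        RingHom.ext_int (O.subtype.comp (Int.castRingHom O)) (Int.castRingHom S)]
    show coeffMap ρ (liftCoeff O (U i0) (hUO i0)) = _
    rw [h1, coeffMap_qExpand, coeffMap_coeffMap,
      RingHom.ext_int (ρ.comp (Int.castRingHom O)) (Int.castRingHom κ)]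
  -- hypotheses of the abstract irreducibility lemma
  have hpos : ∀ i, i ≠ i0 → v i ≠ 0 ∧ 0 < (v i).orderTop := by
    intro i hi
    obtain ⟨k, hk, hlt, w, hw, hunit⟩ := hUpos i hi
    have hcoeff : ∀ m, (v i).coeff m = ρ ⟨(U i).coeff m, hUO i m⟩ := fun m => rfl
    constructor
    · intro h0
      have h1 : ρ ⟨(U i).coeff k, hUO i k⟩ = 0 := by rw [← hcoeff, h0]; rfl
      have h2 : ρ ⟨(U i).coeff k, hUO i k⟩ * ρ ⟨w, hw⟩ = 1 := by
        rw [← map_mul, ← map_one ρ]
        congr 1
        exact Subtype.ext hunit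
      rw [h1, zero_mul] at h2
      exact zero_ne_one h2
    · refine orderTop_pos_of_coeff_eq_zero (v i) k hk fun k' hk' => ?_
      rw [hcoeff]
      have : (⟨(U i).coeff k', hUO i k'⟩ : O) = 0 := Subtype.ext (hlt k' hk')
      rw [this, map_zero]
  have h0 : ¬ (0 < (v i0).orderTop) := by
    obtain ⟨k, hk, hdvd⟩ := hW
    intro hpos0
    have hne : (v i0).coeff ((N : ℤ) * k) ≠ 0 := by
      rw [hv0, qExpand_coeff_mul, coeffMap_coeff]
      intro hz
      apply hdvd
      have : ((W.coeff k : ℤ) : κ) = 0 := hz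
      exact (CharP.intCast_eq_zero_iff κ ℓ _).mp this
    have hle := HahnSeries.orderTop_le_of_coeff_ne_zero hne
    have h2 : (0 : WithTop ℤ) < (((N : ℤ) * k : ℤ) : WithTop ℤ) := lt_of_lt_of_le hpos0 hle
    have h3 : (0 : ℤ) < (N : ℤ) * k := by exact_mod_cast h2
    have h4 : (0 : ℤ) ≤ (N : ℤ) := by positivity
    nlinarith
  -- transfer from `𝔽_ℓ((q))` to `κ((t))`
  let φ : ZMod ℓ →+* κ := ZMod.castHom (dvd_refl ℓ) κ
  have hφ : Function.Injective φ := φ.injective
  have key : (fun i => (c i).map φ) = 0 := by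
    refine independent_of_factorization (jt κ N)
      (fun a ha => eq_zero_of_orderTop_aeval_jt_pos N a ha) n
      (χO.map (Polynomial.mapRingHom ρ)) (hχO.map _) v i0 hfacκ hpos h0 _ ?_
    have h := congrArg (fun x => qExpand κ N (coeffMap φ x)) hc
    simp only [map_sum, map_mul, map_pow, map_zero] at h
    rw [← h]
    refine Finset.sum_congr rfl fun i _ => ?_
    rw [coeffMap_aeval, coeffMap_jqModC, qExpand_aeval, coeffMap_coeffMap,
      RingHom.ext_int (φ.comp (Int.castRingHom (ZMod ℓ))) (Int.castRingHom κ), hv0]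
    rfl
  funext i
  have := congrFun key i
  exact Polynomial.map_injective φ hφ (by simpa using this)

end Main

/-! ## Part 6: integrality over `ℤ[j]` after rescaling by a power of `N` -/

section Integrality

open ModularCurve

/-- A root of a monic polynomial whose coefficients are integral is integral. -/
theorem isIntegralElem_of_monic_root {R B : Type*} [CommRing R] [CommRing B] (f : R →+* B)
    (q : Polynomial B) (hq : q.Monic) (hcoeff : ∀ k, f.IsIntegralElem (q.coeff k)) (x : B)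
    (hx : q.eval x = 0) : f.IsIntegralElem x := by
  let _ := f.toAlgebra
  have hl : q ∈ Polynomial.lifts (algebraMap (integralClosure R B) B) := by
    rw [Polynomial.lifts_iff_coeff_lifts]
    intro k
    exact ⟨⟨q.coeff k, hcoeff k⟩, rfl⟩
  obtain ⟨q', hq', -, hmonic⟩ := Polynomial.lifts_and_natDegree_eq_and_monic hl hq
  have hxA : IsIntegral (integralClosure R B) x :=
    ⟨q', hmonic, by rw [← Polynomial.eval_map, hq', hx]⟩
  exact isIntegral_trans x hxA

/-- The ring hom `ℤ((q)) → ℂ((t))`, `q ↦ t^N`. -/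
def thetaC (N : ℕ) [NeZero N] : LaurentSeries ℤ →+* LaurentSeries ℂ :=
  (qExpand ℂ N).comp (coeffMap (Int.castRingHom ℂ))

theorem thetaC_apply (N : ℕ) [NeZero N] (x : LaurentSeries ℤ) :
    thetaC N x = qExpand ℂ N (coeffMap (Int.castRingHom ℂ) x) := rfl

theorem thetaC_injective (N : ℕ) [NeZero N] : Function.Injective (thetaC N) := by
  intro x y h
  rw [thetaC_apply, thetaC_apply] at h
  exact coeffMap_injective (f := Int.castRingHom ℂ) Int.cast_injective
    (qExpand_injective (R := ℂ) (N := N) h)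

theorem thetaC_aeval (N : ℕ) [NeZero N] (p : Polynomial ℤ) :
    thetaC N (Polynomial.aeval (jqModC ℤ) p) =
      Polynomial.aeval (jt ℂ N) (p.map (Int.castRingHom ℂ)) := by
  rw [thetaC_apply, coeffMap_aeval, coeffMap_jqModC, qExpand_aeval]
  rfl

/-- `p ↦ p(j(t^N))`, from `ℤ[Y]` to `ℂ((t))`, factored through `ℤ((q))`. -/
abbrev evalF (N : ℕ) [NeZero N] : Polynomial ℤ →+* LaurentSeries ℂ :=
  (thetaC N).comp (Polynomial.aeval (jqModC ℤ)).toRingHom

theorem isIntegralElem_algebraMap (N : ℕ) [NeZero N] (a : ℂ) (ha : IsIntegral ℤ a) :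
    (evalF N).IsIntegralElem (algebraMap ℂ (LaurentSeries ℂ) a) := by
  have h1 : ((algebraMap ℂ (LaurentSeries ℂ)).comp (algebraMap ℤ ℂ)).IsIntegralElem
      (algebraMap ℂ (LaurentSeries ℂ) a) := RingHom.IsIntegralElem.map ha _
  have h2 : (algebraMap ℂ (LaurentSeries ℂ)).comp (algebraMap ℤ ℂ) =
      (evalF N).comp (Polynomial.C) := RingHom.ext_int _ _
  rw [h2] at h1
  exact RingHom.IsIntegralElem.of_comp h1

theorem isIntegralElem_jt (N : ℕ) [NeZero N] : (evalF N).IsIntegralElem (jt ℂ N) := by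
  have : jt ℂ N = evalF N Polynomial.X := by
    show _ = thetaC N (Polynomial.aeval (jqModC ℤ) Polynomial.X)
    rw [thetaC_aeval, Polynomial.map_X, Polynomial.aeval_X]
  rw [this]
  exact RingHom.isIntegralElem_map _

theorem isIntegralElem_aeval_jt (N : ℕ) [NeZero N] (p : Polynomial ℂ)
    (hp : ∀ m, IsIntegral ℤ (p.coeff m)) :
    (evalF N).IsIntegralElem (Polynomial.aeval (jt ℂ N) p) := by
  have hpow : ∀ i : ℕ, (evalF N).IsIntegralElem (jt ℂ N ^ i) := by
    intro i
    induction i with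
    | zero => rw [pow_zero]; exact RingHom.isIntegralElem_one _
    | succ i ih => rw [pow_succ]; exact RingHom.IsIntegralElem.mul _ ih (isIntegralElem_jt N)
  rw [Polynomial.aeval_eq_sum_range]
  refine Finset.sum_induction _ (fun x => (evalF N).IsIntegralElem x)
    (fun x y hx hy => RingHom.IsIntegralElem.add _ hx hy) (RingHom.isIntegralElem_zero _) ?_
  intro i _
  rw [Algebra.smul_def]
  exact RingHom.IsIntegralElem.mul _ (isIntegralElem_algebraMap N _ (hp i)) (hpow i)

/-- A uniform exponent clearing the denominators of all coefficients. -/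
theorem exists_uniform_exponent (N : ℕ) (O : Subring ℂ)
    (hO : ∀ x ∈ O, ∃ a : ℕ, IsIntegral ℤ ((N : ℂ) ^ a * x)) (χ : Polynomial (Polynomial ℂ))
    (hχ : ∀ k i, (χ.coeff k).coeff i ∈ O) :
    ∃ e : ℕ, ∀ k i, IsIntegral ℤ ((N : ℂ) ^ e * (χ.coeff k).coeff i) := by
  choose a ha using fun k i => hO _ (hχ k i)
  refine ⟨∑ k ∈ χ.support, ∑ i ∈ (χ.coeff k).support, a k i, fun k i => ?_⟩
  by_cases hk : k ∈ χ.support
  · by_cases hi : i ∈ (χ.coeff k).support
    · have hle : a k i ≤ ∑ k ∈ χ.support, ∑ i ∈ (χ.coeff k).support, a k i :=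
        le_trans (Finset.single_le_sum (f := fun i => a k i) (fun _ _ => Nat.zero_le _) hi)
          (Finset.single_le_sum (f := fun k => ∑ i ∈ (χ.coeff k).support, a k i)
            (fun _ _ => Nat.zero_le _) hk)
      obtain ⟨d, hd⟩ := Nat.exists_eq_add_of_le hle
      rw [hd, pow_add, mul_comm ((N : ℂ) ^ (a k i)), mul_assoc]
      exact (isIntegral_natCast_pow_complex N d).mul (ha k i)
    · rw [Polynomial.notMem_support_iff.mp hi, mul_zero]
      exact isIntegral_zero
  · rw [Polynomial.notMem_support_iff.mp hk, Polynomial.coeff_zero, mul_zero]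
    exact isIntegral_zero

/-- If `χ ∈ ℂ[Y][X]` is monic and `N^e` clears the denominators of its coefficients, then for
any root `x` of `χ(j(t^N), X)` in `ℂ((t))`, `N^e x` is integral over `ℤ[j(t^N)]`. -/
theorem isIntegralElem_scaled_root (N : ℕ) [NeZero N] (χ : Polynomial (Polynomial ℂ))
    (hχ : χ.Monic) (e : ℕ) (he : ∀ k i, IsIntegral ℤ ((N : ℂ) ^ e * (χ.coeff k).coeff i))
    (x : LaurentSeries ℂ)
    (hx : (χ.map (Polynomial.aeval (jt ℂ N)).toRingHom).eval x = 0) :
    (evalF N).IsIntegralElem (algebraMap ℂ (LaurentSeries ℂ) ((N : ℂ) ^ e) * x) := by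
  have hqm : (χ.map (Polynomial.aeval (jt ℂ N)).toRingHom).Monic := hχ.map _
  refine isIntegralElem_of_monic_root (evalF N)
    (Polynomial.scaleRoots (χ.map (Polynomial.aeval (jt ℂ N)).toRingHom)
      (algebraMap ℂ (LaurentSeries ℂ) ((N : ℂ) ^ e)))
    ((Polynomial.monic_scaleRoots_iff _).mpr hqm) ?_ _ ?_
  · intro k
    rw [Polynomial.coeff_scaleRoots]
    generalize hd' : (χ.map (Polynomial.aeval (jt ℂ N)).toRingHom).natDegree = D
    rcases lt_trichotomy k D with hlt | heq | hgt
    · have h1 : (χ.map (Polynomial.aeval (jt ℂ N)).toRingHom).coeff k *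
          (algebraMap ℂ (LaurentSeries ℂ) ((N : ℂ) ^ e)) ^ (D - k) =
          Polynomial.aeval (jt ℂ N)
            (Polynomial.C (((N : ℂ) ^ e) ^ (D - k)) * χ.coeff k) := by
        rw [Polynomial.coeff_map, map_mul, Polynomial.aeval_C, mul_comm]
        simp only [map_pow]
        rfl
      rw [h1]
      apply isIntegralElem_aeval_jt
      intro m
      rw [Polynomial.coeff_C_mul]
      obtain ⟨d, hd⟩ : ∃ d, D - k = d + 1 := ⟨D - k - 1, by omega⟩
      rw [hd, pow_succ, mul_assoc]
      exact ((isIntegral_natCast_pow_complex N e).pow d).mul (he k m)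
    · rw [heq, Nat.sub_self, pow_zero, mul_one, ← hd', Polynomial.coeff_natDegree,
        hqm.leadingCoeff]
      exact RingHom.isIntegralElem_one _
    · rw [Polynomial.coeff_eq_zero_of_natDegree_lt (by rw [hd']; exact hgt), zero_mul]
      exact RingHom.isIntegralElem_zero _
  · have := Polynomial.scaleRoots_eval₂_eq_zero (RingHom.id (LaurentSeries ℂ))
      (p := χ.map (Polynomial.aeval (jt ℂ N)).toRingHom) (r := x)
      (s := algebraMap ℂ (LaurentSeries ℂ) ((N : ℂ) ^ e)) (by rwa [Polynomial.eval₂_id])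
    simpa [Polynomial.eval₂_id] using this

/-- **Integrality** (after rescaling): if `χ(j(t^N), X) = ∏ (X - U i)` with `χ` monic, all `U i`
with coefficients in a subring `O ⊆ Zbar[1/N]`, and `U i0 = W(t^N)` for `W ∈ ℤ((q))`, then for a
suitable `e` the series `N^e W` is integral over `ℤ[j]` inside `ℤ((q))`. -/
theorem isIntegralElem_of_factorization (N : ℕ) [NeZero N] (O : Subring ℂ)
    (hO : ∀ x ∈ O, ∃ a : ℕ, IsIntegral ℤ ((N : ℂ) ^ a * x))
    (W : LaurentSeries ℤ) (n : ℕ) (χ : Polynomial (Polynomial ℂ)) (hχ : χ.Monic)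
    (U : Fin n → LaurentSeries ℂ) (i0 : Fin n)
    (hfac : χ.map (Polynomial.aeval (jt ℂ N)).toRingHom = ∏ i, (X - C (U i)))
    (hU0 : U i0 = qExpand ℂ N (coeffMap (Int.castRingHom ℂ) W))
    (hUO : ∀ i k, (U i).coeff k ∈ O) :
    ∃ e : ℕ, ∃ P : Polynomial (Polynomial ℤ), P.Monic ∧
      P.eval₂ (Polynomial.aeval (jqModC ℤ)).toRingHom ((N : LaurentSeries ℤ) ^ e * W) = 0 := by
  obtain ⟨e, he⟩ := exists_uniform_exponent N O hO χ
    (coeff_coeff_mem_of_factorization O N n χ U hfac hUO)
  refine ⟨e, ?_⟩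
  have hroot : (χ.map (Polynomial.aeval (jt ℂ N)).toRingHom).eval (U i0) = 0 := by
    rw [hfac, Polynomial.eval_prod]
    exact Finset.prod_eq_zero (Finset.mem_univ i0) (by simp)
  have h1 := isIntegralElem_scaled_root N χ hχ e he (U i0) hroot
  have h2 : algebraMap ℂ (LaurentSeries ℂ) ((N : ℂ) ^ e) * U i0 =
      thetaC N ((N : LaurentSeries ℤ) ^ e * W) := by
    rw [map_mul, map_pow, map_natCast, hU0, map_pow, map_natCast]
    rfl
  rw [h2] at h1
  exact RingHom.IsIntegralElem.of_map (thetaC_injective N) h1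

end Integrality

/-! ## Part 7: the packaged output (INT) + (LI) for `b i = (N^e W)^i` -/

section Package

open ModularCurve

/-- The coefficient of `single m 1 * ofPowerSeries H` at `m` is the constant coefficient of `H`. -/
theorem coeff_single_mul_ofPowerSeries {R : Type*} [CommRing R] (m : ℤ) (H : PowerSeries R) :
    (HahnSeries.single m (1 : R) * HahnSeries.ofPowerSeries ℤ R H).coeff m =
      PowerSeries.constantCoeff H := by
  have h := HahnSeries.coeff_single_mul_add (r := (1 : R))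
    (x := HahnSeries.ofPowerSeries ℤ R H) (a := 0) (b := m)
  rw [zero_add, one_mul] at h
  rw [h]
  have h2 := HahnSeries.ofPowerSeries_apply_coeff (Γ := ℤ) H 0
  simpa using h2

/-- **Formal half of the modular input** (general subring form).
From the factorization `χ(j(t^N), X) = ∏ (X - U i)` over `ℂ((t))` with the `U i` having
coefficients in a subring `O ⊆ Zbar[1/N]`, `U i0 = W(t^N)`, all other `U i` of positive order
with unit leading coefficient, we get `e` such that `b i = (N^e W)^i`, `i < n`, are integral over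
`ℤ[j]` and linearly independent mod `ℓ` over `𝔽_ℓ[j̄]`, for every prime `ℓ ∤ N`. -/
theorem coreInput_pieces (N : ℕ) [NeZero N] (ℓ : ℕ) [Fact ℓ.Prime] (hℓN : ¬ ℓ ∣ N)
    (W : LaurentSeries ℤ) (hW : ∃ k : ℤ, k ≤ 0 ∧ ¬ (ℓ : ℤ) ∣ W.coeff k)
    (n : ℕ) (χ : Polynomial (Polynomial ℂ)) (hχ : χ.Monic) (U : Fin n → LaurentSeries ℂ)
    (i0 : Fin n)
    (hfac : χ.map (Polynomial.aeval (jqNModC ℂ N)).toRingHom = ∏ i, (X - C (U i)))
    (hU0 : U i0 = qExpand ℂ N (coeffMap (Int.castRingHom ℂ) W))
    (O : Subring ℂ) (hO : ∀ x ∈ O, ∃ a : ℕ, IsIntegral ℤ ((N : ℂ) ^ a * x))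
    (hUO : ∀ i k, (U i).coeff k ∈ O)
    (hUpos : ∀ i, i ≠ i0 → ∃ k : ℤ, 0 < k ∧ (∀ k' < k, (U i).coeff k' = 0) ∧
      ∃ v ∈ O, (U i).coeff k * v = 1) :
    ∃ e : ℕ,
      (∀ i : Fin n, ∃ P : Polynomial (Polynomial ℤ), P.Monic ∧
        P.eval₂ (Polynomial.aeval (jqModC ℤ)).toRingHom
          (((N : LaurentSeries ℤ) ^ e * W) ^ (i : ℕ)) = 0) ∧
      (∀ c : Fin n → Polynomial (ZMod ℓ),
        ∑ i, Polynomial.aeval (jqModC (ZMod ℓ)) (c i) *
          coeffMap (Int.castRingHom (ZMod ℓ)) (((N : LaurentSeries ℤ) ^ e * W) ^ (i : ℕ)) = 0 →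
        c = 0) := by
  have hfac' : χ.map (Polynomial.aeval (jt ℂ N)).toRingHom = ∏ i, (X - C (U i)) := hfac
  obtain ⟨e, he⟩ := isIntegralElem_of_factorization N O hO W n χ hχ U i0 hfac' hU0 hUO
  refine ⟨e, ?_, ?_⟩
  · intro i
    have he' : (Polynomial.aeval (R := ℤ) (jqModC ℤ)).toRingHom.IsIntegralElem
        ((N : LaurentSeries ℤ) ^ e * W) := he
    have hpow : ∀ m : ℕ, (Polynomial.aeval (R := ℤ) (jqModC ℤ)).toRingHom.IsIntegralElem
        (((N : LaurentSeries ℤ) ^ e * W) ^ m) := by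
      intro m
      induction m with
      | zero => rw [pow_zero]; exact RingHom.isIntegralElem_one _
      | succ m ih => rw [pow_succ]; exact RingHom.IsIntegralElem.mul _ ih he'
    exact hpow i
  · intro c hc
    obtain ⟨κ, _, _, ρ, -⟩ := exists_residue_field_of_integral N ℓ Fact.out hℓN O hO
    have hN0 : ((N : ℕ) : ZMod ℓ) ≠ 0 := by
      rw [Ne, CharP.cast_eq_zero_iff (ZMod ℓ) ℓ N]
      exact hℓN
    have key := linIndep_of_factorization O N ℓ ρ W hW n χ hχ U i0 hfac' hU0 hUO hUpos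
      (fun i => Polynomial.C (((N : ℕ) : ZMod ℓ) ^ (e * (i : ℕ))) * c i) (by
        rw [← hc]
        refine Finset.sum_congr rfl fun i _ => ?_
        simp only [map_mul, map_pow, map_natCast]
        ring)
    funext i
    have hi := congrFun key i
    rcases mul_eq_zero.mp hi with h | h
    · exact absurd (Polynomial.C_eq_zero.mp h) (pow_ne_zero _ hN0)
    · exact h

/-- **Formal half of the modular input**, consuming exactly the shape of the analytic
factorization theorem: the hypothesis on the coefficients of the `U i` is required for every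
subring of `ℂ` containing `1/N` and the `N`-th roots of unity. -/
theorem coreInput_pieces_of_eta_factorisation (N : ℕ) [NeZero N] (ℓ : ℕ) [Fact ℓ.Prime]
    (hℓN : ¬ ℓ ∣ N) (n : ℕ) (W : LaurentSeries ℤ) (χ : Polynomial (Polynomial ℂ))
    (U : Fin (n + 1) → LaurentSeries ℂ)
    (hW : ∃ (m : ℤ) (H : PowerSeries ℤ), m ≤ 0 ∧ PowerSeries.constantCoeff H = 1 ∧
      W = HahnSeries.single m 1 * HahnSeries.ofPowerSeries ℤ ℤ H)
    (hχ : χ.Monic)
    (hfac : χ.map (Polynomial.aeval (jqNModC ℂ N)).toRingHom = ∏ i, (X - C (U i)))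
    (hU0 : U 0 = qExpand ℂ N (coeffMap (Int.castRingHom ℂ) W))
    (hO : ∀ O : Subring ℂ, (N : ℂ)⁻¹ ∈ O → (∀ z : ℂ, z ^ N = 1 → z ∈ O) →
      (∀ i k, (U i).coeff k ∈ O) ∧ ∀ i, i ≠ 0 → ∃ k : ℤ, 0 < k ∧
        (∀ k' < k, (U i).coeff k' = 0) ∧ ∃ v ∈ O, (U i).coeff k * v = 1) :
    ∃ e : ℕ,
      (∀ i : Fin (n + 1), ∃ P : Polynomial (Polynomial ℤ), P.Monic ∧
        P.eval₂ (Polynomial.aeval (jqModC ℤ)).toRingHom
          (((N : LaurentSeries ℤ) ^ e * W) ^ (i : ℕ)) = 0) ∧
      (∀ c : Fin (n + 1) → Polynomial (ZMod ℓ),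
        ∑ i, Polynomial.aeval (jqModC (ZMod ℓ)) (c i) *
          coeffMap (Int.castRingHom (ZMod ℓ)) (((N : LaurentSeries ℤ) ^ e * W) ^ (i : ℕ)) = 0 →
        c = 0) := by
  obtain ⟨m, H, hm, hH, rfl⟩ := hW
  obtain ⟨hUO, hUpos⟩ := hO (OBar N) (inv_natCast_mem_OBar N) (rootOfUnity_mem_OBar N)
  refine coreInput_pieces N ℓ hℓN _ ⟨m, hm, ?_⟩ (n + 1) χ hχ U 0 hfac hU0 (OBar N)
    (fun x hx => hx) hUO hUpos
  rw [coeff_single_mul_ofPowerSeries, hH]
  intro h
  have h1 : (ℓ : ℤ) = 1 ∨ (ℓ : ℤ) = -1 := Int.isUnit_iff.mp (isUnit_of_dvd_one h)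
  have h2 : (2 : ℤ) ≤ ℓ := by exact_mod_cast (Fact.out : ℓ.Prime).two_le
  omega

end Package

end Fermat.Agent.S28.helper1526
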