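import Fermat.Agent.S28.helper2608_Spec
import Fermat.Agent.S28.helper1526_FormalInput

/-!
# S28, route E: from the analytic factorization to `Spec.Stmt_CoreInput`

Thin wrappers restating `helper1526_FormalInput` in the vocabulary of `helper2608_Spec`, and the
final packager: the analytic factorization data + a char-0 degree bound `Spec.DegLE L n` for any
field `L ⊇ modularFunctionFieldFull N` containing `W` give `Spec.Stmt_CoreInput N ℓ` (`ℓ ∤ N`).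
-/

set_option autoImplicit false

noncomputable section

namespace Fermat.Agent.S28.helper1526

open ModularCurve Polynomial

/-- The family `b i = (N^e W)^i`, `i < n`. -/
def bFam (N e : ℕ) (W : LaurentSeries ℤ) (n : ℕ) : Fin n → LaurentSeries ℤ :=
  fun i => ((N : LaurentSeries ℤ) ^ e * W) ^ (i : ℕ)

/-- (INT) + (LI) of `Spec.Stmt_CoreInput` for `b = bFam N e W n`, general subring form. -/
theorem spec_pieces (N : ℕ) [NeZero N] (ℓ : ℕ) [Fact ℓ.Prime] (hℓN : ¬ ℓ ∣ N)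
    (W : LaurentSeries ℤ) (hW : ∃ k : ℤ, k ≤ 0 ∧ ¬ (ℓ : ℤ) ∣ W.coeff k)
    (n : ℕ) (χ : Polynomial (Polynomial ℂ)) (hχ : χ.Monic) (U : Fin n → LaurentSeries ℂ)
    (i0 : Fin n)
    (hfac : χ.map (Polynomial.aeval (jqNModC ℂ N)).toRingHom = ∏ i, (X - C (U i)))
    (hU0 : U i0 = qExpand ℂ N (coeffMap (Int.castRingHom ℂ) W))
    (O : Subring ℂ) (hO : ∀ x ∈ O, ∃ a : ℕ, IsIntegral ℤ ((N : ℂ) ^ a * x))
    (hUO : ∀ i k, (U i).coeff k ∈ O)
    (hUpos : ∀ i, i ≠ i0 → ∃ k : ℤ, 0 < k ∧ (∀ k' < k, (U i).coeff k' = 0) ∧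
      ∃ v ∈ O, (U i).coeff k * v = 1) :
    ∃ e : ℕ, (∀ i, Spec.IsIntegralOverZj (bFam N e W n i)) ∧
      Spec.LinIndepModL ℓ (bFam N e W n) :=
  coreInput_pieces N ℓ hℓN W hW n χ hχ U i0 hfac hU0 O hO hUO hUpos

/-- **Packager** (general subring form): analytic factorization + char-0 degree bound give the
modular input `Spec.Stmt_CoreInput N ℓ`. -/
theorem stmt_coreInput (N : ℕ) [NeZero N] (ℓ : ℕ) [Fact ℓ.Prime] (hℓN : ¬ ℓ ∣ N)
    (W : LaurentSeries ℤ) (hW : ∃ k : ℤ, k ≤ 0 ∧ ¬ (ℓ : ℤ) ∣ W.coeff k)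
    (n : ℕ) (χ : Polynomial (Polynomial ℂ)) (hχ : χ.Monic) (U : Fin n → LaurentSeries ℂ)
    (i0 : Fin n)
    (hfac : χ.map (Polynomial.aeval (jqNModC ℂ N)).toRingHom = ∏ i, (X - C (U i)))
    (hU0 : U i0 = qExpand ℂ N (coeffMap (Int.castRingHom ℂ) W))
    (O : Subring ℂ) (hO : ∀ x ∈ O, ∃ a : ℕ, IsIntegral ℤ ((N : ℂ) ^ a * x))
    (hUO : ∀ i k, (U i).coeff k ∈ O)
    (hUpos : ∀ i, i ≠ i0 → ∃ k : ℤ, 0 < k ∧ (∀ k' < k, (U i).coeff k' = 0) ∧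
      ∃ v ∈ O, (U i).coeff k * v = 1)
    (L : IntermediateField ℚ (LaurentSeries ℚ)) (hL : modularFunctionFieldFull N ≤ L)
    (hWL : Spec.toQ W ∈ L) (hdeg : Spec.DegLE L n) : Spec.Stmt_CoreInput N ℓ := by
  obtain ⟨e, hint, hli⟩ := spec_pieces N ℓ hℓN W hW n χ hχ U i0 hfac hU0 O hO hUO hUpos
  refine ⟨n, L, bFam N e W n, hL, ?_, hint, hdeg, hli⟩
  intro i
  show Spec.toQ (((N : LaurentSeries ℤ) ^ e * W) ^ (i : ℕ)) ∈ L
  rw [map_pow, map_mul, map_pow, map_natCast]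
  exact pow_mem (mul_mem (pow_mem (natCast_mem L N) e) hWL) _

/-- **Packager**, consuming exactly the shape of the analytic factorization theorem
(`n + 1` conjugates indexed by `Fin (n + 1)`, the identity coset at index `0`, coefficient
hypotheses for every subring of `ℂ` containing `1/N` and the `N`-th roots of unity). -/
theorem stmt_coreInput_of_eta_factorisation (N : ℕ) [NeZero N] (ℓ : ℕ) [Fact ℓ.Prime]
    (hℓN : ¬ ℓ ∣ N) (n : ℕ) (W : LaurentSeries ℤ) (χ : Polynomial (Polynomial ℂ))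
    (U : Fin (n + 1) → LaurentSeries ℂ)
    (hW : ∃ (m : ℤ) (H : PowerSeries ℤ), m ≤ 0 ∧ PowerSeries.constantCoeff H = 1 ∧
      W = HahnSeries.single m 1 * HahnSeries.ofPowerSeries ℤ ℤ H)
    (hχ : χ.Monic)
    (hfac : χ.map (Polynomial.aeval (jqNModC ℂ N)).toRingHom = ∏ i, (X - C (U i)))
    (hU0 : U 0 = qExpand ℂ N (coeffMap (Int.castRingHom ℂ) W))
    (hO : ∀ O : Subring ℂ, (N : ℂ)⁻¹ ∈ O → (∀ z : ℂ, z ^ N = 1 → z ∈ O) →
      (∀ i k, (U i).coeff k ∈ O) ∧ ∀ i, i ≠ 0 → ∃ k : ℤ, 0 < k ∧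
        (∀ k' < k, (U i).coeff k' = 0) ∧ ∃ v ∈ O, (U i).coeff k * v = 1)
    (L : IntermediateField ℚ (LaurentSeries ℚ)) (hL : modularFunctionFieldFull N ≤ L)
    (hWL : Spec.toQ W ∈ L) (hdeg : Spec.DegLE L (n + 1)) : Spec.Stmt_CoreInput N ℓ := by
  obtain ⟨m, H, hm, hH, rfl⟩ := hW
  obtain ⟨hUO, hUpos⟩ := hO (OBar N) (inv_natCast_mem_OBar N) (rootOfUnity_mem_OBar N)
  refine stmt_coreInput N ℓ hℓN _ ⟨m, hm, ?_⟩ (n + 1) χ hχ U 0 hfac hU0 (OBar N)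
    (fun x hx => hx) hUO hUpos L hL hWL hdeg
  rw [coeff_single_mul_ofPowerSeries, hH]
  intro h
  have h1 : (ℓ : ℤ) = 1 ∨ (ℓ : ℤ) = -1 := Int.isUnit_iff.mp (isUnit_of_dvd_one h)
  have h2 : (2 : ℤ) ≤ ℓ := by exact_mod_cast (Fact.out : ℓ.Prime).two_le
  omega

end Fermat.Agent.S28.helper1526

end
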