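import Fermat.Agent.S28.helper1526_CoreInput
import Fermat.Agent.S28.helper1594_EtaCusp
import Fermat.Agent.S28.helper1267_FormalTransfer
import Fermat.Agent.S28.helper388_EtaExp
import Fermat.Agent.S28.helper4768_DegSpec

/-!
# S28, route E (expansions at all cusps): final assembly of `Spec.Stmt_CoreInput`

Pure assembly of landed modules:

* `helper1594_EtaCusp`: expansion of the eta quotient `u = ∏ Δ(δτ)^(r δ)` at every cusp,
  `u(gτ) = C t^K G(t)`, with `C`, `C⁻¹` and the Taylor coefficients of `G` in every subring of `ℂ`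
  containing `1/N` and the `N`-th roots of unity; expansion at `i∞` with integer coefficients;
* `helper1267_FormalTransfer`: the factorization `χ(j(t^N), X) = ∏_x (X - E_x)` over the cosets;
* `helper388_EtaExp`: the exponents `r = etaExp N`, with `K > 0` away from `Γ₀(N)`;
* `helper4768_DegSpec`: the degree bound for the field of ratios (Sturm counting);
* `helper1526_CoreInput`: integrality and independence mod `ℓ` from the factorization.
-/

set_option autoImplicit false

noncomputable section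

namespace Fermat.Agent.S28.helper1526

open ModularCurve Polynomial MatrixGroups CongruenceSubgroup UpperHalfPlane

/-! ## The formal eta quotient lies in the field of ratios -/

/-- The integral Laurent series `q^m · W`. -/
def laurentZ (m : ℤ) (W : PowerSeries ℤ) : LaurentSeries ℤ :=
  HahnSeries.single m (1 : ℤ) * HahnSeries.ofPowerSeries ℤ ℤ W

theorem coeffMap_laurentZ {R : Type*} [CommRing R] (m : ℤ) (W : PowerSeries ℤ) :
    coeffMap (Int.castRingHom R) (laurentZ m W) =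
      HahnSeries.single m (1 : R) *
        HahnSeries.ofPowerSeries ℤ R (W.map (Int.castRingHom R)) := by
  rw [laurentZ, map_mul, coeffMap_single, coeffMap_ofPowerSeries, map_one]

theorem coeffMap_DeltaL :
    coeffMap (algebraMap ℚ ℂ) helper4768.DeltaL = helper1594.deltaLS := by
  have h1 : (helper4768.DeltaQ).map (algebraMap ℚ ℂ) =
      PowerSeries.X * helper1594.eulerPS ^ 24 := by
    rw [helper4768.DeltaQ, map_mul, PowerSeries.map_X, helper1594.eulerPS, ← map_pow]
    have h2 : ∀ P : PowerSeries ℤ, PowerSeries.map (algebraMap ℚ ℂ)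
        (PowerSeries.map (Int.castRingHom ℚ) P) = PowerSeries.map (Int.castRingHom ℂ) P := by
      intro P
      ext n
      rw [PowerSeries.coeff_map, PowerSeries.coeff_map, PowerSeries.coeff_map]
      simp
    rw [h2]
  rw [helper4768.DeltaL, coeffMap_ofPowerSeries, h1, helper1594.deltaLS, map_mul,
    HahnSeries.ofPowerSeries_X]

/-- `Δ(q^δ)` as a rational Laurent series (junk value `1` for `δ = 0`). -/
def deltaQ (δ : ℕ) : LaurentSeries ℚ :=
  if h : δ = 0 then 1 else
    haveI : NeZero δ := ⟨h⟩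
    qExpand ℚ δ helper4768.DeltaL

theorem coeffMap_deltaQ {δ : ℕ} (hδ : δ ≠ 0) :
    coeffMap (algebraMap ℚ ℂ) (deltaQ δ) =
      HahnSeries.single (δ : ℤ) (1 : ℂ) *
        HahnSeries.ofPowerSeries ℤ ℂ (helper1594.eulerExp δ ^ 24) := by
  have : NeZero δ := ⟨hδ⟩
  rw [deltaQ, dif_neg hδ, coeffMap_qExpand, coeffMap_DeltaL, helper1594.qExpand_deltaLS]

theorem deltaQ_div_mem_ratioField {N δ : ℕ} (hδ : δ ∈ N.divisors) :
    deltaQ δ / helper4768.DeltaL ∈ helper4768.ratioField N := by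
  have hδ0 : δ ≠ 0 := (Nat.pos_of_mem_divisors hδ).ne'
  have : NeZero δ := ⟨hδ0⟩
  rw [deltaQ, dif_neg hδ0]
  exact helper4768.qExpand_DeltaL_div_DeltaL_mem_ratioField (Nat.dvd_of_mem_divisors hδ)

/-- The formal eta quotient with exponents of sum `0` lies in the field of ratios. -/
theorem toQ_laurentZ_mem_ratioField (N : ℕ) (r : ℕ → ℤ) (hr : ∑ δ ∈ N.divisors, r δ = 0)
    (W : PowerSeries ℤ) (hW : W.map (Int.castRingHom ℂ) = helper1594.etaQuotPS N r) :
    Spec.toQ (laurentZ (∑ δ ∈ N.divisors, r δ * (δ : ℤ)) W) ∈ helper4768.ratioField N := by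
  have hinj : Function.Injective (coeffMap (algebraMap ℚ ℂ)) :=
    coeffMap_injective (algebraMap ℚ ℂ).injective
  have key : Spec.toQ (laurentZ (∑ δ ∈ N.divisors, r δ * (δ : ℤ)) W) =
      ∏ δ ∈ N.divisors, (deltaQ δ / helper4768.DeltaL) ^ r δ := by
    apply hinj
    have h1 : coeffMap (algebraMap ℚ ℂ)
        (Spec.toQ (laurentZ (∑ δ ∈ N.divisors, r δ * (δ : ℤ)) W)) =
        coeffMap (Int.castRingHom ℂ) (laurentZ (∑ δ ∈ N.divisors, r δ * (δ : ℤ)) W) := by
      show coeffMap (algebraMap ℚ ℂ) (coeffMap (Int.castRingHom ℚ) _) = _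
      rw [coeffMap_coeffMap,
        RingHom.ext_int ((algebraMap ℚ ℂ).comp (Int.castRingHom ℚ)) (Int.castRingHom ℂ)]
    have h2 : ∏ δ ∈ N.divisors, (deltaQ δ / helper4768.DeltaL) ^ r δ =
        ∏ δ ∈ N.divisors, (deltaQ δ) ^ r δ := by
      have h3 : ∀ δ ∈ N.divisors, (deltaQ δ / helper4768.DeltaL) ^ r δ =
          (deltaQ δ) ^ r δ * (helper4768.DeltaL⁻¹) ^ r δ := by
        intro δ _
        rw [div_eq_mul_inv, mul_zpow]
      rw [Finset.prod_congr rfl h3, Finset.prod_mul_distrib,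
        helper1594.prod_zpow_eq_zpow_sum' _ _ (inv_ne_zero helper4768.DeltaL_ne_zero), hr,
        zpow_zero, mul_one]
    rw [h2, h1, coeffMap_laurentZ, hW, helper1594.etaQuot_laurent, map_prod]
    refine Finset.prod_congr rfl fun δ hδ => ?_
    rw [map_zpow₀, coeffMap_deltaQ (Nat.pos_of_mem_divisors hδ).ne']
  rw [key]
  exact prod_mem fun δ hδ => zpow_mem (deltaQ_div_mem_ratioField hδ) _

/-! ## The final assembly -/

section Final

variable (N : ℕ) [NeZero N]

/-- The eta quotient `u_N = ∏_{δ ∣ N} Δ(δτ)^(etaExp N δ)`. -/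
abbrev etaU : ℍ → ℂ := helper407.etaQuot N (helper388.etaExp N)

theorem etaU_invariant {g : SL(2, ℤ)} (hg : g ∈ Gamma0 N) (τ : ℍ) :
    etaU N (g • τ) = etaU N τ :=
  helper407.etaQuot_smul_of_mem_Gamma0 N _ (helper388.sum_etaExp (NeZero.ne N)) hg τ

/-- The order of `u_N ∘ g` at `i∞` in the parameter `t = exp(2πiτ/N)`. -/
def cuspOrd (g : SL(2, ℤ)) : ℤ :=
  ∑ δ ∈ N.divisors, helper388.etaExp N δ *
    (((Nat.gcd δ (g 1 0).natAbs : ℕ) : ℤ) ^ 2 * ((N / δ : ℕ) : ℤ))

theorem cuspOrd_pos {g : SL(2, ℤ)} (hg : g ∉ Gamma0 N) : 0 < cuspOrd N g := by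
  refine helper388.sum_etaExp_gcd_pos (NeZero.ne N) ?_
  intro hdvd
  apply hg
  rw [Gamma0_mem]
  have h : (N : ℤ) ∣ g 1 0 := Int.natCast_dvd.mpr hdvd
  exact (ZMod.intCast_zmod_eq_zero_iff_dvd _ _).mpr h

/-- The `t`-expansion of `u_N ∘ g` for every `g ∈ SL(2,ℤ)`. -/
theorem exists_cusp_texp (g : SL(2, ℤ)) :
    ∃ (C : ℂ) (H : PowerSeries ℂ), C ≠ 0 ∧ PowerSeries.constantCoeff H = 1 ∧
      (∀ O : Subring ℂ, (N : ℂ)⁻¹ ∈ O → (∀ z : ℂ, z ^ N = 1 → z ∈ O) →
        C ∈ O ∧ C⁻¹ ∈ O ∧ ∀ n, PowerSeries.coeff n H ∈ O) ∧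
      helper1267.HasTExp N (fun τ => etaU N (g • τ))
        (HahnSeries.single (cuspOrd N g) C * HahnSeries.ofPowerSeries ℤ ℂ H) := by
  obtain ⟨C, G, H, hC, hG, hH, hO, hτ⟩ := helper1594.etaQuot_cusp_expansion N
    (Nat.pos_of_ne_zero (NeZero.ne N)) (helper388.etaExp N)
    (helper388.sum_etaExp (NeZero.ne N)) g
  refine ⟨C, H, hC, hH, hO, ?_⟩
  have h := helper1267.hasTExp_of_hasSum_zpow (N := N) (g := fun τ => G (helper1267.tP N τ))
    (H := H) C (cuspOrd N g) (fun τ => hG.hasSum (helper1267.norm_tP_lt_one N τ))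
  have hfun : (fun τ => etaU N (g • τ)) =
      fun τ => C * helper1267.tP N τ ^ cuspOrd N g * G (helper1267.tP N τ) :=
    funext fun τ => hτ τ
  rw [hfun]
  exact h

/-- The `t`-expansion of `u_N` itself: `W(t^N)` for an integral `W`. -/
theorem exists_infty_texp :
    ∃ W : PowerSeries ℤ, PowerSeries.constantCoeff W = 1 ∧
      W.map (Int.castRingHom ℂ) = helper1594.etaQuotPS N (helper388.etaExp N) ∧
      helper1267.HasTExp N (etaU N)
        (qExpand ℂ N (coeffMap (Int.castRingHom ℂ)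
          (laurentZ (∑ δ ∈ N.divisors, helper388.etaExp N δ * (δ : ℤ)) W))) := by
  obtain ⟨G, hG, hτ⟩ := helper1594.etaQuot_infty_expansion N (helper388.etaExp N)
  obtain ⟨W, hW1, hWmap⟩ := helper1594.exists_int_etaQuotPS N (helper388.etaExp N)
  refine ⟨W, hW1, hWmap, ?_⟩
  have h1 : helper1267.HasTExp 1 (etaU N)
      (HahnSeries.single (∑ δ ∈ N.divisors, helper388.etaExp N δ * (δ : ℤ)) (1 : ℂ) *
        HahnSeries.ofPowerSeries ℤ ℂ (helper1594.etaQuotPS N (helper388.etaExp N))) := by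
    have h := helper1267.hasTExp_of_hasSum_zpow (N := 1)
      (g := fun τ => G (helper1267.tP 1 τ))
      (H := helper1594.etaQuotPS N (helper388.etaExp N)) 1
      (∑ δ ∈ N.divisors, helper388.etaExp N δ * (δ : ℤ))
      (fun τ => hG.hasSum (helper1267.norm_tP_lt_one 1 τ))
    have hfun : etaU N = fun τ => 1 * helper1267.tP 1 τ ^
        (∑ δ ∈ N.divisors, helper388.etaExp N δ * (δ : ℤ)) * G (helper1267.tP 1 τ) := by
      funext τ
      rw [one_mul]
      have := hτ τ
      simpa [helper1267.tP] using this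
    rw [hfun]
    exact h
  have h2 := h1.qExpand N
  rw [mul_one] at h2
  rw [coeffMap_laurentZ, hWmap]
  exact h2

/-- **The modular input of S28** (route E with expansions at all cusps): for every prime
`ℓ ∤ N`, `Spec.Stmt_CoreInput N ℓ` holds. -/
theorem stmt_CoreInput_heavy (ℓ : ℕ) [Fact ℓ.Prime] (hℓN : ¬ ℓ ∣ N) :
    Spec.Stmt_CoreInput N ℓ := by
  classical
  let _ : Fintype (SL(2, ℤ) ⧸ Gamma0 N) := Subgroup.fintypeQuotientOfFiniteIndex
  have hr : ∑ δ ∈ N.divisors, helper388.etaExp N δ = 0 := helper388.sum_etaExp (NeZero.ne N)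
  -- expansions at all cosets
  choose Cc H hC hH hO hE using fun x : SL(2, ℤ) ⧸ Gamma0 N =>
    exists_cusp_texp N ((Quotient.out x)⁻¹)
  obtain ⟨W, hW1, hWmap, hinf⟩ := exists_infty_texp N
  set m : ℤ := ∑ δ ∈ N.divisors, helper388.etaExp N δ * (δ : ℤ) with hm
  let E : SL(2, ℤ) ⧸ Gamma0 N → LaurentSeries ℂ := fun x =>
    HahnSeries.single (cuspOrd N (Quotient.out x)⁻¹) (Cc x) * HahnSeries.ofPowerSeries ℤ ℂ (H x)
  obtain ⟨χ, hχ, -, hfac⟩ := helper1267.exists_monic_factorisation_of_invariant N (Gamma0 N)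
    (etaU N) (fun g hg τ => etaU_invariant N hg τ) E hE
  -- the identity coset
  let x0 : SL(2, ℤ) ⧸ Gamma0 N := QuotientGroup.mk 1
  have hx0 : E x0 = qExpand ℂ N (coeffMap (Int.castRingHom ℂ) (laurentZ m W)) := by
    refine (hE x0).unique ?_
    have hmem : (Quotient.out x0)⁻¹ ∈ Gamma0 N := by
      obtain ⟨h', hh⟩ := QuotientGroup.mk_out_eq_mul (Gamma0 N) (1 : SL(2, ℤ))
      have : (Quotient.out x0 : SL(2, ℤ)) ∈ Gamma0 N := by
        rw [hh, one_mul]
        exact h'.2
      exact inv_mem this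
    have hfun : (fun τ => etaU N ((Quotient.out x0)⁻¹ • τ)) = etaU N :=
      funext fun τ => etaU_invariant N hmem τ
    rw [hfun]
    exact hinf
  -- coefficients
  have hcoeff : ∀ x k, (E x).coeff k = Cc x *
      (HahnSeries.ofPowerSeries ℤ ℂ (H x)).coeff (k - cuspOrd N (Quotient.out x)⁻¹) :=
    fun x k => HahnSeries.coeff_single_mul
  have hUO : ∀ x k, (E x).coeff k ∈ OBar N := by
    intro x k
    obtain ⟨hC1, -, hH'⟩ := hO x (OBar N) (inv_natCast_mem_OBar N) (rootOfUnity_mem_OBar N)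
    rw [hcoeff]
    refine (OBar N).mul_mem hC1 ?_
    rcases lt_or_ge (k - cuspOrd N (Quotient.out x)⁻¹) 0 with hneg | hnn
    · rw [ModularCurve.ofPowerSeries_coeff_of_neg _ hneg]
      exact (OBar N).zero_mem
    · obtain ⟨j, hj⟩ := Int.eq_ofNat_of_zero_le hnn
      rw [hj, HahnSeries.ofPowerSeries_apply_coeff]
      exact hH' j
  have hUpos : ∀ x, x ≠ x0 → ∃ k : ℤ, 0 < k ∧ (∀ k' < k, (E x).coeff k' = 0) ∧
      ∃ v ∈ OBar N, (E x).coeff k * v = 1 := by
    intro x hx
    obtain ⟨-, hC2, -⟩ := hO x (OBar N) (inv_natCast_mem_OBar N) (rootOfUnity_mem_OBar N)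
    have hnot : (Quotient.out x)⁻¹ ∉ Gamma0 N := by
      intro hmem
      apply hx
      rw [← QuotientGroup.out_eq' x]
      exact QuotientGroup.eq.mpr (by simpa using hmem)
    refine ⟨cuspOrd N (Quotient.out x)⁻¹, cuspOrd_pos N hnot, fun k' hk' => ?_, (Cc x)⁻¹, hC2, ?_⟩
    · rw [hcoeff, ModularCurve.ofPowerSeries_coeff_of_neg _ (by omega), mul_zero]
    · rw [hcoeff, sub_self]
      have h1 : (HahnSeries.ofPowerSeries ℤ ℂ (H x)).coeff 0 = 1 := by
        have := HahnSeries.ofPowerSeries_apply_coeff (Γ := ℤ) (H x) 0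
        simpa [hH x] using this
      rw [h1, mul_one, mul_inv_cancel₀ (hC x)]
  -- the order of `W` at infinity is `≤ 0`
  have hm0 : m ≤ 0 := by
    rcases Nat.lt_or_ge 1 N with h1 | h1
    · exact (helper388.sum_etaExp_mul_self_neg h1).le
    · have hN1 : N = 1 := le_antisymm h1 (Nat.one_le_iff_ne_zero.mpr (NeZero.ne N))
      have : m = ∑ δ ∈ N.divisors, helper388.etaExp N δ := by
        rw [hm]
        refine Finset.sum_congr rfl fun δ hδ => ?_
        have hδ1 : δ = 1 := by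
          have := Nat.dvd_of_mem_divisors hδ
          rw [hN1] at this
          exact Nat.dvd_one.mp this
        rw [hδ1]
        simp
      rw [this, hr]
  have hcard : Fintype.card (SL(2, ℤ) ⧸ Gamma0 N) = (Gamma0 N).index := by
    rw [Subgroup.index_eq_card, Nat.card_eq_fintype_card]
  -- reindex by `Fin n`
  let e := Fintype.equivFin (SL(2, ℤ) ⧸ Gamma0 N)
  refine stmt_coreInput N ℓ hℓN (laurentZ m W) ⟨m, hm0, ?_⟩ (Fintype.card _) χ hχ
    (fun i => E (e.symm i)) (e x0) ?_ ?_ (OBar N) (fun x hx => hx) (fun i k => hUO _ k) ?_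
    (helper4768.ratioField N) (helper4768.full_le_ratioField N) ?_ ?_
  · rw [laurentZ, coeff_single_mul_ofPowerSeries, hW1]
    intro h
    have h1 : (ℓ : ℤ) = 1 ∨ (ℓ : ℤ) = -1 := Int.isUnit_iff.mp (isUnit_of_dvd_one h)
    have h2 : (2 : ℤ) ≤ ℓ := by exact_mod_cast (Fact.out : ℓ.Prime).two_le
    omega
  · rw [hfac]
    exact (Equiv.prod_comp e.symm (fun x => X - C (E x))).symm
  · rw [Equiv.symm_apply_apply]
    exact hx0
  · intro i hi
    exact hUpos (e.symm i) (fun h => hi (by rw [← h, Equiv.apply_symm_apply]))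
  · exact toQ_laurentZ_mem_ratioField N _ hr W hWmap
  · rw [hcard]
    exact helper4768.degLE_ratioField N

end Final

end Fermat.Agent.S28.helper1526

end
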