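import Mathlib
import Fermat.Prelude.Def_ModularCurve_IgusaScheme
import Fermat.Prelude.Def_ModularCurve_X0ModL

/-!
# S28 algebra core, part 1: the Gauss valuation ring of `ℚ((q))` at `ℓ`

`Zl ℓ = ℤ_(ℓ)` (the Prelude's `GaloisRep.ratLocalizedAt ℓ`), `LZ ℓ = ℤ_(ℓ)((q))`,
`incl : LZ ℓ →+* ℚ((q))`, `red : LZ ℓ →+* 𝔽_ℓ((q))`, the localisation `Oℓ` of `LZ ℓ` at the prime
`ker red`, realised as a subring `OSub ℓ` of `ℚ((q))` together with `redS : OSub ℓ →+* 𝔽_ℓ((q))`.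
-/

set_option autoImplicit false
set_option linter.unusedSectionVars false

noncomputable section

open ModularCurve Polynomial

namespace Fermat.Agent.S28.helper1588

variable (ℓ : ℕ) [Fact ℓ.Prime]

/-- `ℤ_(ℓ)` as a type. -/
abbrev Zl : Type := ↥(GaloisRep.ratLocalizedAt ℓ)

theorem Zl_den_ne_zero (q : Zl ℓ) : ((q : ℚ).den : ZMod ℓ) ≠ 0 := by
  have hq : (q : ℚ).den.Coprime ℓ := q.2
  intro h
  rw [ZMod.natCast_eq_zero_iff] at h
  have h1 : ℓ ∣ Nat.gcd (q : ℚ).den ℓ := Nat.dvd_gcd h dvd_rfl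
  rw [Nat.Coprime] at hq
  rw [hq] at h1
  exact (Fact.out : ℓ.Prime).one_lt.ne' (Nat.dvd_one.mp h1)

/-- The residue map `ℤ_(ℓ) → 𝔽_ℓ`. -/
def resZl : Zl ℓ →+* ZMod ℓ where
  toFun q := ((q : ℚ) : ZMod ℓ)
  map_one' := by simp
  map_mul' p q := by
    show (((p : ℚ) * (q : ℚ) : ℚ) : ZMod ℓ) = _
    exact Rat.cast_mul_of_ne_zero (Zl_den_ne_zero ℓ p) (Zl_den_ne_zero ℓ q)
  map_zero' := by simp
  map_add' p q := by
    show (((p : ℚ) + (q : ℚ) : ℚ) : ZMod ℓ) = _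
    exact Rat.cast_add_of_ne_zero (Zl_den_ne_zero ℓ p) (Zl_den_ne_zero ℓ q)

theorem resZl_apply (q : Zl ℓ) : resZl ℓ q = ((q : ℚ) : ZMod ℓ) := rfl

theorem natCast_mem_Zl (n : ℕ) : (n : ℚ) ∈ GaloisRep.ratLocalizedAt ℓ := by
  show (n : ℚ).den.Coprime ℓ
  simp

theorem intCast_mem_Zl (n : ℤ) : (n : ℚ) ∈ GaloisRep.ratLocalizedAt ℓ := by
  show (n : ℚ).den.Coprime ℓ
  simp

/-- an `ℓ`-integral rational whose residue vanishes is `ℓ` times an `ℓ`-integral rational. -/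
theorem div_mem_Zl_of_resZl_eq_zero (q : Zl ℓ) (h : resZl ℓ q = 0) :
    (q : ℚ) / ℓ ∈ GaloisRep.ratLocalizedAt ℓ := by
  have hℓ : (ℓ : ℚ) ≠ 0 := by exact_mod_cast (Fact.out : ℓ.Prime).ne_zero
  rw [resZl_apply, Rat.cast_def, div_eq_zero_iff] at h
  rcases h with h | h
  · rw [ZMod.intCast_zmod_eq_zero_iff_dvd] at h
    obtain ⟨m, hm⟩ := h
    have hden : ((q : ℚ).den : ℚ) ≠ 0 := by exact_mod_cast (q : ℚ).den_ne_zero
    have hq : (q : ℚ) / ℓ = Rat.divInt m ((q : ℚ).den : ℤ) := by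
      rw [Rat.divInt_eq_div]
      have h1 : (q : ℚ) = ((q : ℚ).num : ℚ) / ((q : ℚ).den : ℚ) := (Rat.num_div_den _).symm
      have h2 : (((q : ℚ).num : ℤ) : ℚ) = (ℓ : ℚ) * (m : ℚ) := by rw [hm]; push_cast; ring
      calc (q : ℚ) / ℓ = (((q : ℚ).num : ℚ) / ((q : ℚ).den : ℚ)) / ℓ := by rw [← h1]
        _ = (m : ℚ) / (((q : ℚ).den : ℤ) : ℚ) := by
          rw [h2]; push_cast; field_simp
    show ((q : ℚ) / ℓ).den.Coprime ℓ
    rw [hq]
    have hdvd : (((Rat.divInt m ((q : ℚ).den : ℤ)).den : ℕ) : ℤ) ∣ ((q : ℚ).den : ℤ) :=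
      Rat.den_dvd m _
    have hdvd' : (Rat.divInt m ((q : ℚ).den : ℤ)).den ∣ (q : ℚ).den := by exact_mod_cast hdvd
    exact Nat.Coprime.coprime_dvd_left hdvd' q.2
  · exact absurd h (Zl_den_ne_zero ℓ q)

theorem resZl_eq_zero_iff (q : Zl ℓ) : resZl ℓ q = 0 ↔ ∃ r : Zl ℓ, q = (ℓ : Zl ℓ) * r := by
  have hℓ : (ℓ : ℚ) ≠ 0 := by exact_mod_cast (Fact.out : ℓ.Prime).ne_zero
  constructor
  · intro h
    refine ⟨⟨(q : ℚ) / ℓ, div_mem_Zl_of_resZl_eq_zero ℓ q h⟩, Subtype.ext ?_⟩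
    push_cast
    field_simp
  · rintro ⟨r, rfl⟩
    rw [map_mul, map_natCast]
    simp

/-- `ℤ_(ℓ)((q))`. -/
abbrev LZ : Type := LaurentSeries (Zl ℓ)

/-- the inclusion `ℤ_(ℓ)((q)) → ℚ((q))`. -/
def incl : LZ ℓ →+* LaurentSeries ℚ := coeffMap (GaloisRep.ratLocalizedAt ℓ).subtype

/-- coefficientwise reduction `ℤ_(ℓ)((q)) → 𝔽_ℓ((q))`. -/
def red : LZ ℓ →+* LaurentSeries (ZMod ℓ) := coeffMap (resZl ℓ)

@[simp] theorem incl_coeff (a : LZ ℓ) (k : ℤ) : (incl ℓ a).coeff k = (a.coeff k : ℚ) := rfl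

@[simp] theorem red_coeff (a : LZ ℓ) (k : ℤ) : (red ℓ a).coeff k = resZl ℓ (a.coeff k) := rfl

theorem incl_injective : Function.Injective (incl ℓ) := by
  intro a b h
  ext k
  have := congrArg (fun x => x.coeff k) h
  simpa using this

/-- a Laurent series over `ℚ` all of whose coefficients are `ℓ`-integral comes from `LZ`. -/
theorem exists_incl_eq (f : LaurentSeries ℚ) (hf : ∀ k, f.coeff k ∈ GaloisRep.ratLocalizedAt ℓ) :
    ∃ a : LZ ℓ, incl ℓ a = f := by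
  refine ⟨⟨fun k => ⟨f.coeff k, hf k⟩, ?_⟩, ?_⟩
  · refine f.isPWO_support.mono ?_
    intro k hk
    simp only [Function.mem_support, ne_eq] at hk ⊢
    intro h0
    exact hk (Subtype.ext h0)
  · ext k
    rfl

theorem red_eq_zero_iff (a : LZ ℓ) : red ℓ a = 0 ↔ ∃ b : LZ ℓ, a = (ℓ : LZ ℓ) * b := by
  have hℓ : (ℓ : ℚ) ≠ 0 := by exact_mod_cast (Fact.out : ℓ.Prime).ne_zero
  constructor
  · intro h
    have hk : ∀ k, resZl ℓ (a.coeff k) = 0 := fun k => by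
      have := congrArg (fun x => x.coeff k) h
      simpa using this
    obtain ⟨b, hb⟩ := exists_incl_eq ℓ ((HahnSeries.C ((ℓ : ℚ)⁻¹)) * incl ℓ a) (fun k => by
      rw [HahnSeries.C_mul_eq_smul, HahnSeries.coeff_smul, incl_coeff, smul_eq_mul]
      have := div_mem_Zl_of_resZl_eq_zero ℓ (a.coeff k) (hk k)
      rwa [div_eq_inv_mul] at this)
    refine ⟨b, incl_injective ℓ ?_⟩
    rw [map_mul, hb, map_natCast]
    have hC : (HahnSeries.C (ℓ : ℚ) : LaurentSeries ℚ) = (ℓ : LaurentSeries ℚ) := by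
      rw [map_natCast]
    rw [← hC, ← mul_assoc, ← map_mul, mul_inv_cancel₀ hℓ, map_one, one_mul]
  · rintro ⟨b, rfl⟩
    rw [map_mul, map_natCast]
    have : ((ℓ : ℕ) : LaurentSeries (ZMod ℓ)) = 0 := by
      have h0 : (HahnSeries.C ((ℓ : ℕ) : ZMod ℓ) : LaurentSeries (ZMod ℓ)) = (ℓ : LaurentSeries (ZMod ℓ)) := by
        rw [map_natCast]
      rw [← h0, ZMod.natCast_self, map_zero]
    rw [this, zero_mul]

theorem red_natCast_self : red ℓ (ℓ : LZ ℓ) = 0 :=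
  (red_eq_zero_iff ℓ _).mpr ⟨1, (mul_one _).symm⟩


theorem incl_natCast (n : ℕ) : incl ℓ (n : LZ ℓ) = (n : LaurentSeries ℚ) := map_natCast _ n

theorem natCast_ne_zero_LS : ((ℓ : ℕ) : LaurentSeries ℚ) ≠ 0 := by
  have h : ((ℓ : ℕ) : LaurentSeries ℚ) = HahnSeries.C ((ℓ : ℕ) : ℚ) := by rw [map_natCast]
  rw [h]
  intro h0
  have h1 : ((ℓ : ℕ) : ℚ) = 0 := HahnSeries.C_injective (Γ := ℤ) (by rw [h0, map_zero])
  exact (Fact.out : ℓ.Prime).ne_zero (by exact_mod_cast h1)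

theorem natCast_ne_zero_LZ : ((ℓ : ℕ) : LZ ℓ) ≠ 0 := by
  intro h
  apply natCast_ne_zero_LS ℓ
  rw [← incl_natCast ℓ, h, map_zero]

/-- `padicValRat` of an `ℓ`-integral rational is nonnegative. -/
theorem padicValRat_nonneg_Zl (c : Zl ℓ) : 0 ≤ padicValRat ℓ (c : ℚ) := by
  have hc : (c : ℚ).den.Coprime ℓ := c.2
  have hnd : ¬ ℓ ∣ (c : ℚ).den := by
    intro h
    have h1 : ℓ ∣ Nat.gcd (c : ℚ).den ℓ := Nat.dvd_gcd h dvd_rfl
    rw [Nat.Coprime] at hc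
    rw [hc] at h1
    exact (Fact.out : ℓ.Prime).one_lt.ne' (Nat.dvd_one.mp h1)
  unfold padicValRat
  rw [padicValNat.eq_zero_of_not_dvd hnd]
  simp

/-- Gauss normal form: a nonzero element of `ℤ_(ℓ)((q))` is a power of `ℓ` times an element with
nonzero reduction. -/
theorem exists_eq_pow_mul (a : LZ ℓ) (ha : a ≠ 0) :
    ∃ (k : ℕ) (a' : LZ ℓ), a = (ℓ : LZ ℓ) ^ k * a' ∧ red ℓ a' ≠ 0 := by
  have hℓ : (ℓ : ℚ) ≠ 0 := by exact_mod_cast (Fact.out : ℓ.Prime).ne_zero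
  obtain ⟨k₀, hk₀⟩ : ∃ k₀, a.coeff k₀ ≠ 0 := by
    by_contra hcon
    push Not at hcon
    exact ha (HahnSeries.ext (funext hcon))
  -- induction on the `ℓ`-adic valuation of the coefficient at `k₀`
  have key : ∀ n : ℕ, ∀ a : LZ ℓ, a.coeff k₀ ≠ 0 → padicValRat ℓ (a.coeff k₀ : ℚ) ≤ n →
      ∃ (k : ℕ) (a' : LZ ℓ), a = (ℓ : LZ ℓ) ^ k * a' ∧ red ℓ a' ≠ 0 := by
    intro n
    induction n with
    | zero =>
      intro a hak hval
      by_cases hr : red ℓ a = 0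
      · exfalso
        obtain ⟨b, rfl⟩ := (red_eq_zero_iff ℓ a).mp hr
        have hcoef : (((ℓ : LZ ℓ) * b).coeff k₀ : ℚ) = (ℓ : ℚ) * (b.coeff k₀ : ℚ) := by
          rw [← incl_coeff, map_mul, incl_natCast ℓ]
          have hC : ((ℓ : ℕ) : LaurentSeries ℚ) = HahnSeries.C ((ℓ : ℕ) : ℚ) := by rw [map_natCast]
          rw [hC, HahnSeries.C_mul_eq_smul, HahnSeries.coeff_smul, smul_eq_mul, incl_coeff]
        have hb : (b.coeff k₀ : ℚ) ≠ 0 := by
          intro hb0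
          apply hak
          apply Subtype.ext
          rw [hcoef, hb0, mul_zero]
          rfl
        rw [hcoef, padicValRat.mul hℓ hb, padicValRat.self (Fact.out : ℓ.Prime).one_lt] at hval
        have := padicValRat_nonneg_Zl ℓ (b.coeff k₀)
        push_cast at hval
        omega
      · exact ⟨0, a, by simp, hr⟩
    | succ n ih =>
      intro a hak hval
      by_cases hr : red ℓ a = 0
      · obtain ⟨b, rfl⟩ := (red_eq_zero_iff ℓ a).mp hr
        have hcoef : (((ℓ : LZ ℓ) * b).coeff k₀ : ℚ) = (ℓ : ℚ) * (b.coeff k₀ : ℚ) := by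
          rw [← incl_coeff, map_mul, incl_natCast ℓ]
          have hC : ((ℓ : ℕ) : LaurentSeries ℚ) = HahnSeries.C ((ℓ : ℕ) : ℚ) := by rw [map_natCast]
          rw [hC, HahnSeries.C_mul_eq_smul, HahnSeries.coeff_smul, smul_eq_mul, incl_coeff]
        have hb : (b.coeff k₀ : ℚ) ≠ 0 := by
          intro hb0
          apply hak
          apply Subtype.ext
          rw [hcoef, hb0, mul_zero]
          rfl
        have hb' : b.coeff k₀ ≠ 0 := fun h => hb (by rw [h]; rfl)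
        rw [hcoef, padicValRat.mul hℓ hb, padicValRat.self (Fact.out : ℓ.Prime).one_lt] at hval
        obtain ⟨k, a', hba', hra'⟩ := ih b hb' (by push_cast at hval ⊢; omega)
        exact ⟨k + 1, a', by rw [hba', pow_succ]; ring, hra'⟩
      · exact ⟨0, a, by simp, hr⟩
  have hnn := padicValRat_nonneg_Zl ℓ (a.coeff k₀)
  exact key (padicValRat ℓ (a.coeff k₀ : ℚ)).toNat a hk₀ (by rw [Int.toNat_of_nonneg hnn])


/-! ### The Gauss valuation ring -/

/-- the prime ideal `ker red` of `ℤ_(ℓ)((q))`. -/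
def pIdeal : Ideal (LZ ℓ) := RingHom.ker (red ℓ)

instance pIdeal_isPrime : (pIdeal ℓ).IsPrime := RingHom.ker_isPrime (red ℓ)

theorem mem_pIdeal_iff (a : LZ ℓ) : a ∈ pIdeal ℓ ↔ red ℓ a = 0 := RingHom.mem_ker

/-- the localisation of `ℤ_(ℓ)((q))` at `ker red`: the Gauss valuation ring. -/
def GaussRing : Type := Localization.AtPrime (pIdeal ℓ)

instance instCommRingGaussRing : CommRing (GaussRing ℓ) :=
  inferInstanceAs (CommRing (Localization.AtPrime (pIdeal ℓ)))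

instance instAlgebraGaussRing : Algebra (LZ ℓ) (GaussRing ℓ) :=
  inferInstanceAs (Algebra (LZ ℓ) (Localization.AtPrime (pIdeal ℓ)))

instance instIsLocalizationGaussRing : IsLocalization.AtPrime (GaussRing ℓ) (pIdeal ℓ) :=
  inferInstanceAs (IsLocalization.AtPrime (Localization.AtPrime (pIdeal ℓ)) (pIdeal ℓ))

theorem incl_isUnit (y : (pIdeal ℓ).primeCompl) : IsUnit (incl ℓ (y : LZ ℓ)) := by
  apply IsUnit.mk0
  intro h
  have h0 : (y : LZ ℓ) = 0 := incl_injective ℓ (by rw [h, map_zero])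
  exact y.2 (by rw [h0]; exact Ideal.zero_mem _)

theorem red_isUnit (y : (pIdeal ℓ).primeCompl) : IsUnit (red ℓ (y : LZ ℓ)) :=
  IsUnit.mk0 _ (fun h => y.2 ((mem_pIdeal_iff ℓ _).mpr h))

/-- the Gauss valuation ring inside `ℚ((q))`. -/
def inclO : GaussRing ℓ →+* LaurentSeries ℚ := IsLocalization.lift (incl_isUnit ℓ)

/-- reduction of the Gauss valuation ring. -/
def redO : GaussRing ℓ →+* LaurentSeries (ZMod ℓ) := IsLocalization.lift (red_isUnit ℓ)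

theorem exists_rep (z : GaussRing ℓ) : ∃ a s : LZ ℓ, red ℓ s ≠ 0 ∧
    inclO ℓ z * incl ℓ s = incl ℓ a ∧ redO ℓ z * red ℓ s = red ℓ a := by
  obtain ⟨⟨a, s⟩, rfl⟩ := IsLocalization.mk'_surjective (pIdeal ℓ).primeCompl z
  refine ⟨a, s, fun h => s.2 ((mem_pIdeal_iff ℓ _).mpr h), ?_, ?_⟩
  · have := (IsLocalization.lift_mk'_spec (S := GaussRing ℓ) (incl_isUnit ℓ) a
      (inclO ℓ (IsLocalization.mk' (GaussRing ℓ) a s)) s).mp rfl
    rw [this, mul_comm]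
  · have := (IsLocalization.lift_mk'_spec (S := GaussRing ℓ) (red_isUnit ℓ) a
      (redO ℓ (IsLocalization.mk' (GaussRing ℓ) a s)) s).mp rfl
    rw [this, mul_comm]

theorem exists_of_rep (f : LaurentSeries ℚ) (a s : LZ ℓ) (hs : red ℓ s ≠ 0)
    (h : f * incl ℓ s = incl ℓ a) : ∃ z : GaussRing ℓ, inclO ℓ z = f := by
  refine ⟨IsLocalization.mk' (GaussRing ℓ) a
    (⟨s, fun h' => hs ((mem_pIdeal_iff ℓ _).mp h')⟩ : (pIdeal ℓ).primeCompl), ?_⟩
  refine (IsLocalization.lift_mk'_spec (S := GaussRing ℓ) (incl_isUnit ℓ) a f _).mpr ?_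
  rw [← h, mul_comm]

theorem inclO_injective : Function.Injective (inclO ℓ) := by
  refine (IsLocalization.lift_injective_iff (incl_isUnit ℓ)).mpr fun x y => ⟨fun h => ?_, fun h => ?_⟩
  · rw [IsLocalization.injective (GaussRing ℓ)
      (Ideal.primeCompl_le_nonZeroDivisors (pIdeal ℓ)) h]
  · rw [incl_injective ℓ h]

theorem red_mul_of_incl_mul (z : GaussRing ℓ) (a s : LZ ℓ)
    (h : inclO ℓ z * incl ℓ s = incl ℓ a) : redO ℓ z * red ℓ s = red ℓ a := by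
  obtain ⟨a₀, s₀, hs₀, h1, h2⟩ := exists_rep ℓ z
  have h3 : a * s₀ = a₀ * s := by
    apply incl_injective ℓ
    rw [map_mul, map_mul, ← h, ← h1]
    ring
  have h4 := congrArg (red ℓ) h3
  rw [map_mul, map_mul, ← h2] at h4
  have h5 : (redO ℓ z * red ℓ s - red ℓ a) * red ℓ s₀ = 0 := by linear_combination -h4
  rcases mul_eq_zero.mp h5 with h6 | h6
  · exact sub_eq_zero.mp h6
  · exact absurd h6 hs₀

theorem inclO_algebraMap (a : LZ ℓ) : inclO ℓ (algebraMap (LZ ℓ) (GaussRing ℓ) a) = incl ℓ a :=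
  IsLocalization.lift_eq _ a

theorem redO_algebraMap (a : LZ ℓ) : redO ℓ (algebraMap (LZ ℓ) (GaussRing ℓ) a) = red ℓ a :=
  IsLocalization.lift_eq _ a

theorem redO_natCast_self : redO ℓ (ℓ : GaussRing ℓ) = 0 := by
  have h : (ℓ : GaussRing ℓ) = algebraMap (LZ ℓ) (GaussRing ℓ) (ℓ : LZ ℓ) := by rw [map_natCast]
  rw [h, redO_algebraMap, red_natCast_self]

theorem redO_eq_zero_iff (z : GaussRing ℓ) :
    redO ℓ z = 0 ↔ ∃ z' : GaussRing ℓ, z = (ℓ : GaussRing ℓ) * z' := by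
  constructor
  · intro hz
    obtain ⟨a, s, hs, h1, h2⟩ := exists_rep ℓ z
    rw [hz, zero_mul] at h2
    obtain ⟨b, rfl⟩ := (red_eq_zero_iff ℓ a).mp h2.symm
    have hs0 : incl ℓ s ≠ 0 := fun h => hs (by
      rw [incl_injective ℓ (h.trans (map_zero _).symm), map_zero])
    obtain ⟨z', hz'⟩ := exists_of_rep ℓ (incl ℓ b / incl ℓ s) b s hs (by field_simp)
    refine ⟨z', inclO_injective ℓ ?_⟩
    rw [map_mul, map_natCast, hz']
    rw [map_mul, incl_natCast] at h1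
    field_simp
    exact h1
  · rintro ⟨z', rfl⟩
    rw [map_mul, redO_natCast_self, zero_mul]

/-- the Gauss valuation ring as a subring of `ℚ((q))`. -/
def OSub : Subring (LaurentSeries ℚ) := (inclO ℓ).range

theorem mem_OSub_iff (f : LaurentSeries ℚ) :
    f ∈ OSub ℓ ↔ ∃ a s : LZ ℓ, red ℓ s ≠ 0 ∧ f * incl ℓ s = incl ℓ a := by
  constructor
  · rintro ⟨z, rfl⟩
    obtain ⟨a, s, hs, h1, -⟩ := exists_rep ℓ z
    exact ⟨a, s, hs, h1⟩
  · rintro ⟨a, s, hs, h⟩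
    obtain ⟨z, hz⟩ := exists_of_rep ℓ f a s hs h
    exact ⟨z, hz⟩

/-- `GaussRing ℓ ≃ OSub ℓ`. -/
def OEquiv : GaussRing ℓ ≃+* OSub ℓ :=
  RingEquiv.ofBijective (inclO ℓ).rangeRestrict
    ⟨fun _ _ h => inclO_injective ℓ (congrArg Subtype.val h),
      (inclO ℓ).rangeRestrict_surjective⟩

theorem OEquiv_apply (z : GaussRing ℓ) : ((OEquiv ℓ z : OSub ℓ) : LaurentSeries ℚ) = inclO ℓ z := rfl

/-- reduction on the Gauss valuation subring of `ℚ((q))`. -/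
def redS : OSub ℓ →+* LaurentSeries (ZMod ℓ) := (redO ℓ).comp (OEquiv ℓ).symm.toRingHom

theorem redS_apply (x : OSub ℓ) : redS ℓ x = redO ℓ ((OEquiv ℓ).symm x) := rfl

theorem inclO_symm (x : OSub ℓ) : inclO ℓ ((OEquiv ℓ).symm x) = (x : LaurentSeries ℚ) := by
  rw [← OEquiv_apply, RingEquiv.apply_symm_apply]

/-- the basic computation rule for `redS`. -/
theorem redS_mul_red (x : OSub ℓ) (a s : LZ ℓ) (h : (x : LaurentSeries ℚ) * incl ℓ s = incl ℓ a) :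
    redS ℓ x * red ℓ s = red ℓ a :=
  red_mul_of_incl_mul ℓ ((OEquiv ℓ).symm x) a s (by rw [inclO_symm]; exact h)

theorem incl_mem_OSub (a : LZ ℓ) : incl ℓ a ∈ OSub ℓ :=
  ⟨algebraMap (LZ ℓ) (GaussRing ℓ) a, inclO_algebraMap ℓ a⟩

theorem redS_incl (a : LZ ℓ) : redS ℓ ⟨incl ℓ a, incl_mem_OSub ℓ a⟩ = red ℓ a := by
  have := redS_mul_red ℓ ⟨incl ℓ a, incl_mem_OSub ℓ a⟩ a 1 (by simp)
  simpa using this

theorem redS_natCast_self : redS ℓ (ℓ : OSub ℓ) = 0 := by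
  rw [redS_apply, map_natCast, redO_natCast_self]

theorem redS_eq_zero_iff (x : OSub ℓ) : redS ℓ x = 0 ↔ ∃ y : OSub ℓ, x = (ℓ : OSub ℓ) * y := by
  constructor
  · intro h
    rw [redS_apply, redO_eq_zero_iff] at h
    obtain ⟨z', hz'⟩ := h
    refine ⟨OEquiv ℓ z', ?_⟩
    have := congrArg (OEquiv ℓ) hz'
    rw [RingEquiv.apply_symm_apply, map_mul, map_natCast] at this
    exact this
  · rintro ⟨y, rfl⟩
    rw [map_mul, redS_natCast_self, zero_mul]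

/-! ### The fraction field of `ℤ_(ℓ)((q))` inside `ℚ((q))` -/

/-- `Frac ℤ_(ℓ)((q))` as a subfield of `ℚ((q))`. -/
def QW : Subfield (LaurentSeries ℚ) :=
  (IsFractionRing.lift (K := FractionRing (LZ ℓ)) (incl_injective ℓ)).fieldRange

theorem mem_QW_iff (f : LaurentSeries ℚ) :
    f ∈ QW ℓ ↔ ∃ a b : LZ ℓ, b ≠ 0 ∧ f * incl ℓ b = incl ℓ a := by
  constructor
  · rintro ⟨z, rfl⟩
    obtain ⟨⟨a, b⟩, rfl⟩ := IsLocalization.mk'_surjective (nonZeroDivisors (LZ ℓ)) z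
    have hb : (b : LZ ℓ) ≠ 0 := nonZeroDivisors.ne_zero b.2
    have hb' : incl ℓ b ≠ 0 := fun h => hb (incl_injective ℓ (h.trans (map_zero _).symm))
    refine ⟨a, b, hb, ?_⟩
    show (IsFractionRing.lift (incl_injective ℓ)) (IsLocalization.mk' _ a b) * _ = _
    rw [IsFractionRing.lift_mk']
    field_simp
  · rintro ⟨a, b, hb, h⟩
    have hb' : incl ℓ b ≠ 0 := fun h => hb (incl_injective ℓ (h.trans (map_zero _).symm))
    refine ⟨IsLocalization.mk' (FractionRing (LZ ℓ)) a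
      (⟨b, mem_nonZeroDivisors_of_ne_zero hb⟩ : nonZeroDivisors (LZ ℓ)), ?_⟩
    rw [IsFractionRing.lift_mk']
    field_simp
    rw [← h, mul_comm]

theorem incl_mem_QW (a : LZ ℓ) : incl ℓ a ∈ QW ℓ :=
  (mem_QW_iff ℓ _).mpr ⟨a, 1, one_ne_zero, by simp⟩

theorem OSub_le_QW {f : LaurentSeries ℚ} (hf : f ∈ OSub ℓ) : f ∈ QW ℓ := by
  obtain ⟨a, s, hs, h⟩ := (mem_OSub_iff ℓ f).mp hf
  exact (mem_QW_iff ℓ f).mpr ⟨a, s, fun h0 => hs (by rw [h0, map_zero]), h⟩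

/-- the Gauss ring is a valuation ring of `QW`. -/
theorem mem_OSub_or_inv_mem (f : LaurentSeries ℚ) (hf : f ∈ QW ℓ) :
    f ∈ OSub ℓ ∨ f⁻¹ ∈ OSub ℓ := by
  obtain ⟨a, b, hb, h⟩ := (mem_QW_iff ℓ f).mp hf
  have hℓ : ((ℓ : ℕ) : LaurentSeries ℚ) ≠ 0 := natCast_ne_zero_LS ℓ
  by_cases ha : a = 0
  · left
    have hb' : incl ℓ b ≠ 0 := fun h => hb (incl_injective ℓ (h.trans (map_zero _).symm))
    rw [ha, map_zero] at h
    rcases mul_eq_zero.mp h with h | h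
    · rw [h]; exact (OSub ℓ).zero_mem
    · exact absurd h hb'
  obtain ⟨k, a', rfl, ha'⟩ := exists_eq_pow_mul ℓ a ha
  obtain ⟨m, b', rfl, hb'⟩ := exists_eq_pow_mul ℓ b hb
  have ha'0 : incl ℓ a' ≠ 0 := fun h0 => ha' (by
    rw [incl_injective ℓ (h0.trans (map_zero _).symm), map_zero])
  have hb'0 : incl ℓ b' ≠ 0 := fun h0 => hb' (by
    rw [incl_injective ℓ (h0.trans (map_zero _).symm), map_zero])
  rw [map_mul, map_mul, map_pow, map_pow, incl_natCast] at h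
  rcases le_total m k with hmk | hkm
  · left
    obtain ⟨e, rfl⟩ := Nat.exists_eq_add_of_le hmk
    refine (mem_OSub_iff ℓ f).mpr ⟨(ℓ : LZ ℓ) ^ e * a', b', hb', ?_⟩
    rw [map_mul, map_pow, incl_natCast]
    rw [pow_add] at h
    have hm : ((ℓ : ℕ) : LaurentSeries ℚ) ^ m ≠ 0 := pow_ne_zero _ hℓ
    apply mul_left_cancel₀ hm
    linear_combination h
  · right
    obtain ⟨e, rfl⟩ := Nat.exists_eq_add_of_le hkm
    refine (mem_OSub_iff ℓ f⁻¹).mpr ⟨(ℓ : LZ ℓ) ^ e * b', a', ha', ?_⟩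
    rw [map_mul, map_pow, incl_natCast]
    rw [pow_add] at h
    have hk : ((ℓ : ℕ) : LaurentSeries ℚ) ^ k ≠ 0 := pow_ne_zero _ hℓ
    have hf0 : f ≠ 0 := by
      rintro rfl
      rw [zero_mul] at h
      exact (mul_ne_zero hk ha'0) h.symm
    have h' : f * ((ℓ : LaurentSeries ℚ) ^ e * incl ℓ b') = incl ℓ a' := by
      apply mul_left_cancel₀ hk
      linear_combination h
    rw [← h']
    field_simp

/-- a field element which is integral over a subring containing its inverse lies in the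
subring. -/
theorem mem_of_isIntegral_of_inv_mem {K : Type*} [Field K] (S : Subring K) (f : K)
    (hinv : f⁻¹ ∈ S) (hint : IsIntegral S f) : f ∈ S := by
  obtain ⟨p, hp, hpf⟩ := hint
  by_cases hf : f = 0
  · rw [hf]; exact S.zero_mem
  set d := p.natDegree with hd
  have hd0 : d ≠ 0 := by
    intro h0
    have h1 : p = 1 := hp.natDegree_eq_zero.mp h0
    rw [h1] at hpf
    simp at hpf
  rw [Polynomial.eval₂_eq_sum_range, ← hd, Finset.sum_range_succ, hd, hp.coeff_natDegree,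
    map_one, one_mul, ← hd] at hpf
  have h1 : f ^ d = - ∑ i ∈ Finset.range d, algebraMap S K (p.coeff i) * f ^ i := by
    linear_combination hpf
  have h2 : f = f ^ d * (f⁻¹) ^ (d - 1) := by
    obtain ⟨e, he⟩ : ∃ e, d = e + 1 := Nat.exists_eq_succ_of_ne_zero hd0
    rw [he, Nat.add_sub_cancel, pow_succ, inv_pow]
    field_simp
  rw [h2, h1, neg_mul, Finset.sum_mul]
  apply S.neg_mem
  apply S.sum_mem
  intro i hi
  have hi' : i < d := Finset.mem_range.mp hi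
  have h3 : f ^ i * (f⁻¹) ^ (d - 1) = (f⁻¹) ^ (d - 1 - i) := by
    have : d - 1 = (d - 1 - i) + i := by omega
    conv_lhs => rw [this, pow_add, inv_pow f i]
    field_simp
  rw [mul_assoc, h3]
  exact S.mul_mem (p.coeff i).2 (S.pow_mem hinv _)

/-- the Gauss valuation ring is integrally closed in `QW`. -/
theorem mem_OSub_of_isIntegral (f : LaurentSeries ℚ) (hf : f ∈ QW ℓ)
    (hint : IsIntegral (OSub ℓ) f) : f ∈ OSub ℓ := by
  rcases mem_OSub_or_inv_mem ℓ f hf with h | h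
  · exact h
  · exact mem_of_isIntegral_of_inv_mem (OSub ℓ) f h hint

end Fermat.Agent.S28.helper1588
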