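import Mathlib
import Fermat.Prelude.Def_ModularCurve_X0
import Fermat.Agent.S24.helper1644_AnalyticJ

/-!
# S28 (helper1603): dictionary between functions on the upper half plane with a convergent
expansion in `t = exp (2 π i τ / N)` and formal Laurent series over `ℂ`.
-/

set_option autoImplicit false

open Filter Topology UpperHalfPlane

namespace Fermat.Agent.S28.helper1603

open Fermat.Agent.S24.helper1644

noncomputable section

/-- The local parameter `t = exp (2 π i τ / N)` at the cusp `i∞` for period `N`. -/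
def tpar (N : ℕ) (τ : ℍ) : ℂ := Function.Periodic.qParam (N : ℝ) (τ : ℂ)

lemma tpar_ne_zero (N : ℕ) (τ : ℍ) : tpar N τ ≠ 0 := Function.Periodic.qParam_ne_zero _

lemma norm_tpar_lt_one (N : ℕ) [NeZero N] (τ : ℍ) : ‖tpar N τ‖ < 1 :=
  Function.Periodic.norm_qParam_lt_one (by exact_mod_cast Nat.pos_of_ne_zero (NeZero.ne N)) τ.im_pos

lemma tpar_mem_ball (N : ℕ) [NeZero N] (τ : ℍ) : tpar N τ ∈ Metric.ball (0 : ℂ) 1 := by
  simpa using norm_tpar_lt_one N τ

lemma exists_tpar_eq (N : ℕ) [NeZero N] {z : ℂ} (hz : z ≠ 0) (hz1 : ‖z‖ < 1) :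
    ∃ τ : ℍ, tpar N τ = z := by
  have hN : (0 : ℝ) < N := by exact_mod_cast Nat.pos_of_ne_zero (NeZero.ne N)
  have him := Function.Periodic.im_invQParam_pos_of_norm_lt_one hN hz1 hz
  exact ⟨⟨_, him⟩, Function.Periodic.qParam_right_inv hN.ne' hz⟩

lemma tendsto_tpar (N : ℕ) [NeZero N] : Tendsto (tpar N) atImInfty (𝓝 0) :=
  UpperHalfPlane.qParam_tendsto_atImInfty
    (by exact_mod_cast Nat.pos_of_ne_zero (NeZero.ne N))

lemma norm_tpar (N : ℕ) (τ : ℍ) : ‖tpar N τ‖ = Real.exp (-2 * Real.pi * τ.im / N) := by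
  rw [tpar, Function.Periodic.norm_qParam]
  rfl

/-! ### More on `taylorPS` -/

lemma analyticAt_of_diffOn {G : ℂ → ℂ} (hG : DifferentiableOn ℂ G (Metric.ball 0 1)) :
    AnalyticAt ℂ G 0 :=
  hG.analyticAt ball_mem_nhds_zero

lemma taylorPS_add {G₁ G₂ : ℂ → ℂ} (h₁ : DifferentiableOn ℂ G₁ (Metric.ball 0 1))
    (h₂ : DifferentiableOn ℂ G₂ (Metric.ball 0 1)) :
    taylorPS (G₁ + G₂) = taylorPS G₁ + taylorPS G₂ := by
  rw [taylorPS_eq_of_hasSum (c := fun n => PowerSeries.coeff n (taylorPS G₁) +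
    PowerSeries.coeff n (taylorPS G₂)) (r := 1) one_pos]
  · ext n
    simp
  · intro z hz
    have := (hasSum_taylorPS h₁ hz).add (hasSum_taylorPS h₂ hz)
    simpa [add_mul] using this

lemma taylorPS_const (c : ℂ) : taylorPS (fun _ : ℂ => c) = PowerSeries.C c := by
  have := taylorPS_polynomial (Polynomial.C c)
  simpa using this

lemma taylorPS_X_pow (k : ℕ) : taylorPS (fun z : ℂ => z ^ k) = PowerSeries.X ^ k := by
  have := taylorPS_polynomial (Polynomial.X ^ k)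
  simpa using this

lemma taylorPS_X_pow_mul {G : ℂ → ℂ} (hG : DifferentiableOn ℂ G (Metric.ball 0 1)) (k : ℕ) :
    taylorPS (fun z : ℂ => z ^ k * G z) = PowerSeries.X ^ k * taylorPS G := by
  have h1 : AnalyticAt ℂ (fun z : ℂ => z ^ k) 0 := by fun_prop
  have := taylorPS_mul h1 (analyticAt_of_diffOn hG)
  rw [taylorPS_X_pow] at this
  exact this

lemma taylorPS_const_mul {G : ℂ → ℂ} (hG : DifferentiableOn ℂ G (Metric.ball 0 1)) (c : ℂ) :
    taylorPS (fun z : ℂ => c * G z) = PowerSeries.C c * taylorPS G := by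
  have h1 : AnalyticAt ℂ (fun _ : ℂ => c) 0 := analyticAt_const
  have := taylorPS_mul h1 (analyticAt_of_diffOn hG)
  rw [taylorPS_const] at this
  exact this

lemma taylorPS_eq_of_eqOn {G₁ G₂ : ℂ → ℂ} (h : Set.EqOn G₁ G₂ (Metric.ball 0 1)) :
    taylorPS G₁ = taylorPS G₂ :=
  taylorPS_congr (Filter.eventuallyEq_of_mem ball_mem_nhds_zero h)

/-- Two functions, continuous on the unit disc, which agree on the punctured disc, agree. -/
lemma eqOn_ball_of_eqOn_punctured {G₁ G₂ : ℂ → ℂ}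
    (h₁ : DifferentiableOn ℂ G₁ (Metric.ball 0 1))
    (h₂ : DifferentiableOn ℂ G₂ (Metric.ball 0 1))
    (h : ∀ z : ℂ, z ≠ 0 → ‖z‖ < 1 → G₁ z = G₂ z) : Set.EqOn G₁ G₂ (Metric.ball 0 1) := by
  intro z hz
  by_cases hz0 : z = 0
  · subst hz0
    have c₁ : ContinuousAt G₁ 0 := (analyticAt_of_diffOn h₁).continuousAt
    have c₂ : ContinuousAt G₂ 0 := (analyticAt_of_diffOn h₂).continuousAt
    have t₁ : Tendsto G₁ (𝓝[≠] (0 : ℂ)) (𝓝 (G₁ 0)) := c₁.tendsto.mono_left nhdsWithin_le_nhds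
    have t₂ : Tendsto G₂ (𝓝[≠] (0 : ℂ)) (𝓝 (G₂ 0)) := c₂.tendsto.mono_left nhdsWithin_le_nhds
    have he : G₁ =ᶠ[𝓝[≠] (0 : ℂ)] G₂ := by
      have hb : Metric.ball (0 : ℂ) 1 ∈ 𝓝[≠] (0 : ℂ) := nhdsWithin_le_nhds ball_mem_nhds_zero
      filter_upwards [hb, self_mem_nhdsWithin] with w hw hw0
      exact h w hw0 (by simpa using hw)
    exact tendsto_nhds_unique (t₁.congr' he) t₂
  · exact h z hz0 (by simpa using hz)

/-! ### The dictionary -/

/-- `HasExp N f F`: the function `f` on the upper half plane has the Laurent expansion `F` in the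
parameter `t = exp (2 π i τ / N)`, convergent on the whole punctured unit disc. -/
def HasExp (N : ℕ) (f : ℍ → ℂ) (F : LaurentSeries ℂ) : Prop :=
  ∃ (m : ℕ) (G : ℂ → ℂ), DifferentiableOn ℂ G (Metric.ball 0 1) ∧
    (∀ τ : ℍ, G (tpar N τ) = tpar N τ ^ m * f τ) ∧
    F = HahnSeries.single (-(m : ℤ)) (1 : ℂ) * HahnSeries.ofPowerSeries ℤ ℂ (taylorPS G)

lemma single_neg_mul_ofPowerSeries_X_pow_mul (m k : ℕ) (P : PowerSeries ℂ) :
    HahnSeries.single (-((m + k : ℕ) : ℤ)) (1 : ℂ) *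
      HahnSeries.ofPowerSeries ℤ ℂ (PowerSeries.X ^ k * P) =
    HahnSeries.single (-(m : ℤ)) (1 : ℂ) * HahnSeries.ofPowerSeries ℤ ℂ P := by
  rw [map_mul, map_pow, HahnSeries.ofPowerSeries_X, HahnSeries.single_pow, one_pow, ← mul_assoc,
    HahnSeries.single_mul_single]
  congr 2
  · push_cast
    simp
  · simp

/-- The exponent `m` in `HasExp` can be increased. -/
lemma HasExp.shift {N : ℕ} {f : ℍ → ℂ} {F : LaurentSeries ℂ} {m : ℕ} {G : ℂ → ℂ}
    (hG : DifferentiableOn ℂ G (Metric.ball 0 1))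
    (hf : ∀ τ : ℍ, G (tpar N τ) = tpar N τ ^ m * f τ)
    (hF : F = HahnSeries.single (-(m : ℤ)) (1 : ℂ) * HahnSeries.ofPowerSeries ℤ ℂ (taylorPS G))
    (k : ℕ) :
    DifferentiableOn ℂ (fun z : ℂ => z ^ k * G z) (Metric.ball 0 1) ∧
    (∀ τ : ℍ, (fun z : ℂ => z ^ k * G z) (tpar N τ) = tpar N τ ^ (m + k) * f τ) ∧
    F = HahnSeries.single (-((m + k : ℕ) : ℤ)) (1 : ℂ) *
      HahnSeries.ofPowerSeries ℤ ℂ (taylorPS (fun z : ℂ => z ^ k * G z)) := by
  refine ⟨?_, ?_, ?_⟩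
  · exact (differentiableOn_id.pow k).mul hG
  · intro τ
    simp only [hf τ]
    ring
  · rw [taylorPS_X_pow_mul hG, single_neg_mul_ofPowerSeries_X_pow_mul, hF]

lemma HasExp.const (N : ℕ) (c : ℂ) : HasExp N (fun _ => c) (HahnSeries.C c) := by
  refine ⟨0, fun _ => c, differentiableOn_const c, fun τ => by simp, ?_⟩
  rw [taylorPS_const, HahnSeries.ofPowerSeries_C]
  simp

lemma HasExp.add {N : ℕ} {f g : ℍ → ℂ} {F F' : LaurentSeries ℂ} (hf : HasExp N f F)
    (hg : HasExp N g F') : HasExp N (f + g) (F + F') := by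
  obtain ⟨m, G, hG, hGf, hF⟩ := hf
  obtain ⟨m', G', hG', hGf', hF'⟩ := hg
  obtain ⟨d1, e1, s1⟩ := HasExp.shift hG hGf hF m'
  obtain ⟨d2, e2, s2⟩ := HasExp.shift hG' hGf' hF' m
  refine ⟨m + m', (fun z : ℂ => z ^ m' * G z) + (fun z : ℂ => z ^ m * G' z), d1.add d2, ?_, ?_⟩
  · intro τ
    have h1 := e1 τ
    have h2 := e2 τ
    simp only [Pi.add_apply] at h1 h2 ⊢
    rw [h1, h2, add_comm m' m]
    ring
  · rw [taylorPS_add d1 d2, map_add, mul_add, ← s1]
    rw [show ((m + m' : ℕ) : ℤ) = ((m' + m : ℕ) : ℤ) by rw [add_comm], ← s2]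

lemma HasExp.mul {N : ℕ} {f g : ℍ → ℂ} {F F' : LaurentSeries ℂ} (hf : HasExp N f F)
    (hg : HasExp N g F') : HasExp N (f * g) (F * F') := by
  obtain ⟨m, G, hG, hGf, hF⟩ := hf
  obtain ⟨m', G', hG', hGf', hF'⟩ := hg
  refine ⟨m + m', G * G', hG.mul hG', ?_, ?_⟩
  · intro τ
    simp only [Pi.mul_apply, hGf τ, hGf' τ]
    ring
  · rw [taylorPS_mul (analyticAt_of_diffOn hG) (analyticAt_of_diffOn hG'), map_mul, hF, hF']
    rw [mul_mul_mul_comm, HahnSeries.single_mul_single, one_mul, Nat.cast_add, neg_add]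

/-- Uniqueness of the expansion. -/
lemma HasExp.unique {N : ℕ} [NeZero N] {f : ℍ → ℂ} {F F' : LaurentSeries ℂ} (hf : HasExp N f F)
    (hg : HasExp N f F') : F = F' := by
  obtain ⟨m, G, hG, hGf, hF⟩ := hf
  obtain ⟨m', G', hG', hGf', hF'⟩ := hg
  obtain ⟨d1, e1, s1⟩ := HasExp.shift hG hGf hF m'
  obtain ⟨d2, e2, s2⟩ := HasExp.shift hG' hGf' hF' m
  have key : Set.EqOn (fun z : ℂ => z ^ m' * G z) (fun z : ℂ => z ^ m * G' z)
      (Metric.ball 0 1) := by
    refine eqOn_ball_of_eqOn_punctured d1 d2 fun z hz hz1 => ?_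
    obtain ⟨τ, rfl⟩ := exists_tpar_eq N hz hz1
    have h1 := e1 τ
    have h2 := e2 τ
    simp only at h1 h2 ⊢
    rw [h1, h2, add_comm]
  rw [s1, s2, taylorPS_eq_of_eqOn key, add_comm]

/-- The set of pairs (function, expansion) as a `ℂ`-subalgebra. -/
def expAlg (N : ℕ) : Subalgebra ℂ ((ℍ → ℂ) × LaurentSeries ℂ) where
  carrier := {p | HasExp N p.1 p.2}
  mul_mem' := fun {a b} ha hb => HasExp.mul ha hb
  add_mem' := fun {a b} ha hb => HasExp.add ha hb
  algebraMap_mem' := fun c => by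
    show HasExp N (fun _ => c) (algebraMap ℂ (LaurentSeries ℂ) c)
    have : algebraMap ℂ (LaurentSeries ℂ) c = HahnSeries.C c := by
      rw [HahnSeries.algebraMap_apply']
      simp
    rw [this]
    exact HasExp.const N c

lemma mem_expAlg {N : ℕ} {p : (ℍ → ℂ) × LaurentSeries ℂ} : p ∈ expAlg N ↔ HasExp N p.1 p.2 :=
  Iff.rfl

open scoped Manifold in
/-- A function with an expansion is holomorphic. -/
lemma HasExp.mdiff {N : ℕ} [NeZero N] {f : ℍ → ℂ} {F : LaurentSeries ℂ} (hf : HasExp N f F) :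
    MDiff f := by
  obtain ⟨m, G, hG, hGf, -⟩ := hf
  rw [UpperHalfPlane.mdifferentiable_iff]
  have hN : (0 : ℝ) < N := by exact_mod_cast Nat.pos_of_ne_zero (NeZero.ne N)
  have hq : Differentiable ℂ (Function.Periodic.qParam (N : ℝ)) := by
    unfold Function.Periodic.qParam
    fun_prop
  have h1 : DifferentiableOn ℂ (fun z : ℂ => G (Function.Periodic.qParam (N : ℝ) z) /
      (Function.Periodic.qParam (N : ℝ) z) ^ m) {z | 0 < z.im} := by
    refine DifferentiableOn.div (hG.comp hq.differentiableOn ?_) (hq.differentiableOn.pow m) ?_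
    · intro z hz
      simpa using Function.Periodic.norm_qParam_lt_one hN hz
    · intro z _
      exact pow_ne_zero _ (Function.Periodic.qParam_ne_zero _)
  refine h1.congr fun z hz => ?_
  simp only [Function.comp_apply]
  rw [ofComplex_apply_of_im_pos hz]
  have := hGf ⟨z, hz⟩
  rw [eq_div_iff (pow_ne_zero _ (Function.Periodic.qParam_ne_zero _)), mul_comm]
  exact this.symm

/-- A function with an expansion has at most exponential growth at `i∞`. -/
lemma HasExp.growth {N : ℕ} [NeZero N] {f : ℍ → ℂ} {F : LaurentSeries ℂ} (hf : HasExp N f F) :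
    ∃ (m : ℕ) (C A : ℝ), ∀ τ : ℍ, A ≤ τ.im →
      ‖f τ‖ ≤ C * Real.exp (2 * Real.pi * m * τ.im) := by
  obtain ⟨m, G, hG, hGf, -⟩ := hf
  have hN : (0 : ℝ) < N := by exact_mod_cast Nat.pos_of_ne_zero (NeZero.ne N)
  have hN1 : (1 : ℝ) ≤ N := by exact_mod_cast Nat.pos_of_ne_zero (NeZero.ne N)
  have c0 : ContinuousAt G 0 := (analyticAt_of_diffOn hG).continuousAt
  have hev : ∀ᶠ z in 𝓝 (0 : ℂ), ‖G z‖ < ‖G 0‖ + 1 :=
    c0.norm.eventually (gt_mem_nhds (by linarith))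
  have hev2 : ∀ᶠ τ in atImInfty, ‖G (tpar N τ)‖ < ‖G 0‖ + 1 := (tendsto_tpar N).eventually hev
  obtain ⟨A, hA⟩ := (UpperHalfPlane.atImInfty_mem _).mp hev2
  refine ⟨m, ‖G 0‖ + 1, A, fun τ hτ => ?_⟩
  have h1 : ‖G (tpar N τ)‖ < ‖G 0‖ + 1 := hA τ hτ
  have h2 : f τ = G (tpar N τ) / tpar N τ ^ m := by
    rw [eq_div_iff (pow_ne_zero _ (tpar_ne_zero N τ)), mul_comm]
    exact (hGf τ).symm
  have hpos : (0 : ℝ) < ‖tpar N τ‖ ^ m := pow_pos (norm_pos_iff.mpr (tpar_ne_zero N τ)) m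
  rw [h2, norm_div, norm_pow, div_le_iff₀ hpos]
  have h3 : Real.exp (2 * Real.pi * m * τ.im) * ‖tpar N τ‖ ^ m ≥ 1 := by
    rw [norm_tpar, ← Real.exp_nat_mul, ← Real.exp_add]
    have hle : (0 : ℝ) ≤ 2 * Real.pi * m * τ.im + m * (-2 * Real.pi * τ.im / N) := by
      have e : 2 * Real.pi * m * τ.im + m * (-2 * Real.pi * τ.im / N)
          = 2 * Real.pi * m * τ.im * (1 - 1 / N) := by
        field_simp
        ring
      rw [e]
      have h4 : (0 : ℝ) ≤ 1 - 1 / N := by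
        rw [sub_nonneg, div_le_one hN]
        exact hN1
      have h5 : (0 : ℝ) ≤ 2 * Real.pi * m * τ.im := by
        have := τ.im_pos
        positivity
      exact mul_nonneg h5 h4
    exact Real.one_le_exp hle
  have h6 : (0 : ℝ) ≤ ‖G 0‖ + 1 := by positivity
  calc ‖G (tpar N τ)‖ ≤ (‖G 0‖ + 1) * 1 := by linarith
    _ ≤ (‖G 0‖ + 1) * (Real.exp (2 * Real.pi * m * τ.im) * ‖tpar N τ‖ ^ m) :=
        mul_le_mul_of_nonneg_left h3 h6
    _ = (‖G 0‖ + 1) * Real.exp (2 * Real.pi * m * τ.im) * ‖tpar N τ‖ ^ m := by ring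

end

end Fermat.Agent.S28.helper1603
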