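import Mathlib
import Fermat.Prelude.Def_ModularCurve_X0
import Fermat.Agent.S24.helper1644_AnalyticJ
import Fermat.Agent.S28.helper407_DeltaHermite
import Fermat.Agent.S28.helper1603_Dict

/-!
# S28 (helper1603): expansions of the building blocks `Δ((aτ+b)/d)^{±1}` in `t = exp(2πiτ/N)`,
unit pairs and unit Laurent series with coefficients in a subring.
-/

set_option autoImplicit false

open Filter Topology UpperHalfPlane

namespace Fermat.Agent.S28.helper1603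

open Fermat.Agent.S24.helper1644 Fermat.Agent.S28.helper407

noncomputable section

local notation "Δ" => ModularForm.discriminant

/-! ### Formal substitution `X ↦ ζ X^k` -/

/-- The formal substitution `P(ζ X^k)`. -/
def subsPS (ζ : ℂ) (k : ℕ) (P : PowerSeries ℂ) : PowerSeries ℂ :=
  PowerSeries.mk fun n => if k ∣ n then ζ ^ (n / k) * PowerSeries.coeff (n / k) P else 0

lemma coeff_subsPS (ζ : ℂ) (k : ℕ) (P : PowerSeries ℂ) (n : ℕ) :
    PowerSeries.coeff n (subsPS ζ k P) =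
      if k ∣ n then ζ ^ (n / k) * PowerSeries.coeff (n / k) P else 0 := by
  simp [subsPS]

lemma constantCoeff_subsPS (ζ : ℂ) (k : ℕ) (P : PowerSeries ℂ) :
    PowerSeries.constantCoeff (subsPS ζ k P) = PowerSeries.constantCoeff P := by
  rw [← PowerSeries.coeff_zero_eq_constantCoeff, coeff_subsPS]
  simp

lemma taylorPS_comp_monomial {H : ℂ → ℂ} (hH : DifferentiableOn ℂ H (Metric.ball 0 1)) {ζ : ℂ}
    (hζ : ‖ζ‖ ≤ 1) {k : ℕ} (hk : 0 < k) :
    taylorPS (fun z => H (ζ * z ^ k)) = subsPS ζ k (taylorPS H) := by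
  rw [taylorPS_eq_of_hasSum (c := fun n => if k ∣ n then ζ ^ (n / k) *
    PowerSeries.coeff (n / k) (taylorPS H) else 0) (r := 1) one_pos]
  · rfl
  · intro z hz
    have hw : ‖ζ * z ^ k‖ < 1 := by
      rw [norm_mul, norm_pow]
      have h1 : ‖z‖ ^ k ≤ ‖z‖ := by
        calc ‖z‖ ^ k ≤ ‖z‖ ^ 1 := pow_le_pow_of_le_one (norm_nonneg z) hz.le hk
          _ = ‖z‖ := pow_one _
      calc ‖ζ‖ * ‖z‖ ^ k ≤ 1 * ‖z‖ := mul_le_mul hζ h1 (by positivity) zero_le_one
        _ < 1 := by rw [one_mul]; exact hz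
    have h := hasSum_taylorPS hH hw
    have hinj : Function.Injective (fun n : ℕ => k * n) := fun a b hab =>
      Nat.eq_of_mul_eq_mul_left hk hab
    rw [← hinj.hasSum_iff]
    · convert h using 1
      funext n
      simp only [Function.comp_apply, dvd_mul_right, if_true, Nat.mul_div_cancel_left n hk]
      rw [mul_pow, ← pow_mul]
      ring
    · intro x hx
      have : ¬ k ∣ x := fun ⟨m, hm⟩ => hx ⟨m, hm.symm⟩
      simp [this]

/-! ### The `q`-parameter of the affine points -/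

/-- The root of unity `exp (2 π i b / d)`. -/
def zetaOf (b d : ℕ) : ℂ := Complex.exp (2 * Real.pi * Complex.I * b / d)

lemma zetaOf_pow (b d : ℕ) (hd : 0 < d) : zetaOf b d ^ d = 1 := by
  rw [zetaOf, ← Complex.exp_nat_mul]
  have hd' : (d : ℂ) ≠ 0 := by exact_mod_cast hd.ne'
  have : (d : ℂ) * (2 * Real.pi * Complex.I * b / d) = (b : ℂ) * (2 * Real.pi * Complex.I) := by
    field_simp
  rw [this, Complex.exp_nat_mul, Complex.exp_two_pi_mul_I, one_pow]

lemma norm_zetaOf (b d : ℕ) : ‖zetaOf b d‖ = 1 := by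
  rw [zetaOf, Complex.norm_exp]
  have : (2 * Real.pi * Complex.I * b / d : ℂ).re = 0 := by
    have e : (2 * Real.pi * Complex.I * b / d : ℂ) = ((2 * Real.pi * b / d : ℝ) : ℂ) * Complex.I := by
      push_cast
      ring
    rw [e]
    simp
  rw [this, Real.exp_zero]

lemma zetaOf_ne_zero (b d : ℕ) : zetaOf b d ≠ 0 := Complex.exp_ne_zero _

lemma zetaOf_zero_one : zetaOf 0 1 = 1 := by simp [zetaOf]

lemma qParam_pt {N a d : ℕ} [NeZero N] (ha : 0 < a) (hd : 0 < d) (hdN : d ∣ N) (b : ℕ) (τ : ℍ) :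
    Function.Periodic.qParam 1 ((pt a b d τ : ℍ) : ℂ) = zetaOf b d * tpar N τ ^ (a * (N / d)) := by
  rw [coe_pt ha hd, tpar, zetaOf, Function.Periodic.qParam, Function.Periodic.qParam,
    ← Complex.exp_nat_mul, ← Complex.exp_add]
  congr 1
  obtain ⟨e, rfl⟩ := hdN
  have hd' : (d : ℂ) ≠ 0 := by exact_mod_cast hd.ne'
  have he : 0 < e := by
    rcases Nat.eq_zero_or_pos e with h | h
    · subst h; exact absurd (mul_zero d) (NeZero.ne (d * 0))
    · exact h
  have he' : (e : ℂ) ≠ 0 := by exact_mod_cast he.ne'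
  rw [Nat.mul_div_cancel_left e hd]
  push_cast
  field_simp
  ring

lemma discriminant_eq_eulerFun (σ : ℍ) :
    Δ σ = Function.Periodic.qParam 1 (σ : ℂ) * eulerFun (Function.Periodic.qParam 1 (σ : ℂ)) ^ 24 := by
  have hmul : Multipliable fun n : ℕ => 1 - Function.Periodic.qParam 1 (σ : ℂ) ^ (n + 1) :=
    ModularForm.multipliable_one_sub_pow
      (Function.Periodic.norm_qParam_lt_one one_pos σ.im_pos)
  rw [ModularForm.discriminant_eq_q_prod, eulerFun, ← hmul.tprod_pow]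

/-! ### Unit pairs -/

lemma HasExp.eq_inv {N : ℕ} [NeZero N] {f g : ℍ → ℂ} {F F' : LaurentSeries ℂ}
    (hf : HasExp N f F) (hg : HasExp N g F') (h : ∀ τ, f τ * g τ = 1) : F' = F⁻¹ := by
  have h1 : HasExp N (f * g) (F * F') := hf.mul hg
  have h2 : f * g = fun _ => (1 : ℂ) := funext h
  rw [h2] at h1
  have h3 := HasExp.const N (1 : ℂ)
  have h4 : F * F' = 1 := by
    rw [h1.unique h3]
    exact HahnSeries.C_one
  exact eq_inv_of_mul_eq_one_right h4

lemma single_zero_mul_ofPowerSeries_C_mul_X_pow (c : ℂ) (k : ℕ) (P : PowerSeries ℂ) :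
    HahnSeries.single (-((0 : ℕ) : ℤ)) (1 : ℂ) *
      HahnSeries.ofPowerSeries ℤ ℂ (PowerSeries.C c * (PowerSeries.X ^ k * P)) =
    HahnSeries.single (k : ℤ) c * HahnSeries.ofPowerSeries ℤ ℂ P := by
  rw [map_mul, map_mul, map_pow, HahnSeries.ofPowerSeries_C, HahnSeries.ofPowerSeries_X,
    HahnSeries.single_pow, one_pow]
  simp only [Nat.cast_zero, neg_zero, HahnSeries.single_zero_one, one_mul, nsmul_eq_mul, mul_one]
  rw [← mul_assoc]
  congr 1
  show HahnSeries.single 0 c * HahnSeries.single (k : ℤ) 1 = _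
  rw [HahnSeries.single_mul_single, zero_add, mul_one]

/-- `f τ = c t^k V(t)` with `V` holomorphic on the unit disc. -/
lemma hasExp_of_eq {N : ℕ} {f : ℍ → ℂ} {c : ℂ} {k : ℕ} {V : ℂ → ℂ}
    (hV : DifferentiableOn ℂ V (Metric.ball 0 1))
    (hf : ∀ τ, f τ = c * tpar N τ ^ k * V (tpar N τ)) :
    HasExp N f (HahnSeries.single (k : ℤ) c * HahnSeries.ofPowerSeries ℤ ℂ (taylorPS V)) := by
  have hd : DifferentiableOn ℂ (fun z : ℂ => z ^ k * V z) (Metric.ball 0 1) :=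
    (differentiableOn_id.pow k).mul hV
  refine ⟨0, fun z => c * (z ^ k * V z), hd.const_mul c, ?_, ?_⟩
  · intro τ
    rw [hf τ]
    ring
  · rw [taylorPS_const_mul hd, taylorPS_X_pow_mul hV, single_zero_mul_ofPowerSeries_C_mul_X_pow]

lemma hasExp_inv_of_eq {N : ℕ} [NeZero N] {f : ℍ → ℂ} {c : ℂ} (hc : c ≠ 0) {k : ℕ} {V : ℂ → ℂ}
    (hV : DifferentiableOn ℂ V (Metric.ball 0 1)) (hV0 : ∀ z ∈ Metric.ball (0 : ℂ) 1, V z ≠ 0)
    (hf : ∀ τ, f τ = c * tpar N τ ^ k * V (tpar N τ)) :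
    ∃ F', HasExp N (fun τ => (f τ)⁻¹) F' := by
  refine ⟨_, k, fun z => c⁻¹ * (V z)⁻¹, (hV.inv hV0).const_mul _, fun τ => ?_, rfl⟩
  have h1 := hV0 _ (tpar_mem_ball N τ)
  have h2 := tpar_ne_zero N τ
  simp only [hf τ]
  field_simp

/-- A pair (nowhere vanishing function, expansion) whose inverse also has an expansion. -/
def UnitPair (N : ℕ) (f : ℍ → ℂ) (F : LaurentSeries ℂ) : Prop :=
  HasExp N f F ∧ HasExp N (fun τ => (f τ)⁻¹) F⁻¹ ∧ ∀ τ, f τ ≠ 0

lemma unitPair_of_eq {N : ℕ} [NeZero N] {f : ℍ → ℂ} {c : ℂ} (hc : c ≠ 0) {k : ℕ} {V : ℂ → ℂ}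
    (hV : DifferentiableOn ℂ V (Metric.ball 0 1)) (hV0 : ∀ z ∈ Metric.ball (0 : ℂ) 1, V z ≠ 0)
    (hf : ∀ τ, f τ = c * tpar N τ ^ k * V (tpar N τ)) :
    UnitPair N f (HahnSeries.single (k : ℤ) c * HahnSeries.ofPowerSeries ℤ ℂ (taylorPS V)) := by
  have hne : ∀ τ, f τ ≠ 0 := fun τ => by
    rw [hf τ]
    exact mul_ne_zero (mul_ne_zero hc (pow_ne_zero _ (tpar_ne_zero N τ)))
      (hV0 _ (tpar_mem_ball N τ))
  have h1 := hasExp_of_eq hV hf
  obtain ⟨F', hF'⟩ := hasExp_inv_of_eq hc hV hV0 hf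
  have h2 : F' = _ := HasExp.eq_inv h1 hF' (fun τ => mul_inv_cancel₀ (hne τ))
  exact ⟨h1, h2 ▸ hF', hne⟩

lemma UnitPair.mul {N : ℕ} {f g : ℍ → ℂ} {F F' : LaurentSeries ℂ} (h : UnitPair N f F)
    (h' : UnitPair N g F') : UnitPair N (fun τ => f τ * g τ) (F * F') := by
  refine ⟨h.1.mul h'.1, ?_, fun τ => mul_ne_zero (h.2.2 τ) (h'.2.2 τ)⟩
  have := h.2.1.mul h'.2.1
  rw [mul_inv]
  convert this using 1
  funext τ
  simp [mul_comm]

lemma UnitPair.inv {N : ℕ} {f : ℍ → ℂ} {F : LaurentSeries ℂ} (h : UnitPair N f F) :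
    UnitPair N (fun τ => (f τ)⁻¹) F⁻¹ := by
  refine ⟨h.2.1, ?_, fun τ => inv_ne_zero (h.2.2 τ)⟩
  simpa using h.1

lemma UnitPair.const (N : ℕ) {c : ℂ} (hc : c ≠ 0) : UnitPair N (fun _ => c) (HahnSeries.C c) := by
  refine ⟨HasExp.const N c, ?_, fun _ => hc⟩
  rw [← map_inv₀]
  exact HasExp.const N c⁻¹

lemma UnitPair.one (N : ℕ) : UnitPair N (fun _ => 1) 1 := by
  have := UnitPair.const N (one_ne_zero (α := ℂ))
  rwa [HahnSeries.C_one] at this

lemma UnitPair.pow {N : ℕ} {f : ℍ → ℂ} {F : LaurentSeries ℂ} (h : UnitPair N f F) (n : ℕ) :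
    UnitPair N (fun τ => f τ ^ n) (F ^ n) := by
  induction n with
  | zero => simpa using UnitPair.one N
  | succ n ih => simpa [pow_succ] using ih.mul h

lemma UnitPair.zpow {N : ℕ} {f : ℍ → ℂ} {F : LaurentSeries ℂ} (h : UnitPair N f F) (r : ℤ) :
    UnitPair N (fun τ => f τ ^ r) (F ^ r) := by
  cases r with
  | ofNat n => simpa using h.pow n
  | negSucc n => simpa [zpow_negSucc] using (h.pow (n + 1)).inv

lemma UnitPair.prod {N : ℕ} {ι : Type*} (s : Finset ι) (f : ι → ℍ → ℂ) (F : ι → LaurentSeries ℂ)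
    (h : ∀ i ∈ s, UnitPair N (f i) (F i)) :
    UnitPair N (fun τ => ∏ i ∈ s, f i τ) (∏ i ∈ s, F i) := by
  classical
  induction s using Finset.induction_on with
  | empty => simpa using UnitPair.one N
  | insert i s hi ih =>
    have h1 := (h i (Finset.mem_insert_self i s)).mul
      (ih fun j hj => h j (Finset.mem_insert_of_mem hj))
    simpa [Finset.prod_insert hi] using h1

/-! ### Unit Laurent series with coefficients in a subring -/

/-- `F = c t^K (1 + ...)` with all coefficients in the subring `O` and `c` a unit of `O`. -/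
def OUnitLS (O : Subring ℂ) (K : ℤ) (c : ℂ) (F : LaurentSeries ℂ) : Prop :=
  c ∈ O ∧ c⁻¹ ∈ O ∧ c ≠ 0 ∧ ∃ P : PowerSeries ℂ, PowerSeries.constantCoeff P = 1 ∧
    (∀ n, PowerSeries.coeff n P ∈ O) ∧
    F = HahnSeries.single K c * HahnSeries.ofPowerSeries ℤ ℂ P

lemma OUnitLS.one (O : Subring ℂ) : OUnitLS O 0 1 1 := by
  refine ⟨O.one_mem, by simp, one_ne_zero, 1, by simp, fun n => ?_, by simp⟩
  rw [PowerSeries.coeff_one]
  split_ifs
  · exact O.one_mem
  · exact O.zero_mem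

lemma OUnitLS.mul {O : Subring ℂ} {K K' : ℤ} {c c' : ℂ} {F F' : LaurentSeries ℂ}
    (h : OUnitLS O K c F) (h' : OUnitLS O K' c' F') : OUnitLS O (K + K') (c * c') (F * F') := by
  obtain ⟨hc, hci, hc0, P, hP0, hP, rfl⟩ := h
  obtain ⟨hc', hci', hc0', P', hP0', hP', rfl⟩ := h'
  refine ⟨O.mul_mem hc hc', ?_, mul_ne_zero hc0 hc0', P * P', by simp [hP0, hP0'], fun n => ?_, ?_⟩
  · rw [mul_inv]
    exact O.mul_mem hci hci'
  · rw [PowerSeries.coeff_mul]
    exact O.sum_mem fun x _ => O.mul_mem (hP _) (hP' _)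
  · rw [mul_mul_mul_comm, HahnSeries.single_mul_single, (HahnSeries.ofPowerSeries ℤ ℂ).map_mul]

lemma OUnitLS.inv {O : Subring ℂ} {K : ℤ} {c : ℂ} {F : LaurentSeries ℂ}
    (h : OUnitLS O K c F) : OUnitLS O (-K) c⁻¹ F⁻¹ := by
  obtain ⟨hc, hci, hc0, P, hP0, hP, rfl⟩ := h
  -- lift `P` to a power series over `O` and invert it there
  let P₀ : PowerSeries O := PowerSeries.mk fun n => ⟨PowerSeries.coeff n P, hP n⟩
  have hP₀ : P₀.map O.subtype = P := by
    ext n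
    simp [P₀]
  have hunit : IsUnit P₀ := by
    rw [PowerSeries.isUnit_iff_constantCoeff]
    have : PowerSeries.constantCoeff P₀ = 1 := by
      apply Subtype.ext
      have := hP0
      rw [← PowerSeries.coeff_zero_eq_constantCoeff] at this ⊢
      simpa [P₀] using this
    rw [this]
    exact isUnit_one
  obtain ⟨Q₀, hQ₀⟩ := hunit.exists_right_inv
  set Q : PowerSeries ℂ := Q₀.map O.subtype with hQ
  have hPQ : P * Q = 1 := by
    rw [← hP₀, hQ, ← map_mul, hQ₀, map_one]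
  have hQ0 : PowerSeries.constantCoeff Q = 1 := by
    have := congrArg (PowerSeries.constantCoeff (R := ℂ)) hPQ
    rwa [map_mul, hP0, one_mul, map_one] at this
  refine ⟨hci, by simpa using hc, inv_ne_zero hc0, Q, hQ0, fun n => ?_, ?_⟩
  · rw [hQ, PowerSeries.coeff_map]
    exact (PowerSeries.coeff n Q₀).2
  · symm
    apply eq_inv_of_mul_eq_one_right
    rw [mul_mul_mul_comm, HahnSeries.single_mul_single, ← map_mul, hPQ, map_one, mul_one,
      add_neg_cancel, mul_inv_cancel₀ hc0]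
    rfl

lemma OUnitLS.pow {O : Subring ℂ} {K : ℤ} {c : ℂ} {F : LaurentSeries ℂ}
    (h : OUnitLS O K c F) (n : ℕ) : OUnitLS O (n * K) (c ^ n) (F ^ n) := by
  induction n with
  | zero => simpa using OUnitLS.one O
  | succ n ih =>
    have := ih.mul h
    rw [pow_succ, pow_succ]
    convert this using 1
    push_cast
    ring

lemma OUnitLS.zpow {O : Subring ℂ} {K : ℤ} {c : ℂ} {F : LaurentSeries ℂ}
    (h : OUnitLS O K c F) (r : ℤ) : OUnitLS O (r * K) (c ^ r) (F ^ r) := by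
  cases r with
  | ofNat n => simpa using h.pow n
  | negSucc n =>
    have := (h.pow (n + 1)).inv
    rw [zpow_negSucc, zpow_negSucc]
    convert this using 1
    rw [Int.negSucc_eq]
    push_cast
    ring

lemma OUnitLS.prod {O : Subring ℂ} {ι : Type*} (s : Finset ι) (K : ι → ℤ) (c : ι → ℂ)
    (F : ι → LaurentSeries ℂ) (h : ∀ i ∈ s, OUnitLS O (K i) (c i) (F i)) :
    OUnitLS O (∑ i ∈ s, K i) (∏ i ∈ s, c i) (∏ i ∈ s, F i) := by
  classical
  induction s using Finset.induction_on with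
  | empty => simpa using OUnitLS.one O
  | insert i s hi ih =>
    have h1 := (h i (Finset.mem_insert_self i s)).mul
      (ih fun j hj => h j (Finset.mem_insert_of_mem hj))
    simpa [Finset.prod_insert hi, Finset.sum_insert hi] using h1

lemma OUnitLS.const {O : Subring ℂ} {c : ℂ} (hc : c ∈ O) (hci : c⁻¹ ∈ O) (hc0 : c ≠ 0) :
    OUnitLS O 0 c (HahnSeries.C c) := by
  refine ⟨hc, hci, hc0, 1, by simp, fun n => ?_, by simp⟩
  rw [PowerSeries.coeff_one]
  split_ifs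
  · exact O.one_mem
  · exact O.zero_mem

lemma ofPowerSeries_coeff_neg (P : PowerSeries ℂ) {j : ℤ} (hj : j < 0) :
    (HahnSeries.ofPowerSeries ℤ ℂ P).coeff j = 0 :=
  ModularCurve.ofPowerSeries_coeff_of_neg P hj

lemma OUnitLS.coeff_mem {O : Subring ℂ} {K : ℤ} {c : ℂ} {F : LaurentSeries ℂ}
    (h : OUnitLS O K c F) (j : ℤ) : F.coeff j ∈ O := by
  obtain ⟨hc, -, -, P, -, hP, rfl⟩ := h
  rw [HahnSeries.coeff_single_mul]
  refine O.mul_mem hc ?_
  rcases lt_or_ge (j - K) 0 with hj | hj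
  · rw [ofPowerSeries_coeff_neg P hj]
    exact O.zero_mem
  · obtain ⟨n, hn⟩ := Int.eq_ofNat_of_zero_le hj
    rw [hn, HahnSeries.ofPowerSeries_apply_coeff]
    exact hP n

lemma OUnitLS.coeff_eq_zero {O : Subring ℂ} {K : ℤ} {c : ℂ} {F : LaurentSeries ℂ}
    (h : OUnitLS O K c F) {j : ℤ} (hj : j < K) : F.coeff j = 0 := by
  obtain ⟨-, -, -, P, -, -, rfl⟩ := h
  rw [HahnSeries.coeff_single_mul, ofPowerSeries_coeff_neg P (by omega), mul_zero]

lemma OUnitLS.coeff_self {O : Subring ℂ} {K : ℤ} {c : ℂ} {F : LaurentSeries ℂ}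
    (h : OUnitLS O K c F) : F.coeff K = c := by
  obtain ⟨-, -, -, P, hP0, -, rfl⟩ := h
  rw [HahnSeries.coeff_single_mul, sub_self]
  have : (HahnSeries.ofPowerSeries ℤ ℂ P).coeff ((0 : ℕ) : ℤ) = PowerSeries.coeff 0 P :=
    HahnSeries.ofPowerSeries_apply_coeff P 0
  rw [Nat.cast_zero] at this
  rw [this, PowerSeries.coeff_zero_eq_constantCoeff, hP0, mul_one]

/-! ### The blocks `Δ((aτ+b)/d)` -/

lemma norm_mul_pow_lt_one {ζ z : ℂ} (hζ : ‖ζ‖ ≤ 1) (hz : ‖z‖ < 1) {k : ℕ} (hk : 0 < k) :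
    ‖ζ * z ^ k‖ < 1 := by
  rw [norm_mul, norm_pow]
  have h1 : ‖z‖ ^ k ≤ ‖z‖ := by
    calc ‖z‖ ^ k ≤ ‖z‖ ^ 1 := pow_le_pow_of_le_one (norm_nonneg z) hz.le hk
      _ = ‖z‖ := pow_one _
  calc ‖ζ‖ * ‖z‖ ^ k ≤ 1 * ‖z‖ := mul_le_mul hζ h1 (by positivity) zero_le_one
    _ < 1 := by rw [one_mul]; exact hz

lemma differentiableOn_comp_monomial {H : ℂ → ℂ} (hH : DifferentiableOn ℂ H (Metric.ball 0 1))
    {ζ : ℂ} (hζ : ‖ζ‖ ≤ 1) {k : ℕ} (hk : 0 < k) :
    DifferentiableOn ℂ (fun z => H (ζ * z ^ k)) (Metric.ball 0 1) := by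
  have h1 : DifferentiableOn ℂ (fun z : ℂ => ζ * z ^ k) (Metric.ball 0 1) := by fun_prop
  refine hH.comp h1 fun z hz => ?_
  have hz' : ‖z‖ < 1 := by simpa using hz
  simpa using norm_mul_pow_lt_one hζ hz' hk

/-- `η^24` as a power series over `ℂ`. -/
def eta24C : PowerSeries ℂ := (ModularCurve.etaProd ^ 24).map (Int.castRingHom ℂ)

lemma constantCoeff_eta24C : PowerSeries.constantCoeff eta24C = 1 := by
  rw [eta24C, ← PowerSeries.coeff_zero_eq_constantCoeff, PowerSeries.coeff_map,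
    PowerSeries.coeff_zero_eq_constantCoeff, map_pow, ModularCurve.constantCoeff_etaProd]
  simp

lemma differentiableOn_eulerFun_pow : DifferentiableOn ℂ (fun z => eulerFun z ^ 24)
    (Metric.ball 0 1) := differentiableOn_eulerFun.pow 24

lemma taylorPS_eulerFun_pow : taylorPS (fun z => eulerFun z ^ 24) = eta24C := by
  have h := taylorPS_pow (differentiableOn_eulerFun.analyticAt ball_mem_nhds_zero) 24
  rw [taylorPS_eulerFun, ← map_pow] at h
  exact h

/-- The formal expansion of `Δ((aτ+b)/d)` in `t`: `ζ t^k ∏ (1 - (ζ t^k)^n)^24`. -/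
def blockSer (ζ : ℂ) (k : ℕ) : LaurentSeries ℂ :=
  HahnSeries.single (k : ℤ) ζ * HahnSeries.ofPowerSeries ℤ ℂ (subsPS ζ k eta24C)

lemma unitPair_block {N a d : ℕ} [NeZero N] (ha : 0 < a) (hd : 0 < d) (hdN : d ∣ N) (b : ℕ) :
    UnitPair N (fun τ => Δ (pt a b d τ)) (blockSer (zetaOf b d) (a * (N / d))) := by
  have hk : 0 < a * (N / d) :=
    Nat.mul_pos ha (Nat.div_pos (Nat.le_of_dvd (Nat.pos_of_ne_zero (NeZero.ne N)) hdN) hd)
  have hζ : ‖zetaOf b d‖ ≤ 1 := (norm_zetaOf b d).le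
  have hV : DifferentiableOn ℂ (fun z => eulerFun (zetaOf b d * z ^ (a * (N / d))) ^ 24)
      (Metric.ball 0 1) := differentiableOn_comp_monomial differentiableOn_eulerFun_pow hζ hk
  have hV0 : ∀ z ∈ Metric.ball (0 : ℂ) 1,
      eulerFun (zetaOf b d * z ^ (a * (N / d))) ^ 24 ≠ 0 := fun z hz =>
    pow_ne_zero _ (eulerFun_ne_zero (norm_mul_pow_lt_one hζ (by simpa using hz) hk))
  have h := unitPair_of_eq (N := N) (f := fun τ => Δ (pt a b d τ)) (zetaOf_ne_zero b d) hV hV0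
    (fun τ => by rw [discriminant_eq_eulerFun, qParam_pt ha hd hdN])
  rw [taylorPS_comp_monomial differentiableOn_eulerFun_pow hζ hk, taylorPS_eulerFun_pow] at h
  exact h

lemma oUnitLS_block (O : Subring ℂ) {ζ : ℂ} (hζ : ζ ∈ O) (hζi : ζ⁻¹ ∈ O) (hζ0 : ζ ≠ 0) (k : ℕ) :
    OUnitLS O k ζ (blockSer ζ k) := by
  refine ⟨hζ, hζi, hζ0, subsPS ζ k eta24C, ?_, fun n => ?_, rfl⟩
  · rw [constantCoeff_subsPS, constantCoeff_eta24C]
  · rw [coeff_subsPS]
    split_ifs
    · refine O.mul_mem (O.pow_mem hζ _) ?_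
      rw [eta24C, PowerSeries.coeff_map]
      exact intCast_mem O _
    · exact O.zero_mem

end

end Fermat.Agent.S28.helper1603
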