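import Mathlib
import Fermat.Prelude.Def_ModularCurve_X0
import Fermat.Prelude.Def_ModularCurve_LaurentCoeff
import Fermat.Prelude.Def_ModularCurve_JqCoeff
import Fermat.Prelude.Def_ModularCurve_X0ModL
import Fermat.Prelude.Thm_ModularCurve_coeffMap_qExpand
import Fermat.Agent.S28.helper1603_Blocks

/-!
# S28 (helper1603): expansions of the conjugates of an eta quotient, and the formal eta quotient.
-/

set_option autoImplicit false

open Filter Topology UpperHalfPlane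

namespace Fermat.Agent.S28.helper1603

open Fermat.Agent.S24.helper1644 Fermat.Agent.S28.helper407

noncomputable section

local notation "Δ" => ModularForm.discriminant

/-! ### Conjugates of the eta quotient -/

/-- Formal expansion of `∏_δ (d_δ^{-12} Δ((a_δ τ + b_δ)/d_δ))^{r_δ}` in `t = exp(2πiτ/N)`. -/
def conjSer (N : ℕ) (r : ℕ → ℤ) (a b d : ℕ → ℕ) : LaurentSeries ℂ :=
  ∏ δ ∈ N.divisors, (HahnSeries.C (((d δ : ℂ) ^ 12)⁻¹) *
    blockSer (zetaOf (b δ) (d δ)) (a δ * (N / d δ))) ^ r δ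

lemma unitPair_conj {N : ℕ} [NeZero N] (r : ℕ → ℤ) (a b d : ℕ → ℕ)
    (h : ∀ δ ∈ N.divisors, 0 < a δ ∧ 0 < d δ ∧ d δ ∣ N) :
    UnitPair N (fun τ => ∏ δ ∈ N.divisors,
      (((d δ : ℂ) ^ 12)⁻¹ * Δ (pt (a δ) (b δ) (d δ) τ)) ^ r δ) (conjSer N r a b d) := by
  refine UnitPair.prod _ (fun δ τ => (((d δ : ℂ) ^ 12)⁻¹ * Δ (pt (a δ) (b δ) (d δ) τ)) ^ r δ)
    _ fun δ hδ => ?_
  obtain ⟨ha, hd, hdN⟩ := h δ hδ
  have hc : (((d δ : ℂ) ^ 12)⁻¹) ≠ 0 :=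
    inv_ne_zero (pow_ne_zero _ (by exact_mod_cast hd.ne'))
  exact ((UnitPair.const N hc).mul (unitPair_block ha hd hdN (b δ))).zpow (r δ)

lemma zetaOf_mem {N : ℕ} (O : Subring ℂ) (hroots : ∀ z : ℂ, z ^ N = 1 → z ∈ O) {b d : ℕ}
    (hd : 0 < d) (hdN : d ∣ N) : zetaOf b d ∈ O ∧ (zetaOf b d)⁻¹ ∈ O := by
  obtain ⟨e, rfl⟩ := hdN
  have h1 : zetaOf b d ^ (d * e) = 1 := by rw [pow_mul, zetaOf_pow b d hd, one_pow]
  refine ⟨hroots _ h1, hroots _ ?_⟩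
  rw [inv_pow, h1, inv_one]

lemma natCast_inv_mem {N : ℕ} [NeZero N] (O : Subring ℂ) (hN : (N : ℂ)⁻¹ ∈ O) {d : ℕ}
    (hdN : d ∣ N) : (d : ℂ)⁻¹ ∈ O := by
  obtain ⟨e, rfl⟩ := hdN
  have hd : d ≠ 0 := fun h => by subst h; exact absurd (zero_mul e) (NeZero.ne (0 * e))
  have he : e ≠ 0 := fun h => by subst h; exact absurd (mul_zero d) (NeZero.ne (d * 0))
  have : (d : ℂ)⁻¹ = (e : ℂ) * ((d * e : ℕ) : ℂ)⁻¹ := by
    have hd' : (d : ℂ) ≠ 0 := by exact_mod_cast hd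
    have he' : (e : ℂ) ≠ 0 := by exact_mod_cast he
    push_cast
    field_simp
  rw [this]
  exact O.mul_mem (natCast_mem O e) hN

lemma oUnitLS_conj {N : ℕ} [NeZero N] (O : Subring ℂ) (hN : (N : ℂ)⁻¹ ∈ O)
    (hroots : ∀ z : ℂ, z ^ N = 1 → z ∈ O) (r : ℕ → ℤ) (a b d : ℕ → ℕ)
    (h : ∀ δ ∈ N.divisors, 0 < d δ ∧ d δ ∣ N) :
    OUnitLS O (∑ δ ∈ N.divisors, r δ * ((0 : ℤ) + ((a δ * (N / d δ) : ℕ) : ℤ)))
      (∏ δ ∈ N.divisors, ((((d δ : ℂ) ^ 12)⁻¹) * zetaOf (b δ) (d δ)) ^ r δ)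
      (conjSer N r a b d) := by
  refine OUnitLS.prod _ _ _ _ fun δ hδ => ?_
  obtain ⟨hd, hdN⟩ := h δ hδ
  have hd0 : (d δ : ℂ) ≠ 0 := by exact_mod_cast hd.ne'
  have hc : (((d δ : ℂ) ^ 12)⁻¹) ≠ 0 := inv_ne_zero (pow_ne_zero _ hd0)
  have hc1 : (((d δ : ℂ) ^ 12)⁻¹) ∈ O := by
    rw [← inv_pow]
    exact O.pow_mem (natCast_inv_mem O hN hdN) _
  have hc2 : (((d δ : ℂ) ^ 12)⁻¹)⁻¹ ∈ O := by
    rw [inv_inv]
    exact O.pow_mem (natCast_mem O _) _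
  obtain ⟨hz1, hz2⟩ := zetaOf_mem O hroots (b := b δ) hd hdN
  exact ((OUnitLS.const hc1 hc2 hc).mul
    (oUnitLS_block O hz1 hz2 (zetaOf_ne_zero _ _) _)).zpow (r δ)

/-! ### The formal eta quotient over `ℤ` -/

/-- `Δ̂ = q ∏ (1 - q^n)^24` in `ℤ((q))`. -/
def deltaZ : LaurentSeries ℤ :=
  HahnSeries.single (1 : ℤ) (1 : ℤ) * HahnSeries.ofPowerSeries ℤ ℤ ModularCurve.dedekindEtaUnit

/-- Its inverse. -/
def deltaZinv : LaurentSeries ℤ :=
  HahnSeries.single (-1 : ℤ) (1 : ℤ) *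
    HahnSeries.ofPowerSeries ℤ ℤ ModularCurve.dedekindEtaUnitInv

lemma deltaZ_mul_inv : deltaZ * deltaZinv = 1 := by
  rw [deltaZ, deltaZinv, mul_mul_mul_comm, HahnSeries.single_mul_single,
    ← (HahnSeries.ofPowerSeries ℤ ℤ).map_mul, ModularCurve.dedekindEtaUnit_mul_inv, map_one]
  simp

/-- `Δ̂` as a unit of `ℤ((q))`. -/
def deltaUnit : (LaurentSeries ℤ)ˣ :=
  ⟨deltaZ, deltaZinv, deltaZ_mul_inv, by rw [mul_comm]; exact deltaZ_mul_inv⟩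

/-- `q ↦ q^δ`, total in `δ` (identity for `δ = 0`). -/
def qE (R : Type*) [CommRing R] (δ : ℕ) : LaurentSeries R →+* LaurentSeries R :=
  if h : δ = 0 then RingHom.id _ else @ModularCurve.qExpand R _ δ ⟨h⟩

lemma qE_eq (R : Type*) [CommRing R] (δ : ℕ) [NeZero δ] : qE R δ = ModularCurve.qExpand R δ := by
  unfold qE
  rw [dif_neg (NeZero.ne δ)]

/-- The formal eta quotient `∏_{δ ∣ N} Δ̂(q^δ)^{r δ}` as a unit of `ℤ((q))`. -/
def etaW (N : ℕ) (r : ℕ → ℤ) : (LaurentSeries ℤ)ˣ :=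
  ∏ δ ∈ N.divisors,
    (Units.map (qE ℤ δ : LaurentSeries ℤ →* LaurentSeries ℤ) deltaUnit) ^ r δ

/-- The embedding `ℤ((q)) → ℂ((t))`, `q ↦ t^N`. -/
def toT (N : ℕ) [NeZero N] : LaurentSeries ℤ →+* LaurentSeries ℂ :=
  (ModularCurve.qExpand ℂ N).comp (ModularCurve.coeffMap (Int.castRingHom ℂ))

lemma toT_apply (N : ℕ) [NeZero N] (x : LaurentSeries ℤ) :
    toT N x = ModularCurve.qExpand ℂ N (ModularCurve.coeffMap (Int.castRingHom ℂ) x) := rfl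

lemma toT_coeff_mul (N : ℕ) [NeZero N] (x : LaurentSeries ℤ) (j : ℤ) :
    (toT N x).coeff ((N : ℤ) * j) = ((x.coeff j : ℤ) : ℂ) := by
  rw [toT_apply, ModularCurve.qExpand_coeff_mul, ModularCurve.coeffMap_coeff]
  rfl

lemma map_units_prod_zpow {A K : Type*} [CommRing A] [Field K] (φ : A →+* K) {ι : Type*}
    (s : Finset ι) (u : ι → Aˣ) (r : ι → ℤ) :
    φ ((∏ i ∈ s, u i ^ r i : Aˣ) : A) = ∏ i ∈ s, (φ (u i : A)) ^ r i := by
  have h1 : φ ((∏ i ∈ s, u i ^ r i : Aˣ) : A) =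
      ((Units.map (φ : A →* K) (∏ i ∈ s, u i ^ r i) : Kˣ) : K) := rfl
  rw [h1, map_prod, Units.coe_prod]
  refine Finset.prod_congr rfl fun i _ => ?_
  rw [map_zpow, Units.val_zpow_eq_zpow_val]
  rfl

lemma qExpand_ofPowerSeries (M : ℕ) [NeZero M] (Q : PowerSeries ℂ) :
    ModularCurve.qExpand ℂ M (HahnSeries.ofPowerSeries ℤ ℂ Q) =
      HahnSeries.ofPowerSeries ℤ ℂ (subsPS 1 M Q) := by
  have hM : 0 < M := Nat.pos_of_ne_zero (NeZero.ne M)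
  ext j
  by_cases hdvd : (M : ℤ) ∣ j
  · obtain ⟨m, rfl⟩ := hdvd
    rw [ModularCurve.qExpand_coeff_mul]
    rcases lt_or_ge m 0 with hm | hm
    · rw [ofPowerSeries_coeff_neg _ hm, ofPowerSeries_coeff_neg]
      have : (0 : ℤ) < M := by exact_mod_cast hM
      nlinarith
    · obtain ⟨n, rfl⟩ := Int.eq_ofNat_of_zero_le hm
      rw [HahnSeries.ofPowerSeries_apply_coeff]
      have : (M : ℤ) * (n : ℤ) = ((M * n : ℕ) : ℤ) := by push_cast; ring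
      rw [this, HahnSeries.ofPowerSeries_apply_coeff, coeff_subsPS, if_pos (dvd_mul_right M n),
        Nat.mul_div_cancel_left n hM, one_pow, one_mul]
  · rw [ModularCurve.qExpand_coeff_of_not_dvd M _ hdvd]
    rcases lt_or_ge j 0 with hj | hj
    · rw [ofPowerSeries_coeff_neg _ hj]
    · obtain ⟨n, rfl⟩ := Int.eq_ofNat_of_zero_le hj
      rw [HahnSeries.ofPowerSeries_apply_coeff, coeff_subsPS, if_neg]
      intro h
      exact hdvd (Int.natCast_dvd_natCast.mpr h)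

lemma coeffMap_deltaZ : ModularCurve.coeffMap (Int.castRingHom ℂ) deltaZ =
    HahnSeries.single (1 : ℤ) (1 : ℂ) * HahnSeries.ofPowerSeries ℤ ℂ eta24C := by
  rw [deltaZ, map_mul, ModularCurve.coeffMap_single, ModularCurve.coeffMap_ofPowerSeries, map_one]
  rfl

lemma toT_qE_deltaZ (N : ℕ) [NeZero N] (δ : ℕ) (hδ : δ ≠ 0) :
    toT N (qE ℤ δ deltaZ) = blockSer 1 (δ * N) := by
  have : NeZero δ := ⟨hδ⟩
  have : NeZero (N * δ) := ⟨Nat.mul_ne_zero (NeZero.ne N) hδ⟩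
  rw [qE_eq, toT_apply, ModularCurve.coeffMap_qExpand, ModularCurve.qExpand_qExpand,
    coeffMap_deltaZ, map_mul, ModularCurve.qExpand_single, qExpand_ofPowerSeries, blockSer]
  have h1 : ((N * δ : ℕ) : ℤ) * 1 = ((δ * N : ℕ) : ℤ) := by push_cast; ring
  rw [h1, mul_comm N δ]

lemma toT_etaW (N : ℕ) [NeZero N] (r : ℕ → ℤ) :
    toT N (etaW N r : LaurentSeries ℤ) = ∏ δ ∈ N.divisors, blockSer 1 (δ * N) ^ r δ := by
  rw [etaW, map_units_prod_zpow]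
  refine Finset.prod_congr rfl fun δ hδ => ?_
  have hδ0 : δ ≠ 0 := (Nat.pos_of_mem_divisors hδ).ne'
  congr 1
  exact toT_qE_deltaZ N δ hδ0

/-! ### Expansions of the eta quotient and of its conjugates -/

lemma unitPair_etaQuot (N : ℕ) [NeZero N] (r : ℕ → ℤ) :
    UnitPair N (etaQuot N r) (toT N (etaW N r : LaurentSeries ℤ)) := by
  rw [toT_etaW]
  refine UnitPair.prod _ (fun δ τ => Δ (pt δ 0 1 τ) ^ r δ) _ fun δ hδ => ?_
  have h := (unitPair_block (N := N) (a := δ) (d := 1) (Nat.pos_of_mem_divisors hδ) one_pos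
    (one_dvd N) 0).zpow (r δ)
  rwa [zetaOf_zero_one, Nat.div_one] at h

lemma oUnitLS_etaQuot (N : ℕ) [NeZero N] (r : ℕ → ℤ) (O : Subring ℂ) :
    OUnitLS O ((N : ℤ) * ∑ δ ∈ N.divisors, r δ * (δ : ℤ)) 1 (toT N (etaW N r : LaurentSeries ℤ)) := by
  rw [toT_etaW]
  have h := OUnitLS.prod (O := O) N.divisors (fun δ => r δ * ((δ * N : ℕ) : ℤ)) (fun δ => 1 ^ r δ)
    (fun δ => blockSer 1 (δ * N) ^ r δ) (fun δ _ =>
      (oUnitLS_block O O.one_mem (by simp) one_ne_zero (δ * N)).zpow (r δ))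
  convert h using 1
  · rw [Finset.mul_sum]
    refine Finset.sum_congr rfl fun δ _ => ?_
    push_cast
    ring
  · simp

/-- Coefficients of the formal eta quotient: order `∑ r δ · δ`, leading coefficient `1`. -/
lemma etaW_coeff (N : ℕ) [NeZero N] (r : ℕ → ℤ) :
    (etaW N r : LaurentSeries ℤ).coeff (∑ δ ∈ N.divisors, r δ * (δ : ℤ)) = 1 ∧
      ∀ k < ∑ δ ∈ N.divisors, r δ * (δ : ℤ), (etaW N r : LaurentSeries ℤ).coeff k = 0 := by
  have hN : (0 : ℤ) < N := by exact_mod_cast Nat.pos_of_ne_zero (NeZero.ne N)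
  have h := oUnitLS_etaQuot N r ⊤
  refine ⟨?_, fun k hk => ?_⟩
  · have h1 := h.coeff_self
    rw [toT_coeff_mul] at h1
    exact_mod_cast h1
  · have h1 := h.coeff_eq_zero (j := (N : ℤ) * k) (mul_lt_mul_of_pos_left hk hN)
    rw [toT_coeff_mul] at h1
    exact_mod_cast h1

lemma exists_exp_conj {N : ℕ} [NeZero N] (r : ℕ → ℤ) (hr : ∑ δ ∈ N.divisors, r δ = 0)
    (g : Matrix.SpecialLinearGroup (Fin 2) ℤ) :
    ∃ E : LaurentSeries ℂ, HasExp N (fun τ => etaQuot N r (g • τ)) E ∧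
      ∀ O : Subring ℂ, (N : ℂ)⁻¹ ∈ O → (∀ z : ℂ, z ^ N = 1 → z ∈ O) →
        ∃ c : ℂ, OUnitLS O (∑ δ ∈ N.divisors, r δ *
          (((Nat.gcd δ (g 1 0).natAbs : ℕ) : ℤ) ^ 2 * ((N / δ : ℕ) : ℤ))) c E := by
  obtain ⟨a, b, d, habd, hτ⟩ := etaQuot_smul N r hr g
  have hdata : ∀ δ ∈ N.divisors, 0 < a δ ∧ 0 < d δ ∧ d δ ∣ N := by
    intro δ hδ
    obtain ⟨h1, h2, -⟩ := habd δ hδ
    have hδpos : 0 < δ := Nat.pos_of_mem_divisors hδ
    have ha : 0 < a δ := by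
      rw [h1]
      exact Nat.gcd_pos_of_pos_left _ hδpos
    have hd : 0 < d δ := by
      rcases Nat.eq_zero_or_pos (d δ) with h | h
      · rw [h, mul_zero] at h2
        omega
      · exact h
    exact ⟨ha, hd, (Dvd.intro_left _ h2).trans (Nat.dvd_of_mem_divisors hδ)⟩
  refine ⟨conjSer N r a b d, ?_, fun O hN hroots =>
    ⟨∏ δ ∈ N.divisors, ((((d δ : ℂ) ^ 12)⁻¹) * zetaOf (b δ) (d δ)) ^ r δ, ?_⟩⟩
  · have h := (unitPair_conj r a b d hdata).1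
    convert h using 1
    funext τ
    exact hτ τ
  · have h := oUnitLS_conj O hN hroots r a b d (fun δ hδ => (hdata δ hδ).2)
    convert h using 1
    refine Finset.sum_congr rfl fun δ hδ => ?_
    obtain ⟨h1, h2, -⟩ := habd δ hδ
    obtain ⟨-, hd, -⟩ := hdata δ hδ
    have hδpos : 0 < δ := Nat.pos_of_mem_divisors hδ
    obtain ⟨m, hm⟩ := Nat.dvd_of_mem_divisors hδ
    have e1 : N / δ = m := by rw [hm, Nat.mul_div_cancel_left m hδpos]
    have e2 : N / d δ = a δ * m := by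
      have hN' : N = d δ * (a δ * m) := by
        calc N = δ * m := hm
          _ = (a δ * d δ) * m := by rw [h2]
          _ = d δ * (a δ * m) := by ring
      exact Nat.div_eq_of_eq_mul_right hd hN'
    rw [e1, e2, ← h1]
    push_cast
    ring

end

end Fermat.Agent.S28.helper1603
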