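import Mathlib
import Fermat.Prelude.Def_ModularCurve_X0
import Fermat.Prelude.Def_ModularCurve_LaurentCoeff
import Fermat.Prelude.Def_ModularCurve_JqCoeff
import Fermat.Prelude.Def_ModularCurve_X0ModL
import Fermat.Agent.S24.helper812_PolyInJ
import Fermat.Agent.S28.helper2788_CosetPoly
import Fermat.Agent.S28.helper388_EtaExp
import Fermat.Agent.S28.helper1603_EtaConj

/-!
# S28 (helper1603): the analytic factorisation of the coset polynomial of an eta quotient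
over `ℂ((t))`, `t = q^(1/N)`.
-/

set_option autoImplicit false

open Filter Topology UpperHalfPlane

namespace Fermat.Agent.S28.helper1603

open Fermat.Agent.S24.helper1644 Fermat.Agent.S28.helper407
open Fermat.Agent.Lib.helper843 (jInv)
open Polynomial MatrixGroups CongruenceSubgroup

noncomputable section

local notation "Δ" => ModularForm.discriminant

lemma algebraMap_eq_C (c : ℂ) : algebraMap ℂ (LaurentSeries ℂ) c = HahnSeries.C c := by
  rw [HahnSeries.algebraMap_apply']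
  simp

lemma hasExp_aeval {N : ℕ} {f : ℍ → ℂ} {F : LaurentSeries ℂ} (hf : HasExp N f F)
    (P : Polynomial ℂ) : HasExp N (fun τ => P.eval (f τ)) (Polynomial.aeval F P) := by
  induction P using Polynomial.induction_on with
  | C a =>
    simp only [eval_C, aeval_C]
    rw [algebraMap_eq_C]
    exact HasExp.const N a
  | add p q hp hq =>
    simp only [eval_add, map_add]
    exact hp.add hq
  | monomial n a ih =>
    have := ih.mul hf
    convert this using 1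
    · funext τ
      simp [pow_succ]
      ring
    · simp [pow_succ]
      ring

lemma jqNModC_eq (N : ℕ) [NeZero N] : ModularCurve.jqNModC ℂ N =
    HahnSeries.single (-(N : ℤ)) (1 : ℂ) * HahnSeries.ofPowerSeries ℤ ℂ
      (subsPS 1 N (ModularCurve.jNum.map (Int.castRingHom ℂ))) := by
  rw [ModularCurve.jqNModC, ModularCurve.jqModC, map_mul, ModularCurve.qExpand_single,
    qExpand_ofPowerSeries, mul_neg_one]

lemma hasExp_jInv (N : ℕ) [NeZero N] : HasExp N jInv (ModularCurve.jqNModC ℂ N) := by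
  have hN : 0 < N := Nat.pos_of_ne_zero (NeZero.ne N)
  have h1 : ‖(1 : ℂ)‖ ≤ 1 := by simp
  refine ⟨N, fun z => jnFun (1 * z ^ N),
    differentiableOn_comp_monomial differentiableOn_jnFun h1 hN, fun τ => ?_, ?_⟩
  · have hq : Function.Periodic.qParam 1 (τ : ℂ) = 1 * tpar N τ ^ N := by
      have := qParam_pt (N := N) (a := 1) (d := 1) one_pos one_pos (one_dvd N) 0 τ
      rwa [pt_one_zero_one, zetaOf_zero_one, Nat.div_one, Nat.one_mul] at this
    show jnFun (1 * tpar N τ ^ N) = tpar N τ ^ N * jInv τ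
    rw [← hq, jnFun_qParam, hq, one_mul]
    rfl
  · rw [taylorPS_comp_monomial differentiableOn_jnFun h1 hN, taylorPS_jnFun, jqNModC_eq]

lemma HasExp.bdd {N : ℕ} [NeZero N] {f : ℍ → ℂ} {F : LaurentSeries ℂ} (h : HasExp N f F) :
    ∃ m : ℕ, IsBoundedAtImInfty (fun τ => Δ τ ^ m * f τ) := by
  obtain ⟨m, C, A, hg⟩ := h.growth
  exact ⟨m, Fermat.Agent.S24.helper812.isBoundedAtImInfty_discriminant_pow_mul f m C A hg⟩

open scoped Manifold in
/-- **Coset factorisation.** Let `f` be `Γ₀(N)`-invariant such that every translate `f ∘ g`,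
`g ∈ SL(2,ℤ)`, has an expansion `E g` in `t = exp(2πiτ/N)`.  Then there is a monic
`χ ∈ ℂ[Y][X]` of degree `[SL(2,ℤ) : Γ₀(N)]` with `χ(j(t^N), X) = ∏_x (X - E (x⁻¹))` in
`ℂ((t))[X]`. -/
theorem coset_factorisation (N : ℕ) [NeZero N] [Fintype (SL(2, ℤ) ⧸ Gamma0 N)] (f : ℍ → ℂ)
    (hinv : ∀ g ∈ Gamma0 N, ∀ τ : ℍ, f (g • τ) = f τ)
    (E : SL(2, ℤ) → LaurentSeries ℂ) (hE : ∀ g : SL(2, ℤ), HasExp N (fun τ => f (g • τ)) (E g)) :
    ∃ χ : Polynomial (Polynomial ℂ), χ.Monic ∧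
      χ.natDegree = Fintype.card (SL(2, ℤ) ⧸ Gamma0 N) ∧
      χ.map (Polynomial.aeval (ModularCurve.jqNModC ℂ N)).toRingHom =
        ∏ x : SL(2, ℤ) ⧸ Gamma0 N, (X - C (E (Quotient.out x : SL(2, ℤ))⁻¹)) := by
  classical
  have hf : MDiff f := by
    have := (hE 1).mdiff
    simpa using this
  obtain ⟨P, hP⟩ := Fermat.Agent.S28.helper2788.exists_poly_of_invariant (Gamma0 N) f hf hinv
    (fun γ => (hE γ).bdd)
  set n' := Fintype.card (SL(2, ℤ) ⧸ Gamma0 N) with hn'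
  -- the pairs (conjugate function, its expansion)
  let S : Subring ((ℍ → ℂ) × LaurentSeries ℂ) := (expAlg N).toSubring
  let s : SL(2, ℤ) ⧸ Gamma0 N → S := fun x =>
    ⟨(fun τ => f ((Quotient.out x : SL(2, ℤ))⁻¹ • τ), E (Quotient.out x : SL(2, ℤ))⁻¹), hE _⟩
  let Pol : Polynomial S := ∏ x : SL(2, ℤ) ⧸ Gamma0 N, ((X : Polynomial S) - C (s x))
  let ψ₂ : S →+* LaurentSeries ℂ :=
    (RingHom.snd (ℍ → ℂ) (LaurentSeries ℂ)).comp S.subtype
  let ψ₁ : ℍ → (S →+* ℂ) := fun τ =>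
    (Pi.evalRingHom (fun _ : ℍ => ℂ) τ).comp
      ((RingHom.fst (ℍ → ℂ) (LaurentSeries ℂ)).comp S.subtype)
  set Q : Polynomial (LaurentSeries ℂ) :=
    ∏ x : SL(2, ℤ) ⧸ Gamma0 N, (X - C (E (Quotient.out x : SL(2, ℤ))⁻¹)) with hQ
  have h₂ : Pol.map ψ₂ = Q := by
    simp only [Pol, Polynomial.map_prod, Polynomial.map_sub, Polynomial.map_X, Polynomial.map_C]
    rfl
  have h₁ : ∀ τ, Pol.map (ψ₁ τ) =
      ∏ x : SL(2, ℤ) ⧸ Gamma0 N, (X - C (f ((Quotient.out x : SL(2, ℤ))⁻¹ • τ))) := by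
    intro τ
    simp only [Pol, Polynomial.map_prod, Polynomial.map_sub, Polynomial.map_X, Polynomial.map_C]
    rfl
  have hQmonic : Q.Monic := Polynomial.monic_prod_X_sub_C _ _
  have hQdeg : Q.natDegree = n' := by
    rw [hQ, Polynomial.natDegree_finsetProd_X_sub_C_eq_card]
    rfl
  have key : ∀ k ∈ Finset.range n', Polynomial.aeval (ModularCurve.jqNModC ℂ N) (P k) =
      Q.coeff k := by
    intro k hk
    have hc : HasExp N ((Pol.coeff k : S) : (ℍ → ℂ) × LaurentSeries ℂ).1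
        ((Pol.coeff k : S) : (ℍ → ℂ) × LaurentSeries ℂ).2 := (Pol.coeff k).2
    have e2 : ((Pol.coeff k : S) : (ℍ → ℂ) × LaurentSeries ℂ).2 = Q.coeff k := by
      rw [← h₂, Polynomial.coeff_map]
      rfl
    have e1 : ((Pol.coeff k : S) : (ℍ → ℂ) × LaurentSeries ℂ).1 =
        fun τ => (P k).eval (jInv τ) := by
      funext τ
      have h3 : ((Pol.coeff k : S) : (ℍ → ℂ) × LaurentSeries ℂ).1 τ =
          (Pol.map (ψ₁ τ)).coeff k := by
        rw [Polynomial.coeff_map]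
        rfl
      rw [h3, h₁ τ, hP τ]
      have hkn : k < n' := Finset.mem_range.mp hk
      simp only [Polynomial.coeff_add, Polynomial.coeff_X_pow, Polynomial.finsetSum_coeff,
        Polynomial.coeff_C_mul, hkn.ne, if_false, zero_add, mul_ite, mul_one, mul_zero]
      rw [Finset.sum_ite_eq (Finset.range n') k, if_pos hk]
    rw [e1, e2] at hc
    exact (hasExp_aeval (hasExp_jInv N) (P k)).unique hc
  have hdeg : (∑ k ∈ Finset.range n', C (P k) * X ^ k : Polynomial (Polynomial ℂ)).degree < n' := by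
    rw [Finset.sum_range]
    exact Polynomial.degree_sum_fin_lt _
  have hnat : (X ^ n' + ∑ k ∈ Finset.range n', C (P k) * X ^ k :
      Polynomial (Polynomial ℂ)).natDegree = n' := by
    rw [Polynomial.natDegree_add_eq_left_of_degree_lt
      (by rw [Polynomial.degree_X_pow]; exact hdeg), Polynomial.natDegree_X_pow]
  refine ⟨X ^ n' + ∑ k ∈ Finset.range n', C (P k) * X ^ k, Polynomial.monic_X_pow_add hdeg,
    hnat, ?_⟩
  rw [hQmonic.as_sum, hQdeg]
  rw [Polynomial.map_add, Polynomial.map_pow, Polynomial.map_X, Polynomial.map_sum]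
  refine congrArg (fun z => X ^ n' + z) (Finset.sum_congr rfl fun k hk => ?_)
  rw [Polynomial.map_mul, Polynomial.map_pow, Polynomial.map_X, Polynomial.map_C, ← key k hk]
  rfl

/-- **Analytic factorisation for an eta quotient.**  Let `r : ℕ → ℤ` with `∑_{δ ∣ N} r δ = 0`
be such that the orders `N ∑ r δ gcd(δ,c)²/δ` at the cusps `c` not equivalent to `∞` are
positive.  For the formal eta quotient `W = ∏_{δ ∣ N} Δ̂(q^δ)^{r δ} ∈ ℤ((q))` there is a monic
`χ ∈ ℂ[Y][X]` of degree `n + 1 = [SL(2,ℤ) : Γ₀(N)]` with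
`χ(j(t^N), X) = ∏_{i ≤ n} (X - U i)` in `ℂ((t))[X]`, `U 0 = W(t^N)`, all `U i` with coefficients
in `ℤ[ζ_N, 1/N]`, and `U i` (`i ≠ 0`) of positive order with unit leading coefficient. -/
theorem eta_factorisation (N : ℕ) [NeZero N] (r : ℕ → ℤ) (hr : ∑ δ ∈ N.divisors, r δ = 0)
    (hpos : ∀ c : ℕ, ¬ N ∣ c →
      0 < ∑ δ ∈ N.divisors, r δ * (((Nat.gcd δ c : ℕ) : ℤ) ^ 2 * ((N / δ : ℕ) : ℤ))) :
    ∃ (n : ℕ) (χ : Polynomial (Polynomial ℂ)) (U : Fin (n + 1) → LaurentSeries ℂ),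
      n + 1 = (Gamma0 N).index ∧ χ.Monic ∧ χ.natDegree = n + 1 ∧
      χ.map (Polynomial.aeval (ModularCurve.jqNModC ℂ N)).toRingHom = ∏ i, (X - C (U i)) ∧
      U 0 = ModularCurve.qExpand ℂ N
        (ModularCurve.coeffMap (Int.castRingHom ℂ) (etaW N r : LaurentSeries ℤ)) ∧
      ∀ O : Subring ℂ, (N : ℂ)⁻¹ ∈ O → (∀ z : ℂ, z ^ N = 1 → z ∈ O) →
        (∀ i k, (U i).coeff k ∈ O) ∧
        ∀ i, i ≠ 0 → ∃ k : ℤ, 0 < k ∧ (∀ k' < k, (U i).coeff k' = 0) ∧
          ∃ v ∈ O, (U i).coeff k * v = 1 := by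
  classical
  have : Fintype (SL(2, ℤ) ⧸ Gamma0 N) := Fintype.ofFinite _
  choose E hE hEO using fun g : SL(2, ℤ) => exists_exp_conj (N := N) r hr g
  have hinv : ∀ g ∈ Gamma0 N, ∀ τ : ℍ, etaQuot N r (g • τ) = etaQuot N r τ :=
    fun g hg τ => etaQuot_smul_of_mem_Gamma0 N r hr hg τ
  obtain ⟨χ, hχm, hχd, hχ⟩ := coset_factorisation N (etaQuot N r) hinv E hE
  have hcard : 0 < Fintype.card (SL(2, ℤ) ⧸ Gamma0 N) := Fintype.card_pos
  obtain ⟨n, hn⟩ : ∃ n, Fintype.card (SL(2, ℤ) ⧸ Gamma0 N) = n + 1 :=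
    ⟨Fintype.card (SL(2, ℤ) ⧸ Gamma0 N) - 1, by omega⟩
  let x₀ : SL(2, ℤ) ⧸ Gamma0 N := ((1 : SL(2, ℤ)) : SL(2, ℤ) ⧸ Gamma0 N)
  let e₀ : Fin (n + 1) ≃ SL(2, ℤ) ⧸ Gamma0 N := (Fintype.equivFinOfCardEq hn).symm
  let e : Fin (n + 1) ≃ SL(2, ℤ) ⧸ Gamma0 N := e₀.trans (Equiv.swap (e₀ 0) x₀)
  have he0 : e 0 = x₀ := by simp [e]
  refine ⟨n, χ, fun i => E (Quotient.out (e i) : SL(2, ℤ))⁻¹, ?_, hχm, by rw [hχd, hn], ?_, ?_, ?_⟩
  · rw [← hn, Subgroup.index_eq_card, Nat.card_eq_fintype_card]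
  · rw [hχ]
    exact (Equiv.prod_comp e (fun x => X - C (E (Quotient.out x : SL(2, ℤ))⁻¹))).symm
  · show E (Quotient.out (e 0) : SL(2, ℤ))⁻¹ = _
    rw [he0]
    have hmem : (Quotient.out x₀ : SL(2, ℤ))⁻¹ ∈ Gamma0 N := by
      have h1 : ((Quotient.out x₀ : SL(2, ℤ)) : SL(2, ℤ) ⧸ Gamma0 N) =
          ((1 : SL(2, ℤ)) : SL(2, ℤ) ⧸ Gamma0 N) := QuotientGroup.out_eq' x₀
      rw [QuotientGroup.eq] at h1
      simpa using h1
    have h2 : HasExp N (etaQuot N r) (E (Quotient.out x₀ : SL(2, ℤ))⁻¹) := by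
      have := hE (Quotient.out x₀ : SL(2, ℤ))⁻¹
      convert this using 1
      funext τ
      exact (hinv _ hmem τ).symm
    exact h2.unique (unitPair_etaQuot N r).1
  · intro O hN hroots
    refine ⟨fun i k => ?_, fun i hi => ?_⟩
    · obtain ⟨c, hc⟩ := hEO (Quotient.out (e i) : SL(2, ℤ))⁻¹ O hN hroots
      exact hc.coeff_mem k
    · obtain ⟨c, hc⟩ := hEO (Quotient.out (e i) : SL(2, ℤ))⁻¹ O hN hroots
      have hnot : (Quotient.out (e i) : SL(2, ℤ))⁻¹ ∉ Gamma0 N := by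
        intro hmem
        apply hi
        have h3 : e i = x₀ := by
          rw [← QuotientGroup.out_eq' (e i)]
          show ((Quotient.out (e i) : SL(2, ℤ)) : SL(2, ℤ) ⧸ Gamma0 N) =
            ((1 : SL(2, ℤ)) : SL(2, ℤ) ⧸ Gamma0 N)
          rw [QuotientGroup.eq]
          simpa using hmem
        exact e.injective (h3.trans he0.symm)
      have hdvd : ¬ N ∣ ((Quotient.out (e i) : SL(2, ℤ))⁻¹ 1 0).natAbs := by
        intro h
        apply hnot
        rw [Gamma0_mem, ZMod.intCast_zmod_eq_zero_iff_dvd]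
        exact Int.natCast_dvd.mpr h
      have hK := hpos _ hdvd
      refine ⟨_, hK, fun k' hk' => hc.coeff_eq_zero hk', c⁻¹, hc.2.1, ?_⟩
      rw [hc.coeff_self, mul_inv_cancel₀ hc.2.2.1]

lemma gamma0_one_index : (Gamma0 1).index = 1 := by
  have : Gamma0 1 = ⊤ := by
    ext A
    simp only [Gamma0_mem, Subgroup.mem_top, iff_true]
    exact Subsingleton.elim _ _
  rw [this, Subgroup.index_top]

open Fermat.Agent.S28.helper388 in
/-- **Modular input, analytic half** for helper388's eta quotient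
`u_N = ∏_{δ ∣ N} Δ(q^δ)^{etaExp N δ}`: the formal eta quotient `W ∈ ℤ((q))` has order `m`
(`m < 0` unless `N = 1`) and leading coefficient `1`, and the coset polynomial
`χ ∈ ℂ[Y][X]` (monic of degree `n + 1 = [SL(2,ℤ) : Γ₀(N)]`) factors over `ℂ((t))`, `t = q^(1/N)`,
as `χ(j(t^N), X) = ∏_{i ≤ n} (X - U i)` with `U 0 = W(t^N)` and, for `i ≠ 0`, `U i` of positive
order with unit leading coefficient; all coefficients lie in every subring of `ℂ` containing
`1/N` and the `N`-th roots of unity. -/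
theorem eta_factorisation_etaExp (N : ℕ) [NeZero N] :
    ∃ (n : ℕ) (W : LaurentSeries ℤ) (m : ℤ) (χ : Polynomial (Polynomial ℂ))
      (U : Fin (n + 1) → LaurentSeries ℂ),
      n + 1 = (Gamma0 N).index ∧
      W.coeff m = 1 ∧ (∀ k < m, W.coeff k = 0) ∧ (m < 0 ∨ n = 0) ∧
      χ.Monic ∧ χ.natDegree = n + 1 ∧
      χ.map (Polynomial.aeval (ModularCurve.jqNModC ℂ N)).toRingHom = ∏ i, (X - C (U i)) ∧
      U 0 = ModularCurve.qExpand ℂ N (ModularCurve.coeffMap (Int.castRingHom ℂ) W) ∧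
      ∀ O : Subring ℂ, (N : ℂ)⁻¹ ∈ O → (∀ z : ℂ, z ^ N = 1 → z ∈ O) →
        (∀ i k, (U i).coeff k ∈ O) ∧
        ∀ i, i ≠ 0 → ∃ k : ℤ, 0 < k ∧ (∀ k' < k, (U i).coeff k' = 0) ∧
          ∃ v ∈ O, (U i).coeff k * v = 1 := by
  have hN0 : N ≠ 0 := NeZero.ne N
  obtain ⟨n, χ, U, hn, h1, h2, h3, h4, h5⟩ := eta_factorisation N (etaExp N) (sum_etaExp hN0)
    (fun c hc => sum_etaExp_gcd_pos hN0 hc)
  obtain ⟨hW1, hW2⟩ := etaW_coeff N (etaExp N)
  refine ⟨n, (etaW N (etaExp N) : LaurentSeries ℤ), ∑ δ ∈ N.divisors, etaExp N δ * (δ : ℤ), χ, U,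
    hn, hW1, hW2, ?_, h1, h2, h3, h4, h5⟩
  rcases Nat.lt_or_ge 1 N with hN | hN
  · exact Or.inl (sum_etaExp_mul_self_neg hN)
  · right
    have hN1 : N = 1 := by
      have := Nat.pos_of_ne_zero hN0
      omega
    subst hN1
    rw [gamma0_one_index] at hn
    omega

end

end Fermat.Agent.S28.helper1603
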