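import Fermat.Statements.S28

set_option autoImplicit false
open AlgebraicGeometry CategoryTheory CategoryTheory.Limits ModularCurve ModularCurve.IgusaScheme
open TensorProduct
noncomputable section

namespace Fermat.Agent.S28.helper1828

/-- A space covered by two irreducible subsets, one of which is open, and which meet,
is irreducible. -/
theorem irreducibleSpace_of_cover_two {X : Type*} [TopologicalSpace X] {U V : Set X}
    (hUo : IsOpen U) (hU : IsIrreducible U) (hV : IsPreirreducible V)
    (hUV : (V ∩ U).Nonempty) (hcov : U ∪ V = Set.univ) : IrreducibleSpace X := by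
  have h1 : V ⊆ closure U :=
    (subset_closure_inter_of_isPreirreducible_of_isOpen hV hUo hUV).trans
      (closure_mono Set.inter_subset_right)
  have h2 : closure U = Set.univ := by
    apply Set.eq_univ_of_univ_subset
    rw [← hcov]
    exact Set.union_subset subset_closure h1
  rw [irreducibleSpace_def]
  have := hU.closure
  rwa [h2] at this

variable (N : ℕ) [NeZero N] (ℓ : ℕ) [Fact ℓ.Prime]
  (K : Type) [Field K] [Algebra ↥(GaloisRep.ratLocalizedAt ℓ) K]

/-- The base-change morphism `Spec K ⟶ Spec ℤ_(ℓ)`. -/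
abbrev toBaseK : Spec (CommRingCat.of K) ⟶ Spec (CommRingCat.of ↥(GaloisRep.ratLocalizedAt ℓ)) :=
  Spec.map (CommRingCat.ofHom (algebraMap ↥(GaloisRep.ratLocalizedAt ℓ) K))

/-- The base change of the Igusa scheme to `K`. -/
abbrev PK : Scheme.{0} := pullback (igusaTo N ℓ) (toBaseK ℓ K)

/-- The base change of the finite chart to `K`. -/
abbrev PFin : Scheme.{0} :=
  pullback (Spec.map (CommRingCat.ofHom (algebraMap ↥(GaloisRep.ratLocalizedAt ℓ) (chartAlgFin N ℓ)))) (toBaseK ℓ K)

/-- The base change of the infinite chart to `K`. -/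
abbrev PInf : Scheme.{0} :=
  pullback (Spec.map (CommRingCat.ofHom (algebraMap ↥(GaloisRep.ratLocalizedAt ℓ) (chartAlgInf N ℓ)))) (toBaseK ℓ K)

/-- The base change of the middle chart to `K`. -/
abbrev PMid : Scheme.{0} :=
  pullback (Spec.map (CommRingCat.ofHom (algebraMap ↥(GaloisRep.ratLocalizedAt ℓ) (chartAlgMid N ℓ)))) (toBaseK ℓ K)

/-- The open immersion of the base-changed finite chart. -/
def jFin : PFin N ℓ K ⟶ PK N ℓ K :=
  pullback.map _ _ _ _ (ιFin N ℓ) (𝟙 _) (𝟙 _) (by simp) (by simp)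

/-- The open immersion of the base-changed infinite chart. -/
def jInf : PInf N ℓ K ⟶ PK N ℓ K :=
  pullback.map _ _ _ _ (ιInf N ℓ) (𝟙 _) (𝟙 _) (by simp) (by simp)

instance isOpenImmersion_jFin : IsOpenImmersion (jFin N ℓ K) := by
  unfold jFin; infer_instance

instance isOpenImmersion_jInf : IsOpenImmersion (jInf N ℓ K) := by
  unfold jInf; infer_instance

theorem range_jFin :
    Set.range (jFin N ℓ K) =
      (pullback.fst (igusaTo N ℓ) (toBaseK ℓ K)) ⁻¹' Set.range (ιFin N ℓ) := by
  unfold jFin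
  rw [Scheme.Pullback.range_map]
  simp

theorem range_jInf :
    Set.range (jInf N ℓ K) =
      (pullback.fst (igusaTo N ℓ) (toBaseK ℓ K)) ⁻¹' Set.range (ιInf N ℓ) := by
  unfold jInf
  rw [Scheme.Pullback.range_map]
  simp

theorem range_jFin_union_range_jInf :
    Set.range (jFin N ℓ K) ∪ Set.range (jInf N ℓ K) = Set.univ := by
  rw [range_jFin, range_jInf, ← Set.preimage_union]
  apply Set.eq_univ_of_forall
  intro x
  exact mem_range_ιFin_or_mem_range_ιInf N ℓ _

/-- The map from the base-changed middle chart to the base-changed finite chart. -/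
def mFin : PMid N ℓ K ⟶ PFin N ℓ K :=
  pullback.map _ _ _ _ (fFin N ℓ) (𝟙 _) (𝟙 _)
    (by
      rw [Category.comp_id, ← Spec.map_comp, ← CommRingCat.ofHom_comp]
      rfl)
    (by simp)

/-- The map from the base-changed middle chart to the base-changed infinite chart. -/
def mInf : PMid N ℓ K ⟶ PInf N ℓ K :=
  pullback.map _ _ _ _ (fInf N ℓ) (𝟙 _) (𝟙 _)
    (by
      rw [Category.comp_id, ← Spec.map_comp, ← CommRingCat.ofHom_comp]
      rfl)
    (by simp)

theorem mFin_jFin_eq_mInf_jInf : mFin N ℓ K ≫ jFin N ℓ K = mInf N ℓ K ≫ jInf N ℓ K := by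
  unfold mFin jFin mInf jInf
  apply pullback.hom_ext
  · rw [Category.assoc, Category.assoc, pullback.lift_fst, pullback.lift_fst, pullback.lift_fst_assoc,
      pullback.lift_fst_assoc, Category.assoc, Category.assoc, glue_condition]
  · rw [Category.assoc, Category.assoc, pullback.lift_snd, pullback.lift_snd, pullback.lift_snd_assoc,
      pullback.lift_snd_assoc]

omit [Fact (Nat.Prime ℓ)] in
theorem isIntegral_PFin
    (hFin : IsDomain (↥(chartAlgFin N ℓ) ⊗[↥(GaloisRep.ratLocalizedAt ℓ)] K)) :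
    IsIntegral (PFin N ℓ K) := by
  have : IsDomain (CommRingCat.of (↥(chartAlgFin N ℓ) ⊗[↥(GaloisRep.ratLocalizedAt ℓ)] K)) := hFin
  exact IsIntegral.of_isIso
    (pullbackSpecIso ↥(GaloisRep.ratLocalizedAt ℓ) ↥(chartAlgFin N ℓ) K).inv

omit [Fact (Nat.Prime ℓ)] in
theorem isIntegral_PInf
    (hInf : IsDomain (↥(chartAlgInf N ℓ) ⊗[↥(GaloisRep.ratLocalizedAt ℓ)] K)) :
    IsIntegral (PInf N ℓ K) := by
  have : IsDomain (CommRingCat.of (↥(chartAlgInf N ℓ) ⊗[↥(GaloisRep.ratLocalizedAt ℓ)] K)) := hInf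
  exact IsIntegral.of_isIso
    (pullbackSpecIso ↥(GaloisRep.ratLocalizedAt ℓ) ↥(chartAlgInf N ℓ) K).inv

omit [Fact (Nat.Prime ℓ)] in
theorem nonempty_PMid
    (hMid : Nontrivial (↥(chartAlgMid N ℓ) ⊗[↥(GaloisRep.ratLocalizedAt ℓ)] K)) :
    Nonempty (PMid N ℓ K) := by
  have : Nontrivial (CommRingCat.of (↥(chartAlgMid N ℓ) ⊗[↥(GaloisRep.ratLocalizedAt ℓ)] K)) := hMid
  have h : Nonempty (Spec (CommRingCat.of
      (↥(chartAlgMid N ℓ) ⊗[↥(GaloisRep.ratLocalizedAt ℓ)] K))) := inferInstance
  obtain ⟨x⟩ := h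
  exact ⟨(pullbackSpecIso ↥(GaloisRep.ratLocalizedAt ℓ) ↥(chartAlgMid N ℓ) K).inv x⟩

/-- **Scheme-to-algebra reduction for S28.** The base change of the Igusa scheme to `K` is
integral as soon as the two chart algebras base-changed to `K` are domains and the base change
of the middle chart algebra is nontrivial. -/
theorem isIntegral_pullback_igusaTo_of_isDomain
    (hFin : IsDomain (↥(chartAlgFin N ℓ) ⊗[↥(GaloisRep.ratLocalizedAt ℓ)] K))
    (hInf : IsDomain (↥(chartAlgInf N ℓ) ⊗[↥(GaloisRep.ratLocalizedAt ℓ)] K))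
    (hMid : Nontrivial (↥(chartAlgMid N ℓ) ⊗[↥(GaloisRep.ratLocalizedAt ℓ)] K)) :
    IsIntegral (pullback (igusaTo N ℓ)
      (Spec.map (CommRingCat.ofHom (algebraMap ↥(GaloisRep.ratLocalizedAt ℓ) K)))) := by
  have hF : IsIntegral (PFin N ℓ K) := isIntegral_PFin N ℓ K hFin
  have hI : IsIntegral (PInf N ℓ K) := isIntegral_PInf N ℓ K hInf
  obtain ⟨z⟩ := nonempty_PMid N ℓ K hMid
  -- reducedness
  have hred : IsReduced (PK N ℓ K) := by
    let 𝒰 : (PK N ℓ K).OpenCover :=
      Scheme.Cover.mkOfCovers Bool (fun b => if b then PFin N ℓ K else PInf N ℓ K)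
        (fun b => match b with
          | true => jFin N ℓ K
          | false => jInf N ℓ K)
        (fun x => by
          have hx : x ∈ Set.range (jFin N ℓ K) ∪ Set.range (jInf N ℓ K) := by
            rw [range_jFin_union_range_jInf]; trivial
          rcases hx with ⟨y, hy⟩ | ⟨y, hy⟩
          · exact ⟨true, y, hy⟩
          · exact ⟨false, y, hy⟩)
        (fun b => by
          cases b
          · exact isOpenImmersion_jInf N ℓ K
          · exact isOpenImmersion_jFin N ℓ K)
    have : ∀ i, IsReduced (𝒰.X i) := by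
      intro b
      cases b
      · show IsReduced (PInf N ℓ K); infer_instance
      · show IsReduced (PFin N ℓ K); infer_instance
    exact IsReduced.of_openCover _ 𝒰
  -- irreducibility
  have hirr : IrreducibleSpace (PK N ℓ K) := by
    refine irreducibleSpace_of_cover_two (U := Set.range (jFin N ℓ K))
      (V := Set.range (jInf N ℓ K)) (jFin N ℓ K).isOpenEmbedding.isOpen_range ?_ ?_ ?_
      (range_jFin_union_range_jInf N ℓ K)
    · rw [← Set.image_univ]
      exact (IrreducibleSpace.isIrreducible_univ _).image _ (jFin N ℓ K).continuous.continuousOn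
    · rw [← Set.image_univ]
      exact ((IrreducibleSpace.isIrreducible_univ _).image _
        (jInf N ℓ K).continuous.continuousOn).isPreirreducible
    · refine ⟨(mFin N ℓ K ≫ jFin N ℓ K) z, ?_, ?_⟩
      · rw [mFin_jFin_eq_mInf_jInf]
        exact ⟨(mInf N ℓ K) z, rfl⟩
      · exact ⟨(mFin N ℓ K) z, rfl⟩
  exact isIntegral_of_irreducibleSpace_of_isReduced (PK N ℓ K)

end Fermat.Agent.S28.helper1828
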