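/-
S28 (Igusa), route P, prime level.  Author: helper1935.

The ROOT FORMULA clause of `helper328.Stmt_FormalPrime p` follows from the two integral identities
`F1 : Φ(V_p ĵ, ĵ) = 0` and `F2 : Φ(ĵ, V_p ĵ) = 0` in `ℤ((q))` (for `Φ` monic of `X`-degree `p + 1`):
push them along the substitution homomorphisms `f(q) ↦ f(c t^a)`, observe that the `p + 1`
resulting series are pairwise distinct roots of a monic polynomial of degree `p + 1` over the
field `k((t))`.
-/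
import Fermat.Agent.S28.helper328_PrimeSpec

set_option autoImplicit false

namespace Fermat.Agent.S28.helper1935

open Polynomial ModularCurve
open Fermat.Agent.S28.helper328

noncomputable section

section Subst

variable {k : Type*} [CommRing k]

/-- `f(t^a)` twisted by `c` is `f((c^a) t)` expanded: `twist c ∘ qExpand a = qExpand a ∘ twist (c^a)`. -/
theorem twist_qExpand (c : kˣ) (a : ℕ) [NeZero a] (f : LaurentSeries k) :
    twist c (qExpand k a f) = qExpand k a (twist (c ^ a) f) := by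
  ext n
  by_cases hn : (a : ℤ) ∣ n
  · obtain ⟨n', rfl⟩ := hn
    rw [twist_coeff, qExpand_coeff_mul, qExpand_coeff_mul, twist_coeff, zpow_mul, zpow_natCast]
  · rw [twist_coeff, qExpand_coeff_of_not_dvd a _ hn, qExpand_coeff_of_not_dvd a _ hn, mul_zero]

variable (k) in
/-- The substitution homomorphism `f(q) ↦ f(c t^a)` from `ℤ((q))` to `k((t))`. -/
def subst (c : kˣ) (a : ℕ) [NeZero a] : LaurentSeries ℤ →+* LaurentSeries k :=
  (qExpand k a).comp ((twist c).comp (coeffMap (Int.castRingHom k)))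

theorem subst_apply (c : kˣ) (a : ℕ) [NeZero a] (f : LaurentSeries ℤ) :
    subst k c a f = qExpand k a (twist c (coeffMap (Int.castRingHom k) f)) := rfl

theorem subst_jq (c : kˣ) (a : ℕ) [NeZero a] :
    subst k c a (jqModC ℤ) = qExpand k a (twist c (jqModC k)) := by
  rw [subst_apply, coeffMap_jqModC]

theorem subst_qExpand (c : kˣ) (a b : ℕ) [NeZero a] [NeZero b] (f : LaurentSeries ℤ) :
    subst k c a (qExpand ℤ b f) = subst k (c ^ b) (a * b) f := by
  rw [subst_apply, subst_apply, coeffMap_qExpand, twist_qExpand, qExpand_qExpand]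

theorem Jsub_eq (c : kˣ) (m : ℕ+) (a : ℕ) [NeZero a] (c' : kˣ) (hc : c' = c) (ha : a = (m : ℕ)) :
    qExpand k a (twist c' (jqModC k)) = Jsub k c m := by
  subst hc
  subst ha
  rfl

theorem Jsub_coeff_neg (c : kˣ) (m : ℕ+) :
    (Jsub k c m).coeff (-((m : ℕ) : ℤ)) = ((c⁻¹ : kˣ) : k) := by
  have h : (-((m : ℕ) : ℤ)) = ((m : ℕ) : ℤ) * (-1) := by ring
  rw [Jsub, h, qExpand_coeff_mul, twist_coeff, coeff_jqModC_neg_one, mul_one, zpow_neg_one]

theorem Jsub_coeff_of_lt (c : kˣ) (m : ℕ+) {n : ℤ} (hn : n < -1) :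
    (Jsub k c m).coeff (((m : ℕ) : ℤ) * n) = 0 := by
  rw [Jsub, qExpand_coeff_mul, twist_coeff, coeff_jqModC_of_lt k hn, mul_zero]

/-- Transport of a polynomial identity `Φ(x, J) = 0` along a ring homomorphism. -/
theorem eval_map_evalJ_hom {A B : Type*} [CommRing A] [CommRing B]
    (σ : LaurentSeries A →+* LaurentSeries B)
    (Φ : Polynomial (Polynomial ℤ)) (J x : LaurentSeries A) :
    (Φ.map (evalJ (σ J))).eval (σ x) = σ ((Φ.map (evalJ J)).eval x) := by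
  have h : evalJ (σ J) = σ.comp (evalJ J) := by
    apply Polynomial.ringHom_ext
    · intro n
      simp [evalJ]
    · simp [evalJ]
  rw [h, Polynomial.eval_map, Polynomial.eval_map, Polynomial.hom_eval₂]

end Subst

/-- **Root formula from `F1` and `F2`.**  If `Φ ∈ ℤ[Y][X]` is monic of `X`-degree `p + 1` with
`Φ(V_p ĵ, ĵ) = 0` and `Φ(ĵ, V_p ĵ) = 0` in `ℤ((q))`, then over every field `k` containing a
primitive `p`-th root of unity `ω` the polynomial `Φ(X, J(ξ^p, p m))` splits as in the root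
formula clause of `helper328.Stmt_FormalPrime`. -/
theorem rootFormula_of_F1_F2 (p : ℕ) [hp : Fact p.Prime]
    (Φ : Polynomial (Polynomial ℤ)) (hΦ : Φ.Monic) (hdeg : Φ.natDegree = p + 1)
    (hF1 : haveI : NeZero p := ⟨hp.out.ne_zero⟩
      (Φ.map (evalJ (jqModC ℤ))).eval (qExpand ℤ p (jqModC ℤ)) = 0)
    (hF2 : haveI : NeZero p := ⟨hp.out.ne_zero⟩
      (Φ.map (evalJ (qExpand ℤ p (jqModC ℤ)))).eval (jqModC ℤ) = 0) :
    ∀ (k : Type) [Field k] (ω : kˣ), IsPrimitiveRoot ω p → ∀ (ξ : kˣ) (m : ℕ+),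
      Φ.map (evalJ (Jsub k (ξ ^ p) (⟨p, hp.out.pos⟩ * m))) =
        (X - C (Jsub k (ξ ^ (p ^ 2)) (⟨p, hp.out.pos⟩ ^ 2 * m))) *
          ∏ b ∈ Finset.range p, (X - C (Jsub k (ω ^ b * ξ) m)) := by
  intro k _ ω hω ξ m
  haveI : NeZero p := ⟨hp.out.ne_zero⟩
  have hp2 : 2 ≤ p := hp.out.two_le
  set pp : ℕ+ := ⟨p, hp.out.pos⟩ with hpp
  have hppc : ((pp : ℕ+) : ℕ) = p := rfl
  set J₀ : LaurentSeries k := Jsub k (ξ ^ p) (pp * m) with hJ₀
  set rinf : LaurentSeries k := Jsub k (ξ ^ (p ^ 2)) (pp ^ 2 * m) with hrinf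
  set r : ℕ → LaurentSeries k := fun b => Jsub k (ω ^ b * ξ) m with hr
  set F : Polynomial (LaurentSeries k) := Φ.map (evalJ J₀) with hF
  have hFm : F.Monic := hΦ.map _
  have hFd : F.natDegree = p + 1 := by rw [hF, hΦ.natDegree_map, hdeg]
  have hF0 : F ≠ 0 := hFm.ne_zero
  -- the root at infinity
  have hroot_inf : F.IsRoot rinf := by
    haveI : NeZero ((pp * m : ℕ+) : ℕ) := ⟨(pp * m).ne_zero⟩
    have h := eval_map_evalJ_hom (subst k (ξ ^ p) ((pp * m : ℕ+) : ℕ)) Φ (jqModC ℤ)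
      (qExpand ℤ p (jqModC ℤ))
    rw [hF1, map_zero, subst_jq, subst_qExpand, subst_jq] at h
    have e1 : qExpand k ((pp * m : ℕ+) : ℕ) (twist (ξ ^ p) (jqModC k)) = J₀ :=
      Jsub_eq _ _ _ _ rfl rfl
    have e2 : qExpand k (((pp * m : ℕ+) : ℕ) * p) (twist ((ξ ^ p) ^ p) (jqModC k)) = rinf :=
      Jsub_eq _ _ _ _ (by rw [← pow_mul, sq]) (by
        rw [PNat.mul_coe, PNat.mul_coe, PNat.pow_coe, hppc]; ring)
    rw [e1, e2] at h
    exact h
  -- the finite roots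
  have hroot_b : ∀ b : ℕ, F.IsRoot (r b) := by
    intro b
    have h := eval_map_evalJ_hom (subst k (ω ^ b * ξ) (m : ℕ)) Φ (qExpand ℤ p (jqModC ℤ))
      (jqModC ℤ)
    rw [hF2, map_zero, subst_jq, subst_qExpand, subst_jq] at h
    have e1 : qExpand k ((m : ℕ) * p) (twist ((ω ^ b * ξ) ^ p) (jqModC k)) = J₀ :=
      Jsub_eq _ _ _ _ (by
        rw [mul_pow, ← pow_mul, mul_comm b p, pow_mul, hω.pow_eq_one, one_pow, one_mul]) (by
        rw [PNat.mul_coe, hppc]; ring)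
    have e2 : qExpand k (m : ℕ) (twist (ω ^ b * ξ) (jqModC k)) = r b := rfl
    rw [e1, e2] at h
    exact h
  -- distinctness
  have hne_inf : ∀ b : ℕ, rinf ≠ r b := by
    intro b h
    have h1 := congrArg (fun x : LaurentSeries k => x.coeff (-(((pp ^ 2 * m : ℕ+) : ℕ) : ℤ))) h
    simp only [hrinf, hr] at h1
    rw [Jsub_coeff_neg] at h1
    have h2 : (-(((pp ^ 2 * m : ℕ+) : ℕ) : ℤ)) = ((m : ℕ) : ℤ) * (-((p : ℤ) ^ 2)) := by
      rw [PNat.mul_coe, PNat.pow_coe, hppc]; push_cast; ring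
    have h3 : (-((p : ℤ) ^ 2)) < -1 := by
      have : (2 : ℤ) ≤ p := by exact_mod_cast hp2
      nlinarith
    rw [h2, Jsub_coeff_of_lt _ _ h3] at h1
    exact Units.ne_zero _ h1
  have hinj : ∀ b ∈ Finset.range p, ∀ b' ∈ Finset.range p, r b = r b' → b = b' := by
    intro b hb b' hb' h
    have h1 := congrArg (fun x : LaurentSeries k => x.coeff (-((m : ℕ) : ℤ))) h
    simp only [hr, Jsub_coeff_neg] at h1
    have h2 : (ω ^ b * ξ)⁻¹ = (ω ^ b' * ξ)⁻¹ := Units.ext h1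
    have h3 : ω ^ b = ω ^ b' := by
      have := inv_injective h2
      exact mul_right_cancel this
    exact hω.pow_inj (Finset.mem_range.mp hb) (Finset.mem_range.mp hb') h3
  classical
  have hnotmem : rinf ∉ (Finset.range p).image r := by
    intro h
    obtain ⟨b, -, hb⟩ := Finset.mem_image.mp h
    exact hne_inf b hb.symm
  set s : Finset (LaurentSeries k) := insert rinf ((Finset.range p).image r) with hs
  have hs_card : s.card = p + 1 := by
    rw [hs, Finset.card_insert_of_notMem hnotmem, Finset.card_image_of_injOn, Finset.card_range]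
    intro b hb b' hb' h
    exact hinj b (Finset.mem_coe.mp hb) b' (Finset.mem_coe.mp hb') h
  have hdvd : (∏ x ∈ s, (X - C x)) ∣ F := by
    have h := (Multiset.prod_X_sub_C_dvd_iff_le_roots hF0 s.val).mpr (by
      rw [Finset.val_le_iff_val_subset]
      intro x hx
      rw [mem_roots hF0]
      have hx' : x ∈ s := hx
      rw [hs, Finset.mem_insert, Finset.mem_image] at hx'
      rcases hx' with rfl | ⟨b, -, rfl⟩
      · exact hroot_inf
      · exact hroot_b b)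
    exact h
  have hmonic : (∏ x ∈ s, (X - C x)).Monic := monic_prod_of_monic _ _ fun x _ => monic_X_sub_C x
  have hdeg' : (∏ x ∈ s, (X - C x)).natDegree = p + 1 := by
    rw [natDegree_prod_of_monic _ _ fun x _ => monic_X_sub_C x]
    simp [hs_card]
  have hFeq : F = ∏ x ∈ s, (X - C x) :=
    eq_of_monic_of_dvd_of_natDegree_le hmonic hFm hdvd (by rw [hFd, hdeg'])
  rw [hFeq, hs, Finset.prod_insert hnotmem, Finset.prod_image hinj]

/-- `helper328.Stmt_FormalPrime p` without its root formula clause, but with the identity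
`F2 : Φ(ĵ, V_p ĵ) = 0` added.  This is equivalent to `Stmt_FormalPrime p`
(`stmt_FormalPrime_of_lite`, `lite_of_stmt_FormalPrime`). -/
def Stmt_FormalPrimeLite (p : ℕ) [hp : Fact p.Prime] : Prop :=
  haveI : NeZero p := ⟨hp.out.ne_zero⟩
  ∃ (Φ G : Polynomial (Polynomial ℤ)) (T : ℕ → Polynomial ℤ) (Ψ : Polynomial (LaurentSeries ℤ)),
    Φ.Monic ∧ Φ.natDegree = p + 1 ∧ G.Monic ∧
    (G.coeff 0 = C ((p : ℤ) ^ 12) ∨ G.coeff 0 = C (-(p : ℤ) ^ 12)) ∧
    (G.map (evalJ (jqModC ℤ))).eval (gHat p) = 0 ∧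
    Φ.map (evalJ (jqModC ℤ)) = (X - C (qExpand ℤ p (jqModC ℤ))) * Ψ ∧
    Ψ.eval (qExpand ℤ p (jqModC ℤ)) * gHat p =
      ∑ i ∈ Finset.range (p + 1), Ψ.coeff i * evalJ (jqModC ℤ) (T i) ∧
    (Φ.map (evalJ (qExpand ℤ p (jqModC ℤ)))).eval (jqModC ℤ) = 0

/-- The root formula clause is automatic: the "lite" data give `helper328.Stmt_FormalPrime p`. -/
theorem stmt_FormalPrime_of_lite (p : ℕ) [hp : Fact p.Prime] (h : Stmt_FormalPrimeLite p) :
    Stmt_FormalPrime p := by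
  haveI : NeZero p := ⟨hp.out.ne_zero⟩
  obtain ⟨Φ, G, T, Ψ, hΦ, hdeg, hG, hG0, hGg, hfac, hT, hF2⟩ := h
  refine ⟨Φ, G, T, Ψ, hΦ, hdeg, hG, hG0, hGg, hfac, hT, ?_⟩
  have hF1 : (Φ.map (evalJ (jqModC ℤ))).eval (qExpand ℤ p (jqModC ℤ)) = 0 := by
    rw [hfac, eval_mul, eval_sub, eval_X, eval_C, sub_self, zero_mul]
  exact rootFormula_of_F1_F2 p Φ hΦ hdeg hF1 hF2

section Converse

theorem twist_one {R : Type*} [CommRing R] (x : LaurentSeries R) : twist (1 : Rˣ) x = x := by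
  ext n
  rw [twist_coeff, one_zpow, Units.val_one, one_mul]

theorem coeffMap_intCast_injective (R : Type*) [CommRing R] [CharZero R] :
    Function.Injective (coeffMap (Int.castRingHom R)) := by
  intro x y h
  ext n
  have h1 := congrArg (fun z : LaurentSeries R => z.coeff n) h
  simp only [coeffMap_coeff] at h1
  exact Int.cast_injective h1

/-- `F1 : Φ(V_p ĵ, ĵ) = 0` is contained in the factorisation clause. -/
theorem F1_of_factor (p : ℕ) [NeZero p] (Φ : Polynomial (Polynomial ℤ))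
    (Ψ : Polynomial (LaurentSeries ℤ))
    (hfac : Φ.map (evalJ (jqModC ℤ)) = (X - C (qExpand ℤ p (jqModC ℤ))) * Ψ) :
    (Φ.map (evalJ (jqModC ℤ))).eval (qExpand ℤ p (jqModC ℤ)) = 0 := by
  rw [hfac, eval_mul, eval_sub, eval_X, eval_C, sub_self, zero_mul]

/-- `F2 : Φ(ĵ, V_p ĵ) = 0` follows from the root formula over `ℂ` (take `ξ = 1`, `m = 1`,
`b = 0`) and injectivity of `ℤ((q)) → ℂ((q))`. -/
theorem F2_of_rootFormula (p : ℕ) [hp : Fact p.Prime] (Φ : Polynomial (Polynomial ℤ))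
    (hroot : ∀ (k : Type) [Field k] (ω : kˣ), IsPrimitiveRoot ω p → ∀ (ξ : kˣ) (m : ℕ+),
      Φ.map (evalJ (Jsub k (ξ ^ p) (⟨p, hp.out.pos⟩ * m))) =
        (X - C (Jsub k (ξ ^ (p ^ 2)) (⟨p, hp.out.pos⟩ ^ 2 * m))) *
          ∏ b ∈ Finset.range p, (X - C (Jsub k (ω ^ b * ξ) m))) :
    haveI : NeZero p := ⟨hp.out.ne_zero⟩
    (Φ.map (evalJ (qExpand ℤ p (jqModC ℤ)))).eval (jqModC ℤ) = 0 := by
  haveI : NeZero p := ⟨hp.out.ne_zero⟩
  -- a primitive `p`-th root of unity in `ℂˣ`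
  have hζ := Complex.isPrimitiveRoot_exp p hp.out.ne_zero
  obtain ⟨ω, hω⟩ := hζ.isUnit hp.out.ne_zero
  have hω' : IsPrimitiveRoot ω p := by
    rw [← IsPrimitiveRoot.coe_units_iff, hω]
    exact hζ
  have h := hroot ℂ ω hω' 1 1
  have h0 : (Φ.map (evalJ (Jsub ℂ ((1 : ℂˣ) ^ p) (⟨p, hp.out.pos⟩ * 1)))).eval
      (Jsub ℂ (ω ^ 0 * 1) 1) = 0 := by
    rw [h, eval_mul, eval_prod,
      Finset.prod_eq_zero (Finset.mem_range.mpr hp.out.pos) (by simp), mul_zero]
  have e1 : Jsub ℂ ((1 : ℂˣ) ^ p) (⟨p, hp.out.pos⟩ * 1) =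
      coeffMap (Int.castRingHom ℂ) (qExpand ℤ p (jqModC ℤ)) := by
    rw [coeffMap_qExpand, coeffMap_jqModC, one_pow]
    have : qExpand ℂ p (jqModC ℂ) = qExpand ℂ p (twist (1 : ℂˣ) (jqModC ℂ)) := by rw [twist_one]
    rw [this]
    exact (Jsub_eq _ _ _ _ rfl (by simp)).symm
  have e2 : Jsub ℂ (ω ^ 0 * 1) 1 = coeffMap (Int.castRingHom ℂ) (jqModC ℤ) := by
    rw [coeffMap_jqModC, pow_zero, one_mul]
    have : jqModC ℂ = qExpand ℂ 1 (twist (1 : ℂˣ) (jqModC ℂ)) := by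
      rw [twist_one, qExpand_one_apply]
    conv_rhs => rw [this]
    exact (Jsub_eq _ _ _ _ rfl (by simp)).symm
  rw [e1, e2, eval_map_evalJ_hom] at h0
  exact coeffMap_intCast_injective ℂ (by rw [h0, map_zero])

/-- Conversely `helper328.Stmt_FormalPrime p` gives the "lite" data, in particular `F2`. -/
theorem lite_of_stmt_FormalPrime (p : ℕ) [hp : Fact p.Prime] (h : Stmt_FormalPrime p) :
    Stmt_FormalPrimeLite p := by
  obtain ⟨Φ, G, T, Ψ, hΦ, hdeg, hG, hG0, hGg, hfac, hT, hroot⟩ := h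
  exact ⟨Φ, G, T, Ψ, hΦ, hdeg, hG, hG0, hGg, hfac, hT, F2_of_rootFormula p Φ hroot⟩

/-- The two relations consumed by the counting tower, extracted from `Stmt_FormalPrime p`:
`Φ` monic of `X`-degree `p + 1` over `ℤ[Y]` with `Φ(V_p ĵ, ĵ) = 0 = Φ(ĵ, V_p ĵ)` in `ℤ((q))`. -/
theorem exists_F1_F2_of_stmt_FormalPrime (p : ℕ) [hp : Fact p.Prime] (h : Stmt_FormalPrime p) :
    haveI : NeZero p := ⟨hp.out.ne_zero⟩
    ∃ Φ : Polynomial (Polynomial ℤ), Φ.Monic ∧ Φ.natDegree = p + 1 ∧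
      (Φ.map (evalJ (jqModC ℤ))).eval (qExpand ℤ p (jqModC ℤ)) = 0 ∧
      (Φ.map (evalJ (qExpand ℤ p (jqModC ℤ)))).eval (jqModC ℤ) = 0 := by
  haveI : NeZero p := ⟨hp.out.ne_zero⟩
  obtain ⟨Φ, G, T, Ψ, hΦ, hdeg, hG, hG0, hGg, hfac, hT, hroot⟩ := h
  exact ⟨Φ, hΦ, hdeg, F1_of_factor p Φ Ψ hfac, F2_of_rootFormula p Φ hroot⟩

end Converse

end

end Fermat.Agent.S28.helper1935
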