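import Mathlib

/-!
# S28, route E, leaf E2: Hermite transformation of the discriminant `Δ`

For `δ > 0` and `γ = [[a,b],[c,d]] ∈ SL(2,ℤ)` write `[[δ,0],[0,1]] * γ = g * [[A,B],[0,D]]`
with `g ∈ SL(2,ℤ)`, `A = gcd(δ,c)`, `A * D = δ`, `0 ≤ B < D`. Then for all `τ ∈ ℍ`
`Δ(δ · γτ) = ((cτ + d)/D)^12 · Δ((Aτ + B)/D)`.

Main results (namespace `Fermat.Agent.S28.helper2068`):
* `discriminant_smul`     : `Δ (g • z) = (c z + d)^12 * Δ z` for `g ∈ SL(2,ℤ)`;
* `exists_hermite`        : the integer matrix decomposition;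
* `discriminant_scale_smul` : the transformation formula (points of `ℍ` via `ofComplex`).
-/

open UpperHalfPlane ModularForm MatrixGroups Complex

namespace Fermat.Agent.S28.helper2068

local notation "Δ" => ModularForm.discriminant

/-- modularity of Δ in explicit form -/
theorem discriminant_smul (g : SL(2, ℤ)) (z : ℍ) :
    Δ (g • z) = ((g 1 0 : ℂ) * z + g 1 1) ^ 12 * Δ z := by
  have h := SlashInvariantForm.slash_action_generators_SL2Z discriminant_S_invariant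
    discriminant_T_invariant g
  have h2 := congr_fun h z
  rw [SL_slash_apply] at h2
  have hd : denom (Matrix.SpecialLinearGroup.toGL
      ((Matrix.SpecialLinearGroup.map (Int.castRingHom ℝ)) g)) (z : ℂ)
      = (g 1 0 : ℂ) * z + g 1 1 := by
    simp [denom]
  have hne : ((g 1 0 : ℂ) * z + g 1 1) ≠ 0 := by
    rw [← hd]; exact denom_ne_zero _ z
  rw [hd] at h2
  have h3 : Δ (g • z) = Δ z * ((g 1 0 : ℂ) * z + g 1 1) ^ (12 : ℤ) := by
    rw [← h2, mul_assoc, ← zpow_add₀ hne]; simp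
  rw [h3, mul_comm]
  norm_cast


/-- Integer Hermite decomposition of `[[δ,0],[0,1]] * γ = g * [[A,B],[0,D]]`. -/
theorem exists_hermite (δ : ℕ) (hδ : 0 < δ) (γ : SL(2, ℤ)) :
    ∃ (A B D : ℕ) (g : SL(2, ℤ)), A * D = δ ∧ A = Nat.gcd δ (γ 1 0).natAbs ∧ B < D ∧
      (δ : ℤ) * γ 0 0 = g 0 0 * A ∧ γ 1 0 = g 1 0 * A ∧
      (δ : ℤ) * γ 0 1 = g 0 0 * B + g 0 1 * D ∧ γ 1 1 = g 1 0 * B + g 1 1 * D := by
  set a := γ 0 0 with ha
  set b := γ 0 1 with hb
  set c := γ 1 0 with hc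
  set d := γ 1 1 with hd
  have hdet : a * d - b * c = 1 := by
    have := γ.det_coe
    rw [Matrix.det_fin_two] at this
    simpa [ha, hb, hc, hd] using this
  set A := Nat.gcd δ c.natAbs with hA
  have hApos : 0 < A := Nat.gcd_pos_of_pos_left _ hδ
  obtain ⟨D, hD⟩ : A ∣ δ := Nat.gcd_dvd_left _ _
  have hDpos : 0 < D := by
    rcases Nat.eq_zero_or_pos D with h | h
    · rw [h, mul_zero] at hD; omega
    · exact h
  obtain ⟨c', hc'⟩ : (A : ℤ) ∣ c := by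
    have : A ∣ c.natAbs := Nat.gcd_dvd_right _ _
    exact Int.natCast_dvd.mpr this
  -- coprimality of D and c'
  have hcop1 : IsCoprime (D : ℤ) c' := by
    have h1 : Nat.Coprime (δ / A) (c.natAbs / A) := Nat.coprime_div_gcd_div_gcd hApos
    have h2 : δ / A = D := by rw [hD]; exact Nat.mul_div_cancel_left _ hApos
    have h3 : c.natAbs / A = c'.natAbs := by
      rw [hc', Int.natAbs_mul, Int.natAbs_natCast]; exact Nat.mul_div_cancel_left _ hApos
    rw [h2, h3] at h1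
    rw [Int.isCoprime_iff_gcd_eq_one]
    show Nat.gcd (D : ℤ).natAbs c'.natAbs = 1
    rw [Int.natAbs_natCast]; exact h1
  have hcop2 : IsCoprime a c' := by
    have h : IsCoprime a c := ⟨d, -b, by linarith⟩
    rw [hc'] at h
    exact h.of_mul_right_right
  have hcop : IsCoprime ((D : ℤ) * a) c' := hcop1.mul_left hcop2
  obtain ⟨x, y, hxy⟩ := hcop
  -- x * (D a) + y * c' = 1; take d0 = x, b0 = -y
  set B0 : ℤ := x * δ * b + y * d with hB0
  set k : ℤ := B0 / D with hk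
  set B : ℤ := B0 % D with hB
  have hDz : (D : ℤ) ≠ 0 := by exact_mod_cast hDpos.ne'
  have hBnn : 0 ≤ B := Int.emod_nonneg _ hDz
  have hBlt : B < D := Int.emod_lt_of_pos _ (by exact_mod_cast hDpos)
  have hB0eq : B0 = D * k + B := (Int.mul_ediv_add_emod B0 D).symm
  have hδz : (δ : ℤ) = A * D := by exact_mod_cast hD
  refine ⟨A, B.toNat, D, ⟨!![(D : ℤ) * a, (D : ℤ) * a * k - y; c', c' * k + x], ?_⟩, ?_, rfl, ?_, ?_, ?_, ?_, ?_⟩
  · rw [Matrix.det_fin_two_of]; linear_combination hxy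
  · exact hD.symm
  · have : (B.toNat : ℤ) < D := by rw [Int.toNat_of_nonneg hBnn]; exact hBlt
    exact_mod_cast this
  · show (δ : ℤ) * a = (D : ℤ) * a * A
    rw [hδz]; ring
  · show c = c' * A
    rw [hc']; ring
  · show (δ : ℤ) * b = (D : ℤ) * a * (B.toNat : ℤ) + ((D : ℤ) * a * k - y) * D
    rw [Int.toNat_of_nonneg hBnn]
    have h1 : (D : ℤ) * a * B + ((D : ℤ) * a * k - y) * D = (D : ℤ) * (a * B0 - y) := by
      rw [hB0eq]; ring
    rw [h1, hB0, hδz]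
    have hc'' : c = A * c' := hc'
    linear_combination (-(A : ℤ) * D * b) * hxy - (D : ℤ) * y * hdet - (D : ℤ) * y * b * hc''
  · show d = c' * (B.toNat : ℤ) + (c' * k + x) * D
    rw [Int.toNat_of_nonneg hBnn]
    have h1 : c' * B + (c' * k + x) * D = c' * B0 + x * D := by
      rw [hB0eq]; ring
    rw [h1, hB0, hδz]
    have hc'' : c = A * c' := hc'
    linear_combination (-d) * hxy + (x * (D : ℤ)) * hdet + (x * (D : ℤ) * b) * hc''


/-- **Hermite transformation of `Δ`.** For `δ > 0` and `γ = [[a,b],[c,d]] ∈ SL(2,ℤ)` there are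
`A B D : ℕ` with `A * D = δ`, `A = gcd(δ, c)`, `B < D` such that for all `τ ∈ ℍ`
`Δ(δ · γτ) = ((cτ + d)/D)^12 · Δ((Aτ + B)/D)`. -/
theorem discriminant_scale_smul (δ : ℕ) (hδ : 0 < δ) (γ : SL(2, ℤ)) :
    ∃ A B D : ℕ, A * D = δ ∧ A = Nat.gcd δ (γ 1 0).natAbs ∧ B < D ∧
      ∀ τ : ℍ, Δ (ofComplex ((δ : ℂ) * ↑(γ • τ))) =
        (((γ 1 0 : ℂ) * τ + γ 1 1) / D) ^ 12 * Δ (ofComplex (((A : ℂ) * τ + B) / D)) := by
  obtain ⟨A, B, D, g, hAD, hA, hB, h00, h10, h01, h11⟩ := exists_hermite δ hδ γ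
  refine ⟨A, B, D, hAD, hA, hB, fun τ => ?_⟩
  have hDpos : 0 < D := by
    rcases Nat.eq_zero_or_pos D with h | h
    · rw [h, mul_zero] at hAD; omega
    · exact h
  have hApos : 0 < A := by
    rcases Nat.eq_zero_or_pos A with h | h
    · rw [h, zero_mul] at hAD; omega
    · exact h
  have hDc : (D : ℂ) ≠ 0 := by exact_mod_cast hDpos.ne'
  have hz : 0 < (((A : ℂ) * τ + B) / D).im := by
    have : (((A : ℂ) * τ + B) / D).im = (A : ℝ) * τ.im / D := by
      rw [show (((A : ℂ) * τ + B) / D) = (((A : ℝ) / D : ℝ) : ℂ) * τ + (((B : ℝ) / D : ℝ) : ℂ) by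
        push_cast; field_simp]
      simp only [Complex.add_im, Complex.ofReal_im, add_zero, Complex.im_ofReal_mul, UpperHalfPlane.coe_im]
      ring
    rw [this]
    have := τ.im_pos
    positivity
  set z' : ℍ := ⟨((A : ℂ) * τ + B) / D, hz⟩ with hz'
  have hofz : ofComplex (((A : ℂ) * τ + B) / D) = z' := ofComplex_apply_of_im_pos hz
  have hcd : ((γ 1 0 : ℂ) * τ + γ 1 1) ≠ 0 := by
    have := denom_ne_zero (γ : GL (Fin 2) ℝ) τ
    simpa [denom] using this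
  -- casts of the integer identities
  have c00 : (δ : ℂ) * (γ 0 0 : ℂ) = (g 0 0 : ℂ) * A := by exact_mod_cast congrArg (Int.cast : ℤ → ℂ) h00
  have c10 : (γ 1 0 : ℂ) = (g 1 0 : ℂ) * A := by exact_mod_cast congrArg (Int.cast : ℤ → ℂ) h10
  have c01 : (δ : ℂ) * (γ 0 1 : ℂ) = (g 0 0 : ℂ) * B + (g 0 1 : ℂ) * D := by
    exact_mod_cast congrArg (Int.cast : ℤ → ℂ) h01
  have c11 : (γ 1 1 : ℂ) = (g 1 0 : ℂ) * B + (g 1 1 : ℂ) * D := by
    exact_mod_cast congrArg (Int.cast : ℤ → ℂ) h11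
  have hden : (g 1 0 : ℂ) * (z' : ℂ) + g 1 1 = ((γ 1 0 : ℂ) * τ + γ 1 1) / D := by
    show (g 1 0 : ℂ) * (((A : ℂ) * τ + B) / D) + g 1 1 = _
    rw [c10, c11]; field_simp; ring
  have hden_ne : (g 1 0 : ℂ) * (z' : ℂ) + g 1 1 ≠ 0 := by
    rw [hden]; exact div_ne_zero hcd hDc
  have key : ((g • z' : ℍ) : ℂ) = (δ : ℂ) * ↑(γ • τ) := by
    rw [coe_specialLinearGroup_apply, coe_specialLinearGroup_apply]
    simp only [algebraMap_int_eq, eq_intCast, Complex.ofReal_intCast]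
    rw [hden]
    show ((g 0 0 : ℂ) * (((A : ℂ) * τ + B) / D) + g 0 1) / (((γ 1 0 : ℂ) * τ + γ 1 1) / D)
      = (δ : ℂ) * (((γ 0 0 : ℂ) * τ + γ 0 1) / ((γ 1 0 : ℂ) * τ + γ 1 1))
    rw [div_div_eq_mul_div]
    rw [show (δ : ℂ) * (((γ 0 0 : ℂ) * τ + γ 0 1) / ((γ 1 0 : ℂ) * τ + γ 1 1)) =
      ((δ : ℂ) * ((γ 0 0 : ℂ) * τ + γ 0 1)) / ((γ 1 0 : ℂ) * τ + γ 1 1) from
      (mul_div_assoc _ _ _).symm]
    rw [div_left_inj' hcd]
    field_simp
    linear_combination (-(τ : ℂ)) * c00 - c01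
  have him : 0 < ((δ : ℂ) * ↑(γ • τ)).im := by rw [← key]; exact (g • z').im_pos
  have hof : ofComplex ((δ : ℂ) * ↑(γ • τ)) = g • z' := by
    rw [ofComplex_apply_of_im_pos him]
    exact UpperHalfPlane.ext key.symm
  rw [hof, hofz, discriminant_smul, hden]

end Fermat.Agent.S28.helper2068
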