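/-
S28 (Igusa) — Newton identities on explicit roots, in "membership in a subalgebra" form.
Author: helper2082.  No sorry.  Mathlib only.

`F` is a field of characteristic `0`, `S` a commutative `F`-algebra, `A` an `F`-subalgebra of `S`,
`x y : ι → S` finite families ("roots").

* `esym_mem_of_psum_mem`      : all power sums `∑ i, x i ^ k` (`k ≥ 1`) in `A` ⇒ all elementary
                                symmetric functions of the `x i` in `A`;
* `coeff_prod_X_sub_C_mem`    : hence all coefficients of `∏ i, (X - C (x i))` are in `A`;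
* `mixed_psum_mem`            : if the mixed power sums `∑ i, x i ^ m * y i ^ M` are in `A` for
                                `m ≤ M`, `1 ≤ M`, and `∏ i, y i` is a unit of `A`, then ALL mixed
                                power sums are in `A`;
* `coeff_prod_X_sub_C_mem_of_mixed` : so the coefficients of `∏ i, (X - C (x i))` are in `A`.
-/
import Mathlib

set_option autoImplicit false

namespace Fermat.Agent.S28.helper2082

open Polynomial

section Newton

variable {F S : Type*} [Field F] [CharZero F] [CommRing S] [Algebra F S]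
variable {ι : Type*} [Fintype ι]

/-- The `k`-th elementary symmetric function of a finite family. -/
def esym (x : ι → S) (k : ℕ) : S := (Finset.univ.val.map x).esymm k

omit [CharZero F] in
theorem esym_eq_aeval (x : ι → S) (k : ℕ) :
    esym x k = MvPolynomial.aeval x (MvPolynomial.esymm ι F k) :=
  (MvPolynomial.aeval_esymm_eq_multiset_esymm ι F k x).symm

/-- **Newton**: power sums in `A` ⇒ elementary symmetric functions in `A`. -/
theorem esym_mem_of_psum_mem (A : Subalgebra F S) (x : ι → S)
    (h : ∀ k, 1 ≤ k → ∑ i, x i ^ k ∈ A) : ∀ k, esym x k ∈ A := by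
  intro k
  induction k using Nat.strong_induction_on with
  | _ k ih =>
    rcases Nat.eq_zero_or_pos k with rfl | hk
    · rw [esym_eq_aeval (F := F), MvPolynomial.esymm_zero, map_one]
      exact A.one_mem
    · have hN := congrArg (MvPolynomial.aeval x) (MvPolynomial.mul_esymm_eq_sum ι F k)
      simp only [map_mul, map_natCast, map_sum, map_pow, map_neg, map_one] at hN
      have hmem : (k : S) * esym x k ∈ A := by
        rw [esym_eq_aeval (F := F), hN]
        refine A.mul_mem (A.pow_mem (A.neg_mem A.one_mem) _) (A.sum_mem fun a ha => ?_)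
        rw [Finset.mem_filter, Finset.HasAntidiagonal.mem_antidiagonal] at ha
        refine A.mul_mem (A.mul_mem (A.pow_mem (A.neg_mem A.one_mem) _) ?_) ?_
        · rw [← esym_eq_aeval]
          exact ih a.1 ha.2
        · have h2 : MvPolynomial.aeval x (MvPolynomial.psum ι F a.2) = ∑ i, x i ^ a.2 := by
            simp [MvPolynomial.psum]
          rw [h2]
          exact h a.2 (by omega)
      have hk0 : (k : F) ≠ 0 := Nat.cast_ne_zero.mpr hk.ne'
      have h3 : esym x k = (k : F)⁻¹ • ((k : S) * esym x k) := by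
        have h4 : (k : S) * esym x k = (k : F) • esym x k := by
          rw [Algebra.smul_def, map_natCast]
        rw [h4, inv_smul_smul₀ hk0]
      rw [h3]
      exact A.smul_mem hmem _

omit [CharZero F] [Field F] [Algebra F S] in
theorem coeff_prod_X_sub_C (x : ι → S) (k : ℕ) (hk : k ≤ Fintype.card ι) :
    (∏ i, (X - C (x i))).coeff k =
      (-1) ^ (Fintype.card ι - k) * esym x (Fintype.card ι - k) := by
  have h := Multiset.prod_X_sub_C_coeff (Finset.univ.val.map x) (k := k) (by simpa using hk)
  have h2 : ((Finset.univ.val.map x).map fun t => X - C t).prod = ∏ i, (X - C (x i)) := by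
    rw [Multiset.map_map]
    rfl
  rw [h2] at h
  rw [h, esym]
  simp

omit [CharZero F] [Field F] [Algebra F S] in
theorem natDegree_prod_X_sub_C (x : ι → S) [Nontrivial S] :
    (∏ i, (X - C (x i))).natDegree = Fintype.card ι := by
  rw [Polynomial.natDegree_prod_of_monic _ _ (fun i _ => monic_X_sub_C (x i))]
  simp

omit [CharZero F] in
/-- All coefficients of `∏ (X - C (x i))` are in `A` when the elementary symmetric functions
are. -/
theorem coeff_prod_X_sub_C_mem_of_esym (A : Subalgebra F S) (x : ι → S)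
    (h : ∀ k, esym x k ∈ A) (k : ℕ) : (∏ i, (X - C (x i))).coeff k ∈ A := by
  rcases subsingleton_or_nontrivial S with hS | hS
  · have h0 : (∏ i, (X - C (x i))).coeff k = 0 := Subsingleton.elim _ _
    rw [h0]
    exact A.zero_mem
  by_cases hk : k ≤ Fintype.card ι
  · rw [coeff_prod_X_sub_C x k hk]
    exact A.mul_mem (A.pow_mem (A.neg_mem A.one_mem) _) (h _)
  · rw [Polynomial.coeff_eq_zero_of_natDegree_lt (by rw [natDegree_prod_X_sub_C]; omega)]
    exact A.zero_mem

/-- Power sums in `A` ⇒ coefficients of `∏ (X - C (x i))` in `A`. -/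
theorem coeff_prod_X_sub_C_mem (A : Subalgebra F S) (x : ι → S)
    (h : ∀ k, 1 ≤ k → ∑ i, x i ^ k ∈ A) (k : ℕ) : (∏ i, (X - C (x i))).coeff k ∈ A :=
  coeff_prod_X_sub_C_mem_of_esym A x (esym_mem_of_psum_mem A x h) k

/-- Each `y i` has an inverse which is an `A`-combination of `1, y i, …, y i ^ (n-1)`, provided
the power sums of `y` are in `A` and `∏ y` is a unit of `A`. -/
theorem exists_inv_combination (A : Subalgebra F S) (y : ι → S)
    (h1 : ∀ M, 1 ≤ M → ∑ i, y i ^ M ∈ A)
    (u : S) (hu : u ∈ A) (hprod : (∏ i, y i) * u = 1) :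
    ∃ a : ℕ → S, (∀ k, a k ∈ A) ∧
      ∀ i, y i * ∑ k ∈ Finset.range (Fintype.card ι), a k * y i ^ k = 1 := by
  classical
  rcases subsingleton_or_nontrivial S with hS | hS
  · exact ⟨fun _ => 0, fun _ => A.zero_mem, fun i => Subsingleton.elim _ _⟩
  set n := Fintype.card ι with hn
  set Pol : S[X] := ∏ j, (X - C (y j)) with hPol
  have hcoeff : ∀ k, Pol.coeff k ∈ A := coeff_prod_X_sub_C_mem A y h1
  have hdeg : Pol.natDegree = n := natDegree_prod_X_sub_C y
  have h0 : Pol.coeff 0 = (-1) ^ n * ∏ j, y j := by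
    rw [Polynomial.coeff_zero_eq_eval_zero, hPol, Polynomial.eval_prod]
    simp only [eval_sub, eval_X, eval_C, zero_sub]
    rw [Finset.prod_neg]
    simp [hn]
  refine ⟨fun k => (-1) ^ (n + 1) * u * Pol.coeff (k + 1),
    fun k => A.mul_mem (A.mul_mem (A.pow_mem (A.neg_mem A.one_mem) _) hu) (hcoeff _), fun i => ?_⟩
  have hroot : Pol.eval (y i) = 0 := by
    rw [hPol, Polynomial.eval_prod]
    exact Finset.prod_eq_zero (Finset.mem_univ i) (by simp)
  have hdiv : Pol.divX.eval (y i) * y i + Pol.coeff 0 = 0 := by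
    have h := congrArg (Polynomial.eval (y i)) (Polynomial.divX_mul_X_add Pol)
    rw [eval_add, eval_mul, eval_X, eval_C, hroot] at h
    exact h
  have hsum : Pol.divX.eval (y i) = ∑ k ∈ Finset.range n, Pol.coeff (k + 1) * y i ^ k := by
    rcases Nat.eq_zero_or_pos n with hn0 | hnpos
    · have hc : Pol.divX = 0 := by
        have h1' : Pol.natDegree = 0 := by rw [hdeg, hn0]
        rw [Polynomial.divX_eq_zero_iff, Polynomial.eq_C_of_natDegree_eq_zero h1']
        simp
      rw [hc, hn0]
      simp
    · have hlt : Pol.divX.natDegree < n := by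
        rw [Polynomial.natDegree_divX_eq_natDegree_tsub_one, hdeg]
        omega
      rw [Polynomial.eval_eq_sum_range' hlt]
      refine Finset.sum_congr rfl fun k _ => ?_
      rw [Polynomial.coeff_divX]
  have hkey : y i * ∑ k ∈ Finset.range n, Pol.coeff (k + 1) * y i ^ k =
      (-1) ^ (n + 1) * ∏ j, y j := by
    rw [← hsum]
    have : Pol.divX.eval (y i) * y i = -Pol.coeff 0 := eq_neg_of_add_eq_zero_left hdiv
    rw [mul_comm, this, h0, pow_succ]
    ring
  have hexp : ∑ k ∈ Finset.range n, (-1) ^ (n + 1) * u * Pol.coeff (k + 1) * y i ^ k =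
      (-1) ^ (n + 1) * u * ∑ k ∈ Finset.range n, Pol.coeff (k + 1) * y i ^ k := by
    rw [Finset.mul_sum]
    refine Finset.sum_congr rfl fun k _ => ?_
    ring
  rw [hexp]
  have hsq : ((-1 : S) ^ (n + 1)) * (-1) ^ (n + 1) = 1 := by
    rw [← mul_pow]
    simp
  calc y i * ((-1) ^ (n + 1) * u * ∑ k ∈ Finset.range n, Pol.coeff (k + 1) * y i ^ k)
      = (-1) ^ (n + 1) * u * (y i * ∑ k ∈ Finset.range n, Pol.coeff (k + 1) * y i ^ k) := by ring
    _ = ((-1) ^ (n + 1) * (-1) ^ (n + 1)) * ((∏ j, y j) * u) := by rw [hkey]; ring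
    _ = 1 := by rw [hsq, hprod, one_mul]

/-- **Mixed Newton lemma.**  If the mixed power sums `∑ i, x i ^ m * y i ^ M` lie in `A` for
`m ≤ M`, `1 ≤ M`, and `∏ i, y i` is a unit of `A`, then all mixed power sums lie in `A`. -/
theorem mixed_psum_mem (A : Subalgebra F S) (x y : ι → S)
    (h1 : ∀ m M, m ≤ M → 1 ≤ M → ∑ i, x i ^ m * y i ^ M ∈ A)
    (u : S) (hu : u ∈ A) (hprod : (∏ i, y i) * u = 1) :
    ∀ m M, ∑ i, x i ^ m * y i ^ M ∈ A := by
  obtain ⟨a, ha, hinv⟩ := exists_inv_combination A y
    (fun M hM => by simpa using h1 0 M (Nat.zero_le _) hM) u hu hprod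
  set n := Fintype.card ι
  have hQ : ∀ t m M, m ≤ M + t → 1 ≤ M + t → ∑ i, x i ^ m * y i ^ M ∈ A := by
    intro t
    induction t with
    | zero => intro m M hm hM; exact h1 m M (by simpa using hm) (by simpa using hM)
    | succ t ih =>
      intro m M hm hM
      have hrew : ∑ i, x i ^ m * y i ^ M =
          ∑ k ∈ Finset.range n, a k * ∑ i, x i ^ m * y i ^ (M + 1 + k) := by
        calc ∑ i, x i ^ m * y i ^ M
            = ∑ i, x i ^ m * y i ^ M * (y i * ∑ k ∈ Finset.range n, a k * y i ^ k) := by
              refine Finset.sum_congr rfl fun i _ => ?_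
              rw [hinv i, mul_one]
          _ = ∑ i, ∑ k ∈ Finset.range n, a k * (x i ^ m * y i ^ (M + 1 + k)) := by
              refine Finset.sum_congr rfl fun i _ => ?_
              rw [Finset.mul_sum, Finset.mul_sum]
              refine Finset.sum_congr rfl fun k _ => ?_
              rw [pow_add, pow_add, pow_one]
              ring
          _ = ∑ k ∈ Finset.range n, a k * ∑ i, x i ^ m * y i ^ (M + 1 + k) := by
              rw [Finset.sum_comm]
              refine Finset.sum_congr rfl fun k _ => ?_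
              rw [Finset.mul_sum]
      rw [hrew]
      exact A.sum_mem fun k _ => A.mul_mem (ha k) (ih m (M + 1 + k) (by omega) (by omega))
  intro m M
  exact hQ (m + 1) m M (by omega) (by omega)

/-- Under the hypotheses of `mixed_psum_mem`, the coefficients of `∏ (X - C (x i))` are in `A`. -/
theorem coeff_prod_X_sub_C_mem_of_mixed (A : Subalgebra F S) (x y : ι → S)
    (h1 : ∀ m M, m ≤ M → 1 ≤ M → ∑ i, x i ^ m * y i ^ M ∈ A)
    (u : S) (hu : u ∈ A) (hprod : (∏ i, y i) * u = 1) (k : ℕ) :
    (∏ i, (X - C (x i))).coeff k ∈ A :=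
  coeff_prod_X_sub_C_mem A x
    (fun k _ => by simpa using mixed_psum_mem A x y h1 u hu hprod k 0) k

end Newton

end Fermat.Agent.S28.helper2082
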