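import Mathlib

/-!
# S28 (route E, limits-only design): affine substitutions on `ℍ` and leading asymptotics at `i∞`

* `affH A B D τ = (A τ + B) / D` as a point of the upper half plane;
* `Asymp f C e` : `f τ * exp (-2πi e τ) → C` as `Im τ → ∞` (leading term `C q^e`);
* calculus: products, inverses, integer powers, composition with `affH`, the discriminant;
* consequences: decay for `e > 0`, eventual exponential growth, rigidity for constants.
-/

set_option autoImplicit false

open UpperHalfPlane hiding I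
open ModularForm Filter Complex
open scoped Manifold Topology MatrixGroups Real

noncomputable section

namespace Fermat.Agent.S28.helper2346

/-! ## Affine substitutions -/

/-- The point `(A τ + B) / D` of the upper half plane (junk value unless `A, D > 0`). -/
def affH (A B D : ℕ) (τ : ℍ) : ℍ := ofComplex (((A : ℂ) * τ + B) / D)

theorem aff_im {A D : ℕ} (B : ℕ) (z : ℂ) :
    ((((A : ℂ) * z + B) / D)).im = A * z.im / D := by
  have h : (((A : ℂ) * z + B) / D) = (((A : ℝ) * z.re + B) / D : ℝ) + ((A * z.im / D : ℝ) : ℂ) * I := by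
    apply Complex.ext <;> simp [Complex.div_natCast_re, Complex.div_natCast_im]
  rw [h]
  simp

theorem aff_im_pos {A D : ℕ} (hA : 0 < A) (hD : 0 < D) (B : ℕ) {z : ℂ} (hz : 0 < z.im) :
    0 < ((((A : ℂ) * z + B) / D)).im := by
  rw [aff_im]
  have hA' : (0 : ℝ) < A := by exact_mod_cast hA
  have hD' : (0 : ℝ) < D := by exact_mod_cast hD
  positivity

theorem coe_affH {A D : ℕ} (hA : 0 < A) (hD : 0 < D) (B : ℕ) (τ : ℍ) :
    (affH A B D τ : ℂ) = ((A : ℂ) * τ + B) / D := by
  rw [affH, ofComplex_apply_of_im_pos (aff_im_pos hA hD B τ.im_pos)]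

theorem im_affH {A D : ℕ} (hA : 0 < A) (hD : 0 < D) (B : ℕ) (τ : ℍ) :
    (affH A B D τ).im = A * τ.im / D := by
  rw [← UpperHalfPlane.coe_im, coe_affH hA hD, aff_im, UpperHalfPlane.coe_im]

theorem tendsto_affH {A D : ℕ} (hA : 0 < A) (hD : 0 < D) (B : ℕ) :
    Tendsto (affH A B D) atImInfty atImInfty := by
  have hA' : (0 : ℝ) < A := by exact_mod_cast hA
  have hD' : (0 : ℝ) < D := by exact_mod_cast hD
  rw [atImInfty, tendsto_comap_iff]
  have h1 : (UpperHalfPlane.im ∘ affH A B D) = fun τ : ℍ => (A / D : ℝ) * τ.im := by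
    funext τ
    simp only [Function.comp_apply, im_affH hA hD]
    ring
  rw [h1]
  exact (tendsto_comap (f := UpperHalfPlane.im) (x := atTop)).const_mul_atTop (by positivity)

theorem mdiff_comp_affH {A D : ℕ} (hA : 0 < A) (hD : 0 < D) (B : ℕ) {f : ℍ → ℂ} (hf : MDiff f) :
    MDiff (fun τ => f (affH A B D τ)) := by
  rw [UpperHalfPlane.mdifferentiable_iff] at hf ⊢
  have hmaps : Set.MapsTo (fun z : ℂ => ((A : ℂ) * z + B) / D) {z | 0 < z.im} {z | 0 < z.im} :=
    fun z hz => aff_im_pos hA hD B hz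
  have hd : DifferentiableOn ℂ (fun z : ℂ => ((A : ℂ) * z + B) / D) {z | 0 < z.im} := by
    intro z _
    fun_prop
  refine (hf.comp hd hmaps).congr ?_
  intro z hz
  simp only [Function.comp_apply, affH]
  rw [ofComplex_apply_of_im_pos hz]

/-! ## Leading asymptotics at `i∞` -/

/-- `exp (2πi e τ)` for a real exponent `e`. -/
def expI (e : ℝ) (τ : ℍ) : ℂ := cexp (2 * π * I * e * τ)

theorem expI_add (a b : ℝ) (τ : ℍ) : expI (a + b) τ = expI a τ * expI b τ := by
  rw [expI, expI, expI, ← Complex.exp_add]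
  congr 1
  push_cast
  ring

theorem expI_zero (τ : ℍ) : expI 0 τ = 1 := by simp [expI]

theorem expI_ne_zero (e : ℝ) (τ : ℍ) : expI e τ ≠ 0 := Complex.exp_ne_zero _

theorem expI_neg (e : ℝ) (τ : ℍ) : expI (-e) τ = (expI e τ)⁻¹ := by
  have h := expI_add e (-e) τ
  rw [add_neg_cancel, expI_zero] at h
  exact eq_inv_of_mul_eq_one_right h.symm

theorem norm_expI (e : ℝ) (τ : ℍ) : ‖expI e τ‖ = Real.exp (-2 * π * e * τ.im) := by
  rw [expI, Complex.norm_exp]
  congr 1
  simp [Complex.mul_re, Complex.mul_im]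

/-- `f` has leading term `C q^e` at `i∞`: `f τ * exp (-2πi e τ) → C`. -/
def Asymp (f : ℍ → ℂ) (C : ℂ) (e : ℝ) : Prop :=
  Tendsto (fun τ => f τ * expI (-e) τ) atImInfty (𝓝 C)

theorem Asymp.congr {f g : ℍ → ℂ} {C : ℂ} {e : ℝ} (h : Asymp f C e) (hfg : ∀ τ, f τ = g τ) :
    Asymp g C e := by
  have : f = g := funext hfg
  rwa [← this]

theorem asymp_const (c : ℂ) : Asymp (fun _ => c) c 0 := by
  unfold Asymp
  simp only [neg_zero, expI_zero, mul_one]
  exact tendsto_const_nhds

theorem Asymp.mul {f g : ℍ → ℂ} {C C' : ℂ} {e e' : ℝ} (hf : Asymp f C e) (hg : Asymp g C' e') :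
    Asymp (fun τ => f τ * g τ) (C * C') (e + e') := by
  unfold Asymp at *
  refine (hf.mul hg).congr fun τ => ?_
  rw [neg_add, expI_add]
  ring

theorem Asymp.inv {f : ℍ → ℂ} {C : ℂ} {e : ℝ} (hf : Asymp f C e) (hC : C ≠ 0) :
    Asymp (fun τ => (f τ)⁻¹) C⁻¹ (-e) := by
  unfold Asymp at *
  refine (hf.inv₀ hC).congr fun τ => ?_
  rw [mul_inv, neg_neg, expI_neg, inv_inv]

theorem Asymp.pow {f : ℍ → ℂ} {C : ℂ} {e : ℝ} (hf : Asymp f C e) (k : ℕ) :
    Asymp (fun τ => f τ ^ k) (C ^ k) (k * e) := by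
  induction k with
  | zero => simpa using asymp_const 1
  | succ k ih =>
    have := ih.mul hf
    have he : (k : ℝ) * e + e = ((k + 1 : ℕ) : ℝ) * e := by push_cast; ring
    rw [he] at this
    exact this.congr fun τ => by rw [pow_succ]

theorem Asymp.zpow {f : ℍ → ℂ} {C : ℂ} {e : ℝ} (hf : Asymp f C e) (hC : C ≠ 0) (k : ℤ) :
    Asymp (fun τ => f τ ^ k) (C ^ k) (k * e) := by
  obtain ⟨n, rfl | rfl⟩ := k.eq_nat_or_neg
  · simpa using hf.pow n
  · have h := (hf.pow n).inv (pow_ne_zero n hC)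
    simp only [zpow_neg, zpow_natCast, Int.cast_neg, Int.cast_natCast, neg_mul]
    exact h

theorem Asymp.finset_prod {ι : Type*} (s : Finset ι) {f : ι → ℍ → ℂ} {C : ι → ℂ} {e : ι → ℝ}
    (h : ∀ i ∈ s, Asymp (f i) (C i) (e i)) :
    Asymp (fun τ => ∏ i ∈ s, f i τ) (∏ i ∈ s, C i) (∑ i ∈ s, e i) := by
  classical
  induction s using Finset.induction_on with
  | empty => simpa using asymp_const 1
  | insert a s ha ih =>
    simp only [Finset.prod_insert ha, Finset.sum_insert ha]
    exact (h a (Finset.mem_insert_self a s)).mul (ih fun i hi => h i (Finset.mem_insert_of_mem hi))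

/-- Composition with an affine substitution. -/
theorem Asymp.comp_affH {f : ℍ → ℂ} {C : ℂ} {e : ℝ} (hf : Asymp f C e) {A D : ℕ} (hA : 0 < A)
    (hD : 0 < D) (B : ℕ) :
    Asymp (fun τ => f (affH A B D τ)) (C * cexp (2 * π * I * e * B / D)) (e * A / D) := by
  unfold Asymp at *
  have h1 := hf.comp (tendsto_affH hA hD B)
  have h2 := h1.mul_const (cexp (2 * π * I * e * B / D))
  refine h2.congr fun τ => ?_
  simp only [Function.comp_apply]
  rw [mul_assoc, mul_assoc]
  congr 1
  rw [expI, expI, coe_affH hA hD, ← Complex.exp_add]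
  congr 1
  have hD' : (D : ℂ) ≠ 0 := by exact_mod_cast hD.ne'
  push_cast
  field_simp
  ring

/-- The discriminant has leading term `q`. -/
theorem asymp_discriminant : Asymp discriminant 1 1 := by
  unfold Asymp
  refine tendsto_atImInfty_tprod_one_sub_eta_q_pow.congr fun τ => ?_
  rw [discriminant_eq_q_prod, mul_comm (Function.Periodic.qParam 1 (τ : ℂ)), mul_assoc]
  have : Function.Periodic.qParam 1 (τ : ℂ) * expI (-1) τ = 1 := by
    rw [Function.Periodic.qParam, expI, ← Complex.exp_add]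
    have : 2 * ↑π * I * (τ : ℂ) / ((1 : ℝ) : ℂ) + 2 * ↑π * I * ((-1 : ℝ) : ℂ) * (τ : ℂ) = 0 := by
      push_cast; ring
    rw [this, Complex.exp_zero]
  rw [this, mul_one]

/-- Positive exponent: decay at `i∞`. -/
theorem Asymp.tendsto_zero {f : ℍ → ℂ} {C : ℂ} {e : ℝ} (hf : Asymp f C e) (he : 0 < e) :
    Tendsto f atImInfty (𝓝 0) := by
  unfold Asymp at hf
  have h1 : Tendsto (fun τ : ℍ => expI e τ) atImInfty (𝓝 0) := by
    rw [tendsto_zero_iff_norm_tendsto_zero]
    simp only [norm_expI]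
    have h2 : Tendsto (fun τ : ℍ => -2 * π * e * τ.im) atImInfty atBot := by
      have : Tendsto (fun τ : ℍ => τ.im) atImInfty atTop := tendsto_comap
      have h3 := this.const_mul_atTop_of_neg (r := -2 * π * e) (by nlinarith [Real.pi_pos])
      exact h3
    exact Real.tendsto_exp_atBot.comp h2
  have h3 := hf.mul h1
  rw [mul_zero] at h3
  refine h3.congr fun τ => ?_
  rw [mul_assoc, expI_neg, inv_mul_cancel₀ (expI_ne_zero e τ), mul_one]

/-- Eventual exponential growth. -/
def EvGrowth (f : ℍ → ℂ) : Prop :=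
  ∃ (m : ℕ) (C A : ℝ), ∀ τ : ℍ, A ≤ τ.im → ‖f τ‖ ≤ C * Real.exp (2 * π * m * τ.im)

theorem Asymp.evGrowth {f : ℍ → ℂ} {C : ℂ} {e : ℝ} (hf : Asymp f C e) : EvGrowth f := by
  unfold Asymp at hf
  obtain ⟨m, hm⟩ := exists_nat_ge (-e)
  have hb : ∀ᶠ τ in atImInfty, ‖f τ * expI (-e) τ‖ ≤ ‖C‖ + 1 := by
    have h1 : Tendsto (fun τ => ‖f τ * expI (-e) τ‖) atImInfty (𝓝 ‖C‖) := hf.norm
    exact h1.eventually (eventually_le_nhds (by linarith))
  rw [Filter.Eventually, atImInfty_mem] at hb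
  obtain ⟨A, hA⟩ := hb
  refine ⟨m, ‖C‖ + 1, max A 0, fun τ hτ => ?_⟩
  have h1 := hA τ (le_trans (le_max_left _ _) hτ)
  simp only [Set.mem_ofPred_eq] at h1
  have him : 0 ≤ τ.im := le_trans (le_max_right _ _) hτ
  have h2 : f τ = (f τ * expI (-e) τ) * expI e τ := by
    rw [mul_assoc, expI_neg, inv_mul_cancel₀ (expI_ne_zero e τ), mul_one]
  rw [h2, norm_mul, norm_expI]
  have h3 : Real.exp (-2 * π * e * τ.im) ≤ Real.exp (2 * π * m * τ.im) := by
    apply Real.exp_le_exp.mpr
    have : -e * τ.im ≤ m * τ.im := mul_le_mul_of_nonneg_right hm him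
    nlinarith [Real.pi_pos]
  exact mul_le_mul h1 h3 (Real.exp_pos _).le (by positivity)

theorem EvGrowth.const (c : ℂ) : EvGrowth (fun _ => c) :=
  (asymp_const c).evGrowth

theorem EvGrowth.add {f g : ℍ → ℂ} (hf : EvGrowth f) (hg : EvGrowth g) :
    EvGrowth (fun τ => f τ + g τ) := by
  obtain ⟨m, C, A, h⟩ := hf
  obtain ⟨m', C', A', h'⟩ := hg
  refine ⟨max m m', |C| + |C'|, max (max A A') 0, fun τ hτ => ?_⟩
  have hA : A ≤ τ.im := le_trans (le_trans (le_max_left _ _) (le_max_left _ _)) hτ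
  have hA' : A' ≤ τ.im := le_trans (le_trans (le_max_right _ _) (le_max_left _ _)) hτ
  have him : 0 ≤ τ.im := le_trans (le_max_right _ _) hτ
  have e1 : Real.exp (2 * π * m * τ.im) ≤ Real.exp (2 * π * (max m m' : ℕ) * τ.im) := by
    apply Real.exp_le_exp.mpr
    have : (m : ℝ) ≤ (max m m' : ℕ) := by exact_mod_cast le_max_left m m'
    have : (m : ℝ) * τ.im ≤ (max m m' : ℕ) * τ.im := mul_le_mul_of_nonneg_right this him
    nlinarith [Real.pi_pos]
  have e2 : Real.exp (2 * π * m' * τ.im) ≤ Real.exp (2 * π * (max m m' : ℕ) * τ.im) := by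
    apply Real.exp_le_exp.mpr
    have : (m' : ℝ) ≤ (max m m' : ℕ) := by exact_mod_cast le_max_right m m'
    have : (m' : ℝ) * τ.im ≤ (max m m' : ℕ) * τ.im := mul_le_mul_of_nonneg_right this him
    nlinarith [Real.pi_pos]
  calc ‖f τ + g τ‖ ≤ ‖f τ‖ + ‖g τ‖ := norm_add_le _ _
    _ ≤ C * Real.exp (2 * π * m * τ.im) + C' * Real.exp (2 * π * m' * τ.im) :=
        add_le_add (h τ hA) (h' τ hA')
    _ ≤ |C| * Real.exp (2 * π * (max m m' : ℕ) * τ.im)
          + |C'| * Real.exp (2 * π * (max m m' : ℕ) * τ.im) := by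
        apply add_le_add
        · exact (mul_le_mul_of_nonneg_right (le_abs_self C) (Real.exp_pos _).le).trans
            (mul_le_mul_of_nonneg_left e1 (abs_nonneg C))
        · exact (mul_le_mul_of_nonneg_right (le_abs_self C') (Real.exp_pos _).le).trans
            (mul_le_mul_of_nonneg_left e2 (abs_nonneg C'))
    _ = (|C| + |C'|) * Real.exp (2 * π * (max m m' : ℕ) * τ.im) := by ring

theorem EvGrowth.mul {f g : ℍ → ℂ} (hf : EvGrowth f) (hg : EvGrowth g) :
    EvGrowth (fun τ => f τ * g τ) := by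
  obtain ⟨m, C, A, h⟩ := hf
  obtain ⟨m', C', A', h'⟩ := hg
  refine ⟨m + m', |C| * |C'|, max A A', fun τ hτ => ?_⟩
  have hA : A ≤ τ.im := le_trans (le_max_left _ _) hτ
  have hA' : A' ≤ τ.im := le_trans (le_max_right _ _) hτ
  have h1 : ‖f τ‖ ≤ |C| * Real.exp (2 * π * m * τ.im) :=
    (h τ hA).trans (mul_le_mul_of_nonneg_right (le_abs_self C) (Real.exp_pos _).le)
  have h2 : ‖g τ‖ ≤ |C'| * Real.exp (2 * π * m' * τ.im) :=
    (h' τ hA').trans (mul_le_mul_of_nonneg_right (le_abs_self C') (Real.exp_pos _).le)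
  calc ‖f τ * g τ‖ = ‖f τ‖ * ‖g τ‖ := norm_mul _ _
    _ ≤ (|C| * Real.exp (2 * π * m * τ.im)) * (|C'| * Real.exp (2 * π * m' * τ.im)) :=
        mul_le_mul h1 h2 (norm_nonneg _) (by positivity)
    _ = |C| * |C'| * Real.exp (2 * π * (m + m' : ℕ) * τ.im) := by
        rw [mul_mul_mul_comm, ← Real.exp_add]
        congr 2
        push_cast
        ring

/-- Rigidity: a constant function with a nonzero leading coefficient equals it in norm. -/
theorem Asymp.norm_eq_of_const {K C : ℂ} {e : ℝ} (h : Asymp (fun _ => K) C e) (hC : C ≠ 0) :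
    ‖K‖ = ‖C‖ := by
  unfold Asymp at h
  have hn : Tendsto (fun τ : ℍ => ‖K‖ * Real.exp (2 * π * e * τ.im)) atImInfty (𝓝 ‖C‖) := by
    refine h.norm.congr fun τ => ?_
    rw [norm_mul, norm_expI]
    congr 2
    ring
  have him : Tendsto (fun τ : ℍ => τ.im) atImInfty atTop := tendsto_comap
  rcases lt_trichotomy e 0 with he | he | he
  · -- exponent negative: limit is zero
    have h2 : Tendsto (fun τ : ℍ => 2 * π * e * τ.im) atImInfty atBot :=
      him.const_mul_atTop_of_neg (r := 2 * π * e) (by nlinarith [Real.pi_pos])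
    have h3 : Tendsto (fun τ : ℍ => ‖K‖ * Real.exp (2 * π * e * τ.im)) atImInfty (𝓝 (‖K‖ * 0)) :=
      (Real.tendsto_exp_atBot.comp h2).const_mul _
    have := tendsto_nhds_unique hn h3
    rw [mul_zero, norm_eq_zero] at this
    exact absurd this hC
  · subst he
    have h3 : Tendsto (fun τ : ℍ => ‖K‖ * Real.exp (2 * π * 0 * τ.im)) atImInfty (𝓝 ‖K‖) := by
      simp only [mul_zero, zero_mul, Real.exp_zero, mul_one]
      exact tendsto_const_nhds
    exact tendsto_nhds_unique h3 hn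
  · -- exponent positive: K must vanish, contradiction
    have h2 : Tendsto (fun τ : ℍ => 2 * π * e * τ.im) atImInfty atTop :=
      him.const_mul_atTop (r := 2 * π * e) (by nlinarith [Real.pi_pos])
    by_cases hK : K = 0
    · subst hK
      have h3 : Tendsto (fun τ : ℍ => ‖(0 : ℂ)‖ * Real.exp (2 * π * e * τ.im)) atImInfty (𝓝 0) := by
        simp
      have := tendsto_nhds_unique hn h3
      rw [norm_eq_zero] at this
      exact absurd this hC
    · have h3 : Tendsto (fun τ : ℍ => ‖K‖ * Real.exp (2 * π * e * τ.im)) atImInfty atTop :=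
        (Real.tendsto_exp_atTop.comp h2).const_mul_atTop (norm_pos_iff.mpr hK)
      exact absurd hn (not_tendsto_nhds_of_tendsto_atTop h3 _)

end Fermat.Agent.S28.helper2346

end
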