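import Fermat.Agent.S28.helper2346_Asymp
import Fermat.Agent.S28.helper2068_DeltaHermite
import Fermat.Agent.S28.helper388_EtaExp

/-!
# S28 (route E): the analytic eta quotient `∏_{δ ∣ N} Δ(δτ)^(r δ)` and its `SL(2,ℤ)`-conjugates

For `r : ℕ → ℤ` with `∑_{δ ∣ N} r δ = 0`:
* `etaQ N r` is holomorphic, nowhere zero, `Γ₀(N)`-invariant;
* for every `γ ∈ SL(2,ℤ)`, `etaQ N r (γ • τ)` has a leading term `C q^e` at `i∞` with
  `e = ∑ r δ * gcd(δ,c)²/δ` and `‖C‖ = ∏ D_δ^(-12 r δ)`, `D_δ = δ / gcd(δ,c)`;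
* for `r = etaExp N` (helper388) and `N ∤ c` the exponent is `etaPhi N > 0`.
-/

set_option autoImplicit false

open UpperHalfPlane hiding I
open ModularForm Filter Complex CongruenceSubgroup
open scoped Manifold Topology MatrixGroups Real

noncomputable section

namespace Fermat.Agent.S28.helper2346

theorem mdiff_comp_smul {f : ℍ → ℂ} (hf : MDiff f) (γ : SL(2, ℤ)) :
    MDiff (fun τ : ℍ => f (γ • τ)) := by
  have h : MDiff (fun τ : ℍ => (γ : GL (Fin 2) ℝ) • τ) := mdifferentiable_smul (by simp)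
  exact hf.comp h

theorem mdiff_discriminant : MDiff (discriminant : ℍ → ℂ) :=
  CuspForm.discriminant.holo'

/-- The eta quotient `∏_{δ ∣ N} Δ(δτ)^(r δ)`. -/
def etaQ (N : ℕ) (r : ℕ → ℤ) (τ : ℍ) : ℂ :=
  ∏ δ ∈ N.divisors, discriminant (affH δ 0 1 τ) ^ r δ

theorem etaQ_ne_zero (N : ℕ) (r : ℕ → ℤ) (τ : ℍ) : etaQ N r τ ≠ 0 :=
  Finset.prod_ne_zero_iff.mpr fun _ _ => zpow_ne_zero _ (discriminant_ne_zero _)

theorem affH_scale (δ : ℕ) (τ : ℍ) : affH δ 0 1 τ = ofComplex ((δ : ℂ) * τ) := by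
  simp [affH]

theorem mdiff_zpow {f : ℍ → ℂ} (hf : MDiff f) (h0 : ∀ τ, f τ ≠ 0) (k : ℤ) :
    MDiff (fun τ => f τ ^ k) := by
  rw [UpperHalfPlane.mdifferentiable_iff] at hf ⊢
  exact hf.zpow (Or.inl fun x _ => h0 _)

theorem mdiff_finset_prod {ι : Type*} (s : Finset ι) {f : ι → ℍ → ℂ} (h : ∀ i ∈ s, MDiff (f i)) :
    MDiff (fun τ => ∏ i ∈ s, f i τ) := by
  classical
  induction s using Finset.induction_on with
  | empty => simpa using (mdifferentiable_const : MDiff (fun _ : ℍ => (1 : ℂ)))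
  | insert a s ha ih =>
    simp only [Finset.prod_insert ha]
    exact (h a (Finset.mem_insert_self a s)).mul (ih fun i hi => h i (Finset.mem_insert_of_mem hi))

theorem mdiff_etaQ (N : ℕ) (r : ℕ → ℤ) : MDiff (etaQ N r) := by
  unfold etaQ
  refine mdiff_finset_prod _ fun δ hδ => ?_
  have hδ0 : 0 < δ := Nat.pos_of_mem_divisors hδ
  exact mdiff_zpow (mdiff_comp_affH hδ0 one_pos 0 mdiff_discriminant)
    (fun τ => discriminant_ne_zero _) _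

theorem prod_zpow_eq_zpow_sum {ι : Type*} (s : Finset ι) (z : ℂ) (hz : z ≠ 0) (r : ι → ℤ) :
    ∏ i ∈ s, z ^ r i = z ^ ∑ i ∈ s, r i := by
  classical
  induction s using Finset.induction_on with
  | empty => simp
  | insert a s ha ih => rw [Finset.prod_insert ha, Finset.sum_insert ha, ih, zpow_add₀ hz]

/-- Hermite data for all `δ ∣ N` at once. -/
theorem exists_conj_data (γ : SL(2, ℤ)) :
    ∃ A B D : ℕ → ℕ, ∀ δ : ℕ, 0 < δ → A δ * D δ = δ ∧ A δ = Nat.gcd δ (γ 1 0).natAbs ∧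
      B δ < D δ ∧ ∀ τ : ℍ, discriminant (affH δ 0 1 (γ • τ)) =
        (((γ 1 0 : ℂ) * τ + γ 1 1) / D δ) ^ 12 * discriminant (affH (A δ) (B δ) (D δ) τ) := by
  choose! A B D h using fun (δ : ℕ) (hδ : 0 < δ) => helper2068.discriminant_scale_smul δ hδ γ
  refine ⟨A, B, D, fun δ hδ => ?_⟩
  obtain ⟨h1, h2, h3, h4⟩ := h δ hδ
  refine ⟨h1, h2, h3, fun τ => ?_⟩
  rw [affH_scale, h4 τ]
  rfl

theorem denom_ne_zero' (γ : SL(2, ℤ)) (τ : ℍ) : (γ 1 0 : ℂ) * τ + γ 1 1 ≠ 0 := by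
  have := UpperHalfPlane.denom_ne_zero ((γ : SL(2, ℤ)) : GL (Fin 2) ℝ) τ
  simpa [UpperHalfPlane.denom] using this

/-- Transformation of the eta quotient under `γ ∈ SL(2,ℤ)`. -/
theorem exists_etaQ_smul (N : ℕ) (r : ℕ → ℤ) (hr : ∑ δ ∈ N.divisors, r δ = 0) (γ : SL(2, ℤ)) :
    ∃ A B D : ℕ → ℕ, (∀ δ : ℕ, 0 < δ → A δ * D δ = δ ∧ A δ = Nat.gcd δ (γ 1 0).natAbs ∧
      B δ < D δ) ∧ ∀ τ : ℍ, etaQ N r (γ • τ) =
        ∏ δ ∈ N.divisors, (((D δ : ℂ)⁻¹) ^ 12 * discriminant (affH (A δ) (B δ) (D δ) τ)) ^ r δ := by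
  obtain ⟨A, B, D, h⟩ := exists_conj_data γ
  refine ⟨A, B, D, fun δ hδ => ⟨(h δ hδ).1, (h δ hδ).2.1, (h δ hδ).2.2.1⟩, fun τ => ?_⟩
  have hz := denom_ne_zero' γ τ
  set z : ℂ := (γ 1 0 : ℂ) * τ + γ 1 1 with hzdef
  have h1 : etaQ N r (γ • τ) = ∏ δ ∈ N.divisors, ((z ^ 12) ^ r δ *
      (((D δ : ℂ)⁻¹) ^ 12 * discriminant (affH (A δ) (B δ) (D δ) τ)) ^ r δ) := by
    unfold etaQ
    refine Finset.prod_congr rfl fun δ hδ => ?_
    rw [(h δ (Nat.pos_of_mem_divisors hδ)).2.2.2 τ, ← mul_zpow]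
    congr 1
    rw [div_pow, inv_pow]
    ring
  rw [h1, Finset.prod_mul_distrib, prod_zpow_eq_zpow_sum _ _ (pow_ne_zero 12 hz), hr, zpow_zero,
    one_mul]

/-- `Γ₀(N)`-invariance. -/
theorem etaQ_smul_of_mem_Gamma0 (N : ℕ) (r : ℕ → ℤ) (hr : ∑ δ ∈ N.divisors, r δ = 0)
    {γ : SL(2, ℤ)} (hγ : γ ∈ Gamma0 N) (τ : ℍ) : etaQ N r (γ • τ) = etaQ N r τ := by
  obtain ⟨A, B, D, h, h2⟩ := exists_etaQ_smul N r hr γ
  rw [h2 τ]
  unfold etaQ
  refine Finset.prod_congr rfl fun δ hδ => ?_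
  have hδ0 : 0 < δ := Nat.pos_of_mem_divisors hδ
  obtain ⟨hAD, hA, hB⟩ := h δ hδ0
  have hNc : (N : ℤ) ∣ γ 1 0 := by
    rw [Gamma0_mem] at hγ
    exact (ZMod.intCast_zmod_eq_zero_iff_dvd _ _).mp hγ
  have hδc : δ ∣ (γ 1 0).natAbs := by
    have : (δ : ℤ) ∣ γ 1 0 := (Int.natCast_dvd_natCast.mpr (Nat.dvd_of_mem_divisors hδ)).trans hNc
    exact Int.natCast_dvd.mp this
  have hAδ : A δ = δ := by rw [hA]; exact Nat.gcd_eq_left hδc
  have hD1 : D δ = 1 := by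
    rw [hAδ] at hAD
    exact Nat.eq_of_mul_eq_mul_left hδ0 (by rw [hAD, mul_one])
  have hB0 : B δ = 0 := by rw [hD1] at hB; omega
  rw [hAδ, hD1, hB0]
  simp

/-- Leading asymptotics of the conjugates of the eta quotient. -/
theorem exists_asymp_etaQ_smul (N : ℕ) (r : ℕ → ℤ) (hr : ∑ δ ∈ N.divisors, r δ = 0)
    (γ : SL(2, ℤ)) :
    ∃ (A D : ℕ → ℕ) (C : ℂ), (∀ δ : ℕ, 0 < δ → A δ * D δ = δ ∧
      A δ = Nat.gcd δ (γ 1 0).natAbs) ∧
      ‖C‖ = ∏ δ ∈ N.divisors, ((D δ : ℝ) ^ 12) ^ (-r δ) ∧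
      Asymp (fun τ => etaQ N r (γ • τ)) C (∑ δ ∈ N.divisors, (r δ : ℝ) * ((A δ : ℝ) / D δ)) := by
  obtain ⟨A, B, D, h, h2⟩ := exists_etaQ_smul N r hr γ
  have hpos : ∀ δ ∈ N.divisors, 0 < A δ ∧ 0 < D δ := by
    intro δ hδ
    have hδ0 : 0 < δ := Nat.pos_of_mem_divisors hδ
    have := (h δ hδ0).1
    constructor
    · rcases Nat.eq_zero_or_pos (A δ) with h0 | h0
      · rw [h0, zero_mul] at this; omega
      · exact h0
    · rcases Nat.eq_zero_or_pos (D δ) with h0 | h0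
      · rw [h0, mul_zero] at this; omega
      · exact h0
  -- the constant of each factor
  set c : ℕ → ℂ := fun δ => ((D δ : ℂ)⁻¹) ^ 12 * (1 * cexp (2 * π * I * (1 : ℝ) * (B δ) / (D δ)))
    with hc
  have hfac : ∀ δ ∈ N.divisors,
      Asymp (fun τ => (((D δ : ℂ)⁻¹) ^ 12 * discriminant (affH (A δ) (B δ) (D δ) τ)) ^ r δ)
        (c δ ^ r δ) ((r δ : ℝ) * ((A δ : ℝ) / D δ)) := by
    intro δ hδ
    obtain ⟨hA0, hD0⟩ := hpos δ hδ
    have h1 := asymp_discriminant.comp_affH hA0 hD0 (B δ)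
    have h3 := (asymp_const (((D δ : ℂ)⁻¹) ^ 12)).mul h1
    have hc0 : c δ ≠ 0 := by
      have hD' : (D δ : ℂ) ≠ 0 := by exact_mod_cast hD0.ne'
      simp only [hc]
      exact mul_ne_zero (pow_ne_zero _ (inv_ne_zero hD')) (mul_ne_zero one_ne_zero (exp_ne_zero _))
    have h4 := h3.zpow hc0 (r δ)
    have he : (r δ : ℝ) * (0 + 1 * (A δ : ℝ) / D δ) = (r δ : ℝ) * ((A δ : ℝ) / D δ) := by ring
    rw [he] at h4
    exact h4
  have hprod := Asymp.finset_prod N.divisors hfac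
  refine ⟨A, D, ∏ δ ∈ N.divisors, c δ ^ r δ, fun δ hδ => ⟨(h δ hδ).1, (h δ hδ).2.1⟩, ?_,
    hprod.congr fun τ => (h2 τ).symm⟩
  rw [norm_prod]
  refine Finset.prod_congr rfl fun δ hδ => ?_
  obtain ⟨hA0, hD0⟩ := hpos δ hδ
  have hnc : ‖c δ‖ = ((D δ : ℝ) ^ 12)⁻¹ := by
    simp only [hc]
    have hexp : ‖cexp (2 * π * I * (1 : ℝ) * (B δ) / (D δ))‖ = 1 := by
      have : (2 * π * I * ((1 : ℝ) : ℂ) * (B δ) / (D δ) : ℂ) = ((2 * π * (B δ) / (D δ) : ℝ) : ℂ) * I := by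
        push_cast; ring
      rw [this, Complex.norm_exp_ofReal_mul_I]
    rw [norm_mul, norm_mul, norm_one, hexp, norm_pow, norm_inv, Complex.norm_natCast, one_mul,
      mul_one, inv_pow]
  rw [norm_zpow, hnc, inv_zpow, ← zpow_neg]

/-- For the exponents of helper388 and `N ∤ c`, the conjugate has leading exponent `etaPhi N`. -/
theorem exists_asymp_etaQ_etaExp {N : ℕ} (hN : N ≠ 0) (γ : SL(2, ℤ))
    (hγ : ¬ (N : ℤ) ∣ γ 1 0) :
    ∃ (D : ℕ → ℕ) (C : ℂ), (∀ δ ∈ N.divisors, 0 < D δ ∧ D δ ∣ N) ∧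
      ‖C‖ = ∏ δ ∈ N.divisors, ((D δ : ℝ) ^ 12) ^ (-helper388.etaExp N δ) ∧
      Asymp (fun τ => etaQ N (helper388.etaExp N) (γ • τ)) C (helper388.etaPhi N : ℝ) := by
  obtain ⟨A, D, C, h, hC, hAs⟩ :=
    exists_asymp_etaQ_smul N (helper388.etaExp N) (helper388.sum_etaExp hN) γ
  have hc : ¬ N ∣ (γ 1 0).natAbs := fun hdiv => hγ (Int.natCast_dvd.mpr hdiv)
  have hNR : (N : ℝ) ≠ 0 := by exact_mod_cast hN
  have hDpos : ∀ δ ∈ N.divisors, 0 < D δ := by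
    intro δ hδ
    have hδ0 : 0 < δ := Nat.pos_of_mem_divisors hδ
    have := (h δ hδ0).1
    rcases Nat.eq_zero_or_pos (D δ) with h0 | h0
    · rw [h0, mul_zero] at this; omega
    · exact h0
  refine ⟨D, C, fun δ hδ => ⟨hDpos δ hδ, ?_⟩, hC, ?_⟩
  · have hδ0 : 0 < δ := Nat.pos_of_mem_divisors hδ
    exact (Dvd.intro_left _ (h δ hδ0).1).trans (Nat.dvd_of_mem_divisors hδ)
  · have hsum : (∑ δ ∈ N.divisors, (helper388.etaExp N δ : ℝ) * ((A δ : ℝ) / D δ))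
        = (helper388.etaPhi N : ℝ) := by
      have hX3 := helper388.sum_etaExp_gcd hN hc
      have hX3' : (∑ δ ∈ N.divisors, (helper388.etaExp N δ : ℝ) *
          (((Nat.gcd δ (γ 1 0).natAbs : ℕ) : ℝ) ^ 2 * ((N / δ : ℕ) : ℝ)))
          = (N : ℝ) * (helper388.etaPhi N : ℝ) := by
        have := congrArg (Int.cast : ℤ → ℝ) hX3
        push_cast at this
        exact this
      have hterm : ∀ δ ∈ N.divisors, (helper388.etaExp N δ : ℝ) * ((A δ : ℝ) / D δ)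
          = (helper388.etaExp N δ : ℝ) *
            (((Nat.gcd δ (γ 1 0).natAbs : ℕ) : ℝ) ^ 2 * ((N / δ : ℕ) : ℝ)) / N := by
        intro δ hδ
        have hδ0 : 0 < δ := Nat.pos_of_mem_divisors hδ
        obtain ⟨hAD, hA⟩ := h δ hδ0
        have hDR : (D δ : ℝ) ≠ 0 := by exact_mod_cast (hDpos δ hδ).ne'
        have hδR : (δ : ℝ) ≠ 0 := by exact_mod_cast hδ0.ne'
        have hNδ : ((N / δ : ℕ) : ℝ) = (N : ℝ) / δ :=
          Nat.cast_div (Nat.dvd_of_mem_divisors hδ) hδR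
        have hADR : (A δ : ℝ) * D δ = δ := by exact_mod_cast hAD
        rw [← hA, hNδ, ← hADR]
        have hAR : (A δ : ℝ) ≠ 0 := by
          intro h0; rw [h0, zero_mul] at hADR; exact hδR hADR.symm
        field_simp
      rw [Finset.sum_congr rfl hterm, ← Finset.sum_div, hX3']
      field_simp
    rw [hsum] at hAs
    exact hAs

end Fermat.Agent.S28.helper2346

end
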