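import Fermat.Agent.S28.helper2346_Orbit
import Fermat.Agent.Lib.helper319_HermiteForm

/-!
# S28 (route E): the orbit polynomial of the eta quotient `u_N` (function level)

`etaU N = ∏_{δ ∣ N} Δ(δτ)^(etaExp N δ)` (exponents of helper388).  Main result
`exists_eta_orbit_poly`: a monic `P ∈ ℂ[j][X]` of degree `n = [SL(2,ℤ) : Γ₀(N)]` with
* `P(j(τ), u(τ)) = 0`;
* the coefficients of `P(j(τ), X) / (X - u(τ))` of index `< n - 1` tend to `0` at `i∞`;
* `P(j, 0)` is a constant `K` whose absolute value is a quotient of two divisors of a power of `N`.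
Also: `j(dτ)` (`d ∣ N`) and all eta quotients are modular functions of level `N` (`IsModFun`).
-/

set_option autoImplicit false

open UpperHalfPlane hiding I
open ModularForm Filter Complex CongruenceSubgroup EisensteinSeries
open scoped Manifold Topology MatrixGroups Real

noncomputable section

namespace Fermat.Agent.S28.helper2346

open Fermat.Agent.S24

/-! ## `N`-units among the positive reals -/

/-- `t = a / b` with `a, b` dividing a power of `N`. -/
def IsNUnit (N : ℕ) (t : ℝ) : Prop :=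
  ∃ M a b : ℕ, a ∣ N ^ M ∧ b ∣ N ^ M ∧ 0 < b ∧ t * b = a

theorem IsNUnit.one (N : ℕ) : IsNUnit N 1 := ⟨0, 1, 1, by simp, by simp, one_pos, by simp⟩

theorem IsNUnit.mul {N : ℕ} {s t : ℝ} (hs : IsNUnit N s) (ht : IsNUnit N t) :
    IsNUnit N (s * t) := by
  obtain ⟨M, a, b, ha, hb, hb0, h⟩ := hs
  obtain ⟨M', a', b', ha', hb', hb0', h'⟩ := ht
  refine ⟨M + M', a * a', b * b', ?_, ?_, Nat.mul_pos hb0 hb0', ?_⟩
  · rw [pow_add]; exact Nat.mul_dvd_mul ha ha'
  · rw [pow_add]; exact Nat.mul_dvd_mul hb hb'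
  · push_cast
    rw [← h, ← h']
    ring

theorem IsNUnit.finset_prod {N : ℕ} {ι : Type*} (s : Finset ι) {t : ι → ℝ}
    (h : ∀ i ∈ s, IsNUnit N (t i)) : IsNUnit N (∏ i ∈ s, t i) := by
  classical
  induction s using Finset.induction_on with
  | empty => simpa using IsNUnit.one N
  | insert a s ha ih =>
    rw [Finset.prod_insert ha]
    exact (h a (Finset.mem_insert_self a s)).mul (ih fun i hi => h i (Finset.mem_insert_of_mem hi))

theorem IsNUnit.natCast_zpow {N d : ℕ} (hd : d ∣ N) (hd0 : 0 < d) (k : ℕ) (z : ℤ) :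
    IsNUnit N (((d : ℝ) ^ k) ^ z) := by
  have hdR : (d : ℝ) ≠ 0 := by exact_mod_cast hd0.ne'
  obtain ⟨m, rfl | rfl⟩ := z.eq_nat_or_neg
  · refine ⟨k * m, d ^ (k * m), 1, ?_, one_dvd _, one_pos, ?_⟩
    · exact pow_dvd_pow_of_dvd hd _
    · rw [zpow_natCast, ← pow_mul]
      push_cast
      ring
  · refine ⟨k * m, 1, d ^ (k * m), one_dvd _, pow_dvd_pow_of_dvd hd _, pow_pos hd0 _, ?_⟩
    rw [zpow_neg, zpow_natCast, ← pow_mul]
    push_cast
    rw [inv_mul_cancel₀ (pow_ne_zero _ hdR)]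

/-! ## Modular functions of level `N`: eta quotients and `j(dτ)` -/

theorem isModFun_etaQ (N : ℕ) (r : ℕ → ℤ) (hr : ∑ δ ∈ N.divisors, r δ = 0) :
    IsModFun N (etaQ N r) := by
  refine ⟨mdiff_etaQ N r, fun γ hγ τ => etaQ_smul_of_mem_Gamma0 N r hr hγ τ, fun γ => ?_⟩
  obtain ⟨A, D, C, -, -, h⟩ := exists_asymp_etaQ_smul N r hr γ
  exact h.evGrowth

theorem asymp_jFun : Asymp helper1644.jFun 1 (-1) := by
  have h1 : Asymp (fun τ : ℍ => E₄ τ) 1 0 := by
    unfold Asymp
    simp only [neg_zero, expI_zero, mul_one]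
    exact helper1644.tendsto_E₄_atImInfty
  have h2 := (h1.pow 3).mul (asymp_discriminant.inv one_ne_zero)
  have he : ((3 : ℕ) : ℝ) * 0 + -1 = -1 := by norm_num
  rw [he] at h2
  have hc : (1 : ℂ) ^ 3 * 1⁻¹ = 1 := by norm_num
  rw [hc] at h2
  exact h2.congr fun τ => by rw [helper1644.jFun, div_eq_mul_inv]

theorem isModFun_jScale (N : ℕ) {d : ℕ} (hd : d ∣ N) (hd0 : 0 < d) :
    IsModFun N (fun τ => helper1644.jFun (affH d 0 1 τ)) := by
  refine ⟨mdiff_comp_affH hd0 one_pos 0 helper1644.mdifferentiable_jFun, fun γ hγ τ => ?_,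
    fun γ => ?_⟩
  · obtain ⟨a, b, d', ha, had, hb, h⟩ := Lib.helper319.exists_hermite_invariant d hd0 γ
    have hNc : (N : ℤ) ∣ γ 1 0 := by
      rw [Gamma0_mem] at hγ
      exact (ZMod.intCast_zmod_eq_zero_iff_dvd _ _).mp hγ
    have hdc : d ∣ (γ 1 0).natAbs := by
      have : (d : ℤ) ∣ γ 1 0 := (Int.natCast_dvd_natCast.mpr hd).trans hNc
      exact Int.natCast_dvd.mp this
    have had' : a = d := by rw [ha]; exact Nat.gcd_eq_right hdc
    have hd1 : d' = 1 := by
      rw [had'] at had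
      exact Nat.eq_of_mul_eq_mul_left hd0 (by rw [had, mul_one])
    have hb0 : b = 0 := by rw [hd1] at hb; omega
    subst had' hd1 hb0
    refine h helper1644.jFun helper1644.jFun_smul τ _ _ ?_ ?_
    · rw [coe_affH hd0 one_pos]; simp
    · rw [coe_affH hd0 one_pos]
  · obtain ⟨a, b, d', ha, had, hb, h⟩ := Lib.helper319.exists_hermite_invariant d hd0 γ
    have ha0 : 0 < a := by
      rcases Nat.eq_zero_or_pos a with h0 | h0
      · rw [h0, zero_mul] at had; omega
      · exact h0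
    have hd0' : 0 < d' := by
      rcases Nat.eq_zero_or_pos d' with h0 | h0
      · rw [h0, mul_zero] at had; omega
      · exact h0
    have h1 := (asymp_jFun.comp_affH ha0 hd0' b).evGrowth
    have h2 : (fun τ => helper1644.jFun (affH d 0 1 (γ • τ)))
        = fun τ => helper1644.jFun (affH a b d' τ) := by
      funext τ
      refine h helper1644.jFun helper1644.jFun_smul τ _ _ ?_ ?_
      · rw [coe_affH hd0 one_pos]; simp
      · rw [coe_affH ha0 hd0']
    rw [h2]
    exact h1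

/-! ## The orbit polynomial of `u_N` -/

/-- The eta quotient `u_N` with the exponents of helper388. -/
def etaU (N : ℕ) : ℍ → ℂ := etaQ N (helper388.etaExp N)

theorem isModFun_etaU (N : ℕ) [NeZero N] : IsModFun N (etaU N) :=
  isModFun_etaQ N _ (helper388.sum_etaExp (NeZero.ne N))

/-- The orbit polynomial of `u_N`, with the coset product, the limits and the norm. -/
theorem exists_eta_orbit_poly_prod (N : ℕ) [NeZero N] [Fintype (SL(2, ℤ) ⧸ Gamma0 N)] :
    ∃ P : Polynomial (Polynomial ℂ), P.Monic ∧ P.natDegree = (Gamma0 N).index ∧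
      (∀ τ : ℍ, P.map (Polynomial.evalRingHom (helper1644.jFun τ))
        = ∏ x : SL(2, ℤ) ⧸ Gamma0 N, (Polynomial.X - Polynomial.C (conjFun N (etaU N) x τ))) ∧
      (∀ τ : ℍ, (P.map (Polynomial.evalRingHom (helper1644.jFun τ))).eval (etaU N τ) = 0) ∧
      (∀ j : ℕ, j + 1 < (Gamma0 N).index →
        Tendsto (fun τ => ∑ i ∈ Finset.Icc (j + 1) (Gamma0 N).index,
          etaU N τ ^ (i - (j + 1)) * (P.coeff i).eval (helper1644.jFun τ)) atImInfty (𝓝 0)) ∧
      ∃ K : ℂ, P.coeff 0 = Polynomial.C K ∧ IsNUnit N ‖K‖ := by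
  classical
  have hN : N ≠ 0 := NeZero.ne N
  have hcard : Fintype.card (SL(2, ℤ) ⧸ Gamma0 N) = (Gamma0 N).index := by
    rw [Subgroup.index_eq_card, Nat.card_eq_fintype_card]
  have hf := isModFun_etaU N
  obtain ⟨P, hmonic, hdeg, hP⟩ := hf.exists_orbit_poly
  rw [hcard] at hdeg
  set x₀ : SL(2, ℤ) ⧸ Gamma0 N := QuotientGroup.mk 1 with hx₀
  have hconj0 : conjFun N (etaU N) x₀ = etaU N := conjFun_one hf.inv
  -- factor out the trivial coset
  have hfac : ∀ τ : ℍ, P.map (Polynomial.evalRingHom (helper1644.jFun τ))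
      = (Polynomial.X - Polynomial.C (etaU N τ)) *
        ∏ x ∈ Finset.univ.erase x₀, (Polynomial.X - Polynomial.C (conjFun N (etaU N) x τ)) := by
    intro τ
    rw [hP τ, ← Finset.mul_prod_erase Finset.univ _ (Finset.mem_univ x₀), hconj0]
  have hdegτ : ∀ τ : ℍ, (P.map (Polynomial.evalRingHom (helper1644.jFun τ))).natDegree
      = (Gamma0 N).index := fun τ => by rw [hmonic.natDegree_map, hdeg]
  refine ⟨P, hmonic, hdeg, hP, fun τ => ?_, fun j hj => ?_, ?_⟩
  · rw [hfac τ]; simp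
  · -- conjugates at the other cosets tend to zero
    have hzero : ∀ x ∈ Finset.univ.erase x₀,
        Tendsto (conjFun N (etaU N) x) atImInfty (𝓝 0) := by
      intro x hx
      have hx' : x ≠ x₀ := Finset.ne_of_mem_erase hx
      have hnot := out_inv_not_mem hx'
      have hnd : ¬ (N : ℤ) ∣ ((Quotient.out x)⁻¹ : SL(2, ℤ)) 1 0 := by
        intro hdiv
        apply hnot
        rw [Gamma0_mem]
        exact (ZMod.intCast_zmod_eq_zero_iff_dvd _ _).mpr hdiv
      obtain ⟨D, C, -, -, hAs⟩ := exists_asymp_etaQ_etaExp hN _ hnd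
      have hpos : (0 : ℝ) < (helper388.etaPhi N : ℝ) := by exact_mod_cast helper388.etaPhi_pos N
      exact hAs.tendsto_zero hpos
    have h1 := tendsto_coeff_prod (conjFun N (etaU N)) (Finset.univ.erase x₀) hzero j
    have hcard' : (Finset.univ.erase x₀).card = (Gamma0 N).index - 1 := by
      rw [Finset.card_erase_of_mem (Finset.mem_univ x₀), Finset.card_univ, hcard]
    have hne : j ≠ (Finset.univ.erase x₀).card := by rw [hcard']; omega
    rw [if_neg hne] at h1
    refine h1.congr fun τ => ?_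
    have h2 : (∏ x ∈ Finset.univ.erase x₀,
        (Polynomial.X - Polynomial.C (conjFun N (etaU N) x τ)))
        = P.map (Polynomial.evalRingHom (helper1644.jFun τ)) /ₘ
          (Polynomial.X - Polynomial.C (etaU N τ)) := by
      rw [hfac τ, Polynomial.mul_divByMonic_cancel_left _ (Polynomial.monic_X_sub_C _)]
    rw [h2, Polynomial.coeff_divByMonic_X_sub_C, hdegτ τ]
    refine Finset.sum_congr rfl fun i _ => ?_
    rw [Polynomial.coeff_map, Polynomial.coe_evalRingHom]
  · -- the constant term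
    have hval : ∀ τ : ℍ, (P.coeff 0).eval (helper1644.jFun τ)
        = ∏ x : SL(2, ℤ) ⧸ Gamma0 N, ((-1 : ℂ) * conjFun N (etaU N) x τ) := by
      intro τ
      have h1 : (P.map (Polynomial.evalRingHom (helper1644.jFun τ))).coeff 0
          = (P.coeff 0).eval (helper1644.jFun τ) := by
        rw [Polynomial.coeff_map, Polynomial.coe_evalRingHom]
      rw [← h1, hP τ, Polynomial.coeff_zero_eq_eval_zero, Polynomial.eval_prod]
      refine Finset.prod_congr rfl fun x _ => ?_
      simp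
    have hne : ∀ τ : ℍ, (P.coeff 0).eval (helper1644.jFun τ) ≠ 0 := by
      intro τ
      rw [hval τ]
      refine Finset.prod_ne_zero_iff.mpr fun x _ => ?_
      exact mul_ne_zero (by norm_num) (etaQ_ne_zero _ _ _)
    have hdeg0 : (P.coeff 0).degree = 0 := by
      by_contra hd
      obtain ⟨z, hz⟩ := IsAlgClosed.exists_root (P.coeff 0) hd
      obtain ⟨τ, rfl⟩ := helper1644.jFun_surjective z
      exact hne τ hz
    obtain ⟨K, hK⟩ : ∃ K : ℂ, P.coeff 0 = Polynomial.C K :=
      ⟨_, Polynomial.eq_C_of_degree_eq_zero hdeg0⟩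
    refine ⟨K, hK, ?_⟩
    have hKval : ∀ τ : ℍ, K = ∏ x : SL(2, ℤ) ⧸ Gamma0 N, ((-1 : ℂ) * conjFun N (etaU N) x τ) := by
      intro τ
      rw [← hval τ, hK, Polynomial.eval_C]
    -- asymptotics of all conjugates
    have hr := helper388.sum_etaExp hN
    choose A D C hAD hC hAs using fun x : SL(2, ℤ) ⧸ Gamma0 N =>
      exists_asymp_etaQ_smul N (helper388.etaExp N) hr ((Quotient.out x)⁻¹)
    have hDpos : ∀ x, ∀ δ ∈ N.divisors, 0 < D x δ := by
      intro x δ hδ
      have hδ0 : 0 < δ := Nat.pos_of_mem_divisors hδ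
      have := (hAD x δ hδ0).1
      rcases Nat.eq_zero_or_pos (D x δ) with h0 | h0
      · rw [h0, mul_zero] at this; omega
      · exact h0
    have hDdvd : ∀ x, ∀ δ ∈ N.divisors, D x δ ∣ N := by
      intro x δ hδ
      have hδ0 : 0 < δ := Nat.pos_of_mem_divisors hδ
      exact (Dvd.intro_left _ (hAD x δ hδ0).1).trans (Nat.dvd_of_mem_divisors hδ)
    have hCunit : ∀ x, IsNUnit N ‖C x‖ := by
      intro x
      rw [hC x]
      exact IsNUnit.finset_prod _ fun δ hδ =>
        IsNUnit.natCast_zpow (hDdvd x δ hδ) (hDpos x δ hδ) 12 _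
    have hCne : ∀ x, C x ≠ 0 := by
      intro x h0
      obtain ⟨M, a, b, ha, hb, hb0, h⟩ := hCunit x
      rw [h0, norm_zero, zero_mul] at h
      have ha0 : a = 0 := by exact_mod_cast h.symm
      rw [ha0] at ha
      exact pow_ne_zero M hN (zero_dvd_iff.mp ha)
    have hprod := Asymp.finset_prod (Finset.univ : Finset (SL(2, ℤ) ⧸ Gamma0 N))
      (f := fun x τ => (-1 : ℂ) * conjFun N (etaU N) x τ) (C := fun x => (-1 : ℂ) * C x)
      (e := fun x => 0 + ∑ δ ∈ N.divisors, (helper388.etaExp N δ : ℝ) * ((A x δ : ℝ) / D x δ))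
      (fun x _ => (asymp_const (-1)).mul (hAs x))
    have hconst : Asymp (fun _ : ℍ => K) (∏ x : SL(2, ℤ) ⧸ Gamma0 N, (-1 : ℂ) * C x) _ :=
      hprod.congr fun τ => (hKval τ).symm
    have hnorm := hconst.norm_eq_of_const
      (Finset.prod_ne_zero_iff.mpr fun x _ => mul_ne_zero (by norm_num) (hCne x))
    rw [hnorm, norm_prod]
    refine IsNUnit.finset_prod _ fun x _ => ?_
    rw [norm_mul, norm_neg, norm_one, one_mul]
    exact hCunit x

theorem exists_eta_orbit_poly (N : ℕ) [NeZero N] :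
    ∃ P : Polynomial (Polynomial ℂ), P.Monic ∧ P.natDegree = (Gamma0 N).index ∧
      (∀ τ : ℍ, (P.map (Polynomial.evalRingHom (helper1644.jFun τ))).eval (etaU N τ) = 0) ∧
      (∀ j : ℕ, j + 1 < (Gamma0 N).index →
        Tendsto (fun τ => ∑ i ∈ Finset.Icc (j + 1) (Gamma0 N).index,
          etaU N τ ^ (i - (j + 1)) * (P.coeff i).eval (helper1644.jFun τ)) atImInfty (𝓝 0)) ∧
      ∃ K : ℂ, P.coeff 0 = Polynomial.C K ∧ IsNUnit N ‖K‖ := by
  let _ : Fintype (SL(2, ℤ) ⧸ Gamma0 N) := Fintype.ofFinite _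
  obtain ⟨P, h1, h2, -, h4, h5, h6⟩ := exists_eta_orbit_poly_prod N
  exact ⟨P, h1, h2, h4, h5, h6⟩

end Fermat.Agent.S28.helper2346

end
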