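import Mathlib
import Fermat.Agent.S28.helper695_LightConsequences

/-!
# S28: the light modular data imply helper2608's `Spec.Stmt_CoreInput` (helper695)

`n = D`, `L = ℚ(jq, u)`, `b i = u ^ i`.
-/

set_option autoImplicit false

noncomputable section

namespace Fermat.Agent.S28.helper695

open ModularCurve Polynomial IntermediateField

/-! ## Clearing denominators in a linear relation -/

lemma clear_denoms {ι : Type} [Fintype ι] [DecidableEq ι] {P E : Type} [CommRing P] [Field E]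
    (φ : P →+* E) (x g : ι → E) (hrel : ∑ i, g i * x i = 0) (c τ : ι → P)
    (hτ : ∀ i, φ (τ i) ≠ 0) (hc : ∀ i, φ (τ i) * g i = φ (c i)) :
    ∃ c' : ι → P, ∑ i, φ (c' i) * x i = 0 ∧ ∀ i, g i ≠ 0 → φ (c' i) ≠ 0 := by
  have key : ∀ i, φ (c i * ∏ j ∈ Finset.univ.erase i, τ j) = (∏ j, φ (τ j)) * g i := by
    intro i
    rw [map_mul, map_prod, ← hc i, ← Finset.mul_prod_erase Finset.univ (fun j => φ (τ j))
      (Finset.mem_univ i)]
    ring
  refine ⟨fun i => c i * ∏ j ∈ Finset.univ.erase i, τ j, ?_, ?_⟩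
  · simp only [key, mul_assoc]
    rw [← Finset.mul_sum, hrel, mul_zero]
  · intro i hi
    rw [key]
    exact mul_ne_zero (Finset.prod_ne_zero_iff.mpr fun j _ => hτ j) hi

/-! ## `DegLE` for `ℚ(jq, U)` -/

lemma aeval_int_eq (c : Polynomial ℤ) :
    Polynomial.aeval jq c = evalJ ℚ (c.map (Int.castRingHom ℚ)) := by
  have h : (Polynomial.aeval (R := ℤ) jq).toRingHom =
      (evalJ ℚ).comp (Polynomial.mapRingHom (Int.castRingHom ℚ)) := by
    refine Polynomial.ringHom_ext (fun n => ?_) ?_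
    · simp only [AlgHom.toRingHom_eq_coe, eq_intCast, map_intCast]
    · simp only [AlgHom.toRingHom_eq_coe, RingHom.coe_coe, aeval_X, RingHom.comp_apply,
        coe_mapRingHom, Polynomial.map_X]
      rfl
  exact congrArg (fun f : Polynomial ℤ →+* LaurentSeries ℚ => f c) h

theorem degLE_adjoin (U : LaurentSeries ℚ) (D : ℕ) (χ : Polynomial (Polynomial ℚ))
    (hχ : χ.Monic) (hD : χ.natDegree = D) (hU : χ.eval₂ (evalJ ℚ) U = 0) :
    Spec.DegLE (IntermediateField.adjoin ℚ {jq, U}) D := by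
  classical
  intro x hx
  -- the base field `K₀ = ℚ(jq)` and the generator
  let K₀ : IntermediateField ℚ (LaurentSeries ℚ) := ℚ⟮jq⟯
  have hj0 : jqModC ℚ ∈ K₀ := IntermediateField.mem_adjoin_simple_self ℚ jq
  let φ : Polynomial ℚ →+* K₀ :=
    { toFun := fun Q => ⟨evalJ ℚ Q, evalJ_mem K₀ hj0 Q⟩
      map_one' := Subtype.ext (map_one _)
      map_mul' := fun a b => Subtype.ext (map_mul _ a b)
      map_zero' := Subtype.ext (map_zero _)
      map_add' := fun a b => Subtype.ext (map_add _ a b) }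
  have hφ : (algebraMap K₀ (LaurentSeries ℚ)).comp φ = evalJ ℚ := RingHom.ext fun Q => rfl
  -- `U` is integral over `K₀`
  have hUint : IsIntegral K₀ U := by
    refine ⟨χ.map φ, hχ.map φ, ?_⟩
    rw [Polynomial.eval₂_map, hφ]
    exact hU
  have hfin : Module.finrank K₀ K₀⟮U⟯ ≤ D := by
    rw [IntermediateField.adjoin.finrank hUint, ← hD, ← hχ.natDegree_map φ]
    refine Polynomial.natDegree_le_of_dvd (minpoly.dvd K₀ U ?_) (hχ.map φ).ne_zero
    rw [Polynomial.aeval_def, Polynomial.eval₂_map, hφ]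
    exact hU
  haveI : FiniteDimensional K₀ K₀⟮U⟯ := IntermediateField.adjoin.finiteDimensional hUint
  -- `L ⊆ K₀(U)`
  have hLle : ∀ z ∈ IntermediateField.adjoin ℚ {jq, U}, z ∈ K₀⟮U⟯ := by
    intro z hz
    induction hz using IntermediateField.adjoin_induction with
    | mem z hz =>
      rcases hz with rfl | rfl
      · exact (K₀⟮U⟯).algebraMap_mem (⟨jq, hj0⟩ : K₀)
      · exact IntermediateField.mem_adjoin_simple_self K₀ z
    | algebraMap r =>
      exact (K₀⟮U⟯).algebraMap_mem (⟨algebraMap ℚ (LaurentSeries ℚ) r, K₀.algebraMap_mem r⟩ : K₀)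
    | add z w _ _ hz hw => exact add_mem hz hw
    | inv z _ hz => exact inv_mem hz
    | mul z w _ _ hz hw => exact mul_mem hz hw
  let y : Fin (D + 1) → K₀⟮U⟯ := fun i => ⟨x i, hLle _ (hx i)⟩
  have hdep : ¬ LinearIndependent K₀ y := by
    intro hli
    have := hli.fintype_card_le_finrank
    rw [Fintype.card_fin] at this
    omega
  obtain ⟨g, hg, i₀, hi₀⟩ := Fintype.not_linearIndependent_iff.mp hdep
  -- the relation in `ℚ((q))`
  have hrel : ∑ i, ((g i : K₀) : LaurentSeries ℚ) * x i = 0 := by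
    have h1 := congrArg (fun z : K₀⟮U⟯ => (z : LaurentSeries ℚ)) hg
    simpa [y, IntermediateField.coe_sum, Algebra.smul_def] using h1
  -- step 1: polynomials over `ℚ`
  have hrs : ∀ i, ∃ r s : Polynomial ℚ, evalJ ℚ s ≠ 0 ∧
      evalJ ℚ s * ((g i : K₀) : LaurentSeries ℚ) = evalJ ℚ r := by
    intro i
    obtain ⟨r, s, hrs⟩ := (IntermediateField.mem_adjoin_simple_iff ℚ _).mp (g i).2
    by_cases hs : Polynomial.aeval jq s = 0
    · refine ⟨0, 1, by simp [evalJ], ?_⟩
      rw [hrs, hs, div_zero, mul_zero, map_zero]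
    · refine ⟨r, s, hs, ?_⟩
      rw [hrs]
      exact mul_div_cancel₀ _ hs
  choose r s hs hrs using hrs
  obtain ⟨c₁, hc₁, hc₁ne⟩ := clear_denoms (evalJ ℚ) x
    (fun i => ((g i : K₀) : LaurentSeries ℚ)) hrel r s hs hrs
  have hc₁i₀ : c₁ i₀ ≠ 0 := by
    intro h0
    refine hc₁ne i₀ ?_ (by rw [h0, map_zero])
    exact fun h => hi₀ (Subtype.ext h)
  -- step 2: polynomials over `ℤ`
  have hint : ∀ i, ∃ (b : ℤ) (c' : Polynomial ℤ), b ≠ 0 ∧
      c'.map (Int.castRingHom ℚ) = (b : ℚ) • c₁ i := by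
    intro i
    obtain ⟨b, hbM, hb⟩ := IsLocalization.integerNormalization_spec (nonZeroDivisors ℤ) (c₁ i)
    refine ⟨b, IsLocalization.integerNormalization (nonZeroDivisors ℤ) (c₁ i),
      nonZeroDivisors.ne_zero hbM, ?_⟩
    rw [algebraMap_int_eq] at hb
    rw [hb]
    ext k
    simp [Polynomial.coeff_smul, zsmul_eq_mul]
  choose b c' hb hc' using hint
  let ψ : Polynomial ℤ →+* LaurentSeries ℚ :=
    (evalJ ℚ).comp (Polynomial.mapRingHom (Int.castRingHom ℚ))
  obtain ⟨c₂, hc₂, hc₂ne⟩ := clear_denoms ψ x (fun i => evalJ ℚ (c₁ i)) hc₁ c'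
    (fun i => Polynomial.C (b i))
    (fun i => by
      simp only [ψ, RingHom.comp_apply, coe_mapRingHom, Polynomial.map_C, evalJ_C]
      intro h0
      have := congrArg (fun z : LaurentSeries ℚ => z.coeff 0) h0
      simp at this
      exact hb i this)
    (fun i => by
      simp only [ψ, RingHom.comp_apply, coe_mapRingHom, Polynomial.map_C, evalJ_C, hc' i]
      rw [Polynomial.smul_eq_C_mul, map_mul, evalJ_C]
      rfl)
  refine ⟨c₂, ?_, ?_⟩
  · intro h0
    have h1 := hc₂ne i₀ (fun h => hc₁i₀ (evalJ_injective (by rw [h, map_zero])))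
    apply h1
    rw [h0]
    simp
  · rw [← hc₂]
    refine Finset.sum_congr rfl fun i _ => ?_
    rw [aeval_int_eq]
    rfl

/-! ## The adapter -/

/-- **The light modular data give helper2608's modular input**: `n = D`, `L = ℚ(jq, u)`,
`b i = u ^ i`. -/
theorem stmt_CoreInput_of_light {N : ℕ} {u : LaurentSeries ℤ} {D : ℕ}
    (h : Stmt_ModDataLight N u D) (ℓ : ℕ) [Fact ℓ.Prime] (hℓN : ¬ ℓ ∣ N) :
    Spec.Stmt_CoreInput N ℓ := by
  obtain ⟨χZ, ΓZ, hχZm, hχZd, hΓZm, hΓZ0, hfacZ, -, -, -, -⟩ := exists_intPackage h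
  have hH3 := stmt_H3_of_light h ℓ hℓN
  have hH4 := stmt_H4_of_light h
  have huL : castR ℚ u ∈ IntermediateField.adjoin ℚ {jq, castR ℚ u} :=
    IntermediateField.subset_adjoin ℚ _ (Set.mem_insert_of_mem _ rfl)
  have hroot : χZ.eval₂ (evalJ ℤ) u = 0 := by
    rw [Polynomial.eval₂_eq_eval_map, hfacZ, eval_mul, eval_sub, eval_X, eval_C, sub_self,
      zero_mul]
  have hint : (evalJ ℤ).IsIntegralElem u := ⟨χZ, hχZm, hroot⟩
  refine ⟨D, IntermediateField.adjoin ℚ {jq, castR ℚ u}, fun i => u ^ (i : ℕ), hH4, ?_, ?_, ?_, ?_⟩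
  · intro i
    show Spec.toQ (u ^ (i : ℕ)) ∈ _
    rw [map_pow]
    exact pow_mem huL _
  · intro i
    have hpow : ∀ k : ℕ, (evalJ ℤ).IsIntegralElem (u ^ k) := by
      intro k
      induction k with
      | zero => rw [pow_zero]; exact (evalJ ℤ).isIntegralElem_one
      | succ k ih => rw [pow_succ]; exact RingHom.IsIntegralElem.mul _ ih hint
    exact hpow i
  · refine degLE_adjoin (castR ℚ u) D (χZ.map (Polynomial.mapRingHom (Int.castRingHom ℚ)))
      (hχZm.map _) (by rw [hχZm.natDegree_map, hχZd]) ?_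
    have h1 := factorisation_baseChange ℚ u χZ ΓZ hfacZ
    rw [Polynomial.eval₂_eq_eval_map, h1, eval_mul, eval_sub, eval_X, eval_C, sub_self, zero_mul]
  · intro c hc
    apply hH3 c
    rw [← hc]
    refine Finset.sum_congr rfl fun i _ => ?_
    show _ = _ * Spec.toFl ℓ (u ^ (i : ℕ))
    rw [map_pow]

end Fermat.Agent.S28.helper695

end
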