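import Fermat.Agent.S28.helper2346_Dict
import Fermat.Agent.S28.helper695_LightSpec
import Fermat.Agent.S28.helper388_Lagrange
import Fermat.Agent.S28.helper695_LightCoreInput

/-!
# S28 (route E, light form): the modular data for the eta quotient `u_N`

`modDataLight N : helper695.Stmt_ModDataLight N u_N [SL(2,ℤ) : Γ₀(N)]`, where
`u_N = etaW ℤ N (etaExp N) ∈ ℤ((q))` is the formal eta quotient: instantiation of the analytic
deliverable `exists_eta_series_poly_prod` (clauses (L1), (L2)) and of helper388's Lagrange clause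
(L3).
-/

set_option autoImplicit false

open UpperHalfPlane hiding I
open ModularForm Filter Complex CongruenceSubgroup EisensteinSeries
open scoped Manifold Topology MatrixGroups Real

noncomputable section

namespace Fermat.Agent.S28.helper2346

open Fermat.Agent.S24 Fermat.Agent.S24.helper315 ModularCurve

/-- A Laurent series without negative exponents is a power series. -/
theorem exists_ofPowerSeries_eq (s : LaurentSeries ℂ) (h : ∀ k : ℤ, k < 0 → s.coeff k = 0) :
    HahnSeries.ofPowerSeries ℤ ℂ (PowerSeries.mk fun m : ℕ => s.coeff m) = s := by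
  ext k
  rcases le_or_gt 0 k with hk | hk
  · lift k to ℕ using hk
    rw [HahnSeries.ofPowerSeries_apply_coeff, PowerSeries.coeff_mk]
  · rw [ofPowerSeries_coeff_of_neg _ hk, h k hk]

theorem index_Gamma0_pos (N : ℕ) [NeZero N] : 0 < (Gamma0 N).index :=
  Nat.pos_of_ne_zero Subgroup.FiniteIndex.index_ne_zero

/-- **The light modular data** for the eta quotient `u_N`. -/
theorem modDataLight (N : ℕ) [NeZero N] :
    helper695.Stmt_ModDataLight N (etaW ℤ N (helper388.etaExp N) : LaurentSeries ℤ)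
      (Gamma0 N).index := by
  classical
  let _ : Fintype (SL(2, ℤ) ⧸ Gamma0 N) := Fintype.ofFinite _
  have hN : N ≠ 0 := NeZero.ne N
  obtain ⟨P, hmonic, hdeg, hprod, hrel, hG, K, hK, hKunit⟩ := exists_eta_series_poly_prod N
  set n := (Gamma0 N).index with hn
  have hnpos : 0 < n := index_Gamma0_pos N
  set w : LaurentSeries ℂ := (etaW ℂ N (helper388.etaExp N) : LaurentSeries ℂ) with hw
  have hcast : helper695.castR ℂ (etaW ℤ N (helper388.etaExp N) : LaurentSeries ℤ) = w :=
    coeffMap_etaW_val (Int.castRingHom ℂ) N (helper388.etaExp N)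
  -- the polynomial over `ℂ((q))`
  set χJ : Polynomial (LaurentSeries ℂ) := P.map (helper695.evalJ ℂ) with hχJ
  have hχJmonic : χJ.Monic := hmonic.map _
  have hχJdeg : χJ.natDegree = n := by rw [hχJ, hmonic.natDegree_map, hdeg]
  have hχJcoeff : ∀ i, χJ.coeff i = Polynomial.aeval (jqModC ℂ) (P.coeff i) := fun i => by
    rw [hχJ, Polynomial.coeff_map]
    rfl
  have hroot : χJ.IsRoot w := by
    rw [Polynomial.IsRoot, Polynomial.eval_eq_sum_range, hχJdeg]
    simp only [hχJcoeff]
    exact hrel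
  set Q : Polynomial (LaurentSeries ℂ) := χJ /ₘ (Polynomial.X - Polynomial.C w) with hQ
  have hfac : χJ = (Polynomial.X - Polynomial.C w) * Q :=
    (Polynomial.mul_divByMonic_eq_iff_isRoot.mpr hroot).symm
  have hQmonic : Q.Monic :=
    (Polynomial.monic_X_sub_C w).of_mul_monic_left (hfac ▸ hχJmonic)
  have hQcoeff : ∀ j, Q.coeff j = ∑ i ∈ Finset.Icc (j + 1) n,
      w ^ (i - (j + 1)) * Polynomial.aeval (jqModC ℂ) (P.coeff i) := by
    intro j
    rw [hQ, Polynomial.coeff_divByMonic_X_sub_C, hχJdeg]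
    simp only [hχJcoeff]
  have hQtop : Q.coeff (n - 1) = 1 := by
    rw [hQcoeff, show n - 1 + 1 = n by omega, Finset.Icc_self, Finset.sum_singleton,
      Nat.sub_self, pow_zero, one_mul, ← hχJcoeff, ← hχJdeg]
    exact hχJmonic
  have hQhigh : ∀ j, n ≤ j → Q.coeff j = 0 := by
    intro j hj
    rw [hQcoeff, Finset.Icc_eq_empty (by omega), Finset.sum_empty]
  have hQlow : ∀ j, j + 1 < n → ∀ k : ℤ, k ≤ 0 → (Q.coeff j).coeff k = 0 := by
    intro j hj k hk
    rw [hQcoeff]
    exact hG j hj k hk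
  have hQneg : ∀ j, ∀ k : ℤ, k < 0 → (Q.coeff j).coeff k = 0 := by
    intro j k hk
    rcases lt_trichotomy (j + 1) n with h | h | h
    · exact hQlow j h k hk.le
    · have : j = n - 1 := by omega
      rw [this, hQtop, HahnSeries.coeff_one, if_neg hk.ne]
    · rw [hQhigh j (by omega), HahnSeries.coeff_zero]
  -- lift `Q` to power series coefficients
  have hlift : Q ∈ Polynomial.lifts (HahnSeries.ofPowerSeries ℤ ℂ) := by
    rw [Polynomial.lifts_iff_coeff_lifts]
    intro j
    exact ⟨_, exists_ofPowerSeries_eq (Q.coeff j) (hQneg j)⟩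
  obtain ⟨Γ, hΓ⟩ := (Polynomial.mem_lifts Q).mp hlift
  have hΓmonic : Γ.Monic := by
    have hinj : Function.Injective (HahnSeries.ofPowerSeries ℤ ℂ) :=
      HahnSeries.ofPowerSeries_injective
    refine Polynomial.monic_of_injective (f := HahnSeries.ofPowerSeries ℤ ℂ) hinj ?_
    rw [hΓ]
    exact hQmonic
  have hΓcoeff : ∀ j, PowerSeries.constantCoeff (Γ.coeff j) = (Q.coeff j).coeff 0 := by
    intro j
    rw [← hΓ, Polynomial.coeff_map]
    have h1 : (HahnSeries.ofPowerSeries ℤ ℂ (Γ.coeff j)).coeff ((0 : ℕ) : ℤ)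
        = PowerSeries.coeff 0 (Γ.coeff j) := HahnSeries.ofPowerSeries_apply_coeff _ 0
    rw [Nat.cast_zero] at h1
    rw [h1, PowerSeries.coeff_zero_eq_constantCoeff_apply]
  refine ⟨P, Γ, hmonic, hdeg, hΓmonic, ?_, ?_, ?_, ?_⟩
  · -- Γ ≡ X^(n-1) mod q
    ext j
    rw [Polynomial.coeff_map, hΓcoeff, Polynomial.coeff_X_pow]
    rcases lt_trichotomy (j + 1) n with h | h | h
    · rw [hQlow j h 0 le_rfl, if_neg (by omega)]
    · have : j = n - 1 := by omega
      rw [this, hQtop, if_pos rfl, HahnSeries.coeff_one, if_pos rfl]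
    · rw [hQhigh j (by omega), if_neg (by omega), HahnSeries.coeff_zero]
  · -- the factorisation
    rw [hcast, hΓ]
    exact hfac
  · -- the norm
    obtain ⟨M, a, b, ha, hb, hb0, hab⟩ := hKunit
    have hlc : (P.coeff 0).leadingCoeff = K := by rw [hK, Polynomial.leadingCoeff_C]
    refine ⟨a, b, ?_, hb0, ?_, ?_⟩
    · rcases Nat.eq_zero_or_pos a with h0 | h0
      · rw [h0] at ha
        exact absurd (zero_dvd_iff.mp ha) (pow_ne_zero M hN)
      · exact h0
    · intro p hp hdvd
      rcases (Nat.Prime.dvd_mul hp).mp hdvd with h | h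
      · exact hp.dvd_of_dvd_pow (h.trans ha)
      · exact hp.dvd_of_dvd_pow (h.trans hb)
    · rw [hlc]
      exact hab
  · -- Lagrange
    intro d hd hd0
    have hr := helper388.sum_etaExp hN
    have hχ : ∀ τ : ℍ, P.map (Polynomial.evalRingHom (Lib.helper843.jInv τ)) =
        ∏ x : SL(2, ℤ) ⧸ Gamma0 N, (Polynomial.X - Polynomial.C
          (helper407.etaQuot N (helper388.etaExp N) ((Quotient.out x : SL(2, ℤ))⁻¹ • τ))) :=
      fun τ => hprod τ
    obtain ⟨G, hGd⟩ := helper388.lagrange_clause N (helper388.etaExp N) hr P hχ d hd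
    have hexp : cuspExpFun ((1 : ℕ) : ℝ) (helper407.etaQuot N (helper388.etaExp N)) = w := by
      rw [Nat.cast_one]
      exact (hasExp_etaU N).2
    rw [hexp] at hGd
    refine ⟨G, ?_⟩
    rw [hcast]
    exact hGd

/-- **Route E**: the modular input of the Igusa core, for every level `N` and prime `ℓ ∤ N`
(an independent second proof of `Spec.Stmt_CoreInput`, via the eta quotient `u_N`). -/
theorem stmt_CoreInput_routeE (N : ℕ) [NeZero N] (ℓ : ℕ) [Fact ℓ.Prime] (hℓN : ¬ ℓ ∣ N) :
    Spec.Stmt_CoreInput N ℓ :=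
  helper695.stmt_CoreInput_of_light (modDataLight N) ℓ hℓN

end Fermat.Agent.S28.helper2346

end
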