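import Fermat.Agent.S28.helper2346_EtaFun
import Fermat.Agent.S24.helper167_SymmetricJ
import Fermat.Agent.S24.helper1644_AnalyticJ

/-!
# S28 (route E): the orbit polynomial of a `Γ₀(N)`-invariant function

* `exists_monic_relation_ev` : the coset polynomial `∏ (Y - φ x)` of a finite family permuted by
  `SL(2,ℤ)` has coefficients in `ℂ[j]` (variant of `S24.helper167.exists_monic_relation` with
  *eventual* exponential growth);
* `conjFun N f x = f ∘ (x.out)⁻¹` for `x ∈ SL(2,ℤ) ⧸ Γ₀(N)`, permuted by `SL(2,ℤ)`;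
* `IsModFun N f` : holomorphic, `Γ₀(N)`-invariant, all conjugates of eventual exponential growth;
  `IsModFun.exists_relation` : a monic relation of degree `[SL(2,ℤ) : Γ₀(N)]` over `ℂ[j]`.
-/

set_option autoImplicit false

open UpperHalfPlane hiding I
open ModularForm Filter Complex CongruenceSubgroup EisensteinSeries
open scoped Manifold Topology MatrixGroups Real

noncomputable section

namespace Fermat.Agent.S28.helper2346

open Fermat.Agent.S24

/-! ## Coefficients of `∏ (Y - a i)` -/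

/-- Any property of functions on `ℍ` stable under constants, sums and products passes to the
coefficients of `∏ i ∈ s, (Y - a i τ)`. -/
theorem coeff_prod_induction {ι : Type*} (Pr : (ℍ → ℂ) → Prop)
    (hconst : ∀ c : ℂ, Pr (fun _ => c))
    (hadd : ∀ f g : ℍ → ℂ, Pr f → Pr g → Pr (fun τ => f τ + g τ))
    (hmul : ∀ f g : ℍ → ℂ, Pr f → Pr g → Pr (fun τ => f τ * g τ))
    (a : ι → ℍ → ℂ) (s : Finset ι) (ha : ∀ i ∈ s, Pr (a i)) :
    ∀ k : ℕ, Pr (fun τ => (∏ i ∈ s, (Polynomial.X - Polynomial.C (a i τ))).coeff k) := by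
  classical
  induction s using Finset.induction_on with
  | empty =>
    intro k
    simp only [Finset.prod_empty, Polynomial.coeff_one]
    exact hconst _
  | insert b s hb ih =>
    intro k
    have ih' := ih fun i hi => ha i (Finset.mem_insert_of_mem hi)
    have hab := ha b (Finset.mem_insert_self b s)
    simp only [Finset.prod_insert hb]
    rcases k with _ | k
    · have : (fun τ => ((Polynomial.X - Polynomial.C (a b τ)) *
          ∏ x ∈ s, (Polynomial.X - Polynomial.C (a x τ))).coeff 0)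
          = fun τ => ((-1 : ℂ) * a b τ) *
            (∏ x ∈ s, (Polynomial.X - Polynomial.C (a x τ))).coeff 0 := by
        funext τ
        rw [Polynomial.mul_coeff_zero]
        simp
      rw [this]
      exact hmul _ _ (hmul _ _ (hconst (-1)) hab) (ih' 0)
    · have : (fun τ => ((Polynomial.X - Polynomial.C (a b τ)) *
          ∏ x ∈ s, (Polynomial.X - Polynomial.C (a x τ))).coeff (k + 1))
          = fun τ => (∏ x ∈ s, (Polynomial.X - Polynomial.C (a x τ))).coeff k
            + (-1 : ℂ) * ((∏ x ∈ s, (Polynomial.X - Polynomial.C (a x τ))).coeff (k + 1)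
              * a b τ) := by
        funext τ
        rw [mul_comm, Polynomial.coeff_mul_X_sub_C]
        ring
      rw [this]
      exact hadd _ _ (ih' k) (hmul _ _ (hconst (-1)) (hmul _ _ (ih' (k + 1)) hab))

/-- If all `a i → 0` then the coefficients of `∏ i ∈ s, (Y - a i τ)` tend to those of
`Y ^ card s`. -/
theorem tendsto_coeff_prod {ι : Type*} (a : ι → ℍ → ℂ) (s : Finset ι)
    (ha : ∀ i ∈ s, Tendsto (a i) atImInfty (𝓝 0)) :
    ∀ k : ℕ, Tendsto (fun τ => (∏ i ∈ s, (Polynomial.X - Polynomial.C (a i τ))).coeff k)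
      atImInfty (𝓝 (if k = s.card then 1 else 0)) := by
  classical
  induction s using Finset.induction_on with
  | empty =>
    intro k
    simp only [Finset.prod_empty, Polynomial.coeff_one, Finset.card_empty]
    simp only [eq_comm (a := k)]
    exact tendsto_const_nhds
  | insert b s hb ih =>
    intro k
    have ih' := ih fun i hi => ha i (Finset.mem_insert_of_mem hi)
    have hab := ha b (Finset.mem_insert_self b s)
    simp only [Finset.prod_insert hb, Finset.card_insert_of_notMem hb]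
    rcases k with _ | k
    · have : (fun τ => ((Polynomial.X - Polynomial.C (a b τ)) *
          ∏ x ∈ s, (Polynomial.X - Polynomial.C (a x τ))).coeff 0)
          = fun τ => (-(a b τ)) *
            (∏ x ∈ s, (Polynomial.X - Polynomial.C (a x τ))).coeff 0 := by
        funext τ
        rw [Polynomial.mul_coeff_zero]
        simp
      rw [this]
      have h := hab.neg.mul (ih' 0)
      simpa using h
    · have : (fun τ => ((Polynomial.X - Polynomial.C (a b τ)) *
          ∏ x ∈ s, (Polynomial.X - Polynomial.C (a x τ))).coeff (k + 1))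
          = fun τ => (∏ x ∈ s, (Polynomial.X - Polynomial.C (a x τ))).coeff k
            - (∏ x ∈ s, (Polynomial.X - Polynomial.C (a x τ))).coeff (k + 1) * a b τ := by
        funext τ
        rw [mul_comm, Polynomial.coeff_mul_X_sub_C]
      rw [this]
      have h := (ih' k).sub ((ih' (k + 1)).mul hab)
      simpa using h

/-! ## Growth and the orbit polynomial -/

theorem EvGrowth.exists_isBoundedAtImInfty {f : ℍ → ℂ} (hf : EvGrowth f) :
    ∃ m : ℕ, IsBoundedAtImInfty (fun τ => discriminant τ ^ m * f τ) := by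
  obtain ⟨m, C, A, h⟩ := hf
  refine ⟨m, ?_⟩
  have hΔ := asymp_discriminant.pow m
  unfold Asymp at hΔ
  have hb : ∀ᶠ τ in atImInfty, ‖discriminant τ ^ m * expI (-(m * 1)) τ‖ ≤ 2 := by
    have h1 : Tendsto (fun τ => ‖discriminant τ ^ m * expI (-(m * 1)) τ‖) atImInfty
        (𝓝 ‖(1 : ℂ) ^ m‖) := hΔ.norm
    refine h1.eventually (eventually_le_nhds ?_)
    simp
  rw [Filter.Eventually, atImInfty_mem] at hb
  obtain ⟨A', hA'⟩ := hb
  rw [isBoundedAtImInfty_iff]
  refine ⟨2 * |C|, max A A', fun τ hτ => ?_⟩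
  have h1 := hA' τ (le_trans (le_max_right _ _) hτ)
  simp only [Set.mem_ofPred_eq] at h1
  have h2 := h τ (le_trans (le_max_left _ _) hτ)
  have h3 : discriminant τ ^ m = (discriminant τ ^ m * expI (-(m * 1)) τ) * expI (m * 1) τ := by
    rw [mul_assoc, expI_neg, inv_mul_cancel₀ (expI_ne_zero _ τ), mul_one]
  rw [h3, norm_mul, norm_mul, norm_expI]
  have h4 : ‖f τ‖ ≤ |C| * Real.exp (2 * π * m * τ.im) :=
    h2.trans (mul_le_mul_of_nonneg_right (le_abs_self C) (Real.exp_pos _).le)
  calc ‖discriminant τ ^ m * expI (-(m * 1)) τ‖ * Real.exp (-2 * π * (m * 1) * τ.im) * ‖f τ‖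
      ≤ 2 * Real.exp (-2 * π * (m * 1) * τ.im) * (|C| * Real.exp (2 * π * m * τ.im)) :=
        mul_le_mul (mul_le_mul_of_nonneg_right h1 (Real.exp_pos _).le) h4 (norm_nonneg _)
          (by positivity)
    _ = 2 * |C| * (Real.exp (-2 * π * (m * 1) * τ.im) * Real.exp (2 * π * m * τ.im)) := by ring
    _ = 2 * |C| := by
        rw [← Real.exp_add]
        have : -2 * π * (m * 1) * τ.im + 2 * π * m * τ.im = 0 := by ring
        rw [this, Real.exp_zero, mul_one]

/-- **Orbit polynomial.** Variant of `S24.helper167.exists_monic_relation` with eventual growth. -/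
theorem exists_monic_relation_ev {X : Type*} [Fintype X] (φ : X → ℍ → ℂ)
    (hol : ∀ x, MDiff (φ x))
    (hperm : ∀ g : SL(2, ℤ), ∃ s : Equiv.Perm X, ∀ (x : X) (τ : ℍ), φ x (g • τ) = φ (s x) τ)
    (hgrowth : ∀ x, EvGrowth (φ x)) :
    ∃ P : Polynomial (Polynomial ℂ), P.Monic ∧ P.natDegree = Fintype.card X ∧
      ∀ τ : ℍ, P.map (Polynomial.evalRingHom (helper1644.jFun τ))
        = ∏ x, (Polynomial.X - Polynomial.C (φ x τ)) := by
  classical
  set n := Fintype.card X with hn
  let c : ℕ → ℍ → ℂ := fun k τ => (∏ x, (Polynomial.X - Polynomial.C (φ x τ))).coeff k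
  have hc_hol : ∀ k, MDiff (c k) := fun k =>
    helper167.mdiff_coeff_prod_X_sub_C φ hol Finset.univ k
  have hc_inv : ∀ k (γ : SL(2, ℤ)) (τ : ℍ), c k (γ • τ) = c k τ := by
    intro k γ τ
    obtain ⟨s, hs⟩ := hperm γ
    show (∏ x, (Polynomial.X - Polynomial.C (φ x (γ • τ)))).coeff k = _
    simp_rw [hs]
    rw [Equiv.prod_comp s (fun x => Polynomial.X - Polynomial.C (φ x τ))]
  have hc_gr : ∀ k, EvGrowth (c k) := fun k =>
    coeff_prod_induction EvGrowth EvGrowth.const (fun _ _ => EvGrowth.add)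
      (fun _ _ => EvGrowth.mul) φ Finset.univ (fun x _ => hgrowth x) k
  choose m hm using fun k => (hc_gr k).exists_isBoundedAtImInfty
  choose p hpdeg hp using fun k =>
    helper167.polyInJ_of_invariant (c k) (hc_hol k) (hc_inv k) (m k) (hm k)
  have hQmonic : ∀ τ : ℍ, (∏ x, (Polynomial.X - Polynomial.C (φ x τ))).Monic := fun τ =>
    Polynomial.monic_prod_of_monic _ _ fun x _ => Polynomial.monic_X_sub_C _
  have hQdeg : ∀ τ : ℍ, (∏ x, (Polynomial.X - Polynomial.C (φ x τ))).natDegree = n := fun τ => by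
    rw [Polynomial.natDegree_finsetProd_X_sub_C_eq_card, Finset.card_univ]
  have hlt : (∑ i ∈ Finset.range n, Polynomial.C (p i) * Polynomial.X ^ i :
      Polynomial (Polynomial ℂ)).degree < n := by
    refine (Polynomial.degree_sum_le _ _).trans_lt
      ((Finset.sup_lt_iff (WithBot.bot_lt_coe n)).mpr fun i hi => ?_)
    exact (Polynomial.degree_C_mul_X_pow_le i _).trans_lt
      (WithBot.coe_lt_coe.mpr (Finset.mem_range.mp hi))
  have hnat : (Polynomial.X ^ n + ∑ i ∈ Finset.range n, Polynomial.C (p i) * Polynomial.X ^ i :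
      Polynomial (Polynomial ℂ)).natDegree = n := by
    rw [Polynomial.natDegree_add_eq_left_of_degree_lt (by rwa [Polynomial.degree_X_pow]),
      Polynomial.natDegree_X_pow]
  refine ⟨Polynomial.X ^ n + ∑ i ∈ Finset.range n, Polynomial.C (p i) * Polynomial.X ^ i,
    Polynomial.monic_X_pow_add hlt, hnat, fun τ => ?_⟩
  conv_rhs => rw [(hQmonic τ).as_sum, hQdeg τ]
  simp only [Polynomial.map_add, Polynomial.map_pow, Polynomial.map_X, Polynomial.map_sum,
    Polynomial.map_mul, Polynomial.map_C, Polynomial.coe_evalRingHom]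
  congr 1
  refine Finset.sum_congr rfl fun i _ => ?_
  have := hp i τ
  show Polynomial.C (Polynomial.eval (E₄ τ ^ 3 / discriminant τ) (p i)) * Polynomial.X ^ i = _
  rw [← this]

/-! ## Conjugates over the cosets of `Γ₀(N)` -/

/-- The conjugate of `f` attached to the coset `x` of `Γ₀(N)`. -/
def conjFun (N : ℕ) (f : ℍ → ℂ) (x : SL(2, ℤ) ⧸ Gamma0 N) : ℍ → ℂ :=
  fun τ => f ((Quotient.out x)⁻¹ • τ)

theorem conjFun_perm {N : ℕ} {f : ℍ → ℂ}
    (hinv : ∀ γ ∈ Gamma0 N, ∀ τ : ℍ, f (γ • τ) = f τ) (g : SL(2, ℤ)) :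
    ∃ s : Equiv.Perm (SL(2, ℤ) ⧸ Gamma0 N), ∀ (x : SL(2, ℤ) ⧸ Gamma0 N) (τ : ℍ),
      conjFun N f x (g • τ) = conjFun N f (s x) τ := by
  refine ⟨MulAction.toPerm g⁻¹, fun x τ => ?_⟩
  simp only [conjFun, MulAction.toPerm_apply]
  set y : SL(2, ℤ) ⧸ Gamma0 N := g⁻¹ • x with hy
  have hx : (QuotientGroup.mk (Quotient.out x) : SL(2, ℤ) ⧸ Gamma0 N) = x := Quotient.out_eq x
  have hy' : (QuotientGroup.mk (Quotient.out y) : SL(2, ℤ) ⧸ Gamma0 N) = y := Quotient.out_eq y
  have h1 : (QuotientGroup.mk (Quotient.out y) : SL(2, ℤ) ⧸ Gamma0 N)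
      = QuotientGroup.mk (g⁻¹ * Quotient.out x) := by
    rw [hy', hy]
    conv_lhs => rw [← hx]
    rfl
  have key : (Quotient.out y)⁻¹ * (g⁻¹ * Quotient.out x) ∈ Gamma0 N := QuotientGroup.eq.mp h1
  have h2 : (Quotient.out y)⁻¹ • τ
      = ((Quotient.out y)⁻¹ * (g⁻¹ * Quotient.out x)) • ((Quotient.out x)⁻¹ • g • τ) := by
    rw [← mul_smul, ← mul_smul]
    congr 1
    group
  rw [h2, hinv _ key]

theorem conjFun_one {N : ℕ} {f : ℍ → ℂ}
    (hinv : ∀ γ ∈ Gamma0 N, ∀ τ : ℍ, f (γ • τ) = f τ) :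
    conjFun N f (QuotientGroup.mk 1) = f := by
  funext τ
  simp only [conjFun]
  apply hinv
  have h : (QuotientGroup.mk (Quotient.out (QuotientGroup.mk 1 : SL(2, ℤ) ⧸ Gamma0 N)) :
      SL(2, ℤ) ⧸ Gamma0 N) = QuotientGroup.mk 1 := Quotient.out_eq _
  have := QuotientGroup.eq.mp h
  simpa using this

theorem out_inv_not_mem {N : ℕ} {x : SL(2, ℤ) ⧸ Gamma0 N}
    (hx : x ≠ QuotientGroup.mk 1) : (Quotient.out x)⁻¹ ∉ Gamma0 N := by
  intro h
  apply hx
  have hx' : (QuotientGroup.mk (Quotient.out x) : SL(2, ℤ) ⧸ Gamma0 N) = x := Quotient.out_eq x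
  rw [← hx']
  apply QuotientGroup.eq.mpr
  simpa using h

/-! ## Modular functions of level `N` -/

/-- Holomorphic, `Γ₀(N)`-invariant, all conjugates of eventual exponential growth. -/
structure IsModFun (N : ℕ) (f : ℍ → ℂ) : Prop where
  mdiff : MDiff f
  inv : ∀ γ ∈ Gamma0 N, ∀ τ : ℍ, f (γ • τ) = f τ
  growth : ∀ γ : SL(2, ℤ), EvGrowth (fun τ => f (γ • τ))

theorem IsModFun.const (N : ℕ) (c : ℂ) : IsModFun N (fun _ => c) :=
  ⟨mdifferentiable_const, fun _ _ _ => rfl, fun _ => EvGrowth.const c⟩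

theorem IsModFun.add {N : ℕ} {f g : ℍ → ℂ} (hf : IsModFun N f) (hg : IsModFun N g) :
    IsModFun N (fun τ => f τ + g τ) :=
  ⟨hf.mdiff.add hg.mdiff, fun γ hγ τ => by rw [hf.inv γ hγ, hg.inv γ hγ],
    fun γ => (hf.growth γ).add (hg.growth γ)⟩

theorem IsModFun.mul {N : ℕ} {f g : ℍ → ℂ} (hf : IsModFun N f) (hg : IsModFun N g) :
    IsModFun N (fun τ => f τ * g τ) :=
  ⟨hf.mdiff.mul hg.mdiff, fun γ hγ τ => by rw [hf.inv γ hγ, hg.inv γ hγ],
    fun γ => (hf.growth γ).mul (hg.growth γ)⟩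

theorem IsModFun.neg {N : ℕ} {f : ℍ → ℂ} (hf : IsModFun N f) : IsModFun N (fun τ => -f τ) := by
  have := (IsModFun.const N (-1)).mul hf
  simpa using this

/-- The orbit polynomial of a modular function of level `N`. -/
theorem IsModFun.exists_orbit_poly {N : ℕ} [NeZero N] {f : ℍ → ℂ} (hf : IsModFun N f)
    [Fintype (SL(2, ℤ) ⧸ Gamma0 N)] :
    ∃ P : Polynomial (Polynomial ℂ), P.Monic ∧
      P.natDegree = Fintype.card (SL(2, ℤ) ⧸ Gamma0 N) ∧
      ∀ τ : ℍ, P.map (Polynomial.evalRingHom (helper1644.jFun τ))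
        = ∏ x : SL(2, ℤ) ⧸ Gamma0 N, (Polynomial.X - Polynomial.C (conjFun N f x τ)) :=
  exists_monic_relation_ev (conjFun N f) (fun _ => mdiff_comp_smul hf.mdiff _)
    (fun g => conjFun_perm hf.inv g) (fun _ => hf.growth _)

end Fermat.Agent.S28.helper2346

end
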