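/-
S28 (Igusa) — route P, leaf P6 (backup) in strong form: prime-level Igusa irreducibility.

From `helper328.Stmt_FormalPrime p` we deduce, for ANY field `κ : Type` with `(p : κ) ≠ 0`
(`j = jqModC κ`, `j_p = qExpand κ p j`):

* `qExpand_jq_not_mem_adjoin` (W): `j_p ∉ κ(j)`; fraction form `aeval_jq_mul_qExpand_ne`;
* `eval₂_qExpand_jq_ne_zero` (S): no nonzero `Q ∈ κ[Y][X]` of `X`-degree `≤ p` has
  `Q(j_p, j) = 0`, i.e. `[κ(j, j_p) : κ(j)] ≥ p + 1`;
* `exists_modularPolynomial` (F1/F2): a monic `Φ ∈ ℤ[Y][X]` of `X`-degree `p + 1` with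
  `Φ(j_p, j) = 0` and `Φ(j, j_p) = 0` over every commutative ring
  (`exists_modularPolynomial_field`: the same over a field, in `aeval` form);
* `eval_map_qExpand_ne_zero` (order lemma): `1, j, …, j^(N-1)` are linearly independent over
  `V_N(κ((q)))`.

Author: helper2368.  Sorry-free.
-/
import Fermat.Agent.S28.helper328_PrimeSpec

set_option autoImplicit false

namespace Fermat.Agent.S28.helper2368

open Polynomial ModularCurve
open Fermat.Agent.S28.helper328

noncomputable section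

/-! ### Generic lemmas on Laurent series -/

section Generic

variable {R S : Type*} [CommRing R] [CommRing S]

theorem coeffMap_injective {f : R →+* S} (hf : Function.Injective f) :
    Function.Injective (coeffMap f) := by
  intro x y hxy
  ext k
  apply hf
  have := congrArg (fun z => HahnSeries.coeff z k) hxy
  simpa using this

/-- `evalJ` commutes with ring homomorphisms. -/
theorem comp_evalJ (φ : LaurentSeries R →+* LaurentSeries S) (J : LaurentSeries R) :
    φ.comp (evalJ J) = evalJ (φ J) := by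
  refine Polynomial.ringHom_ext (fun a => ?_) ?_
  · simp [evalJ]
  · simp [evalJ]

theorem evalJ_X (J : LaurentSeries R) : evalJ J (X : Polynomial ℤ) = J := by
  simp [evalJ]

theorem twist_one (x : LaurentSeries R) : twist (1 : Rˣ) x = x := by
  ext n
  simp

theorem Jsub_one (k : Type*) [CommRing k] (m : ℕ+) :
    Jsub k (1 : kˣ) m = qExpand k (m : ℕ) (jqModC k) := by
  rw [Jsub, twist_one]

end Generic

section Order

variable {κ : Type*} [Field κ]

theorem orderTop_eq_of_coeff {x : LaurentSeries κ} {m : ℤ} (h1 : x.coeff m ≠ 0)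
    (h2 : ∀ n < m, x.coeff n = 0) : x.orderTop = (m : WithTop ℤ) := by
  refine le_antisymm (HahnSeries.orderTop_le_of_coeff_ne_zero h1) ?_
  by_contra hlt
  rw [not_le] at hlt
  have hx : x ≠ 0 := HahnSeries.ne_zero_of_coeff_ne_zero h1
  obtain ⟨o, ho⟩ : ∃ o : ℤ, x.orderTop = (o : WithTop ℤ) :=
    WithTop.ne_top_iff_exists.mp (HahnSeries.orderTop_ne_top.mpr hx) |>.imp fun _ h => h.symm
  rw [ho, WithTop.coe_lt_coe] at hlt
  exact HahnSeries.coeff_orderTop_ne ho (h2 o hlt)

end Order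

/-! ### Facts about `j` over a field -/

section JFacts

variable (κ : Type*) [Field κ]

theorem coeff_algebraMap_mul (c : κ) (x : LaurentSeries κ) (n : ℤ) :
    (algebraMap κ (LaurentSeries κ) c * x).coeff n = c * x.coeff n := by
  rw [algebraMap_laurentSeries_eq_single, HahnSeries.coeff_single_zero_mul]

/-- The coefficient of `P(j)` at `-deg P` is the leading coefficient of `P`. -/
theorem coeff_aeval_jq (P : κ[X]) :
    (aeval (jqModC κ) P).coeff (-(P.natDegree : ℤ)) = P.leadingCoeff := by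
  rw [aeval_eq_sum_range]
  simp only [Algebra.smul_def]
  rw [HahnSeries.coeff_sum, Finset.sum_range_succ, Finset.sum_eq_zero,
    zero_add, coeff_algebraMap_mul, coeff_jqModC_pow_self, mul_one, Polynomial.leadingCoeff]
  intro i hi
  rw [coeff_algebraMap_mul, coeff_jqModC_pow_of_lt κ (by
    have := Finset.mem_range.mp hi
    omega), mul_zero]

theorem aeval_jq_injective : Function.Injective (aeval (R := κ) (jqModC κ)) := by
  rw [injective_iff_map_eq_zero]
  intro P hP
  by_contra hne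
  have h := coeff_aeval_jq κ P
  rw [hP, HahnSeries.coeff_zero] at h
  exact hne (Polynomial.leadingCoeff_eq_zero.mp h.symm)

/-- A series all of whose coefficients of index `≤ 0` vanish is not a nonzero polynomial in `j`. -/
theorem eq_zero_of_aeval_jq_eq {P : κ[X]} {x : LaurentSeries κ}
    (hx : ∀ n : ℤ, n ≤ 0 → x.coeff n = 0) (h : aeval (jqModC κ) P = x) : P = 0 := by
  by_contra hne
  have h1 := coeff_aeval_jq κ P
  rw [h, hx _ (by omega)] at h1
  exact hne (Polynomial.leadingCoeff_eq_zero.mp h1.symm)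

end JFacts

/-! ### Lowest coefficients of Laurent series -/

section LowPart

variable {R S : Type*} [CommRing R] [CommRing S]

/-- `x` has no coefficient below index `a`, and its coefficient at `a` is `c`. -/
def LowPart (x : LaurentSeries R) (a : ℤ) (c : R) : Prop :=
  (∀ n < a, x.coeff n = 0) ∧ x.coeff a = c

theorem LowPart.mul {x y : LaurentSeries R} {a b : ℤ} {c d : R} (hx : LowPart x a c)
    (hy : LowPart y b d) : LowPart (x * y) (a + b) (c * d) := by
  have key : ∀ m : ℤ, ∀ ij ∈ Finset.antidiagonal x.isPWO_support y.isPWO_support m,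
      a ≤ ij.1 ∧ b ≤ ij.2 ∧ ij.1 + ij.2 = m := by
    intro m ij hij
    rw [Finset.mem_antidiagonal] at hij
    obtain ⟨h1, h2, h3⟩ := hij
    refine ⟨?_, ?_, h3⟩
    · by_contra hlt
      exact (HahnSeries.mem_support _ _).mp h1 (hx.1 _ (not_le.mp hlt))
    · by_contra hlt
      exact (HahnSeries.mem_support _ _).mp h2 (hy.1 _ (not_le.mp hlt))
  constructor
  · intro n hn
    rw [HahnSeries.coeff_mul]
    refine Finset.sum_eq_zero ?_
    intro ij hij
    obtain ⟨h1, h2, h3⟩ := key n ij hij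
    omega
  · rw [HahnSeries.coeff_mul, Finset.sum_eq_single (a, b)]
    · rw [hx.2, hy.2]
    · intro ij hij hne
      obtain ⟨h1, h2, h3⟩ := key _ ij hij
      exfalso
      apply hne
      ext
      · show ij.1 = a
        omega
      · show ij.2 = b
        omega
    · intro hnot
      rw [Finset.mem_antidiagonal] at hnot
      by_cases h1 : x.coeff a = 0
      · rw [h1, zero_mul]
      · by_cases h2 : y.coeff b = 0
        · rw [h2, mul_zero]
        · exact absurd ⟨(HahnSeries.mem_support _ _).mpr h1, (HahnSeries.mem_support _ _).mpr h2, rfl⟩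
            hnot

theorem lowPart_single (a : ℤ) (c : R) : LowPart (HahnSeries.single a c) a c :=
  ⟨fun _ hn => HahnSeries.coeff_single_of_ne hn.ne, HahnSeries.coeff_single_same a c⟩

theorem lowPart_ofPowerSeries (P : PowerSeries R) :
    LowPart (HahnSeries.ofPowerSeries ℤ R P) 0 (PowerSeries.constantCoeff P) := by
  refine ⟨fun n hn => ofPowerSeries_coeff_of_neg P hn, ?_⟩
  have h := HahnSeries.ofPowerSeries_apply_coeff (Γ := ℤ) P 0
  simpa using h

theorem LowPart.qExpand {x : LaurentSeries R} {a : ℤ} {c : R} (N : ℕ) [NeZero N]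
    (hx : LowPart x a c) : LowPart (qExpand R N x) (N * a) c := by
  refine ⟨fun n hn => ?_, ?_⟩
  · by_cases hd : (N : ℤ) ∣ n
    · obtain ⟨k, rfl⟩ := hd
      rw [qExpand_coeff_mul]
      refine hx.1 k ?_
      have hN : (0 : ℤ) < N := by exact_mod_cast Nat.pos_of_ne_zero (NeZero.ne N)
      exact lt_of_mul_lt_mul_left hn hN.le
    · exact qExpand_coeff_of_not_dvd N x hd
  · rw [qExpand_coeff_mul, hx.2]

theorem LowPart.coeffMap {x : LaurentSeries R} {a : ℤ} {c : R} (f : R →+* S)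
    (hx : LowPart x a c) : LowPart (coeffMap f x) a (f c) :=
  ⟨fun n hn => by rw [coeffMap_coeff, hx.1 n hn, map_zero], by rw [coeffMap_coeff, hx.2]⟩

theorem lowPart_jq_pow (R : Type*) [CommRing R] (i : ℕ) :
    LowPart (jqModC R ^ i) (-(i : ℤ)) 1 :=
  ⟨fun _ hn => coeff_jqModC_pow_of_lt R hn, coeff_jqModC_pow_self R i⟩

theorem lowPart_order {κ : Type*} [Field κ] (x : LaurentSeries κ) :
    LowPart x x.order (x.coeff x.order) :=
  ⟨fun _ hn => HahnSeries.coeff_eq_zero_of_lt_order hn, rfl⟩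

theorem LowPart.ne_zero {x : LaurentSeries R} {a : ℤ} {c : R} (hx : LowPart x a c) (hc : c ≠ 0) :
    x ≠ 0 := by
  rintro rfl
  exact hc (by rw [← hx.2, HahnSeries.coeff_zero])

end LowPart

/-! ### The prime-level data over a field -/

section FieldData

theorem Jsub_of_coe (k : Type*) [CommRing k] (ζ : kˣ) (m : ℕ+) (n : ℕ) [NeZero n]
    (hm : (m : ℕ) = n) : Jsub k ζ m = qExpand k n (twist ζ (jqModC k)) := by
  unfold Jsub
  exact qExpand_congr hm _

theorem pnat_mul_one_coe (m : ℕ+) : ((m * 1 : ℕ+) : ℕ) = m := by simp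

theorem pnat_sq_mul_one_coe (m : ℕ+) : ((m ^ 2 * 1 : ℕ+) : ℕ) = m * m := by simp [pow_two]

theorem Jsub_pnat_one (k : Type*) [CommRing k] (ζ : kˣ) :
    Jsub k ζ 1 = twist ζ (jqModC k) := by
  rw [Jsub]
  exact qExpand_one_apply _

variable (p : ℕ) [hp : Fact p.Prime]

/-- The part of `Stmt_FormalPrime p` (for a fixed `Φ`) that is used over a field `κ`:
`Ψ = Φ(X, j) / (X - j_p)`, the unit `g` with `G(g, j) = 0`, the trace relation
`Ψ(j_p) g = ∑ Ψ_i T_i(j)`, and the consequences of the root formula. -/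
def FieldData (κ : Type) [Field κ] (Φ : ℤ[X][X]) : Prop :=
  ∃ (G : ℤ[X][X]) (T : ℕ → ℤ[X]) (Ψ : (LaurentSeries κ)[X]) (g : LaurentSeries κ),
    G.Monic ∧
    Φ.map (evalJ (jqModC κ)) = (X - C (qExpand κ p (jqModC κ))) * Ψ ∧
    (G.map (evalJ (jqModC κ))).eval g = 0 ∧
    Ψ.eval (qExpand κ p (jqModC κ)) * g =
      ∑ i ∈ Finset.range (p + 1), Ψ.coeff i * evalJ (jqModC κ) (T i) ∧
    g ≠ 0 ∧ (∀ n : ℤ, n ≤ 0 → g.coeff n = 0) ∧
    Ψ.eval (qExpand κ p (jqModC κ)) ≠ 0 ∧
    (Ψ.map (qExpand κ p)).eval (jqModC κ) = 0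

theorem lowPart_deltaHat : LowPart (deltaHat ℤ) 1 1 := by
  have h := (lowPart_single (1 : ℤ) (1 : ℤ)).mul
    (lowPart_ofPowerSeries (dedekindEtaUnit.map (Int.castRingHom ℤ)))
  have hc : PowerSeries.constantCoeff (dedekindEtaUnit.map (Int.castRingHom ℤ)) = 1 := by
    rw [← PowerSeries.coeff_zero_eq_constantCoeff, PowerSeries.coeff_map,
      PowerSeries.coeff_zero_eq_constantCoeff, constantCoeff_dedekindEtaUnit]
    simp
  rw [hc] at h
  simpa [deltaHat] using h

theorem lowPart_deltaHatInv : LowPart (deltaHatInv ℤ) (-1) 1 := by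
  have h := (lowPart_single (-1 : ℤ) (1 : ℤ)).mul
    (lowPart_ofPowerSeries (dedekindEtaUnitInv.map (Int.castRingHom ℤ)))
  have hc : PowerSeries.constantCoeff (dedekindEtaUnitInv.map (Int.castRingHom ℤ)) = 1 := by
    rw [← PowerSeries.coeff_zero_eq_constantCoeff, PowerSeries.coeff_map,
      PowerSeries.coeff_zero_eq_constantCoeff, constantCoeff_dedekindEtaUnitInv]
    simp
  rw [hc] at h
  simpa [deltaHatInv] using h

theorem lowPart_gHat (κ : Type*) [Field κ] :
    LowPart (coeffMap (Int.castRingHom κ) (gHat p)) ((p : ℤ) - 1) ((p : κ) ^ 12) := by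
  have h1 : LowPart ((p : LaurentSeries ℤ) ^ 12) 0 ((p : ℤ) ^ 12) := by
    have e : (HahnSeries.C ((p : ℤ) ^ 12) : LaurentSeries ℤ) = (p : LaurentSeries ℤ) ^ 12 := by
      rw [map_pow, map_natCast]
    rw [← e]
    exact lowPart_single _ _
  have h4 := ((h1.mul (lowPart_deltaHat.qExpand p)).mul lowPart_deltaHatInv).coeffMap
    (Int.castRingHom κ)
  have e1 : (0 : ℤ) + (p : ℤ) * 1 + -1 = (p : ℤ) - 1 := by ring
  have e2 : (Int.castRingHom κ) ((p : ℤ) ^ 12 * 1 * 1) = (p : κ) ^ 12 := by simp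
  rw [e1, e2] at h4
  exact h4

theorem exists_fieldData (h : Stmt_FormalPrime p) :
    ∃ Φ : ℤ[X][X], Φ.Monic ∧ Φ.natDegree = p + 1 ∧
      ∀ (κ : Type) [Field κ], (p : κ) ≠ 0 → FieldData p κ Φ := by
  obtain ⟨Φ, G, T, Ψ, hΦm, hΦdeg, hGm, -, hGroot, hfac, hrel, hroots⟩ := h
  refine ⟨Φ, hΦm, hΦdeg, ?_⟩
  intro κ _ hpκ
  set cm : LaurentSeries ℤ →+* LaurentSeries κ := coeffMap (Int.castRingHom κ) with hcm
  have hcmj : cm (jqModC ℤ) = jqModC κ := coeffMap_jqModC _
  have hcmjp : cm (qExpand ℤ p (jqModC ℤ)) = qExpand κ p (jqModC κ) := by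
    rw [hcm, coeffMap_qExpand, coeffMap_jqModC]
  have hev : cm.comp (evalJ (jqModC ℤ)) = evalJ (jqModC κ) := by rw [comp_evalJ, hcmj]
  have hfacκ : Φ.map (evalJ (jqModC κ)) = (X - C (qExpand κ p (jqModC κ))) * Ψ.map cm := by
    have h1 := congrArg (Polynomial.map cm) hfac
    rwa [Polynomial.map_map, hev, Polynomial.map_mul, Polynomial.map_sub, Polynomial.map_X,
      Polynomial.map_C, hcmjp] at h1
  have hGκ : (G.map (evalJ (jqModC κ))).eval (cm (gHat p)) = 0 := by
    have h1 := congrArg cm hGroot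
    rwa [map_zero, ← Polynomial.eval_map_apply, Polynomial.map_map, hev] at h1
  have hrelκ : (Ψ.map cm).eval (qExpand κ p (jqModC κ)) * cm (gHat p) =
      ∑ i ∈ Finset.range (p + 1), (Ψ.map cm).coeff i * evalJ (jqModC κ) (T i) := by
    have h1 := congrArg cm hrel
    rw [map_mul, ← Polynomial.eval_map_apply, hcmjp, map_sum] at h1
    rw [h1]
    refine Finset.sum_congr rfl fun i _ => ?_
    rw [map_mul, Polynomial.coeff_map, ← hev]
    rfl
  have hg := lowPart_gHat p κ
  have hp2 : 2 ≤ p := hp.out.two_le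
  -- the root formula over the algebraic closure
  have : NeZero (p : κ) := ⟨hpκ⟩
  obtain ⟨ζ, hζ⟩ := HasEnoughRootsOfUnity.exists_primitiveRoot (AlgebraicClosure κ) p
  obtain ⟨ω, rfl⟩ := hζ.isUnit hp.out.ne_zero
  have hω : IsPrimitiveRoot ω p := IsPrimitiveRoot.coe_units_iff.mp hζ
  have hrf : Φ.map (evalJ (qExpand (AlgebraicClosure κ) p (jqModC (AlgebraicClosure κ)))) =
      (X - C (qExpand (AlgebraicClosure κ) p
        (qExpand (AlgebraicClosure κ) p (jqModC (AlgebraicClosure κ))))) *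
      ∏ b ∈ Finset.range p, (X - C (twist (ω ^ b) (jqModC (AlgebraicClosure κ)))) := by
    have h1 := hroots (AlgebraicClosure κ) ω hω 1 1
    have e1 : Jsub (AlgebraicClosure κ) (1 ^ p) (⟨p, hp.out.pos⟩ * 1) =
        qExpand (AlgebraicClosure κ) p (jqModC (AlgebraicClosure κ)) := by
      rw [one_pow, Jsub_of_coe (AlgebraicClosure κ) 1 _ p (pnat_mul_one_coe ⟨p, _⟩), twist_one]
    have e2 : Jsub (AlgebraicClosure κ) (1 ^ (p ^ 2)) (⟨p, hp.out.pos⟩ ^ 2 * 1) =
        qExpand (AlgebraicClosure κ) p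
          (qExpand (AlgebraicClosure κ) p (jqModC (AlgebraicClosure κ))) := by
      rw [one_pow, Jsub_of_coe (AlgebraicClosure κ) 1 _ (p * p) (pnat_sq_mul_one_coe ⟨p, _⟩),
        twist_one, qExpand_qExpand]
    rw [e1, e2] at h1
    rw [h1]
    congr 1
    refine Finset.prod_congr rfl fun b _ => ?_
    rw [mul_one, Jsub_pnat_one]
  set θ : LaurentSeries κ →+* LaurentSeries (AlgebraicClosure κ) :=
    (coeffMap (algebraMap κ (AlgebraicClosure κ))).comp (qExpand κ p) with hθ
  have hθj : θ (jqModC κ) = qExpand (AlgebraicClosure κ) p (jqModC (AlgebraicClosure κ)) := by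
    rw [hθ, RingHom.comp_apply, coeffMap_qExpand, coeffMap_jqModC]
  have hθjp : θ (qExpand κ p (jqModC κ)) = qExpand (AlgebraicClosure κ) p
      (qExpand (AlgebraicClosure κ) p (jqModC (AlgebraicClosure κ))) := by
    rw [hθ, RingHom.comp_apply, coeffMap_qExpand, coeffMap_qExpand, coeffMap_jqModC]
  have hΨk : (Ψ.map cm).map θ =
      ∏ b ∈ Finset.range p, (X - C (twist (ω ^ b) (jqModC (AlgebraicClosure κ)))) := by
    have h1 := congrArg (Polynomial.map θ) hfacκ
    rw [Polynomial.map_map, comp_evalJ, Polynomial.map_mul, Polynomial.map_sub,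
      Polynomial.map_X, Polynomial.map_C, hθj, hθjp, hrf] at h1
    exact (mul_left_cancel₀ (X_sub_C_ne_zero _) h1).symm
  refine ⟨G, T, Ψ.map cm, cm (gHat p), hGm, hfacκ, hGκ, hrelκ, ?_, ?_, ?_, ?_⟩
  · exact hg.ne_zero (pow_ne_zero _ hpκ)
  · intro n hn
    exact hg.1 n (by omega)
  · intro h0
    have h1 := congrArg θ h0
    rw [map_zero, ← Polynomial.eval_map_apply, hΨk, Polynomial.eval_prod,
      Finset.prod_eq_zero_iff] at h1
    obtain ⟨b, -, hb⟩ := h1
    rw [Polynomial.eval_sub, Polynomial.eval_X, Polynomial.eval_C, sub_eq_zero] at hb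
    have h2 := congrArg (fun x => HahnSeries.coeff x (-1)) hb
    rw [twist_coeff, coeff_jqModC_neg_one, mul_one] at h2
    have h3 : (θ (qExpand κ p (jqModC κ))).coeff (-1) = 0 := by
      rw [hθ, RingHom.comp_apply, coeffMap_coeff, qExpand_coeff_of_not_dvd, map_zero]
      intro hd
      have h5 := Int.le_of_dvd (by norm_num) ((dvd_neg).mp hd)
      omega
    rw [h3] at h2
    exact (Units.ne_zero _) h2.symm
  · apply coeffMap_injective (algebraMap κ (AlgebraicClosure κ)).injective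
    rw [map_zero, ← Polynomial.eval_map_apply, Polynomial.map_map, ← hθ, hΨk, coeffMap_jqModC,
      Polynomial.eval_prod]
    refine Finset.prod_eq_zero (Finset.mem_range.mpr hp.out.pos) ?_
    rw [pow_zero, twist_one, Polynomial.eval_sub, Polynomial.eval_X, Polynomial.eval_C, sub_self]

end FieldData

/-! ### (W): `j_p ∉ κ(j)` -/

section Weak

/-- Descent of a cofactor: if `F ∈ E[X]`, `a ∈ E` and `F = (X - a) Ψ` over `K ⊇ E`,
then `Ψ ∈ E[X]`. -/
theorem exists_map_eq_of_mul {E K : Type*} [Field E] [Field K] (f : E →+* K) (F : E[X]) (a : E)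
    (Ψ : K[X]) (h : F.map f = (X - C (f a)) * Ψ) : ∃ Ψ' : E[X], Ψ'.map f = Ψ := by
  refine ⟨F /ₘ (X - C a), ?_⟩
  rw [Polynomial.map_divByMonic f (monic_X_sub_C a), h, Polynomial.map_sub, Polynomial.map_X,
    Polynomial.map_C, mul_divByMonic_cancel_left _ (monic_X_sub_C _)]

variable (p : ℕ) [hp : Fact p.Prime]

theorem FieldData.not_mem_adjoin {κ : Type} [Field κ] {Φ : ℤ[X][X]} (hd : FieldData p κ Φ) :
    qExpand κ p (jqModC κ) ∉ IntermediateField.adjoin κ {jqModC κ} := by
  obtain ⟨G, T, Ψ, g, hGm, hfac, hG, hrel, hg0, hgcoeff, hΨne, -⟩ := hd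
  intro hmem
  have hj : jqModC κ ∈ IntermediateField.adjoin κ {jqModC κ} :=
    IntermediateField.mem_adjoin_simple_self κ _
  -- the ring hom `ℤ[X] → κ(j)`
  let e : ℤ[X] →+* IntermediateField.adjoin κ {jqModC κ} :=
    Polynomial.eval₂RingHom (Int.castRingHom _) ⟨jqModC κ, hj⟩
  have he : (algebraMap (IntermediateField.adjoin κ {jqModC κ}) (LaurentSeries κ)).comp e =
      evalJ (jqModC κ) := by
    refine Polynomial.ringHom_ext (fun a => ?_) ?_
    · simp [e, evalJ]
    · simp [e, evalJ]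
  obtain ⟨Ψ', hΨ'⟩ := exists_map_eq_of_mul
    (algebraMap (IntermediateField.adjoin κ {jqModC κ}) (LaurentSeries κ)) (Φ.map e)
    ⟨_, hmem⟩ Ψ (by rw [Polynomial.map_map, he]; exact hfac)
  -- `g ∈ κ(j)`
  have hgE : g ∈ IntermediateField.adjoin κ {jqModC κ} := by
    have h1 : Ψ.eval (qExpand κ p (jqModC κ)) ∈ IntermediateField.adjoin κ {jqModC κ} := by
      rw [← hΨ']
      have h := Polynomial.eval_map_apply (p := Ψ')
        (algebraMap (IntermediateField.adjoin κ {jqModC κ}) (LaurentSeries κ)) ⟨_, hmem⟩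
      rw [show (algebraMap (IntermediateField.adjoin κ {jqModC κ}) (LaurentSeries κ)) ⟨_, hmem⟩ =
        qExpand κ p (jqModC κ) from rfl] at h
      rw [h]
      exact (Ψ'.eval ⟨_, hmem⟩).2
    have h2 : ∑ i ∈ Finset.range (p + 1), Ψ.coeff i * evalJ (jqModC κ) (T i) ∈
        IntermediateField.adjoin κ {jqModC κ} := by
      refine sum_mem fun i _ => mul_mem ?_ ?_
      · rw [← hΨ', Polynomial.coeff_map]
        exact (Ψ'.coeff i).2
      · rw [← he]
        exact (e (T i)).2
    rw [← hrel] at h2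
    have h3 := mul_mem (inv_mem h1) h2
    rwa [← mul_assoc, inv_mul_cancel₀ hΨne, one_mul] at h3
  -- `g = r(j) / s(j)`
  obtain ⟨r, s, hrs⟩ := (IntermediateField.mem_adjoin_simple_iff κ g).mp hgE
  have hunit : ∀ y : nonZeroDivisors κ[X],
      IsUnit ((aeval (R := κ) (jqModC κ)).toRingHom y) := by
    intro y
    refine IsUnit.mk0 _ ?_
    intro h0
    have h1 := aeval_jq_injective κ (h0.trans (map_zero (aeval (R := κ) (jqModC κ))).symm)
    exact nonZeroDivisors.coe_ne_zero y h1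
  let φ : FractionRing κ[X] →+* LaurentSeries κ := IsLocalization.lift hunit
  have hφ : ∀ a : κ[X], φ (algebraMap κ[X] (FractionRing κ[X]) a) = aeval (jqModC κ) a :=
    fun a => IsLocalization.lift_eq hunit a
  have hφx : φ (algebraMap κ[X] (FractionRing κ[X]) r / algebraMap κ[X] (FractionRing κ[X]) s)
      = g := by
    rw [map_div₀, hφ, hφ, hrs]
  have hcomp : (φ.comp (algebraMap κ[X] (FractionRing κ[X]))).comp
      (Polynomial.mapRingHom (Int.castRingHom κ)) = evalJ (jqModC κ) := by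
    refine Polynomial.ringHom_ext (fun a => ?_) ?_
    · simp [evalJ]
    · simp [evalJ, hφ]
  have hint : IsIntegral κ[X]
      (algebraMap κ[X] (FractionRing κ[X]) r / algebraMap κ[X] (FractionRing κ[X]) s) := by
    refine ⟨G.map (Polynomial.mapRingHom (Int.castRingHom κ)), hGm.map _, ?_⟩
    apply φ.injective
    rw [map_zero, Polynomial.hom_eval₂, hφx, Polynomial.eval₂_map, hcomp, ← Polynomial.eval_map]
    exact hG
  obtain ⟨P₀, hP₀⟩ := IsIntegrallyClosed.isIntegral_iff.mp hint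
  have hgP : aeval (jqModC κ) P₀ = g := by rw [← hφ, hP₀, hφx]
  have hP0 := eq_zero_of_aeval_jq_eq κ hgcoeff hgP
  rw [hP0, map_zero] at hgP
  exact hg0 hgP.symm

end Weak

/-! ### (S): `[κ(j, j_p) : κ(j)] ≥ p + 1` -/

section Strong

/-- The order lemma: `1, j, …, j^(N-1)` are linearly independent over `V_N(κ((q)))`. -/
theorem eval_map_qExpand_ne_zero {κ : Type*} [Field κ] (N : ℕ) [NeZero N]
    (A : (LaurentSeries κ)[X]) (hA : A ≠ 0) (hdeg : A.natDegree < N) :
    (A.map (qExpand κ N)).eval (jqModC κ) ≠ 0 := by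
  classical
  rw [Polynomial.eval_map, Polynomial.eval₂_eq_sum_range]
  let w : ℕ → ℤ := fun i => (N : ℤ) * (A.coeff i).order + -(i : ℤ)
  have hterm : ∀ i, LowPart (qExpand κ N (A.coeff i) * jqModC κ ^ i) (w i)
      ((A.coeff i).coeff (A.coeff i).order * 1) :=
    fun i => ((lowPart_order (A.coeff i)).qExpand N).mul (lowPart_jq_pow κ i)
  have hSne : ((Finset.range (A.natDegree + 1)).filter (fun i => A.coeff i ≠ 0)).Nonempty :=
    ⟨A.natDegree, by
      rw [Finset.mem_filter]
      exact ⟨Finset.self_mem_range_succ _, by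
        rwa [Polynomial.coeff_natDegree, Ne, Polynomial.leadingCoeff_eq_zero]⟩⟩
  obtain ⟨i₀, hi₀S, hmin⟩ := Finset.exists_min_image _ w hSne
  rw [Finset.mem_filter, Finset.mem_range] at hi₀S
  intro hsum
  have hc := congrArg (fun x => HahnSeries.coeff x (w i₀)) hsum
  simp only [HahnSeries.coeff_sum, HahnSeries.coeff_zero] at hc
  rw [Finset.sum_eq_single i₀] at hc
  · rw [(hterm i₀).2, mul_one] at hc
    exact hi₀S.2 (HahnSeries.coeff_order_eq_zero.mp hc)
  · intro i hi hne
    by_cases hAi : A.coeff i = 0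
    · rw [hAi, map_zero, zero_mul, HahnSeries.coeff_zero]
    · refine (hterm i).1 _ (lt_of_le_of_ne (hmin i (Finset.mem_filter.mpr ⟨hi, hAi⟩)) ?_)
      intro heq
      apply hne
      have hi' := Finset.mem_range.mp hi
      have hd : (N : ℤ) ∣ ((i : ℤ) - i₀) :=
        ⟨(A.coeff i).order - (A.coeff i₀).order, by simp only [w] at heq; linarith⟩
      have habs : |(i : ℤ) - i₀| < N := by
        rw [abs_lt]
        constructor <;> omega
      have h0 := Int.eq_zero_of_abs_lt_dvd hd habs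
      omega
  · intro hnot
    exact absurd (Finset.mem_range.mpr hi₀S.1) hnot

variable (p : ℕ) [hp : Fact p.Prime]

theorem FieldData.eval₂_ne_zero {κ : Type} [Field κ] {Φ : ℤ[X][X]} (hΦm : Φ.Monic)
    (hΦdeg : Φ.natDegree = p + 1) (hd : FieldData p κ Φ) (Q : κ[X][X]) (hQ : Q ≠ 0)
    (hQdeg : Q.natDegree ≤ p) :
    Q.eval₂ (aeval (R := κ) (jqModC κ)).toRingHom (qExpand κ p (jqModC κ)) ≠ 0 := by
  have hW := hd.not_mem_adjoin p
  obtain ⟨G, T, Ψ, g, hGm, hfac, hG, hrel, hg0, hgcoeff, hΨne, hΨV⟩ := hd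
  intro hroot
  have hj : jqModC κ ∈ IntermediateField.adjoin κ {jqModC κ} :=
    IntermediateField.mem_adjoin_simple_self κ _
  let e : ℤ[X] →+* IntermediateField.adjoin κ {jqModC κ} :=
    Polynomial.eval₂RingHom (Int.castRingHom _) ⟨jqModC κ, hj⟩
  have he : (algebraMap (IntermediateField.adjoin κ {jqModC κ}) (LaurentSeries κ)).comp e =
      evalJ (jqModC κ) := by
    refine Polynomial.ringHom_ext (fun a => ?_) ?_
    · simp [e, evalJ]
    · simp [e, evalJ]
  let ρ : κ[X] →+* IntermediateField.adjoin κ {jqModC κ} :=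
    (aeval (R := κ) (⟨jqModC κ, hj⟩ : IntermediateField.adjoin κ {jqModC κ})).toRingHom
  have hρ : (algebraMap (IntermediateField.adjoin κ {jqModC κ}) (LaurentSeries κ)).comp ρ =
      (aeval (R := κ) (jqModC κ)).toRingHom := by
    refine Polynomial.ringHom_ext (fun a => ?_) ?_
    · simp [ρ]
    · simp [ρ]
  have hρinj : Function.Injective ρ := by
    intro a b hab
    apply aeval_jq_injective κ
    have h1 := congrArg (algebraMap (IntermediateField.adjoin κ {jqModC κ}) (LaurentSeries κ)) hab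
    rw [← RingHom.comp_apply, ← RingHom.comp_apply, hρ] at h1
    exact h1
  have hQE0 : Q.map ρ ≠ 0 := by
    rw [Ne, Polynomial.map_eq_zero_iff hρinj]
    exact hQ
  have hQEroot : aeval (qExpand κ p (jqModC κ)) (Q.map ρ) = 0 := by
    rw [Polynomial.aeval_def, Polynomial.eval₂_map, hρ]
    exact hroot
  have hΦEroot : aeval (qExpand κ p (jqModC κ)) (Φ.map e) = 0 := by
    rw [Polynomial.aeval_def, Polynomial.eval₂_map, he, ← Polynomial.eval_map, hfac]
    simp
  have hμdeg : (minpoly (IntermediateField.adjoin κ {jqModC κ})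
      (qExpand κ p (jqModC κ))).natDegree ≤ p :=
    (Polynomial.natDegree_le_of_dvd (minpoly.dvd _ _ hQEroot) hQE0).trans
      (Polynomial.natDegree_map_le.trans hQdeg)
  obtain ⟨ν, hν⟩ := minpoly.dvd (IntermediateField.adjoin κ {jqModC κ}) _ hΦEroot
  have hμroot : ((minpoly (IntermediateField.adjoin κ {jqModC κ})
      (qExpand κ p (jqModC κ))).map
      (algebraMap (IntermediateField.adjoin κ {jqModC κ}) (LaurentSeries κ))).eval
      (qExpand κ p (jqModC κ)) = 0 := by
    rw [Polynomial.eval_map, ← Polynomial.aeval_def]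
    exact minpoly.aeval _ _
  obtain ⟨h, hh⟩ := Polynomial.dvd_iff_isRoot.mpr hμroot
  have hprod : Ψ = h * ν.map
      (algebraMap (IntermediateField.adjoin κ {jqModC κ}) (LaurentSeries κ)) := by
    have h1 : (Φ.map e).map
        (algebraMap (IntermediateField.adjoin κ {jqModC κ}) (LaurentSeries κ)) =
        (X - C (qExpand κ p (jqModC κ))) * Ψ := by
      rw [Polynomial.map_map, he]
      exact hfac
    rw [hν, Polynomial.map_mul, hh, mul_assoc] at h1
    exact (mul_left_cancel₀ (X_sub_C_ne_zero _) h1).symm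
  -- degrees
  have hΦK : (Φ.map (evalJ (jqModC κ))).natDegree = p + 1 := by
    rw [hΦm.natDegree_map, hΦdeg]
  have hΨ0 : Ψ ≠ 0 := by
    rintro rfl
    rw [hfac, mul_zero, natDegree_zero] at hΦK
    omega
  have hΨdeg : Ψ.natDegree = p := by
    rw [hfac, natDegree_mul (X_sub_C_ne_zero _) hΨ0, natDegree_X_sub_C] at hΦK
    omega
  have hh0 : h ≠ 0 := by
    rintro rfl
    rw [zero_mul] at hprod
    exact hΨ0 hprod
  have hν0 : ν.map (algebraMap (IntermediateField.adjoin κ {jqModC κ}) (LaurentSeries κ)) ≠ 0 := by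
    intro h0
    rw [h0, mul_zero] at hprod
    exact hΨ0 hprod
  have hsum : h.natDegree + (ν.map
      (algebraMap (IntermediateField.adjoin κ {jqModC κ}) (LaurentSeries κ))).natDegree = p := by
    rw [← natDegree_mul hh0 hν0, ← hprod, hΨdeg]
  have hμK : (minpoly (IntermediateField.adjoin κ {jqModC κ})
      (qExpand κ p (jqModC κ))).natDegree = 1 + h.natDegree := by
    rw [← Polynomial.natDegree_map
      (algebraMap (IntermediateField.adjoin κ {jqModC κ}) (LaurentSeries κ)), hh,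
      natDegree_mul (X_sub_C_ne_zero _) hh0, natDegree_X_sub_C]
  rw [hprod, Polynomial.map_mul, Polynomial.eval_mul, mul_eq_zero] at hΨV
  rcases hΨV with hcase | hcase
  · have h1 : ¬ h.natDegree < p := fun hlt => eval_map_qExpand_ne_zero p h hh0 hlt hcase
    omega
  · have h1 : ¬ (ν.map (algebraMap (IntermediateField.adjoin κ {jqModC κ})
        (LaurentSeries κ))).natDegree < p :=
      fun hlt => eval_map_qExpand_ne_zero p _ hν0 hlt hcase
    have h2 : (minpoly (IntermediateField.adjoin κ {jqModC κ})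
        (qExpand κ p (jqModC κ))).natDegree = 1 := by omega
    obtain ⟨y, hy⟩ := minpoly.natDegree_eq_one_iff.mp h2
    apply hW
    rw [← hy]
    exact y.2

end Strong

/-! ### Main statements -/

section Main

universe u

theorem coeffMap_eval_evalJ {R S : Type*} [CommRing R] [CommRing S] (f : R →+* S) (Φ : ℤ[X][X])
    (a b : LaurentSeries R) :
    coeffMap f ((Φ.map (evalJ a)).eval b) =
      (Φ.map (evalJ (coeffMap f a))).eval (coeffMap f b) := by
  rw [← Polynomial.eval_map_apply, Polynomial.map_map, comp_evalJ]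

theorem aeval_comp_mapRingHom (κ : Type*) [Field κ] (x : LaurentSeries κ) :
    (aeval (R := κ) x).toRingHom.comp (Polynomial.mapRingHom (Int.castRingHom κ)) = evalJ x := by
  refine Polynomial.ringHom_ext (fun a => ?_) ?_
  · simp [evalJ]
  · simp [evalJ]

variable (p : ℕ) [hp : Fact p.Prime]

/-- **(W) Prime-level Igusa, weak form**: `j(q^p) ∉ κ(j)` for every field `κ` with `p ≠ 0`. -/
theorem qExpand_jq_not_mem_adjoin (h : Stmt_FormalPrime p) (κ : Type) [Field κ]
    (hpκ : (p : κ) ≠ 0) :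
    qExpand κ p (jqModC κ) ∉ IntermediateField.adjoin κ {jqModC κ} := by
  obtain ⟨Φ, -, -, hd⟩ := exists_fieldData p h
  exact (hd κ hpκ).not_mem_adjoin p

/-- (W), fraction form: `b(j) j_p ≠ a(j)` for polynomials `a, b ∈ κ[Y]`, `b ≠ 0`. -/
theorem aeval_jq_mul_qExpand_ne (h : Stmt_FormalPrime p) (κ : Type) [Field κ]
    (hpκ : (p : κ) ≠ 0) (a b : κ[X]) (hb : b ≠ 0) :
    aeval (jqModC κ) b * qExpand κ p (jqModC κ) ≠ aeval (jqModC κ) a := by
  intro heq
  refine qExpand_jq_not_mem_adjoin p h κ hpκ ?_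
  have hb' : aeval (jqModC κ) b ≠ 0 := fun h0 =>
    hb (aeval_jq_injective κ (h0.trans (map_zero (aeval (R := κ) (jqModC κ))).symm))
  rw [IntermediateField.mem_adjoin_simple_iff]
  exact ⟨a, b, by rw [← heq, mul_div_cancel_left₀ _ hb']⟩

/-- **(S) Prime-level Igusa, strong form**: no nonzero `Q ∈ κ[Y][X]` of `X`-degree `≤ p`
satisfies `Q(j_p, j) = 0`; i.e. `[κ(j, j_p) : κ(j)] ≥ p + 1` (so `= p + 1`, and `Φ_p(X, j)` is
irreducible over `κ(j)`), for every field `κ` with `p ≠ 0`. -/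
theorem eval₂_qExpand_jq_ne_zero (h : Stmt_FormalPrime p) (κ : Type) [Field κ]
    (hpκ : (p : κ) ≠ 0) (Q : κ[X][X]) (hQ : Q ≠ 0) (hQdeg : Q.natDegree ≤ p) :
    Q.eval₂ (aeval (R := κ) (jqModC κ)).toRingHom (qExpand κ p (jqModC κ)) ≠ 0 := by
  obtain ⟨Φ, hΦm, hΦdeg, hd⟩ := exists_fieldData p h
  exact (hd κ hpκ).eval₂_ne_zero p hΦm hΦdeg Q hQ hQdeg

/-- **(F1/F2)**: the modular polynomial `Φ ∈ ℤ[Y][X]`, monic of `X`-degree `p + 1`, with
`Φ(j_p, j) = 0` and `Φ(j, j_p) = 0` over every commutative ring. -/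
theorem exists_modularPolynomial (h : Stmt_FormalPrime p) :
    ∃ Φ : ℤ[X][X], Φ.Monic ∧ Φ.natDegree = p + 1 ∧
      ∀ (R : Type u) [CommRing R],
        (Φ.map (evalJ (jqModC R))).eval (qExpand R p (jqModC R)) = 0 ∧
        (Φ.map (evalJ (qExpand R p (jqModC R)))).eval (jqModC R) = 0 := by
  obtain ⟨Φ, hΦm, hΦdeg, hd⟩ := exists_fieldData p h
  refine ⟨Φ, hΦm, hΦdeg, ?_⟩
  obtain ⟨G, T, Ψ, g, hGm, hfac, hG, hrel, hg0, hgcoeff, hΨne, hΨV⟩ :=
    hd ℚ (Nat.cast_ne_zero.mpr hp.out.ne_zero)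
  have hF1Q : (Φ.map (evalJ (jqModC ℚ))).eval (qExpand ℚ p (jqModC ℚ)) = 0 := by
    rw [hfac]
    simp
  have hF2Q : (Φ.map (evalJ (qExpand ℚ p (jqModC ℚ)))).eval (jqModC ℚ) = 0 := by
    have h1 := congrArg (Polynomial.map (qExpand ℚ p)) hfac
    rw [Polynomial.map_map, comp_evalJ, Polynomial.map_mul] at h1
    rw [h1, Polynomial.eval_mul, hΨV, mul_zero]
  have hinj : Function.Injective (coeffMap (Int.castRingHom ℚ)) :=
    coeffMap_injective (RingHom.injective_int (Int.castRingHom ℚ))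
  have hF1Z : (Φ.map (evalJ (jqModC ℤ))).eval (qExpand ℤ p (jqModC ℤ)) = 0 := by
    apply hinj
    rw [map_zero, coeffMap_eval_evalJ, coeffMap_qExpand, coeffMap_jqModC]
    exact hF1Q
  have hF2Z : (Φ.map (evalJ (qExpand ℤ p (jqModC ℤ)))).eval (jqModC ℤ) = 0 := by
    apply hinj
    rw [map_zero, coeffMap_eval_evalJ, coeffMap_qExpand, coeffMap_jqModC]
    exact hF2Q
  intro R _
  constructor
  · have h1 := congrArg (coeffMap (Int.castRingHom R)) hF1Z
    rwa [map_zero, coeffMap_eval_evalJ, coeffMap_qExpand, coeffMap_jqModC] at h1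
  · have h1 := congrArg (coeffMap (Int.castRingHom R)) hF2Z
    rwa [map_zero, coeffMap_eval_evalJ, coeffMap_qExpand, coeffMap_jqModC] at h1

/-- (F1/F2) over a field, in `aeval` form. -/
theorem exists_modularPolynomial_field (h : Stmt_FormalPrime p) (κ : Type u) [Field κ] :
    ∃ Φ : κ[X][X], Φ.Monic ∧ Φ.natDegree = p + 1 ∧
      Φ.eval₂ (aeval (R := κ) (jqModC κ)).toRingHom (qExpand κ p (jqModC κ)) = 0 ∧
      Φ.eval₂ (aeval (R := κ) (qExpand κ p (jqModC κ))).toRingHom (jqModC κ) = 0 := by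
  obtain ⟨Φ, hΦm, hΦdeg, hF⟩ := exists_modularPolynomial.{u} p h
  obtain ⟨hF1, hF2⟩ := hF κ
  refine ⟨Φ.map (Polynomial.mapRingHom (Int.castRingHom κ)), hΦm.map _, ?_, ?_, ?_⟩
  · rw [hΦm.natDegree_map, hΦdeg]
  · rw [Polynomial.eval₂_map, aeval_comp_mapRingHom, ← Polynomial.eval_map]
    exact hF1
  · rw [Polynomial.eval₂_map, aeval_comp_mapRingHom, ← Polynomial.eval_map]
    exact hF2

end Main

end

end Fermat.Agent.S28.helper2368
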