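import Mathlib

/-!
# S28, route E, leaf E3: analytic assembly (generic norm factorisation)

Mathlib-only.  Everything lives in `Fermat.Agent.S28.helper2428`.

* `IsQHol h f` : `f : ℍ → ℂ` is holomorphic, `h`-periodic and bounded at `i∞`; on this class
  `UpperHalfPlane.qExpansion h` is additive, multiplicative and injective.
* `levelOne_basis` : every level-one modular form of weight `12 m` is a `ℂ`-combination of
  `E₄^(3(m-b)) Δ^b`, `b ≤ m`.
* `levelOne_eq_const_mul_discriminant_pow` : a level-one form of weight `12 m` without zeros on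
  `ℍ` is `c • Δ^m`, `c ≠ 0`.
* `norm_factor_formal`, `norm_factor_top` : the generic factorisation statements (E3a).
-/

set_option autoImplicit false

open UpperHalfPlane ModularForm Polynomial
open scoped MatrixGroups ModularForm Manifold

noncomputable section

namespace Fermat.Agent.S28.helper2428

local notation "Δ" => ModularForm.discriminant

/-! ### The class of holomorphic, periodic functions bounded at `i∞` -/

/-- `f : ℍ → ℂ` is holomorphic, `h`-periodic and bounded at `i∞`. -/
structure IsQHol (h : ℝ) (f : ℍ → ℂ) : Prop where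
  mdiff : MDifferentiable 𝓘(ℂ) 𝓘(ℂ) f
  periodic : Function.Periodic (f ∘ ofComplex) (h : ℂ)
  bdd : IsBoundedAtImInfty f

namespace IsQHol

variable {h : ℝ} {f g : ℍ → ℂ}

theorem analyticAt (hh : 0 < h) (hf : IsQHol h f) : AnalyticAt ℂ (cuspFunction h f) 0 :=
  analyticAt_cuspFunction_zero hh hf.periodic hf.mdiff hf.bdd

theorem add (hf : IsQHol h f) (hg : IsQHol h g) : IsQHol h (f + g) where
  mdiff := hf.mdiff.add hg.mdiff
  periodic := hf.periodic.add hg.periodic
  bdd := hf.bdd.add hg.bdd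

theorem mul (hf : IsQHol h f) (hg : IsQHol h g) : IsQHol h (f * g) where
  mdiff := hf.mdiff.mul hg.mdiff
  periodic := hf.periodic.mul hg.periodic
  bdd := hf.bdd.mul hg.bdd

theorem const (h : ℝ) (c : ℂ) : IsQHol h (fun _ : ℍ => c) where
  mdiff := mdifferentiable_const
  periodic := fun _ => rfl
  bdd := Filter.const_boundedAtFilter _ c

theorem one (h : ℝ) : IsQHol h (1 : ℍ → ℂ) := const h 1

theorem smul (c : ℂ) (hf : IsQHol h f) : IsQHol h (c • f) := by
  have : c • f = (fun _ : ℍ => c) * f := by ext τ; simp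
  rw [this]
  exact (const h c).mul hf

theorem neg (hf : IsQHol h f) : IsQHol h (-f) := by
  have : -f = (-1 : ℂ) • f := by ext τ; simp
  rw [this]
  exact hf.smul _

theorem sub (hf : IsQHol h f) (hg : IsQHol h g) : IsQHol h (f - g) := by
  rw [sub_eq_add_neg]
  exact hf.add hg.neg

theorem pow (hf : IsQHol h f) (n : ℕ) : IsQHol h (f ^ n) := by
  induction n with
  | zero => simpa using one h
  | succ n ih => rw [pow_succ]; exact ih.mul hf

theorem prod {ι : Type*} (s : Finset ι) {F : ι → ℍ → ℂ} (hF : ∀ i ∈ s, IsQHol h (F i)) :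
    IsQHol h (∏ i ∈ s, F i) := by
  classical
  induction s using Finset.induction_on with
  | empty => simpa using one h
  | insert a s ha ih =>
    rw [Finset.prod_insert ha]
    exact (hF a (Finset.mem_insert_self a s)).mul
      (ih fun i hi => hF i (Finset.mem_insert_of_mem hi))

theorem sum {ι : Type*} (s : Finset ι) {F : ι → ℍ → ℂ} (hF : ∀ i ∈ s, IsQHol h (F i)) :
    IsQHol h (∑ i ∈ s, F i) := by
  classical
  induction s using Finset.induction_on with
  | empty => rw [Finset.sum_empty]; exact const h 0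
  | insert a s ha ih =>
    rw [Finset.sum_insert ha]
    exact (hF a (Finset.mem_insert_self a s)).add
      (ih fun i hi => hF i (Finset.mem_insert_of_mem hi))

/-! #### `qExpansion` on the class -/

theorem qExpansion_add (hh : 0 < h) (hf : IsQHol h f) (hg : IsQHol h g) :
    qExpansion h (f + g) = qExpansion h f + qExpansion h g :=
  UpperHalfPlane.qExpansion_add (hf.analyticAt hh) (hg.analyticAt hh)

theorem qExpansion_mul (hh : 0 < h) (hf : IsQHol h f) (hg : IsQHol h g) :
    qExpansion h (f * g) = qExpansion h f * qExpansion h g :=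
  UpperHalfPlane.qExpansion_mul (hf.analyticAt hh) (hg.analyticAt hh)

theorem qExpansion_smul (hh : 0 < h) (c : ℂ) (hf : IsQHol h f) :
    qExpansion h (c • f) = c • qExpansion h f :=
  UpperHalfPlane.qExpansion_smul (hf.analyticAt hh) c

theorem qExpansion_sub (hh : 0 < h) (hf : IsQHol h f) (hg : IsQHol h g) :
    qExpansion h (f - g) = qExpansion h f - qExpansion h g :=
  UpperHalfPlane.qExpansion_sub (hf.analyticAt hh) (hg.analyticAt hh)

theorem qExpansion_pow (hh : 0 < h) (hf : IsQHol h f) (n : ℕ) :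
    qExpansion h (f ^ n) = qExpansion h f ^ n := by
  induction n with
  | zero => simpa using UpperHalfPlane.qExpansion_one h
  | succ n ih => rw [pow_succ, pow_succ, qExpansion_mul hh (hf.pow n) hf, ih]

theorem qExpansion_prod (hh : 0 < h) {ι : Type*} (s : Finset ι) {F : ι → ℍ → ℂ}
    (hF : ∀ i ∈ s, IsQHol h (F i)) :
    qExpansion h (∏ i ∈ s, F i) = ∏ i ∈ s, qExpansion h (F i) := by
  classical
  induction s using Finset.induction_on with
  | empty => simpa using UpperHalfPlane.qExpansion_one h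
  | insert a s ha ih =>
    rw [Finset.prod_insert ha, Finset.prod_insert ha,
      qExpansion_mul hh (hF a (Finset.mem_insert_self a s))
        (prod s fun i hi => hF i (Finset.mem_insert_of_mem hi)),
      ih fun i hi => hF i (Finset.mem_insert_of_mem hi)]

theorem qExpansion_sum (hh : 0 < h) {ι : Type*} (s : Finset ι) {F : ι → ℍ → ℂ}
    (hF : ∀ i ∈ s, IsQHol h (F i)) :
    qExpansion h (∑ i ∈ s, F i) = ∑ i ∈ s, qExpansion h (F i) := by
  classical
  induction s using Finset.induction_on with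
  | empty => simpa using UpperHalfPlane.qExpansion_zero h
  | insert a s ha ih =>
    rw [Finset.sum_insert ha, Finset.sum_insert ha,
      qExpansion_add hh (hF a (Finset.mem_insert_self a s))
        (sum s fun i hi => hF i (Finset.mem_insert_of_mem hi)),
      ih fun i hi => hF i (Finset.mem_insert_of_mem hi)]

theorem qExpansion_eq_zero_iff (hh : 0 < h) (hf : IsQHol h f) : qExpansion h f = 0 ↔ f = 0 :=
  UpperHalfPlane.qExpansion_eq_zero_iff hh hf.periodic hf.mdiff hf.bdd

theorem qExpansion_injective (hh : 0 < h) (hf : IsQHol h f) (hg : IsQHol h g)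
    (hfg : qExpansion h f = qExpansion h g) : f = g := by
  have := (qExpansion_eq_zero_iff hh (hf.sub hg)).mp (by rw [qExpansion_sub hh hf hg, hfg, sub_self])
  exact sub_eq_zero.mp this

/-- A level-one modular form is `N`-periodic, holomorphic and bounded at `i∞`. -/
theorem of_levelOne {k : ℤ} (G : ModularForm 𝒮ℒ k) (N : ℕ) : IsQHol (N : ℝ) G where
  mdiff := G.holo'
  periodic := by
    have h1 : Function.Periodic ((G : ℍ → ℂ) ∘ ofComplex) ((1 : ℝ) : ℂ) :=
      SlashInvariantFormClass.periodic_comp_ofComplex G one_mem_strictPeriods_SL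
    have h2 := h1.nat_mul N
    simpa using h2
  bdd := ModularFormClass.bdd_at_infty G

end IsQHol

/-! ### Level one: the triangular basis `E₄^(3(m-b)) Δ^b` -/

/-- `E₄ ^ (3 m)` as a level-one modular form of weight `12 m`. -/
def e4Pow (m : ℕ) : ModularForm 𝒮ℒ (12 * (m : ℤ)) :=
  (E₄.pow (3 * m)).mcast (by push_cast; ring)

@[simp] theorem e4Pow_apply (m : ℕ) (τ : ℍ) : e4Pow m τ = E₄ τ ^ (3 * m) := by
  show (E₄.pow (3 * m) : ℍ → ℂ) τ = _
  rw [ModularForm.coe_pow]
  rfl

theorem qExpansion_e4Pow_coeff_zero (m : ℕ) : (qExpansion 1 (e4Pow m)).coeff 0 = 1 := by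
  have h1 : (e4Pow m : ℍ → ℂ) = (E₄ : ℍ → ℂ) ^ (3 * m) := by
    ext τ; simp
  rw [h1, IsQHol.qExpansion_pow one_pos (by simpa using IsQHol.of_levelOne E₄ 1)]
  rw [PowerSeries.coeff_zero_eq_constantCoeff, map_pow, ← PowerSeries.coeff_zero_eq_constantCoeff,
    EisensteinSeries.E_qExpansion_coeff_zero (by norm_num) (by decide), one_pow]

/-- Every level-one modular form of weight `12 m` is a combination of `E₄^(3(m-b)) Δ^b`. -/
theorem levelOne_basis (m : ℕ) (G : ModularForm 𝒮ℒ (12 * (m : ℤ))) :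
    ∃ c : Fin (m + 1) → ℂ, ∀ τ : ℍ,
      G τ = ∑ b : Fin (m + 1), c b * E₄ τ ^ (3 * (m - (b : ℕ))) * Δ τ ^ (b : ℕ) := by
  induction m with
  | zero =>
    let G0 : ModularForm 𝒮ℒ 0 := G.mcast (by simp)
    obtain ⟨c, hc⟩ := ModularFormClass.levelOne_weight_zero_const G0
    refine ⟨fun _ => c, fun τ => ?_⟩
    have : G τ = c := congrFun hc τ
    simp [this]
  | succ m ih =>
    have hcusp := (ModularForm.isCuspForm_iff_coeffZero_eq_zero _).mp
      (ModularForm.sub_smul_isCuspForm G (e4Pow (m + 1)) (qExpansion_e4Pow_coeff_zero (m + 1)))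
    generalize (qExpansion 1 G).coeff 0 = a at hcusp
    let G2 : ModularForm 𝒮ℒ (12 * (m : ℤ)) :=
      (CuspForm.discriminantEquiv (ModularForm.toCuspForm _ hcusp)).mcast (by push_cast; ring)
    obtain ⟨c, hc⟩ := ih G2
    refine ⟨Fin.cons a c, fun τ => ?_⟩
    have h2 : Δ τ * G2 τ = G τ - a * E₄ τ ^ (3 * (m + 1)) := by
      have := ModularForm.discriminant_mul_discriminantEquiv_apply
        (ModularForm.toCuspForm _ hcusp) τ
      rw [ModularForm.toCuspForm_apply] at this
      show Δ τ * (CuspForm.discriminantEquiv (ModularForm.toCuspForm _ hcusp)) τ = _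
      rw [this]
      show G τ - a * e4Pow (m + 1) τ = _
      rw [e4Pow_apply]
    rw [Fin.sum_univ_succ]
    simp only [Fin.cons_zero, Fin.val_zero, Nat.sub_zero, pow_zero, mul_one, Fin.cons_succ,
      Fin.val_succ, Nat.add_sub_add_right]
    have h3 : ∑ x : Fin (m + 1), c x * E₄ τ ^ (3 * (m - (x : ℕ))) * Δ τ ^ ((x : ℕ) + 1)
        = Δ τ * G2 τ := by
      rw [hc τ, Finset.mul_sum]
      refine Finset.sum_congr rfl fun x _ => ?_
      ring
    rw [h3, h2]
    ring

/-- A level-one modular form of weight `12 m` without zeros on `ℍ` is `c • Δ ^ m`, `c ≠ 0`. -/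
theorem levelOne_eq_const_mul_discriminant_pow (m : ℕ) (G : ModularForm 𝒮ℒ (12 * (m : ℤ)))
    (hG : ∀ τ : ℍ, G τ ≠ 0) : ∃ c : ℂ, c ≠ 0 ∧ ∀ τ : ℍ, G τ = c * Δ τ ^ m := by
  induction m with
  | zero =>
    let G0 : ModularForm 𝒮ℒ 0 := G.mcast (by simp)
    obtain ⟨c, hc⟩ := ModularFormClass.levelOne_weight_zero_const G0
    have h1 : ∀ τ, G τ = c := fun τ => congrFun hc τ
    exact ⟨c, fun h0 => hG I (by rw [h1, h0]), fun τ => by simp [h1]⟩
  | succ m ih =>
    -- the constant coefficient vanishes, otherwise `1 / G` is a form of negative weight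
    have hcusp : (qExpansion 1 G).coeff 0 = 0 := by
      by_contra hne
      have hanal := ModularFormClass.analyticAt_cuspFunction_zero G one_pos one_mem_strictPeriods_SL
      have hval : cuspFunction 1 G 0 = (qExpansion 1 G).coeff 0 := by
        simp [qExpansion_coeff]
      have htend : Filter.Tendsto (G : ℍ → ℂ) atImInfty (nhds ((qExpansion 1 G).coeff 0)) := by
        rw [← hval]
        exact (hanal.continuousAt.tendsto.comp (qParam_tendsto_atImInfty one_pos)).congr
          (fun τ ↦ SlashInvariantFormClass.eq_cuspFunction G τ one_mem_strictPeriods_SL one_ne_zero)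
      have hbdd : IsBoundedAtImInfty ((G : ℍ → ℂ)⁻¹) :=
        (htend.inv₀ hne).isBigO_one ℝ
      have hslash : ∀ γ : SL(2, ℤ),
          ((G : ℍ → ℂ)⁻¹) ∣[-(12 * ((m + 1 : ℕ) : ℤ))] γ = (G : ℍ → ℂ)⁻¹ := by
        intro γ
        have hγ : (γ : GL (Fin 2) ℝ) ∈ 𝒮ℒ := ⟨γ, rfl⟩
        have h1 : ((G : ℍ → ℂ)⁻¹) = (1 : ℍ → ℂ) / (G : ℍ → ℂ) := (one_div _).symm
        rw [h1, show -(12 * ((m + 1 : ℕ) : ℤ)) = 0 - 12 * ((m + 1 : ℕ) : ℤ) by ring,
          ModularForm.div_slash_SL2, ModularForm.is_invariant_one, SL_slash,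
          SlashInvariantForm.slash_action_eqn G _ hγ]
      let Ginv : ModularForm 𝒮ℒ (-(12 * ((m + 1 : ℕ) : ℤ))) :=
        { toFun := (G : ℍ → ℂ)⁻¹
          slash_action_eq' := fun _ ⟨γ, hγ⟩ ↦ hγ ▸ hslash γ
          holo' := G.holo'.inv hG
          bdd_at_cusps' := fun {c} hc => by
            rw [Subgroup.IsArithmetic.isCusp_iff_isCusp_SL2Z] at hc
            rw [OnePoint.isBoundedAt_iff_forall_SL2Z hc]
            intro γ _
            rw [hslash γ]
            exact hbdd }
      have hzero := ModularFormClass.levelOne_neg_weight_eq_zero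
        (by have : (0 : ℤ) < ((m + 1 : ℕ) : ℤ) := by positivity
            linarith) Ginv
      have : (G I)⁻¹ = 0 := congrFun hzero I
      exact hG I (inv_eq_zero.mp this)
    let G2 : ModularForm 𝒮ℒ (12 * (m : ℤ)) :=
      (CuspForm.discriminantEquiv (ModularForm.toCuspForm G hcusp)).mcast (by push_cast; ring)
    have h2 : ∀ τ, Δ τ * G2 τ = G τ := fun τ => by
      exact ModularForm.discriminant_mul_discriminantEquiv_apply
        (ModularForm.toCuspForm G hcusp) τ
    obtain ⟨c, hc0, hc⟩ := ih G2 (fun τ h0 => hG τ (by rw [← h2 τ, h0, mul_zero]))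
    exact ⟨c, hc0, fun τ => by rw [← h2 τ, hc τ]; ring⟩

/-! ### A polynomial with values in a subspace has coefficients in that subspace -/

/-- If `p ∈ A[X]` takes values in the `ℂ`-subspace `V` at all constants `x ∈ ℂ`, then all
coefficients of `p` lie in `V`. -/
theorem coeff_mem_of_forall_eval_mem {A : Type*} [CommRing A] [Algebra ℂ A] (V : Submodule ℂ A)
    (p : A[X]) (hp : ∀ x : ℂ, p.eval (algebraMap ℂ A x) ∈ V) (k : ℕ) : p.coeff k ∈ V := by
  by_contra hk
  obtain ⟨f, hf, hfV⟩ := Submodule.exists_dual_map_eq_bot_of_notMem hk inferInstance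
  have hfV' : ∀ v ∈ V, f v = 0 := fun v hv => by
    have : f v ∈ V.map f := Submodule.mem_map_of_mem hv
    rw [hfV] at this
    simpa using this
  let q : ℂ[X] := ∑ i ∈ p.support, Polynomial.monomial i (f (p.coeff i))
  have hq : ∀ x : ℂ, q.eval x = 0 := by
    intro x
    have h1 : f (p.eval (algebraMap ℂ A x)) = 0 := hfV' _ (hp x)
    rw [Polynomial.eval_eq_sum, Polynomial.sum, map_sum] at h1
    rw [← h1]
    simp only [q, Polynomial.eval_finsetSum, Polynomial.eval_monomial]
    refine Finset.sum_congr rfl fun i _ => ?_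
    rw [← map_pow, mul_comm (p.coeff i), ← Algebra.smul_def, map_smul, smul_eq_mul, mul_comm]
  have hq0 : q = 0 := Polynomial.funext (by simpa using hq)
  have hk' : f (p.coeff k) = 0 := by
    have h2 := congrArg (fun r : ℂ[X] => r.coeff k) hq0
    simp only [q, Polynomial.finsetSum_coeff, Polynomial.coeff_monomial, Polynomial.coeff_zero,
      Finset.sum_ite_eq', Polynomial.mem_support_iff] at h2
    by_cases hc : p.coeff k = 0
    · rw [hc, map_zero]
    · simpa [hc] using h2
  exact hf hk'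

/-! ### E3a: the generic norm factorisation -/

section NormFactor

variable (N : ℕ) [NeZero N] {ι : Type*} [Fintype ι] (m : ℕ)

/-- The power series `E₄(t^N)^(3(m-b)) Δ(t^N)^b`, `t = q^(1/N)`. -/
def basisSeries (b : ℕ) : PowerSeries ℂ :=
  qExpansion N E₄ ^ (3 * (m - b)) * qExpansion N Δ ^ b

theorem natCast_pos' : (0 : ℝ) < (N : ℝ) := by
  exact_mod_cast Nat.pos_of_ne_zero (NeZero.ne N)

omit [NeZero N] in
theorem isQHol_E4 : IsQHol (N : ℝ) (E₄ : ℍ → ℂ) := IsQHol.of_levelOne E₄ N

omit [NeZero N] in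
theorem isQHol_discriminant : IsQHol (N : ℝ) Δ :=
  IsQHol.of_levelOne (CuspForm.discriminant : ModularForm 𝒮ℒ 12) N

/-- **E3a.** If the `P i`, `Q i` are holomorphic, `N`-periodic and bounded at `i∞` and all the
products `∏ i, (P i - x • Q i)` (`x ∈ ℂ`) are level-one modular forms of weight `12 m`, then all
coefficients of the polynomial `∏ i, (P̂_i - X Q̂_i)` over `ℂ⟦t⟧` are `ℂ`-combinations of the
series `E₄^(3(m-b)) Δ^b` (in the variable `t^N`). -/
theorem norm_factor_formal (P Q : ι → ℍ → ℂ) (hP : ∀ i, IsQHol (N : ℝ) (P i))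
    (hQ : ∀ i, IsQHol (N : ℝ) (Q i))
    (hG : ∀ x : ℂ, ∃ G : ModularForm 𝒮ℒ (12 * (m : ℤ)), ∀ τ, G τ = ∏ i, (P i τ - x * Q i τ)) :
    ∃ c : ℕ → Fin (m + 1) → ℂ,
      (∏ i, (C (qExpansion N (P i)) - X * C (qExpansion N (Q i))) : (PowerSeries ℂ)[X])
        = ∑ k ∈ Finset.range (Fintype.card ι + 1), ∑ b : Fin (m + 1),
            C (c k b • basisSeries N m b) * X ^ k := by
  classical
  have hN := natCast_pos' N
  set V : Submodule ℂ (PowerSeries ℂ) :=
    Submodule.span ℂ (Set.range fun b : Fin (m + 1) => basisSeries N m b) with hV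
  set Pi0 : (PowerSeries ℂ)[X] := ∏ i, (C (qExpansion N (P i)) - X * C (qExpansion N (Q i)))
    with hPi0
  -- Step 1: values at constants lie in `V`
  have h1 : ∀ x : ℂ, Pi0.eval (algebraMap ℂ (PowerSeries ℂ) x) ∈ V := by
    intro x
    obtain ⟨G, hGx⟩ := hG x
    obtain ⟨c, hc⟩ := levelOne_basis m G
    have hfun : (∏ i, (P i - x • Q i) : ℍ → ℂ)
        = ∑ b : Fin (m + 1), c b • ((E₄ : ℍ → ℂ) ^ (3 * (m - (b : ℕ))) * Δ ^ (b : ℕ)) := by
      funext τ
      simp only [Finset.prod_apply, Pi.sub_apply, Pi.smul_apply, smul_eq_mul, Finset.sum_apply,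
        Pi.mul_apply, Pi.pow_apply]
      rw [← hGx τ, hc τ]
      refine Finset.sum_congr rfl fun b _ => ?_
      ring
    have hL : qExpansion N (∏ i, (P i - x • Q i) : ℍ → ℂ)
        = ∏ i, (qExpansion N (P i) - x • qExpansion N (Q i)) := by
      rw [IsQHol.qExpansion_prod hN _ fun i _ => (hP i).sub ((hQ i).smul x)]
      refine Finset.prod_congr rfl fun i _ => ?_
      rw [IsQHol.qExpansion_sub hN (hP i) ((hQ i).smul x), IsQHol.qExpansion_smul hN x (hQ i)]
    have hR : qExpansion N
        (∑ b : Fin (m + 1), c b • ((E₄ : ℍ → ℂ) ^ (3 * (m - (b : ℕ))) * Δ ^ (b : ℕ)))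
        = ∑ b : Fin (m + 1), c b • basisSeries N m b := by
      have hb : ∀ b : Fin (m + 1),
          IsQHol (N : ℝ) ((E₄ : ℍ → ℂ) ^ (3 * (m - (b : ℕ))) * Δ ^ (b : ℕ)) :=
        fun b => ((isQHol_E4 N).pow _).mul ((isQHol_discriminant N).pow _)
      rw [IsQHol.qExpansion_sum hN _ fun b _ => (hb b).smul (c b)]
      refine Finset.sum_congr rfl fun b _ => ?_
      rw [IsQHol.qExpansion_smul hN (c b) (hb b),
        IsQHol.qExpansion_mul hN ((isQHol_E4 N).pow _) ((isQHol_discriminant N).pow _),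
        IsQHol.qExpansion_pow hN (isQHol_E4 N), IsQHol.qExpansion_pow hN (isQHol_discriminant N)]
      rfl
    have hev : Pi0.eval (algebraMap ℂ (PowerSeries ℂ) x)
        = ∏ i, (qExpansion N (P i) - x • qExpansion N (Q i)) := by
      rw [hPi0, Polynomial.eval_prod]
      refine Finset.prod_congr rfl fun i _ => ?_
      rw [Polynomial.eval_sub, Polynomial.eval_mul, Polynomial.eval_C, Polynomial.eval_C,
        Polynomial.eval_X, Algebra.smul_def]
    rw [hev, ← hL, hfun, hR]
    exact Submodule.sum_mem _ fun b _ =>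
      Submodule.smul_mem _ _ (Submodule.subset_span ⟨b, rfl⟩)
  -- Step 2: all coefficients lie in `V`
  have h2 : ∀ k, Pi0.coeff k ∈ V := coeff_mem_of_forall_eval_mem V Pi0 h1
  have h3 : ∀ k, ∃ c : Fin (m + 1) → ℂ, ∑ b, c b • basisSeries N m b = Pi0.coeff k := fun k =>
    (Submodule.mem_span_range_iff_exists_fun ℂ).mp (h2 k)
  choose c hc using h3
  refine ⟨c, ?_⟩
  -- Step 3: degree bound and reassembly
  have hdeg : Pi0.natDegree < Fintype.card ι + 1 := by
    have hle : Pi0.natDegree ≤ ∑ i : ι, 1 := by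
      rw [hPi0]
      refine (Polynomial.natDegree_prod_le _ _).trans (Finset.sum_le_sum fun i _ => ?_)
      refine (Polynomial.natDegree_sub_le _ _).trans (max_le ?_ ?_)
      · simp
      · refine (Polynomial.natDegree_mul_le).trans ?_
        simp
    have : ∑ i : ι, 1 = Fintype.card ι := by simp
    omega
  conv_lhs => rw [Polynomial.as_sum_range' Pi0 _ hdeg]
  refine Finset.sum_congr rfl fun k _ => ?_
  rw [← Polynomial.C_mul_X_pow_eq_monomial, ← hc k, map_sum, Finset.sum_mul]

/-- The coefficient of `X ^ card ι` in `∏ i, (p i - X q i)`. -/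
theorem coeff_card_prod_sub {R : Type*} [CommRing R] (p q : ι → R) :
    (∏ i, (C (p i) - X * C (q i)) : R[X]).coeff (Fintype.card ι)
      = (-1) ^ Fintype.card ι * ∏ i, q i := by
  have h := Polynomial.coeff_prod_of_natDegree_le (R := R) (s := Finset.univ)
    (fun i : ι => C (p i) - X * C (q i)) 1 (fun i _ => by
      refine (Polynomial.natDegree_sub_le _ _).trans (max_le ?_ ?_)
      · simp
      · refine (Polynomial.natDegree_mul_C_le _ _).trans ?_
        exact Polynomial.natDegree_X_le)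
  rw [Finset.card_univ, mul_one] at h
  rw [h]
  have : ∀ i : ι, (C (p i) - X * C (q i) : R[X]).coeff 1 = -q i := by
    intro i
    simp
  simp only [this]
  rw [Finset.prod_neg, Finset.card_univ]

/-- **E3a, top coefficient.** If `∏ i, Q i` is a level-one form of weight `12 m` without zeros,
then `∏ i, Q̂_i = c₀ • Δ(t^N)^m` with `c₀ ≠ 0`. -/
theorem norm_factor_top (Q : ι → ℍ → ℂ) (hQ : ∀ i, IsQHol (N : ℝ) (Q i))
    (hG : ∃ G : ModularForm 𝒮ℒ (12 * (m : ℤ)), ∀ τ, G τ = ∏ i, Q i τ)
    (hQ0 : ∀ i τ, Q i τ ≠ 0) :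
    ∃ c₀ : ℂ, c₀ ≠ 0 ∧ ∏ i, qExpansion N (Q i) = c₀ • qExpansion N Δ ^ m := by
  have hN := natCast_pos' N
  obtain ⟨G, hGQ⟩ := hG
  obtain ⟨c₀, hc₀, hc⟩ := levelOne_eq_const_mul_discriminant_pow m G
    (fun τ => by rw [hGQ τ]; exact Finset.prod_ne_zero_iff.mpr fun i _ => hQ0 i τ)
  refine ⟨c₀, hc₀, ?_⟩
  have hfun : (∏ i, Q i : ℍ → ℂ) = c₀ • (Δ ^ m) := by
    funext τ
    simp only [Finset.prod_apply, Pi.smul_apply, Pi.pow_apply, smul_eq_mul]
    rw [← hGQ τ, hc τ]
  rw [← IsQHol.qExpansion_prod hN _ fun i _ => hQ i, hfun,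
    IsQHol.qExpansion_smul hN c₀ ((isQHol_discriminant N).pow m),
    IsQHol.qExpansion_pow hN (isQHol_discriminant N)]

end NormFactor

end Fermat.Agent.S28.helper2428
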