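import Fermat.Agent.S28.helper2608_Spec
import Fermat.Agent.S28.helper508_RatLoc

/-!
# S28 algebra core, part A: the local ring `O ⊂ ℚ((q))` and its reduction `ρ : O → 𝔽_ℓ((q))`

`Wl ℓ = ℤ₍ℓ₎((q))`, `ιQ : Wl ℓ → ℚ((q))`, `redW : Wl ℓ → 𝔽_ℓ((q))`.
`locO ℓ = {x ∈ ℚ((q)) | ∃ s y ∈ Wl ℓ, redW s ≠ 0 ∧ s x = y}` (localisation of `Wl ℓ` at the
kernel of `redW`), with the ring hom `ρ x = redW y / redW s`.
-/

set_option autoImplicit false

noncomputable section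

namespace Fermat.Agent.S28.helper2608

open ModularCurve Polynomial
open Fermat.Agent.S28.Spec
open Fermat.Agent.S28.helper508 (toZMod)

variable (ℓ : ℕ) [Fact ℓ.Prime]

/-- `ℤ₍ℓ₎((q))`. -/
abbrev Wl : Type := LaurentSeries (Zl ℓ)

/-- The embedding `ℤ₍ℓ₎((q)) → ℚ((q))`. -/
def ιQ : Wl ℓ →+* LaurentSeries ℚ := coeffMap (GaloisRep.ratLocalizedAt ℓ).subtype

/-- Reduction mod `ℓ`: `ℤ₍ℓ₎((q)) → 𝔽_ℓ((q))`. -/
def redW : Wl ℓ →+* LaurentSeries (ZMod ℓ) := coeffMap (toZMod ℓ)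

/-- `ℤ((q)) → ℤ₍ℓ₎((q))`. -/
def ofInt : LaurentSeries ℤ →+* Wl ℓ := coeffMap (Int.castRingHom (Zl ℓ))

theorem ιQ_injective : Function.Injective (ιQ ℓ) := by
  intro x y h
  ext k
  have h1 := congrArg (fun z : LaurentSeries ℚ => z.coeff k) h
  simpa [ιQ] using h1

theorem ιQ_ofInt (x : LaurentSeries ℤ) : ιQ ℓ (ofInt ℓ x) = toQ x := by
  rw [ιQ, ofInt, coeffMap_coeffMap]
  exact coeffMap_congr (RingHom.ext_int _ _) x

theorem redW_ofInt (x : LaurentSeries ℤ) : redW ℓ (ofInt ℓ x) = toFl ℓ x := by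
  rw [redW, ofInt, coeffMap_coeffMap]
  exact coeffMap_congr (RingHom.ext_int _ _) x

theorem toQ_injective : Function.Injective toQ := by
  intro x y h
  ext k
  have h1 := congrArg (fun z : LaurentSeries ℚ => z.coeff k) h
  simpa using h1

/-- The localisation of `ℤ₍ℓ₎((q))` at the kernel of reduction, as a subring of `ℚ((q))`. -/
def locO : Subring (LaurentSeries ℚ) where
  carrier := {x | ∃ s y : Wl ℓ, redW ℓ s ≠ 0 ∧ ιQ ℓ s * x = ιQ ℓ y}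
  mul_mem' := by
    rintro a b ⟨s, y, hs, h⟩ ⟨s', y', hs', h'⟩
    refine ⟨s * s', y * y', ?_, ?_⟩
    · rw [map_mul]; exact mul_ne_zero hs hs'
    · rw [map_mul, map_mul, ← h, ← h']; ring
  one_mem' := ⟨1, 1, by rw [map_one]; exact one_ne_zero, by simp⟩
  add_mem' := by
    rintro a b ⟨s, y, hs, h⟩ ⟨s', y', hs', h'⟩
    refine ⟨s * s', y * s' + y' * s, ?_, ?_⟩
    · rw [map_mul]; exact mul_ne_zero hs hs'
    · rw [map_mul, map_add, map_mul, map_mul, ← h, ← h']; ring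
  zero_mem' := ⟨1, 0, by rw [map_one]; exact one_ne_zero, by simp⟩
  neg_mem' := by
    rintro a ⟨s, y, hs, h⟩
    exact ⟨s, -y, hs, by rw [map_neg, ← h]; ring⟩

theorem mem_locO_iff {x : LaurentSeries ℚ} :
    x ∈ locO ℓ ↔ ∃ s y : Wl ℓ, redW ℓ s ≠ 0 ∧ ιQ ℓ s * x = ιQ ℓ y := Iff.rfl

theorem ιQ_mem_locO (y : Wl ℓ) : ιQ ℓ y ∈ locO ℓ :=
  ⟨1, y, by rw [map_one]; exact one_ne_zero, by simp⟩

/-- The underlying function of `ρ`. -/
def ρfun (x : locO ℓ) : LaurentSeries (ZMod ℓ) :=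
  redW ℓ x.2.choose_spec.choose / redW ℓ x.2.choose

theorem ρfun_eq (x : locO ℓ) (s y : Wl ℓ) (hs : redW ℓ s ≠ 0)
    (h : ιQ ℓ s * (x : LaurentSeries ℚ) = ιQ ℓ y) : ρfun ℓ x = redW ℓ y / redW ℓ s := by
  obtain ⟨hs0, h0⟩ := x.2.choose_spec.choose_spec
  rw [ρfun, div_eq_div_iff hs0 hs]
  have key : x.2.choose_spec.choose * s = y * x.2.choose := by
    apply ιQ_injective ℓ
    rw [map_mul, map_mul, ← h0, ← h]; ring
  rw [← map_mul, ← map_mul, key]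

/-- The reduction map `ρ : O → 𝔽_ℓ((q))`. -/
def ρ : locO ℓ →+* LaurentSeries (ZMod ℓ) where
  toFun := ρfun ℓ
  map_one' := by
    rw [ρfun_eq ℓ 1 1 1 (by rw [map_one]; exact one_ne_zero) (by simp), map_one, div_one]
  map_mul' := by
    intro a b
    obtain ⟨s, y, hs, h⟩ := a.2
    obtain ⟨s', y', hs', h'⟩ := b.2
    rw [ρfun_eq ℓ a s y hs h, ρfun_eq ℓ b s' y' hs' h',
      ρfun_eq ℓ (a * b) (s * s') (y * y') (by rw [map_mul]; exact mul_ne_zero hs hs')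
        (by rw [map_mul, map_mul, ← h, ← h', Subring.coe_mul]; ring),
      map_mul, map_mul, div_mul_div_comm]
  map_zero' := by
    rw [ρfun_eq ℓ 0 1 0 (by rw [map_one]; exact one_ne_zero) (by simp), map_zero, zero_div]
  map_add' := by
    intro a b
    obtain ⟨s, y, hs, h⟩ := a.2
    obtain ⟨s', y', hs', h'⟩ := b.2
    rw [ρfun_eq ℓ a s y hs h, ρfun_eq ℓ b s' y' hs' h',
      ρfun_eq ℓ (a + b) (s * s') (y * s' + y' * s) (by rw [map_mul]; exact mul_ne_zero hs hs')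
        (by rw [map_mul, map_add, map_mul, map_mul, ← h, ← h', Subring.coe_add]; ring),
      map_mul, map_add, map_mul, map_mul, div_add_div _ _ hs hs',
      mul_comm (redW ℓ s) (redW ℓ y')]

theorem ρ_eq (x : locO ℓ) (s y : Wl ℓ) (hs : redW ℓ s ≠ 0)
    (h : ιQ ℓ s * (x : LaurentSeries ℚ) = ιQ ℓ y) : ρ ℓ x = redW ℓ y / redW ℓ s :=
  ρfun_eq ℓ x s y hs h

theorem ρ_eq_zero_iff (x : locO ℓ) (s y : Wl ℓ) (hs : redW ℓ s ≠ 0)
    (h : ιQ ℓ s * (x : LaurentSeries ℚ) = ιQ ℓ y) : ρ ℓ x = 0 ↔ redW ℓ y = 0 := by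
  rw [ρ_eq ℓ x s y hs h, div_eq_zero_iff]
  exact ⟨fun h => h.resolve_right hs, Or.inl⟩

theorem ρ_ιQ (y : Wl ℓ) : ρ ℓ ⟨ιQ ℓ y, ιQ_mem_locO ℓ y⟩ = redW ℓ y := by
  rw [ρ_eq ℓ _ 1 y (by rw [map_one]; exact one_ne_zero) (by simp), map_one, div_one]

end Fermat.Agent.S28.helper2608

end
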