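import Fermat.Agent.S28.helper2608_CoreA

/-!
# S28 algebra core, part B: consequences of `Stmt_CoreInput`

Basic facts on polynomials in `j`, normalisation by powers of `ℓ`, and: every element of `L`
which is integral over `ℤ₍ℓ₎((q))` is of the form `(∑ aᵢ(j) bᵢ)/s(j)` with `s ≢ 0 mod ℓ`.
-/

set_option autoImplicit false

noncomputable section

namespace Fermat.Agent.S28.helper2608

open ModularCurve Polynomial
open Fermat.Agent.S28.Spec
open Fermat.Agent.S28.helper508 (toZMod)

section Generalities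

theorem algebraMap_eq_single' (R : Type*) [CommRing R] (a : R) :
    algebraMap R (LaurentSeries R) a = HahnSeries.single 0 a := by
  have h1 : algebraMap R (PowerSeries R) a = PowerSeries.C a := by
    simp
  rw [HahnSeries.algebraMap_apply', h1, HahnSeries.ofPowerSeries_C]
  rfl

theorem coeffMap_algebraMap' {R S : Type*} [CommRing R] [CommRing S] (f : R →+* S) (a : R) :
    coeffMap f (algebraMap R (LaurentSeries R) a) = algebraMap S (LaurentSeries S) (f a) := by
  rw [algebraMap_eq_single', algebraMap_eq_single', coeffMap_single]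

theorem intCast_ne_zero' {m : ℤ} (hm : m ≠ 0) : (m : LaurentSeries ℚ) ≠ 0 := by
  rw [← map_intCast (algebraMap ℚ (LaurentSeries ℚ))]
  exact (_root_.map_ne_zero _).mpr (Int.cast_ne_zero.mpr hm)

theorem coeffMap_aeval_jqModC {R S : Type*} [CommRing R] [CommRing S] (f : R →+* S)
    (p : Polynomial R) :
    coeffMap f (Polynomial.aeval (jqModC R) p) = Polynomial.aeval (jqModC S) (p.map f) := by
  induction p using Polynomial.induction_on' with
  | add p q hp hq => rw [map_add, map_add, Polynomial.map_add, map_add, hp, hq]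
  | monomial n a =>
    rw [Polynomial.aeval_monomial, Polynomial.map_monomial, Polynomial.aeval_monomial, map_mul,
      map_pow, coeffMap_jqModC, coeffMap_algebraMap']

/-- Lowest term of a polynomial in `j`. -/
theorem coeff_aeval_jqModC (K : Type*) [CommRing K] (p : Polynomial K) :
    (Polynomial.aeval (jqModC K) p).coeff (-(p.natDegree : ℤ)) = p.leadingCoeff := by
  rw [Polynomial.aeval_eq_sum_range, ← HahnSeries.coeff.addMonoidHom_apply, map_sum,
    Finset.sum_eq_single p.natDegree]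
  · rw [HahnSeries.coeff.addMonoidHom_apply, Algebra.smul_def, algebraMap_eq_single',
      HahnSeries.coeff_single_zero_mul, coeff_jqModC_pow_self, mul_one,
      Polynomial.coeff_natDegree]
  · intro i hi hne
    rw [HahnSeries.coeff.addMonoidHom_apply, Algebra.smul_def, algebraMap_eq_single',
      HahnSeries.coeff_single_zero_mul,
      coeff_jqModC_pow_of_lt K (b := i) (m := -(p.natDegree : ℤ)), mul_zero]
    have : i < p.natDegree := lt_of_le_of_ne (Nat.lt_succ_iff.mp (Finset.mem_range.mp hi)) hne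
    omega
  · intro h
    exact absurd (Finset.mem_range.mpr (Nat.lt_succ_self _)) h

theorem aeval_jqModC_eq_zero_iff (K : Type*) [CommRing K] (p : Polynomial K) :
    Polynomial.aeval (jqModC K) p = 0 ↔ p = 0 := by
  refine ⟨fun h => ?_, fun h => by rw [h, map_zero]⟩
  have h1 := coeff_aeval_jqModC K p
  rw [h, HahnSeries.coeff_zero] at h1
  exact Polynomial.leadingCoeff_eq_zero.mp h1.symm

theorem toQ_aeval (a : Polynomial ℤ) :
    toQ (Polynomial.aeval (jqModC ℤ) a) = Polynomial.aeval jq a := by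
  rw [toQ, coeffMap_aeval_jqModC, jqModC_rat, Polynomial.aeval_def, Polynomial.eval₂_map,
    Polynomial.aeval_def]
  congr 1
  exact RingHom.ext_int _ _

end Generalities

variable (ℓ : ℕ) [Fact ℓ.Prime]

theorem toFl_aeval (a : Polynomial ℤ) :
    toFl ℓ (Polynomial.aeval (jqModC ℤ) a) =
      Polynomial.aeval (jqModC (ZMod ℓ)) (a.map (Int.castRingHom (ZMod ℓ))) := by
  rw [toFl, coeffMap_aeval_jqModC]

/-- `ℤ[j]`-combination of a family of integer `q`-series. -/
def combZ {n : ℕ} (a : Fin n → Polynomial ℤ) (b : Fin n → LaurentSeries ℤ) : LaurentSeries ℤ :=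
  ∑ i, Polynomial.aeval (jqModC ℤ) (a i) * b i

omit [Fact ℓ.Prime] in
theorem toQ_combZ {n : ℕ} (a : Fin n → Polynomial ℤ) (b : Fin n → LaurentSeries ℤ) :
    toQ (combZ a b) = ∑ i, Polynomial.aeval jq (a i) * toQ (b i) := by
  rw [combZ, map_sum]
  exact Finset.sum_congr rfl fun i _ => by rw [map_mul, toQ_aeval]

theorem toFl_combZ {n : ℕ} (a : Fin n → Polynomial ℤ) (b : Fin n → LaurentSeries ℤ) :
    toFl ℓ (combZ a b) = ∑ i, Polynomial.aeval (jqModC (ZMod ℓ))
      ((a i).map (Int.castRingHom (ZMod ℓ))) * toFl ℓ (b i) := by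
  rw [combZ, map_sum]
  exact Finset.sum_congr rfl fun i _ => by rw [map_mul, toFl_aeval]

theorem C_dvd_of_map_eq_zero (a : Polynomial ℤ)
    (h : a.map (Int.castRingHom (ZMod ℓ)) = 0) : Polynomial.C (ℓ : ℤ) ∣ a := by
  rw [Polynomial.C_dvd_iff_dvd_coeff]
  intro i
  have h1 := congrArg (fun p => p.coeff i) h
  simp only [Polynomial.coeff_map, Polynomial.coeff_zero, eq_intCast] at h1
  exact (ZMod.intCast_zmod_eq_zero_iff_dvd _ _).mp h1

/-- Divide a nonzero family of integer polynomials by the largest common power of `ℓ`. -/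
theorem exists_normalize {m : ℕ} (c : Fin m → Polynomial ℤ) (hc : c ≠ 0) :
    ∃ (k : ℕ) (c' : Fin m → Polynomial ℤ), (∀ i, c i = Polynomial.C ((ℓ : ℤ) ^ k) * c' i) ∧
      ∃ i, (c' i).map (Int.castRingHom (ZMod ℓ)) ≠ 0 := by
  have hℓ : 2 ≤ ℓ := (Fact.out : ℓ.Prime).two_le
  obtain ⟨i₀, hi₀⟩ : ∃ i₀, c i₀ ≠ 0 := by
    by_contra h
    push Not at h
    exact hc (funext h)
  obtain ⟨d₀, hd₀⟩ : ∃ d₀, (c i₀).coeff d₀ ≠ 0 := by
    by_contra h
    push Not at h
    exact hi₀ (Polynomial.ext h)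
  -- strong induction on the absolute value of a chosen nonzero coefficient
  suffices H : ∀ (M : ℕ) (c : Fin m → Polynomial ℤ), ((c i₀).coeff d₀).natAbs = M →
      (c i₀).coeff d₀ ≠ 0 →
      ∃ (k : ℕ) (c' : Fin m → Polynomial ℤ), (∀ i, c i = Polynomial.C ((ℓ : ℤ) ^ k) * c' i) ∧
        ∃ i, (c' i).map (Int.castRingHom (ZMod ℓ)) ≠ 0 from H _ c rfl hd₀
  intro M
  induction M using Nat.strong_induction_on with
  | _ M ih =>
    intro c hM hne
    by_cases hex : ∃ i, (c i).map (Int.castRingHom (ZMod ℓ)) ≠ 0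
    · exact ⟨0, c, fun i => by simp, hex⟩
    · push Not at hex
      have hdvd : ∀ i, Polynomial.C (ℓ : ℤ) ∣ c i := fun i => C_dvd_of_map_eq_zero ℓ _ (hex i)
      choose c₁ hc₁ using hdvd
      have hcoeff : (c i₀).coeff d₀ = (ℓ : ℤ) * (c₁ i₀).coeff d₀ := by
        rw [hc₁ i₀, Polynomial.coeff_C_mul]
      have hne₁ : (c₁ i₀).coeff d₀ ≠ 0 := by
        intro h0
        rw [h0, mul_zero] at hcoeff
        exact hne hcoeff
      have hlt : ((c₁ i₀).coeff d₀).natAbs < M := by
        rw [← hM, hcoeff, Int.natAbs_mul, Int.natAbs_natCast]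
        have hpos : 0 < ((c₁ i₀).coeff d₀).natAbs := Int.natAbs_pos.mpr hne₁
        nlinarith
      obtain ⟨k, c', hk, hi⟩ := ih _ hlt c₁ rfl hne₁
      refine ⟨k + 1, c', fun i => ?_, hi⟩
      rw [hc₁ i, hk i, pow_succ, Polynomial.C_mul]
      ring

variable {ℓ}
variable {n : ℕ} {L : IntermediateField ℚ (LaurentSeries ℚ)} {b : Fin n → LaurentSeries ℤ}

theorem aeval_jq_C_mul (r : ℤ) (a : Polynomial ℤ) :
    Polynomial.aeval jq (Polynomial.C r * a) = (r : LaurentSeries ℚ) * Polynomial.aeval jq a := by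
  rw [map_mul, Polynomial.aeval_C, eq_intCast]

/-- The `b i` are linearly independent over `ℤ[j]`. -/
theorem indep_of_LI (hLI : LinIndepModL ℓ b) (a : Fin n → Polynomial ℤ)
    (h : ∑ i, Polynomial.aeval jq (a i) * toQ (b i) = 0) : a = 0 := by
  by_contra ha
  obtain ⟨k, a', hk, i, hi⟩ := exists_normalize ℓ a ha
  have hℓ0 : ((((ℓ : ℤ) ^ k : ℤ)) : LaurentSeries ℚ) ≠ 0 :=
    intCast_ne_zero' (pow_ne_zero _ (by exact_mod_cast (Fact.out : ℓ.Prime).ne_zero))
  have h1 : ∑ i, Polynomial.aeval jq (a' i) * toQ (b i) = 0 := by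
    have h2 : ∑ i, Polynomial.aeval jq (a i) * toQ (b i) =
        ((((ℓ : ℤ) ^ k : ℤ)) : LaurentSeries ℚ) * ∑ i, Polynomial.aeval jq (a' i) * toQ (b i) := by
      rw [Finset.mul_sum]
      exact Finset.sum_congr rfl fun i _ => by rw [hk i, aeval_jq_C_mul, mul_assoc]
    rw [h2] at h
    exact (mul_eq_zero.mp h).resolve_left hℓ0
  have h3 : combZ a' b = 0 := by
    apply toQ_injective
    rw [toQ_combZ, h1, map_zero]
  have h4 := toFl_combZ ℓ a' b
  rw [h3, map_zero] at h4
  have h5 := hLI (fun i => (a' i).map (Int.castRingHom (ZMod ℓ))) h4.symm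
  exact hi (congrFun h5 i)

/-- Every element of `L` is a `ℚ(j)`-combination of the `b i`. -/
theorem exists_span (hLI : LinIndepModL ℓ b) (hdeg : DegLE L n) (x : LaurentSeries ℚ)
    (hx : x ∈ L) (hb : ∀ i, toQ (b i) ∈ L) :
    ∃ (s : Polynomial ℤ) (a : Fin n → Polynomial ℤ), s ≠ 0 ∧
      Polynomial.aeval jq s * x = ∑ i, Polynomial.aeval jq (a i) * toQ (b i) := by
  obtain ⟨c, hc, hsum⟩ := hdeg (Fin.cons x fun i => toQ (b i)) (by
    intro i
    refine Fin.cases ?_ (fun i => ?_) i
    · simpa using hx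
    · simpa using hb i)
  rw [Fin.sum_univ_succ] at hsum
  simp only [Fin.cons_zero, Fin.cons_succ] at hsum
  refine ⟨c 0, fun i => -c i.succ, ?_, ?_⟩
  · intro h0
    rw [h0, map_zero, zero_mul, zero_add] at hsum
    have h1 := indep_of_LI hLI (fun i => c i.succ) hsum
    apply hc
    funext i
    refine Fin.cases ?_ (fun i => ?_) i
    · exact h0
    · exact congrFun h1 i
  · rw [eq_neg_of_add_eq_zero_left hsum, ← Finset.sum_neg_distrib]
    exact Finset.sum_congr rfl fun i _ => by rw [map_neg, neg_mul]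

end Fermat.Agent.S28.helper2608

end
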