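import Fermat.Agent.S28.helper2608_CoreB

/-!
# S28 algebra core, part C: integral elements of `L` have denominators prime to `ℓ`

* `exists_span_unit` : `x ∈ L` integral over `ℤ₍ℓ₎((q))` ⇒ `s(j) x = ∑ aᵢ(j) bᵢ` with `s ≢ 0 mod ℓ`.
* `mem_locO_of_integral` : such `x` lie in `locO ℓ`.
* `exists_span_of_ρ_eq_zero` : if moreover `ρ x = 0` then `s(j) x = ℓ ∑ aᵢ(j) bᵢ`.
-/

set_option autoImplicit false

noncomputable section

namespace Fermat.Agent.S28.helper2608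

open ModularCurve Polynomial
open Fermat.Agent.S28.Spec
open Fermat.Agent.S28.helper508 (toZMod)

variable {ℓ : ℕ} [Fact ℓ.Prime]
variable {n : ℕ} {L : IntermediateField ℚ (LaurentSeries ℚ)} {b : Fin n → LaurentSeries ℤ}

/-- The image in `ℤ₍ℓ₎((q))` of a polynomial in `j`. -/
def polW (ℓ : ℕ) (s : Polynomial ℤ) : Wl ℓ := ofInt ℓ (Polynomial.aeval (jqModC ℤ) s)

theorem ιQ_polW (s : Polynomial ℤ) : ιQ ℓ (polW ℓ s) = Polynomial.aeval jq s := by
  rw [polW, ιQ_ofInt, toQ_aeval]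

theorem redW_polW (s : Polynomial ℤ) :
    redW ℓ (polW ℓ s) = Polynomial.aeval (jqModC (ZMod ℓ)) (s.map (Int.castRingHom (ZMod ℓ))) := by
  rw [polW, redW_ofInt, toFl_aeval]

theorem redW_polW_ne_zero {s : Polynomial ℤ} (hs : s.map (Int.castRingHom (ZMod ℓ)) ≠ 0) :
    redW ℓ (polW ℓ s) ≠ 0 := by
  rw [redW_polW, Ne, aeval_jqModC_eq_zero_iff]
  exact hs

/-- Key lemma: integral elements have denominators prime to `ℓ`. -/
theorem exists_span_unit (hLI : LinIndepModL ℓ b) (hdeg : DegLE L n) (hb : ∀ i, toQ (b i) ∈ L)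
    (x : LaurentSeries ℚ) (hx : x ∈ L) (hint : (ιQ ℓ).IsIntegralElem x) :
    ∃ (s : Polynomial ℤ) (a : Fin n → Polynomial ℤ), s.map (Int.castRingHom (ZMod ℓ)) ≠ 0 ∧
      Polynomial.aeval jq s * x = ∑ i, Polynomial.aeval jq (a i) * toQ (b i) := by
  obtain ⟨s, a, hs, h⟩ := exists_span hLI hdeg x hx hb
  have hc : (Fin.cons s a : Fin (n + 1) → Polynomial ℤ) ≠ 0 := by
    intro h0
    exact hs (by simpa using congrFun h0 0)
  obtain ⟨k, c', hk, hi⟩ := exists_normalize ℓ (Fin.cons s a : Fin (n + 1) → Polynomial ℤ) hc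
  have hs' : s = Polynomial.C ((ℓ : ℤ) ^ k) * c' 0 := by simpa using hk 0
  have ha' : ∀ i, a i = Polynomial.C ((ℓ : ℤ) ^ k) * c' i.succ := fun i => by simpa using hk i.succ
  have hℓ0 : ((((ℓ : ℤ) ^ k : ℤ)) : LaurentSeries ℚ) ≠ 0 :=
    intCast_ne_zero' (pow_ne_zero _ (by exact_mod_cast (Fact.out : ℓ.Prime).ne_zero))
  -- the normalised equation
  have h' : Polynomial.aeval jq (c' 0) * x =
      ∑ i, Polynomial.aeval jq (c' i.succ) * toQ (b i) := by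
    have h2 : ((((ℓ : ℤ) ^ k : ℤ)) : LaurentSeries ℚ) * (Polynomial.aeval jq (c' 0) * x) =
        ((((ℓ : ℤ) ^ k : ℤ)) : LaurentSeries ℚ) *
          ∑ i, Polynomial.aeval jq (c' i.succ) * toQ (b i) := by
      rw [← mul_assoc, ← aeval_jq_C_mul, ← hs', h, Finset.mul_sum]
      exact Finset.sum_congr rfl fun i _ => by rw [ha' i, aeval_jq_C_mul, mul_assoc]
    exact mul_left_cancel₀ hℓ0 h2
  refine ⟨c' 0, fun i => c' i.succ, ?_, h'⟩
  intro hs0
  -- all `c' i.succ` reduce to zero, contradiction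
  obtain ⟨p, hp_monic, hp⟩ := hint
  set Y : LaurentSeries ℤ := combZ (fun i => c' i.succ) b with hY
  have hYQ : ιQ ℓ (ofInt ℓ Y) = ιQ ℓ (polW ℓ (c' 0)) * x := by
    rw [ιQ_ofInt, hY, toQ_combZ, ιQ_polW, h']
  have h1 : Polynomial.eval₂ (ιQ ℓ) (ιQ ℓ (polW ℓ (c' 0)) * x) (p.scaleRoots (polW ℓ (c' 0))) = 0 := by
    rw [Polynomial.scaleRoots_eval₂_mul, hp, mul_zero]
  rw [← hYQ, Polynomial.eval₂_at_apply] at h1
  have h2 : Polynomial.eval (ofInt ℓ Y) (p.scaleRoots (polW ℓ (c' 0))) = 0 :=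
    ιQ_injective ℓ (by rw [h1, map_zero])
  have h3 : Polynomial.eval (redW ℓ (ofInt ℓ Y))
      ((p.scaleRoots (polW ℓ (c' 0))).map (redW ℓ)) = 0 := by
    rw [Polynomial.eval_map, Polynomial.eval₂_at_apply, h2, map_zero]
  have hred0 : redW ℓ (polW ℓ (c' 0)) = 0 := by
    rw [redW_polW, hs0, map_zero]
  have hlc : redW ℓ p.leadingCoeff ≠ 0 := by
    rw [hp_monic.leadingCoeff, map_one]
    exact one_ne_zero
  rw [Polynomial.map_scaleRoots _ _ _ hlc, hred0, Polynomial.scaleRoots_zero,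
    (hp_monic.map (redW ℓ)).leadingCoeff, one_smul, Polynomial.eval_pow, Polynomial.eval_X] at h3
  have h4 : redW ℓ (ofInt ℓ Y) = 0 := eq_zero_of_pow_eq_zero h3
  rw [redW_ofInt, hY, toFl_combZ] at h4
  have h5 := hLI (fun i => (c' i.succ).map (Int.castRingHom (ZMod ℓ))) h4
  obtain ⟨i, hi⟩ := hi
  refine Fin.cases ?_ (fun i => ?_) i hi
  · exact fun h => h hs0
  · exact fun h => h (congrFun h5 i)

/-- Integral elements of `L` lie in the local ring `locO ℓ`. -/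
theorem mem_locO_of_integral (hLI : LinIndepModL ℓ b) (hdeg : DegLE L n)
    (hb : ∀ i, toQ (b i) ∈ L) (x : LaurentSeries ℚ) (hx : x ∈ L)
    (hint : (ιQ ℓ).IsIntegralElem x) : x ∈ locO ℓ := by
  obtain ⟨s, a, hs, h⟩ := exists_span_unit hLI hdeg hb x hx hint
  exact ⟨polW ℓ s, ofInt ℓ (combZ a b), redW_polW_ne_zero hs, by
    rw [ιQ_polW, ιQ_ofInt, toQ_combZ, h]⟩

/-- If an integral element of `L` reduces to zero, its coordinates are divisible by `ℓ`. -/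
theorem exists_span_of_ρ_eq_zero (hLI : LinIndepModL ℓ b) (hdeg : DegLE L n)
    (hb : ∀ i, toQ (b i) ∈ L) (x : LaurentSeries ℚ) (hx : x ∈ L)
    (hint : (ιQ ℓ).IsIntegralElem x) (hxO : x ∈ locO ℓ) (hρ : ρ ℓ ⟨x, hxO⟩ = 0) :
    ∃ (s : Polynomial ℤ) (a : Fin n → Polynomial ℤ), s.map (Int.castRingHom (ZMod ℓ)) ≠ 0 ∧
      Polynomial.aeval jq s * x =
        (ℓ : LaurentSeries ℚ) * ∑ i, Polynomial.aeval jq (a i) * toQ (b i) := by
  obtain ⟨s, a, hs, h⟩ := exists_span_unit hLI hdeg hb x hx hint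
  have hρ' := (ρ_eq_zero_iff ℓ ⟨x, hxO⟩ (polW ℓ s) (ofInt ℓ (combZ a b)) (redW_polW_ne_zero hs)
    (by rw [ιQ_polW, ιQ_ofInt, toQ_combZ, h])).mp hρ
  rw [redW_ofInt, toFl_combZ] at hρ'
  have h5 := hLI (fun i => (a i).map (Int.castRingHom (ZMod ℓ))) hρ'
  have hdvd : ∀ i, Polynomial.C (ℓ : ℤ) ∣ a i := fun i =>
    C_dvd_of_map_eq_zero ℓ _ (congrFun h5 i)
  choose a' ha' using hdvd
  refine ⟨s, a', hs, ?_⟩
  rw [h, Finset.mul_sum]
  refine Finset.sum_congr rfl fun i _ => ?_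
  rw [ha' i, aeval_jq_C_mul, mul_assoc]
  simp

end Fermat.Agent.S28.helper2608

end
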