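import Fermat.Agent.S28.helper2608_CoreC
import Fermat.Agent.S28.helper3069_ScaledIntegral
import Fermat.Agent.S28.helper3292_JqFacts

/-!
# S28 algebra core, part D: integrality over `ℤ₍ℓ₎[u]`, `u = j` or `u = j⁻¹`

`φ ℓ u : ℤ₍ℓ₎[X] → ℚ((q))`, `X ↦ u`.  Membership in `chartAlg N ℓ {u}` is integrality with
respect to `φ ℓ u`.
-/

set_option autoImplicit false

noncomputable section

namespace Fermat.Agent.S28.helper2608

open ModularCurve ModularCurve.IgusaScheme Polynomial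
open Fermat.Agent.S28.Spec
open Fermat.Agent.S28.helper508 (toZMod)

variable (ℓ : ℕ) [Fact ℓ.Prime]

/-- Constants `ℤ₍ℓ₎ → ℚ((q))`. -/
def cQ : Zl ℓ →+* LaurentSeries ℚ :=
  (algebraMap ℚ (LaurentSeries ℚ)).comp (GaloisRep.ratLocalizedAt ℓ).subtype

/-- `φ ℓ u : ℤ₍ℓ₎[X] → ℚ((q))`, `X ↦ u`. -/
def φ (u : LaurentSeries ℚ) : Polynomial (Zl ℓ) →+* LaurentSeries ℚ :=
  Polynomial.eval₂RingHom (cQ ℓ) u

theorem φ_apply (u : LaurentSeries ℚ) (p : Polynomial (Zl ℓ)) :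
    φ ℓ u p = Polynomial.eval₂ (cQ ℓ) u p := rfl

theorem φ_map_int (u : LaurentSeries ℚ) (p : Polynomial ℤ) :
    φ ℓ u (p.map (Int.castRingHom (Zl ℓ))) = Polynomial.aeval u p := by
  rw [φ_apply, Polynomial.eval₂_map, Polynomial.aeval_def]
  congr 1
  exact RingHom.ext_int _ _

theorem φ_C_ell (u : LaurentSeries ℚ) :
    φ ℓ u (Polynomial.C ((ℓ : ℕ) : Zl ℓ)) = (ℓ : LaurentSeries ℚ) := by
  rw [φ_apply, Polynomial.eval₂_C, cQ, RingHom.comp_apply]
  simp

theorem φ_eq_aeval_map (u : LaurentSeries ℚ) (p : Polynomial (Zl ℓ)) :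
    φ ℓ u p = Polynomial.aeval u (p.map (GaloisRep.ratLocalizedAt ℓ).subtype) := by
  rw [φ_apply, Polynomial.aeval_def, Polynomial.eval₂_map]
  rfl

theorem φ_injective_of (u : LaurentSeries ℚ)
    (hu : Function.Injective (Polynomial.aeval (R := ℚ) u)) : Function.Injective (φ ℓ u) := by
  rw [injective_iff_map_eq_zero]
  intro p hp
  rw [φ_eq_aeval_map] at hp
  have h1 : p.map (GaloisRep.ratLocalizedAt ℓ).subtype = 0 :=
    hu (by rw [hp, map_zero])
  exact (Polynomial.map_eq_zero_iff (Subtype.val_injective)).mp h1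

theorem φ_jq_injective : Function.Injective (φ ℓ jq) :=
  φ_injective_of ℓ jq (by
    have := helper3292.aeval_jqModC_injective ℚ
    rwa [jqModC_rat] at this)

theorem φ_jq_inv_injective : Function.Injective (φ ℓ jq⁻¹) :=
  φ_injective_of ℓ jq⁻¹ helper3292.aeval_jq_inv_injective

/-- `φ`-integral elements are `ιQ`-integral when `u` has `ℓ`-integral coefficients. -/
theorem ιQ_isIntegralElem_of_φ (u : LaurentSeries ℚ) (uW : Wl ℓ) (huW : ιQ ℓ uW = u)
    (x : LaurentSeries ℚ) (hx : (φ ℓ u).IsIntegralElem x) : (ιQ ℓ).IsIntegralElem x := by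
  obtain ⟨P, hP, hPx⟩ := hx
  set ψ : Polynomial (Zl ℓ) →+* Wl ℓ :=
    Polynomial.eval₂RingHom (algebraMap (Zl ℓ) (Wl ℓ)) uW with hψ
  have hcomp : (ιQ ℓ).comp ψ = φ ℓ u := by
    refine Polynomial.ringHom_ext (fun r => ?_) ?_
    · simp only [RingHom.comp_apply, hψ, Polynomial.coe_eval₂RingHom, Polynomial.eval₂_C, φ_apply,
        cQ]
      rw [ιQ, coeffMap_algebraMap']
    · simp only [RingHom.comp_apply, hψ, Polynomial.coe_eval₂RingHom, Polynomial.eval₂_X, φ_apply,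
        huW]
  refine ⟨P.map ψ, hP.map ψ, ?_⟩
  rw [Polynomial.eval₂_map, hcomp]
  exact hPx

/-- The series `j` and `j⁻¹` as elements of `ℤ₍ℓ₎((q))`. -/
theorem ιQ_ofInt_jq : ιQ ℓ (ofInt ℓ (jqModC ℤ)) = jq := by
  rw [ιQ_ofInt, toQ, coeffMap_jqModC, jqModC_rat]

theorem ιQ_ofInt_jInv : ιQ ℓ (ofInt ℓ (helper3292.jInvSeries ℤ)) = jq⁻¹ := by
  rw [ιQ_ofInt]
  have h : toQ (helper3292.jInvSeries ℤ) * jq = 1 := by
    have h1 := congrArg toQ (helper3292.jInvSeries_mul_jqModC ℤ)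
    rwa [map_mul, map_one, toQ, coeffMap_jqModC, jqModC_rat] at h1
  exact eq_inv_of_mul_eq_one_left h

/-- Elements integral over `ℤ[j]` (in the sense of the Spec) are `ιQ`-integral. -/
theorem ιQ_isIntegralElem_of_isIntegralOverZj (b : LaurentSeries ℤ) (hb : IsIntegralOverZj b) :
    (ιQ ℓ).IsIntegralElem (toQ b) := by
  obtain ⟨P, hP, hPb⟩ := hb
  set g : Polynomial ℤ →+* LaurentSeries ℤ := (Polynomial.aeval (jqModC ℤ)).toRingHom with hg
  refine ⟨P.map ((ofInt ℓ).comp g), hP.map _, ?_⟩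
  rw [Polynomial.eval₂_map]
  have hcomp : (ιQ ℓ).comp ((ofInt ℓ).comp g) = toQ.comp g :=
    RingHom.ext fun p => by
      rw [RingHom.comp_apply, RingHom.comp_apply, RingHom.comp_apply, ιQ_ofInt]
  rw [hcomp, ← Polynomial.hom_eval₂, hPb, map_zero]

end Fermat.Agent.S28.helper2608

end
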