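import Fermat.Agent.S28.helper2608_CoreD

/-!
# S28 algebra core, part E: chart membership, stability, and scaled integrality
-/

set_option autoImplicit false

noncomputable section

namespace Fermat.Agent.S28.helper2608

open ModularCurve ModularCurve.IgusaScheme Polynomial
open Fermat.Agent.S28.Spec
open Fermat.Agent.S28.helper508 (toZMod)

variable (ℓ : ℕ) [Fact ℓ.Prime]

section ChartMembership

variable (N : ℕ) [NeZero N]

/-- The inclusion `F → ℚ((q))` as a ring hom. -/
abbrev incF : ↥(modularFunctionFieldFull N) →+* LaurentSeries ℚ :=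
  (modularFunctionFieldFull N).toSubfield.subtype

theorem coe_algebraMap_Zl (r : Zl ℓ) :
    ((algebraMap (Zl ℓ) ↥(modularFunctionFieldFull N) r : ↥(modularFunctionFieldFull N)) :
      LaurentSeries ℚ) = cQ ℓ r := by
  have h : (incF N).comp (algebraMap (Zl ℓ) ↥(modularFunctionFieldFull N)) = cQ ℓ := by
    apply IsLocalization.ringHom_ext (Ideal.span {(ℓ : ℤ)}).primeCompl
    exact RingHom.ext_int _ _
  exact congrArg (fun f : Zl ℓ →+* LaurentSeries ℚ => f r) h

/-- `p(u)` computed in `F` and then viewed in `ℚ((q))` is `φ ℓ u p`. -/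
theorem coe_aeval_eq_φ (uF : ↥(modularFunctionFieldFull N)) (p : Polynomial (Zl ℓ)) :
    ((Polynomial.aeval uF p : ↥(modularFunctionFieldFull N)) : LaurentSeries ℚ) =
      φ ℓ (uF : LaurentSeries ℚ) p := by
  induction p using Polynomial.induction_on' with
  | add p q hp hq =>
    rw [map_add, map_add, ← hp, ← hq]
    rfl
  | monomial n a =>
    rw [Polynomial.aeval_monomial, φ_apply, Polynomial.eval₂_monomial]
    push_cast
    rw [coe_algebraMap_Zl]

/-- Membership in `chartAlg N ℓ {u}` is `φ ℓ u`-integrality. -/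
theorem mem_chartAlg_singleton_iff (uF x : ↥(modularFunctionFieldFull N)) :
    x ∈ chartAlg N ℓ {uF} ↔ (φ ℓ (uF : LaurentSeries ℚ)).IsIntegralElem (x : LaurentSeries ℚ) := by
  rw [mem_chartAlg_iff]
  set A₀ : Subalgebra (Zl ℓ) ↥(modularFunctionFieldFull N) := Algebra.adjoin (Zl ℓ) {uF} with hA₀
  set g' : Polynomial (Zl ℓ) →ₐ[Zl ℓ] A₀ :=
    Polynomial.aeval (⟨uF, Algebra.subset_adjoin (Set.mem_singleton _)⟩ : A₀) with hg'
  have hcoe : ∀ p : Polynomial (Zl ℓ),
      (((g' p : A₀) : ↥(modularFunctionFieldFull N)) : LaurentSeries ℚ) =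
        φ ℓ (uF : LaurentSeries ℚ) p := by
    intro p
    rw [hg', Polynomial.aeval_subalgebra_coe, coe_aeval_eq_φ]
  have hcomp : ((incF N).comp
      (algebraMap A₀ ↥(modularFunctionFieldFull N))).comp g'.toRingHom =
        φ ℓ (uF : LaurentSeries ℚ) := RingHom.ext fun p => hcoe p
  constructor
  · rintro ⟨p, hp, hpx⟩
    have hsurj : Function.Surjective g'.toRingHom := by
      intro c
      have hc : (c : ↥(modularFunctionFieldFull N)) ∈ (Polynomial.aeval (R := Zl ℓ) uF).range := by
        rw [← Algebra.adjoin_singleton_eq_range_aeval]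
        exact c.2
      obtain ⟨q, hq⟩ := hc
      refine ⟨q, Subtype.ext ?_⟩
      show ((g' q : A₀) : ↥(modularFunctionFieldFull N)) = c
      rw [hg', Polynomial.aeval_subalgebra_coe]
      exact hq
    have hl : p ∈ Polynomial.lifts g'.toRingHom :=
      (Polynomial.mem_lifts p).mpr (Polynomial.map_surjective g'.toRingHom hsurj p)
    obtain ⟨P, hP, -, hPm⟩ := Polynomial.lifts_and_natDegree_eq_and_monic hl hp
    refine ⟨P, hPm, ?_⟩
    have h1 : incF N (Polynomial.eval₂ (algebraMap A₀ ↥(modularFunctionFieldFull N)) x p) = 0 := by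
      rw [hpx, map_zero]
    rw [Polynomial.hom_eval₂, ← hP, Polynomial.eval₂_map, hcomp] at h1
    exact h1
  · rintro ⟨P, hPm, hPx⟩
    refine ⟨P.map g'.toRingHom, hPm.map _, ?_⟩
    rw [Polynomial.eval₂_map]
    have h2 : incF N (Polynomial.eval₂
        ((algebraMap A₀ ↥(modularFunctionFieldFull N)).comp g'.toRingHom) x P) = 0 := by
      rw [Polynomial.hom_eval₂, ← RingHom.comp_assoc, hcomp]
      exact hPx
    exact (map_eq_zero_iff (incF N) (incF N).injective).mp h2

end ChartMembership

end Fermat.Agent.S28.helper2608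

end
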