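import Fermat.Agent.S28.helper2608_CoreE

/-!
# S28 algebra core, part F: dividing by `ℓ` inside a chart

* `isIntegralElem_of_stab` : Cayley–Hamilton form of integrality.
* `exists_inv_form` : pass from polynomials in `j` to polynomials in `j⁻¹`.
* `exists_stab` : if `ρ x = 0` then `x/ℓ` stabilises `∑ ℤ[j] bᵢ` up to denominators prime to `ℓ`.
* `isIntegralElem_div_ell` : `x` integral over `ℤ₍ℓ₎[u]` with `ρ x = 0` ⇒ `x/ℓ` integral.
-/

set_option autoImplicit false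

noncomputable section

namespace Fermat.Agent.S28.helper2608

open ModularCurve ModularCurve.IgusaScheme Polynomial
open Fermat.Agent.S28.Spec
open Fermat.Agent.S28.helper508 (toZMod)

section Abstract

/-- Cayley–Hamilton form of integrality: if multiplication by `z` maps the finitely generated
`D`-module `∑ D cᵢ` into itself up to the denominators `s k`, then `(∏ s k) z` is integral. -/
theorem isIntegralElem_of_stab {D A : Type*} [CommRing D] [Field A] (f : D →+* A) {n : ℕ}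
    (c : Fin n → A) (hc : ∃ i, c i ≠ 0) (z : A) (s : Fin n → D) (a : Fin n → Fin n → D)
    (h : ∀ k, f (s k) * (z * c k) = ∑ i, f (a k i) * c i) :
    f.IsIntegralElem (f (∏ k, s k) * z) := by
  letI : Algebra D A := f.toAlgebra
  have hsmul : ∀ (r : D) (m : A), r • m = f r * m := fun r m => rfl
  set Nsub : Submodule D A := Submodule.span D (Set.range c) with hN
  have hN0 : Nsub ≠ ⊥ := by
    obtain ⟨i, hi⟩ := hc
    intro h0
    have hmem : c i ∈ Nsub := Submodule.subset_span ⟨i, rfl⟩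
    rw [h0, Submodule.mem_bot] at hmem
    exact hi hmem
  have key : ∀ m ∈ Nsub, (f (∏ k, s k) * z) • m ∈ Nsub := by
    intro m hm
    induction hm using Submodule.span_induction with
    | mem m hm =>
      obtain ⟨k, rfl⟩ := hm
      have h1 : (f (∏ k, s k) * z) • c k =
          (∏ j ∈ Finset.univ.erase k, s j) • ∑ i, (a k i) • c i := by
        rw [← Finset.mul_prod_erase Finset.univ s (Finset.mem_univ k), map_mul, smul_eq_mul,
          hsmul]
        simp only [hsmul]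
        rw [← h k]
        ring
      rw [h1]
      exact Nsub.smul_mem _ (Submodule.sum_mem _ fun i _ =>
        Nsub.smul_mem _ (Submodule.subset_span ⟨i, rfl⟩))
    | zero => rw [smul_zero]; exact Nsub.zero_mem
    | add x y _ _ hx hy => rw [smul_add]; exact Nsub.add_mem hx hy
    | smul r x _ hx => rw [smul_comm]; exact Nsub.smul_mem r hx
  exact isIntegral_of_smul_mem_submodule Nsub hN0 (Submodule.fg_span (Set.finite_range c)) _ key

theorem aeval_jq_inv_reflect_mul_pow (d : ℕ) (p : Polynomial ℤ) (hp : p.natDegree ≤ d) :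
    Polynomial.aeval jq⁻¹ (p.reflect d) * jq ^ d = Polynomial.aeval jq p := by
  letI : Invertible jq := invertibleOfNonzero jq_ne_zero
  have h := Polynomial.eval₂_reflect_mul_pow (algebraMap ℤ (LaurentSeries ℚ)) jq d p hp
  rw [invOf_eq_inv] at h
  exact h

end Abstract

variable {ℓ : ℕ} [Fact ℓ.Prime]
variable {n : ℕ} {L : IntermediateField ℚ (LaurentSeries ℚ)} {b : Fin n → LaurentSeries ℤ}

theorem natCast_ell_ne_zero' : ((ℓ : ℕ) : LaurentSeries ℚ) ≠ 0 := by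
  have h := intCast_ne_zero' (m := (ℓ : ℤ)) (by exact_mod_cast (Fact.out : ℓ.Prime).ne_zero)
  rwa [Int.cast_natCast] at h

theorem eq_zero_of_aeval_jq_eq_zero (s : Polynomial ℤ) (h : Polynomial.aeval jq s = 0) :
    s = 0 := by
  rw [← toQ_aeval] at h
  have h1 : Polynomial.aeval (jqModC ℤ) s = 0 := toQ_injective (by rw [h, map_zero])
  exact (aeval_jqModC_eq_zero_iff ℤ s).mp h1

/-- Pass from polynomials in `j` to polynomials in `j⁻¹`. -/
theorem exists_inv_form (s : Polynomial ℤ) (hs : s.map (Int.castRingHom (ZMod ℓ)) ≠ 0) {m : ℕ}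
    (a : Fin m → Polynomial ℤ) (c : Fin m → LaurentSeries ℚ) (Z : LaurentSeries ℚ)
    (h : Polynomial.aeval jq s * Z = ∑ i, Polynomial.aeval jq (a i) * c i) :
    ∃ (s' : Polynomial ℤ) (a' : Fin m → Polynomial ℤ),
      s'.map (Int.castRingHom (ZMod ℓ)) ≠ 0 ∧
      Polynomial.aeval jq⁻¹ s' * Z = ∑ i, Polynomial.aeval jq⁻¹ (a' i) * c i := by
  set d : ℕ := s.natDegree + ∑ i, (a i).natDegree with hd
  have hsd : s.natDegree ≤ d := Nat.le_add_right _ _
  have had : ∀ i, (a i).natDegree ≤ d := fun i =>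
    le_trans (Finset.single_le_sum (f := fun i => (a i).natDegree) (fun _ _ => Nat.zero_le _)
      (Finset.mem_univ i)) (Nat.le_add_left _ _)
  refine ⟨s.reflect d, fun i => (a i).reflect d, ?_, ?_⟩
  · rw [← Polynomial.reflect_map, Ne, Polynomial.reflect_eq_zero_iff]
    exact hs
  · have hpow : jq ^ d ≠ 0 := pow_ne_zero _ jq_ne_zero
    apply mul_right_cancel₀ hpow
    rw [Finset.sum_mul]
    calc Polynomial.aeval jq⁻¹ (s.reflect d) * Z * jq ^ d
        = (Polynomial.aeval jq⁻¹ (s.reflect d) * jq ^ d) * Z := by ring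
      _ = Polynomial.aeval jq s * Z := by rw [aeval_jq_inv_reflect_mul_pow d s hsd]
      _ = ∑ i, Polynomial.aeval jq (a i) * c i := h
      _ = ∑ i, Polynomial.aeval jq⁻¹ ((a i).reflect d) * c i * jq ^ d :=
        Finset.sum_congr rfl fun i _ => by
          rw [← aeval_jq_inv_reflect_mul_pow d (a i) (had i)]
          ring

/-- If `ρ x = 0`, then `x/ℓ` stabilises `∑ ℤ[j] bᵢ` up to denominators prime to `ℓ`. -/
theorem exists_stab (hLI : LinIndepModL ℓ b) (hdeg : DegLE L n) (hb : ∀ i, toQ (b i) ∈ L)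
    (hint : ∀ i, IsIntegralOverZj (b i))
    (x : LaurentSeries ℚ) (hx : x ∈ L) (hxι : (ιQ ℓ).IsIntegralElem x) (hxO : x ∈ locO ℓ)
    (hρ : ρ ℓ ⟨x, hxO⟩ = 0) (k : Fin n) :
    ∃ (s : Polynomial ℤ) (a : Fin n → Polynomial ℤ), s.map (Int.castRingHom (ZMod ℓ)) ≠ 0 ∧
      Polynomial.aeval jq s * (x * ((ℓ : ℕ) : LaurentSeries ℚ)⁻¹ * toQ (b k)) =
        ∑ i, Polynomial.aeval jq (a i) * toQ (b i) := by
  have hbι : (ιQ ℓ).IsIntegralElem (toQ (b k)) :=
    ιQ_isIntegralElem_of_isIntegralOverZj ℓ (b k) (hint k)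
  have hyL : x * toQ (b k) ∈ L := mul_mem hx (hb k)
  have hyι : (ιQ ℓ).IsIntegralElem (x * toQ (b k)) := RingHom.IsIntegralElem.mul _ hxι hbι
  have hbO : toQ (b k) ∈ locO ℓ := mem_locO_of_integral hLI hdeg hb _ (hb k) hbι
  have hyO : x * toQ (b k) ∈ locO ℓ := (locO ℓ).mul_mem hxO hbO
  have hρy : ρ ℓ ⟨x * toQ (b k), hyO⟩ = 0 := by
    have hmul : (⟨x * toQ (b k), hyO⟩ : locO ℓ) = ⟨x, hxO⟩ * ⟨toQ (b k), hbO⟩ := rfl
    rw [hmul, map_mul, hρ, zero_mul]
  obtain ⟨s, a, hs, h⟩ := exists_span_of_ρ_eq_zero hLI hdeg hb _ hyL hyι hyO hρy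
  refine ⟨s, a, hs, ?_⟩
  have hℓ0 : ((ℓ : ℕ) : LaurentSeries ℚ) ≠ 0 := natCast_ell_ne_zero'
  calc Polynomial.aeval jq s * (x * ((ℓ : ℕ) : LaurentSeries ℚ)⁻¹ * toQ (b k))
      = ((ℓ : ℕ) : LaurentSeries ℚ)⁻¹ * (Polynomial.aeval jq s * (x * toQ (b k))) := by ring
    _ = ((ℓ : ℕ) : LaurentSeries ℚ)⁻¹ * (((ℓ : ℕ) : LaurentSeries ℚ) *
          ∑ i, Polynomial.aeval jq (a i) * toQ (b i)) := by rw [h]
    _ = ∑ i, Polynomial.aeval jq (a i) * toQ (b i) := by rw [inv_mul_cancel_left₀ hℓ0]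

/-- **Division by `ℓ`**: an element of `L` integral over `ℤ₍ℓ₎[u]` whose reduction vanishes is
`ℓ` times an element integral over `ℤ₍ℓ₎[u]`. -/
theorem isIntegralElem_div_ell (u : LaurentSeries ℚ) (hinj : Function.Injective (φ ℓ u))
    (hform : ∀ (s : Polynomial ℤ) (a : Fin n → Polynomial ℤ) (Z : LaurentSeries ℚ),
      s.map (Int.castRingHom (ZMod ℓ)) ≠ 0 →
      Polynomial.aeval jq s * Z = ∑ i, Polynomial.aeval jq (a i) * toQ (b i) →
      ∃ (s' : Polynomial ℤ) (a' : Fin n → Polynomial ℤ),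
        s'.map (Int.castRingHom (ZMod ℓ)) ≠ 0 ∧
        Polynomial.aeval u s' * Z = ∑ i, Polynomial.aeval u (a' i) * toQ (b i))
    (hLI : LinIndepModL ℓ b) (hdeg : DegLE L n) (hb : ∀ i, toQ (b i) ∈ L)
    (hint : ∀ i, IsIntegralOverZj (b i))
    (x : LaurentSeries ℚ) (hx : x ∈ L) (hxφ : (φ ℓ u).IsIntegralElem x)
    (hxι : (ιQ ℓ).IsIntegralElem x) (hxO : x ∈ locO ℓ) (hρ : ρ ℓ ⟨x, hxO⟩ = 0) :
    (φ ℓ u).IsIntegralElem (x * ((ℓ : ℕ) : LaurentSeries ℚ)⁻¹) := by
  have hℓ0 : ((ℓ : ℕ) : LaurentSeries ℚ) ≠ 0 := natCast_ell_ne_zero'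
  have hc : ∃ i, toQ (b i) ≠ 0 := by
    by_contra hall
    push Not at hall
    obtain ⟨s, a, hs, h⟩ := exists_span hLI hdeg 1 (one_mem L) hb
    rw [mul_one, Finset.sum_eq_zero (fun i _ => by rw [hall i, mul_zero])] at h
    exact hs (eq_zero_of_aeval_jq_eq_zero s h)
  have hstab : ∀ k, ∃ (s' : Polynomial ℤ) (a' : Fin n → Polynomial ℤ),
      s'.map (Int.castRingHom (ZMod ℓ)) ≠ 0 ∧
      Polynomial.aeval u s' * (x * ((ℓ : ℕ) : LaurentSeries ℚ)⁻¹ * toQ (b k)) =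
        ∑ i, Polynomial.aeval u (a' i) * toQ (b i) := fun k => by
    obtain ⟨s, a, hs, h⟩ := exists_stab hLI hdeg hb hint x hx hxι hxO hρ k
    exact hform s a _ hs h
  choose s a hs h using hstab
  have h2 : (φ ℓ u).IsIntegralElem
      (φ ℓ u (∏ k, (s k).map (Int.castRingHom (Zl ℓ))) * (x * ((ℓ : ℕ) : LaurentSeries ℚ)⁻¹)) := by
    refine isIntegralElem_of_stab (φ ℓ u) (fun i => toQ (b i)) hc _
      (fun k => (s k).map (Int.castRingHom (Zl ℓ)))
      (fun k i => (a k i).map (Int.castRingHom (Zl ℓ))) fun k => ?_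
    simp only [φ_map_int]
    exact h k
  have h1 : (φ ℓ u).IsIntegralElem
      (φ ℓ u (Polynomial.C ((ℓ : ℕ) : Zl ℓ)) * (x * ((ℓ : ℕ) : LaurentSeries ℚ)⁻¹)) := by
    rw [φ_C_ell, mul_comm x, mul_inv_cancel_left₀ hℓ0]
    exact hxφ
  have hprime : Prime (Polynomial.C ((ℓ : ℕ) : Zl ℓ)) :=
    Polynomial.prime_C_iff.mpr (helper508.prime_ell ℓ)
  have hmapS : (∏ k, (s k).map (Int.castRingHom (Zl ℓ))).map (toZMod ℓ) =
      ∏ k, (s k).map (Int.castRingHom (ZMod ℓ)) := by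
    rw [Polynomial.map_prod]
    refine Finset.prod_congr rfl fun k _ => ?_
    rw [Polynomial.map_map]
    congr 1
    exact RingHom.ext_int _ _
  have hSred : (∏ k, (s k).map (Int.castRingHom (Zl ℓ))).map (toZMod ℓ) ≠ 0 := by
    rw [hmapS]
    exact Finset.prod_ne_zero_iff.mpr fun k _ => hs k
  have hndvd : ¬ Polynomial.C ((ℓ : ℕ) : Zl ℓ) ∣ ∏ k, (s k).map (Int.castRingHom (Zl ℓ)) := by
    rintro ⟨t, ht⟩
    apply hSred
    rw [ht, Polynomial.map_mul, Polynomial.map_C, map_natCast, ZMod.natCast_self,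
      Polynomial.C_0, zero_mul]
  exact helper3069.isIntegralElem_of_scaled (φ ℓ u) hinj _ (Polynomial.C ((ℓ : ℕ) : Zl ℓ))
    (∏ k, (s k).map (Int.castRingHom (Zl ℓ))) hprime.ne_zero
    (fun h0 => hSred (by rw [h0, Polynomial.map_zero])) h1 h2
    (fun i e₁ e₂ he => hprime.pow_dvd_of_dvd_mul_left i
      (fun hd => hndvd (hprime.dvd_of_dvd_pow hd)) ⟨e₂, he⟩)

end Fermat.Agent.S28.helper2608

end
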