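import Fermat.Agent.S28.helper2608_CoreF

/-!
# S28 algebra core, part G: the three charts, and `Stmt_Core`

Main result: `Fermat.Agent.S28.helper2608.stmt_core : Spec.Stmt_Core N ℓ`.
-/

set_option autoImplicit false

noncomputable section

namespace Fermat.Agent.S28.helper2608

open ModularCurve ModularCurve.IgusaScheme Polynomial
open Fermat.Agent.S28.Spec
open Fermat.Agent.S28.helper508 (toZMod)

section Charts

variable (N : ℕ) [NeZero N] (ℓ : ℕ) [Fact ℓ.Prime]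

/-- General principle: a chart all of whose elements lie in `locO ℓ`, and in which elements with
vanishing reduction are divisible by `ℓ`, satisfies `Stmt_Red`. -/
theorem stmt_red_of (S : Set ↥(modularFunctionFieldFull N))
    (hO : ∀ a ∈ chartAlg N ℓ S,
      ((a : ↥(modularFunctionFieldFull N)) : LaurentSeries ℚ) ∈ locO ℓ)
    (hker : ∀ (a : ↥(modularFunctionFieldFull N)) (ha : a ∈ chartAlg N ℓ S),
      ρ ℓ ⟨(a : LaurentSeries ℚ), hO a ha⟩ = 0 →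
      a * ((ℓ : ℕ) : ↥(modularFunctionFieldFull N))⁻¹ ∈ chartAlg N ℓ S) :
    Stmt_Red N ℓ S := by
  refine ⟨(ρ ℓ).comp (((incF N).comp (chartAlg N ℓ S).toSubring.subtype).codRestrict (locO ℓ)
    (fun a => hO a a.2)), fun a ha => ?_⟩
  have hz := hker a a.2 ha
  refine ⟨⟨_, hz⟩, Subtype.ext ?_⟩
  have hℓ0 : ((ℓ : ℕ) : ↥(modularFunctionFieldFull N)) ≠ 0 :=
    Nat.cast_ne_zero.mpr (Fact.out : ℓ.Prime).ne_zero
  have hcast : (((ℓ : ℕ) : ↥(chartAlg N ℓ S)) : ↥(modularFunctionFieldFull N)) =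
      ((ℓ : ℕ) : ↥(modularFunctionFieldFull N)) := map_natCast (chartAlg N ℓ S).val ℓ
  rw [Subalgebra.coe_mul, hcast]
  show (a : ↥(modularFunctionFieldFull N)) =
    ((ℓ : ℕ) : ↥(modularFunctionFieldFull N)) *
      ((a : ↥(modularFunctionFieldFull N)) * ((ℓ : ℕ) : ↥(modularFunctionFieldFull N))⁻¹)
  rw [mul_comm (a : ↥(modularFunctionFieldFull N)), mul_inv_cancel_left₀ hℓ0]

variable {N ℓ}
variable {n : ℕ} {L : IntermediateField ℚ (LaurentSeries ℚ)} {b : Fin n → LaurentSeries ℤ}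

theorem ιQ_isIntegralElem_of_mem_chartAlg_singleton (uF : ↥(modularFunctionFieldFull N))
    (uW : Wl ℓ) (huW : ιQ ℓ uW = (uF : LaurentSeries ℚ)) (a : ↥(modularFunctionFieldFull N))
    (ha : a ∈ chartAlg N ℓ {uF}) : (ιQ ℓ).IsIntegralElem (a : LaurentSeries ℚ) :=
  ιQ_isIntegralElem_of_φ ℓ _ uW huW _ ((mem_chartAlg_singleton_iff ℓ N uF a).mp ha)

theorem mem_locO_of_mem_chartAlg_singleton (hFL : modularFunctionFieldFull N ≤ L)
    (hLI : LinIndepModL ℓ b) (hdeg : DegLE L n) (hb : ∀ i, toQ (b i) ∈ L)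
    (uF : ↥(modularFunctionFieldFull N))
    (uW : Wl ℓ) (huW : ιQ ℓ uW = (uF : LaurentSeries ℚ)) (a : ↥(modularFunctionFieldFull N))
    (ha : a ∈ chartAlg N ℓ {uF}) : (a : LaurentSeries ℚ) ∈ locO ℓ :=
  mem_locO_of_integral hLI hdeg hb _ (hFL a.2)
    (ιQ_isIntegralElem_of_mem_chartAlg_singleton uF uW huW a ha)

theorem div_ell_mem_chartAlg_singleton (hFL : modularFunctionFieldFull N ≤ L)
    (hLI : LinIndepModL ℓ b) (hdeg : DegLE L n) (hb : ∀ i, toQ (b i) ∈ L)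
    (hint : ∀ i, IsIntegralOverZj (b i))
    (uF : ↥(modularFunctionFieldFull N)) (u : LaurentSeries ℚ)
    (hu : (uF : LaurentSeries ℚ) = u)
    (uW : Wl ℓ) (huW : ιQ ℓ uW = u)
    (hinj : Function.Injective (φ ℓ u))
    (hform : ∀ (s : Polynomial ℤ) (a : Fin n → Polynomial ℤ) (Z : LaurentSeries ℚ),
      s.map (Int.castRingHom (ZMod ℓ)) ≠ 0 →
      Polynomial.aeval jq s * Z = ∑ i, Polynomial.aeval jq (a i) * toQ (b i) →
      ∃ (s' : Polynomial ℤ) (a' : Fin n → Polynomial ℤ),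
        s'.map (Int.castRingHom (ZMod ℓ)) ≠ 0 ∧
        Polynomial.aeval u s' * Z = ∑ i, Polynomial.aeval u (a' i) * toQ (b i))
    (a : ↥(modularFunctionFieldFull N)) (ha : a ∈ chartAlg N ℓ {uF})
    (haO : (a : LaurentSeries ℚ) ∈ locO ℓ) (hρ : ρ ℓ ⟨(a : LaurentSeries ℚ), haO⟩ = 0) :
    a * ((ℓ : ℕ) : ↥(modularFunctionFieldFull N))⁻¹ ∈ chartAlg N ℓ {uF} := by
  subst hu
  rw [mem_chartAlg_singleton_iff]
  have hz := isIntegralElem_div_ell (uF : LaurentSeries ℚ) hinj hform hLI hdeg hb hint _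
    (hFL a.2) ((mem_chartAlg_singleton_iff ℓ N uF a).mp ha)
    (ιQ_isIntegralElem_of_mem_chartAlg_singleton uF uW huW a ha) haO hρ
  have hcoe : ((a * ((ℓ : ℕ) : ↥(modularFunctionFieldFull N))⁻¹ :
      ↥(modularFunctionFieldFull N)) : LaurentSeries ℚ) =
      (a : LaurentSeries ℚ) * ((ℓ : ℕ) : LaurentSeries ℚ)⁻¹ := by
    push_cast
    rfl
  rw [hcoe]
  exact hz

/-- The chart `{j}`. -/
theorem stmt_red_fin (hFL : modularFunctionFieldFull N ≤ L)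
    (hLI : LinIndepModL ℓ b) (hdeg : DegLE L n) (hb : ∀ i, toQ (b i) ∈ L)
    (hint : ∀ i, IsIntegralOverZj (b i)) : Stmt_Red N ℓ {jFull N} :=
  stmt_red_of N ℓ _
    (fun a ha => mem_locO_of_mem_chartAlg_singleton hFL hLI hdeg hb (jFull N)
      (ofInt ℓ (jqModC ℤ)) (ιQ_ofInt_jq ℓ) a ha)
    (fun a ha hρ => div_ell_mem_chartAlg_singleton hFL hLI hdeg hb hint (jFull N) jq rfl
      (ofInt ℓ (jqModC ℤ)) (ιQ_ofInt_jq ℓ) (φ_jq_injective ℓ)
      (fun s a _ hs h => ⟨s, a, hs, h⟩) a ha _ hρ)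

theorem coe_jFull_inv : (((jFull N)⁻¹ : ↥(modularFunctionFieldFull N)) : LaurentSeries ℚ) =
    jq⁻¹ := rfl

/-- The chart `{j⁻¹}`. -/
theorem stmt_red_inf (hFL : modularFunctionFieldFull N ≤ L)
    (hLI : LinIndepModL ℓ b) (hdeg : DegLE L n) (hb : ∀ i, toQ (b i) ∈ L)
    (hint : ∀ i, IsIntegralOverZj (b i)) : Stmt_Red N ℓ {(jFull N)⁻¹} :=
  stmt_red_of N ℓ _
    (fun a ha => mem_locO_of_mem_chartAlg_singleton hFL hLI hdeg hb (jFull N)⁻¹
      (ofInt ℓ (helper3292.jInvSeries ℤ)) (ιQ_ofInt_jInv ℓ) a ha)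
    (fun a ha hρ => div_ell_mem_chartAlg_singleton hFL hLI hdeg hb hint (jFull N)⁻¹ jq⁻¹
      coe_jFull_inv
      (ofInt ℓ (helper3292.jInvSeries ℤ)) (ιQ_ofInt_jInv ℓ) (φ_jq_inv_injective ℓ)
      (fun s a Z hs h => exists_inv_form s hs a _ Z h) a ha _ hρ)

theorem exists_pow_mul_mem_fin (x : ↥(modularFunctionFieldFull N))
    (hx : x ∈ chartAlg N ℓ {jFull N, (jFull N)⁻¹}) :
    ∃ m : ℕ, (jFull N) ^ m * x ∈ chartAlg N ℓ {jFull N} := by
  have hx' : x ∈ chartAlg N ℓ (insert (jFull N)⁻¹ {jFull N}) := by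
    rwa [Set.pair_comm] at hx
  exact exists_pow_mul_mem_chartAlg (Set.mem_singleton _) (jFull_ne_zero N) hx'

/-- The chart `{j, j⁻¹}`. -/
theorem stmt_red_mid (hFL : modularFunctionFieldFull N ≤ L)
    (hLI : LinIndepModL ℓ b) (hdeg : DegLE L n) (hb : ∀ i, toQ (b i) ∈ L)
    (hint : ∀ i, IsIntegralOverZj (b i)) : Stmt_Red N ℓ {jFull N, (jFull N)⁻¹} := by
  have hjO : jq ∈ locO ℓ := by
    rw [← ιQ_ofInt_jq ℓ]
    exact ιQ_mem_locO ℓ _
  have hjinvO : jq⁻¹ ∈ locO ℓ := by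
    rw [← ιQ_ofInt_jInv ℓ]
    exact ιQ_mem_locO ℓ _
  have hfinO : ∀ a ∈ chartAlg N ℓ {jFull N},
      ((a : ↥(modularFunctionFieldFull N)) : LaurentSeries ℚ) ∈ locO ℓ := fun a ha =>
    mem_locO_of_mem_chartAlg_singleton hFL hLI hdeg hb (jFull N)
      (ofInt ℓ (jqModC ℤ)) (ιQ_ofInt_jq ℓ) a ha
  have hcoe : ∀ (m : ℕ) (a : ↥(modularFunctionFieldFull N)),
      (((jFull N) ^ m * a : ↥(modularFunctionFieldFull N)) : LaurentSeries ℚ) =
        jq ^ m * (a : LaurentSeries ℚ) := fun m a => by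
    push_cast
    rfl
  have hO : ∀ a ∈ chartAlg N ℓ {jFull N, (jFull N)⁻¹},
      ((a : ↥(modularFunctionFieldFull N)) : LaurentSeries ℚ) ∈ locO ℓ := by
    intro a ha
    obtain ⟨m, hm⟩ := exists_pow_mul_mem_fin a ha
    have h1 := hfinO _ hm
    rw [hcoe] at h1
    have h2 : (a : LaurentSeries ℚ) = jq⁻¹ ^ m * (jq ^ m * (a : LaurentSeries ℚ)) := by
      rw [← mul_assoc, ← mul_pow, inv_mul_cancel₀ jq_ne_zero, one_pow, one_mul]
    rw [h2]
    exact (locO ℓ).mul_mem ((locO ℓ).pow_mem hjinvO m) h1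
  refine stmt_red_of N ℓ _ hO fun a ha hρ => ?_
  obtain ⟨m, hm⟩ := exists_pow_mul_mem_fin a ha
  have hyO := hfinO _ hm
  have hρy : ρ ℓ ⟨(((jFull N) ^ m * a : ↥(modularFunctionFieldFull N)) : LaurentSeries ℚ),
      hyO⟩ = 0 := by
    have hmul : (⟨(((jFull N) ^ m * a : ↥(modularFunctionFieldFull N)) : LaurentSeries ℚ),
        hyO⟩ : locO ℓ) = ⟨jq, hjO⟩ ^ m * ⟨(a : LaurentSeries ℚ), hO a ha⟩ :=
      Subtype.ext (hcoe m a)
    rw [hmul, map_mul, hρ, mul_zero]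
  have hfin := div_ell_mem_chartAlg_singleton hFL hLI hdeg hb hint (jFull N) jq rfl
    (ofInt ℓ (jqModC ℤ)) (ιQ_ofInt_jq ℓ) (φ_jq_injective ℓ)
    (fun s a _ hs h => ⟨s, a, hs, h⟩) _ hm hyO hρy
  have hmono : chartAlg N ℓ {jFull N} ≤ chartAlg N ℓ {jFull N, (jFull N)⁻¹} :=
    chartAlg_mono N ℓ (fun x hx => Or.inl hx)
  have hinv : (jFull N)⁻¹ ∈ chartAlg N ℓ {jFull N, (jFull N)⁻¹} :=
    subset_chartAlg N ℓ _ (Or.inr rfl)
  have h3 : a * ((ℓ : ℕ) : ↥(modularFunctionFieldFull N))⁻¹ =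
      ((jFull N)⁻¹) ^ m * ((jFull N) ^ m * a * ((ℓ : ℕ) : ↥(modularFunctionFieldFull N))⁻¹) := by
    rw [mul_assoc, ← mul_assoc, ← mul_pow, inv_mul_cancel₀ (jFull_ne_zero N), one_pow, one_mul]
  rw [h3]
  exact mul_mem (pow_mem hinv m) (hmono hfin)

end Charts

/-- **The algebra core of S28**: the modular input gives, for each of the three charts, a ring
hom to `𝔽_ℓ((q))` whose kernel is generated by `ℓ`. -/
theorem stmt_core (N : ℕ) [NeZero N] (ℓ : ℕ) [Fact ℓ.Prime] : Stmt_Core N ℓ := by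
  rintro ⟨n, L, b, hFL, hb, hint, hdeg, hLI⟩
  exact ⟨stmt_red_fin hFL hLI hdeg hb hint, stmt_red_inf hFL hLI hdeg hb hint,
    stmt_red_mid hFL hLI hdeg hb hint⟩

end Fermat.Agent.S28.helper2608

end
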