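/-
S28 (Igusa), route P, leaf (C1): the HECKE INPUT `Stmt_Hecke p` of `helper328_PrimeSpec`.
Author: helper2627.

Main results (namespace `Fermat.Agent.S28.helper2627`):
* `qExpansion_E₄_eq_E4C`          : `qExpansion 1 E₄ = E4C`
* `qExpansion_discriminant_eq_DeltaC` : `qExpansion 1 Δ = DeltaC`
* `levelOne_basis_qExpansion`     : every level one form of weight `12 M` has `q`-expansion a
                                    complex combination of `E4C^(3(M-b)) * DeltaC^b`, `b ≤ M`
* `stmt_Hecke`                    : `helper328.Stmt_Hecke p` for every prime `p`.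
-/
import Mathlib
import Fermat.Agent.S28.helper328_PrimeSpec
import Fermat.Agent.S24.helper1644_AnalyticJ
import Fermat.Prelude.Thm_ModularFormClass_qCoeff_heckeT
import Fermat.Prelude.Thm_ModularForm_heckeT_slash_eq_self_of_mem_Gamma0
import Fermat.Prelude.Thm_ModularForm_mdifferentiable_heckeT
import Fermat.Prelude.Thm_ModularFormClass_isBoundedAt_heckeT

set_option autoImplicit false

namespace Fermat.Agent.S28.helper2627

open UpperHalfPlane ModularForm
open scoped MatrixGroups ModularForm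

open Fermat.Agent.S28.helper328 (E4C DeltaC heckeTps Stmt_Hecke)
open Fermat.Agent.S24.helper1644 (taylorPS)

noncomputable section

/-! ### The Hecke operator `T_p` on level one forms -/

theorem mem_Gamma0_one_map {γ : GL (Fin 2) ℝ} (hγ : γ ∈ 𝒮ℒ) :
    γ ∈ ((CongruenceSubgroup.Gamma0 1 : Subgroup SL(2, ℤ)) : Subgroup (GL (Fin 2) ℝ)) := by
  obtain ⟨g, rfl⟩ := hγ
  refine Subgroup.mem_map_of_mem _ ?_
  rw [CongruenceSubgroup.Gamma0_mem]
  exact Subsingleton.elim _ _

theorem Gamma0_one_map_le :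
    ((CongruenceSubgroup.Gamma0 1 : Subgroup SL(2, ℤ)) : Subgroup (GL (Fin 2) ℝ)) ≤ 𝒮ℒ :=
  Subgroup.map_le_range _ _

/-- `T_p f` for a level one modular form `f`, as a level one modular form (Prelude theorems). -/
def heckeForm (k : ℤ) (p : ℕ) (hp : p.Prime) (f : ModularForm 𝒮ℒ k) : ModularForm 𝒮ℒ k where
  toFun := ModularForm.heckeT k p f
  slash_action_eq' γ hγ :=
    ModularForm.heckeT_slash_eq_self_of_mem_Gamma0 (N := 1) k hp
      (by simpa using hp.one_lt.ne')
      (fun γ' hγ' => f.slash_action_eq' γ' (Gamma0_one_map_le hγ')) γ (mem_Gamma0_one_map hγ)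
  holo' := ModularForm.mdifferentiable_heckeT f.holo' k p
  bdd_at_cusps' hc := ModularFormClass.isBoundedAt_heckeT f p hc

theorem coe_heckeForm (k : ℤ) (p : ℕ) (hp : p.Prime) (f : ModularForm 𝒮ℒ k) :
    ⇑(heckeForm k p hp f) = ModularForm.heckeT k p f := rfl

theorem qExpansion_heckeForm_coeff (k : ℤ) (p : ℕ) (hp : p.Prime) (f : ModularForm 𝒮ℒ k) (n : ℕ) :
    (qExpansion 1 (heckeForm k p hp f)).coeff n =
      (qExpansion 1 f).coeff (n * p) +
        if p ∣ n then (p : ℂ) ^ (k - 1) * (qExpansion 1 f).coeff (n / p) else 0 := by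
  have h := ModularFormClass.qCoeff_heckeT f one_mem_strictPeriods_SL hp.ne_zero n
  exact h

/-! ### Bridges: analytic `q`-expansions versus the Prelude formal series -/

theorem qExpansion_eq_taylorPS (f : ℍ → ℂ) : qExpansion 1 f = taylorPS (cuspFunction 1 f) := by
  ext n
  rw [qExpansion_coeff, Fermat.Agent.S24.helper1644.coeff_taylorPS]

theorem qExpansion_E₄_eq_E4C : qExpansion 1 (E₄ : ModularForm 𝒮ℒ 4) = E4C := by
  rw [qExpansion_eq_taylorPS]
  exact Fermat.Agent.S24.helper1644.taylorPS_e4Fun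

theorem taylorPS_id : taylorPS (fun q : ℂ => q) = PowerSeries.X := by
  have h := Fermat.Agent.S24.helper1644.taylorPS_polynomial (Polynomial.X : Polynomial ℂ)
  simpa using h

theorem qExpansion_discriminant_eq_DeltaC : qExpansion 1 ModularForm.discriminant = DeltaC := by
  rw [qExpansion_eq_taylorPS]
  have hball := Fermat.Agent.S24.helper1644.ball_mem_nhds_zero
  have h1 : cuspFunction 1 ModularForm.discriminant =ᶠ[nhds 0]
      (fun q : ℂ => q) * Fermat.Agent.S24.helper1644.eulerFun ^ 24 := by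
    filter_upwards [hball] with q hq
    rw [ModularForm.discriminant_cuspFunction_eqOn hq]
    have hq' : ‖q‖ < 1 := by simpa using hq
    simp only [Pi.mul_apply, Pi.pow_apply, Fermat.Agent.S24.helper1644.eulerFun]
    rw [(ModularForm.multipliable_one_sub_pow hq').tprod_pow]
  have hE := Fermat.Agent.S24.helper1644.differentiableOn_eulerFun.analyticAt hball
  have hid : AnalyticAt ℂ (fun q : ℂ => q) 0 := analyticAt_id
  rw [Fermat.Agent.S24.helper1644.taylorPS_congr h1,
    Fermat.Agent.S24.helper1644.taylorPS_mul hid (hE.pow 24),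
    Fermat.Agent.S24.helper1644.taylorPS_pow hE, taylorPS_id,
    Fermat.Agent.S24.helper1644.taylorPS_eulerFun]
  simp [DeltaC, ModularCurve.dedekindEtaUnit]

/-! ### `q`-expansions of level one forms of a given weight -/

/-- The set of `q`-expansions of level one modular forms of weight `k`. -/
def qSet (k : ℤ) : Set (PowerSeries ℂ) := {F | ∃ f : ModularForm 𝒮ℒ k, qExpansion 1 f = F}

theorem one_mem_qSet : (1 : PowerSeries ℂ) ∈ qSet 0 :=
  ⟨1, ModularForm.qExpansion_one⟩

theorem mul_mem_qSet {a b : ℤ} {F G : PowerSeries ℂ} (hF : F ∈ qSet a) (hG : G ∈ qSet b) :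
    F * G ∈ qSet (a + b) := by
  obtain ⟨f, rfl⟩ := hF
  obtain ⟨g, rfl⟩ := hG
  exact ⟨f.mul g, ModularForm.qExpansion_mul one_pos one_mem_strictPeriods_SL f g⟩

theorem qSet_congr {a b : ℤ} (h : a = b) {F : PowerSeries ℂ} (hF : F ∈ qSet a) : F ∈ qSet b :=
  h ▸ hF

theorem pow_mem_qSet {a : ℤ} {F : PowerSeries ℂ} (hF : F ∈ qSet a) (n : ℕ) :
    F ^ n ∈ qSet (n * a) := by
  induction n with
  | zero => simpa using one_mem_qSet
  | succ n ih =>
    rw [pow_succ]
    exact qSet_congr (by push_cast; ring) (mul_mem_qSet ih hF)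

theorem smul_mem_qSet {a : ℤ} {F : PowerSeries ℂ} (c : ℂ) (hF : F ∈ qSet a) :
    c • F ∈ qSet a := by
  obtain ⟨f, rfl⟩ := hF
  exact ⟨c • f, ModularForm.qExpansion_smul one_pos one_mem_strictPeriods_SL c f⟩

theorem sub_mem_qSet {a : ℤ} {F G : PowerSeries ℂ} (hF : F ∈ qSet a) (hG : G ∈ qSet a) :
    F - G ∈ qSet a := by
  obtain ⟨f, rfl⟩ := hF
  obtain ⟨g, rfl⟩ := hG
  exact ⟨f - g, ModularForm.qExpansion_sub one_pos one_mem_strictPeriods_SL f g⟩

theorem E4C_mem_qSet : E4C ∈ qSet 4 := ⟨E₄, qExpansion_E₄_eq_E4C⟩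

theorem DeltaC_mem_qSet : DeltaC ∈ qSet 12 :=
  ⟨CuspForm.discriminant, qExpansion_discriminant_eq_DeltaC⟩

theorem constantCoeff_E4C : PowerSeries.constantCoeff E4C = 1 := by
  rw [E4C, ← PowerSeries.coeff_zero_eq_constantCoeff, PowerSeries.coeff_map,
    PowerSeries.coeff_zero_eq_constantCoeff, ModularCurve.constantCoeff_eisenstein4]
  simp

/-! ### The basis `E4^(3(M-b)) Δ^b` of weight `12 M` -/

/-- Every `q`-expansion of a level one form of weight `12 M` is a complex linear combination of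
the series `E4C^(3(M-b)) * DeltaC^b`, `b ≤ M`. -/
theorem qSet_basis (M : ℕ) {F : PowerSeries ℂ} (hF : F ∈ qSet (12 * (M : ℤ))) :
    ∃ c : ℕ → ℂ, F = ∑ b ∈ Finset.range (M + 1), c b • (E4C ^ (3 * (M - b)) * DeltaC ^ b) := by
  induction M generalizing F with
  | zero =>
    have hF0 : F ∈ qSet 0 := qSet_congr (by simp) hF
    obtain ⟨f, rfl⟩ := hF0
    obtain ⟨c, hc⟩ := ModularFormClass.levelOne_weight_zero_const f
    have hf : f = c • (1 : ModularForm 𝒮ℒ 0) := by
      ext z
      simp [hc]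
    refine ⟨fun _ => c, ?_⟩
    rw [hf]
    have h := ModularForm.qExpansion_smul one_pos one_mem_strictPeriods_SL c
      (1 : ModularForm 𝒮ℒ 0)
    rw [ModularForm.qExpansion_one] at h
    simpa using h
  | succ M ih =>
    have hG : E4C ^ (3 * (M + 1)) ∈ qSet (12 * ((M + 1 : ℕ) : ℤ)) :=
      qSet_congr (by push_cast; ring) (pow_mem_qSet E4C_mem_qSet (3 * (M + 1)))
    obtain ⟨f, rfl⟩ := hF
    obtain ⟨g, hg⟩ := hG
    have hg0 : (qExpansion 1 g).coeff 0 = 1 := by
      rw [hg, PowerSeries.coeff_zero_eq_constantCoeff, map_pow, constantCoeff_E4C, one_pow]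
    obtain ⟨a, ha⟩ : ∃ a : ℂ, a = (qExpansion 1 f).coeff 0 := ⟨_, rfl⟩
    obtain ⟨f', hf'⟩ : ∃ f' : ModularForm 𝒮ℒ (12 * ((M + 1 : ℕ) : ℤ)), f' = f - a • g := ⟨_, rfl⟩
    have hsub : qExpansion 1 f' = qExpansion 1 f - a • qExpansion 1 g := by
      have h1 := ModularForm.qExpansion_sub one_pos one_mem_strictPeriods_SL f (a • g)
      have h2 := ModularForm.qExpansion_smul one_pos one_mem_strictPeriods_SL a g
      rw [hf']
      exact h1.trans (by rw [← h2]; rfl)
    have hf'0 : (qExpansion 1 f').coeff 0 = 0 := by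
      rw [hsub, map_sub, PowerSeries.coeff_smul, hg0, ha]
      simp
    have key := ModularForm.qExpansion_eq_qExpansion_discriminant_mul f' hf'0
    have hh : qExpansion 1 (CuspForm.discriminantEquiv (toCuspForm f' hf'0)) ∈
        qSet (12 * (M : ℤ)) :=
      qSet_congr (by push_cast; ring) ⟨_, rfl⟩
    obtain ⟨c, hc⟩ := ih hh
    refine ⟨fun b => Nat.casesOn b a c, ?_⟩
    have hF : qExpansion 1 f = a • E4C ^ (3 * (M + 1)) +
        DeltaC * ∑ b ∈ Finset.range (M + 1), c b • (E4C ^ (3 * (M - b)) * DeltaC ^ b) := by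
      rw [← hc, ← qExpansion_discriminant_eq_DeltaC, ← key, hsub, hg]
      ring
    rw [hF, Finset.sum_range_succ' _ (M + 1), Finset.mul_sum, add_comm]
    congr 1
    · refine Finset.sum_congr rfl fun b _ => ?_
      show DeltaC * c b • (E4C ^ (3 * (M - b)) * DeltaC ^ b) =
        c b • (E4C ^ (3 * (M + 1 - (b + 1))) * DeltaC ^ (b + 1))
      rw [Nat.add_sub_add_right, mul_smul_comm, pow_succ]
      congr 1
      ring
    · simp

/-- Basis expansion, stated for forms. -/
theorem levelOne_basis_qExpansion (M : ℕ) (f : ModularForm 𝒮ℒ (12 * (M : ℤ))) :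
    ∃ c : ℕ → ℂ, qExpansion 1 f =
      ∑ b ∈ Finset.range (M + 1), c b • (E4C ^ (3 * (M - b)) * DeltaC ^ b) :=
  qSet_basis M ⟨f, rfl⟩

/-! ### Hecke stability and the final statement -/

theorem heckeTps_mem_qSet (M : ℕ) (hM : 1 ≤ M) (p : ℕ) (hp : p.Prime) {F : PowerSeries ℂ}
    (hF : F ∈ qSet (12 * (M : ℤ))) : heckeTps (12 * M) p F ∈ qSet (12 * (M : ℤ)) := by
  obtain ⟨f, rfl⟩ := hF
  refine ⟨heckeForm _ p hp f, ?_⟩
  ext n
  rw [qExpansion_heckeForm_coeff]
  simp only [heckeTps, PowerSeries.coeff_mk]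
  have h : (12 * (M : ℤ) - 1) = ((12 * M - 1 : ℕ) : ℤ) := by omega
  rw [h, zpow_natCast]

/-- **(C1) Hecke input.** `T_p` maps `E4^(3m) Δ^(M-m)` into the span of the
`E4^(3(M-b)) Δ^b`, `b ≤ M`, as an identity of formal `q`-expansions. -/
theorem stmt_Hecke (p : ℕ) [hp : Fact p.Prime] : Stmt_Hecke p := by
  intro m M hm hM
  have h1 : E4C ^ (3 * m) * DeltaC ^ (M - m) ∈ qSet (12 * (M : ℤ)) :=
    qSet_congr (by rw [Nat.cast_sub hm]; push_cast; ring)
      (mul_mem_qSet (pow_mem_qSet E4C_mem_qSet (3 * m)) (pow_mem_qSet DeltaC_mem_qSet (M - m)))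
  exact qSet_basis M (heckeTps_mem_qSet M hM p hp.out h1)

end

end Fermat.Agent.S28.helper2627
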