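/-
S28 (Igusa) — prime-level modular input, formal part (1/2): the `U_p`-shift operators,
the shift matrix and its diagonalisation over a field with a primitive `p`-th root of unity.
Author: helper328.  No sorry.
-/
import Mathlib
import Fermat.Agent.S28.helper328_PrimeSpec

set_option autoImplicit false

namespace Fermat.Agent.S28.helper328

open Polynomial ModularCurve

noncomputable section

section Ush

variable {R : Type*} [CommRing R]

theorem ush_bdd (p : ℕ) [NeZero p] (c : ℤ) (f : LaurentSeries R) :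
    BddBelow (Function.support fun k : ℤ => f.coeff ((p : ℤ) * k + c)) := by
  refine ⟨min 0 (f.order - c), fun k hk => ?_⟩
  by_contra hlt
  rw [not_le] at hlt
  apply hk
  show f.coeff ((p : ℤ) * k + c) = 0
  apply HahnSeries.coeff_eq_zero_of_lt_order
  have hp : (1 : ℤ) ≤ p := by exact_mod_cast NeZero.one_le
  have h0 : k < 0 := lt_of_lt_of_le hlt (min_le_left _ _)
  have h1 : k < f.order - c := lt_of_lt_of_le hlt (min_le_right _ _)
  nlinarith

/-- `Ush p c f = ∑_k f_{p k + c} q^k` (the `c`-th `p`-section of `f`). -/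
def Ush (p : ℕ) [NeZero p] (c : ℤ) (f : LaurentSeries R) : LaurentSeries R :=
  HahnSeries.ofSuppBddBelow (fun k : ℤ => f.coeff ((p : ℤ) * k + c)) (ush_bdd p c f)

@[simp] theorem Ush_coeff (p : ℕ) [NeZero p] (c : ℤ) (f : LaurentSeries R) (k : ℤ) :
    (Ush p c f).coeff k = f.coeff ((p : ℤ) * k + c) := rfl

theorem Ush_add (p : ℕ) [NeZero p] (c : ℤ) (f g : LaurentSeries R) :
    Ush p c (f + g) = Ush p c f + Ush p c g := by
  ext k; simp

theorem coeffMap_Ush {S : Type*} [CommRing S] (φ : R →+* S) (p : ℕ) [NeZero p] (c : ℤ)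
    (f : LaurentSeries R) : coeffMap φ (Ush p c f) = Ush p c (coeffMap φ f) := by
  ext k; simp

/-- the decomposition of `t^c f` into its `p`-sections. -/
theorem sum_single_mul_qExpand_Ush (p : ℕ) [NeZero p] (c : ℤ) (f : LaurentSeries R) :
    ∑ a : Fin p, HahnSeries.single ((a : ℕ) : ℤ) (1 : R) *
        qExpand R p (Ush p (((a : ℕ) : ℤ) - c) f) = HahnSeries.single c 1 * f := by
  ext n
  rw [HahnSeries.coeff_sum]
  simp only [HahnSeries.coeff_single_mul, one_mul]
  have hp : (0 : ℤ) < p := by exact_mod_cast Nat.pos_of_ne_zero (NeZero.ne p)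
  have h0 : 0 ≤ n % (p : ℤ) := Int.emod_nonneg _ hp.ne'
  have h1 : n % (p : ℤ) < p := Int.emod_lt_of_pos _ hp
  have ha₀ : (n % (p : ℤ)).toNat < p := by omega
  rw [Finset.sum_eq_single (⟨(n % (p : ℤ)).toNat, ha₀⟩ : Fin p)]
  · have h2 : n - (((n % (p : ℤ)).toNat : ℕ) : ℤ) = (p : ℤ) * (n / (p : ℤ)) := by
      have := Int.emod_add_mul_ediv n (p : ℤ)
      have h3 : (((n % (p : ℤ)).toNat : ℕ) : ℤ) = n % (p : ℤ) := Int.toNat_of_nonneg h0
      rw [h3]; linarith
    show (qExpand R p _).coeff (n - (((n % (p : ℤ)).toNat : ℕ) : ℤ)) = _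
    rw [h2, qExpand_coeff_mul, Ush_coeff]
    congr 1
    have h3 : (((n % (p : ℤ)).toNat : ℕ) : ℤ) = n % (p : ℤ) := Int.toNat_of_nonneg h0
    have := Int.emod_add_mul_ediv n (p : ℤ)
    rw [h3]; linarith
  · intro a _ ha
    apply qExpand_coeff_of_not_dvd
    intro hdvd
    apply ha
    apply Fin.ext
    show (a : ℕ) = (n % (p : ℤ)).toNat
    have ha1 : ((a : ℕ) : ℤ) < p := by exact_mod_cast a.2
    have h3 : n % (p : ℤ) = ((a : ℕ) : ℤ) := by
      obtain ⟨m, hm⟩ := hdvd
      have : n = ((a : ℕ) : ℤ) + (p : ℤ) * m := by linarith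
      rw [this, Int.add_mul_emod_self_left, Int.emod_eq_of_lt (by positivity) ha1]
    omega
  · intro h; exact absurd (Finset.mem_univ _) h

end Ush

section Twist

variable {R : Type*} [CommRing R]

theorem twist_qExpand (p : ℕ) [NeZero p] (ξ : Rˣ) (x : LaurentSeries R) :
    twist ξ (qExpand R p x) = qExpand R p (twist (ξ ^ p) x) := by
  ext n
  rw [twist_coeff]
  by_cases hn : (p : ℤ) ∣ n
  · obtain ⟨m, rfl⟩ := hn
    rw [qExpand_coeff_mul, qExpand_coeff_mul, twist_coeff, zpow_mul, zpow_natCast]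
  · rw [qExpand_coeff_of_not_dvd p _ hn, qExpand_coeff_of_not_dvd p _ hn, mul_zero]

theorem twist_qExpand_of_pow_eq_one (p : ℕ) [NeZero p] (ζ : Rˣ) (hζ : ζ ^ p = 1)
    (x : LaurentSeries R) : twist ζ (qExpand R p x) = qExpand R p x := by
  rw [twist_qExpand, hζ]
  congr 1
  ext n
  simp

theorem twist_twist (ξ ζ : Rˣ) (x : LaurentSeries R) :
    twist ξ (twist ζ x) = twist (ζ * ξ) x := by
  ext n
  rw [twist_coeff, twist_coeff, twist_coeff, mul_zpow, Units.val_mul]
  ring

theorem twist_single (ζ : Rˣ) (n : ℤ) (r : R) :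
    twist ζ (HahnSeries.single n r) = HahnSeries.single n (((ζ ^ n : Rˣ) : R) * r) := by
  ext m
  rw [twist_coeff]
  by_cases hm : m = n
  · subst hm; simp
  · rw [HahnSeries.coeff_single_of_ne hm, HahnSeries.coeff_single_of_ne hm, mul_zero]

theorem coeffMap_twist {S : Type*} [CommRing S] (φ : R →+* S) (ζ : Rˣ) (x : LaurentSeries R) :
    coeffMap φ (twist ζ x) = twist (Units.map (φ : R →* S) ζ) (coeffMap φ x) := by
  ext n
  simp only [coeffMap_coeff, twist_coeff, map_mul]
  congr 1
  rw [← map_zpow]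
  rfl

end Twist

section Mat

variable {R : Type*} [CommRing R]

/-- the `p × p` matrix of `p`-sections of `f`:  entry `(a, c)` is `Ush p (a - c) f`. -/
def Mat (p : ℕ) [NeZero p] (f : LaurentSeries R) : Matrix (Fin p) (Fin p) (LaurentSeries R) :=
  fun a c => Ush p (((a : ℕ) : ℤ) - ((c : ℕ) : ℤ)) f

theorem Mat_apply (p : ℕ) [NeZero p] (f : LaurentSeries R) (a c : Fin p) :
    Mat p f a c = Ush p (((a : ℕ) : ℤ) - ((c : ℕ) : ℤ)) f := rfl

theorem Mat_map_coeffMap {S : Type*} [CommRing S] (φ : R →+* S) (p : ℕ) [NeZero p]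
    (f : LaurentSeries R) : (Mat p f).map (coeffMap φ) = Mat p (coeffMap φ f) := by
  ext a c
  simp [Mat_apply, coeffMap_Ush]

/-- **Diagonalisation of the section matrix.**  Over a field containing a primitive `p`-th root of
unity `ω`, the characteristic polynomial of `Mat p f`, with `q` replaced by `t^p`, splits with roots
`f(ω^b t)`. -/
theorem charpoly_Mat_map_qExpand {k : Type*} [Field k] (p : ℕ) [NeZero p] (ω : kˣ)
    (hω : IsPrimitiveRoot ω p) (f : LaurentSeries k) :
    (Matrix.charpoly (Mat p f)).map (qExpand k p) =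
      ∏ b : Fin p, (X - C (twist (ω ^ (b : ℕ)) f)) := by
  classical
  rw [← Matrix.charpoly_map]
  set M : Matrix (Fin p) (Fin p) (LaurentSeries k) := (Mat p f).map (qExpand k p) with hM
  let v : Fin p → LaurentSeries k := fun b => HahnSeries.single (1 : ℤ) ((ω ^ (b : ℕ) : kˣ) : k)
  set P : Matrix (Fin p) (Fin p) (LaurentSeries k) := Matrix.vandermonde v with hP
  set D : Matrix (Fin p) (Fin p) (LaurentSeries k) :=
    Matrix.diagonal fun b : Fin p => twist (ω ^ (b : ℕ)) f with hD
  have hv : ∀ (b : Fin p) (a : ℕ), v b ^ a =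
      twist (ω ^ (b : ℕ)) (HahnSeries.single ((a : ℕ) : ℤ) 1) := by
    intro b a
    rw [twist_single, mul_one]
    show (HahnSeries.single (1 : ℤ) ((ω ^ (b : ℕ) : kˣ) : k)) ^ a = _
    rw [HahnSeries.single_pow]
    congr 1
    · simp
  have hωb : ∀ b : Fin p, (ω ^ (b : ℕ)) ^ p = 1 := by
    intro b
    rw [← pow_mul, mul_comm, pow_mul, hω.pow_eq_one, one_pow]
  have hPM : P * M = D * P := by
    refine Matrix.ext fun b c => ?_
    rw [Matrix.mul_apply, hD, Matrix.diagonal_mul]
    have h := congrArg (twist (ω ^ (b : ℕ))) (sum_single_mul_qExpand_Ush p ((c : ℕ) : ℤ) f)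
    rw [map_sum, map_mul, ← hv b c] at h
    rw [hP, Matrix.vandermonde_apply, mul_comm (twist (ω ^ (b : ℕ)) f), ← h]
    refine Finset.sum_congr rfl fun a _ => ?_
    rw [Matrix.vandermonde_apply, map_mul, ← hv b a, twist_qExpand_of_pow_eq_one p _ (hωb b)]
    rfl
  have hvinj : Function.Injective v := by
    intro b b' hbb'
    have h1 : ((ω ^ (b : ℕ) : kˣ) : k) = ((ω ^ (b' : ℕ) : kˣ) : k) :=
      HahnSeries.single_injective (1 : ℤ) hbb'
    exact Fin.ext (hω.pow_inj b.2 b'.2 (Units.ext h1))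
  have hdet : IsUnit P.det := IsUnit.mk0 _ (Matrix.det_vandermonde_ne_zero_iff.mpr hvinj)
  have hM' : M = (P⁻¹ * D * P) := by
    rw [mul_assoc, ← hPM, ← mul_assoc, Matrix.nonsing_inv_mul P hdet, one_mul]
  rw [hM']
  have h2 : (P⁻¹ * D * P).charpoly = D.charpoly :=
    Matrix.charpoly_units_conj' (Matrix.nonsingInvUnit P hdet) D
  rw [h2, hD, Matrix.charpoly_diagonal]

/-- **Trace formula**: `∑_b f(ω^b t) = p * (U_p f)(t^p)`. -/
theorem sum_twist_eq {k : Type*} [Field k] (p : ℕ) [NeZero p] (ω : kˣ)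
    (hω : IsPrimitiveRoot ω p) (F : LaurentSeries k) :
    ∑ b : Fin p, twist (ω ^ (b : ℕ)) F = (p : k) • qExpand k p (Ush p 0 F) := by
  ext n
  rw [HahnSeries.coeff_sum, HahnSeries.coeff_smul]
  simp only [twist_coeff]
  rw [← Finset.sum_mul]
  by_cases hn : (p : ℤ) ∣ n
  · obtain ⟨m, rfl⟩ := hn
    rw [qExpand_coeff_mul, Ush_coeff, add_zero]
    have h1 : ∀ b : Fin p, (((ω ^ (b : ℕ)) ^ ((p : ℤ) * m) : kˣ) : k) = 1 := by
      intro b
      rw [zpow_mul, zpow_natCast, ← pow_mul, mul_comm, pow_mul, hω.pow_eq_one, one_pow, one_zpow,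
        Units.val_one]
    simp [h1]
  · rw [qExpand_coeff_of_not_dvd p _ hn, smul_zero]
    have hx : ((ω ^ n : kˣ) : k) ≠ 1 := by
      intro h
      exact hn ((hω.zpow_eq_one_iff_dvd n).mp (Units.ext h))
    have hxp : ((ω ^ n : kˣ) : k) ^ p = 1 := by
      rw [← Units.val_pow_eq_pow_val, ← zpow_natCast, ← zpow_mul, mul_comm, zpow_mul, zpow_natCast,
        hω.pow_eq_one, one_zpow, Units.val_one]
    have h2 : ∑ b : Fin p, (((ω ^ (b : ℕ)) ^ n : kˣ) : k) = 0 := by
      have h3 : ∀ b : Fin p, (((ω ^ (b : ℕ)) ^ n : kˣ) : k) = ((ω ^ n : kˣ) : k) ^ (b : ℕ) := by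
        intro b
        rw [← Units.val_pow_eq_pow_val, ← zpow_natCast (ω ^ n), ← zpow_natCast ω, ← zpow_mul,
          ← zpow_mul, mul_comm]
      simp only [h3]
      rw [Fin.sum_univ_eq_sum_range (fun b => ((ω ^ n : kˣ) : k) ^ b) p]
      have h4 := geom_sum_mul ((ω ^ n : kˣ) : k) p
      rw [hxp, sub_self] at h4
      exact (mul_eq_zero.mp h4).resolve_right (sub_ne_zero.mpr hx)
    rw [h2, zero_mul]

end Mat

section Newton

/-- Newton's identities: if all power sums of a finite family lie in a subalgebra over a field of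
characteristic zero, so do its elementary symmetric functions. -/
theorem aeval_esymm_mem_of_psum_mem {K L : Type*} [Field K] [CharZero K] [CommRing L] [Algebra K L]
    (A : Subalgebra K L) {σ : Type*} [Fintype σ] (x : σ → L)
    (h : ∀ m : ℕ, ∑ i, x i ^ m ∈ A) (k : ℕ) :
    MvPolynomial.aeval x (MvPolynomial.esymm σ K k) ∈ A := by
  induction k using Nat.strong_induction_on with
  | _ k ih =>
    rcases Nat.eq_zero_or_pos k with rfl | hk
    · rw [MvPolynomial.esymm_zero, map_one]
      exact A.one_mem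
    · have hN := congrArg (MvPolynomial.aeval x) (MvPolynomial.mul_esymm_eq_sum σ K k)
      rw [map_mul, map_natCast] at hN
      have hmem : (k : L) * MvPolynomial.aeval x (MvPolynomial.esymm σ K k) ∈ A := by
        rw [hN, map_mul, map_pow, map_neg, map_one, map_sum]
        refine A.mul_mem (A.pow_mem (A.neg_mem A.one_mem) _) (A.sum_mem fun a ha => ?_)
        rw [map_mul, map_mul, map_pow, map_neg, map_one]
        have ha' := Finset.mem_filter.mp ha
        refine A.mul_mem (A.mul_mem (A.pow_mem (A.neg_mem A.one_mem) _) (ih a.1 ha'.2)) ?_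
        rw [MvPolynomial.psum, map_sum]
        simpa using h a.2
      have hk0 : (k : K) ≠ 0 := Nat.cast_ne_zero.mpr hk.ne'
      have h2 : MvPolynomial.aeval x (MvPolynomial.esymm σ K k) =
          (k : K)⁻¹ • ((k : L) * MvPolynomial.aeval x (MvPolynomial.esymm σ K k)) := by
        rw [← nsmul_eq_mul, ← Nat.cast_smul_eq_nsmul K, inv_smul_smul₀ hk0]
      rw [h2]
      exact A.smul_mem hmem _

/-- if all power sums of a finite family lie in a subalgebra over a field of characteristic zero,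
then the polynomial with these roots has its coefficients in the subalgebra. -/
theorem coeff_prod_X_sub_C_mem {K L : Type*} [Field K] [CharZero K] [CommRing L] [Algebra K L]
    (A : Subalgebra K L) {σ : Type*} [Fintype σ] (x : σ → L)
    (h : ∀ m : ℕ, ∑ i, x i ^ m ∈ A) (k : ℕ) :
    (∏ i, (X - C (x i))).coeff k ∈ A := by
  have h1 : (∏ i : σ, (X - C (x i))) =
      ((Finset.univ.val.map x).map fun t => X - C t).prod := by
    rw [Multiset.map_map]; rfl
  rw [h1, Multiset.prod_X_sub_X_eq_sum_esymm, Polynomial.finsetSum_coeff]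
  refine A.sum_mem fun j _ => ?_
  rw [← MvPolynomial.aeval_esymm_eq_multiset_esymm σ K j x]
  have h3 : ((-1 : L[X]) ^ j * (C (MvPolynomial.aeval x (MvPolynomial.esymm σ K j)) *
      X ^ (Multiset.card (Finset.univ.val.map x) - j))) =
      C ((-1) ^ j * MvPolynomial.aeval x (MvPolynomial.esymm σ K j)) *
        X ^ (Multiset.card (Finset.univ.val.map x) - j) := by
    rw [map_mul, map_pow, map_neg, map_one, mul_assoc]
  rw [h3, coeff_C_mul_X_pow]
  split_ifs
  · exact A.mul_mem (A.pow_mem (A.neg_mem A.one_mem) _) (aeval_esymm_mem_of_psum_mem A x h j)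
  · exact A.zero_mem

end Newton

section Triangular

/-- the coefficient of `P(j)` at `q^(-deg P)` is the leading coefficient of `P`. -/
theorem coeff_aeval_jqModC_neg_natDegree (K : Type*) [Field K] (P : Polynomial K) :
    (aeval (jqModC K) P).coeff (-(P.natDegree : ℤ)) = P.leadingCoeff := by
  rw [aeval_eq_sum_range, HahnSeries.coeff_sum, Finset.sum_eq_single P.natDegree]
  · rw [Algebra.smul_def, algebraMap_laurentSeries_eq_single, HahnSeries.coeff_single_mul, sub_zero,
      coeff_jqModC_pow_self, mul_one]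
    rfl
  · intro i hi hne
    have hlt : i < P.natDegree := lt_of_le_of_ne (Nat.lt_succ_iff.mp (Finset.mem_range.mp hi)) hne
    rw [Algebra.smul_def, algebraMap_laurentSeries_eq_single, HahnSeries.coeff_single_mul, sub_zero,
      coeff_jqModC_pow_of_lt K (by omega), mul_zero]
  · intro h
    exact absurd (Finset.mem_range.mpr (Nat.lt_succ_self _)) h

/-- a polynomial in `j` without pole is constant. -/
theorem eq_C_of_coeff_aeval_jqModC (K : Type*) [Field K] (P : Polynomial K)
    (h : ∀ i : ℤ, i < 0 → (aeval (jqModC K) P).coeff i = 0) : P = C (P.coeff 0) := by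
  apply Polynomial.eq_C_of_natDegree_eq_zero
  by_contra hd
  have hpos : 0 < P.natDegree := Nat.pos_of_ne_zero hd
  have h1 := coeff_aeval_jqModC_neg_natDegree K P
  rw [h _ (by omega)] at h1
  have hP : P ≠ 0 := by
    rintro rfl
    simp at hd
  exact (Polynomial.leadingCoeff_ne_zero.mpr hP) h1.symm

theorem coeffMap_evalJ (Q : Polynomial ℤ) :
    coeffMap (Int.castRingHom ℂ) (evalJ (jqModC ℤ) Q) =
      aeval (jqModC ℂ) (Q.map (Int.castRingHom ℂ)) := by
  have h : (coeffMap (Int.castRingHom ℂ)).comp (evalJ (jqModC ℤ)) =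
      ((aeval (jqModC ℂ)).toRingHom).comp (Polynomial.mapRingHom (Int.castRingHom ℂ)) := by
    refine Polynomial.ringHom_ext' (Subsingleton.elim _ _) ?_
    simp [evalJ, coeffMap_jqModC]
  exact congrArg (fun φ : Polynomial ℤ →+* LaurentSeries ℂ => φ Q) h

theorem coeffMap_intCast_injective :
    Function.Injective (coeffMap (Int.castRingHom ℂ)) := by
  intro x y hxy
  ext n
  have := congrArg (fun z : LaurentSeries ℂ => z.coeff n) hxy
  simpa using this

/-- **Triangularity.** An integer Laurent series which is a complex polynomial in `j` is an integer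
polynomial in `j`. -/
theorem exists_int_poly_of_coeffMap_eq (P : Polynomial ℂ) (s : LaurentSeries ℤ)
    (h : coeffMap (Int.castRingHom ℂ) s = aeval (jqModC ℂ) P) :
    ∃ Q : Polynomial ℤ, evalJ (jqModC ℤ) Q = s := by
  induction hn : P.support.card using Nat.strong_induction_on generalizing P s with
  | _ n ih =>
    by_cases hP : P = 0
    · subst hP
      refine ⟨0, ?_⟩
      rw [map_zero]
      apply coeffMap_intCast_injective
      rw [h, map_zero, map_zero]
    · set d := P.natDegree with hd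
      set c : ℤ := s.coeff (-(d : ℤ)) with hc
      have hcoef : (c : ℂ) = P.leadingCoeff := by
        rw [← coeff_aeval_jqModC_neg_natDegree ℂ P, ← h]
        rfl
      have h' : coeffMap (Int.castRingHom ℂ) (s - evalJ (jqModC ℤ) (C c * X ^ d)) =
          aeval (jqModC ℂ) P.eraseLead := by
        rw [map_sub, h, coeffMap_evalJ]
        conv_lhs => rw [← Polynomial.eraseLead_add_C_mul_X_pow P]
        rw [Polynomial.map_mul, Polynomial.map_C, Polynomial.map_pow, Polynomial.map_X,
          eq_intCast, hcoef, map_add]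
        ring
      obtain ⟨Q', hQ'⟩ := ih _ (hn ▸ Polynomial.eraseLead_support_card_lt hP) P.eraseLead _ h' rfl
      refine ⟨Q' + C c * X ^ d, ?_⟩
      rw [map_add, hQ']
      ring

end Triangular

section MonicLift

/-- build a monic lift of a monic polynomial from lifts of its lower coefficients. -/
theorem exists_monic_map_eq {R S : Type*} [CommRing R] [Nontrivial R] [CommRing S] (φ : R →+* S)
    (W : Polynomial S) (hW : W.Monic) (Q : ℕ → R)
    (hQ : ∀ i, i < W.natDegree → φ (Q i) = W.coeff i) :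
    ∃ G : Polynomial R, G.Monic ∧ G.natDegree = W.natDegree ∧ G.map φ = W ∧
      ∀ i, i < W.natDegree → G.coeff i = Q i := by
  set n := W.natDegree with hn
  have hdeg : (∑ i ∈ Finset.range n, C (Q i) * X ^ i : Polynomial R).degree < n := by
    rw [Polynomial.degree_lt_iff_coeff_zero]
    intro m hm
    rw [Polynomial.finsetSum_coeff]
    refine Finset.sum_eq_zero fun i hi => ?_
    rw [coeff_C_mul_X_pow, if_neg]
    have := Finset.mem_range.mp hi
    omega
  refine ⟨X ^ n + ∑ i ∈ Finset.range n, C (Q i) * X ^ i, Polynomial.monic_X_pow_add hdeg, ?_, ?_, ?_⟩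
  · rw [add_comm]
    have h1 : (∑ i ∈ Finset.range n, C (Q i) * X ^ i : Polynomial R).degree <
        ((X : Polynomial R) ^ n).degree := by
      rw [Polynomial.degree_X_pow]; exact hdeg
    rw [Polynomial.natDegree_add_eq_right_of_degree_lt h1, Polynomial.natDegree_X_pow]
  · rw [Polynomial.map_add, Polynomial.map_pow, Polynomial.map_X, Polynomial.map_sum]
    conv_rhs => rw [hW.as_sum]
    rw [← hn]
    congr 1
    refine Finset.sum_congr rfl fun i hi => ?_
    rw [Polynomial.map_mul, Polynomial.map_C, Polynomial.map_pow, Polynomial.map_X,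
      hQ i (Finset.mem_range.mp hi)]
  · intro i hi
    rw [coeff_add, coeff_X_pow, if_neg (by omega), zero_add, Polynomial.finsetSum_coeff,
      Finset.sum_eq_single i]
    · rw [coeff_C_mul_X_pow, if_pos rfl]
    · intro j _ hji
      rw [coeff_C_mul_X_pow, if_neg (Ne.symm hji)]
    · intro h
      exact absurd (Finset.mem_range.mpr hi) h

end MonicLift

section Lead

variable {k : Type*} [Field k]

/-- `z` has lowest term `c t^n` (`c` may be zero). -/
def LT (z : LaurentSeries k) (n : ℤ) (c : k) : Prop :=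
  (∀ i : ℤ, i < n → z.coeff i = 0) ∧ z.coeff n = c

theorem LT.order_eq {z : LaurentSeries k} {n : ℤ} {c : k} (h : LT z n c) (hc : c ≠ 0) :
    z.order = n := by
  have hz : z.coeff n ≠ 0 := by rw [h.2]; exact hc
  refine le_antisymm (HahnSeries.order_le_of_coeff_ne_zero hz) ?_
  by_contra hlt
  rw [not_le] at hlt
  exact (HahnSeries.coeff_order_eq_zero.not.mpr (HahnSeries.ne_zero_of_coeff_ne_zero hz))
    (h.1 _ hlt)

theorem LT.leadingCoeff_eq {z : LaurentSeries k} {n : ℤ} {c : k} (h : LT z n c) (hc : c ≠ 0) :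
    z.leadingCoeff = c := by
  rw [HahnSeries.leadingCoeff_eq, h.order_eq hc, h.2]

theorem LT.mul {z z' : LaurentSeries k} {n n' : ℤ} {c c' : k} (h : LT z n c) (h' : LT z' n' c')
    (hc : c ≠ 0) (hc' : c' ≠ 0) : LT (z * z') (n + n') (c * c') := by
  have hne : z.leadingCoeff * z'.leadingCoeff ≠ 0 := by
    rw [h.leadingCoeff_eq hc, h'.leadingCoeff_eq hc']; exact mul_ne_zero hc hc'
  have hord := HahnSeries.order_mul_of_ne_zero hne
  rw [h.order_eq hc, h'.order_eq hc'] at hord
  constructor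
  · intro i hi
    apply HahnSeries.coeff_eq_zero_of_lt_order
    rw [hord]; exact hi
  · have := HahnSeries.coeff_mul_order_add_order z z'
    rw [h.order_eq hc, h'.order_eq hc', h.leadingCoeff_eq hc, h'.leadingCoeff_eq hc'] at this
    exact this

theorem LT.one : LT (1 : LaurentSeries k) 0 1 := by
  constructor
  · intro i hi
    rw [HahnSeries.coeff_one, if_neg hi.ne]
  · rw [HahnSeries.coeff_one, if_pos rfl]

theorem LT.prod {ι : Type*} (s : Finset ι) (z : ι → LaurentSeries k) (n : ι → ℤ) (c : ι → k)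
    (h : ∀ i ∈ s, LT (z i) (n i) (c i)) (hc : ∀ i ∈ s, c i ≠ 0) :
    LT (∏ i ∈ s, z i) (∑ i ∈ s, n i) (∏ i ∈ s, c i) := by
  classical
  induction s using Finset.induction_on with
  | empty => simpa using LT.one
  | insert a s ha ih =>
    rw [Finset.prod_insert ha, Finset.sum_insert ha, Finset.prod_insert ha]
    refine LT.mul (h a (Finset.mem_insert_self a s))
      (ih (fun i hi => h i (Finset.mem_insert_of_mem hi))
        (fun i hi => hc i (Finset.mem_insert_of_mem hi)))
      (hc a (Finset.mem_insert_self a s)) ?_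
    exact Finset.prod_ne_zero_iff.mpr (fun i hi => hc i (Finset.mem_insert_of_mem hi))

theorem LT.pow {z : LaurentSeries k} {n : ℤ} {c : k} (h : LT z n c) (hc : c ≠ 0) (m : ℕ) :
    LT (z ^ m) (m * n) (c ^ m) := by
  have := LT.prod (Finset.range m) (fun _ => z) (fun _ => n) (fun _ => c) (fun _ _ => h)
    (fun _ _ => hc)
  simpa using this

theorem LT.map_qExpand (p : ℕ) [NeZero p] {z : LaurentSeries k} {n : ℤ} {c : k} (h : LT z n c) :
    LT (qExpand k p z) ((p : ℤ) * n) c := by
  have hp : (0 : ℤ) < p := by exact_mod_cast Nat.pos_of_ne_zero (NeZero.ne p)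
  constructor
  · intro i hi
    by_cases hdvd : (p : ℤ) ∣ i
    · obtain ⟨m, rfl⟩ := hdvd
      rw [qExpand_coeff_mul]
      exact h.1 m (lt_of_mul_lt_mul_left hi hp.le)
    · exact qExpand_coeff_of_not_dvd p _ hdvd
  · rw [qExpand_coeff_mul]; exact h.2

theorem LT.of_qExpand (p : ℕ) [NeZero p] {z : LaurentSeries k} {n : ℤ} {c : k}
    (h : LT (qExpand k p z) ((p : ℤ) * n) c) : LT z n c := by
  have hp : (0 : ℤ) < p := by exact_mod_cast Nat.pos_of_ne_zero (NeZero.ne p)
  constructor
  · intro i hi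
    rw [← qExpand_coeff_mul p z i]
    exact h.1 _ (mul_lt_mul_of_pos_left hi hp)
  · rw [← qExpand_coeff_mul p z n]; exact h.2

theorem LT.map_twist (ζ : kˣ) {z : LaurentSeries k} {n : ℤ} {c : k} (h : LT z n c) :
    LT (twist ζ z) n (((ζ ^ n : kˣ) : k) * c) := by
  constructor
  · intro i hi
    rw [twist_coeff, h.1 i hi, mul_zero]
  · rw [twist_coeff, h.2]

theorem LT.neg {z : LaurentSeries k} {n : ℤ} {c : k} (h : LT z n c) : LT (-z) n (-c) := by
  constructor
  · intro i hi
    rw [HahnSeries.coeff_neg, h.1 i hi, neg_zero]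
  · rw [HahnSeries.coeff_neg, h.2]

theorem LT.single (n : ℤ) (c : k) : LT (HahnSeries.single n c) n c := by
  constructor
  · intro i hi
    rw [HahnSeries.coeff_single_of_ne hi.ne]
  · rw [HahnSeries.coeff_single_same]

theorem LT.single_mul_ofPowerSeries (n : ℤ) (w : PowerSeries k) :
    LT (HahnSeries.single n (1 : k) * HahnSeries.ofPowerSeries ℤ k w) n
      (PowerSeries.constantCoeff w) := by
  constructor
  · intro i hi
    rw [HahnSeries.coeff_single_mul, one_mul]
    exact ofPowerSeries_coeff_of_neg _ (by omega)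
  · rw [HahnSeries.coeff_single_mul, one_mul, sub_self,
      show (0 : ℤ) = ((0 : ℕ) : ℤ) from rfl, HahnSeries.ofPowerSeries_apply_coeff,
      PowerSeries.coeff_zero_eq_constantCoeff]

end Lead

section RootFormula

theorem evalJ_comp {R S : Type*} [CommRing R] [CommRing S]
    (θ : LaurentSeries R →+* LaurentSeries S) (J : LaurentSeries R) :
    θ.comp (evalJ J) = evalJ (θ J) := by
  refine Polynomial.ringHom_ext' (Subsingleton.elim _ _) ?_
  simp [evalJ]

theorem Jsub_eq_of_eq (k : Type*) [CommRing k] (ζ : kˣ) (m : ℕ+) (n : ℕ) [NeZero n]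
    (h : n = (m : ℕ)) : qExpand k n (twist ζ (jqModC k)) = Jsub k ζ m := by
  subst h
  rfl

/-- transport of the factorisation `Φ(X, j) = (X - j(q^p)) * charpoly (Mat p j)` over `ℤ((q))` to
the root formula over any field containing a primitive `p`-th root of unity. -/
theorem root_formula_of_factor (p : ℕ) [NeZero p] (hp : 0 < p) (Φ : Polynomial (Polynomial ℤ))
    (hΦ : Φ.map (evalJ (jqModC ℤ)) =
      (X - C (qExpand ℤ p (jqModC ℤ))) * Matrix.charpoly (Mat p (jqModC ℤ)))
    (k : Type) [Field k] (ω : kˣ) (hω : IsPrimitiveRoot ω p) (ξ : kˣ) (m : ℕ+) :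
    Φ.map (evalJ (Jsub k (ξ ^ p) (⟨p, hp⟩ * m))) =
      (X - C (Jsub k (ξ ^ (p ^ 2)) (⟨p, hp⟩ ^ 2 * m))) *
        ∏ b ∈ Finset.range p, (X - C (Jsub k (ω ^ b * ξ) m)) := by
  set θ : LaurentSeries ℤ →+* LaurentSeries k :=
    (qExpand k (m : ℕ)).comp ((twist ξ).comp ((qExpand k p).comp (coeffMap (Int.castRingHom k))))
    with hθ
  have hθj : θ (jqModC ℤ) = Jsub k (ξ ^ p) (⟨p, hp⟩ * m) := by
    show qExpand k (m : ℕ) (twist ξ (qExpand k p (coeffMap (Int.castRingHom k) (jqModC ℤ)))) = _
    rw [coeffMap_jqModC, twist_qExpand, qExpand_qExpand]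
    exact Jsub_eq_of_eq k _ _ _ (show (m : ℕ) * p = p * (m : ℕ) from mul_comm _ _)
  have hθVj : θ (qExpand ℤ p (jqModC ℤ)) = Jsub k (ξ ^ (p ^ 2)) (⟨p, hp⟩ ^ 2 * m) := by
    show qExpand k (m : ℕ) (twist ξ (qExpand k p (coeffMap (Int.castRingHom k)
      (qExpand ℤ p (jqModC ℤ))))) = _
    rw [coeffMap_qExpand, coeffMap_jqModC, twist_qExpand, twist_qExpand, qExpand_qExpand,
      qExpand_qExpand, ← pow_mul, ← sq]
    exact Jsub_eq_of_eq k _ _ _ (show (m : ℕ) * p * p = p ^ 2 * (m : ℕ) by ring)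
  have hΨ : (Matrix.charpoly (Mat p (jqModC ℤ))).map θ =
      ∏ b ∈ Finset.range p, (X - C (Jsub k (ω ^ b * ξ) m)) := by
    have h1 : (Matrix.charpoly (Mat p (jqModC ℤ))).map (coeffMap (Int.castRingHom k)) =
        Matrix.charpoly (Mat p (jqModC k)) := by
      rw [← Matrix.charpoly_map, Mat_map_coeffMap, coeffMap_jqModC]
    rw [hθ, ← Polynomial.map_map, ← Polynomial.map_map, ← Polynomial.map_map, h1,
      charpoly_Mat_map_qExpand p ω hω, Polynomial.map_prod, Polynomial.map_prod,
      ← Fin.prod_univ_eq_prod_range (fun b => (X - C (Jsub k (ω ^ b * ξ) m))) p]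
    refine Finset.prod_congr rfl fun b _ => ?_
    rw [Polynomial.map_sub, Polynomial.map_X, Polynomial.map_C, Polynomial.map_sub,
      Polynomial.map_X, Polynomial.map_C, twist_twist]
    rfl
  rw [← hθj, ← evalJ_comp θ, ← Polynomial.map_map, hΦ, Polynomial.map_mul, Polynomial.map_sub,
    Polynomial.map_X, Polynomial.map_C, hθVj, hΨ]

end RootFormula

end

end Fermat.Agent.S28.helper328
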