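/-
S28 (Igusa), route P, P4: the Hecke link in the exact consumer shapes asked for by helper328
(chat #174): with `helper328.Ush p 0`, over `ℤ` (with `evalJ`) and over `ℂ` (with `aeval`).
Author: helper2627.
-/
import Mathlib
import Fermat.Agent.S28.helper2627_HeckeLink
import Fermat.Agent.S28.helper328_Ush

set_option autoImplicit false

namespace Fermat.Agent.S28.helper2627

open ModularCurve
open Fermat.Agent.S28.helper328 (deltaHat deltaHatInv evalJ gHat Ush)

noncomputable section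

theorem laurentU_eq_Ush (p : ℕ) [NeZero p] (f : LaurentSeries ℤ) : laurentU p f = Ush p 0 f := by
  ext n
  simp

/-- **Mixed power sums over `ℤ`** (shape of helper328, chat #174):
`P(jhat) = (V_p jhat)^m * ghat^M + p • (U_p (jhat^m Dhat^M) / Dhat^M)`. -/
theorem mixedSum_int (p : ℕ) [hp : Fact p.Prime] (m M : ℕ) (hm : m ≤ M) (hM : 1 ≤ M) :
    haveI : NeZero p := ⟨hp.out.ne_zero⟩
    ∃ P : Polynomial ℤ, P.natDegree ≤ M ∧
      evalJ (jqModC ℤ) P = qExpand ℤ p (jqModC ℤ) ^ m * gHat p ^ M +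
        (p : ℤ) • (Ush p 0 (jqModC ℤ ^ m * deltaHat ℤ ^ M) * deltaHatInv ℤ ^ M) := by
  have : NeZero p := ⟨hp.out.ne_zero⟩
  obtain ⟨P, hP, h⟩ := hecke_link_gHat p m M hm hM
  refine ⟨Polynomial.C (p : ℤ) * P, ?_, ?_⟩
  · exact (Polynomial.natDegree_C_mul_le _ _).trans hP
  · rw [map_mul, ← laurentU_eq_Ush, zsmul_eq_mul]
    have hC : evalJ (jqModC ℤ) (Polynomial.C (p : ℤ)) = (p : LaurentSeries ℤ) := by
      show Polynomial.eval₂ (Int.castRingHom (LaurentSeries ℤ)) (jqModC ℤ) (Polynomial.C (p : ℤ)) = _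
      rw [Polynomial.eval₂_C]
      simp
    rw [hC, ← h]
    push_cast
    ring

theorem coeffMap_deltaHat {R : Type*} [CommRing R] :
    coeffMap (Int.castRingHom R) (deltaHat ℤ) = deltaHat R := by
  rw [deltaHat, deltaHat, map_mul, coeffMap_single, map_one, coeffMap_ofPowerSeries, map_int_id]

theorem coeffMap_deltaHatInv {R : Type*} [CommRing R] :
    coeffMap (Int.castRingHom R) (deltaHatInv ℤ) = deltaHatInv R := by
  rw [deltaHatInv, deltaHatInv, map_mul, coeffMap_single, map_one, coeffMap_ofPowerSeries,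
    map_int_id]

/-- **Mixed power sums over `ℂ`** (shape of helper328, chat #174). -/
theorem mixedSum_complex (p : ℕ) [hp : Fact p.Prime] (m M : ℕ) (hm : m ≤ M) (hM : 1 ≤ M) :
    haveI : NeZero p := ⟨hp.out.ne_zero⟩
    ∃ P : Polynomial ℂ, P.natDegree ≤ M ∧
      Polynomial.aeval (jqModC ℂ) P =
        qExpand ℂ p (jqModC ℂ) ^ m * coeffMap (Int.castRingHom ℂ) (gHat p) ^ M +
          (p : ℂ) • (Ush p 0 (jqModC ℂ ^ m * deltaHat ℂ ^ M) * deltaHatInv ℂ ^ M) := by
  have : NeZero p := ⟨hp.out.ne_zero⟩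
  obtain ⟨P, hP, h⟩ := mixedSum_int p m M hm hM
  refine ⟨P.map (Int.castRingHom ℂ), (Polynomial.natDegree_map_le).trans hP, ?_⟩
  have h1 := congrArg (coeffMap (Int.castRingHom ℂ)) h
  rw [Fermat.Agent.S28.helper328.coeffMap_evalJ] at h1
  rw [h1, map_add, map_mul, map_pow, map_pow, coeffMap_qExpand, coeffMap_jqModC, map_zsmul,
    map_mul, map_pow, Fermat.Agent.S28.helper328.coeffMap_Ush, map_mul, map_pow, map_pow,
    coeffMap_jqModC, coeffMap_deltaHat, coeffMap_deltaHatInv]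
  congr 1
  rw [← Int.cast_smul_eq_zsmul ℂ (p : ℤ), Int.cast_natCast]

end

end Fermat.Agent.S28.helper2627
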