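/-
Newton's identities for matrices, in membership form (helper2668; Mathlib only).

If all traces `trace (M ^ k)`, `k ≥ 1`, of a square matrix `M` over a commutative ring `B` lie in a
subring `S` in which the positive integers are invertible, then every coefficient of the
characteristic polynomial of `M` lies in `S`.

Proof: Jacobi's formula `derivative M.charpoly = trace (adjugate (charmatrix M))` and the
coefficients of `adjugate (charmatrix M) * charmatrix M = M.charpoly • 1`.
-/
import Mathlib

set_option autoImplicit false

namespace Fermat.Agent.S28.helper2668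

open Polynomial Matrix

variable {B : Type*} [CommRing B] {n : Type*} [Fintype n] [DecidableEq n]

theorem derivative_charmatrix_apply (M : Matrix n n B) (i j : n) :
    derivative (charmatrix M i j) = if i = j then 1 else 0 := by
  by_cases h : i = j
  · subst h
    rw [charmatrix_apply_eq, if_pos rfl]
    simp
  · rw [charmatrix_apply_ne _ _ _ h, if_neg h]
    simp

/-- **Jacobi's formula** for the characteristic matrix. -/
theorem derivative_charpoly (M : Matrix n n B) :
    derivative M.charpoly = Matrix.trace (adjugate (charmatrix M)) := by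
  classical
  have key : ∀ (σ : Equiv.Perm n) (i : n),
      ∏ j, (charmatrix M).updateRow i (Pi.single i 1) (σ j) j =
        (∏ j ∈ Finset.univ.erase i, charmatrix M (σ j) j) *
          derivative (charmatrix M (σ i) i) := by
    intro σ i
    rw [derivative_charmatrix_apply]
    by_cases h : σ i = i
    · rw [if_pos h, mul_one, ← Finset.mul_prod_erase Finset.univ _ (Finset.mem_univ i)]
      rw [h, Matrix.updateRow_self, Pi.single_eq_same, one_mul]
      refine Finset.prod_congr rfl fun j hj => ?_
      have hji : j ≠ i := Finset.ne_of_mem_erase hj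
      have : σ j ≠ i := fun h' => hji (σ.injective (h'.trans h.symm))
      rw [Matrix.updateRow_ne this]
    · rw [if_neg h, mul_zero]
      refine Finset.prod_eq_zero (Finset.mem_univ (σ.symm i)) ?_
      rw [Equiv.apply_symm_apply, Matrix.updateRow_self, Pi.single_eq_of_ne]
      intro h'
      apply h
      conv_lhs => rw [← h']
      rw [Equiv.apply_symm_apply]
  rw [Matrix.charpoly, Matrix.det_apply, map_sum, Matrix.trace]
  simp_rw [Matrix.diag_apply, Matrix.adjugate_apply, Matrix.det_apply]
  rw [Finset.sum_comm]
  refine Finset.sum_congr rfl fun σ _ => ?_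
  rw [← Finset.smul_sum, Units.smul_def, Units.smul_def, map_zsmul, derivative_prod_finset]
  congr 1
  exact Finset.sum_congr rfl fun i _ => (key σ i).symm

/-- the adjugate of the characteristic matrix as a polynomial with matrix coefficients. -/
noncomputable def adjPoly (M : Matrix n n B) : (Matrix n n B)[X] :=
  matPolyEquiv (adjugate (charmatrix M))

theorem adjPoly_mul (M : Matrix n n B) :
    M.charpoly.map (algebraMap B (Matrix n n B)) = adjPoly M * (X - C M) := by
  have h : M.charpoly • (1 : Matrix n n B[X]) = adjugate (charmatrix M) * charmatrix M :=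
    (adjugate_mul _).symm
  apply_fun matPolyEquiv at h
  simp only [map_mul, matPolyEquiv_charmatrix] at h
  rw [matPolyEquiv_smul_one] at h
  exact h

theorem adjPoly_coeff_succ (M : Matrix n n B) (k : ℕ) :
    (adjPoly M).coeff k =
      algebraMap B (Matrix n n B) (M.charpoly.coeff (k + 1)) + (adjPoly M).coeff (k + 1) * M := by
  have h := congrArg (fun q : (Matrix n n B)[X] => q.coeff (k + 1)) (adjPoly_mul M)
  simp only [coeff_map, coeff_mul_X_sub_C] at h
  rw [h]
  abel

theorem adjPoly_coeff_zero (M : Matrix n n B) :
    algebraMap B (Matrix n n B) (M.charpoly.coeff 0) = -((adjPoly M).coeff 0 * M) := by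
  have h := congrArg (fun q : (Matrix n n B)[X] => q.coeff 0) (adjPoly_mul M)
  simp only [coeff_map, mul_coeff_zero, coeff_sub, coeff_X_zero, coeff_C_zero, zero_sub,
    mul_neg] at h
  exact h

theorem trace_adjPoly_coeff (M : Matrix n n B) (k : ℕ) :
    Matrix.trace ((adjPoly M).coeff k) = M.charpoly.coeff (k + 1) * ((k : B) + 1) := by
  have h := congrArg (fun q : B[X] => q.coeff k) (derivative_charpoly M)
  simp only [coeff_derivative] at h
  rw [h, Matrix.trace, Matrix.trace, finsetSum_coeff]
  refine Finset.sum_congr rfl fun i _ => ?_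
  rw [Matrix.diag_apply, Matrix.diag_apply, adjPoly, matPolyEquiv_coeff_apply]

/-- `(card n - i) c_i = - trace (N_i M)`. -/
theorem card_sub_mul_coeff (M : Matrix n n B) (i : ℕ) :
    ((Fintype.card n : B) - (i : B)) * M.charpoly.coeff i =
      -Matrix.trace ((adjPoly M).coeff i * M) := by
  cases i with
  | zero =>
    have h := congrArg Matrix.trace (adjPoly_coeff_zero M)
    rw [Matrix.trace_neg, Matrix.algebraMap_eq_diagonal, Matrix.trace_diagonal] at h
    simp only [Pi.algebraMap_apply, Algebra.algebraMap_self, RingHom.id_apply,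
      Finset.sum_const, Finset.card_univ, nsmul_eq_mul] at h
    rw [← h]
    push_cast
    ring
  | succ k =>
    have h := congrArg Matrix.trace (adjPoly_coeff_succ M k)
    rw [Matrix.trace_add, trace_adjPoly_coeff, Matrix.algebraMap_eq_diagonal,
      Matrix.trace_diagonal] at h
    simp only [Pi.algebraMap_apply, Algebra.algebraMap_self, RingHom.id_apply,
      Finset.sum_const, Finset.card_univ, nsmul_eq_mul] at h
    push_cast
    linear_combination -h

theorem trace_adjPoly_coeff_mul_pow (M : Matrix n n B) (k i : ℕ) :
    Matrix.trace ((adjPoly M).coeff k * M ^ i) =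
      M.charpoly.coeff (k + 1) * Matrix.trace (M ^ i) +
        Matrix.trace ((adjPoly M).coeff (k + 1) * M ^ (i + 1)) := by
  rw [adjPoly_coeff_succ M k, add_mul, Matrix.trace_add, Algebra.algebraMap_eq_smul_one,
    smul_mul_assoc, one_mul, Matrix.trace_smul, smul_eq_mul, mul_assoc, ← pow_succ']

/-- **Newton's identities, membership form.** -/
theorem coeff_charpoly_mem (S : Subring B)
    (hinv : ∀ k : ℕ, 0 < k → ∃ u ∈ S, u * (k : B) = 1) (M : Matrix n n B)
    (h : ∀ k : ℕ, 0 < k → Matrix.trace (M ^ k) ∈ S) (i : ℕ) : M.charpoly.coeff i ∈ S := by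
  -- a coefficient is in `S` as soon as the traces `trace (N_i M^j)` are
  have hcoeff : ∀ i : ℕ, (∀ j : ℕ, 0 < j → Matrix.trace ((adjPoly M).coeff i * M ^ j) ∈ S) →
      M.charpoly.coeff i ∈ S := by
    intro i hQ
    rcases Nat.lt_or_ge i (Fintype.card n) with hi | hi
    · obtain ⟨u, hu, hu1⟩ := hinv (Fintype.card n - i) (Nat.sub_pos_of_lt hi)
      have h1 := card_sub_mul_coeff M i
      have h2 : ((Fintype.card n - i : ℕ) : B) = (Fintype.card n : B) - (i : B) :=
        Nat.cast_sub hi.le
      have h3 : M.charpoly.coeff i = u * -Matrix.trace ((adjPoly M).coeff i * M) := by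
        rw [← h1, ← h2, ← mul_assoc, hu1, one_mul]
      rw [h3]
      have := hQ 1 Nat.one_pos
      rw [pow_one] at this
      exact S.mul_mem hu (S.neg_mem this)
    · rcases Nat.eq_or_lt_of_le hi with hi | hi
      · rcases subsingleton_or_nontrivial B with hB | hB
        · rw [Subsingleton.elim (M.charpoly.coeff i) 0]; exact S.zero_mem
        · have hm := M.charpoly_monic
          rw [Polynomial.Monic, Polynomial.leadingCoeff, charpoly_natDegree_eq_dim, hi] at hm
          rw [hm]; exact S.one_mem
      · rcases subsingleton_or_nontrivial B with hB | hB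
        · rw [Subsingleton.elim (M.charpoly.coeff i) 0]; exact S.zero_mem
        · rw [coeff_eq_zero_of_natDegree_lt (by rw [charpoly_natDegree_eq_dim]; exact hi)]
          exact S.zero_mem
  -- downward induction
  have hQ : ∀ d k : ℕ, (adjPoly M).natDegree + 1 ≤ k + d →
      ∀ j : ℕ, 0 < j → Matrix.trace ((adjPoly M).coeff k * M ^ j) ∈ S := by
    intro d
    induction d with
    | zero =>
      intro k hk j _
      rw [coeff_eq_zero_of_natDegree_lt (by omega), zero_mul, Matrix.trace_zero]
      exact S.zero_mem
    | succ d ih =>
      intro k hk j hj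
      have hk1 := ih (k + 1) (by omega)
      rw [trace_adjPoly_coeff_mul_pow]
      exact S.add_mem (S.mul_mem (hcoeff (k + 1) hk1) (h j hj)) (hk1 (j + 1) (Nat.succ_pos j))
  exact hcoeff i (hQ ((adjPoly M).natDegree + 1) i (by omega))

end Fermat.Agent.S28.helper2668
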