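/-
S28 (Igusa), route P, root-free prime-level package — part 2 (helper2668): toolkit.

* `VB f n` : all coefficients of the Laurent series `f` below `n` vanish (order `≥ n`).
* formal `Δ`: `deltaHat R * deltaHatInv R = 1`, orders, base change; `j * Δ = E4^3`.
* triangularity: a polynomial in `j` (coefficients in a characteristic zero ring) with integral
  `q`-expansion is an integer polynomial in `j`; an integer polynomial in `j` without negative
  order terms is a constant.
-/
import Mathlib
import Fermat.Agent.S28.helper328_PrimeSpec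
import Fermat.Agent.S28.helper3292_JqFacts

set_option autoImplicit false

namespace Fermat.Agent.S28.helper2668

open ModularCurve Polynomial
open Fermat.Agent.S28.helper328

noncomputable section

section VBsec

variable {R : Type*} [CommRing R]

/-- all coefficients below `n` vanish. -/
def VB (f : LaurentSeries R) (n : ℤ) : Prop := ∀ k < n, f.coeff k = 0

theorem VB.mono {f : LaurentSeries R} {n m : ℤ} (hf : VB f n) (h : m ≤ n) : VB f m :=
  fun k hk => hf k (lt_of_lt_of_le hk h)

theorem VB.mul {f g : LaurentSeries R} {n m : ℤ} (hf : VB f n) (hg : VB g m) :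
    VB (f * g) (n + m) := by
  intro k hk
  rw [HahnSeries.coeff_mul]
  refine Finset.sum_eq_zero fun ij hij => ?_
  have hsum : ij.1 + ij.2 = k := (Finset.mem_addAntidiagonal.mp hij).2.2
  by_cases h1 : ij.1 < n
  · rw [hf _ h1, zero_mul]
  · rw [hg _ (by omega), mul_zero]

theorem VB.zero (n : ℤ) : VB (0 : LaurentSeries R) n := fun _ _ => by simp

theorem VB.one : VB (1 : LaurentSeries R) 0 := by
  intro k hk
  rw [HahnSeries.coeff_one, if_neg (by omega)]

theorem VB.single (n : ℤ) (c : R) : VB (HahnSeries.single n c) n := by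
  intro k hk
  rw [HahnSeries.coeff_single_of_ne (by omega)]

theorem VB.add {f g : LaurentSeries R} {n : ℤ} (hf : VB f n) (hg : VB g n) : VB (f + g) n := by
  intro k hk
  rw [HahnSeries.coeff_add, hf k hk, hg k hk, add_zero]

theorem VB.neg {f : LaurentSeries R} {n : ℤ} (hf : VB f n) : VB (-f) n := by
  intro k hk
  rw [HahnSeries.coeff_neg, hf k hk, neg_zero]

theorem VB.sum {ι : Type*} (s : Finset ι) (f : ι → LaurentSeries R) (n : ℤ)
    (h : ∀ i ∈ s, VB (f i) n) : VB (∑ i ∈ s, f i) n := by
  intro k hk
  rw [HahnSeries.coeff_sum]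
  exact Finset.sum_eq_zero fun i hi => h i hi k hk

theorem VB.pow {f : LaurentSeries R} {n : ℤ} (hf : VB f n) (k : ℕ) : VB (f ^ k) (k * n) := by
  induction k with
  | zero => simpa using (VB.one (R := R))
  | succ k ih =>
    have := ih.mul hf
    rw [pow_succ]
    convert this using 1
    push_cast; ring

theorem VB.prod {ι : Type*} (s : Finset ι) (f : ι → LaurentSeries R)
    (h : ∀ i ∈ s, VB (f i) 0) : VB (∏ i ∈ s, f i) 0 := by
  classical
  induction s using Finset.induction_on with
  | empty => simpa using (VB.one (R := R))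
  | insert a s ha ih =>
    rw [Finset.prod_insert ha]
    have := (h a (Finset.mem_insert_self a s)).mul
      (ih fun i hi => h i (Finset.mem_insert_of_mem hi))
    simpa using this

theorem VB.natCast (a : ℕ) : VB ((a : ℕ) : LaurentSeries R) 0 := by
  have : ((a : ℕ) : LaurentSeries R) = HahnSeries.single 0 (a : R) := by
    rw [← HahnSeries.C_apply, map_natCast]
  rw [this]
  exact VB.single 0 _

theorem VB.qExpand {f : LaurentSeries R} {n : ℤ} (hf : VB f n) (N : ℕ) [NeZero N] :
    VB (qExpand R N f) (N * n) := by
  have hN : (0 : ℤ) < N := by exact_mod_cast Nat.pos_of_ne_zero (NeZero.ne N)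
  intro k hk
  by_cases hd : (N : ℤ) ∣ k
  · obtain ⟨k', rfl⟩ := hd
    rw [qExpand_coeff_mul]
    exact hf _ (lt_of_mul_lt_mul_left hk hN.le)
  · exact qExpand_coeff_of_not_dvd N f hd

theorem VB.coeffMap {S : Type*} [CommRing S] {f : LaurentSeries R} {n : ℤ} (hf : VB f n)
    (φ : R →+* S) : VB (coeffMap φ f) n := by
  intro k hk
  rw [coeffMap_coeff, hf k hk, map_zero]

theorem VB.ofPowerSeries (u : PowerSeries R) : VB (HahnSeries.ofPowerSeries ℤ R u) 0 :=
  fun _ hk => ofPowerSeries_coeff_of_neg u hk

end VBsec

/-! ### the formal discriminant -/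

section Delta

variable (R : Type*) [CommRing R]

theorem deltaHat_mul_inv : deltaHat R * deltaHatInv R = 1 := by
  rw [deltaHat, deltaHatInv]
  have h : HahnSeries.ofPowerSeries ℤ R (dedekindEtaUnit.map (Int.castRingHom R)) *
      HahnSeries.ofPowerSeries ℤ R (dedekindEtaUnitInv.map (Int.castRingHom R)) = 1 := by
    rw [← map_mul, ← map_mul, dedekindEtaUnit_mul_inv, map_one, map_one]
  calc HahnSeries.single (1 : ℤ) (1 : R) *
        HahnSeries.ofPowerSeries ℤ R (dedekindEtaUnit.map (Int.castRingHom R)) *
        (HahnSeries.single (-1 : ℤ) (1 : R) *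
          HahnSeries.ofPowerSeries ℤ R (dedekindEtaUnitInv.map (Int.castRingHom R)))
      = (HahnSeries.single (1 : ℤ) (1 : R) * HahnSeries.single (-1 : ℤ) (1 : R)) *
        (HahnSeries.ofPowerSeries ℤ R (dedekindEtaUnit.map (Int.castRingHom R)) *
          HahnSeries.ofPowerSeries ℤ R (dedekindEtaUnitInv.map (Int.castRingHom R))) := by ring
    _ = 1 := by
      rw [h, HahnSeries.single_mul_single, mul_one, mul_one]
      norm_num

theorem VB_deltaHat : VB (deltaHat R) 1 := by
  have := (VB.single (1 : ℤ) (1 : R)).mul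
    (VB.ofPowerSeries (dedekindEtaUnit.map (Int.castRingHom R)))
  simpa [deltaHat] using this

theorem VB_deltaHatInv : VB (deltaHatInv R) (-1) := by
  have := (VB.single (-1 : ℤ) (1 : R)).mul
    (VB.ofPowerSeries (dedekindEtaUnitInv.map (Int.castRingHom R)))
  simpa [deltaHatInv] using this

variable {R} in
theorem map_map_intCast {S : Type*} [CommRing S] (φ : R →+* S) (u : PowerSeries ℤ) :
    (u.map (Int.castRingHom R)).map φ = u.map (Int.castRingHom S) := by
  rw [← RingHom.comp_apply (PowerSeries.map φ) (PowerSeries.map (Int.castRingHom R)),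
    ← PowerSeries.map_comp, RingHom.ext_int (φ.comp (Int.castRingHom R)) (Int.castRingHom S)]

variable {R} in
theorem coeffMap_deltaHat {S : Type*} [CommRing S] (φ : R →+* S) :
    coeffMap φ (deltaHat R) = deltaHat S := by
  rw [deltaHat, map_mul, coeffMap_single, map_one, coeffMap_ofPowerSeries, map_map_intCast]
  rfl

variable {R} in
theorem coeffMap_deltaHatInv {S : Type*} [CommRing S] (φ : R →+* S) :
    coeffMap φ (deltaHatInv R) = deltaHatInv S := by
  rw [deltaHatInv, map_mul, coeffMap_single, map_one, coeffMap_ofPowerSeries, map_map_intCast]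
  rfl

/-- `j * Δ = E4^3` formally. -/
theorem jqModC_mul_deltaHat :
    jqModC R * deltaHat R =
      HahnSeries.ofPowerSeries ℤ R ((eisenstein4 ^ 3).map (Int.castRingHom R)) := by
  rw [jqModC, deltaHat]
  have h : HahnSeries.ofPowerSeries ℤ R (jNum.map (Int.castRingHom R)) *
      HahnSeries.ofPowerSeries ℤ R (dedekindEtaUnit.map (Int.castRingHom R)) =
      HahnSeries.ofPowerSeries ℤ R ((eisenstein4 ^ 3).map (Int.castRingHom R)) := by
    rw [← map_mul, ← map_mul, jNum, mul_assoc, mul_comm dedekindEtaUnitInv,
      dedekindEtaUnit_mul_inv, mul_one]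
  calc HahnSeries.single (-1 : ℤ) (1 : R) *
        HahnSeries.ofPowerSeries ℤ R (jNum.map (Int.castRingHom R)) *
        (HahnSeries.single (1 : ℤ) (1 : R) *
          HahnSeries.ofPowerSeries ℤ R (dedekindEtaUnit.map (Int.castRingHom R)))
      = (HahnSeries.single (-1 : ℤ) (1 : R) * HahnSeries.single (1 : ℤ) (1 : R)) *
        (HahnSeries.ofPowerSeries ℤ R (jNum.map (Int.castRingHom R)) *
          HahnSeries.ofPowerSeries ℤ R (dedekindEtaUnit.map (Int.castRingHom R))) := by ring
    _ = _ := by
      rw [h, HahnSeries.single_mul_single, mul_one]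
      norm_num

end Delta

/-! ### triangularity -/

section Tri

/-- TRIANGULARITY: if the base change of an integral Laurent series is a polynomial in `j` over a
characteristic zero ring, it is an integer polynomial in `j`. -/
theorem tri (K : Type*) [CommRing K] [CharZero K] :
    ∀ (n : ℕ) (P : K[X]) (x : LaurentSeries ℤ), P.support.card = n →
      coeffMap (Int.castRingHom K) x = aeval (jqModC K) P →
      ∃ Q : ℤ[X], x = aeval (jqModC ℤ) Q := by
  have hinj : Function.Injective (coeffMap (Int.castRingHom K)) := by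
    intro a b hab
    ext k
    have := congrArg (fun s : LaurentSeries K => s.coeff k) hab
    simp only [coeffMap_coeff] at this
    exact Int.cast_injective this
  intro n
  induction n with
  | zero =>
    intro P x hP hx
    have hP0 : P = 0 := Finset.card_eq_zero.mp hP |> Polynomial.support_eq_empty.mp
    refine ⟨0, ?_⟩
    rw [hP0, map_zero] at hx
    rw [map_zero]
    exact hinj (by rw [hx, map_zero])
  | succ n ih =>
    intro P x hP hx
    have hlead : ((x.coeff (-(P.natDegree : ℤ)) : ℤ) : K) = P.leadingCoeff := by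
      rw [← helper3292.coeff_aeval_jqModC_neg_natDegree K P, ← hx, coeffMap_coeff]
      rfl
    set c : ℤ := x.coeff (-(P.natDegree : ℤ)) with hc
    have hx' : coeffMap (Int.castRingHom K) (x - aeval (jqModC ℤ) (C c * X ^ P.natDegree)) =
        aeval (jqModC K) P.eraseLead := by
      rw [map_sub, hx, helper3292.coeffMap_aeval_jqModC]
      have h1 : (C c * X ^ P.natDegree : ℤ[X]).map (Int.castRingHom K) =
          monomial P.natDegree P.leadingCoeff := by
        rw [Polynomial.map_mul, Polynomial.map_pow, Polynomial.map_X, Polynomial.map_C,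
          ← C_mul_X_pow_eq_monomial]
        congr 2
      have h2 : aeval (jqModC K) P = aeval (jqModC K) P.eraseLead +
          aeval (jqModC K) (monomial P.natDegree P.leadingCoeff) := by
        rw [← map_add, Polynomial.eraseLead_add_monomial_natDegree_leadingCoeff]
      rw [h1, h2, add_sub_cancel_right]
    obtain ⟨Q, hQ⟩ := ih P.eraseLead _ (Polynomial.card_support_eraseLead' hP) hx'
    refine ⟨Q + C c * X ^ P.natDegree, ?_⟩
    rw [map_add, ← hQ]
    ring

theorem tri' (K : Type*) [CommRing K] [CharZero K] (P : K[X]) (x : LaurentSeries ℤ)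
    (hx : coeffMap (Int.castRingHom K) x = aeval (jqModC K) P) :
    ∃ Q : ℤ[X], x = aeval (jqModC ℤ) Q :=
  tri K _ P x rfl hx

/-- a polynomial in `j` without negative order terms is a constant. -/
theorem aeval_jqModC_eq_C_of_VB (R : Type*) [CommRing R] (Q : R[X])
    (h : VB (aeval (jqModC R) Q) 0) : ∃ c : R, Q = C c := by
  by_cases hd : Q.natDegree = 0
  · exact ⟨Q.coeff 0, Polynomial.eq_C_of_natDegree_eq_zero hd⟩
  · exfalso
    have h1 := helper3292.coeff_aeval_jqModC_neg_natDegree R Q
    rw [h _ (by have : 0 < Q.natDegree := Nat.pos_of_ne_zero hd; omega)] at h1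
    have : Q = 0 := Polynomial.leadingCoeff_eq_zero.mp h1.symm
    exact hd (by rw [this, Polynomial.natDegree_zero])

end Tri

end

end Fermat.Agent.S28.helper2668
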