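/-
S28 (Igusa), route P, root-free prime-level package — part 1 (helper2668).

`U_p` on Laurent series and the matrix `rho p f` of multiplication by `f` on `R((q))`, viewed as a
free module with basis `1, q, …, q^(p-1)` over the image of `V_p = qExpand R p`.
`rho p` is an injective ring homomorphism, `rho p (V_p h) = h • 1`, `trace (rho p f) = p • U_p f`.
No roots of unity are used anywhere.
-/
import Mathlib
import Fermat.Prelude.Def_ModularCurve_X0ModL

set_option autoImplicit false

namespace Fermat.Agent.S28.helper2668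

open ModularCurve Matrix

noncomputable section

variable {R : Type*} [CommRing R]

section Up

variable (p : ℕ) [NeZero p]

theorem Up_bdd (f : LaurentSeries R) :
    BddBelow (Function.support fun n : ℤ => f.coeff ((p : ℤ) * n)) := by
  refine ⟨min f.order 0, ?_⟩
  intro m hm
  by_contra hlt
  rw [not_le] at hlt
  apply hm
  show f.coeff ((p : ℤ) * m) = 0
  replace hm := hlt
  apply HahnSeries.coeff_eq_zero_of_lt_order
  have hp : (1 : ℤ) ≤ p := by exact_mod_cast Nat.one_le_iff_ne_zero.mpr (NeZero.ne p)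
  have h1 : m < f.order := lt_of_lt_of_le hm (min_le_left _ _)
  have h2 : m < 0 := lt_of_lt_of_le hm (min_le_right _ _)
  nlinarith

/-- `U_p` on Laurent series: `(U_p f).coeff n = f.coeff (p n)`. -/
def Up (f : LaurentSeries R) : LaurentSeries R :=
  HahnSeries.ofSuppBddBelow (fun n : ℤ => f.coeff ((p : ℤ) * n)) (Up_bdd p f)

@[simp] theorem Up_coeff (f : LaurentSeries R) (n : ℤ) :
    (Up p f).coeff n = f.coeff ((p : ℤ) * n) := by
  simp [Up]

theorem Up_add (f g : LaurentSeries R) : Up p (f + g) = Up p f + Up p g := by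
  ext n; simp

theorem Up_zero : Up p (0 : LaurentSeries R) = 0 := by
  ext n; simp

/-- The matrix of multiplication by `f` (as a plain function). -/
def rhoFun (f : LaurentSeries R) : Matrix (Fin p) (Fin p) (LaurentSeries R) :=
  Matrix.of fun a b => Up p (HahnSeries.single ((b : ℤ) - (a : ℤ)) (1 : R) * f)

theorem rhoFun_apply (f : LaurentSeries R) (a b : Fin p) :
    rhoFun p f a b = Up p (HahnSeries.single ((b : ℤ) - (a : ℤ)) (1 : R) * f) := rfl

theorem rhoFun_coeff (f : LaurentSeries R) (a b : Fin p) (n : ℤ) :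
    (rhoFun p f a b).coeff n = f.coeff ((p : ℤ) * n - ((b : ℤ) - (a : ℤ))) := by
  rw [rhoFun_apply, Up_coeff, HahnSeries.coeff_single_mul, one_mul]

theorem exists_eq_mul_add (n : ℤ) : ∃ (m : ℤ) (a0 : Fin p), n = (p : ℤ) * m + (a0 : ℤ) := by
  have hp : (0 : ℤ) < p := by exact_mod_cast Nat.pos_of_ne_zero (NeZero.ne p)
  have h0 := Int.emod_nonneg n hp.ne'
  have h1 := Int.emod_lt_of_pos n hp
  refine ⟨n / p, ⟨(n % p).toNat, (Int.toNat_lt h0).mpr h1⟩, ?_⟩
  simp only
  rw [Int.toNat_of_nonneg h0]
  exact (Int.mul_ediv_add_emod n p).symm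

/-- Coefficients of a sum `∑_a q^a V_p(h a)`. -/
theorem coeff_sum_single_mul_qExpand (h : Fin p → LaurentSeries R) (a0 : Fin p) (m : ℤ) :
    (∑ a : Fin p, HahnSeries.single (a : ℤ) (1 : R) * qExpand R p (h a)).coeff
      ((p : ℤ) * m + a0) = (h a0).coeff m := by
  rw [HahnSeries.coeff_sum, Finset.sum_eq_single a0]
  · rw [HahnSeries.coeff_single_mul, one_mul]
    have : (p : ℤ) * m + a0 - a0 = p * m := by ring
    rw [this, qExpand_coeff_mul]
  · intro a _ ha
    rw [HahnSeries.coeff_single_mul, one_mul]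
    apply qExpand_coeff_of_not_dvd
    intro hd
    have hd' : (p : ℤ) ∣ (a0 : ℤ) - (a : ℤ) := by
      have : (p : ℤ) * m + a0 - a = p * m + ((a0 : ℤ) - a) := by ring
      rw [this] at hd
      exact (Int.dvd_add_right (dvd_mul_right _ _)).mp hd
    have habs : |(a0 : ℤ) - (a : ℤ)| < (p : ℤ) := by
      have h1 : ((a0 : ℕ) : ℤ) < p := by exact_mod_cast a0.2
      have h2 : ((a : ℕ) : ℤ) < p := by exact_mod_cast a.2
      have h3 : (0 : ℤ) ≤ ((a0 : ℕ) : ℤ) := by positivity
      have h4 : (0 : ℤ) ≤ ((a : ℕ) : ℤ) := by positivity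
      rw [abs_lt]
      constructor <;> linarith
    have h0 := Int.eq_zero_of_abs_lt_dvd hd' habs
    apply ha
    apply Fin.ext
    have : ((a : ℕ) : ℤ) = ((a0 : ℕ) : ℤ) := by linarith
    exact_mod_cast this
  · intro h0
    exact absurd (Finset.mem_univ a0) h0

/-- Uniqueness of the decomposition `∑_a q^a V_p(h a)`. -/
theorem eq_of_sum_single_mul_qExpand_eq (h h' : Fin p → LaurentSeries R)
    (hs : ∑ a : Fin p, HahnSeries.single (a : ℤ) (1 : R) * qExpand R p (h a) =
      ∑ a : Fin p, HahnSeries.single (a : ℤ) (1 : R) * qExpand R p (h' a)) : h = h' := by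
  funext a0
  ext m
  rw [← coeff_sum_single_mul_qExpand p h a0 m, ← coeff_sum_single_mul_qExpand p h' a0 m, hs]

/-- The defining decomposition: `q^b f = ∑_a q^a V_p(rho f a b)`. -/
theorem single_mul_eq_sum (f : LaurentSeries R) (b : Fin p) :
    HahnSeries.single (b : ℤ) (1 : R) * f =
      ∑ a : Fin p, HahnSeries.single (a : ℤ) (1 : R) * qExpand R p (rhoFun p f a b) := by
  ext n
  obtain ⟨m, a0, rfl⟩ := exists_eq_mul_add p n
  rw [coeff_sum_single_mul_qExpand p (fun a => rhoFun p f a b) a0 m, rhoFun_coeff,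
    HahnSeries.coeff_single_mul, one_mul]
  congr 1
  ring

theorem rhoFun_eq_of (f : LaurentSeries R) (b : Fin p) (h : Fin p → LaurentSeries R)
    (hh : HahnSeries.single (b : ℤ) (1 : R) * f =
      ∑ a : Fin p, HahnSeries.single (a : ℤ) (1 : R) * qExpand R p (h a)) (a : Fin p) :
    rhoFun p f a b = h a := by
  have := eq_of_sum_single_mul_qExpand_eq p (fun a => rhoFun p f a b) h
    ((single_mul_eq_sum p f b).symm.trans hh)
  exact congrFun this a

theorem rhoFun_one : rhoFun p (1 : LaurentSeries R) = 1 := by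
  ext a b : 1
  refine rhoFun_eq_of p 1 b (fun a => (1 : Matrix (Fin p) (Fin p) (LaurentSeries R)) a b) ?_ a
  rw [Finset.sum_eq_single b]
  · rw [Matrix.one_apply_eq, (qExpand R p).map_one]
  · intro a _ hab
    rw [Matrix.one_apply_ne hab, (qExpand R p).map_zero, mul_zero]
  · intro h0
    exact absurd (Finset.mem_univ b) h0

theorem rhoFun_add (f g : LaurentSeries R) : rhoFun p (f + g) = rhoFun p f + rhoFun p g := by
  ext a b : 1
  rw [Matrix.add_apply, rhoFun_apply, rhoFun_apply, rhoFun_apply, mul_add, Up_add]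

theorem rhoFun_zero : rhoFun p (0 : LaurentSeries R) = 0 := by
  ext a b : 1
  rw [Matrix.zero_apply, rhoFun_apply, mul_zero, Up_zero]

theorem rhoFun_mul (f g : LaurentSeries R) : rhoFun p (f * g) = rhoFun p f * rhoFun p g := by
  ext a b : 1
  refine rhoFun_eq_of p (f * g) b (fun a => (rhoFun p f * rhoFun p g) a b) ?_ a
  have h1 : HahnSeries.single (b : ℤ) (1 : R) * (f * g) =
      f * (HahnSeries.single (b : ℤ) (1 : R) * g) := by ring
  rw [h1, single_mul_eq_sum p g b, Finset.mul_sum]
  have h2 : ∀ c : Fin p, f * (HahnSeries.single (c : ℤ) (1 : R) * qExpand R p (rhoFun p g c b)) =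
      ∑ a : Fin p, HahnSeries.single (a : ℤ) (1 : R) *
        (qExpand R p (rhoFun p f a c) * qExpand R p (rhoFun p g c b)) := by
    intro c
    have : f * (HahnSeries.single (c : ℤ) (1 : R) * qExpand R p (rhoFun p g c b)) =
        (HahnSeries.single (c : ℤ) (1 : R) * f) * qExpand R p (rhoFun p g c b) := by ring
    rw [this, single_mul_eq_sum p f c, Finset.sum_mul]
    refine Finset.sum_congr rfl fun a _ => ?_
    ring
  rw [Finset.sum_congr rfl fun c _ => h2 c, Finset.sum_comm]
  refine Finset.sum_congr rfl fun a _ => ?_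
  rw [Matrix.mul_apply, map_sum, Finset.mul_sum]
  refine Finset.sum_congr rfl fun c _ => ?_
  rw [map_mul]

/-- **The matrix of multiplication by `f`** on `R((q))` over `V_p(R((q)))`, basis `1, …, q^(p-1)`,
as a ring homomorphism. -/
def rho : LaurentSeries R →+* Matrix (Fin p) (Fin p) (LaurentSeries R) where
  toFun := rhoFun p
  map_one' := rhoFun_one p
  map_mul' := rhoFun_mul p
  map_zero' := rhoFun_zero p
  map_add' := rhoFun_add p

theorem rho_apply (f : LaurentSeries R) (a b : Fin p) :
    rho p f a b = Up p (HahnSeries.single ((b : ℤ) - (a : ℤ)) (1 : R) * f) := rfl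

theorem rho_coeff (f : LaurentSeries R) (a b : Fin p) (n : ℤ) :
    (rho p f a b).coeff n = f.coeff ((p : ℤ) * n - ((b : ℤ) - (a : ℤ))) :=
  rhoFun_coeff p f a b n

/-- `rho (V_p h)` is the scalar matrix `h`. -/
theorem rho_qExpand (h : LaurentSeries R) :
    rho p (qExpand R p h) = h • (1 : Matrix (Fin p) (Fin p) (LaurentSeries R)) := by
  ext a b : 1
  refine rhoFun_eq_of p (qExpand R p h) b
    (fun a => (h • (1 : Matrix (Fin p) (Fin p) (LaurentSeries R))) a b) ?_ a
  rw [Finset.sum_eq_single b]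
  · rw [Matrix.smul_apply, Matrix.one_apply_eq, smul_eq_mul, mul_one]
  · intro a _ hab
    rw [Matrix.smul_apply, Matrix.one_apply_ne hab, smul_zero, map_zero, mul_zero]
  · intro h0
    exact absurd (Finset.mem_univ b) h0

theorem trace_rho (f : LaurentSeries R) : Matrix.trace (rho p f) = (p : LaurentSeries R) * Up p f := by
  rw [Matrix.trace]
  have : ∀ a : Fin p, Matrix.diag (rho p f) a = Up p f := by
    intro a
    rw [Matrix.diag_apply, rho_apply, sub_self, HahnSeries.single_zero_one, one_mul]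
  rw [Finset.sum_congr rfl fun a _ => this a, Finset.sum_const, Finset.card_univ, Fintype.card_fin,
    nsmul_eq_mul]

theorem rho_injective : Function.Injective (rho (R := R) p) := by
  rw [injective_iff_map_eq_zero]
  intro f hf
  have hp : 0 < p := Nat.pos_of_ne_zero (NeZero.ne p)
  have h := single_mul_eq_sum p f ⟨0, hp⟩
  have h0 : ∀ a : Fin p, rhoFun p f a ⟨0, hp⟩ = 0 := by
    intro a
    have : rho p f a ⟨0, hp⟩ = 0 := by rw [hf]; rfl
    exact this
  rw [Finset.sum_congr rfl fun a _ => by rw [h0 a, map_zero, mul_zero]] at h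
  simpa using h

/-- `rho` commutes with coefficient maps. -/
theorem rho_coeffMap {S : Type*} [CommRing S] (ψ : R →+* S) (f : LaurentSeries R) :
    (rho p f).map (coeffMap ψ) = rho p (coeffMap ψ f) := by
  ext a b n
  rw [Matrix.map_apply, coeffMap_coeff, rho_coeff, rho_coeff, coeffMap_coeff]

/-- `U_p (V_p h * f) = h * U_p f`. -/
theorem Up_qExpand_mul (h f : LaurentSeries R) : Up p (qExpand R p h * f) = h * Up p f := by
  have hp : 0 < p := Nat.pos_of_ne_zero (NeZero.ne p)
  have h1 : rho p (qExpand R p h * f) ⟨0, hp⟩ ⟨0, hp⟩ = (h • rho p f) ⟨0, hp⟩ ⟨0, hp⟩ := by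
    rw [map_mul, rho_qExpand, smul_mul_assoc, one_mul]
  rw [rho_apply, Matrix.smul_apply, rho_apply, sub_self, HahnSeries.single_zero_one, one_mul,
    one_mul, smul_eq_mul] at h1
  exact h1

end Up

end

end Fermat.Agent.S28.helper2668
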