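/-
S28 (Igusa), route P, root-free prime-level package — part 3 (helper2668).

The block embedding `phi p (a, f) = diag(a, rho p f)` of `A × A` (`A = R((q))`) into
`(1+p) × (1+p)` matrices: the "regular representation" of the rank `p+1` algebra
`A × A` over `A` (embedded by `c ↦ (c, V_p c)`), whose trace is `a + p U_p f`, the formal
Hecke trace.  The Hecke input gives `trace (phi (x^m y^M)) ∈ ℤ[j]` for `m ≤ M`, `1 ≤ M`, where
`x = (V_p j, j)` and `y = (p^12 V_p Δ / Δ, Δ / V_p Δ)`.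
-/
import Mathlib
import Fermat.Agent.S28.helper2668_UpMatrix
import Fermat.Agent.S28.helper2668_NewtonMat
import Fermat.Agent.S28.helper2668_PrimeTools

set_option autoImplicit false

namespace Fermat.Agent.S28.helper2668

open ModularCurve Polynomial Matrix
open Fermat.Agent.S28.helper328

noncomputable section

section Phi

variable {R : Type*} [CommRing R] (p : ℕ) [NeZero p]

theorem Up_coeffMap {S : Type*} [CommRing S] (ψ : R →+* S) (f : LaurentSeries R) :
    coeffMap ψ (Up p f) = Up p (coeffMap ψ f) := by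
  ext n
  rw [coeffMap_coeff, Up_coeff, Up_coeff, coeffMap_coeff]

/-- the block embedding `(a, f) ↦ diag(a, rho p f)`. -/
def phi : LaurentSeries R × LaurentSeries R →+*
    Matrix (Unit ⊕ Fin p) (Unit ⊕ Fin p) (LaurentSeries R) where
  toFun z := Matrix.fromBlocks (Matrix.diagonal fun _ : Unit => z.1) 0 0 (rho p z.2)
  map_one' := by
    rw [Prod.fst_one, Prod.snd_one, map_one, ← Matrix.fromBlocks_one]
    congr 1
  map_mul' z w := by
    rw [Prod.fst_mul, Prod.snd_mul, map_mul, Matrix.fromBlocks_multiply]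
    simp [Matrix.diagonal_mul_diagonal]
  map_zero' := by
    rw [Prod.fst_zero, Prod.snd_zero, map_zero]
    simp
  map_add' z w := by
    rw [Prod.fst_add, Prod.snd_add, map_add, Matrix.fromBlocks_add]
    simp [Matrix.diagonal_add]

theorem phi_apply (z : LaurentSeries R × LaurentSeries R) :
    phi p z = Matrix.fromBlocks (Matrix.diagonal fun _ : Unit => z.1) 0 0 (rho p z.2) := rfl

theorem phi_apply_inl (z : LaurentSeries R × LaurentSeries R) :
    phi p z (Sum.inl ()) (Sum.inl ()) = z.1 := by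
  rw [phi_apply, Matrix.fromBlocks_apply₁₁, Matrix.diagonal_apply_eq]

theorem trace_phi (z : LaurentSeries R × LaurentSeries R) :
    Matrix.trace (phi p z) = z.1 + (p : LaurentSeries R) * Up p z.2 := by
  rw [phi_apply, ← trace_rho]
  simp [Matrix.trace, Fintype.sum_sum_type]

theorem phi_injective : Function.Injective (phi (R := R) p) := by
  rw [injective_iff_map_eq_zero]
  intro z hz
  have h1 : z.1 = 0 := by rw [← phi_apply_inl p z, hz]; rfl
  have h2 : rho p z.2 = 0 := by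
    refine Matrix.ext fun a b => ?_
    have := congrFun (congrFun hz (Sum.inr a)) (Sum.inr b)
    rw [phi_apply, Matrix.fromBlocks_apply₂₂] at this
    exact this
  have h3 : z.2 = 0 := rho_injective p (by rw [h2, map_zero])
  exact Prod.ext h1 h3

theorem det_phi (z : LaurentSeries R × LaurentSeries R) :
    (phi p z).det = z.1 * (rho p z.2).det := by
  rw [phi_apply, Matrix.det_fromBlocks_zero₁₂, Matrix.det_diagonal]
  simp

theorem charpoly_phi (z : LaurentSeries R × LaurentSeries R) :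
    (phi p z).charpoly = (X - C z.1) * (rho p z.2).charpoly := by
  rw [phi_apply, Matrix.charpoly_fromBlocks_zero₁₂]
  congr 1
  rw [Matrix.charpoly, Matrix.det_unique, Matrix.charmatrix_apply_eq, Matrix.diagonal_apply_eq]

/-- the structure map `c ↦ (c, V_p c)`. -/
def iota : LaurentSeries R →+* LaurentSeries R × LaurentSeries R :=
  RingHom.prod (RingHom.id _) (qExpand R p)

theorem iota_apply (c : LaurentSeries R) : iota p c = (c, qExpand R p c) := rfl

theorem phi_iota (c : LaurentSeries R) :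
    phi p (iota p c) = algebraMap (LaurentSeries R) (Matrix (Unit ⊕ Fin p) (Unit ⊕ Fin p) _) c := by
  rw [phi_apply, iota_apply, rho_qExpand, Algebra.algebraMap_eq_smul_one]
  conv_rhs => rw [← Matrix.fromBlocks_one, Matrix.fromBlocks_smul]
  simp [Matrix.smul_one_eq_diagonal]

theorem phi_comp_iota : (phi (R := R) p).comp (iota p) = algebraMap (LaurentSeries R) _ :=
  RingHom.ext (phi_iota p)

/-- evaluation of a polynomial at a block matrix. -/
theorem aeval_phi (P : (LaurentSeries R)[X]) (z : LaurentSeries R × LaurentSeries R) :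
    aeval (phi p z) P = phi p (P.eval₂ (iota p) z) := by
  rw [Polynomial.hom_eval₂, phi_comp_iota, Polynomial.aeval_def]

theorem eval₂_iota_fst (P : (LaurentSeries R)[X]) (z : LaurentSeries R × LaurentSeries R) :
    (P.eval₂ (iota p) z).1 = P.eval z.1 := by
  have := Polynomial.hom_eval₂ P (iota p) (RingHom.fst (LaurentSeries R) (LaurentSeries R)) z
  rw [RingHom.coe_fst] at this
  rw [this]
  rfl

theorem eval₂_iota_snd (P : (LaurentSeries R)[X]) (z : LaurentSeries R × LaurentSeries R) :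
    (P.eval₂ (iota p) z).2 = (P.map (qExpand R p)).eval z.2 := by
  have := Polynomial.hom_eval₂ P (iota p) (RingHom.snd (LaurentSeries R) (LaurentSeries R)) z
  rw [RingHom.coe_snd] at this
  rw [this, Polynomial.eval_map]
  rfl

/-- Cayley–Hamilton transported through `rho`: `V_p(Ψ)(f) = 0` for `Ψ = charpoly (rho f)`. -/
theorem eval_map_qExpand_charpoly_rho (f : LaurentSeries R) :
    ((rho p f).charpoly.map (qExpand R p)).eval f = 0 := by
  apply rho_injective p
  rw [map_zero, Polynomial.eval_map, Polynomial.hom_eval₂]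
  have h : (rho (R := R) p).comp (qExpand R p) = algebraMap (LaurentSeries R) _ := by
    ext c : 1
    rw [RingHom.comp_apply, rho_qExpand, Algebra.algebraMap_eq_smul_one]
  rw [h, ← Polynomial.aeval_def]
  exact Matrix.aeval_self_charpoly _

end Phi

/-! ### The Hecke input, on Laurent series -/

section Bridge

variable (p : ℕ) [NeZero p]

theorem ofPS_E4C_pow_three :
    (HahnSeries.ofPowerSeries ℤ ℂ E4C) ^ 3 = jqModC ℂ * deltaHat ℂ := by
  rw [jqModC_mul_deltaHat, map_pow, map_pow]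
  rfl

theorem ofPS_DeltaC : HahnSeries.ofPowerSeries ℤ ℂ DeltaC = deltaHat ℂ := by
  rw [DeltaC, map_mul, PowerSeries.map_X, map_mul, HahnSeries.ofPowerSeries_X]
  rfl

theorem ofPS_heckeTps (k : ℕ) (F : PowerSeries ℂ) :
    HahnSeries.ofPowerSeries ℤ ℂ (heckeTps k p F) =
      Up p (HahnSeries.ofPowerSeries ℤ ℂ F) +
        HahnSeries.C ((p : ℂ) ^ (k - 1)) * qExpand ℂ p (HahnSeries.ofPowerSeries ℤ ℂ F) := by
  have hp : (0 : ℤ) < p := by exact_mod_cast Nat.pos_of_ne_zero (NeZero.ne p)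
  ext n
  rw [HahnSeries.coeff_add, Up_coeff, HahnSeries.C_apply, HahnSeries.coeff_single_zero_mul]
  rcases lt_or_ge n 0 with hn | hn
  · rw [ofPowerSeries_coeff_of_neg _ hn, ofPowerSeries_coeff_of_neg _ (by nlinarith), zero_add]
    by_cases hd : (p : ℤ) ∣ n
    · obtain ⟨n', rfl⟩ := hd
      rw [qExpand_coeff_mul, ofPowerSeries_coeff_of_neg _ (by nlinarith), mul_zero]
    · rw [qExpand_coeff_of_not_dvd p _ hd, mul_zero]
  · lift n to ℕ using hn
    rw [HahnSeries.ofPowerSeries_apply_coeff]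
    have h1 : (p : ℤ) * (n : ℤ) = ((n * p : ℕ) : ℤ) := by push_cast; ring
    rw [h1, HahnSeries.ofPowerSeries_apply_coeff, heckeTps, PowerSeries.coeff_mk]
    congr 1
    by_cases hd : p ∣ n
    · rw [if_pos hd]
      obtain ⟨n', rfl⟩ := hd
      have h2 : ((p * n' : ℕ) : ℤ) = (p : ℤ) * (n' : ℤ) := by push_cast; ring
      rw [h2, qExpand_coeff_mul, HahnSeries.ofPowerSeries_apply_coeff,
        Nat.mul_div_cancel_left _ (Nat.pos_of_ne_zero (NeZero.ne p))]
    · rw [if_neg hd, qExpand_coeff_of_not_dvd p _ (by exact_mod_cast hd), mul_zero]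

/-- The Hecke input on Laurent series: `U_p(j^m Δ^M) + p^(12M-1) V_p(j^m Δ^M) ∈ ℂ[j] Δ^M`. -/
theorem hecke_laurent (h : Stmt_Hecke p) (m M : ℕ) (hm : m ≤ M) (hM : 1 ≤ M) :
    ∃ P : ℂ[X], Up p (jqModC ℂ ^ m * deltaHat ℂ ^ M) +
        HahnSeries.C ((p : ℂ) ^ (12 * M - 1)) * qExpand ℂ p (jqModC ℂ ^ m * deltaHat ℂ ^ M) =
      aeval (jqModC ℂ) P * deltaHat ℂ ^ M := by
  obtain ⟨c, hc⟩ := h m M hm hM
  have key : ∀ a : ℕ, a ≤ M →
      HahnSeries.ofPowerSeries ℤ ℂ (E4C ^ (3 * a) * DeltaC ^ (M - a)) =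
        jqModC ℂ ^ a * deltaHat ℂ ^ M := by
    intro a ha
    rw [map_mul, map_pow, map_pow, pow_mul, ofPS_E4C_pow_three, ofPS_DeltaC, mul_pow, mul_assoc,
      ← pow_add, Nat.add_sub_cancel' ha]
  have h1 := congrArg (HahnSeries.ofPowerSeries ℤ ℂ) hc
  rw [ofPS_heckeTps, key m hm, map_sum] at h1
  refine ⟨∑ b ∈ Finset.range (M + 1), C (c b) * X ^ (M - b), ?_⟩
  rw [h1, map_sum, Finset.sum_mul]
  refine Finset.sum_congr rfl fun b hb => ?_
  have hb' : b ≤ M := Nat.lt_succ_iff.mp (Finset.mem_range.mp hb)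
  rw [PowerSeries.smul_eq_C_mul, map_mul, HahnSeries.ofPowerSeries_C]
  have : E4C ^ (3 * (M - b)) * DeltaC ^ b = E4C ^ (3 * (M - b)) * DeltaC ^ (M - (M - b)) := by
    rw [Nat.sub_sub_self hb']
  rw [this, key (M - b) (Nat.sub_le M b), map_mul, map_pow, aeval_X, aeval_C,
    HahnSeries.C_apply, helper3292.algebraMap_eq_single]
  ring

/-- `x = (V_p j, j)`. -/
def xel : LaurentSeries ℤ × LaurentSeries ℤ := (qExpand ℤ p (jqModC ℤ), jqModC ℤ)

/-- `y = (p^12 V_p Δ / Δ, Δ / V_p Δ)`. -/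
def yel : LaurentSeries ℤ × LaurentSeries ℤ :=
  (gHat p, deltaHat ℤ * qExpand ℤ p (deltaHatInv ℤ))

/-- **Hecke traces are polynomials in `j`.** -/
theorem trace_phi_mem (h : Stmt_Hecke p) (m M : ℕ) (hm : m ≤ M) (hM : 1 ≤ M) :
    ∃ Q : ℤ[X], Matrix.trace (phi p (xel p ^ m * yel p ^ M)) = aeval (jqModC ℤ) Q := by
  obtain ⟨P, hP⟩ := hecke_laurent p h m M hm hM
  apply tri' ℂ (C (p : ℂ) * P)
  rw [trace_phi]
  have hx1 : (xel p ^ m * yel p ^ M).1 = qExpand ℤ p (jqModC ℤ) ^ m * gHat p ^ M := rfl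
  have hx2 : (xel p ^ m * yel p ^ M).2 =
      jqModC ℤ ^ m * (deltaHat ℤ * qExpand ℤ p (deltaHatInv ℤ)) ^ M := rfl
  rw [hx1, hx2]
  simp only [map_add, map_mul, map_pow, map_natCast, gHat, coeffMap_qExpand, coeffMap_jqModC,
    coeffMap_deltaHat, coeffMap_deltaHatInv, Up_coeffMap]
  have hU : Up p (jqModC ℂ ^ m * (deltaHat ℂ * qExpand ℂ p (deltaHatInv ℂ)) ^ M) =
      deltaHatInv ℂ ^ M * Up p (jqModC ℂ ^ m * deltaHat ℂ ^ M) := by
    rw [← Up_qExpand_mul]
    congr 1
    rw [map_pow]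
    ring
  have hUP : Up p (jqModC ℂ ^ m * deltaHat ℂ ^ M) = aeval (jqModC ℂ) P * deltaHat ℂ ^ M -
      HahnSeries.C ((p : ℂ) ^ (12 * M - 1)) *
        qExpand ℂ p (jqModC ℂ ^ m * deltaHat ℂ ^ M) := by
    rw [← hP]; ring
  have hC : HahnSeries.C ((p : ℂ) ^ (12 * M - 1)) = (p : LaurentSeries ℂ) ^ (12 * M - 1) := by
    rw [map_pow, map_natCast]
  have hpow : (p : LaurentSeries ℂ) ^ (12 * M) = (p : LaurentSeries ℂ) ^ (12 * M - 1) * p := by
    rw [← pow_succ]
    congr 1
    omega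
  have hde : deltaHat ℂ ^ M * deltaHatInv ℂ ^ M = 1 := by
    rw [← mul_pow, deltaHat_mul_inv, one_pow]
  rw [hU, hUP, hC]
  simp only [map_mul, map_pow]
  linear_combination (qExpand ℂ p (jqModC ℂ) ^ m * qExpand ℂ p (deltaHat ℂ) ^ M *
    deltaHatInv ℂ ^ M) * hpow + ((p : LaurentSeries ℂ) * aeval (jqModC ℂ) P) * hde

end Bridge

end

end Fermat.Agent.S28.helper2668
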