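/-
S28 (Igusa), route P, root-free prime-level package — part 4 (helper2668).

From the Hecke traces: the characteristic polynomials of `Γ = phi y` and `J = phi x` have
coefficients in `ℤ[j]`.  Consequences: the modular polynomial `Φ_p` with `Φ_p(V_p j, j) = 0`
(F1) and `Φ_p(j, V_p j) = 0` (F2, by Cayley–Hamilton), the integrality polynomial `G` of
`ghat = p^12 V_p Δ / Δ`, and the trace identity `ghat^p Ψ(V_p j) = ∑ Ψ_i T_i(j)`.
-/
import Mathlib
import Fermat.Agent.S28.helper2668_PrimeBlocks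

set_option autoImplicit false

namespace Fermat.Agent.S28.helper2668

open ModularCurve Polynomial Matrix
open Fermat.Agent.S28.helper328

noncomputable section

theorem evalJ_apply {R : Type*} [CommRing R] (J : LaurentSeries R) (Q : ℤ[X]) :
    evalJ J Q = aeval J Q := by
  rw [evalJ, Polynomial.coe_eval₂RingHom, Polynomial.aeval_def]
  congr 1
  exact RingHom.ext_int _ _

/-- Newton + triangularity: traces of powers in `ℤ[j]` up to nonzero integer factors force the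
characteristic polynomial to have coefficients in `ℤ[j]`. -/
theorem charpoly_coeff_mem_of_trace {n : Type*} [Fintype n] [DecidableEq n]
    (Mz : Matrix n n (LaurentSeries ℤ))
    (h : ∀ k : ℕ, 0 < k → ∃ (c : ℤ) (Q : ℤ[X]), c ≠ 0 ∧
      (c : LaurentSeries ℤ) * Matrix.trace (Mz ^ k) = aeval (jqModC ℤ) Q) (i : ℕ) :
    ∃ Q : ℤ[X], Mz.charpoly.coeff i = aeval (jqModC ℤ) Q := by
  set toQ : LaurentSeries ℤ →+* LaurentSeries ℚ := coeffMap (Int.castRingHom ℚ) with htoQ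
  let S : Subring (LaurentSeries ℚ) :=
    (aeval (jqModC ℚ) : ℚ[X] →ₐ[ℚ] LaurentSeries ℚ).toRingHom.range
  have hinv : ∀ k : ℕ, 0 < k → ∃ u ∈ S, u * (k : LaurentSeries ℚ) = 1 := by
    intro k hk
    refine ⟨aeval (jqModC ℚ) (C ((k : ℚ)⁻¹)), ⟨_, rfl⟩, ?_⟩
    have hk0 : (k : ℚ) ≠ 0 := by positivity
    rw [aeval_C, ← map_natCast (algebraMap ℚ (LaurentSeries ℚ)) k, ← map_mul,
      inv_mul_cancel₀ hk0, map_one]
  have htr : ∀ k : ℕ, 0 < k → Matrix.trace ((Mz.map toQ) ^ k) ∈ S := by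
    intro k hk
    obtain ⟨c, Q, hc, hQ⟩ := h k hk
    have hpow : (Mz.map toQ) ^ k = (Mz ^ k).map toQ := by
      rw [← RingHom.mapMatrix_apply, ← RingHom.mapMatrix_apply, map_pow]
    rw [hpow, ← AddMonoidHom.map_trace]
    have h1 := congrArg toQ hQ
    rw [map_mul, map_intCast, htoQ, helper3292.coeffMap_aeval_jqModC] at h1
    refine ⟨C ((c : ℚ)⁻¹) * Q.map (Int.castRingHom ℚ), ?_⟩
    have hc0 : (c : ℚ) ≠ 0 := by exact_mod_cast hc
    show aeval (jqModC ℚ) (C ((c : ℚ)⁻¹) * Q.map (Int.castRingHom ℚ)) = _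
    rw [map_mul, aeval_C, ← h1, ← mul_assoc,
      ← map_intCast (algebraMap ℚ (LaurentSeries ℚ)) c, ← map_mul, inv_mul_cancel₀ hc0,
      map_one, one_mul]
  have hmem := coeff_charpoly_mem S hinv (Mz.map toQ) htr i
  rw [Matrix.charpoly_map, coeff_map] at hmem
  obtain ⟨P, hP⟩ := hmem
  exact tri' ℚ P _ hP.symm

section Gpart

variable (p : ℕ) [NeZero p]

theorem charpoly_Gm_coeff (h : Stmt_Hecke p) (i : ℕ) :
    ∃ Q : ℤ[X], (phi p (yel p)).charpoly.coeff i = aeval (jqModC ℤ) Q := by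
  apply charpoly_coeff_mem_of_trace
  intro k hk
  obtain ⟨Q, hQ⟩ := trace_phi_mem p h 0 k (Nat.zero_le _) hk
  refine ⟨1, Q, one_ne_zero, ?_⟩
  rw [Int.cast_one, one_mul, ← map_pow, ← hQ, pow_zero, one_mul]

theorem VB_det_of_upper {R : Type*} [CommRing R] (Mx : Matrix (Fin p) (Fin p) (LaurentSeries R))
    (h0 : ∀ a b, VB (Mx a b) 0) (h1 : ∀ a b, a ≤ b → VB (Mx a b) 1) : VB Mx.det 1 := by
  rw [Matrix.det_apply]
  apply VB.sum
  intro σ _
  have hp : 0 < p := Nat.pos_of_ne_zero (NeZero.ne p)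
  have hprod : VB (∏ i, Mx (σ i) i) 1 := by
    set i0 : Fin p := ⟨p - 1, Nat.sub_lt hp Nat.one_pos⟩ with hi0
    rw [← Finset.mul_prod_erase Finset.univ _ (Finset.mem_univ i0)]
    have hle : σ i0 ≤ i0 := by
      rw [Fin.le_def]
      have := (σ i0).isLt
      simp only [hi0]
      omega
    have := (h1 (σ i0) i0 hle).mul
      (VB.prod (Finset.univ.erase i0) (fun i => Mx (σ i) i) (fun i _ => h0 _ _))
    simpa using this
  rcases Int.units_eq_one_or (Equiv.Perm.sign σ) with hs | hs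
  · rw [hs, one_smul]; exact hprod
  · rw [hs, Units.neg_smul, one_smul]; exact hprod.neg

theorem VB_rho_deltaHat (R : Type*) [CommRing R] (a b : Fin p) :
    VB (rho p (deltaHat R) a b) 0 := by
  intro k hk
  rw [rho_coeff]
  apply VB_deltaHat R
  have h1 : ((a : ℕ) : ℤ) < p := by exact_mod_cast a.2
  have h2 : (0 : ℤ) ≤ ((b : ℕ) : ℤ) := by positivity
  have hp : (0 : ℤ) < p := by exact_mod_cast Nat.pos_of_ne_zero (NeZero.ne p)
  nlinarith

theorem VB_rho_deltaHat_of_le (R : Type*) [CommRing R] (a b : Fin p) (hab : a ≤ b) :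
    VB (rho p (deltaHat R) a b) 1 := by
  intro k hk
  rw [rho_coeff]
  apply VB_deltaHat R
  have h1 : ((a : ℕ) : ℤ) ≤ ((b : ℕ) : ℤ) := by exact_mod_cast hab
  have hp : (0 : ℤ) < p := by exact_mod_cast Nat.pos_of_ne_zero (NeZero.ne p)
  nlinarith

theorem VB_gHat : VB (gHat p) ((p : ℤ) - 1) := by
  have := ((VB.pow (VB.natCast (R := ℤ) p) 12).mul ((VB_deltaHat ℤ).qExpand p)).mul
    (VB_deltaHatInv ℤ)
  rw [gHat]
  exact this.mono (by push_cast; linarith)

theorem VB_det_Gm : VB (phi p (yel p)).det 0 := by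
  rw [det_phi]
  have hy2 : (yel p).2 = deltaHat ℤ * qExpand ℤ p (deltaHatInv ℤ) := rfl
  have hy1 : (yel p).1 = gHat p := rfl
  rw [hy1, hy2, map_mul, rho_qExpand, Matrix.det_mul, Matrix.det_smul, Matrix.det_one, mul_one,
    Fintype.card_fin]
  have h1 := VB_det_of_upper p (rho p (deltaHat ℤ)) (VB_rho_deltaHat p ℤ)
    (VB_rho_deltaHat_of_le p ℤ)
  have h2 := (VB_gHat p).mul (h1.mul ((VB_deltaHatInv ℤ).pow p))
  exact h2.mono (by linarith)

theorem det_Gm_ne_zero : (phi p (yel p)).det ≠ 0 := by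
  intro h0
  have hV : qExpand ℤ p (deltaHat ℤ) * qExpand ℤ p (deltaHatInv ℤ) = 1 := by
    rw [← map_mul, deltaHat_mul_inv, map_one]
  have hD := deltaHat_mul_inv ℤ
  have hmul : yel p * (deltaHat ℤ * qExpand ℤ p (deltaHatInv ℤ),
      deltaHatInv ℤ * qExpand ℤ p (deltaHat ℤ)) = ((p : LaurentSeries ℤ) ^ 12, 1) := by
    refine Prod.ext ?_ ?_
    · show gHat p * (deltaHat ℤ * qExpand ℤ p (deltaHatInv ℤ)) = _
      rw [gHat]
      linear_combination ((p : LaurentSeries ℤ) ^ 12 * deltaHat ℤ * deltaHatInv ℤ) * hV +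
        (p : LaurentSeries ℤ) ^ 12 * hD
    · show deltaHat ℤ * qExpand ℤ p (deltaHatInv ℤ) *
        (deltaHatInv ℤ * qExpand ℤ p (deltaHat ℤ)) = 1
      linear_combination (deltaHat ℤ * deltaHatInv ℤ) * hV + hD
  have h3 := congrArg (fun z => (phi p z).det) hmul
  simp only [map_mul, Matrix.det_mul] at h3
  rw [h0, zero_mul, det_phi, map_one, Matrix.det_one, mul_one] at h3
  have h3' : (0 : LaurentSeries ℤ) = (p : LaurentSeries ℤ) ^ 12 := h3
  have hC : ((p : LaurentSeries ℤ)) ^ 12 = HahnSeries.C ((p : ℤ) ^ 12) := by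
    rw [map_pow, map_natCast]
  rw [hC] at h3'
  have h4 : ((p : ℤ) ^ 12) = 0 := HahnSeries.C_injective (by rw [← h3', map_zero])
  exact absurd h4 (pow_ne_zero _ (by exact_mod_cast NeZero.ne p))

/-- the constant term of the characteristic polynomial of `Γ` is a nonzero integer. -/
theorem exists_const (h : Stmt_Hecke p) : ∃ c0 : ℤ, c0 ≠ 0 ∧
    (phi p (yel p)).charpoly.coeff 0 = (c0 : LaurentSeries ℤ) := by
  obtain ⟨Q, hQ⟩ := charpoly_Gm_coeff p h 0
  have hdet := Matrix.det_eq_sign_charpoly_coeff (phi p (yel p))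
  have hcoeff : (phi p (yel p)).charpoly.coeff 0 =
      (-1) ^ Fintype.card (Unit ⊕ Fin p) * (phi p (yel p)).det := by
    rw [hdet, ← mul_assoc, ← pow_add, ← two_mul, pow_mul]
    simp
  have hVB : VB ((phi p (yel p)).charpoly.coeff 0) 0 := by
    rw [hcoeff]
    have := ((VB.one (R := ℤ)).neg.pow (Fintype.card (Unit ⊕ Fin p))).mul (VB_det_Gm p)
    simpa using this
  rw [hQ] at hVB
  obtain ⟨c0, hc0⟩ := aeval_jqModC_eq_C_of_VB ℤ Q hVB
  refine ⟨c0, ?_, ?_⟩
  · rintro rfl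
    apply det_Gm_ne_zero p
    rw [hdet, hQ, hc0]
    simp
  · rw [hQ, hc0, aeval_C]
    simp

theorem charpoly_Gm_mem_lifts (h : Stmt_Hecke p) :
    (phi p (yel p)).charpoly ∈ Polynomial.lifts (evalJ (jqModC ℤ)) := by
  rw [Polynomial.lifts_iff_coeff_lifts]
  intro i
  obtain ⟨Q, hQ⟩ := charpoly_Gm_coeff p h i
  exact ⟨Q, by rw [evalJ_apply, hQ]⟩

/-- traces of powers of `J`, up to a nonzero integer factor, are polynomials in `j`. -/
theorem exists_mul_trace_Jm (h : Stmt_Hecke p) (m : ℕ) : ∃ (c : ℤ) (Q : ℤ[X]), c ≠ 0 ∧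
    (c : LaurentSeries ℤ) * Matrix.trace ((phi p (xel p)) ^ m) = aeval (jqModC ℤ) Q := by
  obtain ⟨c0, hc0, hG0⟩ := exists_const p h
  set G := (phi p (yel p)).charpoly with hG
  set M := max m 1 with hM
  have hmM : m ≤ M := le_max_left _ _
  have h1M : 1 ≤ M := le_max_right _ _
  set w := G.divX.eval₂ (iota p) (yel p) with hw
  have hyw : yel p * w = -((c0 : ℤ) : LaurentSeries ℤ × LaurentSeries ℤ) := by
    have h0 : G.eval₂ (iota p) (yel p) = 0 := by
      apply phi_injective p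
      rw [← aeval_phi, map_zero]
      exact Matrix.aeval_self_charpoly _
    have h1 : G.eval₂ (iota p) (yel p) = w * yel p + iota p (G.coeff 0) := by
      conv_lhs => rw [← Polynomial.divX_mul_X_add G]
      rw [eval₂_add, eval₂_mul, eval₂_X, eval₂_C]
    rw [h1, hG0, map_intCast] at h0
    linear_combination h0
  -- the integer factor
  refine ⟨(-c0) ^ M, ?_⟩
  have e1 : xel p ^ m * yel p ^ M * w ^ M =
      (((-c0) ^ M : ℤ) : LaurentSeries ℤ × LaurentSeries ℤ) * xel p ^ m := by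
    rw [mul_assoc, ← mul_pow, hyw]
    push_cast
    ring
  have e2 : (((-c0) ^ M : ℤ) : LaurentSeries ℤ) * Matrix.trace ((phi p (xel p)) ^ m) =
      Matrix.trace (phi p (xel p ^ m * yel p ^ M * w ^ M)) := by
    have e1' : phi p ((((-c0) ^ M : ℤ) : LaurentSeries ℤ × LaurentSeries ℤ) * xel p ^ m) =
        ((-c0) ^ M : ℤ) • phi p (xel p ^ m) := by
      rw [map_mul, map_intCast, zsmul_eq_mul]
    rw [e1, e1', Matrix.trace_smul, zsmul_eq_mul, map_pow]
  -- the right-hand side is a polynomial in `j`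
  have hlift : G.divX ^ M ∈ Polynomial.lifts (evalJ (jqModC ℤ)) := by
    apply (Polynomial.lifts (evalJ (jqModC ℤ))).pow_mem
    rw [Polynomial.lifts_iff_coeff_lifts]
    intro i
    rw [Polynomial.coeff_divX]
    exact (Polynomial.lifts_iff_coeff_lifts _).mp (charpoly_Gm_mem_lifts p h) (i + 1)
  have hcoef : ∀ k : ℕ, ∃ Q : ℤ[X], (G.divX ^ M).coeff k = aeval (jqModC ℤ) Q := by
    intro k
    obtain ⟨Q, hQ⟩ := (Polynomial.lifts_iff_coeff_lifts _).mp hlift k
    exact ⟨Q, by rw [← hQ, evalJ_apply]⟩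
  choose Qa hQa using hcoef
  have htr : ∀ k : ℕ, ∃ Q : ℤ[X],
      Matrix.trace (phi p (xel p ^ m * yel p ^ (M + k))) = aeval (jqModC ℤ) Q :=
    fun k => trace_phi_mem p h m (M + k) (le_trans hmM (Nat.le_add_right _ _))
      (le_trans h1M (Nat.le_add_right _ _))
  choose Qt hQt using htr
  refine ⟨∑ k ∈ Finset.range ((G.divX ^ M).natDegree + 1), Qa k * Qt k, ?_, ?_⟩
  · exact pow_ne_zero _ (neg_ne_zero.mpr hc0)
  · rw [e2]
    have e3 : xel p ^ m * yel p ^ M * w ^ M =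
        ∑ k ∈ Finset.range ((G.divX ^ M).natDegree + 1),
          iota p ((G.divX ^ M).coeff k) * (xel p ^ m * yel p ^ (M + k)) := by
      rw [hw, ← Polynomial.eval₂_pow, Polynomial.eval₂_eq_sum_range, Finset.mul_sum]
      refine Finset.sum_congr rfl fun k _ => ?_
      rw [pow_add]
      ring
    rw [e3, map_sum, Matrix.trace_sum, map_sum]
    refine Finset.sum_congr rfl fun k _ => ?_
    rw [map_mul, phi_iota, ← Algebra.smul_def, Matrix.trace_smul, smul_eq_mul, hQa k, hQt k,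
      map_mul]

theorem charpoly_Jm_mem_lifts (h : Stmt_Hecke p) :
    (phi p (xel p)).charpoly ∈ Polynomial.lifts (evalJ (jqModC ℤ)) := by
  rw [Polynomial.lifts_iff_coeff_lifts]
  intro i
  obtain ⟨Q, hQ⟩ := charpoly_coeff_mem_of_trace (phi p (xel p))
    (fun k _ => exists_mul_trace_Jm p h k) i
  exact ⟨Q, by rw [evalJ_apply, hQ]⟩

/-- **The modular polynomial** `Φ_p ∈ ℤ[Y][X]`: `Φ_p(X, j) = (X - V_p j) * Ψ_p`,
`Ψ_p = charpoly (rho p j)`. -/
theorem exists_Phi (h : Stmt_Hecke p) : ∃ Φ : (ℤ[X])[X], Φ.Monic ∧ Φ.natDegree = p + 1 ∧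
    Φ.map (evalJ (jqModC ℤ)) =
      (X - C (qExpand ℤ p (jqModC ℤ))) * (rho p (jqModC ℤ)).charpoly := by
  obtain ⟨Φ, h1, h2, h3⟩ := Polynomial.lifts_and_natDegree_eq_and_monic
    (charpoly_Jm_mem_lifts p h) (Matrix.charpoly_monic _)
  refine ⟨Φ, h3, ?_, ?_⟩
  · rw [h2, Matrix.charpoly_natDegree_eq_dim]
    simp [add_comm]
  · rw [h1, charpoly_phi]
    rfl

/-- **(F1) + (F2)**: `Φ_p(V_p j, j) = 0` and `Φ_p(j, V_p j) = 0` over `ℤ`. -/
theorem primeRel_of_hecke (h : Stmt_Hecke p) : ∃ Φ : (ℤ[X])[X], Φ.Monic ∧ Φ.natDegree = p + 1 ∧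
    (Φ.map (evalJ (jqModC ℤ))).eval (qExpand ℤ p (jqModC ℤ)) = 0 ∧
    (Φ.map (evalJ (qExpand ℤ p (jqModC ℤ)))).eval (jqModC ℤ) = 0 := by
  obtain ⟨Φ, h1, h2, h3⟩ := exists_Phi p h
  refine ⟨Φ, h1, h2, ?_, ?_⟩
  · rw [h3, eval_mul, eval_sub, eval_X, eval_C, sub_self, zero_mul]
  · have hcomp : evalJ (qExpand ℤ p (jqModC ℤ)) = (qExpand ℤ p).comp (evalJ (jqModC ℤ)) := by
      apply Polynomial.ringHom_ext
      · intro a
        simp [evalJ]
      · simp [evalJ]
    rw [hcomp, ← Polynomial.map_map, h3, Polynomial.map_mul, eval_mul,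
      eval_map_qExpand_charpoly_rho, mul_zero]

/-- integrality of `ghat` over `ℤ[j]`. -/
theorem exists_G (h : Stmt_Hecke p) : ∃ G : (ℤ[X])[X], G.Monic ∧
    (G.map (evalJ (jqModC ℤ))).eval (gHat p) = 0 := by
  obtain ⟨G, h1, -, h3⟩ := Polynomial.lifts_and_natDegree_eq_and_monic
    (charpoly_Gm_mem_lifts p h) (Matrix.charpoly_monic _)
  refine ⟨G, h3, ?_⟩
  rw [h1]
  have h0 : (phi p (yel p)).charpoly.eval₂ (iota p) (yel p) = 0 := by
    apply phi_injective p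
    rw [← aeval_phi, map_zero]
    exact Matrix.aeval_self_charpoly _
  have := congrArg Prod.fst h0
  rw [eval₂_iota_fst] at this
  exact this

/-- the trace identity `ghat^p Ψ(V_p j) = ∑_{i ≤ p} Ψ_i T_i(j)`. -/
theorem exists_T (h : Stmt_Hecke p) : ∃ T : ℕ → ℤ[X],
    gHat p ^ p * (rho p (jqModC ℤ)).charpoly.eval (qExpand ℤ p (jqModC ℤ)) =
      ∑ i ∈ Finset.range (p + 1), (rho p (jqModC ℤ)).charpoly.coeff i * aeval (jqModC ℤ) (T i) := by
  have hp1 : 1 ≤ p := Nat.one_le_iff_ne_zero.mpr (NeZero.ne p)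
  have htr : ∀ i : ℕ, ∃ Q : ℤ[X], i ≤ p →
      Matrix.trace (phi p (xel p ^ i * yel p ^ p)) = aeval (jqModC ℤ) Q := by
    intro i
    by_cases hi : i ≤ p
    · obtain ⟨Q, hQ⟩ := trace_phi_mem p h i p hi hp1
      exact ⟨Q, fun _ => hQ⟩
    · exact ⟨0, fun h' => absurd h' hi⟩
  choose T hT using htr
  refine ⟨T, ?_⟩
  set Ψ := (rho p (jqModC ℤ)).charpoly with hΨ
  have hdeg : Ψ.natDegree = p := by
    rw [hΨ, Matrix.charpoly_natDegree_eq_dim, Fintype.card_fin]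
  have hev : Ψ.eval₂ (iota p) (xel p) = (Ψ.eval (qExpand ℤ p (jqModC ℤ)), 0) := by
    refine Prod.ext ?_ ?_
    · rw [eval₂_iota_fst]; rfl
    · rw [eval₂_iota_snd]
      exact eval_map_qExpand_charpoly_rho p (jqModC ℤ)
  have e1 : phi p (yel p ^ p) * aeval (phi p (xel p)) Ψ =
      phi p (gHat p ^ p * Ψ.eval (qExpand ℤ p (jqModC ℤ)), 0) := by
    rw [aeval_phi, hev, ← map_mul]
    congr 1
    refine Prod.ext ?_ ?_
    · rfl
    · show ((yel p) ^ p).2 * 0 = 0
      rw [mul_zero]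
  have e2 : phi p (yel p ^ p) * aeval (phi p (xel p)) Ψ =
      ∑ i ∈ Finset.range (p + 1), Ψ.coeff i • phi p (xel p ^ i * yel p ^ p) := by
    rw [Polynomial.aeval_eq_sum_range, hdeg, Finset.mul_sum]
    refine Finset.sum_congr rfl fun i _ => ?_
    rw [mul_smul_comm, ← map_pow, ← map_mul, mul_comm]
  have e3 := congrArg Matrix.trace (e1.symm.trans e2)
  rw [trace_phi, Up_zero, mul_zero, add_zero, Matrix.trace_sum] at e3
  refine Eq.trans e3 ?_
  refine Finset.sum_congr rfl fun i hi => ?_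
  rw [Matrix.trace_smul, smul_eq_mul, hT i (Nat.lt_succ_iff.mp (Finset.mem_range.mp hi))]

end Gpart

end

end Fermat.Agent.S28.helper2668
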