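/-
S28 (Igusa), route P, root-free prime-level package — part 5 (helper2668): the final statements.

For every prime `p`, UNCONDITIONALLY (the Hecke input `helper328.Stmt_Hecke p` is
`helper2627.stmt_Hecke`):

* `primeRel p`   : a monic `Φ_p ∈ ℤ[Y][X]` of `X`-degree `p + 1` with
                   `Φ_p(V_p j, j) = 0` (F1) and `Φ_p(j, V_p j) = 0` (F2) in `ℤ((q))`;
* `nonrat p l`   : for a prime `l ≠ p`, `V_p j̄ ∉ 𝔽_l(j̄)` inside `𝔽_l((q))` (F3 = prime-level Igusa);
* `nonrat_field` : the same over any field in which `p ≠ 0`.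

No roots of unity, no twists, no root formula: the conjugates `j(ζ^b q^(1/p))` are replaced by the
matrix `rho p j` of multiplication by `j` on `R((q))` over `V_p(R((q)))`, and Cayley–Hamilton.
-/
import Mathlib
import Fermat.Agent.S28.helper2668_PrimePoly
import Fermat.Agent.S28.helper2627_HeckeInput

set_option autoImplicit false

namespace Fermat.Agent.S28.helper2668

open ModularCurve Polynomial Matrix
open Fermat.Agent.S28.helper328

noncomputable section

theorem isIntegralElem_pow {A B : Type*} [CommRing A] [CommRing B] (f : A →+* B) {x : B}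
    (hx : f.IsIntegralElem x) (n : ℕ) : f.IsIntegralElem (x ^ n) := by
  induction n with
  | zero => rw [pow_zero]; exact f.isIntegralElem_one
  | succ n ih => rw [pow_succ]; exact RingHom.IsIntegralElem.mul f ih hx

/-- `κ[j]` is integrally closed in `κ(j)`: an element of `κ(j) ⊆ κ((q))` which is integral over
`κ[j]` is a polynomial in `j`. -/
theorem mem_range_aeval_of_isIntegralElem (κ : Type*) [Field κ] (z : LaurentSeries κ)
    (hz : z ∈ IntermediateField.adjoin κ {jqModC κ})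
    (hint : ((aeval (jqModC κ) : κ[X] →ₐ[κ] LaurentSeries κ) :
      κ[X] →+* LaurentSeries κ).IsIntegralElem z) :
    ∃ a : κ[X], z = aeval (jqModC κ) a := by
  have hinj : Function.Injective ((aeval (jqModC κ) : κ[X] →ₐ[κ] LaurentSeries κ) :
      κ[X] →+* LaurentSeries κ) := helper3292.aeval_jqModC_injective κ
  obtain ⟨r, s, hrs⟩ := (IntermediateField.mem_adjoin_simple_iff κ z).mp hz
  obtain ⟨P, hPm, hP⟩ := hint
  obtain ⟨L, hLalg⟩ : ∃ L : RatFunc κ →+* LaurentSeries κ,
      ∀ x, L (algebraMap κ[X] (RatFunc κ) x) = aeval (jqModC κ) x :=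
    ⟨IsFractionRing.lift hinj, IsFractionRing.lift_algebraMap hinj⟩
  have hLρ : L (algebraMap κ[X] (RatFunc κ) r / algebraMap κ[X] (RatFunc κ) s) = z := by
    rw [map_div₀, hLalg, hLalg, hrs]
  have hcomp : L.comp (algebraMap κ[X] (RatFunc κ)) =
      ((aeval (jqModC κ) : κ[X] →ₐ[κ] LaurentSeries κ) : κ[X] →+* LaurentSeries κ) :=
    RingHom.ext hLalg
  have hroot : aeval (algebraMap κ[X] (RatFunc κ) r / algebraMap κ[X] (RatFunc κ) s) P = 0 := by
    apply L.injective
    rw [map_zero, Polynomial.aeval_def, Polynomial.hom_eval₂, hcomp, hLρ]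
    exact hP
  obtain ⟨a, ha⟩ := isInteger_of_is_root_of_monic hPm hroot
  refine ⟨a, ?_⟩
  rw [← hLρ, ← ha, hLalg]

theorem gHat_mul (p : ℕ) [NeZero p] :
    gHat p * (deltaHat ℤ * qExpand ℤ p (deltaHatInv ℤ)) = (p : LaurentSeries ℤ) ^ 12 := by
  have hV : qExpand ℤ p (deltaHat ℤ) * qExpand ℤ p (deltaHatInv ℤ) = 1 := by
    rw [← map_mul, deltaHat_mul_inv, map_one]
  have hD := deltaHat_mul_inv ℤ
  rw [gHat]
  linear_combination ((p : LaurentSeries ℤ) ^ 12 * deltaHat ℤ * deltaHatInv ℤ) * hV +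
    (p : LaurentSeries ℤ) ^ 12 * hD

/-- **(F3), prime-level Igusa**, from the Hecke input: over a field `κ` in which `p ≠ 0`,
`V_p j ∉ κ(j)`. -/
theorem nonrat_of_hecke (p : ℕ) [NeZero p] (h : Stmt_Hecke p) (hp2 : 2 ≤ p)
    (κ : Type*) [Field κ] (hpκ : (p : κ) ≠ 0) :
    qExpand κ p (jqModC κ) ∉ IntermediateField.adjoin κ {jqModC κ} := by
  intro hmem
  set bar : LaurentSeries ℤ →+* LaurentSeries κ := coeffMap (Int.castRingHom κ) with hbar
  set k0 := IntermediateField.adjoin κ {jqModC κ} with hk0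
  obtain ⟨Φ, hΦm, hΦd, hΦ⟩ := exists_Phi p h
  obtain ⟨G, hGm, hG⟩ := exists_G p h
  obtain ⟨T, hT⟩ := exists_T p h
  set Ψ := (rho p (jqModC ℤ)).charpoly with hΨ
  set Ψκ := (rho p (jqModC κ)).charpoly with hΨκ
  have hbj : bar (jqModC ℤ) = jqModC κ := coeffMap_jqModC _
  have hbV : ∀ x, bar (qExpand ℤ p x) = qExpand κ p (bar x) := fun x => coeffMap_qExpand _ p x
  have hΨmap : Ψ.map bar = Ψκ := by
    rw [hΨ, ← Matrix.charpoly_map, rho_coeffMap, hbj]
  have hevalJ : bar.comp (evalJ (jqModC ℤ)) = evalJ (jqModC κ) := by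
    apply Polynomial.ringHom_ext
    · intro a
      simp [evalJ]
    · simp [evalJ, hbj]
  set c := qExpand κ p (jqModC κ) with hc
  -- (A1) the factorisation of `Φ_p(X, j)` over `κ`
  have hΦκ : Φ.map (evalJ (jqModC κ)) = Ψκ * (X - C c) := by
    rw [← hevalJ, ← Polynomial.map_map, hΦ, Polynomial.map_mul, Polynomial.map_sub,
      Polynomial.map_X, Polynomial.map_C, hbV, hbj, hΨmap, mul_comm]
  -- (A4) `Ψ(V_p j) ≠ 0`
  have hE0 : Ψκ.eval c ≠ 0 := by
    rw [hΨκ, Matrix.eval_charpoly, Matrix.scalar_apply, ← Matrix.smul_one_eq_diagonal,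
      ← rho_qExpand, ← map_sub]
    have hu : qExpand κ p c - jqModC κ ≠ 0 := by
      intro h0
      have h1 := congrArg (fun s : LaurentSeries κ => s.coeff (-1)) h0
      simp only [HahnSeries.coeff_sub, HahnSeries.coeff_zero] at h1
      have hnd : ¬ (p : ℤ) ∣ (-1 : ℤ) := by
        intro hd
        have h2 : (2 : ℤ) ≤ p := by exact_mod_cast hp2
        have := Int.le_of_dvd one_pos ((dvd_neg).mp hd)
        omega
      rw [qExpand_coeff_of_not_dvd p c hnd, coeff_jqModC_neg_one] at h1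
      simp at h1
    exact ((Matrix.isUnit_iff_isUnit_det _).mp
      ((isUnit_iff_ne_zero.mpr hu).map (rho p))).ne_zero
  -- (A2) integrality of `ḡ`
  set gκ := bar (gHat p) with hgκ
  have hGκ : (G.map (evalJ (jqModC κ))).eval gκ = 0 := by
    rw [← hevalJ, ← Polynomial.map_map, Polynomial.eval_map, Polynomial.eval₂_at_apply, hG,
      map_zero]
  -- (A3) the trace identity over `κ`
  have hTκ : gκ ^ p * Ψκ.eval c = ∑ i ∈ Finset.range (p + 1),
      Ψκ.coeff i * aeval (jqModC κ) ((T i).map (Int.castRingHom κ)) := by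
    have h1 := congrArg bar hT
    rw [map_mul, map_pow, ← Polynomial.eval₂_at_apply, ← Polynomial.eval_map, hΨmap, hbV, hbj,
      map_sum] at h1
    rw [h1]
    refine Finset.sum_congr rfl fun i _ => ?_
    rw [map_mul, ← Polynomial.coeff_map, hΨmap, hbar, helper3292.coeffMap_aeval_jqModC]
  -- (B1) coefficients of `Ψ` lie in `κ(j)`
  have hcoeffΦ : ∀ i, (Φ.map (evalJ (jqModC κ))).coeff i ∈ k0 := by
    intro i
    rw [Polynomial.coeff_map, evalJ_apply, Polynomial.aeval_def, Polynomial.eval₂_eq_sum_range]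
    refine sum_mem fun n _ => mul_mem ?_
      (pow_mem (IntermediateField.mem_adjoin_simple_self κ _) n)
    rw [eq_intCast (algebraMap ℤ (LaurentSeries κ))]
    exact intCast_mem k0 _
  have hΨcoeff : ∀ d i, Ψκ.natDegree + 1 ≤ i + d → Ψκ.coeff i ∈ k0 := by
    intro d
    induction d with
    | zero =>
      intro i hi
      rw [Polynomial.coeff_eq_zero_of_natDegree_lt (by omega)]
      exact zero_mem k0
    | succ d ih =>
      intro i hi
      have h1 := hcoeffΦ (i + 1)
      rw [hΦκ, Polynomial.coeff_mul_X_sub_C] at h1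
      have h2 := ih (i + 1) (by omega)
      have h3 : Ψκ.coeff i = (Ψκ.coeff i - Ψκ.coeff (i + 1) * c) + Ψκ.coeff (i + 1) * c := by
        ring
      rw [h3]
      exact add_mem h1 (mul_mem h2 hmem)
  have hΨk0 : ∀ i, Ψκ.coeff i ∈ k0 := fun i => hΨcoeff (Ψκ.natDegree + 1) i (by omega)
  have hE : Ψκ.eval c ∈ k0 := by
    rw [Polynomial.eval_eq_sum_range]
    exact sum_mem fun i _ => mul_mem (hΨk0 i) (pow_mem hmem i)
  have hN : ∑ i ∈ Finset.range (p + 1),
      Ψκ.coeff i * aeval (jqModC κ) ((T i).map (Int.castRingHom κ)) ∈ k0 := by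
    refine sum_mem fun i _ => mul_mem (hΨk0 i) ?_
    exact IntermediateField.algebra_adjoin_le_adjoin κ _
      (Polynomial.aeval_mem_adjoin_singleton κ _)
  -- (B4) `ḡ^p ∈ κ(j)`
  have hz : gκ ^ p ∈ k0 := by
    have h1 : gκ ^ p = (∑ i ∈ Finset.range (p + 1),
        Ψκ.coeff i * aeval (jqModC κ) ((T i).map (Int.castRingHom κ))) / Ψκ.eval c :=
      eq_div_of_mul_eq hE0 hTκ
    rw [h1]
    exact div_mem hN hE
  -- (B5) `ḡ^p ∈ κ[j]`
  have hint : ((aeval (jqModC κ) : κ[X] →ₐ[κ] LaurentSeries κ) :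
      κ[X] →+* LaurentSeries κ).IsIntegralElem gκ := by
    refine ⟨G.map (Polynomial.mapRingHom (Int.castRingHom κ)), hGm.map _, ?_⟩
    rw [Polynomial.eval₂_map]
    have hcomp : ((aeval (jqModC κ) : κ[X] →ₐ[κ] LaurentSeries κ) :
        κ[X] →+* LaurentSeries κ).comp (Polynomial.mapRingHom (Int.castRingHom κ)) =
        evalJ (jqModC κ) := by
      apply Polynomial.ringHom_ext
      · intro a
        simp [evalJ]
      · simp [evalJ]
    rw [hcomp, ← Polynomial.eval_map]
    exact hGκ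
  obtain ⟨a, ha⟩ := mem_range_aeval_of_isIntegralElem κ (gκ ^ p) hz (isIntegralElem_pow _ hint p)
  -- (B6) orders
  have hVBg : VB (gκ ^ p) 1 := by
    have h1 := ((VB_gHat p).coeffMap (Int.castRingHom κ)).pow p
    refine h1.mono ?_
    have : (2 : ℤ) ≤ p := by exact_mod_cast hp2
    nlinarith
  rw [ha] at hVBg
  obtain ⟨c', hc'⟩ := aeval_jqModC_eq_C_of_VB κ a (hVBg.mono (by norm_num))
  have hc0 : c' = 0 := by
    have h1 := hVBg 0 (by norm_num)
    rw [hc', aeval_C, helper3292.algebraMap_eq_single, HahnSeries.coeff_single_same] at h1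
    exact h1
  have hg0 : gκ = 0 := by
    have h1 : gκ ^ p = 0 := by rw [ha, hc', hc0, map_zero, map_zero]
    exact (pow_eq_zero_iff (NeZero.ne p)).mp h1
  have h5 := congrArg bar (gHat_mul p)
  rw [map_mul, ← hgκ, hg0, zero_mul, map_pow, map_natCast] at h5
  have hC : ((p : LaurentSeries κ)) ^ 12 = HahnSeries.C ((p : κ) ^ 12) := by
    rw [map_pow, map_natCast]
  rw [hC] at h5
  exact pow_ne_zero 12 hpκ (HahnSeries.C_injective (by rw [← h5, map_zero]))

/-! ### Unconditional statements -/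

/-- **(F1) + (F2)** for every prime `p`. -/
theorem primeRel (p : ℕ) [hp : Fact p.Prime] :
    ∃ Φ : Polynomial (Polynomial ℤ), Φ.Monic ∧ Φ.natDegree = p + 1 ∧
      (Φ.map (evalJ (jqModC ℤ))).eval (qExpand ℤ p (jqModC ℤ)) = 0 ∧
      (Φ.map (evalJ (qExpand ℤ p (jqModC ℤ)))).eval (jqModC ℤ) = 0 :=
  primeRel_of_hecke p (helper2627.stmt_Hecke p)

/-- **(F3)** over any field in which `p ≠ 0`. -/
theorem nonrat_field (p : ℕ) [hp : Fact p.Prime] (κ : Type*) [Field κ] (hpκ : (p : κ) ≠ 0) :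
    qExpand κ p (jqModC κ) ∉ IntermediateField.adjoin κ {jqModC κ} :=
  nonrat_of_hecke p (helper2627.stmt_Hecke p) hp.out.two_le κ hpκ

/-- **(F3) = prime-level Igusa**: `V_p j̄ ∉ 𝔽_l(j̄)` for primes `l ≠ p`. -/
theorem nonrat (p l : ℕ) [hp : Fact p.Prime] [hl : Fact l.Prime] (hpl : p ≠ l) :
    qExpand (ZMod l) p (jqModC (ZMod l)) ∉
      IntermediateField.adjoin (ZMod l) {jqModC (ZMod l)} := by
  apply nonrat_field p (ZMod l)
  rw [Ne, ZMod.natCast_eq_zero_iff]
  intro hd
  exact hpl ((Nat.prime_dvd_prime_iff_eq hl.out hp.out).mp hd).symm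

end

end Fermat.Agent.S28.helper2668
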