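import Fermat.Statements.S28

set_option autoImplicit false
open AlgebraicGeometry CategoryTheory CategoryTheory.Limits ModularCurve ModularCurve.IgusaScheme
open scoped TensorProduct

noncomputable section

namespace Fermat.Agent.S28.helper268

/-- A space covered by two open preirreducible sets with nonempty intersection is
preirreducible. -/
theorem preirreducibleSpace_of_two_open {X : Type*} [TopologicalSpace X] {S T : Set X}
    (hS : IsPreirreducible S) (hT : IsPreirreducible T) (hSo : IsOpen S) (hTo : IsOpen T)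
    (hcov : S ∪ T = Set.univ) (hne : (S ∩ T).Nonempty) : PreirreducibleSpace X := by
  have key : ∀ U : Set X, IsOpen U → U.Nonempty → (S ∩ (U ∩ T)).Nonempty := by
    intro U hU ⟨x, hx⟩
    have hx' : x ∈ S ∪ T := hcov ▸ Set.mem_univ x
    rcases hx' with hxS | hxT
    · exact hS U T hU hTo ⟨x, hxS, hx⟩ hne
    · obtain ⟨y, hyT, hyU, hyS⟩ := hT U S hU hSo ⟨x, hxT, hx⟩ (by rwa [Set.inter_comm])
      exact ⟨y, hyS, hyU, hyT⟩
  refine PreirreducibleSpace.of_forall_nonempty_inter fun U V hU hV hUne hVne => ?_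
  obtain ⟨y, hyS, hyU, hyV⟩ := hS (U ∩ T) (V ∩ T) (hU.inter hTo) (hV.inter hTo)
    (key U hU hUne) (key V hV hVne)
  exact ⟨y, hyU.1, hyV.1⟩

variable (N : ℕ) [NeZero N] (ℓ : ℕ) [Fact ℓ.Prime]

/-- The two-chart open cover of the Igusa scheme. -/
def chartCover : (ModularCurve.IgusaScheme N ℓ).OpenCover :=
  Scheme.Cover.mkOfCovers Bool (fun b => bif b then XFin N ℓ else XInf N ℓ)
    (fun b => match b with
      | true => ιFin N ℓ
      | false => ιInf N ℓ)
    (fun x => by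
      rcases mem_range_ιFin_or_mem_range_ιInf N ℓ x with ⟨y, hy⟩ | ⟨y, hy⟩
      · exact ⟨true, y, hy⟩
      · exact ⟨false, y, hy⟩)
    (fun b => by
      cases b
      · exact isOpenImmersion_ιInf N ℓ
      · exact isOpenImmersion_ιFin N ℓ)

variable (K : Type) [Field K] [Algebra ↥(GaloisRep.ratLocalizedAt ℓ) K]

/-- The base-change morphism `Spec K ⟶ Spec ℤ_(ℓ)`. -/
abbrev baseK : Spec (CommRingCat.of K) ⟶ Spec (CommRingCat.of ↥(GaloisRep.ratLocalizedAt ℓ)) :=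
  Spec.map (CommRingCat.ofHom (algebraMap ↥(GaloisRep.ratLocalizedAt ℓ) K))

/-- The pulled-back two-chart cover. -/
def pbCover : (pullback (igusaTo N ℓ) (baseK ℓ K)).OpenCover :=
  Scheme.Pullback.openCoverOfLeft (chartCover N ℓ) (igusaTo N ℓ) (baseK ℓ K)

def finIso : (pbCover N ℓ K).X true ≅
    Spec (CommRingCat.of (↥(chartAlgFin N ℓ) ⊗[↥(GaloisRep.ratLocalizedAt ℓ)] K)) :=
  pullback.congrHom (ιFin_igusaTo N ℓ) rfl ≪≫
    pullbackSpecIso ↥(GaloisRep.ratLocalizedAt ℓ) ↥(chartAlgFin N ℓ) K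

def infIso : (pbCover N ℓ K).X false ≅
    Spec (CommRingCat.of (↥(chartAlgInf N ℓ) ⊗[↥(GaloisRep.ratLocalizedAt ℓ)] K)) :=
  pullback.congrHom (ιInf_igusaTo N ℓ) rfl ≪≫
    pullbackSpecIso ↥(GaloisRep.ratLocalizedAt ℓ) ↥(chartAlgInf N ℓ) K

theorem fFin_ιFin_igusaTo :
    fFin N ℓ ≫ ιFin N ℓ ≫ igusaTo N ℓ =
      Spec.map (CommRingCat.ofHom (algebraMap ↥(GaloisRep.ratLocalizedAt ℓ) ↥(chartAlgMid N ℓ))) := by
  rw [ιFin_igusaTo, ← Spec.map_comp, ← CommRingCat.ofHom_comp]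
  congr 2

theorem fInf_ιInf_igusaTo :
    fInf N ℓ ≫ ιInf N ℓ ≫ igusaTo N ℓ =
      Spec.map (CommRingCat.ofHom (algebraMap ↥(GaloisRep.ratLocalizedAt ℓ) ↥(chartAlgMid N ℓ))) := by
  rw [ιInf_igusaTo, ← Spec.map_comp, ← CommRingCat.ofHom_comp]
  congr 2

/-- The middle piece `Spec (chartAlgMid) ×_{ℤ_(ℓ)} Spec K`. -/
abbrev midPb : Scheme :=
  pullback (Spec.map (CommRingCat.ofHom
    (algebraMap ↥(GaloisRep.ratLocalizedAt ℓ) ↥(chartAlgMid N ℓ)))) (baseK ℓ K)

def midToFin : midPb N ℓ K ⟶ pullback (ιFin N ℓ ≫ igusaTo N ℓ) (baseK ℓ K) :=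
  pullback.map _ _ (ιFin N ℓ ≫ igusaTo N ℓ) (baseK ℓ K) (fFin N ℓ) (𝟙 _) (𝟙 _)
    (by rw [Category.comp_id, fFin_ιFin_igusaTo]) (by simp)

def midToInf : midPb N ℓ K ⟶ pullback (ιInf N ℓ ≫ igusaTo N ℓ) (baseK ℓ K) :=
  pullback.map _ _ (ιInf N ℓ ≫ igusaTo N ℓ) (baseK ℓ K) (fInf N ℓ) (𝟙 _) (𝟙 _)
    (by rw [Category.comp_id, fInf_ιInf_igusaTo]) (by simp)

/-- The chart inclusion after base change (`Fin` chart). -/
abbrev pbFin : pullback (ιFin N ℓ ≫ igusaTo N ℓ) (baseK ℓ K) ⟶ pullback (igusaTo N ℓ) (baseK ℓ K) :=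
  pullback.map (ιFin N ℓ ≫ igusaTo N ℓ) (baseK ℓ K) (igusaTo N ℓ) (baseK ℓ K) (ιFin N ℓ) (𝟙 _) (𝟙 _)
    (by simp) (by simp)

/-- The chart inclusion after base change (`Inf` chart). -/
abbrev pbInf : pullback (ιInf N ℓ ≫ igusaTo N ℓ) (baseK ℓ K) ⟶ pullback (igusaTo N ℓ) (baseK ℓ K) :=
  pullback.map (ιInf N ℓ ≫ igusaTo N ℓ) (baseK ℓ K) (igusaTo N ℓ) (baseK ℓ K) (ιInf N ℓ) (𝟙 _) (𝟙 _)
    (by simp) (by simp)

theorem pbCover_f_true : (pbCover N ℓ K).f true = pbFin N ℓ K := rfl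

theorem pbCover_f_false : (pbCover N ℓ K).f false = pbInf N ℓ K := rfl

theorem midToFin_comp :
    midToFin N ℓ K ≫ pbFin N ℓ K = midToInf N ℓ K ≫ pbInf N ℓ K := by
  apply pullback.hom_ext
  · simp only [midToFin, midToInf, pbFin, pbInf, pullback.map, Category.assoc,
      pullback.lift_fst, pullback.lift_fst_assoc]
    rw [glue_condition]
  · simp only [midToFin, midToInf, pbFin, pbInf, pullback.map, Category.assoc,
      pullback.lift_snd, Category.comp_id]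

/-- **Scheme glue for S28.** The base change of the Igusa scheme to `Spec K` is integral as soon
as the two chart tensor rings are domains and the overlap tensor ring is nontrivial. -/
theorem isIntegral_pullback_of_charts
    (hFin : IsDomain (↥(chartAlgFin N ℓ) ⊗[↥(GaloisRep.ratLocalizedAt ℓ)] K))
    (hInf : IsDomain (↥(chartAlgInf N ℓ) ⊗[↥(GaloisRep.ratLocalizedAt ℓ)] K))
    (hMid : Nontrivial (↥(chartAlgMid N ℓ) ⊗[↥(GaloisRep.ratLocalizedAt ℓ)] K)) :
    IsIntegral ↑(pullback (igusaTo N ℓ)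
      (Spec.map (CommRingCat.ofHom (algebraMap ↥(GaloisRep.ratLocalizedAt ℓ) K)))) := by
  have hIntFin : IsIntegral (pullback (ιFin N ℓ ≫ igusaTo N ℓ) (baseK ℓ K)) := by
    have h0 : IsIntegral (Spec (CommRingCat.of
        (↥(chartAlgFin N ℓ) ⊗[↥(GaloisRep.ratLocalizedAt ℓ)] K))) :=
      @instIsIntegralSpecOfIsDomainCarrier _ hFin
    have h1 : IsIso (finIso N ℓ K).inv := inferInstance
    exact @IsIntegral.of_isIso _ _ h0 (finIso N ℓ K).inv h1
  have hIntInf : IsIntegral (pullback (ιInf N ℓ ≫ igusaTo N ℓ) (baseK ℓ K)) := by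
    have h0 : IsIntegral (Spec (CommRingCat.of
        (↥(chartAlgInf N ℓ) ⊗[↥(GaloisRep.ratLocalizedAt ℓ)] K))) :=
      @instIsIntegralSpecOfIsDomainCarrier _ hInf
    have h1 : IsIso (infIso N ℓ K).inv := inferInstance
    exact @IsIntegral.of_isIso _ _ h0 (infIso N ℓ K).inv h1
  have hred : ∀ i, IsReduced ((pbCover N ℓ K).X i) := by
    intro i
    cases i
    · exact (inferInstance : IsReduced (pullback (ιInf N ℓ ≫ igusaTo N ℓ) (baseK ℓ K)))
    · exact (inferInstance : IsReduced (pullback (ιFin N ℓ ≫ igusaTo N ℓ) (baseK ℓ K)))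
  have hredX : IsReduced (pullback (igusaTo N ℓ) (baseK ℓ K)) :=
    IsReduced.of_openCover _ (pbCover N ℓ K)
  -- a point in the overlap
  have hz : Nonempty (midPb N ℓ K) := by
    have h0 : Nonempty (Spec (CommRingCat.of
        (↥(chartAlgMid N ℓ) ⊗[↥(GaloisRep.ratLocalizedAt ℓ)] K))) :=
      inferInstanceAs (Nonempty (PrimeSpectrum
        (↥(chartAlgMid N ℓ) ⊗[↥(GaloisRep.ratLocalizedAt ℓ)] K)))
    exact ⟨(pullbackSpecIso ↥(GaloisRep.ratLocalizedAt ℓ) ↥(chartAlgMid N ℓ) K).inv.base h0.some⟩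
  obtain ⟨z⟩ := hz
  have hSo : IsOpen (Set.range (pbFin N ℓ K).base) := by
    have : IsOpenImmersion (pbFin N ℓ K) := (pbCover N ℓ K).map_prop true
    exact (pbFin N ℓ K).isOpenEmbedding.isOpen_range
  have hTo : IsOpen (Set.range (pbInf N ℓ K).base) := by
    have : IsOpenImmersion (pbInf N ℓ K) := (pbCover N ℓ K).map_prop false
    exact (pbInf N ℓ K).isOpenEmbedding.isOpen_range
  have hS : IsPreirreducible (Set.range (pbFin N ℓ K).base) := by
    rw [← Set.image_univ]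
    exact ((IrreducibleSpace.isIrreducible_univ _).image _
      (pbFin N ℓ K).continuous.continuousOn).isPreirreducible
  have hT : IsPreirreducible (Set.range (pbInf N ℓ K).base) := by
    rw [← Set.image_univ]
    exact ((IrreducibleSpace.isIrreducible_univ _).image _
      (pbInf N ℓ K).continuous.continuousOn).isPreirreducible
  have hcov : Set.range (pbFin N ℓ K).base ∪ Set.range (pbInf N ℓ K).base = Set.univ := by
    rw [Set.eq_univ_iff_forall]
    intro x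
    obtain ⟨i, y, hy⟩ := (pbCover N ℓ K).exists_eq x
    cases i
    · exact Or.inr ⟨y, hy⟩
    · exact Or.inl ⟨y, hy⟩
  have hne : (Set.range (pbFin N ℓ K).base ∩ Set.range (pbInf N ℓ K).base).Nonempty := by
    refine ⟨(midToFin N ℓ K ≫ pbFin N ℓ K).base z, ⟨(midToFin N ℓ K).base z, rfl⟩, ?_⟩
    rw [midToFin_comp]
    exact ⟨(midToInf N ℓ K).base z, rfl⟩
  have hpre : PreirreducibleSpace ↥(pullback (igusaTo N ℓ) (baseK ℓ K)) :=
    preirreducibleSpace_of_two_open hS hT hSo hTo hcov hne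
  have hirr : IrreducibleSpace ↥(pullback (igusaTo N ℓ) (baseK ℓ K)) :=
    ⟨⟨(midToFin N ℓ K ≫ pbFin N ℓ K).base z⟩⟩
  exact isIntegral_of_irreducibleSpace_of_isReduced _

end Fermat.Agent.S28.helper268
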