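/-
S28 (Igusa), route P, leaf P4 sub-lemmas (helper2690): Newton transfer.

Pure algebra, Mathlib only.  For a finite family `r : ι → A` in a commutative ring and a subring
`R₀` in which the positive integers are invertible:

* `esymmFam_mem_of_psum_mem` : all power sums in `R₀` ⟹ all elementary symmetric functions in `R₀`;
* `coeff_prod_X_sub_C_mem`   : hence all coefficients of `∏ (X - C (r i))` are in `R₀`;
* `mixedSum_mem`             : for two families `x, y` with `∑ x_i^m y_i^M ∈ R₀` whenever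
                               `m ≤ M`, `1 ≤ M`, and `∏ y_i` invertible in `R₀`: ALL mixed sums are
                               in `R₀`;
* `esymmFam_mem_of_mixed`    : hence the elementary symmetric functions of `x` are in `R₀`;
* `coeff_lagr_mem`           : and so are the coefficients of the Lagrange polynomial
                               `lagr x y = ∑ i, C (y i) * ∏_{k ≠ i} (X - C (x k))`;
* `eval_lagr`                : `(lagr x y).eval (x i₀) = y i₀ * (∏ (X - C (x k)))'.eval (x i₀)`.
-/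
import Mathlib

set_option autoImplicit false

namespace Fermat.Agent.S28.helper2690

open Polynomial

noncomputable section

variable {ι : Type*} [Fintype ι] {A : Type*} [CommRing A]

/-- the `k`-th elementary symmetric function of a finite family. -/
def esymmFam (r : ι → A) (k : ℕ) : A := (Finset.univ.val.map r).esymm k

theorem esymmFam_zero (r : ι → A) : esymmFam r 0 = 1 := by
  simp [esymmFam, Multiset.esymm]

/-- Newton: power sums in `R₀` (with positive integers invertible in `R₀`) force the elementary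
symmetric functions into `R₀`. -/
theorem esymmFam_mem_of_psum_mem (R₀ : Subring A)
    (hinv : ∀ k : ℕ, 0 < k → ∃ u ∈ R₀, (k : A) * u = 1)
    (r : ι → A) (h : ∀ k, 1 ≤ k → ∑ i, r i ^ k ∈ R₀) (k : ℕ) :
    esymmFam r k ∈ R₀ := by
  induction k using Nat.strong_induction_on with
  | _ k ih =>
    rcases Nat.eq_zero_or_pos k with rfl | hk
    · rw [esymmFam_zero]; exact R₀.one_mem
    · have key := congrArg (MvPolynomial.aeval (R := ℤ) r) (MvPolynomial.mul_esymm_eq_sum ι ℤ k)
      simp only [map_mul, map_natCast, map_pow, map_neg, map_one, map_sum,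
        MvPolynomial.aeval_esymm_eq_multiset_esymm, MvPolynomial.psum, MvPolynomial.aeval_X] at key
      obtain ⟨u, hu, hku⟩ := hinv k hk
      have hmem : (k : A) * esymmFam r k ∈ R₀ := by
        rw [esymmFam, key]
        refine R₀.mul_mem (R₀.pow_mem (R₀.neg_mem R₀.one_mem) _) (R₀.sum_mem ?_)
        intro a ha
        rw [Finset.mem_filter, Finset.HasAntidiagonal.mem_antidiagonal] at ha
        refine R₀.mul_mem (R₀.mul_mem (R₀.pow_mem (R₀.neg_mem R₀.one_mem) _) (ih a.1 ha.2)) ?_
        exact h a.2 (by omega)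
      have : esymmFam r k = u * ((k : A) * esymmFam r k) := by
        rw [← mul_assoc, mul_comm u, hku, one_mul]
      rw [this]
      exact R₀.mul_mem hu hmem

theorem mem_of_subsingleton [Subsingleton A] (R₀ : Subring A) (a : A) : a ∈ R₀ := by
  have : a = 0 := Subsingleton.elim a 0
  rw [this]; exact R₀.zero_mem

theorem prod_X_sub_C_eq_multiset (r : ι → A) :
    ∏ i, (X - C (r i)) = ((Finset.univ.val.map r).map fun t => X - C t).prod := by
  rw [Multiset.map_map]
  rfl

theorem natDegree_prod_X_sub_C_fam (r : ι → A) [Nontrivial A] :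
    (∏ i, (X - C (r i))).natDegree = Fintype.card ι := by
  rw [Polynomial.natDegree_prod_of_monic _ _ (fun i _ => monic_X_sub_C (r i))]
  simp

theorem monic_prod_X_sub_C_fam (r : ι → A) : (∏ i, (X - C (r i))).Monic :=
  Polynomial.monic_prod_of_monic _ _ (fun i _ => monic_X_sub_C (r i))

/-- coefficients of `∏ (X - C (r i))` are `±` elementary symmetric functions. -/
theorem coeff_prod_X_sub_C_mem (R₀ : Subring A) (r : ι → A)
    (h : ∀ k, esymmFam r k ∈ R₀) (n : ℕ) :
    (∏ i, (X - C (r i))).coeff n ∈ R₀ := by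
  rw [prod_X_sub_C_eq_multiset]
  by_cases hn : n ≤ Multiset.card (Finset.univ.val.map r)
  · rw [Multiset.prod_X_sub_C_coeff _ hn]
    exact R₀.mul_mem (R₀.pow_mem (R₀.neg_mem R₀.one_mem) _) (h _)
  · rcases subsingleton_or_nontrivial A with hA | hA
    · exact mem_of_subsingleton R₀ _
    · rw [Polynomial.coeff_eq_zero_of_natDegree_lt]
      · exact R₀.zero_mem
      · rw [Polynomial.natDegree_multiset_prod_X_sub_C_eq_card]
        omega

section Mixed

variable (R₀ : Subring A) (x y : ι → A)

/-- `∑ i, x i ^ m * y i ^ M`. -/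
def mixedSum (m M : ℕ) : A := ∑ i, x i ^ m * y i ^ M

theorem coeff_zero_prod_X_sub_C_fam (r : ι → A) :
    (∏ i, (X - C (r i))).coeff 0 = (-1) ^ Fintype.card ι * ∏ i, r i := by
  rw [Polynomial.coeff_zero_eq_eval_zero, Polynomial.eval_prod]
  simp only [eval_sub, eval_X, eval_C, zero_sub]
  rw [Finset.prod_neg]
  simp

theorem eval_prod_X_sub_C_self (r : ι → A) (i : ι) :
    (∏ k, (X - C (r k))).eval (r i) = 0 := by
  rw [Polynomial.eval_prod]
  exact Finset.prod_eq_zero (Finset.mem_univ i) (by simp)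

/-- the inverse trick: all mixed sums are in `R₀`. -/
theorem mixedSum_mem
    (hinv : ∀ k : ℕ, 0 < k → ∃ u ∈ R₀, (k : A) * u = 1)
    (H : ∀ m M, m ≤ M → 1 ≤ M → mixedSum x y m M ∈ R₀)
    (hunit : ∃ u ∈ R₀, (∏ i, y i) * u = 1) (m M : ℕ) : mixedSum x y m M ∈ R₀ := by
  classical
  rcases subsingleton_or_nontrivial A with hA | hA
  · exact mem_of_subsingleton R₀ _
  have hey : ∀ k, esymmFam y k ∈ R₀ := by
    refine esymmFam_mem_of_psum_mem R₀ hinv y ?_
    intro k hk
    have := H 0 k (Nat.zero_le _) hk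
    simpa [mixedSum] using this
  set G : A[X] := ∏ i, (X - C (y i)) with hG
  have hGc : ∀ n, G.coeff n ∈ R₀ := coeff_prod_X_sub_C_mem R₀ y hey
  have hGdeg : G.natDegree = Fintype.card ι := natDegree_prod_X_sub_C_fam y
  have hG0 : G.coeff 0 = (-1) ^ Fintype.card ι * ∏ i, y i := coeff_zero_prod_X_sub_C_fam y
  obtain ⟨u, hu, hyu⟩ := hunit
  -- the recursion
  have hrec : ∀ m M, ∑ j ∈ Finset.range (Fintype.card ι + 1), G.coeff j * mixedSum x y m (M + j) = 0 := by
    intro m M
    have h1 : ∀ i, ∑ j ∈ Finset.range (Fintype.card ι + 1), G.coeff j * y i ^ j = 0 := by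
      intro i
      have := eval_prod_X_sub_C_self y i
      rw [← hG, Polynomial.eval_eq_sum_range, hGdeg] at this
      exact this
    simp only [mixedSum, Finset.mul_sum]
    rw [Finset.sum_comm]
    refine Finset.sum_eq_zero ?_
    intro i _
    have : ∀ j, G.coeff j * (x i ^ m * y i ^ (M + j)) = (x i ^ m * y i ^ M) * (G.coeff j * y i ^ j) := by
      intro j; rw [pow_add]; ring
    simp only [this]
    rw [← Finset.mul_sum, h1 i, mul_zero]
  -- downward induction
  have hmain : ∀ d M, m ≤ M + d → 1 ≤ M + d → mixedSum x y m M ∈ R₀ := by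
    intro d
    induction d with
    | zero => intro M h1 h2; exact H m M (by simpa using h1) (by simpa using h2)
    | succ d ih =>
      intro M h1 h2
      have hr := hrec m M
      rw [Finset.sum_range_succ', add_zero] at hr
      have hmem : G.coeff 0 * mixedSum x y m M ∈ R₀ := by
        have : G.coeff 0 * mixedSum x y m M =
            -∑ j ∈ Finset.range (Fintype.card ι), G.coeff (j + 1) * mixedSum x y m (M + (j + 1)) := by
          rw [eq_neg_iff_add_eq_zero, add_comm]; exact hr
        rw [this]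
        refine R₀.neg_mem (R₀.sum_mem ?_)
        intro j _
        exact R₀.mul_mem (hGc _) (ih (M + (j + 1)) (by omega) (by omega))
      have : mixedSum x y m M = ((-1) ^ Fintype.card ι * u) * (G.coeff 0 * mixedSum x y m M) := by
        rw [hG0]
        have h2 : (-1 : A) ^ Fintype.card ι * u * ((-1) ^ Fintype.card ι * (∏ i, y i) * mixedSum x y m M)
            = ((-1 : A) ^ Fintype.card ι * (-1) ^ Fintype.card ι) * ((∏ i, y i) * u) * mixedSum x y m M := by
          ring
        rw [h2, hyu, ← mul_pow]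
        simp
      rw [this]
      exact R₀.mul_mem (R₀.mul_mem (R₀.pow_mem (R₀.neg_mem R₀.one_mem) _) hu) hmem
  exact hmain (m + 1) M (by omega) (by omega)

/-- the elementary symmetric functions of `x` are in `R₀`. -/
theorem esymmFam_mem_of_mixed
    (hinv : ∀ k : ℕ, 0 < k → ∃ u ∈ R₀, (k : A) * u = 1)
    (H : ∀ m M, m ≤ M → 1 ≤ M → mixedSum x y m M ∈ R₀)
    (hunit : ∃ u ∈ R₀, (∏ i, y i) * u = 1) (k : ℕ) : esymmFam x k ∈ R₀ := by
  refine esymmFam_mem_of_psum_mem R₀ hinv x ?_ k
  intro k _
  have := mixedSum_mem R₀ x y hinv H hunit k 0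
  simpa [mixedSum] using this

/-- the elementary symmetric functions of `y` are in `R₀`. -/
theorem esymmFam_mem_of_mixed_right
    (hinv : ∀ k : ℕ, 0 < k → ∃ u ∈ R₀, (k : A) * u = 1)
    (H : ∀ m M, m ≤ M → 1 ≤ M → mixedSum x y m M ∈ R₀) (k : ℕ) : esymmFam y k ∈ R₀ := by
  refine esymmFam_mem_of_psum_mem R₀ hinv y ?_ k
  intro k hk
  have := H 0 k (Nat.zero_le _) hk
  simpa [mixedSum] using this

/-- the Lagrange polynomial `∑ i, y i * ∏_{k ≠ i} (X - x k)`. -/
def lagr [DecidableEq ι] : A[X] := ∑ i, C (y i) * ∏ k ∈ Finset.univ.erase i, (X - C (x k))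

theorem prod_erase_eq_divByMonic [DecidableEq ι] (i : ι) :
    ∏ k ∈ Finset.univ.erase i, (X - C (x k)) = (∏ k, (X - C (x k))) /ₘ (X - C (x i)) := by
  rw [← Finset.mul_prod_erase Finset.univ (fun k => X - C (x k)) (Finset.mem_univ i),
    mul_divByMonic_cancel_left _ (monic_X_sub_C (x i))]

/-- coefficients of the Lagrange polynomial are in `R₀`. -/
theorem coeff_lagr_mem [DecidableEq ι]
    (hinv : ∀ k : ℕ, 0 < k → ∃ u ∈ R₀, (k : A) * u = 1)
    (H : ∀ m M, m ≤ M → 1 ≤ M → mixedSum x y m M ∈ R₀)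
    (hunit : ∃ u ∈ R₀, (∏ i, y i) * u = 1) (n : ℕ) : (lagr x y).coeff n ∈ R₀ := by
  have hΦ : ∀ k, (∏ i, (X - C (x i))).coeff k ∈ R₀ :=
    coeff_prod_X_sub_C_mem R₀ x (esymmFam_mem_of_mixed R₀ x y hinv H hunit)
  rw [lagr, Polynomial.finsetSum_coeff]
  simp only [prod_erase_eq_divByMonic, Polynomial.coeff_C_mul, coeff_divByMonic_X_sub_C,
    Finset.mul_sum]
  rw [Finset.sum_comm]
  refine R₀.sum_mem ?_
  intro k _
  have : ∑ i, y i * (x i ^ (k - (n + 1)) * (∏ i, (X - C (x i))).coeff k) =
      (∏ i, (X - C (x i))).coeff k * mixedSum x y (k - (n + 1)) 1 := by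
    rw [mixedSum, Finset.mul_sum]
    refine Finset.sum_congr rfl ?_
    intro i _
    ring
  rw [this]
  exact R₀.mul_mem (hΦ k) (mixedSum_mem R₀ x y hinv H hunit _ _)

theorem eval_lagr [DecidableEq ι] (i₀ : ι) :
    (lagr x y).eval (x i₀) = y i₀ * ∏ k ∈ Finset.univ.erase i₀, (x i₀ - x k) := by
  rw [lagr, Polynomial.eval_finsetSum, Finset.sum_eq_single i₀]
  · rw [eval_mul, eval_C, Polynomial.eval_prod]
    simp
  · intro i _ hi
    rw [eval_mul, Polynomial.eval_prod]
    have : ∏ k ∈ Finset.univ.erase i, eval (x i₀) (X - C (x k)) = 0 :=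
      Finset.prod_eq_zero (Finset.mem_erase.mpr ⟨Ne.symm hi, Finset.mem_univ i₀⟩) (by simp)
    rw [this, mul_zero]
  · intro h; exact absurd (Finset.mem_univ i₀) h

theorem eval_derivative_prod_X_sub_C [DecidableEq ι] (i₀ : ι) :
    (derivative (∏ k, (X - C (x k)))).eval (x i₀) = ∏ k ∈ Finset.univ.erase i₀, (x i₀ - x k) := by
  rw [← Finset.mul_prod_erase Finset.univ (fun k => X - C (x k)) (Finset.mem_univ i₀),
    derivative_mul, eval_add, eval_mul, eval_mul, Polynomial.eval_prod]
  simp

/-- `lagr(x i₀) = y i₀ * Φ'(x i₀)`. -/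
theorem eval_lagr_eq [DecidableEq ι] (i₀ : ι) :
    (lagr x y).eval (x i₀) = y i₀ * (derivative (∏ k, (X - C (x k)))).eval (x i₀) := by
  rw [eval_lagr, eval_derivative_prod_X_sub_C]

end Mixed

end

end Fermat.Agent.S28.helper2690
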