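/-
S28 (Igusa), route P, leaf P4 sub-lemmas (helper2690): leading terms and triangularity.

Mathlib only.

* `IsLead f n c`      : the Laurent series `f` vanishes below exponent `n` and has coefficient `c`
                        at `n`; closed under products, powers, finite products, constants.
* `coeffSubring O`    : Laurent series all of whose coefficients lie in a subring `O`.
* `coeff_eval₂_top`   : if `J = t^(-d) + ...` then the coefficient of `P(J)` at `-(d * deg P)` is
                        the leading coefficient of `P`.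
* `coeff_mem_of_eval₂_mem` : TRIANGULARITY.  If `J = t^(-d) + ...` (`d > 0`) has coefficients in `O`
                        and `P(J)` has coefficients in `O` then `P` has coefficients in `O`.
* `natDegree_eq_zero_of_eval₂` : if `P(J)` has no negative exponents then `P` is constant.
-/
import Mathlib

set_option autoImplicit false

namespace Fermat.Agent.S28.helper2690

open Polynomial

noncomputable section

variable {R : Type*} [CommRing R]

/-- `f` vanishes below exponent `n` and has coefficient `c` at `n`. -/
def IsLead (f : LaurentSeries R) (n : ℤ) (c : R) : Prop :=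
  (∀ k < n, f.coeff k = 0) ∧ f.coeff n = c

namespace IsLead

theorem one : IsLead (1 : LaurentSeries R) 0 1 := by
  refine ⟨fun k hk => ?_, ?_⟩
  · rw [HahnSeries.coeff_one, if_neg hk.ne]
  · rw [HahnSeries.coeff_one, if_pos rfl]

theorem mul {f g : LaurentSeries R} {n m : ℤ} {c d : R} (hf : IsLead f n c) (hg : IsLead g m d) :
    IsLead (f * g) (n + m) (c * d) := by
  refine ⟨fun k hk => ?_, ?_⟩
  · rw [HahnSeries.coeff_mul]
    refine Finset.sum_eq_zero ?_
    intro ij hij
    rw [Finset.mem_antidiagonal] at hij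
    by_cases h : ij.1 < n
    · rw [hf.1 _ h, zero_mul]
    · rw [hg.1 ij.2 (by omega), mul_zero]
  · rw [HahnSeries.coeff_mul, Finset.sum_eq_single (n, m)]
    · rw [hf.2, hg.2]
    · intro ij hij hne
      rw [Finset.mem_antidiagonal] at hij
      by_cases h : ij.1 < n
      · rw [hf.1 _ h, zero_mul]
      · have h2 : ij.2 < m := by
          by_contra h2
          apply hne
          ext <;> simp only <;> omega
        rw [hg.1 _ h2, mul_zero]
    · intro hnm
      rw [Finset.mem_antidiagonal] at hnm
      simp only [HahnSeries.mem_support, ne_eq, and_true, not_and, not_not] at hnm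
      by_cases h : f.coeff n = 0
      · rw [h, zero_mul]
      · rw [hnm h, mul_zero]

theorem pow {f : LaurentSeries R} {n : ℤ} {c : R} (hf : IsLead f n c) (k : ℕ) :
    IsLead (f ^ k) (k * n) (c ^ k) := by
  induction k with
  | zero => simpa using (one : IsLead (1 : LaurentSeries R) 0 1)
  | succ k ih =>
    have := ih.mul hf
    rw [pow_succ, pow_succ]
    convert this using 1
    push_cast; ring

theorem prod {ι : Type*} (s : Finset ι) (f : ι → LaurentSeries R) (n : ι → ℤ) (c : ι → R)
    (h : ∀ i ∈ s, IsLead (f i) (n i) (c i)) :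
    IsLead (∏ i ∈ s, f i) (∑ i ∈ s, n i) (∏ i ∈ s, c i) := by
  classical
  induction s using Finset.induction_on with
  | empty => simpa using (one : IsLead (1 : LaurentSeries R) 0 1)
  | insert a s ha ih =>
    rw [Finset.prod_insert ha, Finset.sum_insert ha, Finset.prod_insert ha]
    exact (h a (Finset.mem_insert_self a s)).mul
      (ih (fun i hi => h i (Finset.mem_insert_of_mem hi)))

theorem C_mul {f : LaurentSeries R} {n : ℤ} {c : R} (a : R) (hf : IsLead f n c) :
    IsLead (HahnSeries.C a * f) n (a * c) := by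
  refine ⟨fun k hk => ?_, ?_⟩
  · rw [HahnSeries.C_mul_eq_smul, HahnSeries.coeff_smul, hf.1 k hk, smul_zero]
  · rw [HahnSeries.C_mul_eq_smul, HahnSeries.coeff_smul, hf.2, smul_eq_mul]

theorem sub_of_lt {f g : LaurentSeries R} {n : ℤ} {c : R} (hf : IsLead f n c)
    (hg : ∀ k ≤ n, g.coeff k = 0) : IsLead (f - g) n c := by
  refine ⟨fun k hk => ?_, ?_⟩
  · rw [HahnSeries.coeff_sub, hf.1 k hk, hg k hk.le, sub_zero]
  · rw [HahnSeries.coeff_sub, hf.2, hg n le_rfl, sub_zero]

theorem congr {f : LaurentSeries R} {n m : ℤ} {c d : R} (hf : IsLead f n c) (hn : n = m)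
    (hc : c = d) : IsLead f m d := by
  subst hn; subst hc; exact hf

theorem coeff_of_lt {f : LaurentSeries R} {n : ℤ} {c : R} (hf : IsLead f n c) {k : ℤ}
    (hk : k < n) : f.coeff k = 0 := hf.1 k hk

theorem coeff_eq {f : LaurentSeries R} {n : ℤ} {c : R} (hf : IsLead f n c) : f.coeff n = c := hf.2

theorem ne_zero {f : LaurentSeries R} {n : ℤ} {c : R} (hf : IsLead f n c) (hc : c ≠ 0) : f ≠ 0 := by
  rintro rfl
  exact hc (by simpa using hf.2.symm)

end IsLead

/-- Laurent series with all coefficients in a subring `O`. -/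
def coeffSubring (O : Subring R) : Subring (LaurentSeries R) where
  carrier := {f | ∀ k, f.coeff k ∈ O}
  mul_mem' := by
    intro f g hf hg k
    rw [HahnSeries.coeff_mul]
    exact O.sum_mem (fun ij _ => O.mul_mem (hf _) (hg _))
  one_mem' := by
    intro k
    rw [HahnSeries.coeff_one]
    split_ifs
    · exact O.one_mem
    · exact O.zero_mem
  add_mem' := by
    intro f g hf hg k
    rw [HahnSeries.coeff_add]
    exact O.add_mem (hf k) (hg k)
  zero_mem' := by
    intro k
    rw [HahnSeries.coeff_zero]
    exact O.zero_mem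
  neg_mem' := by
    intro f hf k
    rw [HahnSeries.coeff_neg]
    exact O.neg_mem (hf k)

theorem mem_coeffSubring {O : Subring R} {f : LaurentSeries R} :
    f ∈ coeffSubring O ↔ ∀ k, f.coeff k ∈ O := Iff.rfl

theorem C_mem_coeffSubring {O : Subring R} {a : R} (ha : a ∈ O) :
    (HahnSeries.C a : LaurentSeries R) ∈ coeffSubring O := by
  intro k
  rw [HahnSeries.C_apply, HahnSeries.coeff_single]
  split_ifs
  · exact ha
  · exact O.zero_mem

theorem coeff_hahnC_mul (a : R) (f : LaurentSeries R) (k : ℤ) :
    (HahnSeries.C a * f).coeff k = a * f.coeff k := by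
  rw [HahnSeries.C_mul_eq_smul, HahnSeries.coeff_smul, smul_eq_mul]

theorem coeff_finset_sum {ι : Type*} (s : Finset ι) (f : ι → LaurentSeries R) (k : ℤ) :
    (∑ i ∈ s, f i).coeff k = ∑ i ∈ s, (f i).coeff k := by
  classical
  induction s using Finset.induction_on with
  | empty => simp
  | insert a s ha ih => rw [Finset.sum_insert ha, Finset.sum_insert ha, HahnSeries.coeff_add, ih]

section Triangular

variable (J : LaurentSeries R) (d : ℕ)

/-- the coefficient of `P(J)` at `-(d * deg P)` is the leading coefficient of `P`. -/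
theorem coeff_eval₂_top (hd : 0 < d) (hJ : IsLead J (-(d : ℤ)) 1) (P : R[X]) :
    (P.eval₂ HahnSeries.C J).coeff (-((d : ℤ) * P.natDegree)) = P.leadingCoeff := by
  rw [eval₂_eq_sum_range, coeff_finset_sum, Finset.sum_eq_single P.natDegree]
  · rw [coeff_hahnC_mul]
    have := (hJ.pow P.natDegree).2
    rw [show (P.natDegree : ℤ) * -(d : ℤ) = -((d : ℤ) * P.natDegree) by ring] at this
    rw [this, one_pow, mul_one]
    rfl
  · intro i hi hne
    rw [Finset.mem_range] at hi
    rw [coeff_hahnC_mul, (hJ.pow i).1, mul_zero]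
    have hlt : i < P.natDegree := lt_of_le_of_ne (Nat.lt_succ_iff.mp hi) hne
    have hd' : (0 : ℤ) < d := by exact_mod_cast hd
    have hlt' : (i : ℤ) < P.natDegree := by exact_mod_cast hlt
    nlinarith
  · intro h
    exact absurd (Finset.mem_range.mpr (Nat.lt_succ_self _)) h

/-- TRIANGULARITY: if `J = t^(-d) + ...` has coefficients in `O` and `P(J)` has coefficients in
`O`, then `P` has coefficients in `O`. -/
theorem coeff_mem_of_eval₂_mem (O : Subring R) (hd : 0 < d) (hJ : IsLead J (-(d : ℤ)) 1)
    (hJO : J ∈ coeffSubring O) (P : R[X]) (hP : P.eval₂ HahnSeries.C J ∈ coeffSubring O) :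
    ∀ n, P.coeff n ∈ O := by
  induction' h : P.natDegree using Nat.strong_induction_on with N ih generalizing P
  have hlc : P.leadingCoeff ∈ O := by
    rw [← coeff_eval₂_top J d hd hJ P]
    exact hP _
  have hQ : (P.eraseLead).eval₂ HahnSeries.C J ∈ coeffSubring O := by
    have h1 : P.eraseLead = P - C P.leadingCoeff * X ^ P.natDegree := (self_sub_C_mul_X_pow P).symm
    rw [h1, eval₂_sub, eval₂_mul, eval₂_C, eval₂_pow, eval₂_X]
    exact (coeffSubring O).sub_mem hP
      ((coeffSubring O).mul_mem (C_mem_coeffSubring hlc) ((coeffSubring O).pow_mem hJO _))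
  have hQc : ∀ n, P.eraseLead.coeff n ∈ O := by
    rcases eraseLead_natDegree_lt_or_eraseLead_eq_zero P with hlt | h0
    · exact ih _ (h ▸ hlt) _ hQ rfl
    · intro n; rw [h0, coeff_zero]; exact O.zero_mem
  intro n
  rw [← eraseLead_add_C_mul_X_pow P, coeff_add, Polynomial.coeff_C_mul, coeff_X_pow]
  refine O.add_mem (hQc n) ?_
  split_ifs
  · rw [mul_one]; exact hlc
  · rw [mul_zero]; exact O.zero_mem

/-- if `P(J)` has no negative exponents (and `J = t^(-d) + ...`, `d > 0`) then `P` is constant. -/
theorem natDegree_eq_zero_of_eval₂ (hd : 0 < d) (hJ : IsLead J (-(d : ℤ)) 1) (P : R[X])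
    (hP : ∀ k < 0, (P.eval₂ HahnSeries.C J).coeff k = 0) : P.natDegree = 0 := by
  by_contra hne
  have hpos : 0 < P.natDegree := Nat.pos_of_ne_zero hne
  have h1 := coeff_eval₂_top J d hd hJ P
  rw [hP] at h1
  · have : P = 0 := leadingCoeff_eq_zero.mp h1.symm
    rw [this] at hne
    simp at hne
  · have hd' : (0 : ℤ) < d := by exact_mod_cast hd
    have hp' : (0 : ℤ) < P.natDegree := by exact_mod_cast hpos
    have := mul_pos hd' hp'
    omega

/-- version of triangularity for a polynomial over another ring `S`, evaluated through a ring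
hom `φ : S →+* R` on coefficients. -/
theorem map_coeff_mem_of_eval₂_mem {S : Type*} [CommRing S] (φ : S →+* R) (O : Subring R)
    (hd : 0 < d) (hJ : IsLead J (-(d : ℤ)) 1) (hJO : J ∈ coeffSubring O) (P : S[X])
    (hP : P.eval₂ ((HahnSeries.C : R →+* LaurentSeries R).comp φ) J ∈ coeffSubring O) :
    ∀ n, φ (P.coeff n) ∈ O := by
  intro n
  have := coeff_mem_of_eval₂_mem J d O hd hJ hJO (P.map φ) (by rwa [eval₂_map]) n
  rwa [coeff_map] at this

/-- constant version for a polynomial over another ring. -/
theorem natDegree_map_eq_zero_of_eval₂ {S : Type*} [CommRing S] (φ : S →+* R)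
    (hd : 0 < d) (hJ : IsLead J (-(d : ℤ)) 1) (P : S[X])
    (hP : ∀ k < 0, (P.eval₂ ((HahnSeries.C : R →+* LaurentSeries R).comp φ) J).coeff k = 0) :
    (P.map φ).natDegree = 0 :=
  natDegree_eq_zero_of_eval₂ J d hd hJ (P.map φ) (by rwa [eval₂_map])

end Triangular

end

end Fermat.Agent.S28.helper2690
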