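/-
S28 (Igusa), route P, leaf P4 sub-lemmas (helper2690): formal `U_p`-orthogonality and the link with
the formal Hecke operator `helper328.heckeTps`; leading terms of the basic series.

* `sum_zpow_units`            : `∑_{b<p} (ζ^b)^n = p` if `p ∣ n`, `0` otherwise (`ζ` primitive).
* `coeff_sum_twist`           : coefficient of `∑_{b<p} twist (ζ^b) f`.
* `hecke_link`                : `p^k • V_{p}(V_p F) + ∑_b twist(ζ^b) F = p • V_p (T_p F)` for a power
                                series `F` (as Laurent series), `k ≥ 1`.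
* formal identities           : `deltaHat * deltaHatInv = 1`, `jqModC = E4^3 * deltaHatInv`,
                                `ofPowerSeries (X * eta^24) = deltaHat`, compatibility with `coeffMap`.
* `IsLead` facts              : for `qExpand`, `twist`, `coeffMap`, `jqModC`, `deltaHat`,
                                `deltaHatInv`.
-/
import Mathlib
import Fermat.Prelude.Def_ModularCurve_X0ModL
import Fermat.Agent.S28.helper328_PrimeSpec
import Fermat.Agent.S28.helper2690_Triangular

set_option autoImplicit false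

namespace Fermat.Agent.S28.helper2690

open Polynomial ModularCurve Fermat.Agent.S28.helper328

noncomputable section

section Ortho

variable {R : Type*} [CommRing R]

theorem twist_one (f : LaurentSeries R) : twist (1 : Rˣ) f = f := by
  ext n
  rw [twist_coeff, one_zpow, Units.val_one, one_mul]

variable [IsDomain R] {p : ℕ} (ζ : Rˣ)

theorem sum_zpow_units (hζ : IsPrimitiveRoot ζ p) (n : ℤ) :
    ∑ b ∈ Finset.range p, (((ζ ^ b) ^ n : Rˣ) : R) = if (p : ℤ) ∣ n then (p : R) else 0 := by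
  have hcomm : ∀ b : ℕ, (((ζ ^ b) ^ n : Rˣ) : R) = ((ζ ^ n : Rˣ) : R) ^ b := by
    intro b
    rw [← Units.val_pow_eq_pow_val, ← zpow_natCast, ← zpow_natCast, ← zpow_mul, ← zpow_mul,
      mul_comm]
  simp only [hcomm]
  split_ifs with h
  · have h1 : ζ ^ n = 1 := (hζ.zpow_eq_one_iff_dvd n).mpr h
    rw [h1]
    simp
  · have h1 : ζ ^ n ≠ 1 := fun h1 => h ((hζ.zpow_eq_one_iff_dvd n).mp h1)
    have h2 : ((ζ ^ n : Rˣ) : R) - 1 ≠ 0 := by
      intro h2
      apply h1
      ext
      rw [Units.val_one]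
      exact sub_eq_zero.mp h2
    have h3 : (((ζ ^ n : Rˣ) : R) - 1) * ∑ b ∈ Finset.range p, ((ζ ^ n : Rˣ) : R) ^ b = 0 := by
      rw [mul_geom_sum, ← Units.val_pow_eq_pow_val, ← zpow_natCast, ← zpow_mul, mul_comm, zpow_mul,
        zpow_natCast, hζ.pow_eq_one, one_zpow, Units.val_one, sub_self]
    exact (mul_eq_zero.mp h3).resolve_left h2

theorem coeff_sum_twist (hζ : IsPrimitiveRoot ζ p) (f : LaurentSeries R) (n : ℤ) :
    (∑ b ∈ Finset.range p, twist (ζ ^ b) f).coeff n =
      if (p : ℤ) ∣ n then (p : R) * f.coeff n else 0 := by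
  rw [coeff_finset_sum]
  simp only [twist_coeff]
  rw [← Finset.sum_mul, sum_zpow_units ζ hζ n]
  split_ifs <;> simp

end Ortho

section Basic

variable (R : Type*) [CommRing R]

theorem natCast_eq_C (n : ℕ) : (n : LaurentSeries R) = HahnSeries.C (n : R) :=
  (map_natCast (HahnSeries.C : R →+* LaurentSeries R) n).symm

theorem coeff_natCast_pow_mul (n k : ℕ) (f : LaurentSeries R) (i : ℤ) :
    ((n : LaurentSeries R) ^ k * f).coeff i = (n : R) ^ k * f.coeff i := by
  rw [natCast_eq_C, ← map_pow, coeff_hahnC_mul]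

theorem coeff_natCast_mul (n : ℕ) (f : LaurentSeries R) (i : ℤ) :
    ((n : LaurentSeries R) * f).coeff i = (n : R) * f.coeff i := by
  rw [natCast_eq_C, coeff_hahnC_mul]

/-- `E4` as a Laurent series over `R`. -/
def e4L : LaurentSeries R :=
  HahnSeries.ofPowerSeries ℤ R (eisenstein4.map (Int.castRingHom R))

theorem deltaHat_mul_inv : deltaHat R * deltaHatInv R = 1 := by
  rw [deltaHat, deltaHatInv]
  have h1 : (HahnSeries.single (1 : ℤ) (1 : R)) * HahnSeries.single (-1 : ℤ) (1 : R) = 1 := by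
    rw [HahnSeries.single_mul_single]
    simp
  have h2 : HahnSeries.ofPowerSeries ℤ R (dedekindEtaUnit.map (Int.castRingHom R)) *
      HahnSeries.ofPowerSeries ℤ R (dedekindEtaUnitInv.map (Int.castRingHom R)) = 1 := by
    rw [← map_mul, ← map_mul, dedekindEtaUnit_mul_inv, map_one, map_one]
  calc _ = (HahnSeries.single (1 : ℤ) (1 : R) * HahnSeries.single (-1 : ℤ) (1 : R)) *
        (HahnSeries.ofPowerSeries ℤ R (dedekindEtaUnit.map (Int.castRingHom R)) *
          HahnSeries.ofPowerSeries ℤ R (dedekindEtaUnitInv.map (Int.castRingHom R))) := by ring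
    _ = 1 := by rw [h1, h2, mul_one]

theorem jqModC_eq_e4L : jqModC R = e4L R ^ 3 * deltaHatInv R := by
  rw [jqModC, e4L, deltaHatInv, jNum, map_mul, map_mul, map_pow, map_pow]
  ring

theorem ofPowerSeries_DeltaSeries :
    HahnSeries.ofPowerSeries ℤ R ((PowerSeries.X * dedekindEtaUnit).map (Int.castRingHom R)) =
      deltaHat R := by
  rw [deltaHat, map_mul, map_mul, PowerSeries.map_X, HahnSeries.ofPowerSeries_X]

variable {R}

theorem coeffMap_deltaHat {S : Type*} [CommRing S] (f : R →+* S) :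
    coeffMap f (deltaHat R) = deltaHat S := by
  rw [deltaHat, map_mul, coeffMap_single, map_one, coeffMap_ofPowerSeries,
    ← RingHom.comp_apply (PowerSeries.map f) (PowerSeries.map (Int.castRingHom R)),
    ← PowerSeries.map_comp, RingHom.ext_int (f.comp (Int.castRingHom R)) (Int.castRingHom S)]
  rfl

theorem coeffMap_deltaHatInv {S : Type*} [CommRing S] (f : R →+* S) :
    coeffMap f (deltaHatInv R) = deltaHatInv S := by
  rw [deltaHatInv, map_mul, coeffMap_single, map_one, coeffMap_ofPowerSeries,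
    ← RingHom.comp_apply (PowerSeries.map f) (PowerSeries.map (Int.castRingHom R)),
    ← PowerSeries.map_comp, RingHom.ext_int (f.comp (Int.castRingHom R)) (Int.castRingHom S)]
  rfl

theorem coeffMap_natCast {S : Type*} [CommRing S] (f : R →+* S) (n : ℕ) :
    coeffMap f (n : LaurentSeries R) = (n : LaurentSeries S) := map_natCast _ n

variable (R)

theorem isLead_jqModC : IsLead (jqModC R) (-1) 1 :=
  ⟨fun _ hk => coeff_jqModC_of_lt R hk, coeff_jqModC_neg_one R⟩

theorem isLead_single_mul_ofPowerSeries (n : ℤ) (u : PowerSeries R)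
    (hu : PowerSeries.constantCoeff u = 1) :
    IsLead (HahnSeries.single n (1 : R) * HahnSeries.ofPowerSeries ℤ R u) n 1 := by
  refine ⟨fun k hk => ?_, ?_⟩
  · rw [HahnSeries.coeff_single_mul, one_mul]
    exact ofPowerSeries_coeff_of_neg _ (by omega)
  · rw [HahnSeries.coeff_single_mul, one_mul, sub_self,
      show (0 : ℤ) = ((0 : ℕ) : ℤ) from rfl, HahnSeries.ofPowerSeries_apply_coeff,
      PowerSeries.coeff_zero_eq_constantCoeff]
    exact hu

theorem isLead_deltaHat : IsLead (deltaHat R) 1 1 := by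
  refine isLead_single_mul_ofPowerSeries R 1 _ ?_
  rw [← PowerSeries.coeff_zero_eq_constantCoeff, PowerSeries.coeff_map,
    PowerSeries.coeff_zero_eq_constantCoeff, constantCoeff_dedekindEtaUnit]
  simp

theorem isLead_deltaHatInv : IsLead (deltaHatInv R) (-1) 1 := by
  refine isLead_single_mul_ofPowerSeries R (-1) _ ?_
  rw [← PowerSeries.coeff_zero_eq_constantCoeff, PowerSeries.coeff_map,
    PowerSeries.coeff_zero_eq_constantCoeff, constantCoeff_dedekindEtaUnitInv]
  simp

variable {R}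

theorem IsLead.qExpand {f : LaurentSeries R} {n : ℤ} {c : R} (hf : IsLead f n c) (N : ℕ)
    [NeZero N] : IsLead (qExpand R N f) (N * n) c := by
  have hN : (0 : ℤ) < N := by exact_mod_cast Nat.pos_of_ne_zero (NeZero.ne N)
  refine ⟨fun k hk => ?_, ?_⟩
  · by_cases hdvd : (N : ℤ) ∣ k
    · obtain ⟨k', rfl⟩ := hdvd
      rw [qExpand_coeff_mul]
      exact hf.1 k' (lt_of_mul_lt_mul_left hk hN.le)
    · exact qExpand_coeff_of_not_dvd N f hdvd
  · rw [qExpand_coeff_mul]; exact hf.2

theorem IsLead.twist {f : LaurentSeries R} {n : ℤ} {c : R} (hf : IsLead f n c) (ζ : Rˣ) :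
    IsLead (twist ζ f) n (((ζ ^ n : Rˣ) : R) * c) := by
  refine ⟨fun k hk => ?_, ?_⟩
  · rw [twist_coeff, hf.1 k hk, mul_zero]
  · rw [twist_coeff, hf.2]

theorem IsLead.coeffMap {S : Type*} [CommRing S] {f : LaurentSeries R} {n : ℤ} {c : R}
    (hf : IsLead f n c) (φ : R →+* S) : IsLead (coeffMap φ f) n (φ c) := by
  refine ⟨fun k hk => ?_, ?_⟩
  · rw [coeffMap_coeff, hf.1 k hk, map_zero]
  · rw [coeffMap_coeff, hf.2]

theorem IsLead.natCast_pow_mul {f : LaurentSeries R} {n : ℤ} {c : R} (hf : IsLead f n c)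
    (a k : ℕ) : IsLead ((a : LaurentSeries R) ^ k * f) n ((a : R) ^ k * c) := by
  refine ⟨fun i hi => ?_, ?_⟩
  · rw [coeff_natCast_pow_mul, hf.1 i hi, mul_zero]
  · rw [coeff_natCast_pow_mul, hf.2]

end Basic

section HeckeLink

variable {p : ℕ} [NeZero p]

theorem coeff_qExpand_ofPowerSeries_neg {R : Type*} [CommRing R] (F : PowerSeries R) {k : ℤ}
    (hk : k < 0) : (qExpand R p (HahnSeries.ofPowerSeries ℤ R F)).coeff k = 0 := by
  have hp : (0 : ℤ) < p := by exact_mod_cast Nat.pos_of_ne_zero (NeZero.ne p)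
  by_cases hdvd : (p : ℤ) ∣ k
  · obtain ⟨k', rfl⟩ := hdvd
    rw [qExpand_coeff_mul]
    exact ofPowerSeries_coeff_of_neg _ (by nlinarith)
  · exact qExpand_coeff_of_not_dvd p _ hdvd

theorem coeff_qExpand_ofPowerSeries_nat {R : Type*} [CommRing R] (F : PowerSeries R) (m : ℕ) :
    (qExpand R p (HahnSeries.ofPowerSeries ℤ R F)).coeff (m : ℤ) =
      if p ∣ m then PowerSeries.coeff (m / p) F else 0 := by
  split_ifs with h
  · obtain ⟨m', rfl⟩ := h
    rw [Nat.mul_div_cancel_left _ (Nat.pos_of_ne_zero (NeZero.ne p))]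
    push_cast
    rw [qExpand_coeff_mul, HahnSeries.ofPowerSeries_apply_coeff]
  · exact qExpand_coeff_of_not_dvd p _ (by exact_mod_cast h)

/-- the link between the explicit "roots" picture and the formal Hecke operator:
`p^k V_p V_p F + ∑_b F(ζ^b t) = p V_p (T_p F)` for `k ≥ 1`. -/
theorem hecke_link (ζ : ℂˣ) (hζ : IsPrimitiveRoot ζ p) (k : ℕ) (hk : 1 ≤ k) (F : PowerSeries ℂ) :
    (p : LaurentSeries ℂ) ^ k * qExpand ℂ p (qExpand ℂ p (HahnSeries.ofPowerSeries ℤ ℂ F)) +
        ∑ b ∈ Finset.range p, twist (ζ ^ b) (HahnSeries.ofPowerSeries ℤ ℂ F) =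
      (p : LaurentSeries ℂ) * qExpand ℂ p (HahnSeries.ofPowerSeries ℤ ℂ (heckeTps k p F)) := by
  have hp : (0 : ℤ) < p := by exact_mod_cast Nat.pos_of_ne_zero (NeZero.ne p)
  have hp0 : 0 < p := Nat.pos_of_ne_zero (NeZero.ne p)
  ext n
  rw [HahnSeries.coeff_add, coeff_natCast_pow_mul, coeff_natCast_mul, coeff_sum_twist ζ hζ]
  by_cases hdvd : (p : ℤ) ∣ n
  · rw [if_pos hdvd]
    obtain ⟨n', rfl⟩ := hdvd
    rw [qExpand_coeff_mul, qExpand_coeff_mul]
    rcases lt_or_ge n' 0 with hneg | hnn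
    · rw [coeff_qExpand_ofPowerSeries_neg _ hneg, ofPowerSeries_coeff_of_neg _ hneg,
        ofPowerSeries_coeff_of_neg _ (by nlinarith)]
      simp
    · lift n' to ℕ using hnn
      rw [coeff_qExpand_ofPowerSeries_nat, HahnSeries.ofPowerSeries_apply_coeff,
        show ((p : ℤ) * (n' : ℤ)) = ((p * n' : ℕ) : ℤ) by push_cast; rfl,
        HahnSeries.ofPowerSeries_apply_coeff, heckeTps, PowerSeries.coeff_mk, mul_comm n' p]
      split_ifs with h
      · have hk' : (p : ℂ) ^ k = (p : ℂ) * (p : ℂ) ^ (k - 1) := by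
          rw [← pow_succ', Nat.sub_add_cancel hk]
        rw [hk']
        ring
      · ring
  · rw [if_neg hdvd, qExpand_coeff_of_not_dvd p _ hdvd, qExpand_coeff_of_not_dvd p _ hdvd]
    simp

end HeckeLink

end

end Fermat.Agent.S28.helper2690
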