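/-
S28 (Igusa), route P, leaf P4-LITE (helper2690).

`Stmt_Hecke p` (helper328_PrimeSpec) ⟹ `PrimeLite p`: the modular polynomial `Φ` of level `p`, the
integrality polynomial `G` of `ghat = p^12 Δ(q^p)/Δ(q)` and the Lagrange polynomial `L`, all over
`ℤ[Y]`, with

  Φ(j; j_p) = 0,  Φ(j_p; j) = 0,  G(j; ghat) = 0,  L(j; j_p) = ghat * Φ'(j; j_p),
  Φ'(j; j_p) = q^(-p^2) * (1 + ...)

as identities in `ℤ((q))`.  No root formula over other fields is needed for the tower.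

The construction uses explicit roots in `ℂ((t))`, `t = q^(1/p)`.
-/
import Mathlib
import Fermat.Prelude.Def_ModularCurve_X0ModL
import Fermat.Agent.S28.helper328_PrimeSpec
import Fermat.Agent.S28.helper2690_Newton
import Fermat.Agent.S28.helper2690_Triangular
import Fermat.Agent.S28.helper2690_Ortho

set_option autoImplicit false

namespace Fermat.Agent.S28.helper2690

open Polynomial ModularCurve Fermat.Agent.S28.helper328

noncomputable section

/-- notation `P(z; x)`: evaluate the coefficients at `Y = z`, then the polynomial at `X = x`. -/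
def ev2 {B : Type*} [CommRing B] (P : Polynomial (Polynomial ℤ)) (z x : B) : B :=
  (P.map (Polynomial.eval₂RingHom (Int.castRingHom B) z)).eval x

theorem ev2_eq_evalJ {R : Type*} [CommRing R] (P : Polynomial (Polynomial ℤ))
    (z x : LaurentSeries R) : ev2 P z x = (P.map (evalJ z)).eval x := rfl

theorem map_ev2 {B B' : Type*} [CommRing B] [CommRing B'] (f : B →+* B')
    (P : Polynomial (Polynomial ℤ)) (z x : B) : f (ev2 P z x) = ev2 P (f z) (f x) := by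
  rw [ev2, ev2, eval_map, eval_map, hom_eval₂]
  congr 1
  apply Polynomial.ringHom_ext
  · intro a; simp
  · simp

/-- **P4-LITE interface**: the prime-level data over `ℤ`. -/
def PrimeLite (p : ℕ) [hp : Fact p.Prime] : Prop :=
  haveI : NeZero p := ⟨hp.out.ne_zero⟩
  ∃ Φ G L : Polynomial (Polynomial ℤ),
    Φ.Monic ∧ Φ.natDegree = p + 1 ∧
    ev2 Φ (jqModC ℤ) (qExpand ℤ p (jqModC ℤ)) = 0 ∧
    ev2 Φ (qExpand ℤ p (jqModC ℤ)) (jqModC ℤ) = 0 ∧
    G.Monic ∧ ev2 G (jqModC ℤ) (gHat p) = 0 ∧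
    ev2 L (jqModC ℤ) (qExpand ℤ p (jqModC ℤ)) =
      gHat p * ev2 (derivative Φ) (jqModC ℤ) (qExpand ℤ p (jqModC ℤ)) ∧
    IsLead (ev2 (derivative Φ) (jqModC ℤ) (qExpand ℤ p (jqModC ℤ))) (-((p : ℤ) ^ 2)) 1

section CoeffSubring

variable {R : Type*} [CommRing R] (O : Subring R)

theorem qExpand_mem_coeffSubring (N : ℕ) [NeZero N] {f : LaurentSeries R}
    (hf : f ∈ coeffSubring O) : qExpand R N f ∈ coeffSubring O := by
  intro k
  by_cases hdvd : (N : ℤ) ∣ k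
  · obtain ⟨k', rfl⟩ := hdvd
    rw [qExpand_coeff_mul]; exact hf k'
  · rw [qExpand_coeff_of_not_dvd N f hdvd]; exact O.zero_mem

theorem ofPowerSeries_mem_coeffSubring {F : PowerSeries R} (hF : ∀ n, PowerSeries.coeff n F ∈ O) :
    HahnSeries.ofPowerSeries ℤ R F ∈ coeffSubring O := by
  intro k
  rcases lt_or_ge k 0 with hk | hk
  · rw [ofPowerSeries_coeff_of_neg _ hk]; exact O.zero_mem
  · lift k to ℕ using hk
    rw [HahnSeries.ofPowerSeries_apply_coeff]; exact hF k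

theorem twist_mem_coeffSubring (η : Rˣ) (hη : ∀ n : ℤ, ((η ^ n : Rˣ) : R) ∈ O)
    {f : LaurentSeries R} (hf : f ∈ coeffSubring O) : twist η f ∈ coeffSubring O := by
  intro k
  rw [twist_coeff]; exact O.mul_mem (hη k) (hf k)

theorem coeffMap_int_mem_coeffSubring (f : LaurentSeries ℤ) :
    coeffMap (Int.castRingHom R) f ∈ coeffSubring O := by
  intro k
  rw [coeffMap_coeff]
  exact intCast_mem O _

theorem jqModC_mem_coeffSubring : jqModC R ∈ coeffSubring O := by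
  rw [← coeffMap_jqModC (Int.castRingHom R)]
  exact coeffMap_int_mem_coeffSubring O _

theorem deltaHat_mem_coeffSubring : deltaHat R ∈ coeffSubring O := by
  rw [← coeffMap_deltaHat (Int.castRingHom R)]
  exact coeffMap_int_mem_coeffSubring O _

theorem deltaHatInv_mem_coeffSubring : deltaHatInv R ∈ coeffSubring O := by
  rw [← coeffMap_deltaHatInv (Int.castRingHom R)]
  exact coeffMap_int_mem_coeffSubring O _

end CoeffSubring

section Construction

variable (p : ℕ) [NeZero p] (ζ : ℂˣ)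

/-- the roots `j(t^(p^2))`, `j(ζ^b t)` in `ℂ((t))`. -/
def xR : Option (Fin p) → LaurentSeries ℂ
  | none => qExpand ℂ p (qExpand ℂ p (jqModC ℂ))
  | some b => twist (ζ ^ (b : ℕ)) (jqModC ℂ)

/-- the companions `p^12 Δ(t^(p^2))/Δ(t^p)`, `Δ(ζ^b t)/Δ(t^p)` in `ℂ((t))`. -/
def yR : Option (Fin p) → LaurentSeries ℂ
  | none => (p : LaurentSeries ℂ) ^ 12 * qExpand ℂ p (qExpand ℂ p (deltaHat ℂ)) *
      qExpand ℂ p (deltaHatInv ℂ)
  | some b => twist (ζ ^ (b : ℕ)) (deltaHat ℂ) * qExpand ℂ p (deltaHatInv ℂ)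

/-- `J = j(t^p)`. -/
def JR : LaurentSeries ℂ := qExpand ℂ p (jqModC ℂ)

/-- evaluation of polynomials over `S` at `J`, through `φ : S →+* ℂ`. -/
def psiHom {S : Type*} [CommRing S] (φ : S →+* ℂ) : S[X] →+* LaurentSeries ℂ :=
  eval₂RingHom ((HahnSeries.C : ℂ →+* LaurentSeries ℂ).comp φ) (JR p)

theorem psiHom_apply {S : Type*} [CommRing S] (φ : S →+* ℂ) (P : S[X]) :
    psiHom p φ P = P.eval₂ ((HahnSeries.C : ℂ →+* LaurentSeries ℂ).comp φ) (JR p) := rfl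

theorem psiHom_int : psiHom p (Int.castRingHom ℂ) = evalJ (JR p) := by
  rw [psiHom, evalJ]
  congr 1

/-- `ℚ[J]` inside `ℂ((t))`. -/
def R0 : Subring (LaurentSeries ℂ) := (psiHom p (algebraMap ℚ ℂ)).range

theorem R0_inv (k : ℕ) (hk : 0 < k) : ∃ u ∈ R0 p, (k : LaurentSeries ℂ) * u = 1 := by
  refine ⟨psiHom p (algebraMap ℚ ℂ) (C ((k : ℚ)⁻¹)), ⟨_, rfl⟩, ?_⟩
  have h1 : (k : LaurentSeries ℂ) = psiHom p (algebraMap ℚ ℂ) (C (k : ℚ)) := by
    rw [← map_natCast (psiHom p (algebraMap ℚ ℂ)) k]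
    congr 1
  rw [h1, ← map_mul, ← C_mul, mul_inv_cancel₀ (by exact_mod_cast hk.ne'), C_1, map_one]

theorem isLead_JR : IsLead (JR p) (-(p : ℤ)) 1 := by
  have := (isLead_jqModC ℂ).qExpand p
  rwa [mul_neg, mul_one] at this

theorem JR_mem_coeffSubring (O : Subring ℂ) : JR p ∈ coeffSubring O :=
  qExpand_mem_coeffSubring O p (jqModC_mem_coeffSubring O)

/-- a complex polynomial in `J` whose coefficients lie in the range of `φ` is in the range of
`psiHom φ`. -/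
theorem mem_range_psiHom {S : Type*} [CommRing S] (φ : S →+* ℂ) (P : ℂ[X])
    (hP : ∀ n, P.coeff n ∈ φ.range) :
    P.eval₂ HahnSeries.C (JR p) ∈ (psiHom p φ).range := by
  have hl : P ∈ lifts φ := by
    rw [lifts_iff_coeff_lifts]
    intro n
    obtain ⟨a, ha⟩ := hP n
    exact ⟨a, ha⟩
  obtain ⟨q, hq⟩ := (mem_lifts P).mp hl
  refine ⟨q, ?_⟩
  rw [psiHom_apply, ← hq, eval₂_map]

/-- a complex polynomial in `J` with all series coefficients in the range of `φ` is in the range of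
`psiHom φ` (triangularity). -/
theorem mem_range_psiHom_of_coeff {S : Type*} [CommRing S] (φ : S →+* ℂ) (P : ℂ[X])
    (hP : P.eval₂ HahnSeries.C (JR p) ∈ coeffSubring φ.range) :
    P.eval₂ HahnSeries.C (JR p) ∈ (psiHom p φ).range :=
  mem_range_psiHom p φ P
    (coeff_mem_of_eval₂_mem (JR p) p φ.range (Nat.pos_of_ne_zero (NeZero.ne p)) (isLead_JR p)
      (JR_mem_coeffSubring p _) P hP)

end Construction

section StepA

variable (p : ℕ) [NeZero p] (ζ : ℂˣ)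

theorem ofPS_monomial (m M : ℕ) (h : m ≤ M) :
    HahnSeries.ofPowerSeries ℤ ℂ (E4C ^ (3 * m) * DeltaC ^ (M - m)) =
      jqModC ℂ ^ m * deltaHat ℂ ^ M := by
  have hE : HahnSeries.ofPowerSeries ℤ ℂ E4C = e4L ℂ := rfl
  have hD : HahnSeries.ofPowerSeries ℤ ℂ DeltaC = deltaHat ℂ := ofPowerSeries_DeltaSeries ℂ
  have hdd : deltaHatInv ℂ * deltaHat ℂ = 1 := by rw [mul_comm]; exact deltaHat_mul_inv ℂ
  rw [map_mul, map_pow, map_pow, hE, hD, jqModC_eq_e4L]
  calc e4L ℂ ^ (3 * m) * deltaHat ℂ ^ (M - m)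
      = e4L ℂ ^ (3 * m) * deltaHat ℂ ^ (M - m) * (deltaHatInv ℂ * deltaHat ℂ) ^ m := by
        rw [hdd, one_pow, mul_one]
    _ = (e4L ℂ ^ 3 * deltaHatInv ℂ) ^ m * (deltaHat ℂ ^ (M - m) * deltaHat ℂ ^ m) := by ring
    _ = (e4L ℂ ^ 3 * deltaHatInv ℂ) ^ m * deltaHat ℂ ^ M := by
        rw [← pow_add, Nat.sub_add_cancel h]

theorem ofPS_monomial_mul_inv (b M : ℕ) (h : b ≤ M) :
    HahnSeries.ofPowerSeries ℤ ℂ (E4C ^ (3 * (M - b)) * DeltaC ^ b) * deltaHatInv ℂ ^ M =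
      jqModC ℂ ^ (M - b) := by
  have := ofPS_monomial (M - b) M (Nat.sub_le M b)
  rw [Nat.sub_sub_self h] at this
  rw [this, mul_assoc, ← mul_pow, deltaHat_mul_inv, one_pow, mul_one]

theorem mixedSum_eq (m M : ℕ) :
    mixedSum (xR p ζ) (yR p ζ) m M =
      ((p : LaurentSeries ℂ) ^ (12 * M) *
          qExpand ℂ p (qExpand ℂ p (jqModC ℂ ^ m * deltaHat ℂ ^ M)) +
        ∑ b ∈ Finset.range p, twist (ζ ^ b) (jqModC ℂ ^ m * deltaHat ℂ ^ M)) *
        qExpand ℂ p (deltaHatInv ℂ) ^ M := by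
  rw [mixedSum, Fintype.sum_option]
  simp only [xR, yR]
  rw [Fin.sum_univ_eq_sum_range (fun b => twist (ζ ^ b) (jqModC ℂ) ^ m *
    (twist (ζ ^ b) (deltaHat ℂ) * qExpand ℂ p (deltaHatInv ℂ)) ^ M) p]
  simp only [map_mul, map_pow, add_mul, Finset.sum_mul]
  congr 1
  · ring
  · refine Finset.sum_congr rfl (fun b _ => by ring)

theorem mixedSum_hecke (hζ : IsPrimitiveRoot ζ p) (h : Stmt_Hecke p) (m M : ℕ) (hmM : m ≤ M)
    (hM : 1 ≤ M) :
    ∃ c : ℕ → ℂ,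
      mixedSum (xR p ζ) (yR p ζ) m M =
        (C (p : ℂ) * ∑ b ∈ Finset.range (M + 1), C (c b) * X ^ (M - b) : ℂ[X]).eval₂
          HahnSeries.C (JR p) ∧
      mixedSum (xR p ζ) (yR p ζ) m M =
        (p : LaurentSeries ℂ) * qExpand ℂ p (HahnSeries.ofPowerSeries ℤ ℂ
          (heckeTps (12 * M) p (E4C ^ (3 * m) * DeltaC ^ (M - m)))) *
          qExpand ℂ p (deltaHatInv ℂ) ^ M := by
  obtain ⟨c, hc⟩ := h m M hmM hM
  have h2 : mixedSum (xR p ζ) (yR p ζ) m M =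
        (p : LaurentSeries ℂ) * qExpand ℂ p (HahnSeries.ofPowerSeries ℤ ℂ
          (heckeTps (12 * M) p (E4C ^ (3 * m) * DeltaC ^ (M - m)))) *
          qExpand ℂ p (deltaHatInv ℂ) ^ M := by
    rw [mixedSum_eq, ← ofPS_monomial m M hmM, hecke_link ζ hζ (12 * M) (by omega)]
  refine ⟨c, ?_, h2⟩
  rw [h2, hc, mul_assoc, ← map_pow, ← map_mul, map_sum, Finset.sum_mul, map_sum,
    eval₂_mul, eval₂_C, eval₂_finsetSum, natCast_eq_C]
  congr 1
  refine Finset.sum_congr rfl ?_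
  intro b hb
  have hb' : b ≤ M := Nat.lt_succ_iff.mp (Finset.mem_range.mp hb)
  rw [PowerSeries.smul_eq_C_mul,
    map_mul (HahnSeries.ofPowerSeries ℤ ℂ), HahnSeries.ofPowerSeries_C, mul_assoc,
    ofPS_monomial_mul_inv b M hb', map_mul, qExpand_C, map_pow, eval₂_mul, eval₂_C, eval₂_pow,
    eval₂_X]
  rfl

omit [NeZero p] in
theorem heckeTps_coeff_mem (O : Subring ℂ) (k : ℕ) (F : PowerSeries ℂ)
    (hF : ∀ n, PowerSeries.coeff n F ∈ O) (n : ℕ) :
    PowerSeries.coeff n (heckeTps k p F) ∈ O := by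
  rw [heckeTps, PowerSeries.coeff_mk]
  refine O.add_mem (hF _) ?_
  split_ifs
  · exact O.mul_mem (O.pow_mem (natCast_mem O p) _) (hF _)
  · exact O.zero_mem

theorem monomial_coeff_mem (O : Subring ℂ) (a b : ℕ) (n : ℕ) :
    PowerSeries.coeff n (E4C ^ a * DeltaC ^ b) ∈ O := by
  have : E4C ^ a * DeltaC ^ b =
      PowerSeries.map (Int.castRingHom ℂ) (eisenstein4 ^ a * (PowerSeries.X * dedekindEtaUnit) ^ b) := by
    rw [map_mul, map_pow, map_pow]; rfl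
  rw [this, PowerSeries.coeff_map]
  exact intCast_mem O _

theorem mixedSum_mem_coeffSubring (hζ : IsPrimitiveRoot ζ p) (h : Stmt_Hecke p) (O : Subring ℂ)
    (m M : ℕ) (hmM : m ≤ M) (hM : 1 ≤ M) :
    mixedSum (xR p ζ) (yR p ζ) m M ∈ coeffSubring O := by
  obtain ⟨c, -, hc⟩ := mixedSum_hecke p ζ hζ h m M hmM hM
  rw [hc]
  refine (coeffSubring O).mul_mem ((coeffSubring O).mul_mem (natCast_mem _ p) ?_) ?_
  · refine qExpand_mem_coeffSubring O p (ofPowerSeries_mem_coeffSubring O ?_)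
    exact heckeTps_coeff_mem p O _ _ (monomial_coeff_mem O _ _)
  · exact (coeffSubring O).pow_mem
      (qExpand_mem_coeffSubring O p (deltaHatInv_mem_coeffSubring O)) _

theorem mixedSum_mem_R0 (hζ : IsPrimitiveRoot ζ p) (h : Stmt_Hecke p) (m M : ℕ) (hmM : m ≤ M)
    (hM : 1 ≤ M) : mixedSum (xR p ζ) (yR p ζ) m M ∈ R0 p := by
  obtain ⟨c, hc, -⟩ := mixedSum_hecke p ζ hζ h m M hmM hM
  have hmem := mixedSum_mem_coeffSubring p ζ hζ h (algebraMap ℚ ℂ).range m M hmM hM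
  rw [hc] at hmem ⊢
  exact mem_range_psiHom_of_coeff p (algebraMap ℚ ℂ) _ hmem

end StepA

section StepB

variable (p : ℕ) [NeZero p] (ζ : ℂˣ)

theorem isLead_prod_yR : ∃ c : ℂ, c ≠ 0 ∧ IsLead (∏ i, yR p ζ i) 0 c := by
  have hp0 : (p : ℂ) ≠ 0 := by exact_mod_cast NeZero.ne p
  have hA : IsLead (qExpand ℂ p (qExpand ℂ p (deltaHat ℂ))) ((p : ℤ) * ((p : ℤ) * 1)) 1 :=
    ((isLead_deltaHat ℂ).qExpand p).qExpand p
  have hB : IsLead (qExpand ℂ p (deltaHatInv ℂ)) ((p : ℤ) * (-1)) 1 :=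
    (isLead_deltaHatInv ℂ).qExpand p
  have hAB : IsLead ((p : LaurentSeries ℂ) ^ 12 *
      (qExpand ℂ p (qExpand ℂ p (deltaHat ℂ)) * qExpand ℂ p (deltaHatInv ℂ)))
      ((p : ℤ) * ((p : ℤ) * 1) + (p : ℤ) * (-1)) ((p : ℂ) ^ 12 * (1 * 1)) :=
    (hA.mul hB).natCast_pow_mul p 12
  have h1 : IsLead (yR p ζ none) ((p : ℤ) * ((p : ℤ) * 1) + (p : ℤ) * (-1))
      ((p : ℂ) ^ 12 * (1 * 1)) := by
    have e : yR p ζ none = (p : LaurentSeries ℂ) ^ 12 *
        (qExpand ℂ p (qExpand ℂ p (deltaHat ℂ)) * qExpand ℂ p (deltaHatInv ℂ)) := by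
      simp only [yR]
      rw [mul_assoc]
    rw [e]
    exact hAB
  have hT : ∀ b : Fin p, IsLead (twist (ζ ^ (b : ℕ)) (deltaHat ℂ)) 1
      ((((ζ ^ (b : ℕ)) ^ (1 : ℤ) : ℂˣ) : ℂ) * 1) := fun b =>
    (isLead_deltaHat ℂ).twist (ζ ^ (b : ℕ))
  have h2 : ∀ b : Fin p, IsLead (yR p ζ (some b)) (1 + (p : ℤ) * (-1))
      ((((ζ ^ (b : ℕ)) ^ (1 : ℤ) : ℂˣ) : ℂ) * 1 * 1) := by
    intro b
    have e : yR p ζ (some b) =
        twist (ζ ^ (b : ℕ)) (deltaHat ℂ) * qExpand ℂ p (deltaHatInv ℂ) := rfl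
    rw [e]
    exact (hT b).mul hB
  have h3 := IsLead.prod Finset.univ (fun b : Fin p => yR p ζ (some b))
    (fun _ => 1 + (p : ℤ) * (-1)) (fun b => (((ζ ^ (b : ℕ)) ^ (1 : ℤ) : ℂˣ) : ℂ) * 1 * 1)
    (fun b _ => h2 b)
  have h4 := h1.mul h3
  rw [← Fintype.prod_option (yR p ζ)] at h4
  refine ⟨_, ?_, h4.congr ?_ rfl⟩
  · refine mul_ne_zero (mul_ne_zero (pow_ne_zero _ hp0) (by simp)) ?_
    rw [Finset.prod_ne_zero_iff]
    intro b _
    simp
  · rw [Finset.sum_const, Finset.card_univ, Fintype.card_fin, nsmul_eq_mul]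
    ring

theorem prod_yR_mem_R0 (hζ : IsPrimitiveRoot ζ p) (h : Stmt_Hecke p) :
    ∏ i, yR p ζ i ∈ R0 p := by
  have hy := esymmFam_mem_of_mixed_right (R0 p) (xR p ζ) (yR p ζ) (R0_inv p)
    (mixedSum_mem_R0 p ζ hζ h)
  have hc0 := coeff_prod_X_sub_C_mem (R0 p) (yR p ζ) hy 0
  rw [coeff_zero_prod_X_sub_C_fam] at hc0
  have : ∏ i, yR p ζ i = (-1) ^ Fintype.card (Option (Fin p)) *
      ((-1) ^ Fintype.card (Option (Fin p)) * ∏ i, yR p ζ i) := by
    have hsq : ((-1 : LaurentSeries ℂ)) ^ Fintype.card (Option (Fin p)) *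
        (-1) ^ Fintype.card (Option (Fin p)) = 1 := by
      rw [← mul_pow]; norm_num
    rw [← mul_assoc, hsq, one_mul]
  rw [this]
  exact (R0 p).mul_mem ((R0 p).pow_mem ((R0 p).neg_mem (R0 p).one_mem) _) hc0

theorem prod_yR_unit (hζ : IsPrimitiveRoot ζ p) (h : Stmt_Hecke p) :
    ∃ u ∈ R0 p, (∏ i, yR p ζ i) * u = 1 := by
  obtain ⟨P, hP⟩ := prod_yR_mem_R0 p ζ hζ h
  obtain ⟨c, hc, hlead⟩ := isLead_prod_yR p ζ
  have hdeg : (P.map (algebraMap ℚ ℂ)).natDegree = 0 :=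
    natDegree_map_eq_zero_of_eval₂ (JR p) p (algebraMap ℚ ℂ) (Nat.pos_of_ne_zero (NeZero.ne p))
      (isLead_JR p) P (by
        intro k hk
        rw [← psiHom_apply, hP]
        exact hlead.1 k hk)
  have hdeg' : P.natDegree = 0 := by
    rwa [natDegree_map_eq_of_injective (algebraMap ℚ ℂ).injective] at hdeg
  obtain ⟨a, rfl⟩ : ∃ a, P = C a := ⟨_, eq_C_of_natDegree_eq_zero hdeg'⟩
  have hne : a ≠ 0 := by
    rintro rfl
    rw [C_0, map_zero] at hP
    exact hlead.ne_zero hc hP.symm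
  refine ⟨psiHom p (algebraMap ℚ ℂ) (C a⁻¹), ⟨_, rfl⟩, ?_⟩
  rw [← hP, ← map_mul, ← C_mul, mul_inv_cancel₀ hne, C_1, map_one]

end StepB

section StepD

variable (p : ℕ) [NeZero p] (ζ : ℂˣ)

/-- the algebraic integers of `ℂ`, as a subring. -/
def Oint : Subring ℂ := (integralClosure ℤ ℂ).toSubring

theorem mem_Oint {z : ℂ} : z ∈ Oint ↔ IsIntegral ℤ z := by
  rw [Oint, Subalgebra.mem_toSubring, mem_integralClosure_iff]

theorem zeta_zpow_mem_Oint (hζ : IsPrimitiveRoot ζ p) (b : ℕ) (n : ℤ) :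
    (((ζ ^ b) ^ n : ℂˣ) : ℂ) ∈ Oint := by
  rw [mem_Oint]
  refine IsIntegral.of_pow (n := p) (Nat.pos_of_ne_zero (NeZero.ne p)) ?_
  have h1 : ((ζ ^ b) ^ n) ^ p = 1 := by
    rw [← zpow_natCast ((ζ ^ b) ^ n) p, ← zpow_mul, mul_comm, zpow_mul, zpow_natCast, ← pow_mul,
      mul_comm, pow_mul, hζ.pow_eq_one, one_pow, one_zpow]
  rw [← Units.val_pow_eq_pow_val, h1, Units.val_one]
  exact isIntegral_one

theorem xR_mem (hζ : IsPrimitiveRoot ζ p) (i : Option (Fin p)) :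
    xR p ζ i ∈ coeffSubring Oint := by
  cases i with
  | none =>
    exact qExpand_mem_coeffSubring _ p (qExpand_mem_coeffSubring _ p (jqModC_mem_coeffSubring _))
  | some b =>
    exact twist_mem_coeffSubring _ _ (zeta_zpow_mem_Oint p ζ hζ b) (jqModC_mem_coeffSubring _)

theorem yR_mem (hζ : IsPrimitiveRoot ζ p) (i : Option (Fin p)) :
    yR p ζ i ∈ coeffSubring Oint := by
  cases i with
  | none =>
    exact (coeffSubring Oint).mul_mem ((coeffSubring Oint).mul_mem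
      ((coeffSubring Oint).pow_mem (natCast_mem _ p) 12)
      (qExpand_mem_coeffSubring _ p (qExpand_mem_coeffSubring _ p (deltaHat_mem_coeffSubring _))))
      (qExpand_mem_coeffSubring _ p (deltaHatInv_mem_coeffSubring _))
  | some b =>
    exact (coeffSubring Oint).mul_mem
      (twist_mem_coeffSubring _ _ (zeta_zpow_mem_Oint p ζ hζ b) (deltaHat_mem_coeffSubring _))
      (qExpand_mem_coeffSubring _ p (deltaHatInv_mem_coeffSubring _))

omit [NeZero p] in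
theorem coeff_prod_X_sub_C_mem_subring {ι A : Type*} [Fintype ι] [CommRing A] (T : Subring A)
    (r : ι → A) (hr : ∀ i, r i ∈ T) (n : ℕ) : (∏ i, (X - C (r i))).coeff n ∈ T := by
  have : ∏ i, (X - C (r i)) = (∏ i, (X - C (⟨r i, hr i⟩ : T))).map T.subtype := by
    rw [Polynomial.map_prod]
    refine Finset.prod_congr rfl (fun i _ => ?_)
    rw [Polynomial.map_sub, map_X, map_C]
    rfl
  rw [this, coeff_map]
  exact SetLike.coe_mem _

omit [NeZero p] in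
theorem coeff_lagr_mem_subring {ι A : Type*} [Fintype ι] [DecidableEq ι] [CommRing A]
    (T : Subring A) (x y : ι → A) (hx : ∀ i, x i ∈ T) (hy : ∀ i, y i ∈ T) (n : ℕ) :
    (lagr x y).coeff n ∈ T := by
  have : lagr x y = (lagr (fun i => (⟨x i, hx i⟩ : T)) (fun i => (⟨y i, hy i⟩ : T))).map
      T.subtype := by
    rw [lagr, lagr, Polynomial.map_sum]
    refine Finset.sum_congr rfl (fun i _ => ?_)
    rw [Polynomial.map_mul, map_C, Polynomial.map_prod]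
    congr 1
    refine Finset.prod_congr rfl (fun k _ => ?_)
    rw [Polynomial.map_sub, map_X, map_C]
    rfl
  rw [this, coeff_map]
  exact SetLike.coe_mem _

/-- `ℚ[J] ∩ (series with algebraic-integer coefficients) = ℤ[J]`. -/
theorem mem_range_evalJ (a : LaurentSeries ℂ) (ha : a ∈ R0 p) (ha' : a ∈ coeffSubring Oint) :
    a ∈ (evalJ (JR p)).range := by
  obtain ⟨P, rfl⟩ := ha
  rw [psiHom_apply, ← eval₂_map] at ha' ⊢
  have hc := coeff_mem_of_eval₂_mem (JR p) p Oint (Nat.pos_of_ne_zero (NeZero.ne p)) (isLead_JR p)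
    (JR_mem_coeffSubring p _) (P.map (algebraMap ℚ ℂ)) ha'
  rw [← psiHom_int]
  refine mem_range_psiHom p (Int.castRingHom ℂ) _ ?_
  intro n
  have h1 := hc n
  rw [coeff_map, mem_Oint] at h1
  obtain ⟨k, hk⟩ := (IsIntegral.exists_int_iff_exists_rat h1).mp ⟨P.coeff n, rfl⟩
  rw [coeff_map]
  exact ⟨k, hk.symm⟩

/-- existence of `Φ, G, L` over `ℤ[Y]` with the explicit roots. -/
theorem exists_PhiGL (hζ : IsPrimitiveRoot ζ p) (h : Stmt_Hecke p) :
    ∃ Φ G L : Polynomial (Polynomial ℤ),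
      Φ.map (evalJ (JR p)) = ∏ i, (X - C (xR p ζ i)) ∧ Φ.Monic ∧ Φ.natDegree = p + 1 ∧
      G.map (evalJ (JR p)) = ∏ i, (X - C (yR p ζ i)) ∧ G.Monic ∧
      L.map (evalJ (JR p)) = lagr (xR p ζ) (yR p ζ) := by
  have H := mixedSum_mem_R0 p ζ hζ h
  have hu := prod_yR_unit p ζ hζ h
  have hΦ : (∏ i, (X - C (xR p ζ i))) ∈ lifts (evalJ (JR p)) := by
    rw [lifts_iff_coeff_lifts]
    intro n
    exact mem_range_evalJ p _
      (coeff_prod_X_sub_C_mem (R0 p) _ (esymmFam_mem_of_mixed (R0 p) _ _ (R0_inv p) H hu) n)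
      (coeff_prod_X_sub_C_mem_subring _ _ (xR_mem p ζ hζ) n)
  have hG : (∏ i, (X - C (yR p ζ i))) ∈ lifts (evalJ (JR p)) := by
    rw [lifts_iff_coeff_lifts]
    intro n
    exact mem_range_evalJ p _
      (coeff_prod_X_sub_C_mem (R0 p) _ (esymmFam_mem_of_mixed_right (R0 p) _ _ (R0_inv p) H) n)
      (coeff_prod_X_sub_C_mem_subring _ _ (yR_mem p ζ hζ) n)
  have hL : lagr (xR p ζ) (yR p ζ) ∈ lifts (evalJ (JR p)) := by
    rw [lifts_iff_coeff_lifts]
    intro n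
    exact mem_range_evalJ p _
      (coeff_lagr_mem (R0 p) _ _ (R0_inv p) H hu n)
      (coeff_lagr_mem_subring _ _ _ (xR_mem p ζ hζ) (yR_mem p ζ hζ) n)
  obtain ⟨Φ, hΦ1, hΦ2, hΦ3⟩ := lifts_and_natDegree_eq_and_monic hΦ (monic_prod_X_sub_C_fam _)
  obtain ⟨G, hG1, -, hG3⟩ := lifts_and_natDegree_eq_and_monic hG (monic_prod_X_sub_C_fam _)
  obtain ⟨L, hL1⟩ := (mem_lifts _).mp hL
  refine ⟨Φ, G, L, hΦ1, hΦ3, ?_, hG1, hG3, hL1⟩
  rw [hΦ2, natDegree_prod_X_sub_C_fam, Fintype.card_option, Fintype.card_fin]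

end StepD

section StepE

variable (p : ℕ) [NeZero p] (ζ : ℂˣ)

/-- `ℤ((q)) → ℂ((t))`, coefficientwise. -/
def iota1 : LaurentSeries ℤ →+* LaurentSeries ℂ := coeffMap (Int.castRingHom ℂ)

/-- `ℤ((q)) → ℂ((t))`, `q ↦ t^p`. -/
def iotaP : LaurentSeries ℤ →+* LaurentSeries ℂ := (qExpand ℂ p).comp iota1

theorem iota1_injective : Function.Injective iota1 := by
  intro f g h
  ext k
  have := congrArg (fun s : LaurentSeries ℂ => s.coeff k) h
  simp only [iota1, coeffMap_coeff] at this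
  exact (Int.castRingHom ℂ).injective_int this

theorem iotaP_injective : Function.Injective (iotaP p) :=
  (qExpand_injective p).comp iota1_injective

theorem iota1_j : iota1 (jqModC ℤ) = jqModC ℂ := coeffMap_jqModC _

theorem iota1_jp : iota1 (qExpand ℤ p (jqModC ℤ)) = JR p := by
  rw [iota1, coeffMap_qExpand, coeffMap_jqModC, JR]

theorem iotaP_j : iotaP p (jqModC ℤ) = JR p := by
  rw [iotaP, RingHom.comp_apply, iota1_j, JR]

theorem iotaP_jp : iotaP p (qExpand ℤ p (jqModC ℤ)) = xR p ζ none := by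
  rw [iotaP, RingHom.comp_apply, iota1_jp]
  rfl

theorem iotaP_gHat : iotaP p (gHat p) = yR p ζ none := by
  rw [gHat, map_mul, map_mul, map_pow, map_natCast, iotaP, RingHom.comp_apply, RingHom.comp_apply,
    iota1, coeffMap_qExpand, coeffMap_deltaHat, coeffMap_deltaHatInv]
  rfl

theorem iotaP_coeff (f : LaurentSeries ℤ) (k : ℤ) :
    (iotaP p f).coeff ((p : ℤ) * k) = ((f.coeff k : ℤ) : ℂ) := by
  rw [iotaP, RingHom.comp_apply, qExpand_coeff_mul, iota1, coeffMap_coeff]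
  rfl

theorem isLead_of_iotaP {f : LaurentSeries ℤ} {n : ℤ} (h : IsLead (iotaP p f) ((p : ℤ) * n) 1) :
    IsLead f n 1 := by
  have hp : (0 : ℤ) < p := by exact_mod_cast Nat.pos_of_ne_zero (NeZero.ne p)
  refine ⟨fun k hk => ?_, ?_⟩
  · have := h.1 ((p : ℤ) * k) (mul_lt_mul_of_pos_left hk hp)
    rw [iotaP_coeff] at this
    exact_mod_cast this
  · have := h.2
    rw [iotaP_coeff] at this
    exact_mod_cast this

theorem xR_some_zero (hp0 : 0 < p) : xR p ζ (some ⟨0, hp0⟩) = jqModC ℂ := by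
  show twist (ζ ^ 0) (jqModC ℂ) = jqModC ℂ
  rw [pow_zero, twist_one]

theorem isLead_prod_erase (hp2 : 2 ≤ p) :
    IsLead (∏ k ∈ Finset.univ.erase (none : Option (Fin p)), (xR p ζ none - xR p ζ k))
      ((p : ℤ) * (-((p : ℤ) ^ 2))) 1 := by
  have hx0 : IsLead (xR p ζ none) ((p : ℤ) * ((p : ℤ) * (-1))) 1 :=
    ((isLead_jqModC ℂ).qExpand p).qExpand p
  have hp2' : (2 : ℤ) ≤ p := by exact_mod_cast hp2
  have hk : ∀ k ∈ Finset.univ.erase (none : Option (Fin p)),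
      IsLead (xR p ζ none - xR p ζ k) ((p : ℤ) * ((p : ℤ) * (-1))) 1 := by
    intro k hk
    rcases k with _ | b
    · exact absurd rfl (Finset.mem_erase.mp hk).1
    · refine hx0.sub_of_lt ?_
      intro k' hk'
      show (twist (ζ ^ (b : ℕ)) (jqModC ℂ)).coeff k' = 0
      rw [twist_coeff, coeff_jqModC_of_lt ℂ (by nlinarith), mul_zero]
  have h := IsLead.prod (Finset.univ.erase (none : Option (Fin p)))
    (fun k => xR p ζ none - xR p ζ k) (fun _ => (p : ℤ) * ((p : ℤ) * (-1))) (fun _ => (1 : ℂ)) hk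
  refine h.congr ?_ ?_
  · rw [Finset.sum_const, Finset.card_erase_of_mem (Finset.mem_univ _), Finset.card_univ,
      Fintype.card_option, Fintype.card_fin, Nat.add_sub_cancel, nsmul_eq_mul]
    ring
  · rw [Finset.prod_const_one]

/-- **P4-LITE, core form** (any `p ≥ 2` with a primitive `p`-th root of unity `ζ ∈ ℂ`). -/
theorem primeLite_core (hp2 : 2 ≤ p) (hζ : IsPrimitiveRoot ζ p) (h : Stmt_Hecke p) :
    ∃ Φ G L : Polynomial (Polynomial ℤ),
      Φ.Monic ∧ Φ.natDegree = p + 1 ∧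
      ev2 Φ (jqModC ℤ) (qExpand ℤ p (jqModC ℤ)) = 0 ∧
      ev2 Φ (qExpand ℤ p (jqModC ℤ)) (jqModC ℤ) = 0 ∧
      G.Monic ∧ ev2 G (jqModC ℤ) (gHat p) = 0 ∧
      ev2 L (jqModC ℤ) (qExpand ℤ p (jqModC ℤ)) =
        gHat p * ev2 (derivative Φ) (jqModC ℤ) (qExpand ℤ p (jqModC ℤ)) ∧
      IsLead (ev2 (derivative Φ) (jqModC ℤ) (qExpand ℤ p (jqModC ℤ))) (-((p : ℤ) ^ 2)) 1 := by
  classical
  obtain ⟨Φ, G, L, hΦ, hΦm, hΦd, hG, hGm, hL⟩ := exists_PhiGL p ζ hζ h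
  have hp0 : 0 < p := by omega
  have hD : iotaP p (ev2 (derivative Φ) (jqModC ℤ) (qExpand ℤ p (jqModC ℤ))) =
      ∏ k ∈ Finset.univ.erase (none : Option (Fin p)), (xR p ζ none - xR p ζ k) := by
    rw [map_ev2, iotaP_j, iotaP_jp p ζ, ev2_eq_evalJ, ← derivative_map, hΦ,
      eval_derivative_prod_X_sub_C]
  refine ⟨Φ, G, L, hΦm, hΦd, ?_, ?_, hGm, ?_, ?_, ?_⟩
  · apply iotaP_injective p
    rw [map_ev2, map_zero, iotaP_j, iotaP_jp p ζ, ev2_eq_evalJ, hΦ]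
    exact eval_prod_X_sub_C_self _ none
  · apply iota1_injective
    rw [map_ev2, map_zero, iota1_jp, iota1_j, ev2_eq_evalJ, hΦ, ← xR_some_zero p ζ hp0]
    exact eval_prod_X_sub_C_self _ _
  · apply iotaP_injective p
    rw [map_ev2, map_zero, iotaP_j, iotaP_gHat p ζ, ev2_eq_evalJ, hG]
    exact eval_prod_X_sub_C_self _ none
  · apply iotaP_injective p
    rw [map_mul, hD, map_ev2, iotaP_j, iotaP_jp p ζ, iotaP_gHat p ζ, ev2_eq_evalJ, hL, eval_lagr]
  · apply isLead_of_iotaP p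
    rw [hD]
    exact isLead_prod_erase p ζ hp2

end StepE

/-- **P4-LITE**: the Hecke input gives the prime-level data over `ℤ`. -/
theorem primeLite_of_hecke (p : ℕ) [hp : Fact p.Prime] (h : Stmt_Hecke p) : PrimeLite p := by
  have : NeZero p := ⟨hp.out.ne_zero⟩
  have hprim : IsPrimitiveRoot (Complex.exp (2 * Real.pi * Complex.I / p)) p :=
    Complex.isPrimitiveRoot_exp p hp.out.ne_zero
  have hζ : IsPrimitiveRoot (hprim.isUnit hp.out.ne_zero).unit p :=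
    IsPrimitiveRoot.coe_units_iff.mp (by rw [IsUnit.unit_spec]; exact hprim)
  exact primeLite_core p _ hp.out.two_le hζ h

end

end Fermat.Agent.S28.helper2690
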