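/-
S28 (Igusa), route P, leaf P6 from P4-LITE (helper2690): prime-level Igusa.

From `PrimeLite p` (integer identities only) and a field `κ` in which `p ≠ 0`:
`j(q^p) ∉ κ(j)` inside `κ((q))`  (`nonrat_field`, `nonrat`), plus `primeRel` (F1 + F2) in the shape
announced by the captain and the fraction form `nonrat_frac`.

Proof: reduce `L(j; j_p) = ghat * Φ'(j; j_p)` to `κ`; `Φ'(j; j_p)` has a coefficient `1`, so it stays
nonzero; if `j_p ∈ κ(j)` then `ghat ∈ κ(j)`; `G` makes it integral over `κ[j]`, hence a polynomial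
`P(j)`; but `ghat = p^12 q^(p-1) + ...` has only positive exponents while `P(j)` has lowest exponent
`-deg P ≤ 0`.
-/
import Mathlib
import Fermat.Prelude.Def_ModularCurve_X0ModL
import Fermat.Agent.S28.helper328_PrimeSpec
import Fermat.Agent.S28.helper2690_PrimeLite

set_option autoImplicit false

namespace Fermat.Agent.S28.helper2690

open Polynomial ModularCurve Fermat.Agent.S28.helper328

noncomputable section

theorem ev2_mem {B : Type*} [CommRing B] (T : Subring B) (P : Polynomial (Polynomial ℤ)) {z x : B}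
    (hz : z ∈ T) (hx : x ∈ T) : ev2 P z x ∈ T := by
  have : ev2 P z x = T.subtype (ev2 P (⟨z, hz⟩ : T) ⟨x, hx⟩) :=
    (map_ev2 T.subtype P (⟨z, hz⟩ : T) ⟨x, hx⟩).symm
  rw [this]
  exact SetLike.coe_mem _

section Field

variable (κ : Type*) [Field κ]

theorem algebraMap_eq_hahnC : algebraMap κ (LaurentSeries κ) = HahnSeries.C := by
  ext c : 1
  rw [algebraMap_laurentSeries_eq_single, HahnSeries.C_apply]

theorem aeval_jqModC_eq (P : κ[X]) :
    Polynomial.aeval (jqModC κ) P = P.eval₂ HahnSeries.C (jqModC κ) := by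
  rw [aeval_def, algebraMap_eq_hahnC]

/-- `P(j)` has coefficient `lc(P)` at exponent `-deg P`. -/
theorem coeff_aeval_jqModC (P : κ[X]) :
    (Polynomial.aeval (jqModC κ) P).coeff (-(P.natDegree : ℤ)) = P.leadingCoeff := by
  rw [aeval_jqModC_eq]
  have h1 : IsLead (jqModC κ) (-((1 : ℕ) : ℤ)) 1 := by simpa using isLead_jqModC κ
  have := coeff_eval₂_top (jqModC κ) 1 one_pos h1 P
  simpa using this

theorem aeval_jqModC_inj : Function.Injective (Polynomial.aeval (R := κ) (jqModC κ)) := by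
  rw [injective_iff_map_eq_zero]
  intro P hP
  have := coeff_aeval_jqModC κ P
  rw [hP, HahnSeries.coeff_zero] at this
  exact leadingCoeff_eq_zero.mp this.symm

/-- **Prime-level Igusa (F3)** over any field in which `p ≠ 0`, from `PrimeLite p`. -/
theorem nonrat_field (p : ℕ) [hp : Fact p.Prime] (h : PrimeLite p) (hpκ : (p : κ) ≠ 0) :
    haveI : NeZero p := ⟨hp.out.ne_zero⟩
    qExpand κ p (jqModC κ) ∉ IntermediateField.adjoin κ {jqModC κ} := by
  have : NeZero p := ⟨hp.out.ne_zero⟩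
  intro hmem
  obtain ⟨Φ, G, L, -, -, -, -, hGm, hG, hL, hD⟩ := h
  have hp2 : (2 : ℤ) ≤ p := by exact_mod_cast hp.out.two_le
  set red : LaurentSeries ℤ →+* LaurentSeries κ := coeffMap (Int.castRingHom κ) with hred
  have hj : red (jqModC ℤ) = jqModC κ := coeffMap_jqModC _
  have hjp : red (qExpand ℤ p (jqModC ℤ)) = qExpand κ p (jqModC κ) := by
    rw [hred, coeffMap_qExpand, coeffMap_jqModC]
  set g : LaurentSeries κ := red (gHat p) with hg
  have hG' : ev2 G (jqModC κ) g = 0 := by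
    rw [← hj, hg, ← map_ev2, hG, map_zero]
  have hL' : ev2 L (jqModC κ) (qExpand κ p (jqModC κ)) =
      g * ev2 (derivative Φ) (jqModC κ) (qExpand κ p (jqModC κ)) := by
    rw [← hjp, ← hj, ← map_ev2, hL, map_mul, map_ev2]
  have hD' : IsLead (ev2 (derivative Φ) (jqModC κ) (qExpand κ p (jqModC κ)))
      (-((p : ℤ) ^ 2)) 1 := by
    have := hD.coeffMap (Int.castRingHom κ)
    rw [← hjp, ← hj, ← map_ev2]
    simpa using this
  have hDne : ev2 (derivative Φ) (jqModC κ) (qExpand κ p (jqModC κ)) ≠ 0 :=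
    hD'.ne_zero one_ne_zero
  have hglead : IsLead g ((p : ℤ) * 1 + (-1)) ((p : κ) ^ 12 * (1 * 1)) := by
    have e : g = (p : LaurentSeries κ) ^ 12 * (qExpand κ p (deltaHat κ) * deltaHatInv κ) := by
      rw [hg, gHat, map_mul, map_mul, map_pow, map_natCast, hred, coeffMap_qExpand,
        coeffMap_deltaHat, coeffMap_deltaHatInv, mul_assoc]
    rw [e]
    exact (((isLead_deltaHat κ).qExpand p).mul (isLead_deltaHatInv κ)).natCast_pow_mul p 12
  have hgne : g ≠ 0 := hglead.ne_zero (by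
    rw [one_mul, mul_one]; exact pow_ne_zero 12 hpκ)
  have hjE : jqModC κ ∈ IntermediateField.adjoin κ {jqModC κ} :=
    IntermediateField.mem_adjoin_simple_self κ _
  have hgE : g ∈ IntermediateField.adjoin κ {jqModC κ} := by
    have h1 : g = ev2 L (jqModC κ) (qExpand κ p (jqModC κ)) /
        ev2 (derivative Φ) (jqModC κ) (qExpand κ p (jqModC κ)) := by
      rw [hL', mul_div_assoc, div_self hDne, mul_one]
    rw [h1]
    exact div_mem
      (ev2_mem (IntermediateField.adjoin κ {jqModC κ}).toSubfield.toSubring L hjE hmem)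
      (ev2_mem (IntermediateField.adjoin κ {jqModC κ}).toSubfield.toSubring _ hjE hmem)
  obtain ⟨r, s, hrs⟩ := (IntermediateField.mem_adjoin_simple_iff κ g).mp hgE
  -- the fraction field of `κ[X]` embeds via `X ↦ j`
  have hinj : Function.Injective
      ((Polynomial.aeval (R := κ) (jqModC κ)).toRingHom : κ[X] →+* LaurentSeries κ) :=
    aeval_jqModC_inj κ
  set θ : FractionRing κ[X] →+* LaurentSeries κ := IsFractionRing.lift hinj with hθ
  set ρ : FractionRing κ[X] := algebraMap κ[X] (FractionRing κ[X]) r /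
    algebraMap κ[X] (FractionRing κ[X]) s with hρ
  have hθρ : θ ρ = g := by
    rw [hρ, map_div₀, hθ, IsFractionRing.lift_algebraMap, IsFractionRing.lift_algebraMap, hrs]
    rfl
  have hcomp : (θ.comp (algebraMap κ[X] (FractionRing κ[X]))).comp
      (mapRingHom (Int.castRingHom κ)) =
      Polynomial.eval₂RingHom (Int.castRingHom (LaurentSeries κ)) (jqModC κ) := by
    apply Polynomial.ringHom_ext
    · intro a
      simp
    · simp [hθ, IsFractionRing.lift_algebraMap]
  have hroot : Polynomial.aeval ρ (G.map (mapRingHom (Int.castRingHom κ))) = 0 := by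
    apply θ.injective
    rw [map_zero, aeval_def, hom_eval₂, hθρ, eval₂_map, hcomp, ← eval_map]
    exact hG'
  obtain ⟨P, hP⟩ := isInteger_of_is_root_of_monic (hGm.map _) hroot
  have hgP : g = Polynomial.aeval (jqModC κ) P := by
    rw [← hθρ, ← hP, hθ, IsFractionRing.lift_algebraMap]
    rfl
  have hP0 : P ≠ 0 := by
    rintro rfl
    rw [map_zero] at hgP
    exact hgne hgP
  have hc := coeff_aeval_jqModC κ P
  rw [← hgP, hglead.1 _ (by
    have : (0 : ℤ) ≤ P.natDegree := Int.natCast_nonneg _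
    omega)] at hc
  exact hP0 (leadingCoeff_eq_zero.mp hc.symm)

/-- fraction form of F3. -/
theorem nonrat_frac (p : ℕ) [hp : Fact p.Prime] (h : PrimeLite p) (hpκ : (p : κ) ≠ 0) :
    haveI : NeZero p := ⟨hp.out.ne_zero⟩
    ¬ ∃ a b : κ[X], b ≠ 0 ∧
      Polynomial.aeval (jqModC κ) b * qExpand κ p (jqModC κ) = Polynomial.aeval (jqModC κ) a := by
  have : NeZero p := ⟨hp.out.ne_zero⟩
  rintro ⟨a, b, hb, hab⟩
  refine nonrat_field κ p h hpκ ?_
  rw [IntermediateField.mem_adjoin_simple_iff]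
  refine ⟨a, b, ?_⟩
  have hb' : Polynomial.aeval (jqModC κ) b ≠ 0 := fun h0 =>
    hb (aeval_jqModC_inj κ (by rw [h0, map_zero]))
  rw [← hab, mul_div_cancel_left₀ _ hb']

end Field

/-- **F3** in the captain's shape: `V_p jbar ∉ F_l(jbar)` for primes `p ≠ l`. -/
theorem nonrat (p l : ℕ) [hp : Fact p.Prime] [hl : Fact l.Prime] (hpl : p ≠ l) (h : PrimeLite p) :
    haveI : NeZero p := ⟨hp.out.ne_zero⟩
    qExpand (ZMod l) p (jqModC (ZMod l)) ∉
      IntermediateField.adjoin (ZMod l) {jqModC (ZMod l)} := by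
  refine nonrat_field (ZMod l) p h ?_
  intro h0
  rw [ZMod.natCast_eq_zero_iff] at h0
  exact hpl ((Nat.prime_dvd_prime_iff_eq hl.out hp.out).mp h0).symm

/-- **F1 + F2** over `ℤ` in the captain's shape. -/
theorem primeRel (p : ℕ) [hp : Fact p.Prime] (h : PrimeLite p) :
    haveI : NeZero p := ⟨hp.out.ne_zero⟩
    ∃ Φ : Polynomial (Polynomial ℤ), Φ.Monic ∧ Φ.natDegree = p + 1 ∧
      (Φ.map (evalJ (jqModC ℤ))).eval (qExpand ℤ p (jqModC ℤ)) = 0 ∧
      (Φ.map (evalJ (qExpand ℤ p (jqModC ℤ)))).eval (jqModC ℤ) = 0 := by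
  obtain ⟨Φ, G, L, hm, hd, h1, h2, -⟩ := h
  exact ⟨Φ, hm, hd, h1, h2⟩

/-- F1 + F2 over an arbitrary commutative ring (base change of `primeRel`). -/
theorem primeRel_ring (p : ℕ) [hp : Fact p.Prime] (h : PrimeLite p) (R : Type*) [CommRing R] :
    haveI : NeZero p := ⟨hp.out.ne_zero⟩
    ∃ Φ : Polynomial (Polynomial ℤ), Φ.Monic ∧ Φ.natDegree = p + 1 ∧
      (Φ.map (evalJ (jqModC R))).eval (qExpand R p (jqModC R)) = 0 ∧
      (Φ.map (evalJ (qExpand R p (jqModC R)))).eval (jqModC R) = 0 := by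
  have : NeZero p := ⟨hp.out.ne_zero⟩
  obtain ⟨Φ, G, L, hm, hd, h1, h2, -⟩ := h
  have hj : coeffMap (Int.castRingHom R) (jqModC ℤ) = jqModC R := coeffMap_jqModC _
  have hjp : coeffMap (Int.castRingHom R) (qExpand ℤ p (jqModC ℤ)) = qExpand R p (jqModC R) := by
    rw [coeffMap_qExpand, coeffMap_jqModC]
  refine ⟨Φ, hm, hd, ?_, ?_⟩
  · have := congrArg (coeffMap (Int.castRingHom R)) h1
    rwa [map_ev2, map_zero, hj, hjp] at this
  · have := congrArg (coeffMap (Int.castRingHom R)) h2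
    rwa [map_ev2, map_zero, hj, hjp] at this

end

end Fermat.Agent.S28.helper2690
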