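import Mathlib
import Fermat.Agent.S28.helper2788_CosetPoly

/-!
# Lagrange interpolation for an `SL(2,ℤ)`-permuted family (leaf LA-LAGR of S28, route E light)

Let `S` be a finite `SL(2,ℤ)`-set and `F, H : S → ℍ → ℂ` two families of holomorphic functions of
moderate growth at `i∞`, both permuted by `SL(2,ℤ)`.  Then the Lagrange polynomial
`∑ x, H x τ * ∏_{y ≠ x} (X - F y τ)` has coefficients which are polynomials in `jInv τ`.

Specialisation: `S = SL(2,ℤ) ⧸ Γ`, `F x τ = f (x.out⁻¹ • τ)`, `H x τ = h (x.out⁻¹ • τ)` for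
`Γ`-invariant `f, h`: there is `G ∈ ℂ[j][Y]` with `G(j τ, f τ) = h τ * χ'(f τ)`, where
`χ = ∏_x (Y - f (x.out⁻¹ • τ))`.
-/

set_option autoImplicit false

namespace Fermat.Agent.S28.helper2788

open UpperHalfPlane ModularForm MatrixGroups Filter Polynomial
open Fermat.Agent.Lib.helper843 (jInv)
open scoped Manifold

local notation "Δ" => ModularForm.discriminant

section algebra

variable {R : Type*} [CommRing R] {ι : Type*} [Fintype ι] [DecidableEq ι]

/-- Evaluating the Lagrange polynomial `∑ x, b x * ∏_{y ≠ x} (X - a y)` at the node `a i₀`. -/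
lemma eval_lagrange_sum (a b : ι → R) (i₀ : ι) :
    (∑ x : ι, C (b x) * ∏ y ∈ Finset.univ.erase x, (X - C (a y))).eval (a i₀) =
      b i₀ * ∏ y ∈ Finset.univ.erase i₀, (a i₀ - a y) := by
  rw [Polynomial.eval_finsetSum]
  rw [Finset.sum_eq_single i₀]
  · simp [Polynomial.eval_prod]
  · intro x _ hx
    rw [Polynomial.eval_mul, Polynomial.eval_prod]
    have : ∏ y ∈ Finset.univ.erase x, Polynomial.eval (a i₀) (X - C (a y)) = 0 := by
      apply Finset.prod_eq_zero (i := i₀)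
      · exact Finset.mem_erase.mpr ⟨fun h => hx h.symm, Finset.mem_univ _⟩
      · simp
    rw [this, mul_zero]
  · intro h
    exact absurd (Finset.mem_univ _) h

/-- The derivative of `∏ y, (X - a y)` at the node `a i₀`. -/
lemma eval_derivative_prod_X_sub_C (a : ι → R) (i₀ : ι) :
    (derivative (∏ y : ι, (X - C (a y)))).eval (a i₀) =
      ∏ y ∈ Finset.univ.erase i₀, (a i₀ - a y) := by
  rw [Polynomial.derivative_prod_finset]
  have h := eval_lagrange_sum a (fun _ => (1 : R)) i₀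
  simp only [map_one, one_mul] at h
  rw [← h]
  congr 1
  refine Finset.sum_congr rfl fun x _ => ?_
  simp

end algebra

/-- **Lagrange polynomial of an `SL(2,ℤ)`-permuted pair of families.**  The coefficients of
`∑ x, H x τ * ∏_{y ≠ x} (X - F y τ)` are polynomials in `jInv τ`. -/
theorem exists_lagrange_of_permuted_family {S : Type*} [Fintype S] [DecidableEq S]
    [MulAction SL(2, ℤ) S] (F H : S → ℍ → ℂ)
    (hF : ∀ x, ModGrowth (F x)) (hH : ∀ x, ModGrowth (H x))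
    (hFe : ∀ (g : SL(2, ℤ)) (x : S) (τ : ℍ), F (g • x) (g • τ) = F x τ)
    (hHe : ∀ (g : SL(2, ℤ)) (x : S) (τ : ℍ), H (g • x) (g • τ) = H x τ) :
    ∃ G : Polynomial (Polynomial ℂ), ∀ τ : ℍ,
      G.map (Polynomial.evalRingHom (jInv τ)) =
        ∑ x : S, C (H x τ) * ∏ y ∈ Finset.univ.erase x, (X - C (F y τ)) := by
  -- the Lagrange polynomial with function coefficients
  set Rf : Polynomial (ℍ → ℂ) :=
    ∑ x : S, C (H x) * ∏ y ∈ Finset.univ.erase x, (X - C (F y)) with hRf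
  -- its coefficients have moderate growth
  have hcoeff_mem : ∀ k, ModGrowth (Rf.coeff k) := by
    intro k
    let Ft : S → modGrowthSubalgebra := fun x => ⟨F x, hF x⟩
    let Ht : S → modGrowthSubalgebra := fun x => ⟨H x, hH x⟩
    have hmap : Rf = (∑ x : S, C (Ht x) * ∏ y ∈ Finset.univ.erase x, (X - C (Ft y))).map
        (modGrowthSubalgebra.val : _ →+* (ℍ → ℂ)) := by
      rw [hRf, Polynomial.map_sum]
      refine Finset.sum_congr rfl fun x _ => ?_
      rw [Polynomial.map_mul, Polynomial.map_prod]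
      congr 1
      · simp [Ht]
      · refine Finset.prod_congr rfl fun y _ => ?_
        simp [Ft]
    rw [hmap, Polynomial.coeff_map]
    exact ((∑ x : S, C (Ht x) * ∏ y ∈ Finset.univ.erase x, (X - C (Ft y))).coeff k).2
  -- evaluation at a point
  have heval : ∀ τ : ℍ, Rf.map (Pi.evalRingHom (fun _ : ℍ => ℂ) τ) =
      ∑ x : S, C (H x τ) * ∏ y ∈ Finset.univ.erase x, (X - C (F y τ)) := by
    intro τ
    rw [hRf, Polynomial.map_sum]
    refine Finset.sum_congr rfl fun x _ => ?_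
    rw [Polynomial.map_mul, Polynomial.map_prod]
    congr 1
    · simp
    · refine Finset.prod_congr rfl fun y _ => ?_
      simp
  -- invariance
  have hinv : ∀ (g : SL(2, ℤ)) (k : ℕ) (τ : ℍ), Rf.coeff k (g • τ) = Rf.coeff k τ := by
    intro g k τ
    have hFg : ∀ x : S, compHom (fun τ => g • τ) (F x) = F (g⁻¹ • x) := by
      intro x
      funext τ
      have := hFe g (g⁻¹ • x) τ
      rw [smul_inv_smul] at this
      simpa using this
    have hHg : ∀ x : S, compHom (fun τ => g • τ) (H x) = H (g⁻¹ • x) := by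
      intro x
      funext τ
      have := hHe g (g⁻¹ • x) τ
      rw [smul_inv_smul] at this
      simpa using this
    have h1 : Rf.map (compHom (fun τ => g • τ)) = Rf := by
      rw [hRf, Polynomial.map_sum]
      have hterm : ∀ x : S,
          (C (H x) * ∏ y ∈ Finset.univ.erase x, (X - C (F y))).map (compHom (fun τ => g • τ)) =
            C (H (g⁻¹ • x)) * ∏ y ∈ Finset.univ.erase (g⁻¹ • x), (X - C (F y)) := by
        intro x
        rw [Polynomial.map_mul, Polynomial.map_prod, Polynomial.map_C, hHg]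
        congr 1
        refine Finset.prod_equiv (MulAction.toPerm g⁻¹) ?_ ?_
        · intro y
          simp only [Finset.mem_erase, Finset.mem_univ, and_true, MulAction.toPerm_apply]
          exact (smul_left_cancel_iff g⁻¹).not.symm
        · intro y _
          simp only [Polynomial.map_sub, Polynomial.map_X, Polynomial.map_C, hFg,
            MulAction.toPerm_apply]
      simp_rw [hterm]
      exact Fintype.sum_equiv (MulAction.toPerm g⁻¹) _ _ (fun x => rfl)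
    have h2 := congrArg (fun p => p.coeff k τ) h1
    simpa [Polynomial.coeff_map] using h2
  -- apply the level one structure theorem
  have hex : ∀ k, ∃ P : Polynomial ℂ, ∀ τ, Rf.coeff k τ = P.eval (jInv τ) := by
    intro k
    obtain ⟨hmd, m, hm⟩ := hcoeff_mem k
    obtain ⟨P, -, hP⟩ := Fermat.Agent.Lib.helper843.exists_polynomial_jInv hmd
      (fun γ z => hinv γ k z) m hm
    exact ⟨P, hP⟩
  choose P hP using hex
  refine ⟨∑ k ∈ Finset.range (Rf.natDegree + 1), C (P k) * X ^ k, fun τ => ?_⟩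
  rw [← heval τ]
  conv_rhs => rw [Polynomial.as_sum_range_C_mul_X_pow Rf]
  rw [Polynomial.map_sum, Polynomial.map_sum]
  refine Finset.sum_congr rfl fun k _ => ?_
  simp only [Polynomial.map_mul, Polynomial.map_pow, Polynomial.map_X, Polynomial.map_C,
    Polynomial.coe_evalRingHom, Pi.evalRingHom_apply]
  rw [hP k τ]

/-- Equivariance of the coset family `x ↦ f (x.out⁻¹ • τ)` attached to a `Γ`-invariant `f`. -/
lemma coset_family_equivariant (Γ : Subgroup SL(2, ℤ)) (f : ℍ → ℂ)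
    (hinv : ∀ g ∈ Γ, ∀ τ : ℍ, f (g • τ) = f τ) (g : SL(2, ℤ)) (x : SL(2, ℤ) ⧸ Γ) (τ : ℍ) :
    f ((Quotient.out (g • x) : SL(2, ℤ))⁻¹ • g • τ) = f ((Quotient.out x : SL(2, ℤ))⁻¹ • τ) := by
  obtain ⟨h, hh⟩ := QuotientGroup.mk_out_eq_mul Γ (g * Quotient.out x)
  have hx : g • x = ((g * Quotient.out x : SL(2, ℤ)) : SL(2, ℤ) ⧸ Γ) := by
    conv_lhs => rw [← QuotientGroup.out_eq' x]
    rfl
  rw [hx, hh]
  have e : (g * Quotient.out x * (h : SL(2, ℤ)))⁻¹ • g • τ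
      = ((h : SL(2, ℤ))⁻¹) • ((Quotient.out x : SL(2, ℤ))⁻¹ • τ) := by
    rw [mul_inv_rev, mul_inv_rev, mul_smul, mul_smul, inv_smul_smul]
  rw [e]
  exact hinv _ (Γ.inv_mem h.2) _

/-- The member of the coset family at the trivial coset is `f` itself. -/
lemma coset_family_one (Γ : Subgroup SL(2, ℤ)) (f : ℍ → ℂ)
    (hinv : ∀ g ∈ Γ, ∀ τ : ℍ, f (g • τ) = f τ) (τ : ℍ) :
    f ((Quotient.out ((1 : SL(2, ℤ)) : SL(2, ℤ) ⧸ Γ) : SL(2, ℤ))⁻¹ • τ) = f τ := by
  obtain ⟨h, hh⟩ := QuotientGroup.mk_out_eq_mul Γ (1 : SL(2, ℤ))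
  rw [hh, one_mul]
  exact hinv _ (Γ.inv_mem h.2) _

/-- **Lagrange interpolation on cosets (leaf LA-LAGR).**  For a subgroup `Γ ≤ SL(2,ℤ)` of finite
index and holomorphic `Γ`-invariant functions `f, h` all of whose translates have moderate growth
at `i∞`, there is `G ∈ ℂ[j][Y]` with
`G(j τ, f τ) = h τ * χ'(f τ)`, `χ = ∏_{x ∈ SL(2,ℤ)/Γ} (Y - f (x⁻¹ τ))`. -/
theorem exists_lagrange_of_invariant (Γ : Subgroup SL(2, ℤ)) [Fintype (SL(2, ℤ) ⧸ Γ)]
    (f h : ℍ → ℂ) (hf : MDiff f) (hh : MDiff h)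
    (hinvf : ∀ g ∈ Γ, ∀ τ : ℍ, f (g • τ) = f τ)
    (hinvh : ∀ g ∈ Γ, ∀ τ : ℍ, h (g • τ) = h τ)
    (hgrowthf : ∀ γ : SL(2, ℤ), ∃ m : ℕ, IsBoundedAtImInfty (fun τ => Δ τ ^ m * f (γ • τ)))
    (hgrowthh : ∀ γ : SL(2, ℤ), ∃ m : ℕ, IsBoundedAtImInfty (fun τ => Δ τ ^ m * h (γ • τ))) :
    ∃ G : Polynomial (Polynomial ℂ), ∀ τ : ℍ,
      (G.map (Polynomial.evalRingHom (jInv τ))).eval (f τ) =
        h τ * (derivative (∏ x : SL(2, ℤ) ⧸ Γ,
          (X - C (f ((Quotient.out x : SL(2, ℤ))⁻¹ • τ))))).eval (f τ) := by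
  classical
  obtain ⟨G, hG⟩ := exists_lagrange_of_permuted_family
    (fun (x : SL(2, ℤ) ⧸ Γ) τ => f ((Quotient.out x : SL(2, ℤ))⁻¹ • τ))
    (fun (x : SL(2, ℤ) ⧸ Γ) τ => h ((Quotient.out x : SL(2, ℤ))⁻¹ • τ))
    (fun x => ⟨mdifferentiable_comp_smul hf _, hgrowthf _⟩)
    (fun x => ⟨mdifferentiable_comp_smul hh _, hgrowthh _⟩)
    (fun g x τ => coset_family_equivariant Γ f hinvf g x τ)
    (fun g x τ => coset_family_equivariant Γ h hinvh g x τ)
  refine ⟨G, fun τ => ?_⟩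
  set x₀ : SL(2, ℤ) ⧸ Γ := ((1 : SL(2, ℤ)) : SL(2, ℤ) ⧸ Γ) with hx₀
  have hf₀ : f ((Quotient.out x₀ : SL(2, ℤ))⁻¹ • τ) = f τ := coset_family_one Γ f hinvf τ
  have hh₀ : h ((Quotient.out x₀ : SL(2, ℤ))⁻¹ • τ) = h τ := coset_family_one Γ h hinvh τ
  rw [hG τ]
  have h1 := eval_lagrange_sum
    (fun x : SL(2, ℤ) ⧸ Γ => f ((Quotient.out x : SL(2, ℤ))⁻¹ • τ))
    (fun x : SL(2, ℤ) ⧸ Γ => h ((Quotient.out x : SL(2, ℤ))⁻¹ • τ)) x₀
  have h2 := eval_derivative_prod_X_sub_C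
    (fun x : SL(2, ℤ) ⧸ Γ => f ((Quotient.out x : SL(2, ℤ))⁻¹ • τ)) x₀
  simp only [hf₀, hh₀] at h1 h2
  rw [h1, h2]

/-- Variant of `exists_lagrange_of_invariant` for a given `χ ∈ ℂ[j][Y]` specialising to the coset
polynomial. -/
theorem exists_lagrange_of_invariant' (Γ : Subgroup SL(2, ℤ)) [Fintype (SL(2, ℤ) ⧸ Γ)]
    (f h : ℍ → ℂ) (hf : MDiff f) (hh : MDiff h)
    (hinvf : ∀ g ∈ Γ, ∀ τ : ℍ, f (g • τ) = f τ)
    (hinvh : ∀ g ∈ Γ, ∀ τ : ℍ, h (g • τ) = h τ)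
    (hgrowthf : ∀ γ : SL(2, ℤ), ∃ m : ℕ, IsBoundedAtImInfty (fun τ => Δ τ ^ m * f (γ • τ)))
    (hgrowthh : ∀ γ : SL(2, ℤ), ∃ m : ℕ, IsBoundedAtImInfty (fun τ => Δ τ ^ m * h (γ • τ)))
    (χ : Polynomial (Polynomial ℂ))
    (hχ : ∀ τ : ℍ, χ.map (Polynomial.evalRingHom (jInv τ)) =
      ∏ x : SL(2, ℤ) ⧸ Γ, (X - C (f ((Quotient.out x : SL(2, ℤ))⁻¹ • τ)))) :
    ∃ G : Polynomial (Polynomial ℂ), ∀ τ : ℍ,
      (G.map (Polynomial.evalRingHom (jInv τ))).eval (f τ) =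
        h τ * ((derivative χ).map (Polynomial.evalRingHom (jInv τ))).eval (f τ) := by
  obtain ⟨G, hG⟩ := exists_lagrange_of_invariant Γ f h hf hh hinvf hinvh hgrowthf hgrowthh
  refine ⟨G, fun τ => ?_⟩
  rw [hG τ, ← hχ τ, Polynomial.derivative_map]

/-- The ring homomorphism `ℂ[j] → (ℍ → ℂ)`, `P ↦ P ∘ jInv`. -/
noncomputable def jFunHom : Polynomial ℂ →+* (ℍ → ℂ) :=
  (Polynomial.aeval (jInv : ℍ → ℂ)).toRingHom

lemma jFunHom_apply (P : Polynomial ℂ) (τ : ℍ) : jFunHom P τ = P.eval (jInv τ) := by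
  unfold jFunHom
  induction P using Polynomial.induction_on' with
  | add p q hp hq =>
    simp only [AlgHom.toRingHom_eq_coe, RingHom.coe_coe, map_add, Pi.add_apply,
      Polynomial.eval_add] at hp hq ⊢
    rw [hp, hq]
  | monomial n a =>
    simp [Polynomial.aeval_monomial]

lemma evalRingHom_comp_jFunHom (τ : ℍ) :
    (Pi.evalRingHom (fun _ : ℍ => ℂ) τ).comp jFunHom = Polynomial.evalRingHom (jInv τ) := by
  ext P
  · simp [jFunHom_apply]
  · simp [jFunHom_apply]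

/-- Pointwise value of a two-variable polynomial evaluated in the ring of functions. -/
lemma eval₂_jFunHom_apply (G : Polynomial (Polynomial ℂ)) (f : ℍ → ℂ) (τ : ℍ) :
    G.eval₂ jFunHom f τ = (G.map (Polynomial.evalRingHom (jInv τ))).eval (f τ) := by
  have h := Polynomial.hom_eval₂ G jFunHom (Pi.evalRingHom (fun _ : ℍ => ℂ) τ) f
  rw [evalRingHom_comp_jFunHom] at h
  rw [Polynomial.eval_map]
  exact h

/-- **Lagrange interpolation on cosets, in the ring of functions `ℍ → ℂ`** (the form consumed by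
a dictionary `merAlg → ℂ((q))`): `G(j, f) = h * χ'(j, f)` as functions on `ℍ`. -/
theorem exists_lagrange_fun (Γ : Subgroup SL(2, ℤ)) [Fintype (SL(2, ℤ) ⧸ Γ)]
    (f h : ℍ → ℂ) (hf : MDiff f) (hh : MDiff h)
    (hinvf : ∀ g ∈ Γ, ∀ τ : ℍ, f (g • τ) = f τ)
    (hinvh : ∀ g ∈ Γ, ∀ τ : ℍ, h (g • τ) = h τ)
    (hgrowthf : ∀ γ : SL(2, ℤ), ∃ m : ℕ, IsBoundedAtImInfty (fun τ => Δ τ ^ m * f (γ • τ)))
    (hgrowthh : ∀ γ : SL(2, ℤ), ∃ m : ℕ, IsBoundedAtImInfty (fun τ => Δ τ ^ m * h (γ • τ)))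
    (χ : Polynomial (Polynomial ℂ))
    (hχ : ∀ τ : ℍ, χ.map (Polynomial.evalRingHom (jInv τ)) =
      ∏ x : SL(2, ℤ) ⧸ Γ, (X - C (f ((Quotient.out x : SL(2, ℤ))⁻¹ • τ)))) :
    ∃ G : Polynomial (Polynomial ℂ),
      G.eval₂ jFunHom f = h * (derivative χ).eval₂ jFunHom f := by
  obtain ⟨G, hG⟩ := exists_lagrange_of_invariant' Γ f h hf hh hinvf hinvh hgrowthf hgrowthh χ hχ
  refine ⟨G, ?_⟩
  funext τ
  rw [Pi.mul_apply, eval₂_jFunHom_apply, eval₂_jFunHom_apply]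
  exact hG τ

end Fermat.Agent.S28.helper2788
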