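/-
S28 (Igusa), route P, leaf package for P4 (`Stmt_Hecke p → Stmt_FormalPrime p`).
Author: helper2802.

Calculus of the substitution homomorphisms on Laurent series used in
`Fermat.Agent.S28.helper328` (`twist`, `Jsub`, `evalJ`) together with the Prelude's
`qExpand` and `coeffMap`, and the ROOT-FORMULA BASE CHANGE: an identity
`Φ(X, ĵ(s^p)) = (X - ĵ(s^(p^2))) * ∏_b (X - ĵ(ω^b s))` over `R((s))` (`R` any commutative ring
with a unit `ω`) specialises, along any ring hom `σ : R →+* k`, `s ↦ ξ t^m`, to the root formula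
in the shape of the last clause of `helper328.Stmt_FormalPrime`.
-/
import Fermat.Agent.S28.helper328_PrimeSpec

set_option autoImplicit false

namespace Fermat.Agent.S28.helper2802

open Polynomial ModularCurve
open Fermat.Agent.S28.helper328

noncomputable section

variable {R S : Type*} [CommRing R] [CommRing S]

/-! ### `twist` -/

@[simp] theorem twist_one (x : LaurentSeries R) : twist (1 : Rˣ) x = x := by
  ext n
  simp

theorem twist_twist (ξ ζ : Rˣ) (x : LaurentSeries R) :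
    twist ξ (twist ζ x) = twist (ξ * ζ) x := by
  ext n
  simp only [twist_coeff, mul_zpow, Units.val_mul]
  ring

theorem twist_injective (ξ : Rˣ) : Function.Injective (twist ξ : LaurentSeries R → _) := by
  intro x y h
  have := congrArg (twist ξ⁻¹) h
  simpa [twist_twist] using this

theorem coeffMap_twist (σ : R →+* S) (ζ : Rˣ) (x : LaurentSeries R) :
    coeffMap σ (twist ζ x) = twist (Units.map (σ : R →* S) ζ) (coeffMap σ x) := by
  ext n
  simp only [coeffMap_coeff, twist_coeff, map_mul]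
  congr 1
  rw [← map_zpow]
  rfl

theorem twist_qExpand (n : ℕ) [NeZero n] (ξ : Rˣ) (x : LaurentSeries R) :
    twist ξ (qExpand R n x) = qExpand R n (twist (ξ ^ n) x) := by
  ext k
  by_cases hk : (n : ℤ) ∣ k
  · obtain ⟨m, rfl⟩ := hk
    rw [twist_coeff, qExpand_coeff_mul, qExpand_coeff_mul, twist_coeff]
    congr 2
    rw [zpow_mul, zpow_natCast]
  · rw [twist_coeff, qExpand_coeff_of_not_dvd n _ hk, qExpand_coeff_of_not_dvd n _ hk, mul_zero]

/-! ### `evalJ` -/

theorem evalJ_X (J : LaurentSeries R) : evalJ J X = J := by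
  simp [evalJ]

/-- Naturality of `evalJ` with respect to ring homomorphisms. -/
theorem comp_evalJ (θ : LaurentSeries R →+* LaurentSeries S) (J : LaurentSeries R) :
    θ.comp (evalJ J) = evalJ (θ J) := by
  refine Polynomial.ringHom_ext' (RingHom.ext_int _ _) ?_
  simp [evalJ]

theorem apply_evalJ (θ : LaurentSeries R →+* LaurentSeries S) (J : LaurentSeries R)
    (P : Polynomial ℤ) : θ (evalJ J P) = evalJ (θ J) P := by
  rw [← comp_evalJ]
  rfl

/-- `evalJ` as `Polynomial.aeval`. -/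
theorem evalJ_eq_aeval (J : LaurentSeries R) (P : Polynomial ℤ) :
    evalJ J P = Polynomial.aeval J P := by
  rw [Polynomial.aeval_def, evalJ, Polynomial.coe_eval₂RingHom]
  congr 1
  exact RingHom.ext_int _ _

/-! ### The substitution `f(s) ↦ f^σ(ξ t^m)` -/

/-- The ring hom `R((s)) → k((t))`, `f(s) ↦ f^σ(ξ t^m)`. -/
def substHom (σ : R →+* S) (ξ : Sˣ) (m : ℕ) [NeZero m] : LaurentSeries R →+* LaurentSeries S :=
  (qExpand S m).comp ((twist ξ).comp (coeffMap σ))

theorem substHom_apply (σ : R →+* S) (ξ : Sˣ) (m : ℕ) [NeZero m] (x : LaurentSeries R) :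
    substHom σ ξ m x = qExpand S m (twist ξ (coeffMap σ x)) := rfl

theorem substHom_qExpand_jqModC (σ : R →+* S) (ξ : Sˣ) (m : ℕ) [NeZero m] (n : ℕ) [NeZero n] :
    substHom σ ξ m (qExpand R n (jqModC R)) = qExpand S (m * n) (twist (ξ ^ n) (jqModC S)) := by
  rw [substHom_apply, coeffMap_qExpand, coeffMap_jqModC, twist_qExpand, qExpand_qExpand]

theorem substHom_twist_jqModC (σ : R →+* S) (ξ : Sˣ) (m : ℕ) [NeZero m] (ζ : Rˣ) :
    substHom σ ξ m (twist ζ (jqModC R)) =
      qExpand S m (twist (Units.map (σ : R →* S) ζ * ξ) (jqModC S)) := by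
  rw [substHom_apply, coeffMap_twist, coeffMap_jqModC, twist_twist, mul_comm]

/-! ### `Jsub` -/

theorem Jsub_def (k : Type*) [CommRing k] (ζ : kˣ) (m : ℕ+) :
    Jsub k ζ m = qExpand k (m : ℕ) (twist ζ (jqModC k)) := rfl

theorem Jsub_eq_of_eq (k : Type*) [CommRing k] (ζ : kˣ) (m : ℕ+) (n : ℕ) [NeZero n]
    (h : n = (m : ℕ)) : qExpand k n (twist ζ (jqModC k)) = Jsub k ζ m := by
  subst h
  rfl

/-! ### Root-formula base change -/

/-- ROOT-FORMULA BASE CHANGE, general form.  If `Φ(X, ĵ(s^p))` splits over `R((s))` as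
`(X - ĵ(s^(p^2))) * ∏_{b<p} (X - ĵ(ω^b s))`, then for every ring hom `σ : R →+* k`, every unit `ξ`
of `k` and every `m`, `Φ(X, J(ξ^p t^(pm)))` splits over `k((t))` as
`(X - J(ξ^(p^2) t^(p^2 m))) * ∏_{b<p} (X - J(σ(ω)^b ξ t^m))`
(`J(c t^a) = Jsub k c a`).  This is the shape of the last clause of
`helper328.Stmt_FormalPrime`. -/
theorem root_formula_map (p : ℕ) (hp : 0 < p) [NeZero p] (Φ : Polynomial (Polynomial ℤ))
    (ω : Rˣ)
    (hΦ : Φ.map (evalJ (qExpand R p (jqModC R))) =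
      (X - C (qExpand R (p ^ 2) (jqModC R))) *
        ∏ b ∈ Finset.range p, (X - C (twist (ω ^ b) (jqModC R))))
    (k : Type*) [CommRing k] (σ : R →+* k) (ξ : kˣ) (m : ℕ+) :
    Φ.map (evalJ (Jsub k (ξ ^ p) (⟨p, hp⟩ * m))) =
      (X - C (Jsub k (ξ ^ (p ^ 2)) (⟨p, hp⟩ ^ 2 * m))) *
        ∏ b ∈ Finset.range p, (X - C (Jsub k ((Units.map (σ : R →* k) ω) ^ b * ξ) m)) := by
  have key := congrArg (Polynomial.map (substHom σ ξ (m : ℕ))) hΦ
  rw [Polynomial.map_map, comp_evalJ, substHom_qExpand_jqModC] at key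
  simp only [Polynomial.map_mul, Polynomial.map_sub, Polynomial.map_X, Polynomial.map_C,
    Polynomial.map_prod, substHom_qExpand_jqModC, substHom_twist_jqModC, map_pow] at key
  have h1 : qExpand k ((m : ℕ) * p) (twist (ξ ^ p) (jqModC k)) =
      Jsub k (ξ ^ p) (⟨p, hp⟩ * m) :=
    Jsub_eq_of_eq k _ _ _ (by rw [PNat.mul_coe, PNat.mk_coe, mul_comm])
  have h2 : qExpand k ((m : ℕ) * p ^ 2) (twist (ξ ^ (p ^ 2)) (jqModC k)) =
      Jsub k (ξ ^ (p ^ 2)) (⟨p, hp⟩ ^ 2 * m) :=
    Jsub_eq_of_eq k _ _ _ (by rw [PNat.mul_coe, PNat.pow_coe, PNat.mk_coe, mul_comm])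
  rw [h1, h2] at key
  exact key

end

end Fermat.Agent.S28.helper2802
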