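/-
S28 (Igusa), route P, leaf package for P4 (`Stmt_Hecke p → Stmt_FormalPrime p`).
Author: helper2802.

The universal cyclotomic ring `Rp p = ℤ[X]/(Φ_p) = ℤ[ω]` for a prime `p`:
domain of characteristic zero, `ω` a primitive `p`-th root of unity (as a unit), the
orthogonality relations, a `ℤ`-linear retraction `Rp p → ℤ` (so `ℤ` is saturated in `Rp p`),
the specialisation `Rp p →+* k`, `ω ↦ ω'` for any primitive `p`-th root of unity `ω'` in a
field, and the root-formula base change from `Rp p` to all such fields.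
-/
import Fermat.Agent.S28.helper2802_TwistCalc

set_option autoImplicit false

namespace Fermat.Agent.S28.helper2802

open Polynomial ModularCurve
open Fermat.Agent.S28.helper328

noncomputable section

/-- The universal cyclotomic ring `ℤ[ω]`, `ω` a primitive `p`-th root of unity. -/
abbrev Rp (p : ℕ) : Type := AdjoinRoot (cyclotomic p ℤ)

section Prime

variable (p : ℕ) [hp : Fact p.Prime]

instance Rp.instIsDomain : IsDomain (Rp p) :=
  AdjoinRoot.isDomain_of_prime
    (UniqueFactorizationMonoid.irreducible_iff_prime.mp (cyclotomic.irreducible hp.out.pos))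

theorem Rp.intCast_injective : Function.Injective (Int.cast : ℤ → Rp p) := by
  have h : Function.Injective (AdjoinRoot.of (cyclotomic p ℤ)) := by
    apply AdjoinRoot.of.injective_of_degree_ne_zero
    rw [degree_cyclotomic, Nat.totient_prime hp.out]
    have := hp.out.two_le
    intro h0
    have h1 : ((p - 1 : ℕ) : WithBot ℕ) = ((0 : ℕ) : WithBot ℕ) := h0
    have h2 : p - 1 = 0 := by exact_mod_cast h1
    omega
  intro a b hab
  apply h
  simpa using hab

instance Rp.instCharZero : CharZero (Rp p) :=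
  charZero_of_injective_ringHom (f := Int.castRingHom (Rp p)) (Rp.intCast_injective p)

/-- The root `ω` of the cyclotomic polynomial, as an element of `Rp p`. -/
def Rp.ωv : Rp p := AdjoinRoot.root (cyclotomic p ℤ)

theorem Rp.isPrimitiveRoot_ωv : IsPrimitiveRoot (Rp.ωv p) p := by
  have : NeZero ((p : ℕ) : Rp p) := ⟨by exact_mod_cast hp.out.ne_zero⟩
  rw [← isRoot_cyclotomic_iff]
  have hmap : cyclotomic p (Rp p) = (cyclotomic p ℤ).map (Int.castRingHom (Rp p)) :=
    (map_cyclotomic_int p (Rp p)).symm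
  rw [hmap, IsRoot.def, eval_map]
  have h := AdjoinRoot.eval₂_root (cyclotomic p ℤ)
  rwa [show AdjoinRoot.of (cyclotomic p ℤ) = Int.castRingHom (Rp p) from RingHom.ext_int _ _] at h

/-- The primitive `p`-th root of unity `ω`, as a unit of `Rp p`. -/
def Rp.ω : (Rp p)ˣ := ((Rp.isPrimitiveRoot_ωv p).isUnit hp.out.ne_zero).unit

@[simp] theorem Rp.coe_ω : ((Rp.ω p : (Rp p)ˣ) : Rp p) = Rp.ωv p := rfl

theorem Rp.isPrimitiveRoot_ω : IsPrimitiveRoot (Rp.ω p) p :=
  IsPrimitiveRoot.coe_units_iff.mp (Rp.isPrimitiveRoot_ωv p)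

theorem Rp.ω_pow_p : Rp.ω p ^ p = 1 := (Rp.isPrimitiveRoot_ω p).pow_eq_one

end Prime

/-! ### Orthogonality -/

/-- Orthogonality relations for a primitive `p`-th root of unity `ω` (`p` prime) in a domain. -/
theorem orthogonality {A : Type*} [CommRing A] [IsDomain A] (p : ℕ) [hp : Fact p.Prime]
    (ω : Aˣ) (hω : IsPrimitiveRoot ω p) (n : ℤ) :
    ∑ b ∈ Finset.range p, (((ω ^ b) ^ n : Aˣ) : A) = if (p : ℤ) ∣ n then (p : A) else 0 := by
  have hcomm : ∀ b : ℕ, (((ω ^ b) ^ n : Aˣ) : A) = ((ω ^ n : Aˣ) : A) ^ b := by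
    intro b
    rw [← Units.val_pow_eq_pow_val, ← zpow_natCast (ω ^ n) b, ← zpow_natCast ω b, ← zpow_mul,
      ← zpow_mul, mul_comm]
  simp only [hcomm]
  split_ifs with h
  · rw [(hω.zpow_eq_one_iff_dvd n).mpr h]
    simp
  · have hprim : IsPrimitiveRoot (ω ^ n) p := by
      apply hω.zpow_of_gcd_eq_one
      have h' : ¬ p ∣ n.natAbs := fun hd => h (Int.natCast_dvd.mpr hd)
      exact Nat.Coprime.symm ((Nat.Prime.coprime_iff_not_dvd hp.out).mpr h')
    exact (IsPrimitiveRoot.coe_units_iff.mpr hprim).geom_sum_eq_zero hp.out.one_lt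

theorem Rp.orthogonality (p : ℕ) [hp : Fact p.Prime] (n : ℤ) :
    ∑ b ∈ Finset.range p, (((Rp.ω p ^ b) ^ n : (Rp p)ˣ) : Rp p) =
      if (p : ℤ) ∣ n then (p : Rp p) else 0 :=
  Fermat.Agent.S28.helper2802.orthogonality p (Rp.ω p) (Rp.isPrimitiveRoot_ω p) n

/-! ### A `ℤ`-linear retraction -/

section Retraction

variable (p : ℕ) [hp : Fact p.Prime]

theorem Rp.exists_retraction : ∃ π : Rp p →ₗ[ℤ] ℤ, π 1 = 1 := by
  have hmonic : (cyclotomic p ℤ).Monic := cyclotomic.monic p ℤ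
  set pb := AdjoinRoot.powerBasis' hmonic with hpb
  have hdim : 0 < pb.dim := by
    rw [hpb, AdjoinRoot.powerBasis'_dim, natDegree_cyclotomic, Nat.totient_prime hp.out]
    have := hp.out.two_le
    omega
  refine ⟨pb.basis.coord ⟨0, hdim⟩, ?_⟩
  have h1 : (1 : Rp p) = pb.basis ⟨0, hdim⟩ := by
    rw [PowerBasis.coe_basis]
    simp
  rw [h1, Module.Basis.coord_apply, Module.Basis.repr_self, Finsupp.single_eq_same]

/-- A `ℤ`-linear retraction of `ℤ → Rp p`. -/
def Rp.retr : Rp p →ₗ[ℤ] ℤ := (Rp.exists_retraction p).choose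

@[simp] theorem Rp.retr_one : Rp.retr p 1 = 1 := (Rp.exists_retraction p).choose_spec

@[simp] theorem Rp.retr_intCast (a : ℤ) : Rp.retr p (a : Rp p) = a := by
  have h : (a : Rp p) = a • (1 : Rp p) := by simp
  rw [h, map_smul, Rp.retr_one]
  simp

/-- `ℤ` is saturated in `Rp p`. -/
theorem Rp.eq_intCast_of_smul_eq (k : ℤ) (hk : k ≠ 0) (r : Rp p) (c : ℤ)
    (h : (k : Rp p) * r = (c : Rp p)) : r = ((Rp.retr p r : ℤ) : Rp p) := by
  have h1 : k * Rp.retr p r = c := by
    have := congrArg (Rp.retr p) h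
    rw [Rp.retr_intCast] at this
    rw [← this]
    have h2 : (k : Rp p) * r = k • r := by simp
    rw [h2, map_smul]
    simp
  have hk' : (k : Rp p) ≠ 0 := by exact_mod_cast hk
  apply mul_left_cancel₀ hk'
  rw [h, ← h1]
  push_cast
  ring

end Retraction

/-! ### Specialisation to fields -/

section Lift

variable (p : ℕ) [hp : Fact p.Prime] {k : Type*} [Field k] (ω' : kˣ)

/-- The ring hom `Rp p →+* k`, `ω ↦ ω'`, for a primitive `p`-th root of unity `ω'`. -/
def Rp.lift (hω' : IsPrimitiveRoot ω' p) : Rp p →+* k :=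
  AdjoinRoot.lift (Int.castRingHom k) (ω' : k) (by
    rw [← eval_map, map_cyclotomic_int]
    exact (IsPrimitiveRoot.coe_units_iff.mpr hω').isRoot_cyclotomic hp.out.pos)

theorem Rp.lift_ωv (hω' : IsPrimitiveRoot ω' p) : Rp.lift p ω' hω' (Rp.ωv p) = (ω' : k) :=
  AdjoinRoot.lift_root _

theorem Rp.map_lift_ω (hω' : IsPrimitiveRoot ω' p) :
    Units.map (Rp.lift p ω' hω' : Rp p →* k) (Rp.ω p) = ω' := by
  ext
  exact Rp.lift_ωv p ω' hω'

end Lift

/-! ### Root-formula base change from the universal ring -/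

/-- ROOT-FORMULA BASE CHANGE.  The factorisation of `Φ(X, ĵ(s^p))` over `(Rp p)((s))`
implies the last clause of `helper328.Stmt_FormalPrime p` verbatim. -/
theorem root_formula_of_universal (p : ℕ) [hp : Fact p.Prime] (Φ : Polynomial (Polynomial ℤ))
    (hΦ : haveI : NeZero p := ⟨hp.out.ne_zero⟩
      Φ.map (evalJ (qExpand (Rp p) p (jqModC (Rp p)))) =
        (X - C (qExpand (Rp p) (p ^ 2) (jqModC (Rp p)))) *
          ∏ b ∈ Finset.range p, (X - C (twist (Rp.ω p ^ b) (jqModC (Rp p))))) :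
    ∀ (k : Type) [Field k] (ω : kˣ), IsPrimitiveRoot ω p → ∀ (ξ : kˣ) (m : ℕ+),
      Φ.map (evalJ (Jsub k (ξ ^ p) (⟨p, hp.out.pos⟩ * m))) =
        (X - C (Jsub k (ξ ^ (p ^ 2)) (⟨p, hp.out.pos⟩ ^ 2 * m))) *
          ∏ b ∈ Finset.range p, (X - C (Jsub k (ω ^ b * ξ) m)) := by
  intro k _ ω hω ξ m
  have h := root_formula_map p hp.out.pos Φ (Rp.ω p) hΦ k (Rp.lift p ω hω) ξ m
  rwa [Rp.map_lift_ω] at h

/-- The specialisation `Rp p →+* K` is injective when `K` has characteristic zero. -/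
theorem Rp.lift_injective (p : ℕ) [hp : Fact p.Prime] {K : Type*} [Field K] [CharZero K]
    (ω' : Kˣ) (hω' : IsPrimitiveRoot ω' p) : Function.Injective (Rp.lift p ω' hω') := by
  rw [injective_iff_map_eq_zero]
  intro x hx
  obtain ⟨g, rfl⟩ := AdjoinRoot.mk_surjective x
  have hprim : IsPrimitiveRoot (ω' : K) p := IsPrimitiveRoot.coe_units_iff.mpr hω'
  rw [Rp.lift, AdjoinRoot.lift_mk] at hx
  have hx' : Polynomial.aeval (ω' : K) g = 0 := by
    rw [Polynomial.aeval_def]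
    rwa [show algebraMap ℤ K = Int.castRingHom K from RingHom.ext_int _ _]
  have hdvd := minpoly.isIntegrallyClosed_dvd (hprim.isIntegral hp.out.pos) hx'
  rw [← cyclotomic_eq_minpoly hprim hp.out.pos] at hdvd
  exact AdjoinRoot.mk_eq_zero.mpr hdvd

/-- ROOT-FORMULA BASE CHANGE from `ℂ` (or any field of characteristic zero with a primitive
`p`-th root of unity): the factorisation of `Φ(X, ĵ(s^p))` over `K((s))` for ONE such field
implies the last clause of `helper328.Stmt_FormalPrime p` (all fields, all `ξ`, all `m`). -/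
theorem root_formula_of_charZero (p : ℕ) [hp : Fact p.Prime] (Φ : Polynomial (Polynomial ℤ))
    {K : Type*} [Field K] [CharZero K] (ω₀ : Kˣ) (hω₀ : IsPrimitiveRoot ω₀ p)
    (hΦ : haveI : NeZero p := ⟨hp.out.ne_zero⟩
      Φ.map (evalJ (qExpand K p (jqModC K))) =
        (X - C (qExpand K (p ^ 2) (jqModC K))) *
          ∏ b ∈ Finset.range p, (X - C (twist (ω₀ ^ b) (jqModC K)))) :
    ∀ (k : Type) [Field k] (ω : kˣ), IsPrimitiveRoot ω p → ∀ (ξ : kˣ) (m : ℕ+),
      Φ.map (evalJ (Jsub k (ξ ^ p) (⟨p, hp.out.pos⟩ * m))) =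
        (X - C (Jsub k (ξ ^ (p ^ 2)) (⟨p, hp.out.pos⟩ ^ 2 * m))) *
          ∏ b ∈ Finset.range p, (X - C (Jsub k (ω ^ b * ξ) m)) := by
  apply root_formula_of_universal
  set σ := Rp.lift p ω₀ hω₀ with hσ
  have hinj : Function.Injective (coeffMap σ) := by
    intro x y hxy
    ext n
    have := congrArg (fun z => z.coeff n) hxy
    simp only [coeffMap_coeff] at this
    exact Rp.lift_injective p ω₀ hω₀ this
  apply Polynomial.map_injective (coeffMap σ) hinj
  rw [Polynomial.map_map, comp_evalJ, coeffMap_qExpand, coeffMap_jqModC, hΦ]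
  simp only [Polynomial.map_mul, Polynomial.map_sub, Polynomial.map_X, Polynomial.map_C,
    Polynomial.map_prod, coeffMap_qExpand, coeffMap_jqModC, coeffMap_twist, map_pow,
    hσ, Rp.map_lift_ω]

/-- The same, with the hypothesis in the `Jsub` shape of `Stmt_FormalPrime` at `ξ = 1`, `m = 1`
over one field of characteristic zero. -/
theorem root_formula_of_charZero_Jsub (p : ℕ) [hp : Fact p.Prime]
    (Φ : Polynomial (Polynomial ℤ))
    {K : Type*} [Field K] [CharZero K] (ω₀ : Kˣ) (hω₀ : IsPrimitiveRoot ω₀ p)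
    (hΦ : Φ.map (evalJ (Jsub K ((1 : Kˣ) ^ p) (⟨p, hp.out.pos⟩ * 1))) =
        (X - C (Jsub K ((1 : Kˣ) ^ (p ^ 2)) (⟨p, hp.out.pos⟩ ^ 2 * 1))) *
          ∏ b ∈ Finset.range p, (X - C (Jsub K (ω₀ ^ b * 1) 1))) :
    ∀ (k : Type) [Field k] (ω : kˣ), IsPrimitiveRoot ω p → ∀ (ξ : kˣ) (m : ℕ+),
      Φ.map (evalJ (Jsub k (ξ ^ p) (⟨p, hp.out.pos⟩ * m))) =
        (X - C (Jsub k (ξ ^ (p ^ 2)) (⟨p, hp.out.pos⟩ ^ 2 * m))) *
          ∏ b ∈ Finset.range p, (X - C (Jsub k (ω ^ b * ξ) m)) := by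
  have : NeZero p := ⟨hp.out.ne_zero⟩
  apply root_formula_of_charZero p Φ ω₀ hω₀
  have h1 : Jsub K ((1 : Kˣ) ^ p) (⟨p, hp.out.pos⟩ * 1) = qExpand K p (jqModC K) := by
    rw [one_pow, ← Jsub_eq_of_eq K 1 (⟨p, hp.out.pos⟩ * 1) p (by simp), twist_one]
  have h2 : Jsub K ((1 : Kˣ) ^ (p ^ 2)) (⟨p, hp.out.pos⟩ ^ 2 * 1) =
      qExpand K (p ^ 2) (jqModC K) := by
    rw [one_pow, ← Jsub_eq_of_eq K 1 (⟨p, hp.out.pos⟩ ^ 2 * 1) (p ^ 2) (by simp), twist_one]
  have h3 : ∀ b : ℕ, Jsub K (ω₀ ^ b * 1) 1 = twist (ω₀ ^ b) (jqModC K) := by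
    intro b
    rw [mul_one, Jsub_def]
    exact qExpand_one_apply _
  rw [h1, h2] at hΦ
  simp only [h3] at hΦ
  exact hΦ

end

end Fermat.Agent.S28.helper2802
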