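/-
S28 (Igusa), one-cusp route, analytic leaf L1 (helper2908):
asymptotics at `i∞` of `Δ((a τ + b)/d)` and of the `SL(2,ℤ)`-conjugates of eta quotients.
Only limits at `i∞` are used (no expansions at other cusps).
-/
import Mathlib
import Fermat.Agent.S28.helper407_DeltaHermite

set_option autoImplicit false

open UpperHalfPlane ModularForm MatrixGroups CongruenceSubgroup Filter Topology
open scoped Manifold Real

noncomputable section

namespace Fermat.Agent.S28.helper2908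

open Fermat.Agent.S28.helper407 (pt coe_pt etaQuot)

local notation "Δ" => ModularForm.discriminant
local notation "𝕢" => Function.Periodic.qParam

/-- `Im ((a τ + b)/d) = (a/d) Im τ`. -/
theorem im_pt {a d : ℕ} (ha : 0 < a) (hd : 0 < d) (b : ℕ) (τ : ℍ) :
    (pt a b d τ).im = (a : ℝ) / (d : ℝ) * τ.im := by
  have h1 : ((pt a b d τ : ℍ) : ℂ) =
      (((a : ℝ) / (d : ℝ) : ℝ) : ℂ) * (τ : ℂ) + (((b : ℝ) / (d : ℝ) : ℝ) : ℂ) := by
    rw [coe_pt ha hd]
    have hd' : (d : ℂ) ≠ 0 := by exact_mod_cast hd.ne'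
    push_cast
    field_simp
  have h2 : (pt a b d τ).im = ((pt a b d τ : ℍ) : ℂ).im := rfl
  rw [h2, h1, Complex.add_im, Complex.ofReal_im, add_zero, Complex.im_ofReal_mul]
  rfl

theorem tendsto_pt_atImInfty {a d : ℕ} (ha : 0 < a) (hd : 0 < d) (b : ℕ) :
    Tendsto (pt a b d) atImInfty atImInfty := by
  rw [atImInfty, tendsto_comap_iff]
  have hpos : (0 : ℝ) < (a : ℝ) / (d : ℝ) := by positivity
  have h : Tendsto (fun τ : ℍ => (a : ℝ) / (d : ℝ) * τ.im) (comap UpperHalfPlane.im atTop) atTop :=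
    (tendsto_comap (f := UpperHalfPlane.im) (x := atTop)).const_mul_atTop hpos
  refine h.congr fun τ => ?_
  simp [im_pt ha hd b τ]

/-- `Δ τ / q → 1` at `i∞`. -/
theorem tendsto_discriminant_div_qParam :
    Tendsto (fun τ : ℍ => Δ τ / 𝕢 1 (τ : ℂ)) atImInfty (𝓝 1) := by
  refine ModularForm.tendsto_atImInfty_tprod_one_sub_eta_q_pow.congr fun τ => ?_
  rw [ModularForm.discriminant_eq_q_prod, mul_div_cancel_left₀ _ (Function.Periodic.qParam_ne_zero _)]

theorem norm_qParam_coe (τ : ℍ) : ‖𝕢 1 (τ : ℂ)‖ = Real.exp (-2 * π * τ.im) := by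
  rw [Function.Periodic.norm_qParam]
  simp

/-- `‖Δ τ‖ · exp(2π Im τ) → 1` at `i∞`. -/
theorem tendsto_norm_discriminant_mul_exp :
    Tendsto (fun τ : ℍ => ‖Δ τ‖ * Real.exp (2 * π * τ.im)) atImInfty (𝓝 1) := by
  have h := tendsto_discriminant_div_qParam.norm
  rw [norm_one] at h
  refine h.congr fun τ => ?_
  rw [norm_div, norm_qParam_coe, div_eq_mul_inv, ← Real.exp_neg]
  congr 2
  ring

/-- `‖Δ((a τ + b)/d)‖ · exp(2π (a/d) Im τ) → 1` at `i∞`. -/
theorem tendsto_norm_discriminant_pt {a d : ℕ} (ha : 0 < a) (hd : 0 < d) (b : ℕ) :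
    Tendsto (fun τ : ℍ => ‖Δ (pt a b d τ)‖ * Real.exp (2 * π * ((a : ℝ) / (d : ℝ)) * τ.im))
      atImInfty (𝓝 1) := by
  have h := tendsto_norm_discriminant_mul_exp.comp (tendsto_pt_atImInfty ha hd b)
  refine h.congr fun τ => ?_
  simp only [Function.comp_apply, im_pt ha hd b τ]
  congr 2
  ring

theorem real_exp_int_mul (x : ℝ) (n : ℤ) : Real.exp ((n : ℝ) * x) = Real.exp x ^ n := by
  rw [mul_comm, Real.exp_mul, Real.rpow_intCast]

/-- The exponent of the conjugate of an eta quotient. -/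
def conjExp (s : Finset ℕ) (r : ℕ → ℤ) (a d : ℕ → ℕ) : ℝ :=
  ∑ δ ∈ s, (r δ : ℝ) * ((a δ : ℝ) / (d δ : ℝ))

/-- The leading constant (in absolute value) of the conjugate of an eta quotient. -/
def conjConst (s : Finset ℕ) (r : ℕ → ℤ) (d : ℕ → ℕ) : ℝ :=
  ∏ δ ∈ s, (((d δ : ℝ) ^ 12)⁻¹) ^ r δ

theorem conjConst_pos (s : Finset ℕ) (r : ℕ → ℤ) (d : ℕ → ℕ) (hd : ∀ δ ∈ s, 0 < d δ) :
    0 < conjConst s r d := by
  unfold conjConst
  refine Finset.prod_pos fun δ hδ => zpow_pos ?_ _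
  have : (0 : ℝ) < (d δ : ℝ) := by exact_mod_cast hd δ hδ
  positivity

/-- Asymptotics of a product `∏_δ (d_δ⁻¹² Δ((a_δ τ + b_δ)/d_δ))^{r_δ}`. -/
theorem tendsto_norm_prod_discriminant_pt (s : Finset ℕ) (r : ℕ → ℤ) (a b d : ℕ → ℕ)
    (had : ∀ δ ∈ s, 0 < a δ ∧ 0 < d δ) :
    Tendsto (fun τ : ℍ =>
        ‖∏ δ ∈ s, (((d δ : ℂ) ^ 12)⁻¹ * Δ (pt (a δ) (b δ) (d δ) τ)) ^ r δ‖ *
          Real.exp (2 * π * conjExp s r a d * τ.im))
      atImInfty (𝓝 (conjConst s r d)) := by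
  have key : ∀ τ : ℍ,
      ‖∏ δ ∈ s, (((d δ : ℂ) ^ 12)⁻¹ * Δ (pt (a δ) (b δ) (d δ) τ)) ^ r δ‖ *
          Real.exp (2 * π * conjExp s r a d * τ.im) =
        ∏ δ ∈ s, ((((d δ : ℝ) ^ 12)⁻¹) * (‖Δ (pt (a δ) (b δ) (d δ) τ)‖ *
          Real.exp (2 * π * ((a δ : ℝ) / (d δ : ℝ)) * τ.im))) ^ r δ := by
    intro τ
    have hexp : Real.exp (2 * π * conjExp s r a d * τ.im) =
        ∏ δ ∈ s, (Real.exp (2 * π * ((a δ : ℝ) / (d δ : ℝ)) * τ.im)) ^ r δ := by
      rw [conjExp, Finset.mul_sum, Finset.sum_mul, Real.exp_sum]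
      refine Finset.prod_congr rfl fun δ _ => ?_
      rw [← real_exp_int_mul]
      congr 1
      ring
    rw [hexp, norm_prod, ← Finset.prod_mul_distrib]
    refine Finset.prod_congr rfl fun δ _ => ?_
    rw [norm_zpow, norm_mul, norm_inv, norm_pow, Complex.norm_natCast, ← mul_zpow]
    congr 1
    ring
  rw [show conjConst s r d = ∏ δ ∈ s, ((((d δ : ℝ) ^ 12)⁻¹) * 1) ^ r δ by
    simp [conjConst]]
  refine Tendsto.congr (fun τ => (key τ).symm) ?_
  refine tendsto_finsetProd _ fun δ hδ => ?_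
  obtain ⟨ha, hd⟩ := had δ hδ
  refine ((tendsto_norm_discriminant_pt ha hd (b δ)).const_mul _).zpow₀ _ (Or.inl ?_)
  have : (0 : ℝ) < (d δ : ℝ) := by exact_mod_cast hd
  positivity

/-! ### Exponential asymptotics at `i∞` -/

/-- `‖f τ‖ · exp(2π E Im τ) → C` at `i∞`. -/
def ExpAsymp (f : ℍ → ℂ) (E C : ℝ) : Prop :=
  Tendsto (fun τ : ℍ => ‖f τ‖ * Real.exp (2 * π * E * τ.im)) atImInfty (𝓝 C)

theorem tendsto_im_atImInfty : Tendsto (fun τ : ℍ => τ.im) atImInfty atTop :=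
  tendsto_comap

theorem tendsto_exp_neg_mul_im {E : ℝ} (hE : 0 < E) :
    Tendsto (fun τ : ℍ => Real.exp (-(2 * π * E * τ.im))) atImInfty (𝓝 0) := by
  have h1 : Tendsto (fun τ : ℍ => 2 * π * E * τ.im) atImInfty atTop :=
    tendsto_im_atImInfty.const_mul_atTop (by positivity)
  exact Real.tendsto_exp_neg_atTop_nhds_zero.comp h1

theorem expAsymp_const (c : ℂ) : ExpAsymp (fun _ => c) 0 ‖c‖ := by
  unfold ExpAsymp
  simp

theorem expAsymp_discriminant : ExpAsymp (fun τ => Δ τ) 1 1 := by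
  unfold ExpAsymp
  simpa using tendsto_norm_discriminant_mul_exp

theorem ExpAsymp.mul {f g : ℍ → ℂ} {E E' C C' : ℝ} (hf : ExpAsymp f E C) (hg : ExpAsymp g E' C') :
    ExpAsymp (fun τ => f τ * g τ) (E + E') (C * C') := by
  unfold ExpAsymp at *
  refine (hf.mul hg).congr fun τ => ?_
  rw [norm_mul, mul_add, add_mul, Real.exp_add]
  ring

theorem ExpAsymp.pow {f : ℍ → ℂ} {E C : ℝ} (hf : ExpAsymp f E C) (m : ℕ) :
    ExpAsymp (fun τ => f τ ^ m) (m * E) (C ^ m) := by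
  induction m with
  | zero => simpa using expAsymp_const 1
  | succ m ih =>
    have h := ih.mul hf
    have e1 : ((m + 1 : ℕ) : ℝ) * E = (m : ℝ) * E + E := by push_cast; ring
    rw [e1, pow_succ]
    refine h.congr fun τ => ?_
    simp [pow_succ]

theorem ExpAsymp.prod {ι : Type*} (s : Finset ι) {f : ι → ℍ → ℂ} {E C : ι → ℝ}
    (hf : ∀ i ∈ s, ExpAsymp (f i) (E i) (C i)) :
    ExpAsymp (fun τ => ∏ i ∈ s, f i τ) (∑ i ∈ s, E i) (∏ i ∈ s, C i) := by
  classical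
  induction s using Finset.induction_on with
  | empty => simpa using expAsymp_const 1
  | insert i s hi ih =>
    rw [Finset.sum_insert hi, Finset.prod_insert hi]
    have h := (hf i (Finset.mem_insert_self i s)).mul
      (ih fun j hj => hf j (Finset.mem_insert_of_mem hj))
    refine h.congr fun τ => ?_
    simp only [Finset.prod_insert hi]

/-- Positive exponent: the function is zero at `i∞`. -/
theorem ExpAsymp.isZeroAtImInfty {f : ℍ → ℂ} {E C : ℝ} (hf : ExpAsymp f E C) (hE : 0 < E) :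
    IsZeroAtImInfty f := by
  unfold ExpAsymp at hf
  have h := hf.mul (tendsto_exp_neg_mul_im hE)
  rw [mul_zero] at h
  have h2 : Tendsto (fun τ : ℍ => ‖f τ‖) atImInfty (𝓝 0) := by
    refine h.congr fun τ => ?_
    rw [mul_assoc, ← Real.exp_add, add_neg_cancel, Real.exp_zero, mul_one]
  exact tendsto_zero_iff_norm_tendsto_zero.mpr h2

/-- Moderate growth: `Δ^m f` is bounded at `i∞` as soon as `-E ≤ m`. -/
theorem ExpAsymp.isBoundedAtImInfty_discriminant_pow_mul {f : ℍ → ℂ} {E C : ℝ}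
    (hf : ExpAsymp f E C) (m : ℕ) (hm : -E ≤ m) :
    IsBoundedAtImInfty (fun τ => Δ τ ^ m * f τ) := by
  have h1 : ExpAsymp (fun τ => Δ τ ^ m * f τ) (m * 1 + E) (1 ^ m * C) :=
    (expAsymp_discriminant.pow m).mul hf
  unfold ExpAsymp at h1
  rw [UpperHalfPlane.isBoundedAtImInfty_iff]
  have hev : ∀ᶠ τ : ℍ in atImInfty, ‖Δ τ ^ m * f τ‖ *
      Real.exp (2 * π * (m * 1 + E) * τ.im) < 1 ^ m * C + 1 :=
    h1.eventually (gt_mem_nhds (lt_add_one _))
  rw [Filter.eventually_iff, atImInfty_mem] at hev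
  obtain ⟨A, hA⟩ := hev
  refine ⟨1 ^ m * C + 1, max A 0, fun τ hτ => ?_⟩
  have h2 := hA τ (le_trans (le_max_left _ _) hτ)
  simp only [Set.mem_ofPred_eq] at h2
  have hτ0 : 0 ≤ τ.im := le_trans (le_max_right _ _) hτ
  have h3 : 1 ≤ Real.exp (2 * π * (m * 1 + E) * τ.im) := by
    rw [Real.one_le_exp_iff]
    have : 0 ≤ (m : ℝ) * 1 + E := by linarith
    positivity
  have h4 : ‖Δ τ ^ m * f τ‖ ≤ ‖Δ τ ^ m * f τ‖ * Real.exp (2 * π * (m * 1 + E) * τ.im) :=
    le_mul_of_one_le_right (norm_nonneg _) h3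
  exact le_of_lt (lt_of_le_of_lt h4 h2)

/-- A nonzero constant function with a positive limit constant has exponent zero. -/
theorem ExpAsymp.const_eq {c : ℂ} {E C : ℝ} (h : ExpAsymp (fun _ => c) E C) (hC : 0 < C) :
    ‖c‖ = C := by
  unfold ExpAsymp at h
  rcases lt_trichotomy E 0 with hE | hE | hE
  · -- the limit would be zero
    have h1 : Tendsto (fun τ : ℍ => ‖c‖ * Real.exp (2 * π * E * τ.im)) atImInfty (𝓝 (‖c‖ * 0)) := by
      refine Tendsto.const_mul _ ?_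
      have := tendsto_exp_neg_mul_im (E := -E) (by linarith)
      refine this.congr fun τ => ?_
      congr 1
      ring
    rw [mul_zero] at h1
    exact absurd (tendsto_nhds_unique h h1) hC.ne'
  · subst hE
    have h1 : Tendsto (fun _ : ℍ => ‖c‖) atImInfty (𝓝 ‖c‖) := tendsto_const_nhds
    have h2 : Tendsto (fun _ : ℍ => ‖c‖) atImInfty (𝓝 C) := by
      refine h.congr fun τ => ?_
      simp
    exact tendsto_nhds_unique h1 h2
  · -- then `c = 0` (otherwise unbounded), so the limit is zero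
    by_cases hc : c = 0
    · subst hc
      have h1 : Tendsto (fun _ : ℍ => (0 : ℝ)) atImInfty (𝓝 0) := tendsto_const_nhds
      have h2 : Tendsto (fun _ : ℍ => (0 : ℝ)) atImInfty (𝓝 C) := by
        refine h.congr fun τ => ?_
        simp
      exact absurd (tendsto_nhds_unique h2 h1) hC.ne'
    · exfalso
      have hpos : 0 < ‖c‖ := norm_pos_iff.mpr hc
      have h1 : Tendsto (fun τ : ℍ => 2 * π * E * τ.im) atImInfty atTop :=
        tendsto_im_atImInfty.const_mul_atTop (by positivity)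
      have h2 : Tendsto (fun τ : ℍ => ‖c‖ * Real.exp (2 * π * E * τ.im)) atImInfty atTop :=
        (Real.tendsto_exp_atTop.comp h1).const_mul_atTop hpos
      exact not_tendsto_nhds_of_tendsto_atTop h2 C h

/-! ### Conjugates of eta quotients -/

/-- **Asymptotics of the conjugates of an eta quotient**: for `∑ r = 0` and `g ∈ SL(2,ℤ)`,
`‖U(g τ)‖ · exp(2π E Im τ) → C` with `E = ∑ r_δ a_δ/d_δ`, `C = ∏ d_δ^{-12 r_δ}`,
`a_δ = gcd(δ, c_g)`, `a_δ d_δ = δ`. -/
theorem exists_expAsymp_etaQuot_smul (N : ℕ) (r : ℕ → ℤ) (hr : ∑ δ ∈ N.divisors, r δ = 0)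
    (g : SL(2, ℤ)) :
    ∃ a d : ℕ → ℕ,
      (∀ δ ∈ N.divisors, a δ = Nat.gcd δ (g 1 0).natAbs ∧ a δ * d δ = δ) ∧
      ExpAsymp (fun τ => etaQuot N r (g • τ)) (conjExp N.divisors r a d)
        (conjConst N.divisors r d) := by
  obtain ⟨a, b, d, habd, h⟩ := helper407.etaQuot_smul N r hr g
  refine ⟨a, d, fun δ hδ => ⟨(habd δ hδ).1, (habd δ hδ).2.1⟩, ?_⟩
  have hpos : ∀ δ ∈ N.divisors, 0 < a δ ∧ 0 < d δ := by
    intro δ hδ
    have h1 := (habd δ hδ).2.1
    have h2 : 0 < δ := Nat.pos_of_mem_divisors hδ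
    constructor
    · rcases Nat.eq_zero_or_pos (a δ) with h0 | h0
      · rw [h0, Nat.zero_mul] at h1; omega
      · exact h0
    · rcases Nat.eq_zero_or_pos (d δ) with h0 | h0
      · rw [h0, Nat.mul_zero] at h1; omega
      · exact h0
  unfold ExpAsymp
  refine (tendsto_norm_prod_discriminant_pt N.divisors r a b d hpos).congr fun τ => ?_
  simp only [h τ]

end Fermat.Agent.S28.helper2908
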