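/-
S28 (Igusa), one-cusp route, leaf L2 (helper2908):
the dictionary at the cusp `i∞` (period `1`) between functions on `ℍ` and `LaurentSeries ℂ`,
on top of S24/helper315_CuspExp (`cuspExpFun`).  Generators: `jInv`, `E₄(δτ)`, `Δ(δτ)^{±1}`.
-/
import Mathlib
import Fermat.Prelude.Def_ModularCurve_X0ModL
import Fermat.Agent.S24.helper315_CuspExp
import Fermat.Agent.S24.helper1644_AnalyticJ
import Fermat.Agent.Lib.helper1348_JBridge
import Fermat.Agent.Lib.helper843_JPolynomial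
import Fermat.Agent.S28.helper2908_Asymp

set_option autoImplicit false

open UpperHalfPlane ModularForm MatrixGroups Filter Topology
open scoped Manifold Real

noncomputable section

namespace Fermat.Agent.S28.helper2908

open Fermat.Agent.S28.helper407 (pt coe_pt)
open Fermat.Agent.S24.helper315
open Fermat.Agent.Lib.helper843 (jInv)
open ModularCurve

local notation "Δ" => ModularForm.discriminant
local notation "𝕢" => Function.Periodic.qParam

/-- `f` is meromorphic at the cusp (period `1`) with Laurent expansion `F`. -/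
def CM (f : ℍ → ℂ) (F : LaurentSeries ℂ) : Prop :=
  IsCuspMer 1 f ∧ cuspExpFun 1 f = F

theorem CM.mul {f g : ℍ → ℂ} {F G : LaurentSeries ℂ} (hf : CM f F) (hg : CM g G) :
    CM (f * g) (F * G) :=
  ⟨hf.1.mul hg.1, by rw [cuspExpFun_mul one_pos hf.1 hg.1, hf.2, hg.2]⟩

theorem CM.add {f g : ℍ → ℂ} {F G : LaurentSeries ℂ} (hf : CM f F) (hg : CM g G) :
    CM (f + g) (F + G) :=
  ⟨hf.1.add one_pos hg.1, by rw [cuspExpFun_add one_pos hf.1 hg.1, hf.2, hg.2]⟩

theorem CM.const (c : ℂ) : CM (fun _ => c) (HahnSeries.C c) :=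
  ⟨(IsCuspHol.const 1 c).isCuspMer, cuspExpFun_const one_pos c⟩

theorem CM.one : CM 1 1 :=
  ⟨(IsCuspHol.one 1).isCuspMer, cuspExpFun_one one_pos⟩

theorem CM.zero : CM 0 0 :=
  ⟨(IsCuspHol.zero 1).isCuspMer, cuspExpFun_zero one_pos⟩

theorem CM.congr {f g : ℍ → ℂ} {F : LaurentSeries ℂ} (hf : CM f F) (h : ∀ τ, f τ = g τ) :
    CM g F := by
  have : f = g := funext h
  rwa [← this]

theorem CM.pow {f : ℍ → ℂ} {F : LaurentSeries ℂ} (hf : CM f F) (n : ℕ) : CM (f ^ n) (F ^ n) := by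
  induction n with
  | zero => simpa using CM.one
  | succ n ih => rw [pow_succ, pow_succ]; exact ih.mul hf

theorem CM.sum {ι : Type*} (s : Finset ι) {f : ι → ℍ → ℂ} {F : ι → LaurentSeries ℂ}
    (h : ∀ i ∈ s, CM (f i) (F i)) : CM (∑ i ∈ s, f i) (∑ i ∈ s, F i) := by
  classical
  induction s using Finset.induction_on with
  | empty => simpa using CM.zero
  | insert i s hi ih =>
    rw [Finset.sum_insert hi, Finset.sum_insert hi]
    exact (h i (Finset.mem_insert_self i s)).add (ih fun j hj => h j (Finset.mem_insert_of_mem hj))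

theorem CM.prod {ι : Type*} (s : Finset ι) {f : ι → ℍ → ℂ} {F : ι → LaurentSeries ℂ}
    (h : ∀ i ∈ s, CM (f i) (F i)) : CM (∏ i ∈ s, f i) (∏ i ∈ s, F i) := by
  classical
  induction s using Finset.induction_on with
  | empty => simpa using CM.one
  | insert i s hi ih =>
    rw [Finset.prod_insert hi, Finset.prod_insert hi]
    exact (h i (Finset.mem_insert_self i s)).mul (ih fun j hj => h j (Finset.mem_insert_of_mem hj))

/-- Uniqueness of the expansion. -/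
theorem CM.unique {f : ℍ → ℂ} {F G : LaurentSeries ℂ} (hf : CM f F) (hg : CM f G) : F = G := by
  rw [← hf.2, ← hg.2]

/-- The zero function has expansion zero. -/
theorem CM.eq_zero_of_forall {f : ℍ → ℂ} {F : LaurentSeries ℂ} (hf : CM f F) (h : ∀ τ, f τ = 0) :
    F = 0 := by
  have : f = 0 := funext h
  rw [← hf.2, this, cuspExpFun_zero one_pos]

/-- Inverses: if `f g = 1` then the expansions are inverse to each other. -/
theorem CM.inv_of_mul_eq_one {f g : ℍ → ℂ} {F G : LaurentSeries ℂ} (hf : CM f F) (hg : CM g G)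
    (h : ∀ τ, f τ * g τ = 1) : G = F⁻¹ := by
  have h1 : CM (f * g) (F * G) := hf.mul hg
  have h2 : CM (f * g) 1 := CM.one.congr fun τ => by simp [h τ]
  have h3 : F * G = 1 := h1.unique h2
  exact eq_inv_of_mul_eq_one_right h3

/-- Bounded functions: the expansion is the `q`-expansion. -/
theorem CM.of_isCuspHol {f : ℍ → ℂ} (hf : IsCuspHol 1 f) :
    CM f (HahnSeries.ofPowerSeries ℤ ℂ (qExpansion 1 f)) :=
  ⟨hf.isCuspMer, cuspExpFun_of_isCuspHol one_pos hf⟩

/-- **A function vanishing at `i∞` has an expansion with only positive exponents.** -/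
theorem CM.coeff_eq_zero_of_isZeroAtImInfty {f : ℍ → ℂ} {F : LaurentSeries ℂ} (hf : CM f F)
    (h0 : IsZeroAtImInfty f) {k : ℤ} (hk : k ≤ 0) : F.coeff k = 0 := by
  have hhol : IsCuspHol 1 f :=
    ⟨hf.1.mdiff, hf.1.periodic one_pos, ZeroAtFilter.boundedAtFilter h0⟩
  have hF : F = HahnSeries.ofPowerSeries ℤ ℂ (qExpansion 1 f) := hf.unique (CM.of_isCuspHol hhol)
  rw [hF]
  rcases lt_or_eq_of_le hk with hk | hk
  · exact ModularCurve.ofPowerSeries_coeff_of_neg _ hk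
  · subst hk
    rw [show (0 : ℤ) = ((0 : ℕ) : ℤ) from rfl, HahnSeries.ofPowerSeries_apply_coeff,
      qExpansion_coeff_zero one_pos (hhol.analyticAt one_pos) hhol.periodic',
      h0.valueAtInfty_eq_zero]

/-! ### The generators -/

theorem hPeriodic_of_smul_T {f : ℍ → ℂ} (h : ∀ τ : ℍ, f (ModularGroup.T • τ) = f τ) :
    HPeriodic 1 f := by
  intro τ
  rw [← h τ, UpperHalfPlane.modular_T_smul]

theorem hPeriodic_discriminant : HPeriodic 1 (Δ : ℍ → ℂ) := by
  refine hPeriodic_of_smul_T fun τ => ?_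
  rw [helper407.discriminant_smul]
  simp [ModularGroup.T]

theorem isCuspHol_discriminant : IsCuspHol 1 (Δ : ℍ → ℂ) :=
  ⟨Fermat.Agent.Lib.helper843.mdifferentiable_discriminant, hPeriodic_discriminant,
    ZeroAtFilter.boundedAtFilter discriminant_isZeroAtImInfty⟩

/-- The formal `Δ` over `ℂ`: `q · ∏ (1 - q^n)^24`. -/
def DeltaC : LaurentSeries ℂ :=
  HahnSeries.ofPowerSeries ℤ ℂ
    (PowerSeries.X * PowerSeries.map (Int.castRingHom ℂ) (ModularCurve.etaProd ^ 24))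

theorem cm_discriminant : CM (Δ : ℍ → ℂ) DeltaC := by
  have h := CM.of_isCuspHol isCuspHol_discriminant
  rwa [Fermat.Agent.Lib.helper1348.qExpansion_discriminant_eq] at h

theorem DeltaC_ne_zero : DeltaC ≠ 0 := by
  intro h
  have h1 := cm_discriminant
  rw [h] at h1
  have h2 := (cuspExpFun_eq_zero_iff one_pos h1.1).mp h1.2
  exact discriminant_ne_zero UpperHalfPlane.I (congrFun h2 _)

/-! ### Substitution `τ ↦ δ τ` -/

/-- `q(δ τ) = q(τ)^δ`. -/
theorem qH_pt (δ : ℕ) (hδ : 0 < δ) (τ : ℍ) : qH 1 (pt δ 0 1 τ) = qH 1 τ ^ δ := by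
  rw [qH_apply, qH_apply, coe_pt hδ one_pos]
  simp only [Function.Periodic.qParam]
  rw [← Complex.exp_nat_mul]
  congr 1
  push_cast
  ring

theorem mdifferentiable_comp_pt {f : ℍ → ℂ} (hf : MDiff f) {a d : ℕ} (ha : 0 < a) (hd : 0 < d)
    (b : ℕ) : MDiff (fun τ : ℍ => f (pt a b d τ)) := by
  rw [UpperHalfPlane.mdifferentiable_iff] at hf ⊢
  have haff : DifferentiableOn ℂ (fun z : ℂ => ((a : ℂ) * z + (b : ℂ)) / (d : ℂ))
      upperHalfPlaneSet := by
    fun_prop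
  have hmaps : Set.MapsTo (fun z : ℂ => ((a : ℂ) * z + (b : ℂ)) / (d : ℂ))
      upperHalfPlaneSet upperHalfPlaneSet := by
    intro z hz
    exact helper407.im_pt_pos ha hd b ⟨z, hz⟩
  refine (hf.comp haff hmaps).congr fun z hz => ?_
  simp only [Function.comp_apply, pt]
  rw [ofComplex_apply_of_im_pos hz]

theorem hPeriodic_natCast {f : ℍ → ℂ} (hf : HPeriodic 1 f) (n : ℕ) (τ : ℍ) :
    f ((n : ℝ) +ᵥ τ) = f τ := by
  induction n with
  | zero => simp
  | succ n ih =>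
    have : (((n + 1 : ℕ) : ℝ)) +ᵥ τ = (1 : ℝ) +ᵥ ((n : ℝ) +ᵥ τ) := by
      rw [vadd_vadd]
      congr 1
      push_cast
      ring
    rw [this, hf, ih]

theorem pt_vadd_one (δ : ℕ) (hδ : 0 < δ) (τ : ℍ) :
    pt δ 0 1 ((1 : ℝ) +ᵥ τ) = (δ : ℝ) +ᵥ pt δ 0 1 τ := by
  ext1
  rw [coe_pt hδ one_pos, UpperHalfPlane.coe_vadd, UpperHalfPlane.coe_vadd, coe_pt hδ one_pos]
  push_cast
  ring

theorem hPeriodic_comp_pt {f : ℍ → ℂ} (hf : HPeriodic 1 f) (δ : ℕ) (hδ : 0 < δ) :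
    HPeriodic 1 (fun τ => f (pt δ 0 1 τ)) := by
  intro τ
  show f (pt δ 0 1 ((1 : ℝ) +ᵥ τ)) = f (pt δ 0 1 τ)
  rw [pt_vadd_one δ hδ, hPeriodic_natCast hf]

theorem isBoundedAtImInfty_comp_pt {f : ℍ → ℂ} (hf : IsBoundedAtImInfty f) {a d : ℕ}
    (ha : 0 < a) (hd : 0 < d) (b : ℕ) : IsBoundedAtImInfty (fun τ => f (pt a b d τ)) :=
  Asymptotics.IsBigO.comp_tendsto hf (tendsto_pt_atImInfty ha hd b)

theorem hasSum_subst {c : ℕ → ℂ} {f : ℍ → ℂ} (δ : ℕ) (hδ : 0 < δ)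
    (hs : ∀ τ : ℍ, HasSum (fun m : ℕ => c m * qH 1 τ ^ m) (f τ)) (τ : ℍ) :
    HasSum (fun n : ℕ => (if δ ∣ n then c (n / δ) else 0) * qH 1 τ ^ n) (f (pt δ 0 1 τ)) := by
  have hi : Function.Injective (fun m : ℕ => δ * m) := fun a b h => Nat.eq_of_mul_eq_mul_left hδ h
  rw [← hi.hasSum_iff]
  · have h := hs (pt δ 0 1 τ)
    simp only [qH_pt δ hδ] at h
    convert h using 2 with m
    simp [Nat.mul_div_cancel_left _ hδ, pow_mul]
  · intro n hn
    have : ¬ δ ∣ n := fun ⟨m, hm⟩ => hn ⟨m, hm.symm⟩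
    simp [this]

theorem qExpand_ofPowerSeries (δ : ℕ) [NeZero δ] (P : PowerSeries ℂ) :
    qExpand ℂ δ (HahnSeries.ofPowerSeries ℤ ℂ P) =
      HahnSeries.ofPowerSeries ℤ ℂ
        (PowerSeries.mk fun n => if δ ∣ n then P.coeff (n / δ) else 0) := by
  have hδ : 0 < δ := Nat.pos_of_ne_zero (NeZero.ne δ)
  ext k
  rcases lt_or_ge k 0 with hk | hk
  · rw [ModularCurve.ofPowerSeries_coeff_of_neg _ hk]
    by_cases hdvd : (δ : ℤ) ∣ k
    · obtain ⟨j, rfl⟩ := hdvd
      rw [qExpand_coeff_mul]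
      apply ModularCurve.ofPowerSeries_coeff_of_neg
      have hδ' : (0 : ℤ) < δ := by exact_mod_cast hδ
      by_contra hj
      push Not at hj
      have := mul_nonneg hδ'.le hj
      omega
    · exact qExpand_coeff_of_not_dvd δ _ hdvd
  · lift k to ℕ using hk
    rw [HahnSeries.ofPowerSeries_apply_coeff, PowerSeries.coeff_mk]
    by_cases hdvd : δ ∣ k
    · obtain ⟨j, rfl⟩ := hdvd
      rw [if_pos (dvd_mul_right δ j), Nat.mul_div_cancel_left _ hδ,
        show ((δ * j : ℕ) : ℤ) = (δ : ℤ) * (j : ℤ) by push_cast; ring, qExpand_coeff_mul,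
        HahnSeries.ofPowerSeries_apply_coeff]
    · rw [if_neg hdvd]
      exact qExpand_coeff_of_not_dvd δ _ (by exact_mod_cast hdvd)

/-- Substitution `τ ↦ δ τ` for functions holomorphic at the cusp. -/
theorem cm_comp_pt {f : ℍ → ℂ} (hf : IsCuspHol 1 f) (δ : ℕ) [NeZero δ] :
    IsCuspHol 1 (fun τ => f (pt δ 0 1 τ)) ∧
      CM (fun τ => f (pt δ 0 1 τ))
        (qExpand ℂ δ (HahnSeries.ofPowerSeries ℤ ℂ (qExpansion 1 f))) := by
  have hδ : 0 < δ := Nat.pos_of_ne_zero (NeZero.ne δ)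
  have hs := fun τ => hf.hasSum one_pos τ
  have hd : MDiff (fun τ => f (pt δ 0 1 τ)) := mdifferentiable_comp_pt hf.mdiff hδ one_pos 0
  have hp : HPeriodic 1 (fun τ => f (pt δ 0 1 τ)) := hPeriodic_comp_pt hf.periodic δ hδ
  obtain ⟨h1, h2⟩ := cuspExpFun_eq_of_hasSum one_pos hd hp (m := 0)
    (c := fun n => if δ ∣ n then (qExpansion 1 f).coeff (n / δ) else 0)
    (fun τ => by simpa using hasSum_subst δ hδ hs τ)
  have h1' : IsCuspHol 1 (fun τ => f (pt δ 0 1 τ)) := by simpa using h1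
  refine ⟨h1', h1'.isCuspMer, ?_⟩
  rw [h2, qExpand_ofPowerSeries]
  simp

/-! ### `E₄` and `jInv` -/

theorem hPeriodic_E₄ : HPeriodic 1 (E₄ : ℍ → ℂ) := by
  refine hPeriodic_of_smul_T fun τ => ?_
  rw [Fermat.Agent.Lib.helper843.E₄_smul, ModularGroup.denom_apply]
  simp [ModularGroup.T]

theorem isCuspHol_E₄ : IsCuspHol 1 (E₄ : ℍ → ℂ) :=
  ⟨E₄.holo', hPeriodic_E₄, Fermat.Agent.Lib.helper843.tendsto_E₄.isBigO_one ℝ⟩

theorem hPeriodic_jInv : HPeriodic 1 jInv :=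
  hPeriodic_of_smul_T fun τ => Fermat.Agent.Lib.helper843.jInv_smul _ τ

/-- **The expansion of `j`** is the Prelude's formal series `jqModC ℂ`. -/
theorem cm_jInv : CM jInv (jqModC ℂ) := by
  have hs : ∀ τ : ℍ, HasSum
      (fun n : ℕ => ((PowerSeries.coeff n ModularCurve.jNumQ : ℚ) : ℂ) * qH 1 τ ^ n)
      (qH 1 τ ^ 1 * jInv τ) := by
    intro τ
    have h := Fermat.Agent.S24.helper1644.hasSum_jNumQ τ
    rw [pow_one]
    exact h
  obtain ⟨h1, h2⟩ := cuspExpFun_eq_of_hasSum one_pos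
    Fermat.Agent.Lib.helper843.mdifferentiable_jInv hPeriodic_jInv (m := 1) hs
  refine ⟨⟨1, h1⟩, ?_⟩
  rw [h2, jqModC]
  congr 2
  ext n
  simp [jNumQ]

/-! ### Inverse of `Δ(δ τ)` -/

theorem isCuspHol_qH_pow_mul_inv_discriminant_pt (δ : ℕ) (hδ : 0 < δ) :
    IsCuspHol 1 (qH 1 ^ δ * fun τ => (Δ (pt δ 0 1 τ))⁻¹) := by
  refine ⟨?_, ?_, ?_⟩
  · have h1 : MDiff (fun τ : ℍ => (Δ (pt δ 0 1 τ))⁻¹) := by
      have := helper407.mdifferentiable_zpow
        (helper407.mdifferentiable_discriminant_pt hδ one_pos 0)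
        (fun τ => discriminant_ne_zero _) (-1)
      simpa only [zpow_neg_one] using this
    exact ((mdiff_qH 1).pow δ).mul h1
  · refine ((isCuspHol_qH one_pos).pow δ).periodic.mul fun τ => ?_
    show (Δ (pt δ 0 1 ((1 : ℝ) +ᵥ τ)))⁻¹ = (Δ (pt δ 0 1 τ))⁻¹
    rw [pt_vadd_one δ hδ, hPeriodic_natCast hPeriodic_discriminant]
  · have ht := (tendsto_discriminant_div_qParam.comp
      (tendsto_pt_atImInfty hδ one_pos 0)).inv₀ one_ne_zero
    rw [inv_one] at ht
    have ht' : Tendsto (qH 1 ^ δ * fun τ => (Δ (pt δ 0 1 τ))⁻¹) atImInfty (𝓝 1) := by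
      refine ht.congr fun τ => ?_
      simp only [Function.comp_apply, Pi.mul_apply, Pi.pow_apply]
      rw [← qH_apply, qH_pt δ hδ, inv_div, div_eq_mul_inv]
    exact ht'.isBigO_one ℝ

theorem cm_discriminant_pt (δ : ℕ) [NeZero δ] :
    CM (fun τ => Δ (pt δ 0 1 τ)) (qExpand ℂ δ DeltaC) := by
  have h := (cm_comp_pt isCuspHol_discriminant δ).2
  rwa [Fermat.Agent.Lib.helper1348.qExpansion_discriminant_eq] at h

theorem cm_inv_discriminant_pt (δ : ℕ) [NeZero δ] :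
    CM (fun τ => (Δ (pt δ 0 1 τ))⁻¹) (qExpand ℂ δ DeltaC)⁻¹ := by
  have hδ : 0 < δ := Nat.pos_of_ne_zero (NeZero.ne δ)
  have hm : IsCuspMer 1 (fun τ => (Δ (pt δ 0 1 τ))⁻¹) :=
    ⟨δ, isCuspHol_qH_pow_mul_inv_discriminant_pt δ hδ⟩
  have h1 : CM (fun τ => (Δ (pt δ 0 1 τ))⁻¹) (cuspExpFun 1 (fun τ => (Δ (pt δ 0 1 τ))⁻¹)) :=
    ⟨hm, rfl⟩
  have h2 := (cm_discriminant_pt δ).inv_of_mul_eq_one h1
    (fun τ => mul_inv_cancel₀ (discriminant_ne_zero _))
  rw [h2] at h1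
  exact h1

/-! ### Integer powers and eta quotients -/

theorem CM.zpow {f : ℍ → ℂ} {F : LaurentSeries ℂ} (hf : CM f F)
    (hinv : CM (fun τ => (f τ)⁻¹) F⁻¹) (n : ℤ) : CM (fun τ => f τ ^ n) (F ^ n) := by
  cases n with
  | ofNat k =>
    simp only [Int.ofNat_eq_natCast, zpow_natCast]
    exact (hf.pow k).congr fun τ => rfl
  | negSucc k =>
    simp only [zpow_negSucc, ← inv_pow]
    exact (hinv.pow (k + 1)).congr fun τ => rfl

/-- `qExpand` for a possibly zero index (the identity for `δ = 0`). -/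
def qExp' (R : Type*) [CommRing R] (δ : ℕ) : LaurentSeries R →+* LaurentSeries R :=
  if h : δ = 0 then RingHom.id _ else @qExpand R _ δ ⟨h⟩

theorem qExp'_eq (R : Type*) [CommRing R] (δ : ℕ) [NeZero δ] : qExp' R δ = qExpand R δ := by
  unfold qExp'
  rw [dif_neg (NeZero.ne δ)]

/-- The formal eta quotient over `ℂ`. -/
def etaWC (N : ℕ) (r : ℕ → ℤ) : LaurentSeries ℂ :=
  ∏ δ ∈ N.divisors, (qExp' ℂ δ DeltaC) ^ r δ

/-- **The expansion of the eta quotient.** -/
theorem cm_etaQuot (N : ℕ) (r : ℕ → ℤ) : CM (helper407.etaQuot N r) (etaWC N r) := by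
  have h : CM (∏ δ ∈ N.divisors, fun τ => Δ (pt δ 0 1 τ) ^ r δ) (etaWC N r) := by
    refine CM.prod _ fun δ hδ => ?_
    have : NeZero δ := ⟨(Nat.pos_of_mem_divisors hδ).ne'⟩
    rw [qExp'_eq]
    exact (cm_discriminant_pt δ).zpow (cm_inv_discriminant_pt δ) (r δ)
  refine h.congr fun τ => ?_
  simp [helper407.etaQuot, Finset.prod_apply]

/-- Polynomials in `j`. -/
theorem cm_eval_jInv (P : Polynomial ℂ) :
    CM (fun τ => P.eval (jInv τ)) (Polynomial.aeval (jqModC ℂ) P) := by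
  induction P using Polynomial.induction_on' with
  | add p q hp hq =>
    rw [map_add]
    exact (hp.add hq).congr fun τ => by simp
  | monomial n a =>
    rw [Polynomial.aeval_monomial]
    have h := (CM.const a).mul (cm_jInv.pow n)
    have e : algebraMap ℂ (LaurentSeries ℂ) a = HahnSeries.C a :=
      (ModularCurve.algebraMap_laurentSeries_eq_single ℂ a).trans rfl
    rw [e]
    exact h.congr fun τ => by simp

end Fermat.Agent.S28.helper2908
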