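/-
S28 (Igusa), route P, leaf C1 (the "Hecke input"): `Stmt_Hecke p` of `helper328_PrimeSpec`.
Also: bridges `qExpansion 1 E₄ = E4C`, `qExpansion 1 Δ = DeltaC`, and the level-one
triangular basis expansion with coefficients in an arbitrary subring of `ℂ`.
Author seat: helper308.
-/
import Mathlib
import Fermat.Prelude.Thm_ModularFormClass_qCoeff_heckeT
import Fermat.Prelude.Thm_ModularForm_heckeT_slash_eq_self_of_mem_Gamma0
import Fermat.Prelude.Thm_ModularForm_mdifferentiable_heckeT
import Fermat.Prelude.Thm_ModularFormClass_isBoundedAt_heckeT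
import Fermat.Agent.S24.helper1644_AnalyticJ
import Fermat.Agent.S28.helper328_PrimeSpec

set_option autoImplicit false

open UpperHalfPlane ModularForm EisensteinSeries Filter Topology
open scoped MatrixGroups

namespace Fermat.Agent.S28.helper308

noncomputable section

open Fermat.Agent.S24.helper1644 (taylorPS taylorPS_mul taylorPS_pow taylorPS_congr
  taylorPS_polynomial taylorPS_eulerFun taylorPS_e4Fun eulerFun differentiableOn_eulerFun
  e4Fun ball_mem_nhds_zero)
open Fermat.Agent.S28.helper328 (E4C DeltaC heckeTps Stmt_Hecke)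

/-! ### Bridges between analytic `q`-expansions and the Prelude formal series -/

/-- The `q`-expansion of any function is the Taylor series of its cusp function. -/
theorem qExpansion_eq_taylorPS (f : ℍ → ℂ) : qExpansion 1 f = taylorPS (cuspFunction 1 f) := by
  ext n
  rw [qExpansion_coeff, Fermat.Agent.S24.helper1644.coeff_taylorPS]

/-- Bridge: the `q`-expansion of `E₄` is the Prelude series `eisenstein4`. -/
theorem qExpansion_E₄ : qExpansion 1 E₄ = E4C := by
  rw [qExpansion_eq_taylorPS]
  exact taylorPS_e4Fun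

/-- The Taylor series of the identity function is `X`. -/
theorem taylorPS_id : taylorPS (fun q : ℂ => q) = PowerSeries.X := by
  have h := taylorPS_polynomial Polynomial.X
  simpa using h

/-- Bridge: the `q`-expansion of `Δ` is `X * etaProd ^ 24`. -/
theorem qExpansion_discriminant : qExpansion 1 discriminant = DeltaC := by
  rw [qExpansion_eq_taylorPS]
  have h1 : cuspFunction 1 discriminant =ᶠ[𝓝 0] (fun q : ℂ => q) * eulerFun ^ 24 := by
    filter_upwards [ball_mem_nhds_zero] with q hq
    rw [discriminant_cuspFunction_eqOn hq]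
    have hq' : ‖q‖ < 1 := by simpa using hq
    simp only [Pi.mul_apply, Pi.pow_apply, eulerFun]
    rw [(ModularForm.multipliable_one_sub_pow hq').tprod_pow 24]
  have hP := differentiableOn_eulerFun.analyticAt ball_mem_nhds_zero
  have hid : AnalyticAt ℂ (fun q : ℂ => q) 0 := analyticAt_id
  rw [taylorPS_congr h1, taylorPS_mul hid (hP.pow 24), taylorPS_pow hP, taylorPS_eulerFun,
    taylorPS_id]
  simp [DeltaC, ModularCurve.dedekindEtaUnit]

/-! ### Integrality helpers -/

/-- If `G = X * U * H`, `U` has constant coefficient `1` and the coefficients of `U` and `G`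
lie in the subring `R`, then so do the coefficients of `H`. -/
theorem coeff_mem_of_eq_X_mul (R : Subring ℂ) (U H G : PowerSeries ℂ)
    (hU0 : PowerSeries.coeff 0 U = 1) (hU : ∀ n, PowerSeries.coeff n U ∈ R)
    (hG : ∀ n, PowerSeries.coeff n G ∈ R) (h : G = PowerSeries.X * U * H) :
    ∀ n, PowerSeries.coeff n H ∈ R := by
  intro n
  induction n using Nat.strong_induction_on with
  | _ n ih =>
    have h1 : PowerSeries.coeff (n + 1) G = PowerSeries.coeff n (U * H) := by
      rw [h, mul_assoc, PowerSeries.coeff_succ_X_mul]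
    rw [PowerSeries.coeff_mul] at h1
    have hmem : (0, n) ∈ Finset.HasAntidiagonal.antidiagonal n := by simp
    rw [← Finset.add_sum_erase _ _ hmem] at h1
    simp only [hU0, one_mul] at h1
    have h2 : PowerSeries.coeff n H = PowerSeries.coeff (n + 1) G -
        ∑ x ∈ (Finset.HasAntidiagonal.antidiagonal n).erase (0, n),
          PowerSeries.coeff x.1 U * PowerSeries.coeff x.2 H := by
      rw [h1]; ring
    rw [h2]
    refine R.sub_mem (hG _) (R.sum_mem fun x hx => R.mul_mem (hU _) (ih _ ?_))
    have hx1 := Finset.mem_erase.mp hx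
    have hx2 := Finset.HasAntidiagonal.mem_antidiagonal.mp hx1.2
    rcases x with ⟨a, b⟩
    simp only at hx2 ⊢
    by_contra hb
    have ha : a = 0 := by omega
    have hb' : b = n := by omega
    exact hx1.1 (by rw [ha, hb'])

theorem coeff_E4C_pow_mem (R : Subring ℂ) (a n : ℕ) : PowerSeries.coeff n (E4C ^ a) ∈ R := by
  rw [E4C, ← map_pow, PowerSeries.coeff_map]
  exact intCast_mem R _

theorem DeltaC_eq : DeltaC = PowerSeries.X *
    PowerSeries.map (Int.castRingHom ℂ) ModularCurve.dedekindEtaUnit := by
  simp [DeltaC]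

/-! ### The level-one triangular basis -/

/-- **Level-one integral basis.** A level one modular form `f` of weight `12 M` whose
`q`-expansion coefficients lie in a subring `R ⊆ ℂ` is an `R`-linear combination of the forms
`E₄^(3(M-b)) Δ^b`, `b ≤ M` (as an identity of `q`-expansions and as an identity of functions). -/
theorem exists_basis_expansion (M : ℕ) : ∀ (k : ℤ), k = 12 * (M : ℤ) → ∀ (f : ModularForm 𝒮ℒ k)
    (R : Subring ℂ), (∀ n, PowerSeries.coeff n (qExpansion 1 f) ∈ R) →
    ∃ c : ℕ → ℂ, (∀ b, c b ∈ R) ∧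
      qExpansion 1 f = ∑ b ∈ Finset.range (M + 1), c b • (E4C ^ (3 * (M - b)) * DeltaC ^ b) ∧
      ∀ z : ℍ, f z =
        ∑ b ∈ Finset.range (M + 1), c b * (E₄ z ^ (3 * (M - b)) * discriminant z ^ b) := by
  induction M with
  | zero =>
    intro k hk f R hR
    simp only [Nat.cast_zero, mul_zero] at hk
    subst hk
    obtain ⟨c, hc⟩ := ModularFormClass.levelOne_weight_zero_const f
    have hf : f = c • (1 : ModularForm 𝒮ℒ 0) := by
      ext z
      simp [hc]
    have hq : qExpansion 1 f = c • (1 : PowerSeries ℂ) := by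
      rw [hf, FunLike.coe_smul, ModularForm.qExpansion_smul one_pos one_mem_strictPeriods_SL,
        ModularForm.qExpansion_one]
    have hcR : c ∈ R := by
      have h0 := hR 0
      rw [hq] at h0
      simpa using h0
    refine ⟨fun _ => c, fun _ => hcR, ?_, ?_⟩
    · simp [hq]
    · intro z
      simp [hc]
  | succ M ih =>
    intro k hk f R hR
    have hwt : ((3 * (M + 1) : ℕ) : ℤ) * 4 = k := by rw [hk]; push_cast; ring
    let e : ModularForm 𝒮ℒ k := ModularForm.mcast hwt (E₄.pow (3 * (M + 1)))
    have he : qExpansion 1 e = E4C ^ (3 * (M + 1)) := by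
      change qExpansion 1 (⇑(E₄.pow (3 * (M + 1)))) = _
      rw [ModularForm.qExpansion_pow one_pos one_mem_strictPeriods_SL, qExpansion_E₄]
    have hez : ∀ z : ℍ, e z = E₄ z ^ (3 * (M + 1)) := by
      intro z
      change (E₄.pow (3 * (M + 1))) z = _
      rw [ModularForm.coe_pow]
      rfl
    set a0 : ℂ := PowerSeries.coeff 0 (qExpansion 1 f) with ha0
    have ha0R : a0 ∈ R := hR 0
    let g : ModularForm 𝒮ℒ k := f - a0 • e
    have hg : qExpansion 1 g = qExpansion 1 f - a0 • E4C ^ (3 * (M + 1)) := by
      change qExpansion 1 (⇑(f - a0 • e)) = _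
      rw [FunLike.coe_sub, ModularForm.qExpansion_sub one_pos one_mem_strictPeriods_SL,
        FunLike.coe_smul, ModularForm.qExpansion_smul one_pos one_mem_strictPeriods_SL, he]
    have hE0 : PowerSeries.coeff 0 (E4C ^ (3 * (M + 1))) = 1 := by
      rw [PowerSeries.coeff_zero_eq_constantCoeff, map_pow, E4C,
        ← PowerSeries.coeff_zero_eq_constantCoeff, PowerSeries.coeff_map,
        PowerSeries.coeff_zero_eq_constantCoeff, ModularCurve.constantCoeff_eisenstein4]
      simp
    have hg0 : PowerSeries.coeff 0 (qExpansion 1 g) = 0 := by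
      rw [hg, map_sub, PowerSeries.coeff_smul, hE0]
      simp [ha0]
    let h : ModularForm 𝒮ℒ (k - 12) := CuspForm.discriminantEquiv (ModularForm.toCuspForm g hg0)
    have hgh : qExpansion 1 g = DeltaC * qExpansion 1 h := by
      have h1 := ModularForm.qExpansion_eq_qExpansion_discriminant_mul g hg0
      rw [h1, qExpansion_discriminant]
    have hgR : ∀ n, PowerSeries.coeff n (qExpansion 1 g) ∈ R := by
      intro n
      rw [hg, map_sub, PowerSeries.coeff_smul]
      exact R.sub_mem (hR n) (R.mul_mem ha0R (coeff_E4C_pow_mem R _ n))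
    have hhR : ∀ n, PowerSeries.coeff n (qExpansion 1 h) ∈ R := by
      refine coeff_mem_of_eq_X_mul R
        (PowerSeries.map (Int.castRingHom ℂ) ModularCurve.dedekindEtaUnit) _ _ ?_ ?_ hgR ?_
      · rw [PowerSeries.coeff_map, PowerSeries.coeff_zero_eq_constantCoeff,
          ModularCurve.constantCoeff_dedekindEtaUnit]
        simp
      · intro n
        rw [PowerSeries.coeff_map]
        exact intCast_mem R _
      · rw [hgh, DeltaC_eq]
    obtain ⟨c, hc, hq, hpt⟩ := ih (k - 12) (by rw [hk]; push_cast; ring) h R hhR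
    refine ⟨fun b => Nat.casesOn b a0 c, ?_, ?_, ?_⟩
    · intro b
      cases b with
      | zero => exact ha0R
      | succ b => exact hc b
    · have hf : qExpansion 1 f = qExpansion 1 g + a0 • E4C ^ (3 * (M + 1)) := by
        rw [hg]; ring
      rw [hf, hgh, hq, Finset.sum_range_succ' _ (M + 1), Finset.mul_sum]
      congr 1
      · refine Finset.sum_congr rfl fun b _ => ?_
        simp only [Nat.add_sub_add_right]
        rw [mul_smul_comm, pow_succ]
        congr 1
        ring
      · simp
    · intro z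
      have hgz : g z = discriminant z * h z := by
        have h1 := ModularForm.discriminant_mul_discriminantEquiv_apply
          (ModularForm.toCuspForm g hg0) z
        rw [ModularForm.toCuspForm_apply] at h1
        exact h1.symm
      have hfz : f z = g z + a0 * E₄ z ^ (3 * (M + 1)) := by
        change f z = (f z - a0 * e z) + _
        rw [hez]; ring
      rw [hfz, hgz, hpt z, Finset.sum_range_succ' _ (M + 1), Finset.mul_sum]
      congr 1
      · refine Finset.sum_congr rfl fun b _ => ?_
        simp only [Nat.add_sub_add_right]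
        rw [pow_succ]
        ring
      · simp

/-! ### The Hecke operator `T_p` on level one forms -/

theorem Gamma0_one_eq_top : CongruenceSubgroup.Gamma0 1 = ⊤ := by
  ext A
  simp only [CongruenceSubgroup.Gamma0_mem, Subgroup.mem_top, iff_true]
  exact Subsingleton.elim _ _

theorem coe_Gamma0_one :
    ((CongruenceSubgroup.Gamma0 1 : Subgroup SL(2, ℤ)) : Subgroup (GL (Fin 2) ℝ)) = 𝒮ℒ := by
  rw [Gamma0_one_eq_top]
  exact (MonoidHom.range_eq_map _).symm

/-- `T_p f` for a level one modular form `f`, as a level one modular form. -/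
def heckeTForm (k : ℤ) {p : ℕ} (hp : p.Prime) (f : ModularForm 𝒮ℒ k) : ModularForm 𝒮ℒ k where
  toFun := ModularForm.heckeT k p f
  slash_action_eq' γ hγ := by
    have h1 : ¬ p ∣ 1 := fun h => hp.one_lt.ne' (Nat.dvd_one.mp h)
    refine ModularForm.heckeT_slash_eq_self_of_mem_Gamma0 (N := 1) k hp h1 (f := ⇑f) ?_ γ ?_
    · intro δ hδ
      rw [coe_Gamma0_one] at hδ
      exact SlashInvariantForm.slash_action_eqn f δ hδ
    · rw [coe_Gamma0_one]
      exact hγ
  holo' := ModularForm.mdifferentiable_heckeT (ModularFormClass.holo f) k p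
  bdd_at_cusps' hc := ModularFormClass.isBoundedAt_heckeT f p hc

theorem coe_heckeTForm (k : ℤ) {p : ℕ} (hp : p.Prime) (f : ModularForm 𝒮ℒ k) :
    ⇑(heckeTForm k hp f) = ModularForm.heckeT k p f := rfl

theorem coeff_qExpansion_heckeTForm (k : ℤ) {p : ℕ} (hp : p.Prime) (f : ModularForm 𝒮ℒ k)
    (n : ℕ) :
    PowerSeries.coeff n (qExpansion 1 (heckeTForm k hp f)) =
      ModularForm.coeffHeckeT k p (fun m => PowerSeries.coeff m (qExpansion 1 f)) n :=
  ModularFormClass.qCoeff_heckeT f one_mem_strictPeriods_SL hp.ne_zero n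

/-- The formal Hecke operator of `helper328_PrimeSpec` computes the `q`-expansion of `T_p f`
for level one forms of weight `k ≥ 1`. -/
theorem heckeTps_qExpansion (k : ℕ) (hk : 1 ≤ k) {p : ℕ} (hp : p.Prime)
    (f : ModularForm 𝒮ℒ (k : ℤ)) :
    heckeTps k p (qExpansion 1 f) = qExpansion 1 (heckeTForm (k : ℤ) hp f) := by
  ext n
  rw [coeff_qExpansion_heckeTForm]
  simp only [heckeTps, PowerSeries.coeff_mk, ModularForm.coeffHeckeT]
  have h : ((k : ℕ) : ℤ) - 1 = ((k - 1 : ℕ) : ℤ) := by omega
  rw [h, zpow_natCast]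

/-- **(C1) Hecke input** of route P: `Stmt_Hecke p` of `helper328_PrimeSpec`, for `p` prime. -/
theorem stmt_Hecke (p : ℕ) [hp : Fact p.Prime] : Stmt_Hecke p := by
  intro m M hmM hM
  have hwt : ((3 * m : ℕ) : ℤ) * 4 + ((M - m : ℕ) : ℤ) * 12 = ((12 * M : ℕ) : ℤ) := by
    push_cast [Nat.cast_sub hmM]; ring
  let D : ModularForm 𝒮ℒ 12 := CuspForm.toModularFormₗ CuspForm.discriminant
  have hD : qExpansion 1 D = DeltaC := qExpansion_discriminant
  let F : ModularForm 𝒮ℒ ((12 * M : ℕ) : ℤ) :=
    ModularForm.mcast hwt ((E₄.pow (3 * m)).mul (D.pow (M - m)))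
  have hF : qExpansion 1 F = E4C ^ (3 * m) * DeltaC ^ (M - m) := by
    change qExpansion 1 (⇑((E₄.pow (3 * m)).mul (D.pow (M - m)))) = _
    rw [ModularForm.qExpansion_mul one_pos one_mem_strictPeriods_SL,
      ModularForm.qExpansion_pow one_pos one_mem_strictPeriods_SL,
      ModularForm.qExpansion_pow one_pos one_mem_strictPeriods_SL, qExpansion_E₄, hD]
  obtain ⟨c, -, hq, -⟩ := exists_basis_expansion M _ (by push_cast; ring)
    (heckeTForm _ hp.out F) ⊤ (fun _ => Subring.mem_top _)
  refine ⟨c, ?_⟩
  rw [← hq, ← hF]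
  exact heckeTps_qExpansion (12 * M) (by omega) hp.out F

end

end Fermat.Agent.S28.helper308
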