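/-
S28 (Igusa), route P, sub-leaf of P4: the ROOT FORMULA of `helper328.Stmt_FormalPrime`
follows formally from the two modular relations

  F1 : `Phi(V_p jhat, jhat) = 0`     and     F2 : `Phi(jhat, V_p jhat) = 0`

in `LaurentSeries ℤ` (for `Phi` monic of degree `p + 1` over `ℤ[Y]`).

Proof: the substitution `q ↦ ζ t^n` is a ring hom `ℤ((q)) → k((t))`; it sends F1 / F2 to the
statement that `J(ξ^(p^2), p^2 m)` resp. `J(ω^b ξ, m)` are roots of `Phi(X, J(ξ^p, p m))`; these
`p + 1` roots are pairwise distinct, and a monic polynomial of degree `p + 1` over a field with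
`p + 1` distinct roots is the product of the linear factors.

Author: helper3268.
-/
import Fermat.Agent.S28.helper328_PrimeSpec

set_option autoImplicit false

namespace Fermat.Agent.S28.helper3268

open Polynomial ModularCurve Fermat.Agent.S28.helper328

noncomputable section

/-! ### The substitution `q ↦ ζ t^n` -/

section Subst

variable (k : Type*) [CommRing k]

/-- `f(q) ↦ f(ζ t^n)`, as a ring hom `ℤ((q)) → k((t))`. -/
def subst (ζ : kˣ) (n : ℕ+) : LaurentSeries ℤ →+* LaurentSeries k :=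
  ((qExpand k (n : ℕ)).comp (twist ζ)).comp (coeffMap (Int.castRingHom k))

theorem subst_apply (ζ : kˣ) (n : ℕ+) (f : LaurentSeries ℤ) :
    subst k ζ n f = qExpand k (n : ℕ) (twist ζ (coeffMap (Int.castRingHom k) f)) := rfl

/-- the substitution sends `jhat` to `J(ζ, n)`. -/
theorem subst_jq (ζ : kˣ) (n : ℕ+) : subst k ζ n (jqModC ℤ) = Jsub k ζ n := by
  rw [subst_apply, coeffMap_jqModC, Jsub]

variable {k}

/-- `(f(q^p))(ζ t) = f(ζ^p t^p)`. -/
theorem twist_qExpand (ζ : kˣ) (p : ℕ) [NeZero p] (f : LaurentSeries k) :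
    twist ζ (qExpand k p f) = qExpand k p (twist (ζ ^ p) f) := by
  ext j
  by_cases hj : (p : ℤ) ∣ j
  · obtain ⟨i, rfl⟩ := hj
    rw [twist_coeff, qExpand_coeff_mul, qExpand_coeff_mul, twist_coeff, zpow_mul, zpow_natCast]
  · rw [twist_coeff, qExpand_coeff_of_not_dvd p _ hj, qExpand_coeff_of_not_dvd p _ hj, mul_zero]

variable (k)

/-- `(f(q^p))(ζ t^n) = f(ζ^p t^(p n))`. -/
theorem subst_qExpand (ζ : kˣ) (n : ℕ+) (p : ℕ+) (f : LaurentSeries ℤ) :
    subst k ζ n (qExpand ℤ (p : ℕ) f) = subst k (ζ ^ (p : ℕ)) (p * n) f := by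
  rw [subst_apply, subst_apply, coeffMap_qExpand, twist_qExpand, qExpand_qExpand]
  exact qExpand_congr (by rw [PNat.mul_coe, mul_comm]) _

/-- the substitution commutes with evaluation of integer polynomials. -/
theorem subst_comp_evalJ (ζ : kˣ) (n : ℕ+) (A : LaurentSeries ℤ) :
    (subst k ζ n).comp (evalJ A) = evalJ (subst k ζ n A) := by
  apply Polynomial.ringHom_ext
  · intro a
    simp [evalJ]
  · simp [evalJ]

/-- transport of a root along the substitution. -/
theorem subst_root (ζ : kˣ) (n : ℕ+) (Φ : Polynomial (Polynomial ℤ)) (A B : LaurentSeries ℤ)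
    (h : (Φ.map (evalJ A)).eval B = 0) :
    (Φ.map (evalJ (subst k ζ n A))).eval (subst k ζ n B) = 0 := by
  rw [Polynomial.eval_map] at h ⊢
  rw [← subst_comp_evalJ, ← Polynomial.hom_eval₂, h, map_zero]

end Subst

/-! ### Coefficients of `J(ζ, n)` -/

section Coeff

variable (k : Type*) [CommRing k]

theorem Jsub_coeff_neg (ζ : kˣ) (n : ℕ+) :
    (Jsub k ζ n).coeff (-((n : ℕ) : ℤ)) = ((ζ⁻¹ : kˣ) : k) := by
  have h : (-((n : ℕ) : ℤ)) = ((n : ℕ) : ℤ) * (-1) := by ring
  rw [Jsub, h, qExpand_coeff_mul, twist_coeff, coeff_jqModC_neg_one, mul_one, zpow_neg_one]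

theorem Jsub_coeff_of_not_dvd (ζ : kˣ) (n : ℕ+) {j : ℤ} (hj : ¬ ((n : ℕ) : ℤ) ∣ j) :
    (Jsub k ζ n).coeff j = 0 := by
  rw [Jsub]
  exact qExpand_coeff_of_not_dvd (n : ℕ) _ hj

end Coeff

/-! ### The root formula -/

/-- **Root formula from F1 + F2.**  This is verbatim the last conjunct of
`helper328.Stmt_FormalPrime p`. -/
theorem rootFormula_of_F1_F2 (p : ℕ) [hp : Fact p.Prime]
    (Φ : Polynomial (Polynomial ℤ)) (hm : Φ.Monic) (hd : Φ.natDegree = p + 1)
    (hF1 : haveI : NeZero p := ⟨hp.out.ne_zero⟩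
      (Φ.map (evalJ (jqModC ℤ))).eval (qExpand ℤ p (jqModC ℤ)) = 0)
    (hF2 : haveI : NeZero p := ⟨hp.out.ne_zero⟩
      (Φ.map (evalJ (qExpand ℤ p (jqModC ℤ)))).eval (jqModC ℤ) = 0) :
    ∀ (k : Type) [Field k] (ω : kˣ), IsPrimitiveRoot ω p → ∀ (ξ : kˣ) (m : ℕ+),
      Φ.map (evalJ (Jsub k (ξ ^ p) (⟨p, hp.out.pos⟩ * m))) =
        (X - C (Jsub k (ξ ^ (p ^ 2)) (⟨p, hp.out.pos⟩ ^ 2 * m))) *
          ∏ b ∈ Finset.range p, (X - C (Jsub k (ω ^ b * ξ) m)) := by
  intro k _ ω hω ξ m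
  have : NeZero p := ⟨hp.out.ne_zero⟩
  set pp : ℕ+ := ⟨p, hp.out.pos⟩ with hpp
  have hppc : (pp : ℕ) = p := rfl
  -- the polynomial and its claimed roots
  set P : Polynomial (LaurentSeries k) := Φ.map (evalJ (Jsub k (ξ ^ p) (pp * m))) with hP
  set rinf : LaurentSeries k := Jsub k (ξ ^ (p ^ 2)) (pp ^ 2 * m) with hrinf
  set r : ℕ → LaurentSeries k := fun b => Jsub k (ω ^ b * ξ) m with hr
  -- roots: the one at infinity
  have hroot_inf : P.eval rinf = 0 := by
    have h := subst_root k (ξ ^ p) (pp * m) Φ _ _ hF1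
    rw [subst_jq] at h
    have h2 : subst k (ξ ^ p) (pp * m) (qExpand ℤ p (jqModC ℤ)) = rinf := by
      have h3 : subst k (ξ ^ p) (pp * m) (qExpand ℤ p (jqModC ℤ)) =
          subst k ((ξ ^ p) ^ p) (pp * (pp * m)) (jqModC ℤ) :=
        subst_qExpand k (ξ ^ p) (pp * m) pp (jqModC ℤ)
      rw [h3, subst_jq, hrinf, ← pow_mul, ← mul_assoc, pow_two, pow_two]
    rw [h2] at h
    exact h
  -- roots: the finite ones
  have hroot : ∀ b : ℕ, P.eval (r b) = 0 := by
    intro b
    have h := subst_root k (ω ^ b * ξ) m Φ _ _ hF2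
    rw [subst_jq] at h
    have h2 : subst k (ω ^ b * ξ) m (qExpand ℤ p (jqModC ℤ)) = Jsub k (ξ ^ p) (pp * m) := by
      have h3 : subst k (ω ^ b * ξ) m (qExpand ℤ p (jqModC ℤ)) =
          subst k ((ω ^ b * ξ) ^ p) (pp * m) (jqModC ℤ) :=
        subst_qExpand k (ω ^ b * ξ) m pp (jqModC ℤ)
      rw [h3, subst_jq]
      have hωp : (ω ^ b * ξ) ^ p = ξ ^ p := by
        rw [mul_pow, ← pow_mul, mul_comm b p, pow_mul, hω.pow_eq_one, one_pow, one_mul]
      rw [hωp]
    rw [h2] at h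
    exact h
  -- the family of roots, indexed by `Option (Fin p)`
  let f : Option (Fin p) → LaurentSeries k := fun o => o.elim rinf (fun b => r b)
  have hcoeff_r : ∀ b : ℕ, (r b).coeff (-((m : ℕ) : ℤ)) = (((ω ^ b * ξ)⁻¹ : kˣ) : k) :=
    fun b => Jsub_coeff_neg k _ m
  have hcoeff_inf : rinf.coeff (-((m : ℕ) : ℤ)) = 0 := by
    apply Jsub_coeff_of_not_dvd
    rw [Int.dvd_neg, Int.natCast_dvd_natCast]
    intro hdvd
    have hle := Nat.le_of_dvd m.pos hdvd
    rw [PNat.mul_coe, PNat.pow_coe, hppc] at hle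
    have h2 : 2 ≤ p := hp.out.two_le
    have hm1 : 1 ≤ (m : ℕ) := m.pos
    have h4 : 2 ^ 2 * (m : ℕ) ≤ p ^ 2 * (m : ℕ) :=
      Nat.mul_le_mul_right _ (Nat.pow_le_pow_left h2 2)
    omega
  have hf : Function.Injective f := by
    intro a b hab
    rcases a with _ | a <;> rcases b with _ | b
    · rfl
    · exfalso
      have h := congrArg (fun x : LaurentSeries k => x.coeff (-((m : ℕ) : ℤ))) hab
      simp only [f, Option.elim] at h
      rw [hcoeff_inf, hcoeff_r] at h
      exact (Units.ne_zero _) h.symm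
    · exfalso
      have h := congrArg (fun x : LaurentSeries k => x.coeff (-((m : ℕ) : ℤ))) hab
      simp only [f, Option.elim] at h
      rw [hcoeff_inf, hcoeff_r] at h
      exact (Units.ne_zero _) h
    · have h := congrArg (fun x : LaurentSeries k => x.coeff (-((m : ℕ) : ℤ))) hab
      simp only [f, Option.elim] at h
      rw [hcoeff_r, hcoeff_r] at h
      have h3 : (ω ^ (a : ℕ) * ξ)⁻¹ = (ω ^ (b : ℕ) * ξ)⁻¹ := Units.ext h
      have h4 : ω ^ (a : ℕ) = ω ^ (b : ℕ) := by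
        have := inv_injective h3
        exact mul_right_cancel this
      have h5 : (a : ℕ) = (b : ℕ) := hω.pow_inj a.isLt b.isLt h4
      exact congrArg some (Fin.ext h5)
  -- the product
  set Q : Polynomial (LaurentSeries k) :=
    (X - C rinf) * ∏ b ∈ Finset.range p, (X - C (r b)) with hQ
  have hQmonic : Q.Monic :=
    (monic_X_sub_C _).mul (monic_prod_of_monic _ _ fun b _ => monic_X_sub_C _)
  have hPmonic : P.Monic := hm.map _
  have hPdeg : P.natDegree = p + 1 := by rw [hP, hm.natDegree_map, hd]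
  have hQdeg : Q.natDegree = p + 1 := by
    rw [hQ, (monic_X_sub_C _).natDegree_mul (monic_prod_of_monic _ _ fun b _ => monic_X_sub_C _),
      natDegree_X_sub_C, natDegree_prod_of_monic _ _ fun b _ => monic_X_sub_C _]
    simp [add_comm]
  have hQroot : ∀ o, Q.eval (f o) = 0 := by
    intro o
    rcases o with _ | b
    · simp [Q, f]
    · have : (∏ b ∈ Finset.range p, (X - C (r b))).eval (r b) = 0 := by
        rw [Polynomial.eval_prod]
        exact Finset.prod_eq_zero (Finset.mem_range.mpr b.isLt) (by simp)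
      simp [Q, f, this]
  have hProot : ∀ o, P.eval (f o) = 0 := by
    intro o
    rcases o with _ | b
    · exact hroot_inf
    · exact hroot b
  -- `P - Q` has degree `< p + 1` and `p + 1` distinct roots
  have hsub : P - Q = 0 := by
    by_contra hne
    apply hne
    refine Polynomial.eq_zero_of_natDegree_lt_card_of_eval_eq_zero (P - Q) hf
      (fun o => by rw [Polynomial.eval_sub, hProot, hQroot, sub_zero]) ?_
    rw [Fintype.card_option, Fintype.card_fin]
    have hdeg : (P - Q).degree < P.degree := by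
      apply Polynomial.degree_sub_lt_left
      · rw [Polynomial.degree_eq_natDegree hPmonic.ne_zero,
          Polynomial.degree_eq_natDegree hQmonic.ne_zero, hPdeg, hQdeg]
      · exact hPmonic.ne_zero
      · rw [hPmonic.leadingCoeff, hQmonic.leadingCoeff]
    have := Polynomial.natDegree_lt_natDegree hne hdeg
    rw [hPdeg] at this
    exact this
  exact sub_eq_zero.mp hsub

/-- Assembly helper: `Stmt_FormalPrime p` from its first seven conjuncts plus F2
(the root formula is then automatic). -/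
theorem stmt_FormalPrime_of_F2 (p : ℕ) [hp : Fact p.Prime]
    (Φ G : Polynomial (Polynomial ℤ)) (T : ℕ → Polynomial ℤ) (Ψ : Polynomial (LaurentSeries ℤ))
    (hΦm : Φ.Monic) (hΦd : Φ.natDegree = p + 1) (hGm : G.Monic)
    (hG0 : G.coeff 0 = C ((p : ℤ) ^ 12) ∨ G.coeff 0 = C (-(p : ℤ) ^ 12))
    (hG : haveI : NeZero p := ⟨hp.out.ne_zero⟩
      (G.map (evalJ (jqModC ℤ))).eval (gHat p) = 0)
    (hfac : haveI : NeZero p := ⟨hp.out.ne_zero⟩
      Φ.map (evalJ (jqModC ℤ)) = (X - C (qExpand ℤ p (jqModC ℤ))) * Ψ)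
    (hLag : haveI : NeZero p := ⟨hp.out.ne_zero⟩
      Ψ.eval (qExpand ℤ p (jqModC ℤ)) * gHat p =
        ∑ i ∈ Finset.range (p + 1), Ψ.coeff i * evalJ (jqModC ℤ) (T i))
    (hF2 : haveI : NeZero p := ⟨hp.out.ne_zero⟩
      (Φ.map (evalJ (qExpand ℤ p (jqModC ℤ)))).eval (jqModC ℤ) = 0) :
    Stmt_FormalPrime p := by
  have : NeZero p := ⟨hp.out.ne_zero⟩
  refine ⟨Φ, G, T, Ψ, hΦm, hΦd, hGm, hG0, hG, hfac, hLag, ?_⟩
  have hF1 : (Φ.map (evalJ (jqModC ℤ))).eval (qExpand ℤ p (jqModC ℤ)) = 0 := by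
    rw [hfac]
    simp
  exact rootFormula_of_F1_F2 p Φ hΦm hΦd hF1 hF2

end

end Fermat.Agent.S28.helper3268
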