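/-
S28 (Igusa) — prime-level modular input, formal part (2/2):
`Stmt_Hecke p → Stmt_FormalPrime p`.
Author: helper328.  No sorry.
-/
import Mathlib
import Fermat.Agent.S28.helper328_Ush

set_option autoImplicit false

namespace Fermat.Agent.S28.helper328

open Polynomial ModularCurve

noncomputable section

section Basic

variable (R : Type*) [CommRing R]

theorem deltaHat_mul_deltaHatInv : deltaHat R * deltaHatInv R = 1 := by
  have h : dedekindEtaUnit.map (Int.castRingHom R) * dedekindEtaUnitInv.map (Int.castRingHom R)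
      = 1 := by
    rw [← map_mul, dedekindEtaUnit_mul_inv, map_one]
  rw [deltaHat, deltaHatInv, mul_mul_mul_comm, HahnSeries.single_mul_single, ← map_mul, h, map_one,
    mul_one, mul_one]
  rfl

theorem jqModC_mul_deltaHat :
    jqModC R * deltaHat R =
      HahnSeries.ofPowerSeries ℤ R ((eisenstein4.map (Int.castRingHom R)) ^ 3) := by
  have h : jNum.map (Int.castRingHom R) * dedekindEtaUnit.map (Int.castRingHom R)
      = (eisenstein4.map (Int.castRingHom R)) ^ 3 := by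
    rw [← map_mul, ← map_pow, jNum, mul_assoc, mul_comm dedekindEtaUnitInv, dedekindEtaUnit_mul_inv,
      mul_one]
  rw [jqModC, deltaHat, mul_mul_mul_comm, HahnSeries.single_mul_single, ← map_mul, h, mul_one]
  have : HahnSeries.single ((-1 : ℤ) + 1) (1 : R) = 1 := by simp
  rw [this, one_mul]

theorem deltaHat_eq_ofPowerSeries :
    deltaHat R = HahnSeries.ofPowerSeries ℤ R
      ((PowerSeries.X * dedekindEtaUnit).map (Int.castRingHom R)) := by
  rw [deltaHat, map_mul, map_mul, PowerSeries.map_X, HahnSeries.ofPowerSeries_X]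

variable {R} in
theorem coeffMap_deltaHat {S : Type*} [CommRing S] (φ : R →+* S) :
    coeffMap φ (deltaHat R) = deltaHat S := by
  rw [deltaHat, map_mul, coeffMap_single, map_one, coeffMap_ofPowerSeries,
    ← RingHom.comp_apply (PowerSeries.map φ) (PowerSeries.map (Int.castRingHom R)),
    ← PowerSeries.map_comp, RingHom.ext_int (φ.comp (Int.castRingHom R)) (Int.castRingHom S)]
  rfl

variable {R} in
theorem coeffMap_deltaHatInv {S : Type*} [CommRing S] (φ : R →+* S) :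
    coeffMap φ (deltaHatInv R) = deltaHatInv S := by
  rw [deltaHatInv, map_mul, coeffMap_single, map_one, coeffMap_ofPowerSeries,
    ← RingHom.comp_apply (PowerSeries.map φ) (PowerSeries.map (Int.castRingHom R)),
    ← PowerSeries.map_comp, RingHom.ext_int (φ.comp (Int.castRingHom R)) (Int.castRingHom S)]
  rfl

end Basic

section HeckeLaurent

/-- `j^a * Delta^(a+b)` is the Laurent series of the level one form `E4^(3a) Delta^b`. -/
theorem ofPowerSeries_E4C_mul_DeltaC (a b : ℕ) :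
    HahnSeries.ofPowerSeries ℤ ℂ (E4C ^ (3 * a) * DeltaC ^ b) =
      jqModC ℂ ^ a * deltaHat ℂ ^ (a + b) := by
  rw [map_mul, map_pow, map_pow, pow_mul, ← map_pow, E4C, ← jqModC_mul_deltaHat ℂ, DeltaC,
    ← deltaHat_eq_ofPowerSeries ℂ, mul_pow, pow_add]
  ring

/-- the formal Hecke operator in terms of the section operator and `q ↦ q^p`. -/
theorem ofPowerSeries_heckeTps (k p : ℕ) [NeZero p] (f : PowerSeries ℂ) :
    HahnSeries.ofPowerSeries ℤ ℂ (heckeTps k p f) =
      Ush p 0 (HahnSeries.ofPowerSeries ℤ ℂ f) +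
        HahnSeries.C ((p : ℂ) ^ (k - 1)) * qExpand ℂ p (HahnSeries.ofPowerSeries ℤ ℂ f) := by
  have hp : (0 : ℤ) < p := by exact_mod_cast Nat.pos_of_ne_zero (NeZero.ne p)
  ext n
  rw [HahnSeries.coeff_add, HahnSeries.C_mul_eq_smul, HahnSeries.coeff_smul, Ush_coeff, add_zero,
    smul_eq_mul]
  rcases lt_or_ge n 0 with hn | hn
  · rw [ofPowerSeries_coeff_of_neg _ hn, ofPowerSeries_coeff_of_neg _ (by nlinarith)]
    by_cases hdvd : (p : ℤ) ∣ n
    · obtain ⟨j, rfl⟩ := hdvd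
      rw [qExpand_coeff_mul, ofPowerSeries_coeff_of_neg _ (by nlinarith)]
      simp
    · rw [qExpand_coeff_of_not_dvd p _ hdvd]
      simp
  · lift n to ℕ using hn
    rw [HahnSeries.ofPowerSeries_apply_coeff, heckeTps, PowerSeries.coeff_mk,
      show (p : ℤ) * (n : ℤ) = ((n * p : ℕ) : ℤ) by push_cast; ring,
      HahnSeries.ofPowerSeries_apply_coeff]
    congr 1
    by_cases hdvd : p ∣ n
    · rw [if_pos hdvd]
      obtain ⟨j, rfl⟩ := hdvd
      rw [show ((p * j : ℕ) : ℤ) = (p : ℤ) * (j : ℤ) by push_cast; ring, qExpand_coeff_mul,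
        HahnSeries.ofPowerSeries_apply_coeff, Nat.mul_div_cancel_left _ (Nat.pos_of_ne_zero (NeZero.ne p))]
    · rw [if_neg hdvd, qExpand_coeff_of_not_dvd p _ (by exact_mod_cast hdvd), mul_zero]

end HeckeLaurent

section Roots

/-- `h = Delta(t) / Delta(t^p)`. -/
def hHat (R : Type*) [CommRing R] (p : ℕ) [NeZero p] : LaurentSeries R :=
  deltaHat R * qExpand R p (deltaHatInv R)

theorem coeffMap_hHat {R S : Type*} [CommRing R] [CommRing S] (φ : R →+* S) (p : ℕ) [NeZero p] :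
    coeffMap φ (hHat R p) = hHat S p := by
  rw [hHat, map_mul, coeffMap_qExpand, coeffMap_deltaHat, coeffMap_deltaHatInv, hHat]

variable (p : ℕ) [NeZero p] (ω : ℂˣ)

/-- `g = p^12 Delta(q^p) / Delta(q)` with complex coefficients. -/
def gC : LaurentSeries ℂ :=
  (p : LaurentSeries ℂ) ^ 12 * qExpand ℂ p (deltaHat ℂ) * deltaHatInv ℂ

theorem gC_eq : gC p =
    (p : LaurentSeries ℂ) ^ 12 * qExpand ℂ p (deltaHat ℂ) * deltaHatInv ℂ := by
  rw [gC]

theorem hHat_eq (R : Type*) [CommRing R] : hHat R p = deltaHat R * qExpand R p (deltaHatInv R) := by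
  rw [hHat]

theorem coeffMap_gHat : coeffMap (Int.castRingHom ℂ) (gHat p) = gC p := by
  rw [gHat, gC, map_mul, map_mul, map_pow, map_natCast, coeffMap_qExpand, coeffMap_deltaHat,
    coeffMap_deltaHatInv]

/-- the `p + 1` conjugates of `j(q^p)`, in the variable `t = q^(1/p)`. -/
def xx : Option (Fin p) → LaurentSeries ℂ
  | none => qExpand ℂ p (qExpand ℂ p (jqModC ℂ))
  | some b => twist (ω ^ (b : ℕ)) (jqModC ℂ)

/-- the `p + 1` conjugates of `g`, in the variable `t = q^(1/p)`. -/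
def yy : Option (Fin p) → LaurentSeries ℂ
  | none => qExpand ℂ p (gC p)
  | some b => twist (ω ^ (b : ℕ)) (hHat ℂ p)

/-- the subalgebra `{P(j(t^p))}` of `ℂ((t))`. -/
def AJ : Subalgebra ℂ (LaurentSeries ℂ) :=
  ((qExpandAlgHomC ℂ p).comp (aeval (jqModC ℂ))).range

theorem mem_AJ_iff (z : LaurentSeries ℂ) :
    z ∈ AJ p ↔ ∃ P : Polynomial ℂ, qExpand ℂ p (aeval (jqModC ℂ) P) = z := by
  rw [AJ, AlgHom.mem_range]
  rfl

/-- the mixed power sums. -/
def Smix (m M : ℕ) : LaurentSeries ℂ := ∑ γ, xx p ω γ ^ m * yy p ω γ ^ M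

variable {p ω}

theorem Smix_eq (hω : IsPrimitiveRoot ω p) (m M : ℕ) (hmM : m ≤ M) (hM : 1 ≤ M) :
    Smix p ω m M = qExpand ℂ p (deltaHatInv ℂ ^ M * (HahnSeries.C (p : ℂ) *
      HahnSeries.ofPowerSeries ℤ ℂ (heckeTps (12 * M) p (E4C ^ (3 * m) * DeltaC ^ (M - m))))) := by
  set F : LaurentSeries ℂ := jqModC ℂ ^ m * deltaHat ℂ ^ M with hF
  have hF' : HahnSeries.ofPowerSeries ℤ ℂ (E4C ^ (3 * m) * DeltaC ^ (M - m)) = F := by
    rw [ofPowerSeries_E4C_mul_DeltaC, Nat.add_sub_cancel' hmM]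
  have hpow : (p : ℂ) ^ (12 * M) = (p : ℂ) * (p : ℂ) ^ (12 * M - 1) := by
    rw [← pow_succ', Nat.sub_add_cancel (by omega)]
  have hpC : (p : LaurentSeries ℂ) = HahnSeries.C (p : ℂ) := (map_natCast HahnSeries.C p).symm
  have hωb : ∀ b : Fin p, (ω ^ (b : ℕ)) ^ p = 1 := by
    intro b
    rw [← pow_mul, mul_comm, pow_mul, hω.pow_eq_one, one_pow]
  have e1 : xx p ω none ^ m * yy p ω none ^ M = qExpand ℂ p (deltaHatInv ℂ ^ M *
      (HahnSeries.C (p : ℂ) * (HahnSeries.C ((p : ℂ) ^ (12 * M - 1)) * qExpand ℂ p F))) := by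
    show (qExpand ℂ p (qExpand ℂ p (jqModC ℂ))) ^ m * (qExpand ℂ p (gC p)) ^ M = _
    rw [← map_pow (qExpand ℂ p) (qExpand ℂ p (jqModC ℂ)) m, ← map_pow (qExpand ℂ p) (gC p) M,
      ← map_mul]
    congr 1
    have hVF : qExpand ℂ p F = (qExpand ℂ p (jqModC ℂ)) ^ m * (qExpand ℂ p (deltaHat ℂ)) ^ M := by
      rw [hF, map_mul, map_pow, map_pow]
    rw [hVF, gC, ← mul_assoc (HahnSeries.C (p : ℂ)), ← map_mul, ← hpow, hpC, map_pow]
    ring
  have e2 : ∑ b : Fin p, xx p ω (some b) ^ m * yy p ω (some b) ^ M = qExpand ℂ p (deltaHatInv ℂ ^ M *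
      (HahnSeries.C (p : ℂ) * Ush p 0 F)) := by
    have h1 : ∀ b : Fin p, xx p ω (some b) ^ m * yy p ω (some b) ^ M =
        twist (ω ^ (b : ℕ)) F * qExpand ℂ p (deltaHatInv ℂ ^ M) := by
      intro b
      show (twist (ω ^ (b : ℕ)) (jqModC ℂ)) ^ m * (twist (ω ^ (b : ℕ)) (hHat ℂ p)) ^ M = _
      rw [← twist_qExpand_of_pow_eq_one p (ω ^ (b : ℕ)) (hωb b) (deltaHatInv ℂ ^ M), hF, hHat]
      simp only [map_mul, map_pow]
      ring
    simp only [h1]
    rw [← Finset.sum_mul, sum_twist_eq p ω hω F, ← HahnSeries.C_mul_eq_smul, map_mul, map_mul,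
      qExpand_C]
    ring
  rw [Smix, Fintype.sum_option, e1, e2, ← map_add, ofPowerSeries_heckeTps, hF']
  congr 1
  ring

theorem Smix_mem (hω : IsPrimitiveRoot ω p) (h : Stmt_Hecke p) (m M : ℕ) (hmM : m ≤ M)
    (hM : 1 ≤ M) : Smix p ω m M ∈ AJ p := by
  obtain ⟨c, hc⟩ := h m M hmM hM
  rw [Smix_eq hω m M hmM hM, hc, mem_AJ_iff]
  refine ⟨∑ b ∈ Finset.range (M + 1), C ((p : ℂ) * c b) * X ^ (M - b), ?_⟩
  congr 1
  rw [map_sum, map_sum, Finset.mul_sum, Finset.mul_sum]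
  refine Finset.sum_congr rfl fun b hb => ?_
  have hb' : b ≤ M := Nat.lt_succ_iff.mp (Finset.mem_range.mp hb)
  have hterm : HahnSeries.ofPowerSeries ℤ ℂ (c b • (E4C ^ (3 * (M - b)) * DeltaC ^ b)) =
      HahnSeries.C (c b) * (jqModC ℂ ^ (M - b) * deltaHat ℂ ^ M) := by
    rw [PowerSeries.smul_eq_C_mul, map_mul, HahnSeries.ofPowerSeries_C,
      ofPowerSeries_E4C_mul_DeltaC, Nat.sub_add_cancel hb']
  have hpoly : aeval (jqModC ℂ) (C ((p : ℂ) * c b) * X ^ (M - b)) =
      HahnSeries.C (p : ℂ) * HahnSeries.C (c b) * jqModC ℂ ^ (M - b) := by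
    rw [map_mul, aeval_C, map_pow, aeval_X, algebraMap_laurentSeries_eq_single,
      ← HahnSeries.C_apply, map_mul]
  rw [hterm, hpoly]
  have h1 : deltaHatInv ℂ ^ M * deltaHat ℂ ^ M = 1 := by
    rw [← mul_pow, mul_comm, deltaHat_mul_deltaHatInv, one_pow]
  calc HahnSeries.C (p : ℂ) * HahnSeries.C (c b) * jqModC ℂ ^ (M - b)
      = HahnSeries.C (p : ℂ) * HahnSeries.C (c b) * jqModC ℂ ^ (M - b) *
          (deltaHatInv ℂ ^ M * deltaHat ℂ ^ M) := by rw [h1, mul_one]
    _ = _ := by ring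

end Roots

section Polys

variable (p : ℕ) [NeZero p]

/-- `ι : ℤ((q)) → ℂ((t))`, `q ↦ t^p`. -/
def iota : LaurentSeries ℤ →+* LaurentSeries ℂ :=
  (qExpand ℂ p).comp (coeffMap (Int.castRingHom ℂ))

theorem iota_apply (s : LaurentSeries ℤ) :
    iota p s = qExpand ℂ p (coeffMap (Int.castRingHom ℂ) s) := rfl

theorem iota_injective : Function.Injective (iota p) :=
  (qExpand_injective p).comp coeffMap_intCast_injective

/-- cofactor of `X - j(q^p)` in the modular polynomial. -/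
def PsiZ : Polynomial (LaurentSeries ℤ) := Matrix.charpoly (Mat p (jqModC ℤ))

/-- cofactor of `X - g` in the polynomial of `g`. -/
def PsiH : Polynomial (LaurentSeries ℤ) := Matrix.charpoly (Mat p (hHat ℤ p))

/-- the modular polynomial with coefficients in `ℤ((q))`. -/
def PhiL : Polynomial (LaurentSeries ℤ) := (X - C (qExpand ℤ p (jqModC ℤ))) * PsiZ p

/-- the polynomial of `g` with coefficients in `ℤ((q))`. -/
def GyL : Polynomial (LaurentSeries ℤ) := (X - C (gHat p)) * PsiH p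

theorem PsiZ_monic : (PsiZ p).Monic := Matrix.charpoly_monic _

theorem PsiH_monic : (PsiH p).Monic := Matrix.charpoly_monic _

theorem PsiZ_natDegree : (PsiZ p).natDegree = p := by
  rw [PsiZ, Matrix.charpoly_natDegree_eq_dim, Fintype.card_fin]

theorem PsiH_natDegree : (PsiH p).natDegree = p := by
  rw [PsiH, Matrix.charpoly_natDegree_eq_dim, Fintype.card_fin]

theorem PhiL_monic : (PhiL p).Monic := (monic_X_sub_C _).mul (PsiZ_monic p)

theorem GyL_monic : (GyL p).Monic := (monic_X_sub_C _).mul (PsiH_monic p)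

theorem PhiL_natDegree : (PhiL p).natDegree = p + 1 := by
  rw [PhiL, (monic_X_sub_C _).natDegree_mul (PsiZ_monic p), natDegree_X_sub_C, PsiZ_natDegree,
    add_comm]

theorem GyL_natDegree : (GyL p).natDegree = p + 1 := by
  rw [GyL, (monic_X_sub_C _).natDegree_mul (PsiH_monic p), natDegree_X_sub_C, PsiH_natDegree,
    add_comm]

variable {p} {ω : ℂˣ}

theorem PsiZ_map_iota (hω : IsPrimitiveRoot ω p) :
    (PsiZ p).map (iota p) = ∏ b : Fin p, (X - C (xx p ω (some b))) := by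
  rw [PsiZ, iota, ← Polynomial.map_map, ← Matrix.charpoly_map, Mat_map_coeffMap, coeffMap_jqModC,
    charpoly_Mat_map_qExpand p ω hω]
  rfl

theorem PsiH_map_iota (hω : IsPrimitiveRoot ω p) :
    (PsiH p).map (iota p) = ∏ b : Fin p, (X - C (yy p ω (some b))) := by
  rw [PsiH, iota, ← Polynomial.map_map, ← Matrix.charpoly_map, Mat_map_coeffMap, coeffMap_hHat,
    charpoly_Mat_map_qExpand p ω hω]
  rfl

theorem iota_qExpand_jq : iota p (qExpand ℤ p (jqModC ℤ)) = xx p ω none := by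
  rw [iota_apply, coeffMap_qExpand, coeffMap_jqModC]
  rfl

theorem iota_gHat : iota p (gHat p) = yy p ω none := by
  rw [iota_apply, coeffMap_gHat]
  rfl

theorem PhiL_map_iota (hω : IsPrimitiveRoot ω p) :
    (PhiL p).map (iota p) = ∏ γ, (X - C (xx p ω γ)) := by
  rw [PhiL, Polynomial.map_mul, Polynomial.map_sub, Polynomial.map_X, Polynomial.map_C,
    PsiZ_map_iota hω, Fintype.prod_option, iota_qExpand_jq (ω := ω)]

theorem GyL_map_iota (hω : IsPrimitiveRoot ω p) :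
    (GyL p).map (iota p) = ∏ γ, (X - C (yy p ω γ)) := by
  rw [GyL, Polynomial.map_mul, Polynomial.map_sub, Polynomial.map_X, Polynomial.map_C,
    PsiH_map_iota hω, Fintype.prod_option, iota_gHat (ω := ω)]

/-- an integer series whose image lies in `AJ` is a complex polynomial in `j`. -/
theorem exists_poly_of_iota_mem (s : LaurentSeries ℤ) (hs : iota p s ∈ AJ p) :
    ∃ P : Polynomial ℂ, coeffMap (Int.castRingHom ℂ) s = aeval (jqModC ℂ) P := by
  obtain ⟨P, hP⟩ := (mem_AJ_iff p _).mp hs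
  exact ⟨P, (qExpand_injective p hP).symm⟩

/-- an integer series whose image lies in `AJ` is an integer polynomial in `j`. -/
theorem exists_int_poly_of_iota_mem (s : LaurentSeries ℤ) (hs : iota p s ∈ AJ p) :
    ∃ Q : Polynomial ℤ, evalJ (jqModC ℤ) Q = s := by
  obtain ⟨P, hP⟩ := exists_poly_of_iota_mem s hs
  exact exists_int_poly_of_coeffMap_eq P s hP

theorem GyL_coeff_mem (hω : IsPrimitiveRoot ω p) (h : Stmt_Hecke p) (k : ℕ) :
    iota p ((GyL p).coeff k) ∈ AJ p := by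
  rw [← Polynomial.coeff_map, GyL_map_iota hω]
  apply coeff_prod_X_sub_C_mem (AJ p) (yy p ω)
  intro M
  rcases Nat.eq_zero_or_pos M with rfl | hM
  · simp only [pow_zero, Finset.sum_const, Finset.card_univ, nsmul_eq_mul, mul_one]
    exact natCast_mem _ _
  · have := Smix_mem hω h 0 M (Nat.zero_le _) hM
    simpa [Smix] using this

theorem LT_deltaHat : LT (deltaHat ℂ) 1 1 := by
  have h := LT.single_mul_ofPowerSeries (k := ℂ) 1 (dedekindEtaUnit.map (Int.castRingHom ℂ))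
  have h1 : PowerSeries.constantCoeff (dedekindEtaUnit.map (Int.castRingHom ℂ)) = 1 := by
    rw [← PowerSeries.coeff_zero_eq_constantCoeff_apply, PowerSeries.coeff_map,
      PowerSeries.coeff_zero_eq_constantCoeff_apply, constantCoeff_dedekindEtaUnit]
    simp
  rw [h1] at h
  exact h

theorem LT_deltaHatInv : LT (deltaHatInv ℂ) (-1) 1 := by
  have h := LT.single_mul_ofPowerSeries (k := ℂ) (-1) (dedekindEtaUnitInv.map (Int.castRingHom ℂ))
  have h1 : PowerSeries.constantCoeff (dedekindEtaUnitInv.map (Int.castRingHom ℂ)) = 1 := by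
    rw [← PowerSeries.coeff_zero_eq_constantCoeff_apply, PowerSeries.coeff_map,
      PowerSeries.coeff_zero_eq_constantCoeff_apply, constantCoeff_dedekindEtaUnitInv]
    simp
  rw [h1] at h
  exact h

/-- the lowest term of the product of the `-y_γ`. -/
theorem LT_prod_neg_yy (hω : IsPrimitiveRoot ω p) :
    LT (∏ γ, (-yy p ω γ)) 0
      (-((p : ℂ) ^ 12) * ∏ b : Fin p, (-((ω ^ (b : ℕ) : ℂˣ) : ℂ))) := by
  have hp0 : (p : ℂ) ≠ 0 := Nat.cast_ne_zero.mpr (NeZero.ne p)
  have hp12 : LT ((p : LaurentSeries ℂ) ^ 12) 0 ((p : ℂ) ^ 12) := by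
    have : (p : LaurentSeries ℂ) ^ 12 = HahnSeries.single 0 ((p : ℂ) ^ 12) := by
      rw [← map_natCast (HahnSeries.C (Γ := ℤ) (R := ℂ)) p, ← map_pow, HahnSeries.C_apply]
    rw [this]
    exact LT.single 0 _
  have hg1 : LT ((p : LaurentSeries ℂ) ^ 12 * qExpand ℂ p (deltaHat ℂ)) (0 + (p : ℤ) * 1)
      ((p : ℂ) ^ 12 * 1) :=
    hp12.mul (LT_deltaHat.map_qExpand p) (pow_ne_zero _ hp0) one_ne_zero
  have hg : LT ((p : LaurentSeries ℂ) ^ 12 * qExpand ℂ p (deltaHat ℂ) * deltaHatInv ℂ)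
      (0 + (p : ℤ) * 1 + (-1)) ((p : ℂ) ^ 12 * 1 * 1) :=
    hg1.mul LT_deltaHatInv (mul_ne_zero (pow_ne_zero _ hp0) one_ne_zero) one_ne_zero
  have hyn : yy p ω none = qExpand ℂ p (gC p) := rfl
  have hy0 : LT (-yy p ω none) ((p : ℤ) * (0 + (p : ℤ) * 1 + (-1))) (-((p : ℂ) ^ 12 * 1 * 1)) := by
    rw [hyn, gC_eq]
    exact (hg.map_qExpand p).neg
  have hh : LT (deltaHat ℂ * qExpand ℂ p (deltaHatInv ℂ)) (1 + (p : ℤ) * (-1)) (1 * 1) :=
    LT_deltaHat.mul (LT_deltaHatInv.map_qExpand p) one_ne_zero one_ne_zero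
  have hωb : ∀ b : Fin p, ((ω ^ (b : ℕ)) ^ (1 + (p : ℤ) * (-1)) : ℂˣ) = ω ^ (b : ℕ) := by
    intro b
    have h1 : (ω ^ (b : ℕ)) ^ p = 1 := by
      rw [← pow_mul, mul_comm, pow_mul, hω.pow_eq_one, one_pow]
    rw [zpow_add, zpow_one, zpow_mul, zpow_natCast, h1, one_zpow, mul_one]
  have hyb : ∀ b : Fin p, LT (-yy p ω (some b)) (1 + (p : ℤ) * (-1))
      (-((ω ^ (b : ℕ) : ℂˣ) : ℂ)) := by
    intro b
    have hys : yy p ω (some b) = twist (ω ^ (b : ℕ)) (hHat ℂ p) := rfl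
    have := (hh.map_twist (ω ^ (b : ℕ))).neg
    rw [hωb b, mul_one, mul_one] at this
    rw [hys, hHat_eq]
    exact this
  have hprod := LT.prod Finset.univ (fun b : Fin p => -yy p ω (some b))
    (fun _ => 1 + (p : ℤ) * (-1)) (fun b => -((ω ^ (b : ℕ) : ℂˣ) : ℂ)) (fun b _ => hyb b)
    (fun b _ => neg_ne_zero.mpr (Units.ne_zero _))
  have hall := hy0.mul hprod (by simpa using hp0)
    (Finset.prod_ne_zero_iff.mpr fun b _ => neg_ne_zero.mpr (Units.ne_zero _))
  rw [Fintype.prod_option]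
  have hord : (p : ℤ) * (0 + (p : ℤ) * 1 + (-1)) + ∑ _b : Fin p, (1 + (p : ℤ) * (-1)) = 0 := by
    rw [Finset.sum_const, Finset.card_univ, Fintype.card_fin, nsmul_eq_mul]
    ring
  rw [hord, mul_one, mul_one] at hall
  exact hall

omit [NeZero p] in
theorem prod_pow_sq_eq_one (hω : IsPrimitiveRoot ω p) :
    (∏ b : Fin p, (-((ω ^ (b : ℕ) : ℂˣ) : ℂ))) ^ 2 = 1 := by
  have h1 : ∀ b : Fin p, (-((ω ^ (b : ℕ) : ℂˣ) : ℂ)) ^ 2 = (((ω ^ 2) ^ (b : ℕ) : ℂˣ) : ℂ) := by
    intro b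
    rw [neg_sq, ← Units.val_pow_eq_pow_val, ← pow_mul, ← pow_mul, mul_comm]
  rw [← Finset.prod_pow]
  simp only [h1]
  rw [← Units.coe_prod, Finset.prod_pow_eq_pow_sum,
    Fin.sum_univ_eq_sum_range (fun i => i) p, ← pow_mul, mul_comm 2,
    Finset.sum_range_id_mul_two, pow_mul, hω.pow_eq_one, one_pow, Units.val_one]

/-- the constant coefficient of the polynomial of `g` is `± p^12`. -/
theorem GyL_coeff_zero (hω : IsPrimitiveRoot ω p) (h : Stmt_Hecke p) :
    ∃ n₀ : ℤ, (n₀ = (p : ℤ) ^ 12 ∨ n₀ = -(p : ℤ) ^ 12) ∧ (GyL p).coeff 0 = HahnSeries.C n₀ := by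
  set g₀ : LaurentSeries ℤ := (GyL p).coeff 0 with hg₀
  obtain ⟨P₀, hP₀⟩ := exists_poly_of_iota_mem g₀ (GyL_coeff_mem hω h 0)
  have hPi : iota p g₀ = ∏ γ, (-yy p ω γ) := by
    rw [hg₀, ← Polynomial.coeff_map, GyL_map_iota hω, Polynomial.coeff_zero_eq_eval_zero,
      Polynomial.eval_prod]
    refine Finset.prod_congr rfl fun γ _ => ?_
    simp
  have hLT := LT_prod_neg_yy (p := p) hω
  rw [← hPi, iota_apply, ← mul_zero (p : ℤ)] at hLT
  have hLT' := LT.of_qExpand p hLT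
  have hPC : P₀ = C (P₀.coeff 0) :=
    eq_C_of_coeff_aeval_jqModC ℂ P₀ (fun i hi => by rw [← hP₀]; exact hLT'.1 i hi)
  have hcm : coeffMap (Int.castRingHom ℂ) g₀ = HahnSeries.single 0 (P₀.coeff 0) := by
    rw [hP₀]
    conv_lhs => rw [hPC]
    rw [aeval_C, algebraMap_laurentSeries_eq_single]
  have hn₀ : ((g₀.coeff 0 : ℤ) : ℂ) =
      -((p : ℂ) ^ 12) * ∏ b : Fin p, (-((ω ^ (b : ℕ) : ℂˣ) : ℂ)) := hLT'.2
  refine ⟨g₀.coeff 0, ?_, ?_⟩
  · have hsq : ((g₀.coeff 0 : ℤ) : ℂ) ^ 2 = (((p : ℤ) ^ 12 : ℤ) : ℂ) ^ 2 := by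
      rw [hn₀, mul_pow, prod_pow_sq_eq_one hω]
      push_cast
      ring
    have hsq' : (g₀.coeff 0) ^ 2 = ((p : ℤ) ^ 12) ^ 2 := by exact_mod_cast hsq
    exact sq_eq_sq_iff_eq_or_eq_neg.mp hsq'
  · ext i
    by_cases hi : i = 0
    · subst hi
      rw [HahnSeries.C_apply, HahnSeries.coeff_single_same]
    · have h1 := congrArg (fun z : LaurentSeries ℂ => z.coeff i) hcm
      simp only [coeffMap_coeff, HahnSeries.coeff_single_of_ne hi] at h1
      rw [HahnSeries.C_apply, HahnSeries.coeff_single_of_ne hi]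
      have h2 : ((g₀.coeff i : ℤ) : ℂ) = 0 := h1
      exact_mod_cast h2

/-- all mixed power sums lie in `AJ` (descending recurrence through the equation of `g`). -/
theorem Smix_mem_of_le (hω : IsPrimitiveRoot ω p) (h : Stmt_Hecke p) (m : ℕ) :
    ∀ d M : ℕ, m ≤ M + d → 1 ≤ M + d → Smix p ω m M ∈ AJ p := by
  obtain ⟨n₀, hn₀, hg0⟩ := GyL_coeff_zero hω h
  have hp0 : (p : ℂ) ≠ 0 := Nat.cast_ne_zero.mpr (NeZero.ne p)
  have hn₀ne : (n₀ : ℂ) ≠ 0 := by
    rcases hn₀ with rfl | rfl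
    · push_cast; exact pow_ne_zero _ hp0
    · push_cast; exact neg_ne_zero.mpr (pow_ne_zero _ hp0)
  have hroot : ∀ γ, ∑ k ∈ Finset.range (p + 2),
      iota p ((GyL p).coeff k) * yy p ω γ ^ k = 0 := by
    intro γ
    have h1 : ((GyL p).map (iota p)).eval (yy p ω γ) = 0 := by
      rw [GyL_map_iota hω, Polynomial.eval_prod]
      exact Finset.prod_eq_zero (Finset.mem_univ γ) (by simp)
    have hdeg : ((GyL p).map (iota p)).natDegree < p + 2 := by
      have := Polynomial.natDegree_map_le (f := iota p) (p := GyL p)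
      rw [GyL_natDegree] at this
      omega
    rw [Polynomial.eval_eq_sum_range' hdeg] at h1
    simpa [Polynomial.coeff_map] using h1
  have hg0' : iota p ((GyL p).coeff 0) = algebraMap ℂ (LaurentSeries ℂ) (n₀ : ℂ) := by
    rw [hg0, iota_apply, HahnSeries.C_apply, coeffMap_single, qExpand_single, mul_zero,
      algebraMap_laurentSeries_eq_single]
    simp
  intro d
  induction d with
  | zero =>
    intro M h1 h2
    exact Smix_mem hω h m M (by simpa using h1) (by simpa using h2)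
  | succ d ih =>
    intro M h1 h2
    have hrel : ∑ k ∈ Finset.range (p + 2),
        iota p ((GyL p).coeff k) * Smix p ω m (M + k) = 0 := by
      simp only [Smix, Finset.mul_sum]
      rw [Finset.sum_comm]
      refine Finset.sum_eq_zero fun γ _ => ?_
      have h3 := congrArg (fun z => xx p ω γ ^ m * yy p ω γ ^ M * z) (hroot γ)
      simp only [Finset.mul_sum, mul_zero] at h3
      rw [← h3]
      refine Finset.sum_congr rfl fun k _ => ?_
      rw [pow_add]
      ring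
    rw [Finset.sum_range_succ', add_zero] at hrel
    have hmem : iota p ((GyL p).coeff 0) * Smix p ω m M ∈ AJ p := by
      have h4 : iota p ((GyL p).coeff 0) * Smix p ω m M =
          -∑ k ∈ Finset.range (p + 1),
            iota p ((GyL p).coeff (k + 1)) * Smix p ω m (M + (k + 1)) := by
        linear_combination hrel
      rw [h4]
      exact neg_mem (sum_mem fun k _ =>
        mul_mem (GyL_coeff_mem hω h (k + 1)) (ih (M + (k + 1)) (by omega) (by omega)))
    rw [hg0'] at hmem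
    have h5 := (AJ p).mul_mem ((AJ p).algebraMap_mem ((n₀ : ℂ)⁻¹)) hmem
    rwa [← mul_assoc, ← map_mul, inv_mul_cancel₀ hn₀ne, map_one, one_mul] at h5

theorem Smix_mem_all (hω : IsPrimitiveRoot ω p) (h : Stmt_Hecke p) (m M : ℕ) :
    Smix p ω m M ∈ AJ p :=
  Smix_mem_of_le hω h m (m + 1) M (by omega) (by omega)

theorem PhiL_coeff_mem (hω : IsPrimitiveRoot ω p) (h : Stmt_Hecke p) (k : ℕ) :
    iota p ((PhiL p).coeff k) ∈ AJ p := by
  rw [← Polynomial.coeff_map, PhiL_map_iota hω]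
  apply coeff_prod_X_sub_C_mem (AJ p) (xx p ω)
  intro m
  have := Smix_mem_all hω h m 0
  simpa [Smix] using this

variable (p) in
/-- the trace series `T_i = (V j)^i g + p U(j^i h)`. -/
def tauZ (i : ℕ) : LaurentSeries ℤ :=
  (qExpand ℤ p (jqModC ℤ)) ^ i * gHat p +
    (p : LaurentSeries ℤ) * Ush p 0 (jqModC ℤ ^ i * hHat ℤ p)

theorem iota_tauZ (hω : IsPrimitiveRoot ω p) (i : ℕ) : iota p (tauZ p i) = Smix p ω i 1 := by
  have h1 : ∀ b : Fin p, xx p ω (some b) ^ i * yy p ω (some b) ^ 1 =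
      twist (ω ^ (b : ℕ)) (jqModC ℂ ^ i * hHat ℂ p) := by
    intro b
    show (twist (ω ^ (b : ℕ)) (jqModC ℂ)) ^ i * (twist (ω ^ (b : ℕ)) (hHat ℂ p)) ^ 1 = _
    rw [pow_one, map_mul, map_pow]
  rw [Smix, Fintype.sum_option, tauZ, map_add, map_mul, map_pow, iota_qExpand_jq (ω := ω),
    iota_gHat (ω := ω), pow_one]
  congr 1
  simp only [h1]
  rw [sum_twist_eq p ω hω, map_mul, map_natCast, iota_apply, coeffMap_Ush, map_mul, map_pow,
    coeffMap_jqModC, coeffMap_hHat, ← HahnSeries.C_mul_eq_smul, map_natCast]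

theorem PsiZ_eval_mul_gHat (hω : IsPrimitiveRoot ω p) :
    (PsiZ p).eval (qExpand ℤ p (jqModC ℤ)) * gHat p =
      ∑ i ∈ Finset.range (p + 1), (PsiZ p).coeff i * tauZ p i := by
  apply iota_injective p
  rw [map_mul, map_sum]
  have hdeg : ((PsiZ p).map (iota p)).natDegree < p + 1 := by
    have := Polynomial.natDegree_map_le (f := iota p) (p := PsiZ p)
    rw [PsiZ_natDegree] at this
    omega
  have hev : ∀ z : LaurentSeries ℂ, ((PsiZ p).map (iota p)).eval z =
      ∑ i ∈ Finset.range (p + 1), iota p ((PsiZ p).coeff i) * z ^ i := by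
    intro z
    rw [Polynomial.eval_eq_sum_range' hdeg]
    simp [Polynomial.coeff_map]
  have hzero : ∀ b : Fin p, ((PsiZ p).map (iota p)).eval (xx p ω (some b)) = 0 := by
    intro b
    rw [PsiZ_map_iota hω, Polynomial.eval_prod]
    exact Finset.prod_eq_zero (Finset.mem_univ b) (by simp)
  rw [← Polynomial.eval_map_apply, iota_qExpand_jq (ω := ω), iota_gHat (ω := ω), hev]
  simp only [map_mul, iota_tauZ hω, Smix, Fintype.sum_option, pow_one, mul_add,
    Finset.sum_add_distrib]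
  have hsecond : ∑ i ∈ Finset.range (p + 1), iota p ((PsiZ p).coeff i) *
      ∑ b : Fin p, xx p ω (some b) ^ i * yy p ω (some b) = 0 := by
    simp only [Finset.mul_sum]
    rw [Finset.sum_comm]
    refine Finset.sum_eq_zero fun b _ => ?_
    have h2 := hzero b
    rw [hev] at h2
    calc ∑ i ∈ Finset.range (p + 1), iota p ((PsiZ p).coeff i) *
          (xx p ω (some b) ^ i * yy p ω (some b))
        = (∑ i ∈ Finset.range (p + 1), iota p ((PsiZ p).coeff i) * xx p ω (some b) ^ i) *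
            yy p ω (some b) := by
          rw [Finset.sum_mul]
          refine Finset.sum_congr rfl fun i _ => by ring
      _ = 0 := by rw [h2, zero_mul]
  rw [hsecond, add_zero, Finset.sum_mul]
  refine Finset.sum_congr rfl fun i _ => by ring

end Polys

section Main

/-- **(C2) The formal prime-level package from the Hecke input.** -/
theorem stmt_FormalPrime_of_hecke (p : ℕ) [hp : Fact p.Prime] (h : Stmt_Hecke p) :
    Stmt_FormalPrime p := by
  have : NeZero p := ⟨hp.out.ne_zero⟩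
  obtain ⟨ω, hω⟩ : ∃ ω : ℂˣ, IsPrimitiveRoot ω p := by
    have h1 := Complex.isPrimitiveRoot_exp p hp.out.ne_zero
    exact ⟨(h1.isUnit hp.out.ne_zero).unit, IsPrimitiveRoot.coe_units_iff.mp (by simpa using h1)⟩
  -- the polynomial `G`
  obtain ⟨n₀, hn₀, hg0⟩ := GyL_coeff_zero hω h
  have hQG : ∀ k, ∃ Q : Polynomial ℤ, evalJ (jqModC ℤ) Q = (GyL p).coeff k :=
    fun k => exists_int_poly_of_iota_mem _ (GyL_coeff_mem hω h k)
  choose QG hQG using hQG
  have hC : evalJ (jqModC ℤ) (C n₀) = (GyL p).coeff 0 := by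
    rw [hg0, evalJ, Polynomial.coe_eval₂RingHom, Polynomial.eval₂_C, eq_intCast,
      ← map_intCast (HahnSeries.C (Γ := ℤ) (R := ℤ)) n₀, Int.cast_id]
  obtain ⟨G, hGm, -, hGmap, hGc⟩ := exists_monic_map_eq (evalJ (jqModC ℤ)) (GyL p) (GyL_monic p)
    (fun k => if k = 0 then C n₀ else QG k) (by
      intro i _
      by_cases h0 : i = 0
      · subst h0; rw [if_pos rfl]; exact hC
      · rw [if_neg h0]; exact hQG i)
  -- the polynomial `Φ`
  have hQΦ : ∀ k, ∃ Q : Polynomial ℤ, evalJ (jqModC ℤ) Q = (PhiL p).coeff k :=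
    fun k => exists_int_poly_of_iota_mem _ (PhiL_coeff_mem hω h k)
  choose QΦ hQΦ using hQΦ
  obtain ⟨Φ, hΦm, hΦd, hΦmap, -⟩ := exists_monic_map_eq (evalJ (jqModC ℤ)) (PhiL p) (PhiL_monic p)
    QΦ (fun i _ => hQΦ i)
  -- the trace polynomials
  have hT : ∀ i, ∃ Q : Polynomial ℤ, evalJ (jqModC ℤ) Q = tauZ p i :=
    fun i => exists_int_poly_of_iota_mem _ (by rw [iota_tauZ hω]; exact Smix_mem_all hω h i 1)
  choose T hT using hT
  refine ⟨Φ, G, T, PsiZ p, hΦm, ?_, hGm, ?_, ?_, ?_, ?_, ?_⟩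
  · rw [hΦd, PhiL_natDegree]
  · have h0 := hGc 0 (by rw [GyL_natDegree]; omega)
    rw [if_pos rfl] at h0
    rcases hn₀ with rfl | rfl
    · left; rw [h0]
    · right; rw [h0]
  · rw [hGmap, GyL, Polynomial.eval_mul, Polynomial.eval_sub, Polynomial.eval_X, Polynomial.eval_C,
      sub_self, zero_mul]
  · rw [hΦmap, PhiL]
  · rw [PsiZ_eval_mul_gHat hω]
    refine Finset.sum_congr rfl fun i _ => ?_
    rw [hT]
  · intro k _ ω' hω' ξ m
    exact root_formula_of_factor p hp.out.pos Φ (by rw [hΦmap, PhiL, PsiZ]) k ω' hω' ξ m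

end Main

end

end Fermat.Agent.S28.helper328
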