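/-
S28 (Igusa), formal core of the "growth only" modular input (helper331).

* Part C: irreducibility from degree bounds.  For a field `κ`, `J, U ∈ κ((q))` of orders
  `-1, -P` and a monic `chi ∈ κ[Y][X]` with `chi(J, U) = 0` whose coefficients `c_m`
  (`m ≤ n - 2`) have `Y`-degree `< P` and with `c_0 ≠ 0`, the powers `1, U, …, U^(n-1)` are
  linearly independent over `κ[J]`.
* Part B: triangular integrality.  If `J, u ∈ ℤ((q))` are monic of orders `-1, -P`, a relation
  `chi(J, u) = 0` with coefficients in a characteristic zero field and the above degree pattern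
  automatically has integer coefficients.
-/
import Mathlib
import Fermat.Prelude.Def_ModularCurve_X0
import Fermat.Prelude.Def_ModularCurve_LaurentCoeff
import Fermat.Prelude.Def_ModularCurve_JqCoeff
import Fermat.Prelude.Thm_ModularCurve_coeff_jqModC_neg_one
import Fermat.Prelude.Thm_ModularCurve_coeff_jqModC_pow_of_lt

set_option autoImplicit false

open Polynomial

namespace Fermat.Agent.S28.helper331

/-! ## Orders of Laurent series -/

section Orders

variable {R : Type*} [CommRing R]

/-- `x` has a nonzero coefficient at `e` and no coefficient below `e`. -/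
theorem orderTop_eq_of_coeff {x : LaurentSeries R} {e : ℤ} (h1 : x.coeff e ≠ 0)
    (h2 : ∀ k < e, x.coeff k = 0) : x.orderTop = (e : WithTop ℤ) := by
  refine le_antisymm (HahnSeries.orderTop_le_of_coeff_ne_zero h1) ?_
  by_contra hlt
  rw [not_le] at hlt
  have hne : x.orderTop ≠ ⊤ := ne_top_of_lt hlt
  obtain ⟨g, hg⟩ := WithTop.ne_top_iff_exists.mp hne
  have hge : g < e := by
    rw [← hg] at hlt
    exact_mod_cast hlt
  exact HahnSeries.coeff_orderTop_ne hg.symm (h2 g hge)

theorem coeff_eq_zero_of_lt_orderTop' {x : LaurentSeries R} {e k : ℤ}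
    (h : (e : WithTop ℤ) ≤ x.orderTop) (hk : k < e) : x.coeff k = 0 :=
  HahnSeries.coeff_eq_zero_of_lt_orderTop (lt_of_lt_of_le (by exact_mod_cast hk) h)

theorem le_orderTop_of_coeff {x : LaurentSeries R} {e : ℤ} (h : ∀ k < e, x.coeff k = 0) :
    (e : WithTop ℤ) ≤ x.orderTop := by
  by_contra hlt
  rw [not_le] at hlt
  have hne : x.orderTop ≠ ⊤ := ne_top_of_lt hlt
  obtain ⟨g, hg⟩ := WithTop.ne_top_iff_exists.mp hne
  have hge : g < e := by
    rw [← hg] at hlt
    exact_mod_cast hlt
  exact HahnSeries.coeff_orderTop_ne hg.symm (h g hge)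

end Orders

/-! ## Part C: irreducibility from degree bounds -/

section PartC

/-- Evaluation of polynomials at a Laurent series. -/
noncomputable def evJ {R : Type*} [CommRing R] (J : LaurentSeries R) : R[X] →+* LaurentSeries R :=
  Polynomial.eval₂RingHom (HahnSeries.C : R →+* LaurentSeries R) J

theorem evJ_apply {R : Type*} [CommRing R] (J : LaurentSeries R) (b : R[X]) :
    evJ J b = b.eval₂ (HahnSeries.C : R →+* LaurentSeries R) J := rfl

variable {κ : Type*} [Field κ]

theorem orderTop_C_of_ne {c : κ} (hc : c ≠ 0) :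
    (HahnSeries.C c : LaurentSeries κ).orderTop = ((0 : ℤ) : WithTop ℤ) := by
  rw [HahnSeries.C_apply, HahnSeries.orderTop_single hc]

theorem orderTop_pow_of {J : LaurentSeries κ} {e : ℤ} (hJ : J.orderTop = (e : WithTop ℤ)) (i : ℕ) :
    (J ^ i).orderTop = (((i : ℤ) * e : ℤ) : WithTop ℤ) := by
  induction i with
  | zero => simp
  | succ i ih =>
    rw [pow_succ, HahnSeries.orderTop_mul, ih, hJ, ← WithTop.coe_add]
    congr 1
    push_cast
    ring

theorem orderTop_evJ {J : LaurentSeries κ} (hJ : J.orderTop = ((-1 : ℤ) : WithTop ℤ)) :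
    ∀ (D : ℕ) (b : κ[X]), b.natDegree = D → b ≠ 0 →
      (evJ J b).orderTop = ((-(D : ℤ) : ℤ) : WithTop ℤ) := by
  intro D
  induction D using Nat.strong_induction_on with
  | _ D ih =>
    intro b hD hb
    have hlc : b.leadingCoeff ≠ 0 := Polynomial.leadingCoeff_ne_zero.mpr hb
    have htop : (evJ J (C b.leadingCoeff * X ^ b.natDegree)).orderTop
        = ((-(D : ℤ) : ℤ) : WithTop ℤ) := by
      rw [evJ_apply, eval₂_mul, eval₂_C, eval₂_pow, eval₂_X, HahnSeries.orderTop_mul,
        orderTop_C_of_ne hlc, orderTop_pow_of hJ, hD, ← WithTop.coe_add]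
      congr 1
      ring
    have hsplit := Polynomial.eraseLead_add_C_mul_X_pow b
    rw [← hsplit, map_add]
    rcases Polynomial.eraseLead_natDegree_lt_or_eraseLead_eq_zero b with hlt | hzero
    · by_cases hz : b.eraseLead = 0
      · rw [hz, map_zero, zero_add]
        exact htop
      · have h1 := ih b.eraseLead.natDegree (hD ▸ hlt) b.eraseLead rfl hz
        rw [add_comm, HahnSeries.orderTop_add_eq_left, htop]
        rw [htop, h1]
        have : b.eraseLead.natDegree < D := hD ▸ hlt
        exact_mod_cast (by omega : -(D : ℤ) < -(b.eraseLead.natDegree : ℤ))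
    · rw [hzero, map_zero, zero_add]
      exact htop

theorem evJ_injective {J : LaurentSeries κ} (hJ : J.orderTop = ((-1 : ℤ) : WithTop ℤ)) :
    Function.Injective (evJ J) := by
  rw [injective_iff_map_eq_zero]
  intro b hb
  by_contra hne
  have h := orderTop_evJ hJ b.natDegree b rfl hne
  rw [hb, HahnSeries.orderTop_zero] at h
  exact WithTop.top_ne_coe h

theorem le_orderTop_evJ {J : LaurentSeries κ} (hJ : J.orderTop = ((-1 : ℤ) : WithTop ℤ))
    (b : κ[X]) : ((-(b.natDegree : ℤ) : ℤ) : WithTop ℤ) ≤ (evJ J b).orderTop := by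
  by_cases hb : b = 0
  · rw [hb, map_zero, HahnSeries.orderTop_zero]
    exact le_top
  · exact (orderTop_evJ hJ b.natDegree b rfl hb).ge

/-- A polynomial in `J` of positive order vanishes. -/
theorem eq_zero_of_pos_orderTop_evJ {J : LaurentSeries κ}
    (hJ : J.orderTop = ((-1 : ℤ) : WithTop ℤ)) (b : κ[X])
    (h : ((1 : ℤ) : WithTop ℤ) ≤ (evJ J b).orderTop) : b = 0 := by
  by_contra hne
  rw [orderTop_evJ hJ b.natDegree b rfl hne] at h
  have : (1 : ℤ) ≤ -(b.natDegree : ℤ) := by exact_mod_cast h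
  omega


theorem exists_monic_factor {A : Type*} [CommRing A] [IsDomain A] [IsIntegrallyClosed A]
    {L : Type*} [Field L] (φ : A →+* L) (hφ : Function.Injective φ)
    (chi : A[X]) (hchi : chi.Monic) (U : L) (hroot : chi.eval₂ φ U = 0)
    (g : A[X]) (hg : g ≠ 0) (hgdeg : g.natDegree < chi.natDegree) (hgroot : g.eval₂ φ U = 0) :
    ∃ p p' : A[X], p.Monic ∧ p'.Monic ∧ chi = p * p' ∧ p.eval₂ φ U = 0 ∧ 1 ≤ p'.natDegree := by
  let _ : Algebra A L := φ.toAlgebra
  have halg : algebraMap A L = φ := rfl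
  have : FaithfulSMul A L := (faithfulSMul_iff_algebraMap_injective A L).mpr hφ
  have hint : IsIntegral A U := ⟨chi, hchi, hroot⟩
  have h1 : minpoly A U ∣ chi :=
    minpoly.isIntegrallyClosed_dvd hint (by rw [aeval_def]; exact hroot)
  have h2 : minpoly A U ∣ g :=
    minpoly.isIntegrallyClosed_dvd hint (by rw [aeval_def]; exact hgroot)
  obtain ⟨p', hp'⟩ := h1
  have hm : (minpoly A U).Monic := minpoly.monic hint
  have hp'm : p'.Monic := hm.of_mul_monic_left (hp' ▸ hchi)
  refine ⟨minpoly A U, p', hm, hp'm, hp', ?_, ?_⟩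
  · have := minpoly.aeval A U
    rwa [aeval_def] at this
  · have hle : (minpoly A U).natDegree ≤ g.natDegree := Polynomial.natDegree_le_of_dvd h2 hg
    have hdeg : chi.natDegree = (minpoly A U).natDegree + p'.natDegree := by
      rw [hp', hm.natDegree_mul hp'm]
    omega

theorem algebraMap_ps_coeff_nat (f : PowerSeries κ) (m : ℕ) :
    (algebraMap (PowerSeries κ) (LaurentSeries κ) f).coeff (m : ℤ) = PowerSeries.coeff m f := by
  rw [LaurentSeries.coe_algebraMap, HahnSeries.ofPowerSeries_apply_coeff]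

theorem algebraMap_ps_coeff_neg (f : PowerSeries κ) {k : ℤ} (hk : k < 0) :
    (algebraMap (PowerSeries κ) (LaurentSeries κ) f).coeff k = 0 := by
  rw [LaurentSeries.coe_algebraMap]
  exact ModularCurve.ofPowerSeries_coeff_of_neg f hk

theorem mem_range_algebraMap_ps {x : LaurentSeries κ} (h : ((0 : ℤ) : WithTop ℤ) ≤ x.orderTop) :
    x ∈ Set.range (algebraMap (PowerSeries κ) (LaurentSeries κ)) := by
  refine ⟨PowerSeries.mk fun m => x.coeff (m : ℤ), ?_⟩
  ext k
  rcases lt_or_ge k 0 with hk | hk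
  · rw [algebraMap_ps_coeff_neg _ hk, coeff_eq_zero_of_lt_orderTop' h hk]
  · lift k to ℕ using hk
    rw [algebraMap_ps_coeff_nat, PowerSeries.coeff_mk]

theorem constantCoeff_eq_zero_of_orderTop {f : PowerSeries κ}
    (h : ((1 : ℤ) : WithTop ℤ) ≤ (algebraMap (PowerSeries κ) (LaurentSeries κ) f).orderTop) :
    PowerSeries.constantCoeff f = 0 := by
  have h0 := coeff_eq_zero_of_lt_orderTop' h (k := 0) (by norm_num)
  rw [show (0 : ℤ) = ((0 : ℕ) : ℤ) from rfl, algebraMap_ps_coeff_nat,
    PowerSeries.coeff_zero_eq_constantCoeff] at h0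
  exact h0

theorem orderTop_of_constantCoeff_eq_zero {f : PowerSeries κ}
    (h : PowerSeries.constantCoeff f = 0) :
    ((1 : ℤ) : WithTop ℤ) ≤ (algebraMap (PowerSeries κ) (LaurentSeries κ) f).orderTop := by
  refine le_orderTop_of_coeff fun k hk => ?_
  rcases lt_or_ge k 0 with hk0 | hk0
  · exact algebraMap_ps_coeff_neg _ hk0
  · have : k = ((0 : ℕ) : ℤ) := by omega
    rw [this, algebraMap_ps_coeff_nat, PowerSeries.coeff_zero_eq_constantCoeff, h]

theorem ord_cancel {a : WithTop ℤ} {P : ℕ}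
    (h : ((-(P : ℤ) + 1 : ℤ) : WithTop ℤ) ≤ a + ((-(P : ℤ) : ℤ) : WithTop ℤ)) :
    ((1 : ℤ) : WithTop ℤ) ≤ a := by
  induction a using WithTop.recTopCoe with
  | top => exact le_top
  | coe z =>
    rw [← WithTop.coe_add] at h
    have h' : -(P : ℤ) + 1 ≤ z + -(P : ℤ) := by exact_mod_cast h
    exact_mod_cast (by omega : (1 : ℤ) ≤ z)


/-- The quotient `R = chi(J, X) / (X - U)` has all non-leading coefficients of positive order. -/
theorem quotient_coeff_orderTop {J U : LaurentSeries κ} {P n : ℕ} (hP : 1 ≤ P)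
    (hJ : J.orderTop = ((-1 : ℤ) : WithTop ℤ))
    (hU : U.orderTop = ((-(P : ℤ) : ℤ) : WithTop ℤ))
    (chi : κ[X][X])
    (hdeg : ∀ m, m + 2 ≤ n → (chi.coeff m).natDegree + 1 ≤ P)
    (R : (LaurentSeries κ)[X]) (hR : chi.map (evJ J) = R * (X - C U)) :
    ∀ m, m + 2 ≤ n → ((1 : ℤ) : WithTop ℤ) ≤ (R.coeff m).orderTop := by
  have hc : ∀ m, m + 2 ≤ n →
      ((-(P : ℤ) + 1 : ℤ) : WithTop ℤ) ≤ (evJ J (chi.coeff m)).orderTop := by
    intro m hm
    refine le_trans ?_ (le_orderTop_evJ hJ (chi.coeff m))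
    have := hdeg m hm
    exact_mod_cast (by omega : -(P : ℤ) + 1 ≤ -((chi.coeff m).natDegree : ℤ))
  intro m
  induction m with
  | zero =>
    intro hm
    have h0 : (chi.map (evJ J)).coeff 0 = -(R.coeff 0 * U) := by
      rw [hR, Polynomial.mul_coeff_zero]
      simp
    rw [Polynomial.coeff_map] at h0
    have h1 : R.coeff 0 * U = -(evJ J (chi.coeff 0)) := by rw [h0, neg_neg]
    have h2 := congrArg HahnSeries.orderTop h1
    rw [HahnSeries.orderTop_mul, hU, HahnSeries.orderTop_neg] at h2
    apply ord_cancel (P := P)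
    rw [h2]
    exact hc 0 hm
  | succ m ih =>
    intro hm
    have ihm := ih (by omega)
    have h0 : (chi.map (evJ J)).coeff (m + 1) = R.coeff m - R.coeff (m + 1) * U := by
      rw [hR, Polynomial.coeff_mul_X_sub_C]
    rw [Polynomial.coeff_map] at h0
    have h1 : R.coeff (m + 1) * U = R.coeff m + -(evJ J (chi.coeff (m + 1))) := by
      rw [h0]; ring
    have h2 := congrArg HahnSeries.orderTop h1
    rw [HahnSeries.orderTop_mul, hU] at h2
    apply ord_cancel (P := P)
    rw [h2]
    refine le_trans ?_ HahnSeries.min_orderTop_le_orderTop_add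
    refine le_min ?_ ?_
    · refine le_trans ?_ ihm
      exact_mod_cast (by omega : -(P : ℤ) + 1 ≤ 1)
    · rw [HahnSeries.orderTop_neg]
      exact hc (m + 1) hm

/-- Gauss lemma step: a monic factor of a monic polynomial over `κ((q))` which is `≡ X^k`
modulo positive order has all its non-leading coefficients of positive order. -/
theorem factor_coeff_orderTop (R g : (LaurentSeries κ)[X]) (hRm : R.Monic) (hgm : g.Monic)
    (hR : ∀ m, m < R.natDegree → ((1 : ℤ) : WithTop ℤ) ≤ (R.coeff m).orderTop)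
    (hdvd : g ∣ R) :
    ∀ m, m < g.natDegree → ((1 : ℤ) : WithTop ℤ) ≤ (g.coeff m).orderTop := by
  -- lift `R` to power series coefficients
  have hRlift : R ∈ Polynomial.lifts (algebraMap (PowerSeries κ) (LaurentSeries κ)) := by
    rw [Polynomial.lifts_iff_coeff_lifts]
    intro m
    rcases lt_trichotomy m R.natDegree with hm | hm | hm
    · exact mem_range_algebraMap_ps (le_trans (by exact_mod_cast (by norm_num : (0 : ℤ) ≤ 1)) (hR m hm))
    · rw [hm, hRm.coeff_natDegree]
      exact ⟨1, map_one _⟩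
    · rw [Polynomial.coeff_eq_zero_of_natDegree_lt hm]
      exact ⟨0, map_zero _⟩
  obtain ⟨R₀, hR₀, hR₀deg, hR₀m⟩ := Polynomial.lifts_and_natDegree_eq_and_monic hRlift hRm
  have hinj : Function.Injective (algebraMap (PowerSeries κ) (LaurentSeries κ)) :=
    IsFractionRing.injective _ _
  -- Gauss: `g` has power series coefficients
  obtain ⟨g₀, hg₀⟩ := IsIntegrallyClosed.eq_map_mul_C_of_dvd (LaurentSeries κ) hR₀m
    (show g ∣ R₀.map (algebraMap (PowerSeries κ) (LaurentSeries κ)) from hR₀ ▸ hdvd)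
  rw [hgm.leadingCoeff, C_1, mul_one] at hg₀
  have hg₀m : g₀.Monic := Polynomial.monic_of_injective hinj (hg₀ ▸ hgm)
  obtain ⟨h, hh⟩ := hdvd
  have hhm : h.Monic := hgm.of_mul_monic_left (hh ▸ hRm)
  obtain ⟨h₀, hh₀⟩ := IsIntegrallyClosed.eq_map_mul_C_of_dvd (LaurentSeries κ) hR₀m
    (show h ∣ R₀.map (algebraMap (PowerSeries κ) (LaurentSeries κ)) from
      hR₀ ▸ (Dvd.intro_left g hh.symm))
  rw [hhm.leadingCoeff, C_1, mul_one] at hh₀
  have hprod : R₀ = g₀ * h₀ := by
    apply Polynomial.map_injective _ hinj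
    rw [Polynomial.map_mul, hR₀, hg₀, hh₀, hh]
  -- reduce modulo `X`
  have hRred : R₀.map (PowerSeries.constantCoeff (R := κ)) = X ^ R.natDegree := by
    ext m
    rw [Polynomial.coeff_map, Polynomial.coeff_X_pow]
    rcases lt_trichotomy m R.natDegree with hm | hm | hm
    · rw [if_neg (ne_of_lt hm)]
      apply constantCoeff_eq_zero_of_orderTop
      have := hR m hm
      rwa [← hR₀, Polynomial.coeff_map] at this
    · rw [if_pos hm, hm, ← hR₀deg, hR₀m.coeff_natDegree, map_one]
    · rw [if_neg (ne_of_gt hm), Polynomial.coeff_eq_zero_of_natDegree_lt (hR₀deg ▸ hm), map_zero]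
  have hdvd' : g₀.map (PowerSeries.constantCoeff (R := κ)) ∣ X ^ R.natDegree := by
    rw [← hRred, hprod, Polynomial.map_mul]
    exact dvd_mul_right _ _
  obtain ⟨i, -, hi⟩ := (dvd_prime_pow Polynomial.prime_X _).mp hdvd'
  have hgred : g₀.map (PowerSeries.constantCoeff (R := κ)) = X ^ i :=
    Polynomial.eq_of_monic_of_associated (hg₀m.map _) (Polynomial.monic_X_pow i) hi
  have hdeg1 : g₀.natDegree = i := by
    have := congrArg Polynomial.natDegree hgred
    rwa [hg₀m.natDegree_map, Polynomial.natDegree_X_pow] at this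
  have hdeg2 : g.natDegree = g₀.natDegree := by
    rw [← hg₀, hg₀m.natDegree_map]
  intro m hm
  have hcoeff : PowerSeries.constantCoeff (g₀.coeff m) = 0 := by
    have := congrArg (fun p => Polynomial.coeff p m) hgred
    simp only [Polynomial.coeff_map, Polynomial.coeff_X_pow] at this
    rw [this, if_neg]
    omega
  have := orderTop_of_constantCoeff_eq_zero hcoeff
  rwa [← hg₀, Polynomial.coeff_map]

/-- **Irreducibility from degree bounds.** -/
theorem eq_zero_of_degree_bounds {J U : LaurentSeries κ} {P n : ℕ} (hP : 1 ≤ P)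
    (hJ : J.orderTop = ((-1 : ℤ) : WithTop ℤ))
    (hU : U.orderTop = ((-(P : ℤ) : ℤ) : WithTop ℤ))
    (chi : κ[X][X]) (hmonic : chi.Monic) (hn : chi.natDegree = n)
    (hroot : chi.eval₂ (evJ J) U = 0)
    (hdeg : ∀ m, m + 2 ≤ n → (chi.coeff m).natDegree + 1 ≤ P)
    (hc0 : chi.coeff 0 ≠ 0)
    (g : κ[X][X]) (hgdeg : g.natDegree < n) (hgroot : g.eval₂ (evJ J) U = 0) : g = 0 := by
  by_contra hg
  obtain ⟨p, p', hpm, hp'm, hfac, hproot, hp'deg⟩ :=
    exists_monic_factor (evJ J) (evJ_injective hJ) chi hmonic U hroot g hg (hn ▸ hgdeg) hgroot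
  -- work over `κ((q))`
  have hrootJ : (chi.map (evJ J)).IsRoot U := by
    rw [Polynomial.IsRoot, Polynomial.eval_map]; exact hroot
  have hR := Polynomial.mul_divByMonic_eq_iff_isRoot.mpr hrootJ
  set R := chi.map (evJ J) /ₘ (X - C U) with hRdef
  have hR' : chi.map (evJ J) = R * (X - C U) := by rw [← hR, mul_comm]
  have hchiJm : (chi.map (evJ J)).Monic := hmonic.map _
  have hRm : R.Monic := by
    have h1 : ((X - C U) * R).Monic := hR ▸ hchiJm
    exact (Polynomial.monic_X_sub_C U).of_mul_monic_left h1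
  have hRdeg : R.natDegree + 1 = n := by
    have h1 := congrArg Polynomial.natDegree hR'
    rw [hmonic.natDegree_map, hn, hRm.natDegree_mul (Polynomial.monic_X_sub_C U),
      Polynomial.natDegree_X_sub_C] at h1
    exact h1.symm
  have hRcoeff : ∀ m, m < R.natDegree → ((1 : ℤ) : WithTop ℤ) ≤ (R.coeff m).orderTop :=
    fun m hm => quotient_coeff_orderTop hP hJ hU chi hdeg R hR' m (by omega)
  -- the factor `p'` divides `R`
  have hprootJ : (p.map (evJ J)).IsRoot U := by
    rw [Polynomial.IsRoot, Polynomial.eval_map]; exact hproot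
  obtain ⟨p₁, hp₁⟩ := Polynomial.dvd_iff_isRoot.mpr hprootJ
  have hdvd : p'.map (evJ J) ∣ R := by
    refine ⟨p₁, ?_⟩
    have h1 : (X - C U) * R = (X - C U) * (p'.map (evJ J) * p₁) := by
      rw [hR, hfac, Polynomial.map_mul, hp₁]
      ring
    exact mul_left_cancel₀ (Polynomial.X_sub_C_ne_zero U) h1
  have hp'coeff := factor_coeff_orderTop R (p'.map (evJ J)) hRm (hp'm.map _) hRcoeff hdvd 0
    (by rw [hp'm.natDegree_map]; omega)
  rw [Polynomial.coeff_map] at hp'coeff
  have hp'0 : p'.coeff 0 = 0 := eq_zero_of_pos_orderTop_evJ hJ _ hp'coeff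
  apply hc0
  rw [hfac, Polynomial.mul_coeff_zero, hp'0, mul_zero]

/-- Consumer form: the powers `1, U, …, U^(n-1)` are linearly independent over `κ[J]`. -/
theorem linearIndependent_powers {J U : LaurentSeries κ} {P n : ℕ} (hP : 1 ≤ P)
    (hJ : J.orderTop = ((-1 : ℤ) : WithTop ℤ))
    (hU : U.orderTop = ((-(P : ℤ) : ℤ) : WithTop ℤ))
    (chi : κ[X][X]) (hmonic : chi.Monic) (hn : chi.natDegree = n)
    (hroot : chi.eval₂ (evJ J) U = 0)
    (hdeg : ∀ m, m + 2 ≤ n → (chi.coeff m).natDegree + 1 ≤ P)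
    (hc0 : chi.coeff 0 ≠ 0)
    (c : Fin n → κ[X]) (hc : ∑ i : Fin n, evJ J (c i) * U ^ (i : ℕ) = 0) : c = 0 := by
  set g : κ[X][X] := ∑ i : Fin n, C (c i) * X ^ (i : ℕ) with hgdef
  have hgdeg : g.natDegree < n := by
    rcases Nat.eq_zero_or_pos n with h0 | hpos
    · subst h0
      exfalso
      have h1 : chi = 1 := Polynomial.eq_one_of_monic_natDegree_zero hmonic hn
      rw [h1, Polynomial.eval₂_one] at hroot
      exact one_ne_zero hroot
    · refine lt_of_le_of_lt (Polynomial.natDegree_sum_le_of_forall_le _ _ (n := n - 1) ?_) (by omega)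
      intro i _
      refine le_trans (Polynomial.natDegree_C_mul_X_pow_le _ _) ?_
      have := i.2
      omega
  have hgroot : g.eval₂ (evJ J) U = 0 := by
    rw [hgdef, Polynomial.eval₂_finsetSum, ← hc]
    refine Finset.sum_congr rfl fun i _ => ?_
    rw [Polynomial.eval₂_mul, Polynomial.eval₂_C, Polynomial.eval₂_pow, Polynomial.eval₂_X]
  have hg0 := eq_zero_of_degree_bounds hP hJ hU chi hmonic hn hroot hdeg hc0 g hgdeg hgroot
  funext i
  have h1 := congrArg (fun q => Polynomial.coeff q (i : ℕ)) hg0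
  simp only [hgdef, Polynomial.finsetSum_coeff, Polynomial.coeff_C_mul, Polynomial.coeff_X_pow,
    Polynomial.coeff_zero] at h1
  rw [Finset.sum_eq_single i] at h1
  · simpa using h1
  · intro j _ hji
    rw [if_neg, mul_zero]
    exact fun h => hji (Fin.ext h.symm)
  · intro h; exact absurd (Finset.mem_univ i) h

end PartC

/-! ## Part B: triangular integrality -/

section PartB

/-- `x` has coefficient `1` at `e` and no coefficient below `e`. -/
def IsMonicOrd {R : Type*} [CommRing R] (x : LaurentSeries R) (e : ℤ) : Prop :=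
  x.coeff e = 1 ∧ ∀ k < e, x.coeff k = 0

namespace IsMonicOrd

variable {R : Type*} [CommRing R] [Nontrivial R]

theorem ne_zero {x : LaurentSeries R} {e : ℤ} (h : IsMonicOrd x e) : x ≠ 0 :=
  HahnSeries.ne_zero_of_coeff_ne_zero (by rw [h.1]; exact one_ne_zero)

theorem orderTop_eq {x : LaurentSeries R} {e : ℤ} (h : IsMonicOrd x e) :
    x.orderTop = (e : WithTop ℤ) :=
  orderTop_eq_of_coeff (by rw [h.1]; exact one_ne_zero) h.2

theorem order_eq {x : LaurentSeries R} {e : ℤ} (h : IsMonicOrd x e) : x.order = e := by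
  have h1 := HahnSeries.order_eq_orderTop_of_ne_zero h.ne_zero
  rw [h.orderTop_eq] at h1
  exact_mod_cast h1

theorem leadingCoeff_eq {x : LaurentSeries R} {e : ℤ} (h : IsMonicOrd x e) :
    x.leadingCoeff = 1 := by
  rw [HahnSeries.leadingCoeff_eq, h.order_eq, h.1]

omit [Nontrivial R] in
theorem of_order {x : LaurentSeries R} {e : ℤ} (h1 : x.order = e) (h2 : x.leadingCoeff = 1) :
    IsMonicOrd x e := by
  refine ⟨?_, fun k hk => HahnSeries.coeff_eq_zero_of_lt_order (h1 ▸ hk)⟩
  rw [← h1, ← HahnSeries.leadingCoeff_eq, h2]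

theorem mul {x y : LaurentSeries R} {e f : ℤ} (hx : IsMonicOrd x e) (hy : IsMonicOrd y f) :
    IsMonicOrd (x * y) (e + f) := by
  have h1 : x.leadingCoeff * y.leadingCoeff ≠ 0 := by
    rw [hx.leadingCoeff_eq, hy.leadingCoeff_eq, one_mul]; exact one_ne_zero
  refine of_order ?_ ?_
  · rw [HahnSeries.order_mul_of_ne_zero h1, hx.order_eq, hy.order_eq]
  · rw [HahnSeries.leadingCoeff_mul_of_ne_zero h1, hx.leadingCoeff_eq, hy.leadingCoeff_eq, one_mul]

omit [Nontrivial R] in
theorem one : IsMonicOrd (1 : LaurentSeries R) 0 := by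
  refine ⟨by simp, fun k hk => ?_⟩
  rw [HahnSeries.coeff_one, if_neg (ne_of_lt hk)]

theorem pow {x : LaurentSeries R} {e : ℤ} (hx : IsMonicOrd x e) (i : ℕ) :
    IsMonicOrd (x ^ i) ((i : ℤ) * e) := by
  induction i with
  | zero => simpa using (one : IsMonicOrd (1 : LaurentSeries R) 0)
  | succ i ih =>
    have := ih.mul hx
    rw [pow_succ]
    convert this using 1
    push_cast; ring

omit [Nontrivial R] in
theorem map {S : Type*} [CommRing S] (f : R →+* S) {x : LaurentSeries R} {e : ℤ}
    (hx : IsMonicOrd x e) : IsMonicOrd (ModularCurve.coeffMap f x) e := by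
  refine ⟨?_, fun k hk => ?_⟩
  · rw [ModularCurve.coeffMap_coeff, hx.1, map_one]
  · rw [ModularCurve.coeffMap_coeff, hx.2 k hk, map_zero]

end IsMonicOrd


/-- Coefficient map `ℤ((q)) → K((q))`. -/
noncomputable abbrev intMap (K : Type*) [CommRing K] : LaurentSeries ℤ →+* LaurentSeries K :=
  ModularCurve.coeffMap (Int.castRingHom K)

/-- **Triangularity.** A linear combination (coefficients in any commutative ring `K`) of integral
Laurent series which are monic of pairwise distinct orders, whose value is an integral Laurent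
series, has integer coefficients. -/
theorem exists_int_of_distinct_orders {K : Type*} [CommRing K] {α : Type*} [DecidableEq α]
    (f : α → LaurentSeries ℤ) (o : α → ℤ) (c : α → K) :
    ∀ (k : ℕ) (s : Finset α) (x : LaurentSeries ℤ), s.card = k →
      (∀ i ∈ s, IsMonicOrd (f i) (o i)) → Set.InjOn o (s : Set α) →
      ∑ i ∈ s, c i • intMap K (f i) = intMap K x →
      ∀ i ∈ s, ∃ z : ℤ, c i = (z : K) := by
  intro k
  induction k with
  | zero =>
    intro s x hs _ _ _ i hi
    rw [Finset.card_eq_zero] at hs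
    rw [hs] at hi
    exact absurd hi (Finset.notMem_empty i)
  | succ k ih =>
    intro s x hs hf hinj hsum
    have hne : s.Nonempty := by
      rw [← Finset.card_pos]; omega
    obtain ⟨i₀, hi₀, hmin⟩ := Finset.exists_min_image s o hne
    -- coefficient at `o i₀`
    have hlt : ∀ i ∈ s, i ≠ i₀ → o i₀ < o i := by
      intro i hi hne'
      refine lt_of_le_of_ne (hmin i hi) ?_
      intro h
      exact hne' (hinj hi hi₀ h.symm)
    have hc₀ : c i₀ = ((x.coeff (o i₀) : ℤ) : K) := by
      have h1 := congrArg (fun y : LaurentSeries K => y.coeff (o i₀)) hsum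
      simp only [HahnSeries.coeff_sum, HahnSeries.coeff_smul, ModularCurve.coeffMap_coeff,
        smul_eq_mul, eq_intCast] at h1
      rw [Finset.sum_eq_single i₀] at h1
      · rw [(hf i₀ hi₀).1] at h1
        simpa using h1
      · intro i hi hne'
        rw [(hf i hi).2 _ (hlt i hi hne')]
        simp
      · intro h; exact absurd hi₀ h
    -- remove `i₀`
    have hsum' : ∑ i ∈ s.erase i₀, c i • intMap K (f i)
        = intMap K (x - x.coeff (o i₀) • f i₀) := by
      rw [map_sub, ← hsum, ← Finset.add_sum_erase s _ hi₀, hc₀, map_zsmul,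
        Int.cast_smul_eq_zsmul]
      ring
    have hcard : (s.erase i₀).card = k := by
      rw [Finset.card_erase_of_mem hi₀, hs]; rfl
    have hrec := ih (s.erase i₀) _ hcard
      (fun i hi => hf i (Finset.mem_of_mem_erase hi))
      (hinj.mono (by exact_mod_cast Finset.erase_subset i₀ s)) hsum'
    intro i hi
    by_cases h : i = i₀
    · exact ⟨x.coeff (o i₀), h ▸ hc₀⟩
    · exact hrec i (Finset.mem_erase.mpr ⟨h, hi⟩)

/-- **Triangular integrality.** -/
theorem chi_coeff_int {K : Type*} [CommRing K] [Nontrivial K] {J u : LaurentSeries ℤ} {P n : ℕ}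
    (hJ : IsMonicOrd J (-1)) (hu : IsMonicOrd u (-(P : ℤ)))
    (chi : K[X][X]) (hmonic : chi.Monic) (hn : chi.natDegree = n)
    (hroot : chi.eval₂ (evJ (intMap K J)) (intMap K u) = 0)
    (hdeg : ∀ m, m + 2 ≤ n → (chi.coeff m).natDegree + 1 ≤ P)
    (hdeg' : ∀ m, m + 1 = n → (chi.coeff m).natDegree ≤ P) :
    ∀ m a, ∃ z : ℤ, (chi.coeff m).coeff a = (z : K) := by
  classical
  -- the index set
  set s : Finset (ℕ × ℕ) :=
    (Finset.range n ×ˢ Finset.range (P + 1)).filter (fun p => p.2 < P ∨ p.1 + 1 = n) with hs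
  set f : ℕ × ℕ → LaurentSeries ℤ := fun p => J ^ p.2 * u ^ p.1 with hf
  set o : ℕ × ℕ → ℤ := fun p => -((p.2 : ℤ) + (p.1 : ℤ) * (P : ℤ)) with ho
  set c : ℕ × ℕ → K := fun p => (chi.coeff p.1).coeff p.2 with hc
  have hmono : ∀ p ∈ s, IsMonicOrd (f p) (o p) := by
    intro p _
    have := (hJ.pow p.2).mul (hu.pow p.1)
    convert this using 1
    simp only [ho]; ring
  have hinj : Set.InjOn o (s : Set (ℕ × ℕ)) := by
    rintro ⟨m, a⟩ hp ⟨m', a'⟩ hp' h
    simp only [hs, Finset.coe_filter, Finset.mem_product, Finset.mem_range, Set.mem_ofPred_eq] at hp hp'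
    simp only [ho, neg_inj] at h
    have h' : a + m * P = a' + m' * P := by exact_mod_cast h
    obtain ⟨⟨hm, ha⟩, hcase⟩ := hp
    obtain ⟨⟨hm', ha'⟩, hcase'⟩ := hp'
    rcases lt_trichotomy m m' with hlt | heq | hgt
    · exfalso
      have h1 : (m + 1) * P ≤ m' * P := Nat.mul_le_mul_right P hlt
      rw [Nat.succ_mul] at h1
      rcases hcase with h2 | h2 <;> omega
    · subst heq
      have : a = a' := by omega
      rw [this]
    · exfalso
      have h1 : (m' + 1) * P ≤ m * P := Nat.mul_le_mul_right P hgt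
      rw [Nat.succ_mul] at h1
      rcases hcase' with h2 | h2 <;> omega
  -- the relation
  have hcoeffn : chi.coeff n = 1 := hn ▸ hmonic.coeff_natDegree
  have hdegP : ∀ m, m < n → (chi.coeff m).natDegree < P + 1 := by
    intro m hm
    by_cases h : m + 2 ≤ n
    · have := hdeg m h; omega
    · have := hdeg' m (by omega); omega
  have hrel : ∑ p ∈ s, c p • intMap K (f p) = intMap K (-u ^ n) := by
    have h1 := Polynomial.eval₂_eq_sum_range' (evJ (intMap K J)) (p := chi) (n := n + 1)
      (by omega) (intMap K u)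
    rw [hroot, Finset.sum_range_succ, hcoeffn, map_one, one_mul] at h1
    have h2 : ∑ m ∈ Finset.range n, evJ (intMap K J) (chi.coeff m) * intMap K u ^ m
        = ∑ p ∈ Finset.range n ×ˢ Finset.range (P + 1), c p • intMap K (f p) := by
      rw [Finset.sum_product]
      refine Finset.sum_congr rfl fun m hm => ?_
      rw [evJ_apply, Polynomial.eval₂_eq_sum_range' _ (hdegP m (Finset.mem_range.mp hm)),
        Finset.sum_mul]
      refine Finset.sum_congr rfl fun a _ => ?_
      simp only [hc, hf, map_mul, map_pow]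
      rw [mul_assoc, HahnSeries.C_mul_eq_smul]
    have h3 : ∑ p ∈ s, c p • intMap K (f p)
        = ∑ p ∈ Finset.range n ×ˢ Finset.range (P + 1), c p • intMap K (f p) := by
      rw [hs]
      refine Finset.sum_filter_of_ne ?_
      rintro ⟨m, a⟩ hp hne
      simp only [Finset.mem_product, Finset.mem_range] at hp
      by_contra hcon
      rw [not_or] at hcon
      apply hne
      have ha : a = P := by omega
      have hm2 : m + 2 ≤ n := by omega
      have hd := hdeg m hm2
      have : c (m, a) = 0 := by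
        simp only [hc]
        exact Polynomial.coeff_eq_zero_of_natDegree_lt (by omega)
      rw [this, zero_smul]
    rw [h3, ← h2, map_neg, map_pow]
    exact eq_neg_of_add_eq_zero_left h1.symm
  have hmain := exists_int_of_distinct_orders f o c s.card s (-u ^ n) rfl hmono hinj hrel
  -- all coefficients
  intro m a
  rcases lt_trichotomy m n with hm | hm | hm
  · by_cases hmem : (m, a) ∈ s
    · exact hmain (m, a) hmem
    · refine ⟨0, ?_⟩
      rw [Int.cast_zero]
      simp only [hs, Finset.mem_filter, Finset.mem_product, Finset.mem_range, not_and, not_or] at hmem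
      by_cases ha : a < P + 1
      · have := hmem ⟨hm, ha⟩
        have hm2 : m + 2 ≤ n := by omega
        have hd := hdeg m hm2
        exact Polynomial.coeff_eq_zero_of_natDegree_lt (by omega)
      · exact Polynomial.coeff_eq_zero_of_natDegree_lt (by have := hdegP m hm; omega)
  · rw [hm, hcoeffn]
    by_cases ha : a = 0
    · exact ⟨1, by rw [ha]; simp⟩
    · exact ⟨0, by rw [Polynomial.coeff_one, if_neg ha]; simp⟩
  · refine ⟨0, ?_⟩
    have h0 : chi.coeff m = 0 := Polynomial.coeff_eq_zero_of_natDegree_lt (by omega)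
    rw [h0]
    simp

end PartB

/-! ## Compatibility of evaluation with coefficient maps -/

section Compat

variable {R S : Type*} [CommRing R] [CommRing S]

theorem coeffMap_C (f : R →+* S) (r : R) :
    ModularCurve.coeffMap f (HahnSeries.C r : LaurentSeries R) = HahnSeries.C (f r) := by
  rw [HahnSeries.C_apply, HahnSeries.C_apply, ModularCurve.coeffMap_single]

theorem coeffMap_comp_evJ (f : R →+* S) (J : LaurentSeries R) :
    (ModularCurve.coeffMap f).comp (evJ J)
      = (evJ (ModularCurve.coeffMap f J)).comp (Polynomial.mapRingHom f) := by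
  refine Polynomial.ringHom_ext (fun r => ?_) ?_
  · simp only [RingHom.comp_apply, evJ_apply, Polynomial.eval₂_C, Polynomial.coe_mapRingHom,
      Polynomial.map_C, coeffMap_C]
  · simp only [RingHom.comp_apply, evJ_apply, Polynomial.eval₂_X, Polynomial.coe_mapRingHom,
      Polynomial.map_X]

theorem coeffMap_evJ (f : R →+* S) (J : LaurentSeries R) (b : R[X]) :
    ModularCurve.coeffMap f (evJ J b) = evJ (ModularCurve.coeffMap f J) (b.map f) := by
  have := congrArg (fun g => g b) (coeffMap_comp_evJ f J)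
  simpa using this

theorem coeffMap_eval₂_evJ (f : R →+* S) (J u : LaurentSeries R) (p : R[X][X]) :
    ModularCurve.coeffMap f (p.eval₂ (evJ J) u)
      = (p.map (Polynomial.mapRingHom f)).eval₂ (evJ (ModularCurve.coeffMap f J))
          (ModularCurve.coeffMap f u) := by
  rw [Polynomial.hom_eval₂, Polynomial.eval₂_map, coeffMap_comp_evJ]

theorem coeffMap_injective {f : R →+* S} (hf : Function.Injective f) :
    Function.Injective (ModularCurve.coeffMap f) := by
  intro x y h
  ext k
  have := congrArg (fun z : LaurentSeries S => z.coeff k) h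
  simp only [ModularCurve.coeffMap_coeff] at this
  exact hf this

end Compat

/-! ## The combined statement -/

section Main

variable {K : Type*} [Field K] [CharZero K]

/-- Integrality: the relation has integer coefficients. -/
theorem exists_int_lift {J u : LaurentSeries ℤ} {P n : ℕ}
    (hJ : IsMonicOrd J (-1)) (hu : IsMonicOrd u (-(P : ℤ)))
    (chi : K[X][X]) (hmonic : chi.Monic) (hn : chi.natDegree = n)
    (hroot : chi.eval₂ (evJ (intMap K J)) (intMap K u) = 0)
    (hdeg : ∀ m, m + 2 ≤ n → (chi.coeff m).natDegree + 1 ≤ P)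
    (hdeg' : ∀ m, m + 1 = n → (chi.coeff m).natDegree ≤ P) :
    ∃ chiZ : ℤ[X][X], chiZ.Monic ∧ chiZ.natDegree = n ∧
      chiZ.map (Polynomial.mapRingHom (Int.castRingHom K)) = chi ∧
      chiZ.eval₂ (evJ J) u = 0 := by
  have hint := chi_coeff_int hJ hu chi hmonic hn hroot hdeg hdeg'
  have hlift : chi ∈ Polynomial.lifts (Polynomial.mapRingHom (Int.castRingHom K)) := by
    rw [Polynomial.lifts_iff_coeff_lifts]
    intro m
    have h1 : chi.coeff m ∈ Polynomial.lifts (Int.castRingHom K) := by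
      rw [Polynomial.lifts_iff_coeff_lifts]
      intro a
      obtain ⟨z, hz⟩ := hint m a
      exact ⟨z, by rw [hz]; rfl⟩
    rw [Polynomial.mem_lifts] at h1
    obtain ⟨q, hq⟩ := h1
    exact ⟨q, by rw [Polynomial.coe_mapRingHom]; exact hq⟩
  obtain ⟨chiZ, hmap, hdegZ, hmonZ⟩ := Polynomial.lifts_and_natDegree_eq_and_monic hlift hmonic
  refine ⟨chiZ, hmonZ, hdegZ.trans hn, hmap, ?_⟩
  have hinj : Function.Injective (intMap K) := coeffMap_injective (Int.cast_injective)
  apply hinj
  rw [intMap, coeffMap_eval₂_evJ, hmap, map_zero]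
  exact hroot

/-- **Main theorem of this file.** From the analytic output (a monic relation over a
characteristic zero field with the degree pattern and a constant term which is nonzero
modulo `ℓ`) to linear independence modulo `ℓ`. -/
theorem indep_mod_prime (ℓ : ℕ) [Fact ℓ.Prime] {J u : LaurentSeries ℤ} {P n : ℕ} (hP : 1 ≤ P)
    (hJ : IsMonicOrd J (-1)) (hu : IsMonicOrd u (-(P : ℤ)))
    (chi : K[X][X]) (hmonic : chi.Monic) (hn : chi.natDegree = n)
    (hroot : chi.eval₂ (evJ (intMap K J)) (intMap K u) = 0)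
    (hdeg : ∀ m, m + 2 ≤ n → (chi.coeff m).natDegree + 1 ≤ P)
    (hdeg' : ∀ m, m + 1 = n → (chi.coeff m).natDegree ≤ P)
    (hc0 : ∀ c0 : ℤ[X], c0.map (Int.castRingHom K) = chi.coeff 0 →
      c0.map (Int.castRingHom (ZMod ℓ)) ≠ 0)
    (c : Fin n → (ZMod ℓ)[X])
    (hc : ∑ i : Fin n, evJ (intMap (ZMod ℓ) J) (c i) * intMap (ZMod ℓ) u ^ (i : ℕ) = 0) :
    c = 0 := by
  obtain ⟨chiZ, hmonZ, hdegZ, hmap, hrootZ⟩ :=
    exists_int_lift hJ hu chi hmonic hn hroot hdeg hdeg'
  have hcoeff : ∀ m, (chiZ.coeff m).map (Int.castRingHom K) = chi.coeff m := by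
    intro m
    rw [← hmap, Polynomial.coeff_map, Polynomial.coe_mapRingHom]
  have hnat : ∀ m, (chiZ.coeff m).natDegree = (chi.coeff m).natDegree := by
    intro m
    rw [← hcoeff m, Polynomial.natDegree_map_eq_of_injective (Int.cast_injective)]
  set chiL : (ZMod ℓ)[X][X] := chiZ.map (Polynomial.mapRingHom (Int.castRingHom (ZMod ℓ)))
    with hchiL
  refine linearIndependent_powers (κ := ZMod ℓ) hP ((hJ.map _).orderTop_eq)
    ((hu.map _).orderTop_eq) chiL (hmonZ.map _) ?_ ?_ ?_ ?_ c hc
  · rw [hchiL, hmonZ.natDegree_map, hdegZ]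
  · rw [hchiL, ← coeffMap_eval₂_evJ, hrootZ, map_zero]
  · intro m hm
    rw [hchiL, Polynomial.coeff_map, Polynomial.coe_mapRingHom]
    refine le_trans (Nat.succ_le_succ (Polynomial.natDegree_map_le)) ?_
    rw [hnat m]
    exact hdeg m hm
  · rw [hchiL, Polynomial.coeff_map, Polynomial.coe_mapRingHom]
    exact hc0 _ (hcoeff 0)

end Main

/-! ## Corollaries in consumer form -/

section Corollaries

/-- Variant of `indep_mod_prime` with a constant term given by a constant `κ` which is an
integer prime to `ℓ` as soon as it is an integer. -/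
theorem indep_mod_prime_of_const {K : Type*} [Field K] [CharZero K] (ℓ : ℕ) [Fact ℓ.Prime]
    {J u : LaurentSeries ℤ} {P n : ℕ} (hP : 1 ≤ P)
    (hJ : IsMonicOrd J (-1)) (hu : IsMonicOrd u (-(P : ℤ)))
    (chi : K[X][X]) (hmonic : chi.Monic) (hn : chi.natDegree = n)
    (hroot : chi.eval₂ (evJ (intMap K J)) (intMap K u) = 0)
    (hdeg : ∀ m, m + 2 ≤ n → (chi.coeff m).natDegree + 1 ≤ P)
    (hdeg' : ∀ m, m + 1 = n → (chi.coeff m).natDegree ≤ P)
    (κ : K) (hκ : chi.coeff 0 = C κ) (hκℓ : ∀ z : ℤ, (z : K) = κ → ¬ (ℓ : ℤ) ∣ z)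
    (c : Fin n → (ZMod ℓ)[X])
    (hc : ∑ i : Fin n, evJ (intMap (ZMod ℓ) J) (c i) * intMap (ZMod ℓ) u ^ (i : ℕ) = 0) :
    c = 0 := by
  refine indep_mod_prime ℓ hP hJ hu chi hmonic hn hroot hdeg hdeg' ?_ c hc
  intro c0 hc0 hzero
  rw [hκ] at hc0
  have hdeg0 : c0.natDegree = 0 := by
    rw [← Polynomial.natDegree_map_eq_of_injective (f := Int.castRingHom K) Int.cast_injective,
      hc0, Polynomial.natDegree_C]
  obtain ⟨z, rfl⟩ := Polynomial.natDegree_eq_zero.mp hdeg0
  rw [Polynomial.map_C, Polynomial.C_inj, eq_intCast] at hc0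
  rw [Polynomial.map_C, Polynomial.C_eq_zero, eq_intCast,
    ZMod.intCast_zmod_eq_zero_iff_dvd] at hzero
  exact hκℓ z hc0 hzero

/-- The formal `j`-series with integer coefficients is monic of order `-1`. -/
theorem isMonicOrd_jqModC_int : IsMonicOrd (ModularCurve.jqModC ℤ) (-1) := by
  refine ⟨ModularCurve.coeff_jqModC_neg_one ℤ, fun k hk => ?_⟩
  have := ModularCurve.coeff_jqModC_pow_of_lt ℤ (b := 1) (m := k) (by simpa using hk)
  simpa using this

theorem intMap_jqModC (K : Type*) [CommRing K] :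
    intMap K (ModularCurve.jqModC ℤ) = ModularCurve.jqModC K :=
  ModularCurve.map_jqModC (Int.castRingHom K)

end Corollaries

section FieldCoeff

variable {κ : Type*} [Field κ]

theorem evJ_eq_aeval (J : LaurentSeries κ) (b : κ[X]) : evJ J b = Polynomial.aeval J b := by
  rw [evJ_apply, Polynomial.aeval_def]
  congr 1
  ext c : 1
  rw [ModularCurve.algebraMap_laurentSeries_eq_single, HahnSeries.C_apply]

/-- From independence over `κ[J]` to independence over the field `κ(J)`. -/
theorem indep_over_adjoin {J U : LaurentSeries κ} {n : ℕ}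
    (h : ∀ c : Fin n → κ[X], ∑ i : Fin n, evJ J (c i) * U ^ (i : ℕ) = 0 → c = 0)
    (c : Fin n → LaurentSeries κ) (hc : ∀ i, c i ∈ IntermediateField.adjoin κ {J})
    (hsum : ∑ i : Fin n, c i * U ^ (i : ℕ) = 0) : ∀ i, c i = 0 := by
  classical
  have hrs : ∀ i, ∃ r s : κ[X], c i = Polynomial.aeval J r / Polynomial.aeval J s :=
    fun i => (IntermediateField.mem_adjoin_simple_iff κ (c i)).mp (hc i)
  choose r s hrs' using hrs
  set d : Fin n → κ[X] := fun i => if Polynomial.aeval J (s i) = 0 then 1 else s i with hd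
  set r' : Fin n → κ[X] := fun i => if Polynomial.aeval J (s i) = 0 then 0 else r i with hr'
  have hd_ne : ∀ i, Polynomial.aeval J (d i) ≠ 0 := by
    intro i
    simp only [hd]
    split_ifs with h0
    · simp
    · exact h0
  have hcd : ∀ i, c i * Polynomial.aeval J (d i) = Polynomial.aeval J (r' i) := by
    intro i
    simp only [hd, hr']
    split_ifs with h0
    · rw [hrs' i, h0, div_zero, zero_mul, map_zero]
    · rw [hrs' i, div_mul_cancel₀ _ h0]
  set D : κ[X] := ∏ i : Fin n, d i with hD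
  have hD_ne : Polynomial.aeval J D ≠ 0 := by
    rw [hD, map_prod]
    exact Finset.prod_ne_zero_iff.mpr fun i _ => hd_ne i
  set c' : Fin n → κ[X] := fun i => r' i * ∏ k ∈ Finset.univ.erase i, d k with hc'
  have hev : ∀ i, evJ J (c' i) = c i * Polynomial.aeval J D := by
    intro i
    rw [evJ_eq_aeval, hc', map_mul, ← hcd i, hD, map_prod, map_prod, mul_assoc,
      Finset.mul_prod_erase Finset.univ (fun k => Polynomial.aeval J (d k)) (Finset.mem_univ i)]
  have hzero : c' = 0 := by
    apply h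
    have : ∑ i : Fin n, evJ J (c' i) * U ^ (i : ℕ)
        = (∑ i : Fin n, c i * U ^ (i : ℕ)) * Polynomial.aeval J D := by
      rw [Finset.sum_mul]
      refine Finset.sum_congr rfl fun i _ => ?_
      rw [hev i]; ring
    rw [this, hsum, zero_mul]
  intro i
  have h1 := hev i
  rw [hzero, Pi.zero_apply, map_zero] at h1
  exact (mul_eq_zero.mp h1.symm).resolve_right hD_ne

end FieldCoeff

/-- **Main theorem, field form.** Under the hypotheses of `indep_mod_prime_of_const`, the powers
of the reduction of `u` are linearly independent over the field `𝔽_ℓ(J̄)`. -/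
theorem indep_mod_prime_adjoin {K : Type*} [Field K] [CharZero K] (ℓ : ℕ) [Fact ℓ.Prime]
    {J u : LaurentSeries ℤ} {P n : ℕ} (hP : 1 ≤ P)
    (hJ : IsMonicOrd J (-1)) (hu : IsMonicOrd u (-(P : ℤ)))
    (chi : K[X][X]) (hmonic : chi.Monic) (hn : chi.natDegree = n)
    (hroot : chi.eval₂ (evJ (intMap K J)) (intMap K u) = 0)
    (hdeg : ∀ m, m + 2 ≤ n → (chi.coeff m).natDegree + 1 ≤ P)
    (hdeg' : ∀ m, m + 1 = n → (chi.coeff m).natDegree ≤ P)
    (κ : K) (hκ : chi.coeff 0 = C κ) (hκℓ : ∀ z : ℤ, (z : K) = κ → ¬ (ℓ : ℤ) ∣ z)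
    (c : Fin n → LaurentSeries (ZMod ℓ))
    (hc : ∀ i, c i ∈ IntermediateField.adjoin (ZMod ℓ) {intMap (ZMod ℓ) J})
    (hsum : ∑ i : Fin n, c i * intMap (ZMod ℓ) u ^ (i : ℕ) = 0) : ∀ i, c i = 0 :=
  indep_over_adjoin
    (fun c' hc' => indep_mod_prime_of_const ℓ hP hJ hu chi hmonic hn hroot hdeg hdeg' κ hκ hκℓ
      c' hc') c hc hsum

end Fermat.Agent.S28.helper331
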