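import Mathlib

/-!
# Newton identities for matrices (S28 leaf (R3), helper2668 #180)

For a square matrix `M` over a commutative ring, `D = det (1 + X • M)` satisfies the
logarithmic-derivative identity `D' = D * ∑ (-1)^j tr(M^(j+1)) X^j` in `R⟦X⟧`, i.e.
`(m+1) * D.coeff (m+1) = ∑_{i+j=m} D.coeff i * (-1)^j * tr (M^(j+1))`.
Consequently, if a subring `S` contains the traces of all positive powers of `M` and inverses
of the positive integers, then all coefficients of `M.charpoly` lie in `S`.
-/

set_option autoImplicit false

namespace Fermat.Agent.S28.helper36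

open Polynomial Matrix

variable {R : Type*} [CommRing R] {n : Type*} [Fintype n] [DecidableEq n]

/-- `detPoly M = det (1 + X • M)` as a polynomial. -/
noncomputable def detPoly (M : Matrix n n R) : R[X] := det (1 + (X : R[X]) • M.map C)

theorem detPoly_coeff_zero (M : Matrix n n R) : (detPoly M).coeff 0 = 1 := by
  rw [detPoly, coeff_zero_eq_eval_zero, eval_det_add_X_smul, det_one, eval_one]

theorem detPoly_neg (M : Matrix n n R) : detPoly (-M) = M.charpolyRev := by
  unfold detPoly charpolyRev
  congr 1
  ext i j
  simp [sub_eq_add_neg]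

/-- image of `detPoly M` under a ring hom sending `X ↦ y`, `r ↦ f r`. -/
theorem eval₂_detPoly {A : Type*} [CommRing A] (f : R →+* A) (y : A) (M : Matrix n n R) :
    (detPoly M).eval₂ f y = det (1 + y • M.map f) := by
  rw [detPoly, ← coe_eval₂RingHom, RingHom.map_det]
  congr 1
  ext i j
  by_cases h : i = j <;> simp [h] <;> ring

/-- **Logarithmic derivative of `det (1 + X • M)`** in the power series ring:
`D' = D * t` where the `j`-th coefficient of `t` is `(-1)^j * tr (M^(j+1))`. -/
theorem exists_logDeriv_detPoly (M : Matrix n n R) :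
    ∃ t : PowerSeries R,
      ((derivative (detPoly M) : R[X]) : PowerSeries R) = (detPoly M : PowerSeries R) * t ∧
      ∀ j, PowerSeries.coeff j t = (-1) ^ j * trace (M ^ (j + 1)) := by
  classical
  let ι : R →+* PowerSeries R := PowerSeries.C
  let x : PowerSeries R := PowerSeries.X
  let Mι : Matrix n n (PowerSeries R) := M.map ι
  let U : Matrix n n (PowerSeries R) := 1 + x • Mι
  have hdetU : U.det = (detPoly M : PowerSeries R) := by
    rw [← eval₂_C_X_eq_coe, eval₂_detPoly]
  have hU : IsUnit U.det := by
    rw [hdetU, PowerSeries.isUnit_iff_constantCoeff, ← PowerSeries.coeff_zero_eq_constantCoeff_apply,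
      Polynomial.coeff_coe, detPoly_coeff_zero]
    exact isUnit_one
  let N : Matrix n n (PowerSeries R) := U⁻¹ * Mι
  have hUN : U * N = Mι := Matrix.mul_nonsing_inv_cancel_left U Mι hU
  refine ⟨trace N, ?_, ?_⟩
  · -- the derivative identity, via translation `X ↦ x + T`
    let q : (PowerSeries R)[X] := C x + X
    have key : ((detPoly M).map ι).comp q = C U.det * detPoly N := by
      have h1 : ((detPoly M).map ι).comp q = (detPoly M).eval₂ (C.comp ι) q := by
        rw [Polynomial.comp, eval₂_map]
      rw [h1, eval₂_detPoly]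
      have h2 : (1 + q • M.map ((C : PowerSeries R →+* (PowerSeries R)[X]).comp ι) :
          Matrix n n (PowerSeries R)[X]) = U.map C * (1 + (X : (PowerSeries R)[X]) • N.map C) := by
        have h3 : U.map (C : PowerSeries R →+* (PowerSeries R)[X]) * N.map C = Mι.map C := by
          rw [← Matrix.map_mul, hUN]
        rw [mul_add, mul_one, Matrix.mul_smul, h3]
        ext i j
        by_cases h : i = j <;> simp [U, Mι, q, h, add_mul, add_assoc]
      rw [h2, det_mul, detPoly]
      congr 1
      rw [RingHom.map_det]
      rfl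
    have hd := congrArg (fun p => (derivative p).eval 0) key
    simp only [derivative_comp, derivative_C_mul, eval_mul, eval_C, eval_comp] at hd
    have hq : (derivative q).eval 0 = 1 := by simp [q]
    have hq0 : q.eval 0 = x := by simp [q]
    have hder : (derivative (detPoly N)).eval 0 = trace N := derivative_det_one_add_X_smul N
    rw [hq, hq0, one_mul, hder, derivative_map, eval_map, eval₂_C_X_eq_coe, hdetU] at hd
    exact hd
  · -- the coefficients of `trace N`
    have hN : N = Mι - x • (Mι * N) := by
      have : U * N = N + x • (Mι * N) := by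
        simp [U, add_mul]
      exact eq_sub_of_add_eq (this.symm.trans hUN)
    have htr : ∀ k : ℕ, trace (Mι ^ k * N) =
        ι (trace (M ^ (k + 1))) - x * trace (Mι ^ (k + 1) * N) := by
      intro k
      have h1 : Mι ^ k * N = Mι ^ (k + 1) - x • (Mι ^ (k + 1) * N) := by
        conv_lhs => rw [hN]
        rw [mul_sub, Matrix.mul_smul, ← mul_assoc, ← pow_succ]
      rw [h1, trace_sub, trace_smul, smul_eq_mul]
      congr 1
      have h2 : Mι ^ (k + 1) = (M ^ (k + 1)).map ι := by
        rw [← RingHom.mapMatrix_apply, map_pow]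
        rfl
      rw [h2]
      exact (AddMonoidHom.map_trace ι.toAddMonoidHom _).symm
    have main : ∀ m k : ℕ, PowerSeries.coeff m (trace (Mι ^ k * N)) =
        (-1) ^ m * trace (M ^ (k + m + 1)) := by
      intro m
      induction m with
      | zero =>
        intro k
        rw [htr k]
        simp [ι, x]
      | succ m ih =>
        intro k
        rw [htr k, map_sub, PowerSeries.coeff_succ_X_mul, ih (k + 1)]
        have : PowerSeries.coeff (m + 1) (ι (trace (M ^ (k + 1)))) = 0 := by
          simp [ι]
        rw [this, show k + 1 + m + 1 = k + (m + 1) + 1 by ring]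
        ring
    intro j
    have := main j 0
    simpa using this

/-- **Newton's identities** for the coefficients of `D = det (1 + X • M)`:
`(m+1) * D_(m+1) = ∑_{i+j=m} D_i * (-1)^j * tr (M^(j+1))`. -/
theorem newton_detPoly (M : Matrix n n R) (m : ℕ) :
    (detPoly M).coeff (m + 1) * ((m : R) + 1) =
      ∑ p ∈ Finset.HasAntidiagonal.antidiagonal m,
        (detPoly M).coeff p.1 * ((-1) ^ p.2 * trace (M ^ (p.2 + 1))) := by
  obtain ⟨t, ht, hc⟩ := exists_logDeriv_detPoly M
  have h := congrArg (PowerSeries.coeff m) ht
  rw [Polynomial.coeff_coe, coeff_derivative, PowerSeries.coeff_mul] at h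
  rw [h]
  refine Finset.sum_congr rfl fun p _ => ?_
  rw [Polynomial.coeff_coe, hc]

/-- If a subring `S` contains `tr (M^k)` and an inverse of `k` for `1 ≤ k ≤ d`, then the
coefficients of `det (1 + X • M)` of index `≤ d` lie in `S`. -/
theorem coeff_detPoly_mem (S : Subring R) (M : Matrix n n R) (d : ℕ)
    (hinv : ∀ k : ℕ, 0 < k → k ≤ d → ∃ u ∈ S, u * (k : R) = 1)
    (h : ∀ k : ℕ, 0 < k → k ≤ d → trace (M ^ k) ∈ S) :
    ∀ m ≤ d, (detPoly M).coeff m ∈ S := by
  intro m
  induction m using Nat.strong_induction_on with
  | _ m ih =>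
    intro hm
    cases m with
    | zero => rw [detPoly_coeff_zero]; exact S.one_mem
    | succ m =>
      obtain ⟨u, hu, hu1⟩ := hinv (m + 1) (Nat.succ_pos m) hm
      have hsum : (detPoly M).coeff (m + 1) * ((m : R) + 1) ∈ S := by
        rw [newton_detPoly M m]
        refine S.sum_mem fun p hp => ?_
        have hp1 : p.1 + p.2 = m := Finset.HasAntidiagonal.mem_antidiagonal.mp hp
        refine S.mul_mem (ih p.1 (by omega) (by omega))
          (S.mul_mem ?_ (h _ (Nat.succ_pos _) (by omega)))
        exact S.pow_mem (S.neg_mem S.one_mem) _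
      have h1 : ((m : R) + 1) * u = 1 := by
        rw [mul_comm]
        exact_mod_cast hu1
      have h2 : (detPoly M).coeff (m + 1) = (detPoly M).coeff (m + 1) * ((m : R) + 1) * u := by
        rw [mul_assoc, h1, mul_one]
      rw [h2]
      exact S.mul_mem hsum hu

theorem natDegree_charpoly_le (M : Matrix n n R) : M.charpoly.natDegree ≤ Fintype.card n := by
  rcases subsingleton_or_nontrivial R with hR | hR
  · rw [Subsingleton.elim M.charpoly 0, natDegree_zero]
    exact Nat.zero_le _
  · exact (charpoly_natDegree_eq_dim M).le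

/-- **Newton for matrices, sharp form**: if a subring `S` contains `tr (M^k)` and an inverse of
`k` for every `1 ≤ k ≤ card n`, then all coefficients of `M.charpoly` lie in `S`. -/
theorem coeff_charpoly_mem_of_le (S : Subring R) (M : Matrix n n R)
    (hinv : ∀ k : ℕ, 0 < k → k ≤ Fintype.card n → ∃ u ∈ S, u * (k : R) = 1)
    (h : ∀ k : ℕ, 0 < k → k ≤ Fintype.card n → trace (M ^ k) ∈ S) :
    ∀ i, M.charpoly.coeff i ∈ S := by
  intro i
  have hneg : ∀ k : ℕ, 0 < k → k ≤ Fintype.card n → trace ((-M) ^ k) ∈ S := by
    intro k hk hk'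
    rcases Nat.even_or_odd k with he | ho
    · rw [he.neg_pow]; exact h k hk hk'
    · rw [ho.neg_pow, trace_neg]; exact S.neg_mem (h k hk hk')
  have hrev : ∀ m ≤ Fintype.card n, M.charpoly.reverse.coeff m ∈ S := by
    intro m hm
    rw [reverse_charpoly, ← detPoly_neg]
    exact coeff_detPoly_mem S (-M) (Fintype.card n) hinv hneg m hm
  by_cases hi : i ≤ M.charpoly.natDegree
  · have hle := natDegree_charpoly_le M
    have h3 := hrev (M.charpoly.natDegree - i) (by omega)
    rw [coeff_reverse, revAt_le (Nat.sub_le _ _), Nat.sub_sub_self hi] at h3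
    exact h3
  · rw [coeff_eq_zero_of_natDegree_lt (not_le.mp hi)]
    exact S.zero_mem

/-- **(R3) Newton for matrices** (statement of helper2668, S28 chat #180): if a subring `S`
contains the traces of all positive powers of `M` and inverses of all positive integers, then
all coefficients of the characteristic polynomial of `M` lie in `S`. -/
theorem coeff_charpoly_mem {B : Type*} [CommRing B] {n : Type*} [Fintype n] [DecidableEq n]
    (S : Subring B) (hinv : ∀ k : ℕ, 0 < k → ∃ u ∈ S, u * (k : B) = 1)
    (M : Matrix n n B) (h : ∀ k : ℕ, 0 < k → Matrix.trace (M ^ k) ∈ S) :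
    ∀ i, M.charpoly.coeff i ∈ S :=
  coeff_charpoly_mem_of_le S M (fun k hk _ => hinv k hk) (fun k hk _ => h k hk)

end Fermat.Agent.S28.helper36
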