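/-
S28 (Igusa), route P, steps P3+P4: `Stmt_Hecke p → Stmt_FormalPrime p` (Props of
`helper328_PrimeSpec`), by the explicit-roots route.  Author: helper37.

Roots in `ℂ((s))`, `s = q^(1/p)`, `ω = exp(2πi/p)`:
`x_∞ = j(s^(p^2))`, `x_b = j(ω^b s)`; `y_∞ = p^12 Δ(s^(p^2))/Δ(s^p)`, `y_b = Δ(ω^b s)/Δ(s^p)`.
-/
import Mathlib
import Fermat.Agent.S28.helper328_PrimeSpec

set_option autoImplicit false

namespace Fermat.Agent.S28.helper37

open Polynomial ModularCurve
open Fermat.Agent.S28.helper328

noncomputable section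

/-! ## Part 1: Laurent series toolkit -/

section Toolkit

variable {R S : Type*} [CommRing R] [CommRing S]

/-- leading data: all coefficients below `n` vanish and the coefficient at `n` is `c`. -/
def Lead (f : LaurentSeries R) (n : ℤ) (c : R) : Prop :=
  (∀ k < n, f.coeff k = 0) ∧ f.coeff n = c

theorem Lead.mul {f g : LaurentSeries R} {n m : ℤ} {c d : R} (hf : Lead f n c)
    (hg : Lead g m d) : Lead (f * g) (n + m) (c * d) := by
  constructor
  · intro k hk
    rw [HahnSeries.coeff_mul]
    refine Finset.sum_eq_zero fun ij hij => ?_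
    have hsum : ij.1 + ij.2 = k := (Finset.mem_antidiagonal.mp hij).2.2
    by_cases h1 : ij.1 < n
    · rw [hf.1 _ h1, zero_mul]
    · rw [hg.1 _ (by omega), mul_zero]
  · rw [HahnSeries.coeff_mul]
    rw [Finset.sum_eq_single (n, m)]
    · rw [hf.2, hg.2]
    · intro ij hij hne
      have hsum : ij.1 + ij.2 = n + m := (Finset.mem_antidiagonal.mp hij).2.2
      by_cases h1 : ij.1 < n
      · rw [hf.1 _ h1, zero_mul]
      · by_cases h2 : ij.2 < m
        · rw [hg.1 _ h2, mul_zero]
        · exfalso
          apply hne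
          have : ij.1 = n := by omega
          have : ij.2 = m := by omega
          ext <;> simp [*]
    · intro hnot
      rw [Finset.mem_antidiagonal] at hnot
      by_contra hne
      apply hnot
      refine ⟨?_, ?_, rfl⟩
      · simp only [HahnSeries.mem_support]
        intro h0
        apply hne
        show f.coeff n * g.coeff m = 0
        rw [h0, zero_mul]
      · simp only [HahnSeries.mem_support]
        intro h0
        apply hne
        show f.coeff n * g.coeff m = 0
        rw [h0, mul_zero]

theorem Lead.one : Lead (1 : LaurentSeries R) 0 1 := by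
  constructor
  · intro k hk
    rw [HahnSeries.coeff_one, if_neg (by omega)]
  · rw [HahnSeries.coeff_one, if_pos rfl]

theorem Lead.pow {f : LaurentSeries R} {n : ℤ} {c : R} (hf : Lead f n c) (k : ℕ) :
    Lead (f ^ k) (k * n) (c ^ k) := by
  induction k with
  | zero => simpa using (Lead.one (R := R))
  | succ k ih =>
    have := ih.mul hf
    rw [pow_succ, pow_succ]
    convert this using 1
    push_cast; ring

theorem Lead.prod {ι : Type*} (s : Finset ι) (f : ι → LaurentSeries R) (n : ι → ℤ) (c : ι → R)
    (h : ∀ i ∈ s, Lead (f i) (n i) (c i)) :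
    Lead (∏ i ∈ s, f i) (∑ i ∈ s, n i) (∏ i ∈ s, c i) := by
  classical
  induction s using Finset.induction_on with
  | empty => simpa using (Lead.one (R := R))
  | insert a s ha ih =>
    rw [Finset.prod_insert ha, Finset.sum_insert ha, Finset.prod_insert ha]
    exact (h a (Finset.mem_insert_self a s)).mul
      (ih fun i hi => h i (Finset.mem_insert_of_mem hi))

theorem Lead.qExpand {f : LaurentSeries R} {n : ℤ} {c : R} (hf : Lead f n c) (N : ℕ) [NeZero N] :
    Lead (qExpand R N f) (N * n) c := by
  have hN : (0 : ℤ) < N := by exact_mod_cast Nat.pos_of_ne_zero (NeZero.ne N)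
  constructor
  · intro k hk
    by_cases hd : (N : ℤ) ∣ k
    · obtain ⟨k', rfl⟩ := hd
      rw [qExpand_coeff_mul]
      exact hf.1 _ (lt_of_mul_lt_mul_left hk hN.le)
    · exact qExpand_coeff_of_not_dvd N f hd
  · rw [qExpand_coeff_mul]; exact hf.2

theorem Lead.twist {f : LaurentSeries R} {n : ℤ} {c : R} (hf : Lead f n c) (ζ : Rˣ) :
    Lead (twist ζ f) n (((ζ ^ n : Rˣ) : R) * c) := by
  constructor
  · intro k hk
    rw [twist_coeff, hf.1 _ hk, mul_zero]
  · rw [twist_coeff, hf.2]

theorem Lead.coeffMap {f : LaurentSeries R} {n : ℤ} {c : R} (hf : Lead f n c) (φ : R →+* S) :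
    Lead (coeffMap φ f) n (φ c) := by
  constructor
  · intro k hk
    rw [coeffMap_coeff, hf.1 _ hk, map_zero]
  · rw [coeffMap_coeff, hf.2]

theorem Lead.single (n : ℤ) (c : R) : Lead (HahnSeries.single n c) n c := by
  constructor
  · intro k hk
    rw [HahnSeries.coeff_single_of_ne (by omega)]
  · rw [HahnSeries.coeff_single_same]

theorem natCast_eq_single (a : ℕ) :
    ((a : ℕ) : LaurentSeries R) = HahnSeries.single 0 (a : R) := by
  rw [← HahnSeries.C_apply, map_natCast]

theorem intCast_eq_single (a : ℤ) :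
    ((a : ℤ) : LaurentSeries R) = HahnSeries.single 0 (a : R) := by
  rw [← HahnSeries.C_apply, map_intCast]

theorem Lead.jq : Lead (jqModC R) (-1) 1 :=
  ⟨fun _ hk => coeff_jqModC_of_lt R hk, coeff_jqModC_neg_one R⟩

theorem Lead.deltaHat : Lead (deltaHat R) 1 1 := by
  constructor
  · intro k hk
    rw [helper328.deltaHat, HahnSeries.coeff_single_mul, one_mul]
    exact ofPowerSeries_coeff_of_neg _ (by omega)
  · rw [helper328.deltaHat, HahnSeries.coeff_single_mul, one_mul, sub_self,
      show (0 : ℤ) = ((0 : ℕ) : ℤ) from rfl, HahnSeries.ofPowerSeries_apply_coeff,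
      PowerSeries.coeff_map, PowerSeries.coeff_zero_eq_constantCoeff,
      constantCoeff_dedekindEtaUnit]
    simp

theorem Lead.deltaHatInv : Lead (deltaHatInv R) (-1) 1 := by
  constructor
  · intro k hk
    rw [helper328.deltaHatInv, HahnSeries.coeff_single_mul, one_mul]
    exact ofPowerSeries_coeff_of_neg _ (by omega)
  · rw [helper328.deltaHatInv, HahnSeries.coeff_single_mul, one_mul, sub_self,
      show (0 : ℤ) = ((0 : ℕ) : ℤ) from rfl, HahnSeries.ofPowerSeries_apply_coeff,
      PowerSeries.coeff_map, PowerSeries.coeff_zero_eq_constantCoeff,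
      constantCoeff_dedekindEtaUnitInv]
    simp

theorem deltaHat_mul_inv : deltaHat R * deltaHatInv R = 1 := by
  rw [helper328.deltaHat, helper328.deltaHatInv]
  have h : HahnSeries.ofPowerSeries ℤ R (dedekindEtaUnit.map (Int.castRingHom R)) *
      HahnSeries.ofPowerSeries ℤ R (dedekindEtaUnitInv.map (Int.castRingHom R)) = 1 := by
    rw [← map_mul, ← map_mul, dedekindEtaUnit_mul_inv, map_one, map_one]
  calc HahnSeries.single (1 : ℤ) (1 : R) *
        HahnSeries.ofPowerSeries ℤ R (dedekindEtaUnit.map (Int.castRingHom R)) *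
        (HahnSeries.single (-1 : ℤ) 1 *
          HahnSeries.ofPowerSeries ℤ R (dedekindEtaUnitInv.map (Int.castRingHom R)))
      = (HahnSeries.single (1 : ℤ) (1 : R) * HahnSeries.single (-1 : ℤ) 1) *
        (HahnSeries.ofPowerSeries ℤ R (dedekindEtaUnit.map (Int.castRingHom R)) *
          HahnSeries.ofPowerSeries ℤ R (dedekindEtaUnitInv.map (Int.castRingHom R))) := by ring
    _ = 1 := by
      rw [h, mul_one, HahnSeries.single_mul_single]
      simp

/-! ### twists -/

theorem twist_qExpand (ζ : Rˣ) (N : ℕ) [NeZero N] (f : LaurentSeries R) :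
    twist ζ (qExpand R N f) = qExpand R N (twist (ζ ^ N) f) := by
  ext k
  rw [twist_coeff]
  by_cases hd : (N : ℤ) ∣ k
  · obtain ⟨k', rfl⟩ := hd
    rw [qExpand_coeff_mul, qExpand_coeff_mul, twist_coeff, ← zpow_natCast, ← zpow_mul]
  · rw [qExpand_coeff_of_not_dvd N _ hd, qExpand_coeff_of_not_dvd N _ hd, mul_zero]

theorem twist_twist (ζ₁ ζ₂ : Rˣ) (f : LaurentSeries R) :
    twist ζ₁ (twist ζ₂ f) = twist (ζ₁ * ζ₂) f := by
  ext k
  rw [twist_coeff, twist_coeff, twist_coeff, mul_zpow, Units.val_mul, mul_assoc]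

theorem twist_one (f : LaurentSeries R) : twist (1 : Rˣ) f = f := by
  ext k
  rw [twist_coeff, one_zpow, Units.val_one, one_mul]

theorem coeffMap_twist (φ : R →+* S) (ζ : Rˣ) (f : LaurentSeries R) :
    coeffMap φ (twist ζ f) = twist (Units.map (φ : R →* S) ζ) (coeffMap φ f) := by
  ext k
  rw [coeffMap_coeff, twist_coeff, twist_coeff, coeffMap_coeff, map_mul, ← map_zpow]
  rfl

theorem coeffMap_injective {φ : R →+* S} (hφ : Function.Injective φ) :
    Function.Injective (coeffMap φ) := by
  intro f g h
  ext k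
  apply hφ
  rw [← coeffMap_coeff, ← coeffMap_coeff, h]

theorem coeffMap_deltaHat (φ : R →+* S) : coeffMap φ (deltaHat R) = deltaHat S := by
  rw [helper328.deltaHat, helper328.deltaHat, map_mul, coeffMap_single, map_one,
    coeffMap_ofPowerSeries, ← RingHom.comp_apply (PowerSeries.map φ), ← PowerSeries.map_comp,
    RingHom.ext_int (φ.comp (Int.castRingHom R)) (Int.castRingHom S)]

theorem coeffMap_deltaHatInv (φ : R →+* S) : coeffMap φ (deltaHatInv R) = deltaHatInv S := by
  rw [helper328.deltaHatInv, helper328.deltaHatInv, map_mul, coeffMap_single, map_one,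
    coeffMap_ofPowerSeries, ← RingHom.comp_apply (PowerSeries.map φ), ← PowerSeries.map_comp,
    RingHom.ext_int (φ.comp (Int.castRingHom R)) (Int.castRingHom S)]

/-- membership in the range of `coeffMap` can be checked coefficientwise. -/
theorem mem_range_coeffMap (φ : R →+* S) (f : LaurentSeries S)
    (h : ∀ n, f.coeff n ∈ φ.range) : f ∈ (coeffMap φ).range := by
  classical
  choose g hg using h
  let F : LaurentSeries R :=
    { coeff := fun n => if f.coeff n = 0 then 0 else g n
      isPWO_support' := f.isPWO_support.mono (fun n hn => by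
        simp only [Function.mem_support, ne_eq] at hn
        simp only [HahnSeries.mem_support, ne_eq]
        intro h0
        exact hn (by rw [if_pos h0])) }
  refine ⟨F, ?_⟩
  ext n
  rw [coeffMap_coeff]
  show φ (if f.coeff n = 0 then 0 else g n) = f.coeff n
  split_ifs with h0
  · rw [map_zero, h0]
  · exact hg n

theorem coeff_mem_of_mem_range_coeffMap (φ : R →+* S) (f : LaurentSeries S)
    (h : f ∈ (coeffMap φ).range) (n : ℤ) : f.coeff n ∈ φ.range := by
  obtain ⟨g, rfl⟩ := h
  exact ⟨g.coeff n, (coeffMap_coeff φ g n).symm⟩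

end Toolkit

/-! ## Part 2: triangularity of polynomials in `j` -/

section Tri

variable (A : Type*) [CommRing A]

theorem evalJ_eq_aeval {R : Type*} [CommRing R] (J : LaurentSeries R) (P : ℤ[X]) :
    evalJ J P = aeval J P := by
  rw [evalJ, coe_eval₂RingHom, aeval_def]
  congr 1
  exact RingHom.ext_int _ _

theorem map_evalJ {R S : Type*} [CommRing R] [CommRing S]
    (φ : LaurentSeries R →+* LaurentSeries S) (J : LaurentSeries R) (P : ℤ[X]) :
    φ (evalJ J P) = evalJ (φ J) P := by
  rw [evalJ, evalJ, coe_eval₂RingHom, coe_eval₂RingHom, Polynomial.hom_eval₂,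
    RingHom.ext_int (φ.comp (Int.castRingHom (LaurentSeries R))) (Int.castRingHom _)]

theorem comp_evalJ {R S : Type*} [CommRing R] [CommRing S]
    (φ : LaurentSeries R →+* LaurentSeries S) (J : LaurentSeries R) :
    φ.comp (evalJ J) = evalJ (φ J) :=
  RingHom.ext fun P => map_evalJ φ J P

theorem aeval_map_intCast (P : ℤ[X]) :
    aeval (jqModC A) (P.map (Int.castRingHom A)) = evalJ (jqModC A) P := by
  rw [evalJ, coe_eval₂RingHom, aeval_def, eval₂_map]
  congr 1
  exact RingHom.ext_int _ _

theorem algebraMap_eq_single (a : A) :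
    algebraMap A (LaurentSeries A) a = HahnSeries.single 0 a := by
  have h1 : algebraMap A (PowerSeries A) a = PowerSeries.C a := by
    simp
  rw [HahnSeries.algebraMap_apply', h1, HahnSeries.ofPowerSeries_C]
  rfl

theorem coeff_algebraMap_mul (a : A) (x : LaurentSeries A) (n : ℤ) :
    (algebraMap A (LaurentSeries A) a * x).coeff n = a * x.coeff n := by
  rw [algebraMap_eq_single, HahnSeries.coeff_single_mul, sub_zero]

/-- the coefficient of `P(j)` at `-deg P` is the leading coefficient of `P`. -/
theorem coeff_aeval_jq_neg_natDegree (P : A[X]) :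
    (aeval (jqModC A) P).coeff (-(P.natDegree : ℤ)) = P.leadingCoeff := by
  rw [aeval_eq_sum_range, HahnSeries.coeff_sum]
  rw [Finset.sum_eq_single P.natDegree]
  · rw [Algebra.smul_def, coeff_algebraMap_mul, coeff_jqModC_pow_self, mul_one]; rfl
  · intro i hi hne
    have hlt : i < P.natDegree := lt_of_le_of_ne (Nat.lt_succ_iff.mp (Finset.mem_range.mp hi)) hne
    have hlt' : (-(P.natDegree : ℤ)) < -(i : ℤ) := by omega
    rw [Algebra.smul_def, coeff_algebraMap_mul, coeff_jqModC_pow_of_lt A hlt', mul_zero]
  · intro h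
    exact absurd (Finset.mem_range.mpr (Nat.lt_succ_self _)) h

theorem tri_aux : ∀ (n : ℕ) (P : A[X]), P.natDegree ≤ n →
    aeval (jqModC A) P ∈ (coeffMap (Int.castRingHom A)).range →
    ∃ P' : ℤ[X], P'.map (Int.castRingHom A) = P := by
  intro n
  induction n with
  | zero =>
    intro P hP h
    have hPC : P = C (P.coeff 0) := eq_C_of_natDegree_le_zero hP
    have h0 := coeff_mem_of_mem_range_coeffMap _ _ h 0
    rw [hPC, aeval_C, algebraMap_eq_single, HahnSeries.coeff_single_same] at h0
    obtain ⟨z, hz⟩ := h0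
    refine ⟨C z, ?_⟩
    rw [Polynomial.map_C, hz, ← hPC]
  | succ n ih =>
    intro P hP h
    by_cases hle : P.natDegree ≤ n
    · exact ih P hle h
    · have hl := coeff_mem_of_mem_range_coeffMap _ _ h (-(P.natDegree : ℤ))
      rw [coeff_aeval_jq_neg_natDegree] at hl
      obtain ⟨z, hz⟩ := hl
      have hsplit := eraseLead_add_C_mul_X_pow P
      have hmem : aeval (jqModC A) (C P.leadingCoeff * X ^ P.natDegree) ∈
          (coeffMap (Int.castRingHom A)).range := by
        refine ⟨(z : LaurentSeries ℤ) * jqModC ℤ ^ P.natDegree, ?_⟩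
        rw [map_mul, map_pow, coeffMap_jqModC, map_intCast, map_mul, aeval_C, map_pow, aeval_X,
          ← hz]
        simp
      have hmem1 : aeval (jqModC A) P.eraseLead ∈ (coeffMap (Int.castRingHom A)).range := by
        have : aeval (jqModC A) P.eraseLead =
            aeval (jqModC A) P - aeval (jqModC A) (C P.leadingCoeff * X ^ P.natDegree) := by
          rw [← map_sub]
          congr 1
          exact eq_sub_of_add_eq hsplit
        rw [this]
        exact Subring.sub_mem _ h hmem
      have hdeg1 : P.eraseLead.natDegree ≤ n := by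
        have := eraseLead_natDegree_le P
        omega
      obtain ⟨P₁, hP₁⟩ := ih _ hdeg1 hmem1
      refine ⟨P₁ + C z * X ^ P.natDegree, ?_⟩
      rw [Polynomial.map_add, hP₁, Polynomial.map_mul, Polynomial.map_C, Polynomial.map_pow,
        Polynomial.map_X, hz]
      exact hsplit

/-- TRIANGULARITY: a polynomial in `j` whose `q`-expansion has integer coefficients has integer
coefficients. -/
theorem tri (P : A[X]) (h : aeval (jqModC A) P ∈ (coeffMap (Int.castRingHom A)).range) :
    ∃ P' : ℤ[X], P'.map (Int.castRingHom A) = P :=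
  tri_aux A P.natDegree P le_rfl h

/-- a polynomial in `j` over `ℤ` without negative-order terms is constant. -/
theorem eq_C_of_coeff_neg_eq_zero (P : ℤ[X])
    (h : ∀ n < 0, (evalJ (jqModC ℤ) P).coeff n = 0) :
    P = C ((evalJ (jqModC ℤ) P).coeff 0) := by
  have hd : P.natDegree = 0 := by
    by_contra hne
    have hneg : (-(P.natDegree : ℤ)) < 0 := by
      have : 0 < P.natDegree := Nat.pos_of_ne_zero hne
      omega
    have h1 := h _ hneg
    rw [evalJ_eq_aeval, coeff_aeval_jq_neg_natDegree] at h1
    rw [leadingCoeff_eq_zero] at h1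
    rw [h1] at hne
    simp at hne
  have hPC : P = C (P.coeff 0) := eq_C_of_natDegree_eq_zero hd
  conv_lhs => rw [hPC]
  congr 1
  rw [evalJ_eq_aeval]
  conv_rhs => rw [hPC]
  rw [aeval_C, algebraMap_eq_single, HahnSeries.coeff_single_same]

end Tri

/-! ## Part 3: Newton's identities, transferred to a subring -/

section Newton

variable {B : Type*} [CommRing B] {ι : Type*} [Fintype ι]

/-- elementary symmetric functions of a finite family. -/
def esym (f : ι → B) (k : ℕ) : B := (Finset.univ.val.map f).esymm k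

/-- power sums of a finite family. -/
def psm (f : ι → B) (k : ℕ) : B := ∑ i, f i ^ k

theorem esym_zero (f : ι → B) : esym f 0 = 1 := by
  simp [esym, Multiset.esymm]

theorem newton_identity (f : ι → B) (k : ℕ) :
    (k : B) * esym f k = (-1) ^ (k + 1) *
      ∑ a ∈ Finset.HasAntidiagonal.antidiagonal k with a.1 < k,
        (-1) ^ a.1 * esym f a.1 * psm f a.2 := by
  classical
  have h := congrArg (MvPolynomial.aeval (R := ℤ) f) (MvPolynomial.mul_esymm_eq_sum ι ℤ k)
  simp only [map_mul, map_natCast, map_pow, map_neg, map_one, map_sum,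
    MvPolynomial.aeval_esymm_eq_multiset_esymm] at h
  rw [esym, h]
  congr 1
  refine Finset.sum_congr rfl fun a _ => ?_
  congr 1
  simp [psm, MvPolynomial.psum]

/-- if the power sums lie in a subring in which every positive integer is invertible, so do
the elementary symmetric functions. -/
theorem esym_mem (𝒮 : Subring B) (hinv : ∀ k : ℕ, 0 < k → ∃ u ∈ 𝒮, u * (k : B) = 1)
    (f : ι → B) (hps : ∀ k : ℕ, 0 < k → psm f k ∈ 𝒮) : ∀ k : ℕ, esym f k ∈ 𝒮 := by
  intro k
  induction k using Nat.strong_induction_on with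
  | _ k ih =>
    rcases Nat.eq_zero_or_pos k with rfl | hk
    · rw [esym_zero]; exact 𝒮.one_mem
    · obtain ⟨u, hu, huk⟩ := hinv k hk
      have h := newton_identity f k
      have hmem : (k : B) * esym f k ∈ 𝒮 := by
        rw [h]
        refine 𝒮.mul_mem (𝒮.pow_mem (𝒮.neg_mem 𝒮.one_mem) _) (𝒮.sum_mem fun a ha => ?_)
        rw [Finset.mem_filter, Finset.HasAntidiagonal.mem_antidiagonal] at ha
        refine 𝒮.mul_mem (𝒮.mul_mem (𝒮.pow_mem (𝒮.neg_mem 𝒮.one_mem) _) (ih _ ha.2)) (hps _ ?_)
        omega
      have : esym f k = u * ((k : B) * esym f k) := by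
        rw [← mul_assoc, huk, one_mul]
      rw [this]
      exact 𝒮.mul_mem hu hmem

theorem prod_X_sub_C_eq_sum_esym (f : ι → B) :
    ∏ i, (X - C (f i)) = ∑ j ∈ Finset.range (Fintype.card ι + 1),
      (-1) ^ j * (C (esym f j) * X ^ (Fintype.card ι - j)) := by
  have h := Multiset.prod_X_sub_X_eq_sum_esymm (Finset.univ.val.map f)
  rw [Multiset.map_map, Multiset.card_map] at h
  simpa [esym] using h

/-- each member of the family is a root of `∏ (X - f i)`, expanded. -/
theorem sum_esym_mul_pow_eq_zero (f : ι → B) (i : ι) :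
    ∑ j ∈ Finset.range (Fintype.card ι + 1),
      (-1) ^ j * (esym f j * f i ^ (Fintype.card ι - j)) = 0 := by
  classical
  have h := congrArg (Polynomial.eval (f i)) (prod_X_sub_C_eq_sum_esym f)
  rw [eval_prod, Finset.prod_eq_zero (Finset.mem_univ i) (by simp), eval_finsetSum] at h
  rw [h]
  refine Finset.sum_congr rfl fun j _ => ?_
  simp

end Newton

end

end Fermat.Agent.S28.helper37
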