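/-
S28 (Igusa), route P, steps P3+P4: the formal prime-level data `helper328.Stmt_FormalPrime p`
by the explicit-roots route over `ℂ((s))`, `q = s^p`.
Author: helper37.  Uses the landed leaves helper2627 (Hecke link over `ℤ`), helper2082
(orthogonality), helper508 (Newton transfer) and helper688 (root formula from F1 + F2).
-/
import Mathlib
import Fermat.Agent.S28.helper37_FormalPrime
import Fermat.Agent.S28.helper2627_HeckeLink
import Fermat.Agent.S28.helper2082_SecMat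
import Fermat.Agent.S28.helper508_Newton
import Fermat.Agent.S28.helper688_RootFormula

set_option autoImplicit false

namespace Fermat.Agent.S28.helper37

open Polynomial ModularCurve
open Fermat.Agent.S28.helper328

noncomputable section

section Roots

variable (p : ℕ) [hp : Fact p.Prime]

/-- a primitive `p`-th root of unity in `ℂ`, as a unit. -/
def ωC : ℂˣ := Units.mk0 (Complex.exp (2 * Real.pi * Complex.I / p)) (Complex.exp_ne_zero _)

theorem ωC_prim : IsPrimitiveRoot (ωC p) p := by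
  rw [← IsPrimitiveRoot.coe_units_iff]
  exact Complex.isPrimitiveRoot_exp p hp.out.ne_zero

/-- the `p + 1` roots of the modular equation, in `ℂ((s))`, `q = s^p`. -/
def xr : Option (Fin p) → LaurentSeries ℂ
  | none => qExpand ℂ p (qExpand ℂ p (jqModC ℂ))
  | some b => twist (ωC p ^ (b : ℕ)) (jqModC ℂ)

/-- the `p + 1` conjugates of `ghat`. -/
def yr : Option (Fin p) → LaurentSeries ℂ
  | none => (p : LaurentSeries ℂ) ^ 12 * qExpand ℂ p (qExpand ℂ p (deltaHat ℂ)) *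
      qExpand ℂ p (deltaHatInv ℂ)
  | some b => twist (ωC p ^ (b : ℕ)) (deltaHat ℂ) * qExpand ℂ p (deltaHatInv ℂ)

/-- `ℤ((q)) → ℂ((s))`, `q ↦ s^p`. -/
def ιC : LaurentSeries ℤ →+* LaurentSeries ℂ :=
  (qExpand ℂ p).comp (coeffMap (Int.castRingHom ℂ))

theorem ιC_apply (f : LaurentSeries ℤ) :
    ιC p f = qExpand ℂ p (coeffMap (Int.castRingHom ℂ) f) := rfl

theorem ιC_injective : Function.Injective (ιC p) :=
  (qExpand_injective (R := ℂ) (N := p)).comp (coeffMap_injective (RingHom.injective_int _))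

theorem ιC_jq : ιC p (jqModC ℤ) = qExpand ℂ p (jqModC ℂ) := by
  rw [ιC_apply, coeffMap_jqModC]

theorem ιC_Vjq : ιC p (qExpand ℤ p (jqModC ℤ)) = xr p none := by
  rw [ιC_apply, coeffMap_qExpand, coeffMap_jqModC]; rfl

theorem ιC_gHat : ιC p (gHat p) = yr p none := by
  rw [gHat, map_mul, map_mul, map_pow, map_natCast, ιC_apply, ιC_apply, coeffMap_qExpand,
    coeffMap_deltaHat, coeffMap_deltaHatInv]
  rfl

theorem ιC_evalJ (P : ℤ[X]) :
    ιC p (evalJ (jqModC ℤ) P) = evalJ (qExpand ℂ p (jqModC ℂ)) P := by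
  rw [map_evalJ, ιC_jq]

theorem coeffMap_laurentU (f : LaurentSeries ℤ) :
    coeffMap (Int.castRingHom ℂ) (helper2627.laurentU p f) =
      helper2082.sect p 0 (coeffMap (Int.castRingHom ℂ) f) := by
  ext n
  rw [coeffMap_coeff, helper2627.coeff_laurentU, helper2082.sect_coeff, coeffMap_coeff, add_zero]

/-- HECKE STEP: the mixed power sums of the roots are integer polynomials in `j(s^p)`. -/
theorem Spow_mem (m M : ℕ) (hm : m ≤ M) (hM : 1 ≤ M) :
    ∃ P : ℤ[X], ιC p (evalJ (jqModC ℤ) P) = ∑ i, xr p i ^ m * yr p i ^ M := by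
  obtain ⟨P, -, hP⟩ := helper2627.hecke_link_gHat p m M hm hM
  refine ⟨C (p : ℤ) * P, ?_⟩
  have h1 : evalJ (jqModC ℤ) (C (p : ℤ) * P) = (p : LaurentSeries ℤ) * evalJ (jqModC ℤ) P := by
    rw [map_mul]
    congr 1
    rw [evalJ, coe_eval₂RingHom, eval₂_C]
    simp
  rw [h1, ← hP, Fintype.sum_option]
  have hsum : ∑ b : Fin p, xr p (some b) ^ m * yr p (some b) ^ M =
      (∑ b : Fin p, twist (ωC p ^ (b : ℕ)) (jqModC ℂ ^ m * deltaHat ℂ ^ M)) *
        qExpand ℂ p (deltaHatInv ℂ) ^ M := by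
    rw [Finset.sum_mul]
    refine Finset.sum_congr rfl fun b _ => ?_
    simp only [xr, yr, map_mul, map_pow]
    ring
  rw [hsum, helper2082.sum_twist_eq p (ωC p) (ωC_prim p)]
  rw [map_add, map_mul, map_mul, map_mul, map_pow, map_pow, map_pow, ιC_gHat, ιC_Vjq, map_natCast]
  rw [ιC_apply p (helper2627.laurentU p _), coeffMap_laurentU, map_mul, map_pow, map_pow,
    coeffMap_jqModC, coeffMap_deltaHat, ιC_apply p (deltaHatInv ℤ), coeffMap_deltaHatInv]
  rw [nsmul_eq_mul]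
  ring

/-! ### algebraic-integer coefficients -/

/-- Laurent series over `ℂ` all of whose coefficients are algebraic integers. -/
def AA : Subring (LaurentSeries ℂ) :=
  (coeffMap (algebraMap (integralClosure ℤ ℂ) ℂ)).range

theorem mem_AA_iff (f : LaurentSeries ℂ) : f ∈ AA ↔ ∀ n, IsIntegral ℤ (f.coeff n) := by
  constructor
  · intro h n
    obtain ⟨z, hz⟩ := coeff_mem_of_mem_range_coeffMap _ _ h n
    rw [← hz]
    exact z.2
  · intro h
    exact mem_range_coeffMap _ _ (fun n => ⟨⟨f.coeff n, h n⟩, rfl⟩)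

theorem coeffMap_int_mem_AA (g : LaurentSeries ℤ) : coeffMap (Int.castRingHom ℂ) g ∈ AA := by
  rw [mem_AA_iff]
  intro n
  rw [coeffMap_coeff]
  have h : IsIntegral ℤ (algebraMap ℤ ℂ (g.coeff n)) := isIntegral_algebraMap
  simpa using h

theorem jq_mem_AA : jqModC ℂ ∈ AA := by
  rw [← coeffMap_jqModC (Int.castRingHom ℂ)]; exact coeffMap_int_mem_AA _

theorem deltaHat_mem_AA : deltaHat ℂ ∈ AA := by
  rw [← coeffMap_deltaHat (Int.castRingHom ℂ)]; exact coeffMap_int_mem_AA _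

theorem deltaHatInv_mem_AA : deltaHatInv ℂ ∈ AA := by
  rw [← coeffMap_deltaHatInv (Int.castRingHom ℂ)]; exact coeffMap_int_mem_AA _

theorem qExpand_mem_AA {f : LaurentSeries ℂ} (h : f ∈ AA) : qExpand ℂ p f ∈ AA := by
  obtain ⟨g, rfl⟩ := h
  exact ⟨qExpand _ p g, coeffMap_qExpand _ p g⟩

theorem twist_mem_AA {f : LaurentSeries ℂ} (h : f ∈ AA) (b : ℕ) :
    twist (ωC p ^ b) f ∈ AA := by
  rw [mem_AA_iff] at h ⊢
  intro n
  rw [twist_coeff]
  refine IsIntegral.mul ?_ (h n)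
  refine IsIntegral.of_pow hp.out.pos ?_
  have h1 : ((ωC p ^ b) ^ n) ^ p = 1 := by
    rw [← zpow_natCast, ← zpow_mul, mul_comm, zpow_mul, zpow_natCast, ← pow_mul, mul_comm,
      pow_mul, (ωC_prim p).pow_eq_one, one_pow, one_zpow]
  rw [← Units.val_pow_eq_pow_val, h1, Units.val_one]
  exact isIntegral_one

theorem xr_mem_AA (i : Option (Fin p)) : xr p i ∈ AA := by
  cases i with
  | none => exact qExpand_mem_AA p (qExpand_mem_AA p jq_mem_AA)
  | some b => exact twist_mem_AA p jq_mem_AA b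

theorem yr_mem_AA (i : Option (Fin p)) : yr p i ∈ AA := by
  cases i with
  | none =>
    exact AA.mul_mem (AA.mul_mem (AA.pow_mem (natCast_mem AA p) 12)
      (qExpand_mem_AA p (qExpand_mem_AA p deltaHat_mem_AA))) (qExpand_mem_AA p deltaHatInv_mem_AA)
  | some b =>
    exact AA.mul_mem (twist_mem_AA p deltaHat_mem_AA b) (qExpand_mem_AA p deltaHatInv_mem_AA)

/-! ### rational polynomials in `j(s^p)` -/

/-- `ℚ[Y] → ℂ((s))`, `Y ↦ j(s^p)`. -/
def ηQ : ℚ[X] →+* LaurentSeries ℂ :=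
  (qExpand ℂ p).comp ((aeval (jqModC ℂ)).toRingHom.comp (mapRingHom (algebraMap ℚ ℂ)))

theorem ηQ_apply (P : ℚ[X]) :
    ηQ p P = qExpand ℂ p (aeval (jqModC ℂ) (P.map (algebraMap ℚ ℂ))) := rfl

/-- the `ℚ`-subalgebra `ℚ[j(s^p)]` of `ℂ((s))`. -/
def QQ : Subalgebra ℚ (LaurentSeries ℂ) := (ηQ p).toRatAlgHom.range

theorem mem_QQ_iff (f : LaurentSeries ℂ) : f ∈ QQ p ↔ ∃ P : ℚ[X], ηQ p P = f := by
  rw [QQ, AlgHom.mem_range]; rfl

theorem ιC_evalJ_eq_ηQ (P : ℤ[X]) :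
    ιC p (evalJ (jqModC ℤ) P) = ηQ p (P.map (Int.castRingHom ℚ)) := by
  rw [ιC_evalJ, ηQ_apply, Polynomial.map_map,
    RingHom.ext_int ((algebraMap ℚ ℂ).comp (Int.castRingHom ℚ)) (Int.castRingHom ℂ),
    aeval_map_intCast ℂ P, map_evalJ]

theorem ιC_evalJ_mem_QQ (P : ℤ[X]) : ιC p (evalJ (jqModC ℤ) P) ∈ QQ p :=
  (mem_QQ_iff p _).mpr ⟨_, (ιC_evalJ_eq_ηQ p P).symm⟩

theorem coeffMap_aeval_jq {A B : Type*} [CommRing A] [CommRing B] (φ : A →+* B) (P : A[X]) :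
    coeffMap φ (aeval (jqModC A) P) = aeval (jqModC B) (P.map φ) := by
  rw [aeval_def, aeval_def, eval₂_map, Polynomial.hom_eval₂, coeffMap_jqModC]
  congr 1
  ext a : 1
  rw [RingHom.comp_apply, RingHom.comp_apply, algebraMap_eq_single, algebraMap_eq_single,
    coeffMap_single]

/-- INT: a rational polynomial in `j(s^p)` with algebraic-integer coefficients is an integer
polynomial in `j(s^p)`. -/
theorem exists_int_of_QQ_of_AA (f : LaurentSeries ℂ) (hQ : f ∈ QQ p) (hA : f ∈ AA) :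
    ∃ P : ℤ[X], ιC p (evalJ (jqModC ℤ) P) = f := by
  obtain ⟨P, rfl⟩ := (mem_QQ_iff p f).mp hQ
  rw [mem_AA_iff] at hA
  have hmem : aeval (jqModC ℚ) P ∈ (coeffMap (Int.castRingHom ℚ)).range := by
    refine mem_range_coeffMap _ _ (fun n => ?_)
    have h1 : IsIntegral ℤ (algebraMap ℚ ℂ ((aeval (jqModC ℚ) P).coeff n)) := by
      have := hA ((p : ℤ) * n)
      rwa [ηQ_apply, qExpand_coeff_mul, ← coeffMap_aeval_jq, coeffMap_coeff] at this
    have h2 : IsIntegral ℤ ((aeval (jqModC ℚ) P).coeff n) :=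
      (isIntegral_algebraMap_iff (algebraMap ℚ ℂ).injective).mp h1
    obtain ⟨z, hz⟩ := IsIntegrallyClosed.isIntegral_iff.mp h2
    exact ⟨z, by rw [← hz]; rfl⟩
  obtain ⟨P', rfl⟩ := tri ℚ P hmem
  exact ⟨P', ιC_evalJ_eq_ηQ p P'⟩

/-! ### the product of the `y`-roots -/

theorem Lead.neg {R : Type*} [CommRing R] {f : LaurentSeries R} {n : ℤ} {c : R}
    (hf : Lead f n c) : Lead (-f) n (-c) := by
  constructor
  · intro k hk
    rw [HahnSeries.coeff_neg, hf.1 k hk, neg_zero]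
  · rw [HahnSeries.coeff_neg, hf.2]

/-- the product of all `p`-th roots of unity (`= ± 1`). -/
def εC : ℂ := ∏ b : Fin p, ((ωC p ^ (b : ℕ) : ℂˣ) : ℂ)

theorem εC_sq : εC p ^ 2 = 1 := by
  rw [εC, ← Units.coe_prod, ← Units.val_pow_eq_pow_val, Finset.prod_pow_eq_pow_sum, ← pow_mul,
    Fin.sum_univ_eq_sum_range (fun i => i) p, Finset.sum_range_id_mul_two, pow_mul,
    (ωC_prim p).pow_eq_one, one_pow, Units.val_one]

theorem yr_none : yr p none = (p : LaurentSeries ℂ) ^ 12 *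
    qExpand ℂ p (qExpand ℂ p (deltaHat ℂ)) * qExpand ℂ p (deltaHatInv ℂ) := by
  rw [yr]

theorem yr_some (b : Fin p) : yr p (some b) =
    twist (ωC p ^ (b : ℕ)) (deltaHat ℂ) * qExpand ℂ p (deltaHatInv ℂ) := by
  rw [yr]

theorem lead_yr_none : Lead (yr p none) ((p : ℤ) * p - p) ((p : ℂ) ^ 12) := by
  have h1 : Lead ((p : LaurentSeries ℂ) ^ 12) (((12 : ℕ) : ℤ) * 0) ((p : ℂ) ^ 12) := by
    have := (Lead.single (R := ℂ) 0 (p : ℂ)).pow 12
    rwa [← natCast_eq_single] at this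
  have h2 := ((Lead.deltaHat (R := ℂ)).qExpand p).qExpand p
  have h3 := (Lead.deltaHatInv (R := ℂ)).qExpand p
  have h := (h1.mul h2).mul h3
  have hidx : (((12 : ℕ) : ℤ) * 0 + (p : ℤ) * ((p : ℤ) * 1) + (p : ℤ) * (-1)) = (p : ℤ) * p - p := by
    ring
  rw [hidx, mul_one, mul_one] at h
  rw [yr_none]
  exact h

theorem lead_yr_some (b : Fin p) :
    Lead (yr p (some b)) (1 - (p : ℤ)) (((ωC p ^ (b : ℕ) : ℂˣ) : ℂ)) := by
  have h1 := (Lead.deltaHat (R := ℂ)).twist (ωC p ^ (b : ℕ))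
  have h3 := (Lead.deltaHatInv (R := ℂ)).qExpand p
  have h := h1.mul h3
  have hidx : (1 + (p : ℤ) * (-1)) = 1 - (p : ℤ) := by ring
  rw [hidx, mul_one, mul_one, zpow_one] at h
  rw [yr_some]
  exact h

theorem lead_prod_yr : Lead (∏ i, yr p i) 0 ((p : ℂ) ^ 12 * εC p) := by
  rw [Fintype.prod_option]
  have h : Lead (yr p none * ∏ b : Fin p, yr p (some b))
      ((p : ℤ) * p - p + ∑ _b : Fin p, (1 - (p : ℤ))) ((p : ℂ) ^ 12 * εC p) :=
    (lead_yr_none p).mul (Lead.prod Finset.univ (fun b : Fin p => yr p (some b)) _ _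
      (fun b _ => lead_yr_some p b))
  have hidx : (p : ℤ) * p - p + ∑ _b : Fin p, (1 - (p : ℤ)) = 0 := by
    simp only [Finset.sum_const, Finset.card_univ, Fintype.card_fin, nsmul_eq_mul]
    ring
  rw [hidx] at h
  exact h

theorem const_of_lead (P : ℤ[X]) (c : ℂ) (h : Lead (ιC p (evalJ (jqModC ℤ) P)) 0 c) :
    ∃ z : ℤ, (z : ℂ) = c ∧ P = C z := by
  have hcoeff : ∀ n : ℤ, (((evalJ (jqModC ℤ) P).coeff n : ℤ) : ℂ) =
      (ιC p (evalJ (jqModC ℤ) P)).coeff ((p : ℤ) * n) := by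
    intro n
    rw [ιC_apply, qExpand_coeff_mul, coeffMap_coeff]; rfl
  refine ⟨(evalJ (jqModC ℤ) P).coeff 0, ?_, ?_⟩
  · rw [hcoeff 0, mul_zero]; exact h.2
  · apply eq_C_of_coeff_neg_eq_zero
    intro n hn
    have hp0 : (0 : ℤ) < p := by exact_mod_cast hp.out.pos
    have h0 := h.1 ((p : ℤ) * n) (by nlinarith)
    rw [← hcoeff n] at h0
    exact_mod_cast h0

omit hp in
theorem coeff_zero_prod_X_sub_C {B : Type*} [CommRing B] {ι : Type*} [Fintype ι] (y : ι → B) :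
    (∏ i, (X - C (y i))).coeff 0 = (-1) ^ Fintype.card ι * ∏ i, y i := by
  rw [coeff_zero_eq_eval_zero, eval_prod]
  simp only [eval_sub, eval_X, eval_C, zero_sub]
  rw [Finset.prod_neg, Finset.card_univ]

theorem coeff_zero_prod_X_sub_C_yr :
    (∏ i, (X - C (yr p i))).coeff 0 = (-1) ^ (p + 1) * ∏ i, yr p i := by
  rw [coeff_zero_prod_X_sub_C, Fintype.card_option, Fintype.card_fin]

omit hp in
theorem coeff_prod_X_sub_C_mem_AA (x : Option (Fin p) → LaurentSeries ℂ) (hx : ∀ i, x i ∈ AA)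
    (k : ℕ) : (∏ i, (X - C (x i))).coeff k ∈ AA := by
  have h : (∏ i, (X - C (x i))) = (∏ i, (X - C (⟨x i, hx i⟩ : AA))).map AA.subtype := by
    rw [Polynomial.map_prod]
    refine Finset.prod_congr rfl fun i _ => ?_
    rw [Polynomial.map_sub, Polynomial.map_X, Polynomial.map_C]; rfl
  rw [h, coeff_map]
  exact Subtype.prop _

/-- the constant term of `∏ (X - y_i)` is the constant `± p^12`. -/
theorem const_of_eq (P : ℤ[X])
    (hP : ιC p (evalJ (jqModC ℤ) P) = (∏ i, (X - C (yr p i))).coeff 0) :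
    ∃ z : ℤ, (z = (p : ℤ) ^ 12 ∨ z = -(p : ℤ) ^ 12) ∧ P = C z := by
  have hlead : Lead (ιC p (evalJ (jqModC ℤ) P)) 0 ((-1) ^ (p + 1) * ((p : ℂ) ^ 12 * εC p)) := by
    rw [hP, coeff_zero_prod_X_sub_C_yr]
    have h := (((Lead.one (R := ℂ)).neg).pow (p + 1)).mul (lead_prod_yr p)
    convert h using 1
    ring
  obtain ⟨z, hz, rfl⟩ := const_of_lead p P _ hlead
  refine ⟨z, ?_, rfl⟩
  have hsq : ((-1 : ℂ) ^ (p + 1) * εC p) * ((-1 : ℂ) ^ (p + 1) * εC p) = 1 := by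
    have h1 : ((-1 : ℂ) ^ (p + 1)) * ((-1 : ℂ) ^ (p + 1)) = 1 := by
      rw [← mul_pow]; simp
    calc ((-1 : ℂ) ^ (p + 1) * εC p) * ((-1 : ℂ) ^ (p + 1) * εC p)
        = (((-1 : ℂ) ^ (p + 1)) * ((-1 : ℂ) ^ (p + 1))) * εC p ^ 2 := by ring
      _ = 1 := by rw [h1, εC_sq, one_mul]
  rcases mul_self_eq_one_iff.mp hsq with h1 | h1
  · left
    have : (z : ℂ) = (p : ℂ) ^ 12 := by
      rw [hz, show (-1 : ℂ) ^ (p + 1) * ((p : ℂ) ^ 12 * εC p) =
        (p : ℂ) ^ 12 * ((-1 : ℂ) ^ (p + 1) * εC p) by ring, h1, mul_one]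
    exact_mod_cast this
  · right
    have : (z : ℂ) = -(p : ℂ) ^ 12 := by
      rw [hz, show (-1 : ℂ) ^ (p + 1) * ((p : ℂ) ^ 12 * εC p) =
        (p : ℂ) ^ 12 * ((-1 : ℂ) ^ (p + 1) * εC p) by ring, h1]
      ring
    exact_mod_cast this

/-! ### assembly -/

theorem ιC_eval (Φ : (ℤ[X])[X]) (x : LaurentSeries ℤ) :
    ιC p ((Φ.map (evalJ (jqModC ℤ))).eval x) =
      (Φ.map ((ιC p).comp (evalJ (jqModC ℤ)))).eval (ιC p x) := by
  rw [← Polynomial.map_map, Polynomial.eval_map_apply]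

omit hp in
theorem eval_prod_X_sub_C_self {B : Type*} [CommRing B] {ι : Type*} [Fintype ι] (x : ι → B)
    (i₀ : ι) : (∏ i, (X - C (x i))).eval (x i₀) = 0 := by
  rw [eval_prod]
  exact Finset.prod_eq_zero (Finset.mem_univ i₀) (by simp)

/-- **P3 + P4**: the formal prime-level data, unconditionally. -/
theorem stmt_FormalPrime : helper328.Stmt_FormalPrime p := by
  -- Hecke range
  have hHecke : ∀ m M, m ≤ M → 1 ≤ M → ∑ i, xr p i ^ m * yr p i ^ M ∈ QQ p := by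
    intro m M hm hM
    obtain ⟨P, hP⟩ := Spow_mem p m M hm hM
    rw [← hP]
    exact ιC_evalJ_mem_QQ p P
  -- the constant term of `G`
  have hG0Q : (∏ i, (X - C (yr p i))).coeff 0 ∈ QQ p :=
    helper508.coeff_prod_X_sub_C_mem_of_mixed' (QQ p) (xr p) (yr p) hHecke 0
  obtain ⟨P0, hP0⟩ := exists_int_of_QQ_of_AA p _ hG0Q
    (coeff_prod_X_sub_C_mem_AA p _ (yr_mem_AA p) 0)
  obtain ⟨z, hz, rfl⟩ := const_of_eq p P0 hP0
  have hz0 : z ≠ 0 := by
    have hp0 : (p : ℤ) ≠ 0 := by exact_mod_cast hp.out.ne_zero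
    rcases hz with rfl | rfl
    · exact pow_ne_zero _ hp0
    · exact neg_ne_zero.mpr (pow_ne_zero _ hp0)
  -- the product of the `y_i` is a unit of `ℚ[j(s^p)]`
  have hd : (-1) ^ (p + 1) * ηQ p (C ((z : ℚ)⁻¹)) ∈ QQ p :=
    (QQ p).mul_mem ((QQ p).pow_mem ((QQ p).neg_mem (QQ p).one_mem) _)
      ((mem_QQ_iff p _).mpr ⟨_, rfl⟩)
  have hcd : (∏ i, yr p i) * ((-1) ^ (p + 1) * ηQ p (C ((z : ℚ)⁻¹))) = 1 := by
    have h1 : (-1) ^ (p + 1) * (∏ i, yr p i) = ηQ p (C (z : ℚ)) := by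
      rw [← coeff_zero_prod_X_sub_C_yr, ← hP0, ιC_evalJ_eq_ηQ, Polynomial.map_C]
      simp
    calc (∏ i, yr p i) * ((-1) ^ (p + 1) * ηQ p (C ((z : ℚ)⁻¹)))
        = ((-1) ^ (p + 1) * (∏ i, yr p i)) * ηQ p (C ((z : ℚ)⁻¹)) := by ring
      _ = ηQ p (C (z : ℚ) * C ((z : ℚ)⁻¹)) := by rw [h1, map_mul]
      _ = 1 := by
        rw [← C_mul, mul_inv_cancel₀ (by exact_mod_cast hz0), C_1, map_one]
  have hmix : ∀ m M, ∑ i, xr p i ^ m * yr p i ^ M ∈ QQ p :=
    helper508.mixed_psum_mem (QQ p) (xr p) (yr p) _ _ hd hcd rfl hHecke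
  -- `Φ`
  have hΦl : (∏ i, (X - C (xr p i))) ∈ Polynomial.lifts ((ιC p).comp (evalJ (jqModC ℤ))) := by
    rw [Polynomial.lifts_iff_coeff_lifts]
    intro k
    obtain ⟨P, hP⟩ := exists_int_of_QQ_of_AA p _
      (helper508.coeff_prod_X_sub_C_mem_of_mixed (QQ p) (xr p) (yr p) _ _ hd hcd rfl hHecke k)
      (coeff_prod_X_sub_C_mem_AA p _ (xr_mem_AA p) k)
    exact ⟨P, hP⟩
  obtain ⟨Φ, hΦmap, hΦdeg, hΦmonic⟩ := Polynomial.lifts_and_natDegree_eq_and_monic hΦl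
    (monic_prod_of_monic _ _ fun i _ => monic_X_sub_C _)
  have hΦd : Φ.natDegree = p + 1 := by
    rw [hΦdeg, Polynomial.natDegree_finsetProd_X_sub_C_eq_card, Finset.card_univ,
      Fintype.card_option, Fintype.card_fin]
  -- `G`
  have hGl : (∏ i, (X - C (yr p i))) ∈ Polynomial.lifts ((ιC p).comp (evalJ (jqModC ℤ))) := by
    rw [Polynomial.lifts_iff_coeff_lifts]
    intro k
    obtain ⟨P, hP⟩ := exists_int_of_QQ_of_AA p _
      (helper508.coeff_prod_X_sub_C_mem_of_mixed' (QQ p) (xr p) (yr p) hHecke k)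
      (coeff_prod_X_sub_C_mem_AA p _ (yr_mem_AA p) k)
    exact ⟨P, hP⟩
  obtain ⟨G, hGmap, -, hGmonic⟩ := Polynomial.lifts_and_natDegree_eq_and_monic hGl
    (monic_prod_of_monic _ _ fun i _ => monic_X_sub_C _)
  have hG0 : G.coeff 0 = C ((p : ℤ) ^ 12) ∨ G.coeff 0 = C (-(p : ℤ) ^ 12) := by
    obtain ⟨z', hz', hG0'⟩ := const_of_eq p (G.coeff 0) (by rw [← hGmap, coeff_map]; rfl)
    rcases hz' with rfl | rfl
    · exact Or.inl hG0'
    · exact Or.inr hG0'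
  have hG : (G.map (evalJ (jqModC ℤ))).eval (gHat p) = 0 := by
    apply ιC_injective p
    rw [ιC_eval, hGmap, ιC_gHat, map_zero]
    exact eval_prod_X_sub_C_self (yr p) none
  -- `T`
  have hT : ∀ k : ℕ, ∃ P : ℤ[X], ιC p (evalJ (jqModC ℤ) P) = ∑ i, xr p i ^ k * yr p i := by
    intro k
    have h1 := hmix k 1
    simp only [pow_one] at h1
    refine exists_int_of_QQ_of_AA p _ h1 ?_
    exact AA.sum_mem fun i _ => AA.mul_mem (AA.pow_mem (xr_mem_AA p i) k) (yr_mem_AA p i)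
  choose T hT using hT
  -- `Ψ`
  have hroot : (Φ.map (evalJ (jqModC ℤ))).IsRoot (qExpand ℤ p (jqModC ℤ)) := by
    apply ιC_injective p
    rw [ιC_eval, hΦmap, ιC_Vjq, map_zero]
    exact eval_prod_X_sub_C_self (xr p) none
  have hfac : Φ.map (evalJ (jqModC ℤ)) = (X - C (qExpand ℤ p (jqModC ℤ))) *
      (Φ.map (evalJ (jqModC ℤ)) /ₘ (X - C (qExpand ℤ p (jqModC ℤ)))) :=
    (mul_divByMonic_eq_iff_isRoot.mpr hroot).symm
  have hΨmap : (Φ.map (evalJ (jqModC ℤ)) /ₘ (X - C (qExpand ℤ p (jqModC ℤ)))).map (ιC p) =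
      ∏ i ∈ Finset.univ.erase none, (X - C (xr p i)) := by
    have h1 := congrArg (Polynomial.map (ιC p)) hfac
    rw [Polynomial.map_map, hΦmap, Polynomial.map_mul, Polynomial.map_sub, Polynomial.map_X,
      Polynomial.map_C, ιC_Vjq, ← Finset.mul_prod_erase Finset.univ _ (Finset.mem_univ none)] at h1
    exact (mul_left_cancel₀ (X_sub_C_ne_zero _) h1).symm
  have hlag : (Φ.map (evalJ (jqModC ℤ)) /ₘ (X - C (qExpand ℤ p (jqModC ℤ)))).eval
        (qExpand ℤ p (jqModC ℤ)) * gHat p =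
      ∑ i ∈ Finset.range (p + 1),
        (Φ.map (evalJ (jqModC ℤ)) /ₘ (X - C (qExpand ℤ p (jqModC ℤ)))).coeff i *
          evalJ (jqModC ℤ) (T i) := by
    have hlagC := helper508.eval_mul_eq_sum_coeff_mul_mixed (xr p) (yr p) none
    rw [Fintype.card_option, Fintype.card_fin] at hlagC
    apply ιC_injective p
    rw [map_mul, ← Polynomial.eval_map_apply, hΨmap, ιC_Vjq, ιC_gHat, hlagC, map_sum]
    refine Finset.sum_congr rfl fun k _ => ?_
    rw [map_mul, hT, ← hΨmap, Polynomial.coeff_map]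
  -- (F2)
  have hF2C : (Φ.map (evalJ (qExpand ℂ p (jqModC ℂ)))).eval (jqModC ℂ) = 0 := by
    have h0 : xr p (some ⟨0, hp.out.pos⟩) = jqModC ℂ := by
      rw [xr]
      simp only [pow_zero]
      exact twist_one _
    rw [← ιC_jq, ← comp_evalJ, hΦmap, ← h0]
    exact eval_prod_X_sub_C_self (xr p) _
  exact helper688.stmt_FormalPrime_of_rel p Φ G T _ hΦmonic hΦd hGmonic hG0 hG hfac hlag
    (helper688.rel_F2_int_of_rel p ℂ (RingHom.injective_int _) Φ hF2C)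

end Roots

end

end Fermat.Agent.S28.helper37
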