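/-
S28 (Igusa), prime level: the ROOT FORMULA of `helper328.Stmt_FormalPrime` is a formal consequence
of the two integral identities
  (F1) `Φ(X, ĵ) = (X - V_p ĵ) * Ψ`   and   (F2) `Φ(ĵ, V_p ĵ) = 0`
in `LaurentSeries ℤ`.  No roots of unity over `ℤ`, no Vandermonde, no base change from `ℤ[ω]`.
Author: helper3808.
-/
import Fermat.Agent.S28.helper328_PrimeSpec

set_option autoImplicit false

namespace Fermat.Agent.S28.helper3808

open Polynomial ModularCurve Fermat.Agent.S28.helper328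

noncomputable section

section twistLemmas

variable {R : Type*} [CommRing R]

theorem twist_qExpand (ζ : Rˣ) (n : ℕ) [NeZero n] (f : LaurentSeries R) :
    twist ζ (qExpand R n f) = qExpand R n (twist (ζ ^ n) f) := by
  ext k
  rw [twist_coeff]
  by_cases hk : (n : ℤ) ∣ k
  · obtain ⟨j, rfl⟩ := hk
    rw [qExpand_coeff_mul, qExpand_coeff_mul, twist_coeff, ← zpow_natCast, ← zpow_mul]
  · rw [qExpand_coeff_of_not_dvd n _ hk, qExpand_coeff_of_not_dvd n _ hk, mul_zero]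

theorem coeffMap_twist_int {k : Type*} [CommRing k] (ζ : kˣ) (f : LaurentSeries k) (n : ℤ) :
    (twist ζ f).coeff n = ((ζ ^ n : kˣ) : k) * f.coeff n := rfl

end twistLemmas

/-- The substitution `f(q) ↦ f(ξ t^m)` from integer Laurent series to Laurent series over `k`. -/
def subst (k : Type*) [CommRing k] (ξ : kˣ) (m : ℕ) [NeZero m] :
    LaurentSeries ℤ →+* LaurentSeries k :=
  (qExpand k m).comp ((twist ξ).comp (coeffMap (Int.castRingHom k)))

theorem subst_apply (k : Type*) [CommRing k] (ξ : kˣ) (m : ℕ) [NeZero m] (f : LaurentSeries ℤ) :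
    subst k ξ m f = qExpand k m (twist ξ (coeffMap (Int.castRingHom k) f)) := rfl

theorem subst_jq (k : Type*) [CommRing k] (ξ : kˣ) (m : ℕ+) :
    subst k ξ (m : ℕ) (jqModC ℤ) = Jsub k ξ m := by
  rw [subst_apply, coeffMap_jqModC, Jsub]

theorem subst_qExpand (k : Type*) [CommRing k] (ξ : kˣ) (m n : ℕ) [NeZero m] [NeZero n]
    [NeZero (m * n)] (f : LaurentSeries ℤ) :
    subst k ξ m (qExpand ℤ n f) = subst k (ξ ^ n) (m * n) f := by
  rw [subst_apply, subst_apply, coeffMap_qExpand, twist_qExpand, qExpand_qExpand]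

theorem evalJ_comp {R S : Type*} [CommRing R] [CommRing S]
    (σ : LaurentSeries R →+* LaurentSeries S) (J : LaurentSeries R) :
    σ.comp (evalJ J) = evalJ (σ J) := by
  refine Polynomial.ringHom_ext' (Subsingleton.elim _ _) ?_
  simp [evalJ]

theorem map_evalJ_map {R S : Type*} [CommRing R] [CommRing S]
    (σ : LaurentSeries R →+* LaurentSeries S) (J : LaurentSeries R)
    (Φ : Polynomial (Polynomial ℤ)) :
    (Φ.map (evalJ J)).map σ = Φ.map (evalJ (σ J)) := by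
  rw [Polynomial.map_map, evalJ_comp]


theorem subst_congr (k : Type*) [CommRing k] (ξ ξ' : kˣ) (m m' : ℕ) [NeZero m] [NeZero m']
    (hξ : ξ = ξ') (hm : m = m') (f : LaurentSeries ℤ) : subst k ξ m f = subst k ξ' m' f := by
  subst hξ; subst hm; rfl

/-- A monic polynomial over a domain with `deg` many distinct roots is the product of the
corresponding linear factors. -/
theorem eq_prod_X_sub_C_of_roots {R : Type*} [CommRing R] [IsDomain R] {ι : Type*}
    (P : Polynomial R) (hP : P.Monic) (s : Finset ι) (r : ι → R)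
    (hinj : Set.InjOn r (s : Set ι)) (hdeg : P.natDegree = s.card)
    (hroot : ∀ i ∈ s, P.eval (r i) = 0) :
    P = ∏ i ∈ s, (X - C (r i)) := by
  classical
  have hQmonic : (∏ i ∈ s, (X - C (r i))).Monic := monic_prod_X_sub_C r s
  have hQdeg : (∏ i ∈ s, (X - C (r i))).natDegree = s.card := by
    rw [natDegree_prod_of_monic _ _ (fun i _ => monic_X_sub_C (r i))]
    simp
  have hdvd : (∏ i ∈ s, (X - C (r i))) ∣ P := by
    have h1 : ((s.val.map r).map fun a => X - C a).prod ∣ P := by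
      rw [Multiset.prod_X_sub_C_dvd_iff_le_roots hP.ne_zero]
      rw [Multiset.le_iff_subset (s.nodup.map_on (fun a ha b hb h => hinj ha hb h))]
      intro a ha
      obtain ⟨i, hi, rfl⟩ := Multiset.mem_map.mp ha
      exact (mem_roots hP.ne_zero).mpr (hroot i hi)
    rwa [Multiset.map_map] at h1
  exact eq_of_monic_of_dvd_of_natDegree_le hQmonic hP hdvd (by rw [hdeg, hQdeg])

/-- **Root formula from (F1) and (F2).** -/
theorem rootFormula_of_F1_F2 (p : ℕ) [hp : Fact p.Prime] [NeZero p]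
    (Φ : Polynomial (Polynomial ℤ)) (Ψ : Polynomial (LaurentSeries ℤ))
    (hΦ : Φ.Monic) (hdeg : Φ.natDegree = p + 1)
    (hF1 : Φ.map (evalJ (jqModC ℤ)) = (X - C (qExpand ℤ p (jqModC ℤ))) * Ψ)
    (hF2 : (Φ.map (evalJ (qExpand ℤ p (jqModC ℤ)))).eval (jqModC ℤ) = 0)
    (k : Type) [Field k] (ω : kˣ) (hω : IsPrimitiveRoot ω p) (ξ : kˣ) (m : ℕ+) :
    Φ.map (evalJ (Jsub k (ξ ^ p) (⟨p, hp.out.pos⟩ * m))) =
      (X - C (Jsub k (ξ ^ (p ^ 2)) (⟨p, hp.out.pos⟩ ^ 2 * m))) *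
        ∏ b ∈ Finset.range p, (X - C (Jsub k (ω ^ b * ξ) m)) := by
  classical
  have hp2 : 2 ≤ p := hp.out.two_le
  -- `Ψ` is monic of degree `p`
  have hΦmap : (Φ.map (evalJ (jqModC ℤ))).Monic := hΦ.map _
  have hΨmonic : Ψ.Monic := by
    rw [hF1] at hΦmap
    exact (monic_X_sub_C _).of_mul_monic_left hΦmap
  have hΨdeg : Ψ.natDegree = p := by
    have h := congrArg natDegree hF1
    rw [hΦ.natDegree_map, hdeg, (monic_X_sub_C _).natDegree_mul hΨmonic, natDegree_X_sub_C] at h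
    omega
  -- (F2') : `Ψ(q ↦ q^p)` kills `ĵ`
  have hF2' : (Ψ.map (qExpand ℤ p)).eval (jqModC ℤ) = 0 := by
    have h1 := congrArg (Polynomial.map (qExpand ℤ p)) hF1
    rw [map_evalJ_map, Polynomial.map_mul, Polynomial.map_sub, map_X, map_C] at h1
    have h2 := congrArg (Polynomial.eval (jqModC ℤ)) h1
    rw [hF2, eval_mul, eval_sub, eval_X, eval_C] at h2
    have hne : jqModC ℤ - qExpand ℤ p (qExpand ℤ p (jqModC ℤ)) ≠ 0 := by
      intro h0
      have h3 := congrArg (fun f : LaurentSeries ℤ => f.coeff (-1)) h0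
      simp only [HahnSeries.coeff_sub, HahnSeries.coeff_zero] at h3
      rw [coeff_jqModC_neg_one, qExpand_coeff_of_not_dvd p _ (k := -1)] at h3
      · norm_num at h3
      · rintro ⟨c, hc⟩
        have : (p : ℤ) ∣ 1 := ⟨-c, by linarith⟩
        have := Int.le_of_dvd one_pos this
        omega
    exact (mul_eq_zero.mp h2.symm).resolve_left hne
  -- notation
  set P : ℕ+ := ⟨p, hp.out.pos⟩ with hPdef
  have hne1 : NeZero ((P * m : ℕ+) : ℕ) := ⟨(P * m).ne_zero⟩
  have hne2 : NeZero ((m : ℕ+) : ℕ) := ⟨m.ne_zero⟩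
  -- apply the substitution `q ↦ ξ^p t^(p m)` to (F1)
  have h3 := congrArg (Polynomial.map (subst k (ξ ^ p) ((P * m : ℕ+) : ℕ))) hF1
  rw [map_evalJ_map, Polynomial.map_mul, Polynomial.map_sub, map_X, map_C, subst_jq] at h3
  have hJp2 : subst k (ξ ^ p) ((P * m : ℕ+) : ℕ) (qExpand ℤ p (jqModC ℤ)) =
      Jsub k (ξ ^ (p ^ 2)) (P ^ 2 * m) := by
    have : NeZero (((P * m : ℕ+) : ℕ) * p) := ⟨Nat.mul_ne_zero (P * m).ne_zero hp.out.ne_zero⟩
    rw [subst_qExpand, ← subst_jq]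
    refine subst_congr k _ _ _ _ ?_ ?_ _
    · rw [← pow_mul, pow_two]
    · simp only [PNat.mul_coe, PNat.pow_coe, hPdef, PNat.mk_coe]
      ring
  rw [hJp2] at h3
  rw [h3]
  congr 1
  -- the cofactor
  refine eq_prod_X_sub_C_of_roots _ (hΨmonic.map _) (Finset.range p)
    (fun b => Jsub k (ω ^ b * ξ) m) ?_ ?_ ?_
  · -- distinct roots
    intro b hb b' hb' hbb'
    have hb := Finset.mem_range.mp hb
    have hb' := Finset.mem_range.mp hb'
    have hc := congrArg (fun f : LaurentSeries k => f.coeff ((m : ℕ) * (-1 : ℤ))) hbb'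
    simp only [Jsub, qExpand_coeff_mul, twist_coeff, coeff_jqModC_neg_one, mul_one] at hc
    have hc' : (ω ^ b * ξ) ^ (-1 : ℤ) = (ω ^ b' * ξ) ^ (-1 : ℤ) := Units.ext hc
    rw [zpow_neg_one, zpow_neg_one, inv_inj] at hc'
    have hc'' : ω ^ b = ω ^ b' := mul_right_cancel hc'
    exact hω.pow_inj hb hb' hc''
  · rw [hΨmonic.natDegree_map, hΨdeg, Finset.card_range]
  · -- each `J(ω^b ξ, m)` is a root
    intro b _
    have h4 := congrArg (subst k (ω ^ b * ξ) (m : ℕ)) hF2'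
    rw [map_zero, ← Polynomial.eval₂_at_apply, Polynomial.eval₂_map, subst_jq] at h4
    rw [Polynomial.eval_map]
    have hcomp : (subst k (ω ^ b * ξ) (m : ℕ)).comp (qExpand ℤ p) =
        subst k (ξ ^ p) ((P * m : ℕ+) : ℕ) := by
      ext1 f
      have : NeZero ((m : ℕ) * p) := ⟨Nat.mul_ne_zero m.ne_zero hp.out.ne_zero⟩
      rw [RingHom.comp_apply, subst_qExpand]
      refine subst_congr k _ _ _ _ ?_ ?_ _
      · rw [mul_pow, ← pow_mul, mul_comm b p, pow_mul, hω.pow_eq_one, one_pow, one_mul]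
      · simp only [PNat.mul_coe, hPdef, PNat.mk_coe]
        ring
    rw [hcomp] at h4
    exact h4


/-- Root-formula-free core of `helper328.Stmt_FormalPrime p`: the same data `Φ, G, T, Ψ`, with the
root formula replaced by the single integral identity (F2) `Φ(ĵ, V_p ĵ) = 0`. -/
def Stmt_FormalPrimeCore (p : ℕ) [hp : Fact p.Prime] : Prop :=
  haveI : NeZero p := ⟨hp.out.ne_zero⟩
  ∃ (Φ G : Polynomial (Polynomial ℤ)) (T : ℕ → Polynomial ℤ) (Ψ : Polynomial (LaurentSeries ℤ)),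
    Φ.Monic ∧ Φ.natDegree = p + 1 ∧ G.Monic ∧
    (G.coeff 0 = C ((p : ℤ) ^ 12) ∨ G.coeff 0 = C (-(p : ℤ) ^ 12)) ∧
    (G.map (evalJ (jqModC ℤ))).eval (gHat p) = 0 ∧
    Φ.map (evalJ (jqModC ℤ)) = (X - C (qExpand ℤ p (jqModC ℤ))) * Ψ ∧
    Ψ.eval (qExpand ℤ p (jqModC ℤ)) * gHat p =
      ∑ i ∈ Finset.range (p + 1), Ψ.coeff i * evalJ (jqModC ℤ) (T i) ∧
    (Φ.map (evalJ (qExpand ℤ p (jqModC ℤ)))).eval (jqModC ℤ) = 0

/-- The core statement implies `helper328.Stmt_FormalPrime p`. -/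
theorem stmt_FormalPrime_of_core (p : ℕ) [hp : Fact p.Prime] (h : Stmt_FormalPrimeCore p) :
    Stmt_FormalPrime p := by
  have : NeZero p := ⟨hp.out.ne_zero⟩
  obtain ⟨Φ, G, T, Ψ, h1, h2, h3, h4, h5, h6, h7, h8⟩ := h
  exact ⟨Φ, G, T, Ψ, h1, h2, h3, h4, h5, h6, h7,
    fun k _ ω hω ξ m => rootFormula_of_F1_F2 p Φ Ψ h1 h2 h6 h8 k ω hω ξ m⟩

end

end Fermat.Agent.S28.helper3808
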