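/-
S28 (Igusa), route P, leaf of P4: the HECKE INPUT in its final integral Laurent form.
Author: helper3931.

With `jhat = jqModC ℤ`, `Dhat = helper328.deltaHat ℤ`, `V_p = qExpand ℤ p` and `U_p = Up ℤ p`
(`(Up R p f).coeff n = f.coeff (p * n)`), for `m ≤ M`, `1 ≤ M`:

* `heckeZ` :
  `(p^(12M-1) * V_p (jhat^m * Dhat^M) + U_p (jhat^m * Dhat^M)) * Dhat⁻¹^M = evalJ jhat P`
  for some `P : ℤ[X]` of degree `≤ M`  (this is `T_p (E4^(3m) Δ^(M-m)) / Δ^M ∈ ℤ[j]`);
* `heckeZ_mixed` :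
  `(V_p jhat)^m * (gHat p)^M + p * U_p (jhat^m * (yHat p)^M) = evalJ jhat P`
  (the mixed power sum `Σ_γ x_γ^m y_γ^M` over the `p + 1` conjugates), same degree bound.

Both come from `helper2627.stmt_Hecke` by triangularity.  By-products: `Up_mul_qExpand`
(projection formula `U_p (f * V_p g) = U_p f * g`), `Up_qExpand`, `jq_mul_deltaHat`,
`deltaHat_mul_inv`, `deltaHat_eq`, `heckeZ_ps` (power series form over `ℤ`).
-/
import Mathlib
import Fermat.Agent.S28.helper328_PrimeSpec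
import Fermat.Agent.S28.helper2627_HeckeInput

set_option autoImplicit false

namespace Fermat.Agent.S28.helper3931

open Polynomial ModularCurve
open Fermat.Agent.S28.helper328

noncomputable section

/-! ### The operator `U_p` on Laurent series -/

/-- `U_p` on Laurent series: the `n`-th coefficient of `Up R p f` is the `p * n`-th of `f`. -/
def Up (R : Type*) [CommRing R] (p : ℕ) [NeZero p] (f : LaurentSeries R) : LaurentSeries R :=
  HahnSeries.ofSuppBddBelow (fun n : ℤ => f.coeff ((p : ℤ) * n)) (by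
    refine ⟨min f.order 0, fun n hn => ?_⟩
    by_contra hlt
    rw [not_le] at hlt
    apply hn
    apply HahnSeries.coeff_eq_zero_of_lt_order
    have h0 : n < 0 := lt_of_lt_of_le hlt (min_le_right _ _)
    have h1 : n < f.order := lt_of_lt_of_le hlt (min_le_left _ _)
    have hp : (1 : ℤ) ≤ (p : ℤ) := by exact_mod_cast Nat.pos_of_ne_zero (NeZero.ne p)
    nlinarith)

@[simp] theorem Up_coeff (R : Type*) [CommRing R] (p : ℕ) [NeZero p] (f : LaurentSeries R)
    (n : ℤ) : (Up R p f).coeff n = f.coeff ((p : ℤ) * n) := rfl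

theorem Up_add (R : Type*) [CommRing R] (p : ℕ) [NeZero p] (f g : LaurentSeries R) :
    Up R p (f + g) = Up R p f + Up R p g := by
  ext n; simp

theorem Up_zero (R : Type*) [CommRing R] (p : ℕ) [NeZero p] : Up R p (0 : LaurentSeries R) = 0 := by
  ext n; simp

theorem Up_qExpand (R : Type*) [CommRing R] (p : ℕ) [NeZero p] (g : LaurentSeries R) :
    Up R p (qExpand R p g) = g := by
  ext n; simp

/-- projection formula `U_p (f * V_p g) = U_p f * g`. -/
theorem Up_mul_qExpand (R : Type*) [CommRing R] (p : ℕ) [NeZero p] (f g : LaurentSeries R) :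
    Up R p (f * qExpand R p g) = Up R p f * g := by
  have hp : (p : ℤ) ≠ 0 := by exact_mod_cast NeZero.ne p
  ext n
  rw [Up_coeff, HahnSeries.coeff_mul, HahnSeries.coeff_mul]
  symm
  refine Finset.sum_bij (fun ij _ => ((p : ℤ) * ij.1, (p : ℤ) * ij.2)) ?_ ?_ ?_ ?_
  · intro ij hij
    rw [Finset.mem_antidiagonal] at hij ⊢
    obtain ⟨h1, h2, h3⟩ := hij
    refine ⟨?_, ?_, ?_⟩
    · simpa using h1
    · simpa [qExpand_coeff_mul] using h2
    · show (p : ℤ) * ij.1 + (p : ℤ) * ij.2 = (p : ℤ) * n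
      rw [← mul_add, h3]
  · intro a _ b _ h
    simp only [Prod.mk.injEq] at h
    exact Prod.ext (mul_left_cancel₀ hp h.1) (mul_left_cancel₀ hp h.2)
  · intro ij hij
    rw [Finset.mem_antidiagonal] at hij
    obtain ⟨h1, h2, h3⟩ := hij
    have hd : (p : ℤ) ∣ ij.2 := by
      by_contra hnd
      exact h2 (qExpand_coeff_of_not_dvd p g hnd)
    obtain ⟨j', hj'⟩ := hd
    have hi : ij.1 = (p : ℤ) * (n - j') := by rw [mul_sub, ← hj', ← h3]; ring
    refine ⟨(n - j', j'), ?_, ?_⟩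
    · rw [Finset.mem_antidiagonal]
      refine ⟨?_, ?_, by simp⟩
      · simp only [HahnSeries.mem_support, Up_coeff, ← hi]
        exact h1
      · rw [hj'] at h2
        simpa [qExpand_coeff_mul] using h2
    · exact Prod.ext hi.symm hj'.symm
  · intro ij _
    simp [qExpand_coeff_mul]

/-! ### Triangularity and the power series form -/

/-- abstract triangularity: a complex combination of integral power series `B b` with
`B b = X^b * (1 + ...)` which has integral coefficients is an integral combination. -/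
theorem int_coeffs_of_triangular (n : ℕ) (B : ℕ → PowerSeries ℤ)
    (hlow : ∀ b i, i < b → PowerSeries.coeff i (B b) = 0)
    (hdiag : ∀ b, PowerSeries.coeff b (B b) = 1)
    (G : PowerSeries ℤ) (c : ℕ → ℂ)
    (h : G.map (Int.castRingHom ℂ) =
      ∑ b ∈ Finset.range n, c b • (B b).map (Int.castRingHom ℂ)) :
    ∀ b, b < n → ∃ z : ℤ, c b = (z : ℂ) := by
  intro b
  induction b using Nat.strong_induction_on with
  | _ b ih =>
    intro hb
    have hcoeff := congrArg (PowerSeries.coeff b) h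
    rw [PowerSeries.coeff_map, map_sum] at hcoeff
    simp only [PowerSeries.coeff_smul, PowerSeries.coeff_map, Int.coe_castRingHom,
      smul_eq_mul] at hcoeff
    have hsub : Finset.range (b + 1) ⊆ Finset.range n :=
      Finset.range_subset_range.mpr (by omega)
    rw [← Finset.sum_subset hsub (fun x hx hx' => by
      have : b < x := by
        simp only [Finset.mem_range, not_lt] at hx hx'
        omega
      rw [hlow x b this]; simp), Finset.sum_range_succ, hdiag b, Int.cast_one, mul_one] at hcoeff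
    choose! z hz using ih
    refine ⟨PowerSeries.coeff b G - ∑ x ∈ Finset.range b, z x * PowerSeries.coeff b (B x), ?_⟩
    push_cast
    rw [hcoeff]
    have : ∑ x ∈ Finset.range b, c x * ((PowerSeries.coeff b (B x) : ℤ) : ℂ) =
        ∑ x ∈ Finset.range b, (z x : ℂ) * ((PowerSeries.coeff b (B x) : ℤ) : ℂ) := by
      refine Finset.sum_congr rfl fun x hx => ?_
      have hx' : x < b := Finset.mem_range.mp hx
      rw [hz x hx' (hx'.trans hb)]
    rw [this]
    ring

/-- the integral basis elements `E4^(3(M-b)) * (X * U)^b` of weight `12 M`. -/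
def Bas (M b : ℕ) : PowerSeries ℤ :=
  eisenstein4 ^ (3 * (M - b)) * (PowerSeries.X * dedekindEtaUnit) ^ b

theorem Bas_eq (M b : ℕ) :
    Bas M b = PowerSeries.X ^ b * (eisenstein4 ^ (3 * (M - b)) * dedekindEtaUnit ^ b) := by
  rw [Bas, mul_pow]; ring

theorem Bas_low (M b i : ℕ) (h : i < b) : PowerSeries.coeff i (Bas M b) = 0 := by
  rw [Bas_eq, PowerSeries.coeff_X_pow_mul', if_neg (by omega)]

theorem Bas_diag (M b : ℕ) : PowerSeries.coeff b (Bas M b) = 1 := by
  rw [Bas_eq, PowerSeries.coeff_X_pow_mul', if_pos le_rfl, Nat.sub_self,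
    PowerSeries.coeff_zero_eq_constantCoeff_apply, map_mul, map_pow, map_pow,
    constantCoeff_eisenstein4, constantCoeff_dedekindEtaUnit, one_pow, one_pow, one_mul]

theorem Bas_map (M b : ℕ) :
    (Bas M b).map (Int.castRingHom ℂ) = E4C ^ (3 * (M - b)) * DeltaC ^ b := by
  rw [Bas, map_mul, map_pow, map_pow]; rfl

/-- the formal Hecke operator `T_p` in weight `k` on integral power series. -/
def TpZ (k p : ℕ) (F : PowerSeries ℤ) : PowerSeries ℤ :=
  PowerSeries.mk fun n =>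
    PowerSeries.coeff (n * p) F + if p ∣ n then (p : ℤ) ^ (k - 1) * PowerSeries.coeff (n / p) F else 0

theorem TpZ_map (k p : ℕ) (F : PowerSeries ℤ) :
    (TpZ k p F).map (Int.castRingHom ℂ) = heckeTps k p (F.map (Int.castRingHom ℂ)) := by
  ext n
  simp only [TpZ, heckeTps, PowerSeries.coeff_map, PowerSeries.coeff_mk, Int.coe_castRingHom]
  split_ifs <;> push_cast <;> rfl


/-- `Stmt_Hecke` over `ℤ`: `T_p (E4^(3m) Δ^(M-m))` is an INTEGRAL combination of the
`E4^(3(M-b)) Δ^b`. -/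
theorem heckeZ_ps (p : ℕ) [Fact p.Prime] (m M : ℕ) (hmM : m ≤ M) (hM : 1 ≤ M) :
    ∃ z : ℕ → ℤ, TpZ (12 * M) p (Bas M (M - m)) = ∑ b ∈ Finset.range (M + 1), z b • Bas M b := by
  obtain ⟨c, hc⟩ := helper2627.stmt_Hecke p m M hmM hM
  have h1 : E4C ^ (3 * m) * DeltaC ^ (M - m) = (Bas M (M - m)).map (Int.castRingHom ℂ) := by
    rw [Bas_map, Nat.sub_sub_self hmM]
  rw [h1, ← TpZ_map] at hc
  have hc' : (TpZ (12 * M) p (Bas M (M - m))).map (Int.castRingHom ℂ) =
      ∑ b ∈ Finset.range (M + 1), c b • (Bas M b).map (Int.castRingHom ℂ) := by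
    rw [hc]
    exact Finset.sum_congr rfl fun b _ => by rw [Bas_map]
  have hz := int_coeffs_of_triangular (M + 1) (Bas M) (Bas_low M) (Bas_diag M) _ c hc'
  choose! z hz using hz
  refine ⟨z, ?_⟩
  have hinj : Function.Injective (PowerSeries.map (Int.castRingHom ℂ)) :=
    PowerSeries.map_injective _ (RingHom.injective_int _)
  apply hinj
  rw [hc', map_sum]
  refine Finset.sum_congr rfl fun b hb => ?_
  rw [hz b (Finset.mem_range.mp hb), map_zsmul, Int.cast_smul_eq_zsmul]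

/-! ### Laurent series side -/

theorem deltaHat_eq (R : Type*) [CommRing R] :
    deltaHat R = HahnSeries.ofPowerSeries ℤ R
      ((PowerSeries.X * dedekindEtaUnit).map (Int.castRingHom R)) := by
  rw [deltaHat, map_mul, map_mul, PowerSeries.map_X, HahnSeries.ofPowerSeries_X]

theorem deltaHat_mul_inv (R : Type*) [CommRing R] : deltaHat R * deltaHatInv R = 1 := by
  rw [deltaHat, deltaHatInv, mul_mul_mul_comm, HahnSeries.single_mul_single, ← map_mul,
    ← map_mul, dedekindEtaUnit_mul_inv]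
  simp

theorem jq_mul_deltaHat (R : Type*) [CommRing R] :
    jqModC R * deltaHat R =
      HahnSeries.ofPowerSeries ℤ R ((eisenstein4 ^ 3).map (Int.castRingHom R)) := by
  rw [jqModC, deltaHat, mul_mul_mul_comm, HahnSeries.single_mul_single, ← map_mul, ← map_mul,
    jNum, mul_assoc, mul_comm dedekindEtaUnitInv dedekindEtaUnit, dedekindEtaUnit_mul_inv,
    mul_one]
  simp

theorem map_castInt (F : PowerSeries ℤ) : F.map (Int.castRingHom ℤ) = F := by
  ext n; simp

theorem ofPS_Bas (M b : ℕ) (hb : b ≤ M) :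
    HahnSeries.ofPowerSeries ℤ ℤ (Bas M b) = jqModC ℤ ^ (M - b) * deltaHat ℤ ^ M := by
  have h1 := jq_mul_deltaHat ℤ
  have h2 := deltaHat_eq ℤ
  rw [map_castInt] at h1 h2
  have e : Bas M b = (eisenstein4 ^ 3) ^ (M - b) * (PowerSeries.X * dedekindEtaUnit) ^ b := by
    rw [Bas, pow_mul]
  rw [e, map_mul, map_pow (HahnSeries.ofPowerSeries ℤ ℤ) (eisenstein4 ^ 3),
    map_pow (HahnSeries.ofPowerSeries ℤ ℤ) (PowerSeries.X * dedekindEtaUnit), ← h1, ← h2,
    mul_pow, mul_assoc, ← pow_add, Nat.sub_add_cancel hb]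

theorem ofPS_Bas_mul_inv (M b : ℕ) (hb : b ≤ M) :
    HahnSeries.ofPowerSeries ℤ ℤ (Bas M b) * deltaHatInv ℤ ^ M = jqModC ℤ ^ (M - b) := by
  rw [ofPS_Bas M b hb, mul_assoc, ← mul_pow, deltaHat_mul_inv, one_pow, mul_one]

theorem ofPS_TpZ (k p : ℕ) [NeZero p] (F : PowerSeries ℤ) :
    HahnSeries.ofPowerSeries ℤ ℤ (TpZ k p F) =
      ((p : ℤ) ^ (k - 1)) • qExpand ℤ p (HahnSeries.ofPowerSeries ℤ ℤ F)
        + Up ℤ p (HahnSeries.ofPowerSeries ℤ ℤ F) := by
  have hp : (0 : ℤ) < (p : ℤ) := by exact_mod_cast Nat.pos_of_ne_zero (NeZero.ne p)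
  ext n
  rw [HahnSeries.coeff_add, HahnSeries.coeff_smul, Up_coeff]
  rcases lt_or_ge n 0 with hn | hn
  · rw [ofPowerSeries_coeff_of_neg _ hn]
    have h1 : (HahnSeries.ofPowerSeries ℤ ℤ F).coeff ((p : ℤ) * n) = 0 :=
      ofPowerSeries_coeff_of_neg _ (mul_neg_of_pos_of_neg hp hn)
    have h2 : (qExpand ℤ p (HahnSeries.ofPowerSeries ℤ ℤ F)).coeff n = 0 := by
      by_cases hd : (p : ℤ) ∣ n
      · obtain ⟨j, rfl⟩ := hd
        rw [qExpand_coeff_mul]
        exact ofPowerSeries_coeff_of_neg _ (by nlinarith)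
      · exact qExpand_coeff_of_not_dvd p _ hd
    rw [h1, h2]; simp
  · obtain ⟨k', rfl⟩ := Int.eq_ofNat_of_zero_le hn
    rw [HahnSeries.ofPowerSeries_apply_coeff, TpZ, PowerSeries.coeff_mk]
    have h1 : (HahnSeries.ofPowerSeries ℤ ℤ F).coeff ((p : ℤ) * (k' : ℤ)) =
        PowerSeries.coeff (k' * p) F := by
      rw [← Nat.cast_mul, HahnSeries.ofPowerSeries_apply_coeff, mul_comm]
    rw [h1]
    by_cases hd : p ∣ k'
    · obtain ⟨j, rfl⟩ := hd
      rw [if_pos (dvd_mul_right _ _), Nat.cast_mul, qExpand_coeff_mul,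
        HahnSeries.ofPowerSeries_apply_coeff,
        Nat.mul_div_cancel_left _ (Nat.pos_of_ne_zero (NeZero.ne p)), smul_eq_mul]
      ring
    · rw [if_neg hd, qExpand_coeff_of_not_dvd p _ (by exact_mod_cast hd)]
      simp

/-- **Hecke input, integral Laurent form** (smul version).
`T_p (E4^(3m) Δ^(M-m)) / Δ^M ∈ ℤ[j]`, of degree `≤ M`. -/
theorem heckeZ_smul (p : ℕ) [Fact p.Prime] [NeZero p] (m M : ℕ) (hmM : m ≤ M) (hM : 1 ≤ M) :
    ∃ P : Polynomial ℤ, P.natDegree ≤ M ∧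
      (((p : ℤ) ^ (12 * M - 1)) • qExpand ℤ p (jqModC ℤ ^ m * deltaHat ℤ ^ M)
        + Up ℤ p (jqModC ℤ ^ m * deltaHat ℤ ^ M)) * deltaHatInv ℤ ^ M
      = evalJ (jqModC ℤ) P := by
  obtain ⟨z, hz⟩ := heckeZ_ps p m M hmM hM
  refine ⟨∑ b ∈ Finset.range (M + 1), C (z b) * X ^ (M - b), ?_, ?_⟩
  · refine Polynomial.natDegree_sum_le_of_forall_le _ _ fun b _ => ?_
    exact (Polynomial.natDegree_C_mul_X_pow_le _ _).trans (Nat.sub_le _ _)
  · have h1 := ofPS_Bas M (M - m) (Nat.sub_le _ _)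
    rw [Nat.sub_sub_self hmM] at h1
    rw [← h1, ← ofPS_TpZ, hz, map_sum, map_sum, Finset.sum_mul]
    refine Finset.sum_congr rfl fun b hb => ?_
    have hb' : b ≤ M := Nat.lt_succ_iff.mp (Finset.mem_range.mp hb)
    rw [map_zsmul, smul_mul_assoc, ofPS_Bas_mul_inv M b hb', map_mul, map_pow, evalJ]
    simp [zsmul_eq_mul]

/-- **Hecke input, integral Laurent form**: for `m ≤ M`, `1 ≤ M`,
`(p^(12M-1) V_p(j^m Δ^M) + U_p(j^m Δ^M)) / Δ^M = P(j)` with `P ∈ ℤ[X]` of degree `≤ M`. -/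
theorem heckeZ (p : ℕ) [Fact p.Prime] [NeZero p] (m M : ℕ) (hmM : m ≤ M) (hM : 1 ≤ M) :
    ∃ P : Polynomial ℤ, P.natDegree ≤ M ∧
      ((p : LaurentSeries ℤ) ^ (12 * M - 1) * qExpand ℤ p (jqModC ℤ ^ m * deltaHat ℤ ^ M)
        + Up ℤ p (jqModC ℤ ^ m * deltaHat ℤ ^ M)) * deltaHatInv ℤ ^ M
      = evalJ (jqModC ℤ) P := by
  obtain ⟨P, hP, h⟩ := heckeZ_smul p m M hmM hM
  refine ⟨P, hP, ?_⟩
  rw [← h, zsmul_eq_mul]
  push_cast
  rfl

/-- `yhat_p = Dhat(q) / Dhat(q^p)`; in the variable `s = q^(1/p)` this is `Dhat(s) / Dhat(s^p)`,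
whose twists `s ↦ ω^b s` are the finite conjugates `y_b` of `ghat_p`. -/
def yHat (p : ℕ) [NeZero p] : LaurentSeries ℤ :=
  deltaHat ℤ * qExpand ℤ p (deltaHatInv ℤ)

/-- **Hecke input, mixed power sum form**: for `m ≤ M`, `1 ≤ M`,
`x_∞^m y_∞^M + p U_p (x^m y^M) = P(j)` with `P ∈ ℤ[X]` of degree `≤ M`, where
`x_∞ = V_p jhat`, `y_∞ = gHat p`, `x = jhat`, `y = yHat p`. -/
theorem heckeZ_mixed (p : ℕ) [Fact p.Prime] [NeZero p] (m M : ℕ) (hmM : m ≤ M) (hM : 1 ≤ M) :
    ∃ P : Polynomial ℤ, P.natDegree ≤ M ∧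
      qExpand ℤ p (jqModC ℤ) ^ m * gHat p ^ M
        + (p : LaurentSeries ℤ) * Up ℤ p (jqModC ℤ ^ m * yHat p ^ M)
      = evalJ (jqModC ℤ) P := by
  obtain ⟨P, hP, h⟩ := heckeZ p m M hmM hM
  refine ⟨C (p : ℤ) * P, (Polynomial.natDegree_C_mul_le _ _).trans hP, ?_⟩
  have h1 : jqModC ℤ ^ m * yHat p ^ M =
      (jqModC ℤ ^ m * deltaHat ℤ ^ M) * qExpand ℤ p (deltaHatInv ℤ ^ M) := by
    rw [yHat, mul_pow, map_pow, mul_assoc]
  have h2 : ((p : LaurentSeries ℤ) ^ 12) ^ M = (p : LaurentSeries ℤ) * (p : LaurentSeries ℤ) ^ (12 * M - 1) := by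
    rw [← pow_mul, ← pow_succ']
    congr 1
    omega
  have h3 : evalJ (jqModC ℤ) (C (p : ℤ)) = (p : LaurentSeries ℤ) := by
    simp [evalJ]
  rw [h1, Up_mul_qExpand, map_mul, ← h, h3, gHat, mul_pow, mul_pow, h2, ← map_pow, ← map_pow,
    map_mul]
  ring

end

end Fermat.Agent.S28.helper3931
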