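/-
S28, Route E, light route (helper407): the FUNCTION-LEVEL coset package for eta quotients.

`conjFam N r x τ = etaQuot N r (g⁻¹ • τ)` for `x = g Γ₀(N)`: the family of conjugates of an eta
quotient indexed by `SL(2,ℤ) ⧸ Γ₀(N)`; it is permuted by `SL(2,ℤ)`, holomorphic, of exponential
growth; for helper388's exponents the conjugates at the non-identity cosets tend to `0` at `i∞`,
so the non-leading coefficients of `∏_{x ≠ x₀} (Y - u_x)` tend to `0`, are holomorphic and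
`1`-periodic; and the leading coefficient of any polynomial in `j` representing the norm
`∏_x u_x` has absolute value `a / b` with `a, b` supported on the primes of `N`.
-/
import Fermat.Agent.S28.helper407_EtaAsymp
import Fermat.Agent.S24.helper167_SymmetricJ
import Fermat.Agent.Lib.helper843_JPolynomial

set_option autoImplicit false

open ModularForm EisensteinSeries MatrixGroups CongruenceSubgroup Filter Complex
open UpperHalfPlane hiding I
open scoped Manifold Topology Real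

noncomputable section

namespace Fermat.Agent.S28.helper407

local notation "Δ" => ModularForm.discriminant

/-! ### Holomorphy and growth of a single conjugate -/

theorem mdifferentiable_etaQuot_smul (N : ℕ) (r : ℕ → ℤ) (hr : ∑ δ ∈ N.divisors, r δ = 0)
    (g : SL(2, ℤ)) : MDiff (fun τ : ℍ => etaQuot N r (g • τ)) := by
  obtain ⟨a, b, d, habd, hU⟩ := etaQuot_smul N r hr g
  have hpos : ∀ δ ∈ N.divisors, 0 < a δ ∧ 0 < d δ := by
    intro δ hδ
    obtain ⟨-, h2, h3⟩ := habd δ hδ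
    have hδ0 := Nat.pos_of_mem_divisors hδ
    refine ⟨?_, by omega⟩
    rcases Nat.eq_zero_or_pos (a δ) with h | h
    · rw [h, Nat.zero_mul] at h2; omega
    · exact h
  have h : MDiff (fun τ : ℍ => ∏ δ ∈ N.divisors,
      (((d δ : ℂ) ^ 12)⁻¹ * Δ (pt (a δ) (b δ) (d δ) τ)) ^ r δ) := by
    refine mdifferentiable_finset_prod _ fun δ hδ => ?_
    refine mdifferentiable_zpow ?_ (fun τ => ?_) _
    · exact (mdifferentiable_const).mul
        (mdifferentiable_discriminant_pt (hpos δ hδ).1 (hpos δ hδ).2 (b δ))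
    · refine mul_ne_zero (inv_ne_zero (pow_ne_zero _ ?_)) (discriminant_ne_zero _)
      exact_mod_cast (hpos δ hδ).2.ne'
  exact (funext hU) ▸ h

theorem norm_cexp_neg_rat (E : ℚ) (τ : ℍ) :
    ‖cexp (-(2 * π * I * ((E : ℚ) : ℂ) * τ))‖ = Real.exp (2 * π * (E : ℝ) * τ.im) := by
  rw [Complex.norm_exp]
  congr 1
  have : (-(2 * π * I * ((E : ℚ) : ℂ) * (τ : ℂ))) = (((2 * π * (E : ℝ) : ℝ)) : ℂ) * (-(I * (τ : ℂ))) := by
    push_cast; ring
  rw [this, Complex.re_ofReal_mul]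
  simp

theorem hasExpGrowth_etaQuot_smul (N : ℕ) (r : ℕ → ℤ) (hr : ∑ δ ∈ N.divisors, r δ = 0)
    (g : SL(2, ℤ)) :
    Fermat.Agent.S24.helper167.HasExpGrowth (fun τ : ℍ => etaQuot N r (g • τ)) := by
  obtain ⟨C, -, -, hC⟩ := etaQuot_smul_tendsto N r hr g
  set E : ℚ := cuspExp N r (g 1 0).natAbs with hE
  obtain ⟨m, hm⟩ := exists_nat_ge (-E)
  -- eventually bounded
  have hev : ∀ᶠ τ : ℍ in atImInfty, ‖etaQuot N r (g • τ) *
      cexp (-(2 * π * I * ((E : ℚ) : ℂ) * τ))‖ < ‖C‖ + 1 :=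
    (hC.norm).eventually (gt_mem_nhds (lt_add_one ‖C‖))
  obtain ⟨A, hA⟩ := (UpperHalfPlane.atImInfty_mem _).mp hev
  refine ⟨m, ‖C‖ + 1, A, fun τ hτ => ?_⟩
  have h1 := hA τ hτ
  change ‖etaQuot N r (g • τ) * cexp (-(2 * π * I * ((E : ℚ) : ℂ) * τ))‖ < ‖C‖ + 1 at h1
  rw [norm_mul, norm_cexp_neg_rat] at h1
  have hexp_pos : 0 < Real.exp (2 * π * (E : ℝ) * τ.im) := Real.exp_pos _
  have h2 : ‖etaQuot N r (g • τ)‖ < (‖C‖ + 1) * Real.exp (-(2 * π * (E : ℝ) * τ.im)) := by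
    rw [Real.exp_neg, ← div_eq_mul_inv, lt_div_iff₀ hexp_pos]
    exact h1
  refine h2.le.trans ?_
  have hC1 : 0 ≤ ‖C‖ + 1 := by positivity
  refine mul_le_mul_of_nonneg_left (Real.exp_le_exp.mpr ?_) hC1
  have hmE : -(E : ℝ) ≤ (m : ℝ) := by exact_mod_cast hm
  have him := τ.im_pos
  have hπ := Real.pi_pos
  have : -(2 * π * (E : ℝ) * τ.im) = (2 * π * τ.im) * (-(E : ℝ)) := by ring
  rw [this]
  have : 2 * π * (m : ℝ) * τ.im = (2 * π * τ.im) * (m : ℝ) := by ring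
  rw [this]
  exact mul_le_mul_of_nonneg_left hmE (by positivity)

/-! ### The family of conjugates indexed by `SL(2,ℤ) ⧸ Γ₀(N)` -/

/-- The conjugates of an eta quotient: `conjFam N r (g Γ₀(N)) τ = etaQuot N r (g⁻¹ τ)`. -/
def conjFam (N : ℕ) (r : ℕ → ℤ) (x : SL(2, ℤ) ⧸ Gamma0 N) (τ : ℍ) : ℂ :=
  etaQuot N r ((Quotient.out x)⁻¹ • τ)

theorem conjFam_mk (N : ℕ) (r : ℕ → ℤ) (hr : ∑ δ ∈ N.divisors, r δ = 0) (g : SL(2, ℤ)) (τ : ℍ) :
    conjFam N r (QuotientGroup.mk g) τ = etaQuot N r (g⁻¹ • τ) := by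
  unfold conjFam
  set g' : SL(2, ℤ) := Quotient.out (QuotientGroup.mk g : SL(2, ℤ) ⧸ Gamma0 N) with hg'
  have hmk : (QuotientGroup.mk g' : SL(2, ℤ) ⧸ Gamma0 N) = QuotientGroup.mk g :=
    Quotient.out_eq _
  have hmem : g'⁻¹ * g ∈ Gamma0 N := QuotientGroup.eq.mp hmk
  have heq : g'⁻¹ • τ = (g'⁻¹ * g) • (g⁻¹ • τ) := by
    rw [← mul_smul, mul_assoc, mul_inv_cancel, mul_one]
  rw [heq, etaQuot_smul_of_mem_Gamma0 N r hr hmem]

theorem conjFam_one (N : ℕ) (r : ℕ → ℤ) (hr : ∑ δ ∈ N.divisors, r δ = 0) (τ : ℍ) :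
    conjFam N r (QuotientGroup.mk 1) τ = etaQuot N r τ := by
  rw [conjFam_mk N r hr, inv_one, one_smul]

/-- `SL(2,ℤ)` permutes the conjugates. -/
theorem conjFam_smul (N : ℕ) (r : ℕ → ℤ) (hr : ∑ δ ∈ N.divisors, r δ = 0) (g : SL(2, ℤ))
    (x : SL(2, ℤ) ⧸ Gamma0 N) (τ : ℍ) :
    conjFam N r x (g • τ) = conjFam N r (g⁻¹ • x) τ := by
  induction x using QuotientGroup.induction_on with
  | H h =>
    rw [MulAction.Quotient.smul_mk, conjFam_mk N r hr, conjFam_mk N r hr, smul_eq_mul, mul_inv_rev,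
      inv_inv, mul_smul]

/-- The permutation hypothesis of `S24.helper167.exists_monic_relation`. -/
theorem conjFam_perm (N : ℕ) (r : ℕ → ℤ) (hr : ∑ δ ∈ N.divisors, r δ = 0) (g : SL(2, ℤ)) :
    ∃ s : Equiv.Perm (SL(2, ℤ) ⧸ Gamma0 N), ∀ (x : SL(2, ℤ) ⧸ Gamma0 N) (τ : ℍ),
      conjFam N r x (g • τ) = conjFam N r (s x) τ :=
  ⟨MulAction.toPerm g⁻¹, fun x τ => conjFam_smul N r hr g x τ⟩

theorem mdifferentiable_conjFam (N : ℕ) (r : ℕ → ℤ) (hr : ∑ δ ∈ N.divisors, r δ = 0)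
    (x : SL(2, ℤ) ⧸ Gamma0 N) : MDiff (conjFam N r x) :=
  mdifferentiable_etaQuot_smul N r hr _

theorem hasExpGrowth_conjFam (N : ℕ) (r : ℕ → ℤ) (hr : ∑ δ ∈ N.divisors, r δ = 0)
    (x : SL(2, ℤ) ⧸ Gamma0 N) : Fermat.Agent.S24.helper167.HasExpGrowth (conjFam N r x) :=
  hasExpGrowth_etaQuot_smul N r hr _

theorem conjFam_ne_zero (N : ℕ) (r : ℕ → ℤ) (x : SL(2, ℤ) ⧸ Gamma0 N) (τ : ℍ) :
    conjFam N r x τ ≠ 0 := etaQuot_ne_zero N r _

/-- For helper388's exponents, the conjugates at the non-identity cosets tend to `0` at `i∞`. -/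
theorem conjFam_etaExp_tendsto_zero {N : ℕ} (hN : N ≠ 0) {x : SL(2, ℤ) ⧸ Gamma0 N}
    (hx : x ≠ QuotientGroup.mk 1) :
    Tendsto (conjFam N (Fermat.Agent.S28.helper388.etaExp N) x) atImInfty (𝓝 0) := by
  have hg : (Quotient.out x)⁻¹ ∉ Gamma0 N := by
    intro h
    apply hx
    have h' : (Quotient.out x) ∈ Gamma0 N := by simpa using (Gamma0 N).inv_mem h
    have : (QuotientGroup.mk (Quotient.out x) : SL(2, ℤ) ⧸ Gamma0 N) = QuotientGroup.mk 1 := by
      rw [QuotientGroup.eq]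
      simpa using (Gamma0 N).inv_mem h'
    rw [← this]
    exact (Quotient.out_eq x).symm
  exact etaQuot_etaExp_smul_tendsto_zero hN hg

/-! ### The cofactor `∏_{x ≠ x₀} (Y - u_x)` -/

/-- If all `a x` tend to `0`, the coefficients of `∏_{x ∈ s} (Y - a x)` tend to those of
`Y ^ card s`. -/
theorem tendsto_coeff_prod_X_sub_C {ι X : Type*} (l : Filter ι) (a : X → ι → ℂ) (s : Finset X)
    (h : ∀ x ∈ s, Tendsto (a x) l (𝓝 0)) :
    ∀ k : ℕ, Tendsto (fun t => (∏ x ∈ s, (Polynomial.X - Polynomial.C (a x t))).coeff k) l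
      (𝓝 ((Polynomial.X ^ s.card : Polynomial ℂ).coeff k)) := by
  classical
  induction s using Finset.induction_on with
  | empty =>
    intro k
    simp only [Finset.prod_empty, Finset.card_empty, pow_zero]
    exact tendsto_const_nhds
  | insert b s hb ih =>
    intro k
    have ih' := ih fun x hx => h x (Finset.mem_insert_of_mem hx)
    have hb' := h b (Finset.mem_insert_self b s)
    simp only [Finset.prod_insert hb, Finset.card_insert_of_notMem hb]
    rcases k with _ | k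
    · have hfun : (fun t => ((Polynomial.X - Polynomial.C (a b t)) *
          ∏ x ∈ s, (Polynomial.X - Polynomial.C (a x t))).coeff 0)
          = fun t => -(a b t) * (∏ x ∈ s, (Polynomial.X - Polynomial.C (a x t))).coeff 0 := by
        funext t
        rw [Polynomial.mul_coeff_zero]
        simp
      rw [hfun]
      have := (hb'.neg).mul (ih' 0)
      simpa [Polynomial.coeff_X_pow] using this
    · have hfun : (fun t => ((Polynomial.X - Polynomial.C (a b t)) *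
          ∏ x ∈ s, (Polynomial.X - Polynomial.C (a x t))).coeff (k + 1))
          = fun t => (∏ x ∈ s, (Polynomial.X - Polynomial.C (a x t))).coeff k
            - (∏ x ∈ s, (Polynomial.X - Polynomial.C (a x t))).coeff (k + 1) * a b t := by
        funext t
        rw [mul_comm, Polynomial.coeff_mul_X_sub_C]
      rw [hfun]
      have := (ih' k).sub ((ih' (k + 1)).mul hb')
      simpa [Polynomial.coeff_X_pow] using this

section Rest

variable (N : ℕ) [Fintype (SL(2, ℤ) ⧸ Gamma0 N)] [DecidableEq (SL(2, ℤ) ⧸ Gamma0 N)]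

/-- The cofactor `∏_{x ≠ x₀} (Y - u_x(τ))`, `x₀` the identity coset. -/
def restPoly (r : ℕ → ℤ) (τ : ℍ) : Polynomial ℂ :=
  ∏ x ∈ (Finset.univ.erase (QuotientGroup.mk 1 : SL(2, ℤ) ⧸ Gamma0 N)),
    (Polynomial.X - Polynomial.C (conjFam N r x τ))

theorem prod_conjFam_eq (r : ℕ → ℤ) (hr : ∑ δ ∈ N.divisors, r δ = 0) (τ : ℍ) :
    ∏ x : SL(2, ℤ) ⧸ Gamma0 N, (Polynomial.X - Polynomial.C (conjFam N r x τ)) =
      (Polynomial.X - Polynomial.C (etaQuot N r τ)) * restPoly N r τ := by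
  rw [restPoly, ← conjFam_one N r hr τ]
  exact (Finset.mul_prod_erase Finset.univ
    (fun x => (Polynomial.X - Polynomial.C (conjFam N r x τ))) (Finset.mem_univ _)).symm

theorem restPoly_monic (r : ℕ → ℤ) (τ : ℍ) : (restPoly N r τ).Monic :=
  Polynomial.monic_prod_of_monic _ _ fun x _ => Polynomial.monic_X_sub_C _

theorem restPoly_natDegree (r : ℕ → ℤ) (τ : ℍ) :
    (restPoly N r τ).natDegree = Fintype.card (SL(2, ℤ) ⧸ Gamma0 N) - 1 := by
  rw [restPoly, Polynomial.natDegree_prod_of_monic _ _ fun x _ => Polynomial.monic_X_sub_C _]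
  simp [Finset.card_erase_of_mem]

theorem mdifferentiable_restPoly_coeff (r : ℕ → ℤ) (hr : ∑ δ ∈ N.divisors, r δ = 0) (k : ℕ) :
    MDiff (fun τ : ℍ => (restPoly N r τ).coeff k) :=
  Fermat.Agent.S24.helper167.mdiff_coeff_prod_X_sub_C (conjFam N r)
    (mdifferentiable_conjFam N r hr) _ k

/-- The cofactor is invariant under `τ ↦ τ + 1`. -/
theorem restPoly_vadd_one (r : ℕ → ℤ) (hr : ∑ δ ∈ N.divisors, r δ = 0) (τ : ℍ) :
    restPoly N r ((1 : ℝ) +ᵥ τ) = restPoly N r τ := by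
  have hT : ModularGroup.T ∈ Gamma0 N := by
    rw [Gamma0_mem]; simp [ModularGroup.T]
  have hfix : (ModularGroup.T⁻¹ : SL(2, ℤ)) • (QuotientGroup.mk 1 : SL(2, ℤ) ⧸ Gamma0 N) =
      QuotientGroup.mk 1 := by
    rw [MulAction.Quotient.smul_mk, smul_eq_mul, mul_one, QuotientGroup.eq]
    simpa using hT
  rw [← UpperHalfPlane.modular_T_smul, restPoly, restPoly]
  simp only [conjFam_smul N r hr]
  refine Finset.prod_equiv (MulAction.toPerm (ModularGroup.T⁻¹ : SL(2, ℤ))) (fun x => ?_)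
    (fun x _ => rfl)
  simp only [Finset.mem_erase, Finset.mem_univ, and_true, MulAction.toPerm_apply]
  constructor
  · intro hx h
    apply hx
    rw [← hfix] at h
    exact smul_left_cancel _ h
  · intro hx h
    apply hx
    rw [h, hfix]

/-- For helper388's exponents the non-leading coefficients of the cofactor tend to `0` at `i∞`
(and the leading one is `1`). -/
theorem restPoly_etaExp_coeff_tendsto (hN : N ≠ 0) (k : ℕ) :
    Tendsto (fun τ : ℍ => (restPoly N (Fermat.Agent.S28.helper388.etaExp N) τ).coeff k) atImInfty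
      (𝓝 ((Polynomial.X ^ (Fintype.card (SL(2, ℤ) ⧸ Gamma0 N) - 1) : Polynomial ℂ).coeff k)) := by
  have h := tendsto_coeff_prod_X_sub_C atImInfty
    (fun x τ => conjFam N (Fermat.Agent.S28.helper388.etaExp N) x τ)
    (Finset.univ.erase (QuotientGroup.mk 1 : SL(2, ℤ) ⧸ Gamma0 N))
    (fun x hx => conjFam_etaExp_tendsto_zero hN (Finset.ne_of_mem_erase hx)) k
  have hcard : (Finset.univ.erase (QuotientGroup.mk 1 : SL(2, ℤ) ⧸ Gamma0 N)).card =
      Fintype.card (SL(2, ℤ) ⧸ Gamma0 N) - 1 := by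
    simp [Finset.card_erase_of_mem]
  rw [hcard] at h
  exact h

end Rest

/-! ### The norm `∏_x u_x` -/

/-- `j(τ) e^{2πiτ} → 1` at `i∞`. -/
theorem tendsto_jInv_mul_exp :
    Tendsto (fun τ : ℍ => E₄ τ ^ 3 / Δ τ * cexp (2 * π * I * τ)) atImInfty (𝓝 1) := by
  have h1 : Tendsto (fun τ : ℍ => E₄ τ ^ 3) atImInfty (𝓝 (1 ^ 3)) :=
    Fermat.Agent.Lib.helper843.tendsto_E₄.pow 3
  have h2 := h1.div tendsto_discriminant_div_exp (one_ne_zero (α := ℂ))
  rw [one_pow, div_one] at h2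
  refine h2.congr fun τ => ?_
  have he : cexp (2 * π * I * τ) ≠ 0 := Complex.exp_ne_zero _
  have hΔ : Δ τ ≠ 0 := discriminant_ne_zero τ
  simp only [Pi.div_apply]
  field_simp

/-- For a polynomial `P` of degree `k`, `P(j(τ)) e^{2πikτ} → leadingCoeff P` at `i∞`. -/
theorem tendsto_eval_jInv_mul_exp (P : Polynomial ℂ) :
    Tendsto (fun τ : ℍ => P.eval (E₄ τ ^ 3 / Δ τ) *
      cexp (2 * π * I * τ) ^ P.natDegree) atImInfty (𝓝 P.leadingCoeff) := by
  have hq : Tendsto (fun τ : ℍ => cexp (2 * π * I * τ)) atImInfty (𝓝 0) := by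
    have := tendsto_cexp_mul_atImInfty (E := 1) one_pos
    simpa using this
  have hterm : ∀ i ∈ Finset.range (P.natDegree + 1),
      Tendsto (fun τ : ℍ => P.coeff i * (E₄ τ ^ 3 / Δ τ * cexp (2 * π * I * τ)) ^ i *
        cexp (2 * π * I * τ) ^ (P.natDegree - i)) atImInfty
        (𝓝 (P.coeff i * 1 ^ i * 0 ^ (P.natDegree - i))) := fun i _ =>
    ((tendsto_jInv_mul_exp.pow i).const_mul (P.coeff i)).mul (hq.pow (P.natDegree - i))
  have hsum := tendsto_finsetSum _ hterm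
  have hval : ∑ i ∈ Finset.range (P.natDegree + 1), P.coeff i * 1 ^ i * 0 ^ (P.natDegree - i) =
      P.leadingCoeff := by
    rw [Finset.sum_eq_single P.natDegree]
    · rw [one_pow, mul_one, Nat.sub_self, pow_zero, mul_one]
      rfl
    · intro i hi hne
      have hne0 : P.natDegree - i ≠ 0 := by
        have := Finset.mem_range.mp hi
        omega
      rw [zero_pow hne0, mul_zero]
    · intro h
      exact absurd (Finset.mem_range.mpr (Nat.lt_succ_self _)) h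
  rw [hval] at hsum
  refine hsum.congr fun τ => ?_
  rw [Polynomial.eval_eq_sum_range, Finset.sum_mul]
  refine Finset.sum_congr rfl fun i hi => ?_
  have hi' : i ≤ P.natDegree := Nat.lt_succ_iff.mp (Finset.mem_range.mp hi)
  generalize cexp (2 * π * I * τ) = q
  have hpow : q ^ P.natDegree = q ^ i * q ^ (P.natDegree - i) := by
    rw [← pow_add, Nat.add_sub_cancel' hi']
  rw [hpow, mul_pow]
  ring

section Norm

variable (N : ℕ) [Fintype (SL(2, ℤ) ⧸ Gamma0 N)]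

/-- Asymptotics of the norm `∏_x u_x`. -/
theorem prod_conjFam_tendsto (r : ℕ → ℤ) (hr : ∑ δ ∈ N.divisors, r δ = 0) :
    ∃ (C : ℂ) (a b : ℕ) (S : ℚ), C ≠ 0 ∧ 0 < a ∧ 0 < b ∧
      (∀ p : ℕ, p.Prime → p ∣ a * b → p ∣ N) ∧ ‖C‖ * (b : ℝ) = (a : ℝ) ∧
      Tendsto (fun τ : ℍ => (∏ x : SL(2, ℤ) ⧸ Gamma0 N, conjFam N r x τ) *
        cexp (-(2 * π * I * ((S : ℚ) : ℂ) * τ))) atImInfty (𝓝 C) := by
  classical
  choose C A B hC0 hA hB hp hnorm hlim using
    fun x : SL(2, ℤ) ⧸ Gamma0 N => etaQuot_smul_tendsto' N r hr (Quotient.out x)⁻¹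
  refine ⟨∏ x, C x, ∏ x, A x, ∏ x, B x,
    ∑ x : SL(2, ℤ) ⧸ Gamma0 N, cuspExp N r (((Quotient.out x)⁻¹ : SL(2, ℤ)) 1 0).natAbs,
    Finset.prod_ne_zero_iff.mpr fun x _ => hC0 x, Finset.prod_pos fun x _ => hA x,
    Finset.prod_pos fun x _ => hB x, ?_, ?_, ?_⟩
  · intro p hpp hdvd
    rcases (Nat.Prime.dvd_mul hpp).mp hdvd with h | h
    · obtain ⟨x, -, hx⟩ := (Prime.dvd_finsetProd_iff hpp.prime _).mp h
      exact hp x p hpp (Dvd.dvd.mul_right hx _)
    · obtain ⟨x, -, hx⟩ := (Prime.dvd_finsetProd_iff hpp.prime _).mp h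
      exact hp x p hpp (Dvd.dvd.mul_left hx _)
  · rw [norm_prod]
    push_cast
    rw [← Finset.prod_mul_distrib]
    refine Finset.prod_congr rfl fun x _ => ?_
    rw [hnorm x]
    have : (B x : ℝ) ≠ 0 := by exact_mod_cast (hB x).ne'
    field_simp
  · have h := tendsto_finsetProd Finset.univ fun x _ => hlim x
    refine h.congr fun τ => ?_
    rw [Finset.prod_mul_distrib, ← Complex.exp_sum]
    congr 2
    push_cast
    rw [Finset.mul_sum, Finset.sum_mul, Finset.sum_neg_distrib]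

/-- **The norm constant (L2, function level)**: if a polynomial `P` in `j = E₄³/Δ` represents
`ε ∏_x u_x` (`‖ε‖ = 1`), then `‖leadingCoeff P‖ = a / b` with `a, b` positive integers all of
whose prime factors divide `N`. -/
theorem norm_leadingCoeff_of_eval_eq_prod_conjFam (r : ℕ → ℤ) (hr : ∑ δ ∈ N.divisors, r δ = 0)
    (P : Polynomial ℂ) (ε : ℂ) (hε : ‖ε‖ = 1)
    (hP : ∀ τ : ℍ, P.eval (E₄ τ ^ 3 / Δ τ) =
      ε * ∏ x : SL(2, ℤ) ⧸ Gamma0 N, conjFam N r x τ) :
    ∃ a b : ℕ, 0 < a ∧ 0 < b ∧ (∀ p : ℕ, p.Prime → p ∣ a * b → p ∣ N) ∧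
      ‖P.leadingCoeff‖ * (b : ℝ) = (a : ℝ) := by
  obtain ⟨C, a, b, S, hC0, ha, hb, hp, hnorm, hlim⟩ := prod_conjFam_tendsto N r hr
  refine ⟨a, b, ha, hb, hp, ?_⟩
  -- `P ≠ 0`
  have hε0 : ε ≠ 0 := by
    intro h; rw [h, norm_zero] at hε; exact zero_ne_one hε
  have hP0 : P ≠ 0 := by
    intro h
    have := hP UpperHalfPlane.I
    rw [h, Polynomial.eval_zero] at this
    exact mul_ne_zero hε0 (Finset.prod_ne_zero_iff.mpr fun x _ => conjFam_ne_zero N r x _)
      this.symm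
  have hlc : ‖P.leadingCoeff‖ ≠ 0 := norm_ne_zero_iff.mpr (Polynomial.leadingCoeff_ne_zero.mpr hP0)
  have hCn : ‖C‖ ≠ 0 := norm_ne_zero_iff.mpr hC0
  set k := P.natDegree with hk
  set c : ℝ := (k : ℝ) + (S : ℝ) with hc
  -- the two limits in norm
  have h1 : Tendsto (fun τ : ℍ => ‖P.eval (E₄ τ ^ 3 / Δ τ) *
      cexp (2 * π * I * τ) ^ k‖) atImInfty (𝓝 ‖P.leadingCoeff‖) :=
    (tendsto_eval_jInv_mul_exp P).norm
  have h2 : Tendsto (fun τ : ℍ => ‖(∏ x : SL(2, ℤ) ⧸ Gamma0 N, conjFam N r x τ) *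
      cexp (-(2 * π * I * ((S : ℚ) : ℂ) * τ))‖) atImInfty (𝓝 ‖C‖) := hlim.norm
  -- norms of exponentials
  have hq : ∀ τ : ℍ, ‖cexp (2 * π * I * τ) ^ k‖ = Real.exp (-(2 * π * (k : ℝ) * τ.im)) := by
    intro τ
    rw [norm_pow, Complex.norm_exp, ← Real.exp_nat_mul]
    congr 1
    have : (2 * π * I * (τ : ℂ)) = ((2 * π : ℝ) : ℂ) * (I * (τ : ℂ)) := by push_cast; ring
    rw [this, Complex.re_ofReal_mul]
    simp
    ring
  -- key identity between the two normed functions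
  have hkey : ∀ τ : ℍ, ‖P.eval (E₄ τ ^ 3 / Δ τ) * cexp (2 * π * I * τ) ^ k‖ =
      ‖(∏ x : SL(2, ℤ) ⧸ Gamma0 N, conjFam N r x τ) * cexp (-(2 * π * I * ((S : ℚ) : ℂ) * τ))‖ *
        Real.exp (-(2 * π * c * τ.im)) := by
    intro τ
    rw [hP τ, norm_mul, norm_mul, hε, one_mul, hq, norm_mul, norm_cexp_neg_rat]
    have hexp : Real.exp (2 * π * (S : ℝ) * τ.im) * Real.exp (-(2 * π * c * τ.im)) =
        Real.exp (-(2 * π * (k : ℝ) * τ.im)) := by
      rw [← Real.exp_add]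
      congr 1
      rw [hc]; ring
    rw [← hexp]
    ring
  rcases lt_trichotomy c 0 with hneg | hzero | hpos
  · -- `c < 0`: the inverse ratio tends to 0, contradiction
    exfalso
    have h3 : Tendsto (fun τ : ℍ => Real.exp (-(2 * π * (-c)) * τ.im)) atImInfty (𝓝 0) := by
      have h1' : Tendsto (fun τ : ℍ => (2 * π * (-c)) * τ.im) atImInfty atTop :=
        Tendsto.const_mul_atTop (by have := Real.pi_pos; nlinarith) tendsto_comap
      have := Real.tendsto_exp_neg_atTop_nhds_zero.comp h1'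
      refine this.congr fun τ => ?_
      simp [neg_mul]
    have h4 := (h1.mul h3)
    rw [mul_zero] at h4
    have h5 : ∀ τ : ℍ, ‖P.eval (E₄ τ ^ 3 / Δ τ) * cexp (2 * π * I * τ) ^ k‖ *
        Real.exp (-(2 * π * (-c)) * τ.im) =
        ‖(∏ x : SL(2, ℤ) ⧸ Gamma0 N, conjFam N r x τ) *
          cexp (-(2 * π * I * ((S : ℚ) : ℂ) * τ))‖ := by
      intro τ
      rw [hkey τ, mul_assoc, ← Real.exp_add]
      have : -(2 * π * c * τ.im) + -(2 * π * -c) * τ.im = 0 := by ring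
      rw [this, Real.exp_zero, mul_one]
    have h6 := tendsto_nhds_unique (h4.congr h5) h2
    exact hCn h6.symm
  · -- `c = 0`
    have h5 : ∀ τ : ℍ, ‖P.eval (E₄ τ ^ 3 / Δ τ) * cexp (2 * π * I * τ) ^ k‖ =
        ‖(∏ x : SL(2, ℤ) ⧸ Gamma0 N, conjFam N r x τ) *
          cexp (-(2 * π * I * ((S : ℚ) : ℂ) * τ))‖ := by
      intro τ
      rw [hkey τ, hzero]
      simp
    have h6 := tendsto_nhds_unique (h1.congr h5) h2
    rw [h6]
    exact hnorm
  · -- `c > 0`: the ratio tends to 0, contradiction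
    exfalso
    have h3 : Tendsto (fun τ : ℍ => Real.exp (-(2 * π * c * τ.im))) atImInfty (𝓝 0) := by
      have h1' : Tendsto (fun τ : ℍ => (2 * π * c) * τ.im) atImInfty atTop :=
        Tendsto.const_mul_atTop (by have := Real.pi_pos; positivity) tendsto_comap
      exact Real.tendsto_exp_neg_atTop_nhds_zero.comp h1'
    have h4 := h2.mul h3
    rw [mul_zero] at h4
    have h6 := tendsto_nhds_unique (h4.congr fun τ => (hkey τ).symm) h1
    exact hlc h6.symm

end Norm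

/-! ### Function-level package: `χ`, its factorisation, and the norm constant -/

/-- **Function-level (L1)+(L2)**: there is a monic `χ ∈ ℂ[j][Y]` of degree `[SL(2,ℤ) : Γ₀(N)]`
whose specialisation at `j(τ)` is `(Y - u(τ)) * restPoly(τ)` for every `τ`, and the leading
coefficient of its constant term `χ(j, 0)` has absolute value `a / b` with `a, b` positive
integers all of whose prime factors divide `N`. -/
theorem exists_chi_etaQuot (N : ℕ) [Fintype (SL(2, ℤ) ⧸ Gamma0 N)]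
    [DecidableEq (SL(2, ℤ) ⧸ Gamma0 N)] (r : ℕ → ℤ) (hr : ∑ δ ∈ N.divisors, r δ = 0) :
    ∃ χ : Polynomial (Polynomial ℂ), χ.Monic ∧
      χ.natDegree = Fintype.card (SL(2, ℤ) ⧸ Gamma0 N) ∧
      (∀ τ : ℍ, χ.map (Polynomial.evalRingHom (E₄ τ ^ 3 / Δ τ)) =
        (Polynomial.X - Polynomial.C (etaQuot N r τ)) * restPoly N r τ) ∧
      ∃ a b : ℕ, 0 < a ∧ 0 < b ∧ (∀ p : ℕ, p.Prime → p ∣ a * b → p ∣ N) ∧
        ‖(χ.coeff 0).leadingCoeff‖ * (b : ℝ) = (a : ℝ) := by
  obtain ⟨χ, hmonic, hdeg, hχ⟩ := Fermat.Agent.S24.helper167.exists_monic_relation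
    (conjFam N r) (mdifferentiable_conjFam N r hr) (conjFam_perm N r hr)
    (hasExpGrowth_conjFam N r hr)
  refine ⟨χ, hmonic, hdeg, fun τ => by rw [hχ τ, prod_conjFam_eq N r hr τ], ?_⟩
  refine norm_leadingCoeff_of_eval_eq_prod_conjFam N r hr (χ.coeff 0)
    ((-1) ^ Fintype.card (SL(2, ℤ) ⧸ Gamma0 N)) (by simp) fun τ => ?_
  have h := congrArg (fun p : Polynomial ℂ => p.coeff 0) (hχ τ)
  simp only [Polynomial.coeff_map, Polynomial.coe_evalRingHom] at h
  rw [h, Polynomial.coeff_zero_eq_eval_zero, Polynomial.eval_prod]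
  simp only [Polynomial.eval_sub, Polynomial.eval_X, Polynomial.eval_C, zero_sub]
  rw [Finset.prod_neg, Finset.card_univ]

end Fermat.Agent.S28.helper407
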