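/-
S28 (Igusa), route P, sub-leaf of P4 (prime-level formal data): the FORMAL HECKE BRIDGE.

Author: helper4234.  Imports `helper328_PrimeSpec` (definitions) and `helper3292_JqFacts`.

Main results (namespace `Fermat.Agent.S28.helper4234`):

* `Uop R p`            : the operator `U_p` on Laurent series, `(U x).coeff n = x.coeff (p n)`;
* `Uop_qExpand_mul`    : projection formula `U (V a * x) = a * U x`  (`V = qExpand R p`);
* `deltaHat_mul_deltaHatInv`, `jqModC_mul_deltaHat`, `deltaHat_eq_ofPowerSeries` : the bridges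
  `Dhat * DhatInv = 1`, `jhat * Dhat = E4^3`, `Dhat = X * etaUnit`;
* `exists_poly_of_aeval_jqModC_eq` : triangularity (descent of the coefficients of a polynomial
  in `j` along an injective ring hom);
* `mixedSum_mem`       : from `helper328.Stmt_Hecke p`: for `m ≤ M`, `1 ≤ M` the mixed power sum
  `S(m,M) = (V jhat)^m * ghat^M + p * U (jhat^m * Dhat^M) * DhatInv^M`
  is `P(jhat)` for some `P : ℤ[X]` of degree `≤ M`.
-/
import Fermat.Agent.S28.helper328_PrimeSpec
import Fermat.Agent.S28.helper3292_JqFacts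

set_option autoImplicit false

namespace Fermat.Agent.S28.helper4234

open Polynomial ModularCurve
open Fermat.Agent.S28.helper328

noncomputable section

section Uop

variable (R : Type*) [CommRing R] (p : ℕ) [NeZero p]

/-- `U_p` on Laurent series: `(U x).coeff n = x.coeff (p * n)`. -/
def UopFun (x : LaurentSeries R) : LaurentSeries R :=
  HahnSeries.ofSuppBddBelow (fun n : ℤ => x.coeff ((p : ℤ) * n))
    ⟨min x.order 0, fun m hm => by
      by_contra hlt
      rw [not_le] at hlt
      have hp : (1 : ℤ) ≤ (p : ℤ) := by exact_mod_cast Nat.pos_of_ne_zero (NeZero.ne p)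
      have hm0 : m < 0 := lt_of_lt_of_le hlt (min_le_right _ _)
      have hmo : m < x.order := lt_of_lt_of_le hlt (min_le_left _ _)
      exact hm (HahnSeries.coeff_eq_zero_of_lt_order (by nlinarith))⟩

@[simp] theorem UopFun_coeff (x : LaurentSeries R) (n : ℤ) :
    (UopFun R p x).coeff n = x.coeff ((p : ℤ) * n) := rfl

/-- `U_p` as an additive map. -/
def Uop : LaurentSeries R →+ LaurentSeries R where
  toFun := UopFun R p
  map_zero' := by ext n; simp
  map_add' x y := by ext n; simp

@[simp] theorem Uop_coeff (x : LaurentSeries R) (n : ℤ) :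
    (Uop R p x).coeff n = x.coeff ((p : ℤ) * n) := rfl

/-- `U (V a) = a`. -/
theorem Uop_qExpand (a : LaurentSeries R) : Uop R p (qExpand R p a) = a := by
  ext n
  rw [Uop_coeff, qExpand_coeff_mul]

end Uop

section Bridges

variable (R : Type*) [CommRing R]

/-- `Dhat * DhatInv = 1`. -/
theorem deltaHat_mul_deltaHatInv : deltaHat R * deltaHatInv R = 1 := by
  unfold deltaHat deltaHatInv
  rw [mul_mul_mul_comm, HahnSeries.single_mul_single, ← map_mul, ← map_mul,
    dedekindEtaUnit_mul_inv]
  simp

/-- `Dhat = X * etaUnit` as a power series. -/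
theorem deltaHat_eq_ofPowerSeries :
    deltaHat R = HahnSeries.ofPowerSeries ℤ R
      ((PowerSeries.X * dedekindEtaUnit).map (Int.castRingHom R)) := by
  unfold deltaHat
  rw [map_mul, map_mul, PowerSeries.map_X, HahnSeries.ofPowerSeries_X]

/-- `jhat * Dhat = E4^3`. -/
theorem jqModC_mul_deltaHat :
    jqModC R * deltaHat R = HahnSeries.ofPowerSeries ℤ R
      ((eisenstein4 ^ 3).map (Int.castRingHom R)) := by
  unfold jqModC deltaHat
  rw [mul_mul_mul_comm, HahnSeries.single_mul_single, ← map_mul, ← map_mul, jNum, mul_assoc,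
    mul_comm dedekindEtaUnitInv, dedekindEtaUnit_mul_inv]
  simp

/-- `jhat^m * Dhat^M = E4^(3m) * (X etaUnit)^(M-m)` for `m ≤ M`. -/
theorem jqModC_pow_mul_deltaHat_pow {m M : ℕ} (hmM : m ≤ M) :
    jqModC R ^ m * deltaHat R ^ M = HahnSeries.ofPowerSeries ℤ R
      ((eisenstein4 ^ (3 * m) * (PowerSeries.X * dedekindEtaUnit) ^ (M - m)).map
        (Int.castRingHom R)) := by
  obtain ⟨k, rfl⟩ := Nat.exists_eq_add_of_le hmM
  rw [Nat.add_sub_cancel_left, pow_add, ← mul_assoc, ← mul_pow, jqModC_mul_deltaHat,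
    deltaHat_eq_ofPowerSeries]
  simp only [map_mul, map_pow, pow_mul]

end Bridges

section Hecke

/-- Coefficients of a natural-number multiple. -/
theorem coeff_natCast_mul {R : Type*} [CommRing R] (n : ℕ) (x : LaurentSeries R) (k : ℤ) :
    ((n : LaurentSeries R) * x).coeff k = (n : R) * x.coeff k := by
  rw [← nsmul_eq_mul, HahnSeries.coeff_nsmul, Pi.smul_apply, nsmul_eq_mul]

/-- The formal Hecke operator `T_p` of weight `k` on integer power series
(`a_n ↦ a_{np} + p^(k-1) a_{n/p}`). -/
def heckeZ (k p : ℕ) (f : PowerSeries ℤ) : PowerSeries ℤ :=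
  PowerSeries.mk fun n =>
    PowerSeries.coeff (n * p) f +
      if p ∣ n then (p : ℤ) ^ (k - 1) * PowerSeries.coeff (n / p) f else 0

/-- `heckeZ` is the integral form of `helper328.heckeTps`. -/
theorem map_heckeZ (k p : ℕ) (f : PowerSeries ℤ) :
    (heckeZ k p f).map (Int.castRingHom ℂ) = heckeTps k p (f.map (Int.castRingHom ℂ)) := by
  ext n
  simp only [heckeZ, heckeTps, PowerSeries.coeff_map, PowerSeries.coeff_mk]
  split_ifs <;> simp

/-- Laurent-series form of the Hecke operator: `p * T_p f = p * U f + p^k * V f` (`k ≥ 1`). -/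
theorem ofPowerSeries_heckeZ (k p : ℕ) [NeZero p] (hk : 1 ≤ k) (f : PowerSeries ℤ) :
    (p : LaurentSeries ℤ) * HahnSeries.ofPowerSeries ℤ ℤ (heckeZ k p f) =
      (p : LaurentSeries ℤ) * Uop ℤ p (HahnSeries.ofPowerSeries ℤ ℤ f) +
        (p : LaurentSeries ℤ) ^ k * qExpand ℤ p (HahnSeries.ofPowerSeries ℤ ℤ f) := by
  have hp0 : p ≠ 0 := NeZero.ne p
  have hppos : (0 : ℤ) < (p : ℤ) := by exact_mod_cast Nat.pos_of_ne_zero hp0
  have hpk : (p : ℤ) ^ k = (p : ℤ) * (p : ℤ) ^ (k - 1) := by
    rw [← pow_succ', Nat.sub_add_cancel hk]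
  ext n
  rw [HahnSeries.coeff_add, ← Nat.cast_pow, coeff_natCast_mul, coeff_natCast_mul,
    coeff_natCast_mul, Uop_coeff, Nat.cast_pow]
  rcases lt_or_ge n 0 with hn | hn
  · -- negative index: everything vanishes
    rw [ofPowerSeries_coeff_of_neg _ hn, ofPowerSeries_coeff_of_neg _ (by nlinarith)]
    by_cases hdvd : (p : ℤ) ∣ n
    · obtain ⟨b, rfl⟩ := hdvd
      rw [qExpand_coeff_mul, ofPowerSeries_coeff_of_neg _ (by nlinarith)]
      simp
    · rw [qExpand_coeff_of_not_dvd p _ hdvd]
      simp
  · obtain ⟨a, rfl⟩ := Int.eq_ofNat_of_zero_le hn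
    rw [HahnSeries.ofPowerSeries_apply_coeff, ← Nat.cast_mul, HahnSeries.ofPowerSeries_apply_coeff,
      heckeZ, PowerSeries.coeff_mk, mul_comm a p]
    by_cases hdvd : p ∣ a
    · obtain ⟨b, rfl⟩ := hdvd
      rw [if_pos (dvd_mul_right p b), Nat.mul_div_cancel_left b (Nat.pos_of_ne_zero hp0),
        Nat.cast_mul, qExpand_coeff_mul, HahnSeries.ofPowerSeries_apply_coeff, hpk]
      ring
    · rw [if_neg hdvd, qExpand_coeff_of_not_dvd p _ (by exact_mod_cast hdvd)]
      ring

end Hecke

section Triangular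

variable {R S : Type*} [CommRing R] [CommRing S]

/-- Coefficientwise maps along an injective ring hom are injective. -/
theorem coeffMap_injective (f : R →+* S) (hf : Function.Injective f) :
    Function.Injective (coeffMap f) := by
  intro x y h
  ext k
  apply hf
  have := congrArg (fun z : LaurentSeries S => z.coeff k) h
  simpa using this

/-- Integer power series: base change in two steps. -/
theorem map_map_intCast (f : R →+* S) (x : PowerSeries ℤ) :
    (x.map (Int.castRingHom R)).map f = x.map (Int.castRingHom S) := by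
  ext n
  simp [PowerSeries.coeff_map]

/-- Base change of the formal discriminant. -/
theorem coeffMap_deltaHat (f : R →+* S) : coeffMap f (deltaHat R) = deltaHat S := by
  unfold deltaHat
  rw [map_mul, coeffMap_single, map_one, coeffMap_ofPowerSeries, map_map_intCast]

/-- Base change of the inverse of the formal discriminant. -/
theorem coeffMap_deltaHatInv (f : R →+* S) : coeffMap f (deltaHatInv R) = deltaHatInv S := by
  unfold deltaHatInv
  rw [map_mul, coeffMap_single, map_one, coeffMap_ofPowerSeries, map_map_intCast]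

/-- `evalJ` is `aeval`. -/
theorem evalJ_eq_aeval (J : LaurentSeries R) (P : Polynomial ℤ) :
    evalJ J P = Polynomial.aeval J P := by
  rw [evalJ, Polynomial.coe_eval₂RingHom, Polynomial.aeval_def]
  congr 1
  exact RingHom.ext_int _ _

/-- **Triangularity** (auxiliary form, induction on the number of monomials): if `Q(j)` over `S`
is the image of a Laurent series `x` over `R` under an injective ring hom `f : R →+* S`, then `Q`
has coefficients in `R` and `x` is a polynomial in `j`. -/
theorem exists_poly_of_aeval_jqModC_eq_aux (f : R →+* S) (hf : Function.Injective f) :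
    ∀ (n : ℕ) (Q : Polynomial S) (x : LaurentSeries R), Q.support.card ≤ n →
      Polynomial.aeval (jqModC S) Q = coeffMap f x →
      ∃ P : Polynomial R, P.map f = Q ∧ Polynomial.aeval (jqModC R) P = x := by
  intro n
  induction n with
  | zero =>
    intro Q x hQ h
    have hQ0 : Q = 0 := Polynomial.card_support_eq_zero.mp (Nat.le_zero.mp hQ)
    subst hQ0
    refine ⟨0, by simp, ?_⟩
    apply coeffMap_injective f hf
    rw [← h]
    simp
  | succ n ih =>
    intro Q x hQ h
    by_cases hQ0 : Q = 0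
    · subst hQ0
      refine ⟨0, by simp, ?_⟩
      apply coeffMap_injective f hf
      rw [← h]
      simp
    · have hz : f (x.coeff (-(Q.natDegree : ℤ))) = Q.leadingCoeff := by
        have h1 := helper3292.coeff_aeval_jqModC_neg_natDegree S Q
        rw [h, coeffMap_coeff] at h1
        exact h1
      have hcard : Q.eraseLead.support.card ≤ n := by
        have := Polynomial.eraseLead_support_card_lt hQ0
        omega
      have hsplit := congrArg (Polynomial.aeval (jqModC S))
        (Polynomial.eraseLead_add_monomial_natDegree_leadingCoeff Q)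
      rw [map_add, Polynomial.aeval_monomial] at hsplit
      have h' : Polynomial.aeval (jqModC S) Q.eraseLead =
          coeffMap f (x - algebraMap R (LaurentSeries R) (x.coeff (-(Q.natDegree : ℤ))) *
            jqModC R ^ Q.natDegree) := by
        rw [map_sub, map_mul, map_pow, coeffMap_jqModC, helper3292.coeffMap_algebraMap', hz, ← h]
        exact eq_sub_of_add_eq hsplit
      obtain ⟨P', hP'map, hP'⟩ := ih Q.eraseLead _ hcard h'
      refine ⟨P' + Polynomial.monomial Q.natDegree (x.coeff (-(Q.natDegree : ℤ))), ?_, ?_⟩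
      · rw [Polynomial.map_add, hP'map, Polynomial.map_monomial, hz]
        exact Polynomial.eraseLead_add_monomial_natDegree_leadingCoeff Q
      · rw [map_add, hP', Polynomial.aeval_monomial]
        ring

/-- **Triangularity**: if `Q(j)` over `S` is the image of a Laurent series `x` over `R` under an
injective ring hom `f : R →+* S`, then `Q = P.map f` with `P(j) = x`. -/
theorem exists_poly_of_aeval_jqModC_eq (f : R →+* S) (hf : Function.Injective f)
    (Q : Polynomial S) (x : LaurentSeries R)
    (h : Polynomial.aeval (jqModC S) Q = coeffMap f x) :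
    ∃ P : Polynomial R, P.map f = Q ∧ P.natDegree = Q.natDegree ∧
      Polynomial.aeval (jqModC R) P = x := by
  obtain ⟨P, hPmap, hP⟩ := exists_poly_of_aeval_jqModC_eq_aux f hf _ Q x le_rfl h
  exact ⟨P, hPmap, by rw [← hPmap, Polynomial.natDegree_map_eq_of_injective hf], hP⟩

end Triangular

section Main

/-- The mixed power sum `S(m,M) = x_∞^m y_∞^M + ∑_b x_b^m y_b^M` written with `U_p`:
`(V jhat)^m * ghat^M + p * U (jhat^m * Dhat^M) * DhatInv^M`. -/
def mixedSum (p : ℕ) [NeZero p] (m M : ℕ) : LaurentSeries ℤ :=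
  (qExpand ℤ p (jqModC ℤ)) ^ m * (gHat p) ^ M +
    (p : LaurentSeries ℤ) * Uop ℤ p ((jqModC ℤ) ^ m * (deltaHat ℤ) ^ M) * (deltaHatInv ℤ) ^ M

/-- The integer level-one form `E4^(3m) * Delta^(M-m)` as a power series. -/
def baseForm (m M : ℕ) : PowerSeries ℤ :=
  eisenstein4 ^ (3 * m) * (PowerSeries.X * dedekindEtaUnit) ^ (M - m)

theorem ofPowerSeries_baseForm {m M : ℕ} (hmM : m ≤ M) :
    HahnSeries.ofPowerSeries ℤ ℤ (baseForm m M) = jqModC ℤ ^ m * deltaHat ℤ ^ M := by
  rw [jqModC_pow_mul_deltaHat_pow ℤ hmM, Int.castRingHom_int, PowerSeries.map_id]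
  rfl

theorem map_baseForm (m M : ℕ) :
    (baseForm m M).map (Int.castRingHom ℂ) = E4C ^ (3 * m) * DeltaC ^ (M - m) := by
  simp only [baseForm, E4C, DeltaC, map_mul, map_pow]

/-- `S(m,M) = p * T_p(E4^(3m) Delta^(M-m)) / Delta^M` (formal identity over `ℤ`). -/
theorem mixedSum_eq_hecke (p : ℕ) [NeZero p] {m M : ℕ} (hmM : m ≤ M) (hM : 1 ≤ M) :
    mixedSum p m M =
      (p : LaurentSeries ℤ) * HahnSeries.ofPowerSeries ℤ ℤ (heckeZ (12 * M) p (baseForm m M)) *
        (deltaHatInv ℤ) ^ M := by
  rw [ofPowerSeries_heckeZ (12 * M) p (by omega) (baseForm m M), ofPowerSeries_baseForm hmM,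
    mixedSum, gHat]
  simp only [map_mul, map_pow]
  ring

/-- **Formal Hecke bridge.**  From `helper328.Stmt_Hecke p`: for `m ≤ M`, `1 ≤ M`, the mixed
power sum `S(m,M)` is a polynomial of degree `≤ M` in `jhat` with integer coefficients. -/
theorem mixedSum_mem (p : ℕ) [NeZero p] (h : Stmt_Hecke p) (m M : ℕ) (hmM : m ≤ M)
    (hM : 1 ≤ M) :
    ∃ P : Polynomial ℤ, P.natDegree ≤ M ∧ evalJ (jqModC ℤ) P = mixedSum p m M := by
  obtain ⟨c, hc⟩ := h m M hmM hM
  -- the complex polynomial
  have hD : deltaHat ℂ ^ M * deltaHatInv ℂ ^ M = 1 := by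
    rw [← mul_pow, deltaHat_mul_deltaHatInv, one_pow]
  have hQ : Polynomial.aeval (jqModC ℂ)
      (∑ b ∈ Finset.range (M + 1), Polynomial.C ((p : ℂ) * c b) * Polynomial.X ^ (M - b)) =
      coeffMap (Int.castRingHom ℂ) (mixedSum p m M) := by
    rw [mixedSum_eq_hecke p hmM hM, map_mul, map_mul, map_pow, map_natCast,
      coeffMap_ofPowerSeries, map_heckeZ, coeffMap_deltaHatInv, map_baseForm, hc, map_sum,
      map_sum, Finset.mul_sum, Finset.sum_mul]
    refine Finset.sum_congr rfl fun b hb => ?_
    have hb' : b ≤ M := Nat.lt_succ_iff.mp (Finset.mem_range.mp hb)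
    have key : HahnSeries.ofPowerSeries ℤ ℂ (E4C ^ (3 * (M - b)) * DeltaC ^ b) =
        jqModC ℂ ^ (M - b) * deltaHat ℂ ^ M := by
      rw [jqModC_pow_mul_deltaHat_pow ℂ (Nat.sub_le M b), Nat.sub_sub_self hb']
      simp only [E4C, DeltaC, map_mul, map_pow]
    have e1 : HahnSeries.ofPowerSeries ℤ ℂ
        (PowerSeries.C (c b) * (E4C ^ (3 * (M - b)) * DeltaC ^ b)) =
        algebraMap ℂ (LaurentSeries ℂ) (c b) * (jqModC ℂ ^ (M - b) * deltaHat ℂ ^ M) := by
      rw [map_mul, HahnSeries.ofPowerSeries_C, key, helper3292.algebraMap_eq_single]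
      rfl
    rw [PowerSeries.smul_eq_C_mul, e1]
    simp only [map_mul, map_pow, Polynomial.aeval_C, Polynomial.aeval_X, map_natCast]
    linear_combination (-((p : LaurentSeries ℂ) * algebraMap ℂ (LaurentSeries ℂ) (c b) *
      jqModC ℂ ^ (M - b))) * hD
  obtain ⟨P, hPmap, hPdeg, hP⟩ :=
    exists_poly_of_aeval_jqModC_eq (Int.castRingHom ℂ) Int.cast_injective _ _ hQ
  refine ⟨P, ?_, ?_⟩
  · rw [hPdeg]
    exact Polynomial.natDegree_sum_le_of_forall_le _ _
      (fun b _ => (Polynomial.natDegree_C_mul_X_pow_le _ _).trans (Nat.sub_le _ _))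
  · rw [evalJ_eq_aeval]
    exact hP

end Main

end

end Fermat.Agent.S28.helper4234
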