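/-
S28 (Igusa), route P, P4: the Hecke input in the exact consumer shapes asked for by helper328
(chat #174): mixed power sums written with `helper328.Ush p 0`, over `ℤ` (with `evalJ`) and over
`ℂ` (with `aeval`).

Author: helper4234.  Everything is a corollary of `helper4234.mixedSum_mem` (HeckeBridge).
-/
import Fermat.Agent.S28.helper4234_HeckeBridge
import Fermat.Agent.S28.helper328_Ush
import Fermat.Agent.S28.helper2627_HeckeInput
import Fermat.Prelude.Thm_ModularCurve_coeffMap_qExpand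

set_option autoImplicit false

namespace Fermat.Agent.S28.helper4234

open Polynomial ModularCurve
open Fermat.Agent.S28.helper328

noncomputable section

/-- `Uop` is `helper328.Ush` with shift `0`. -/
theorem Uop_eq_Ush {R : Type*} [CommRing R] (p : ℕ) [NeZero p] (x : LaurentSeries R) :
    Uop R p x = Ush p 0 x := by
  ext n
  simp

/-- `U_p` commutes with coefficientwise maps. -/
theorem coeffMap_Uop {R S : Type*} [CommRing R] [CommRing S] (f : R →+* S) (p : ℕ) [NeZero p]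
    (x : LaurentSeries R) : coeffMap f (Uop R p x) = Uop S p (coeffMap f x) := by
  ext n
  simp

/-- natural-number multiples as scalar multiples (HahnSeries module structure). -/
theorem natCast_mul_eq_smul {R : Type*} [CommRing R] (n : ℕ) (x : LaurentSeries R) :
    (n : LaurentSeries R) * x = (n : R) • x := by
  ext k
  rw [coeff_natCast_mul, HahnSeries.coeff_smul, smul_eq_mul]

/-- **Hecke input over `ℤ`, `Ush` shape** (hypothesis-passing in `Stmt_Hecke p`). -/
theorem hecke_mixed_int_of (p : ℕ) [NeZero p] (h : Stmt_Hecke p) (m M : ℕ) (hmM : m ≤ M)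
    (hM : 1 ≤ M) :
    ∃ P : Polynomial ℤ, P.natDegree ≤ M ∧
      evalJ (jqModC ℤ) P = (qExpand ℤ p (jqModC ℤ)) ^ m * (gHat p) ^ M +
        (p : ℤ) • (Ush p 0 ((jqModC ℤ) ^ m * (deltaHat ℤ) ^ M) * (deltaHatInv ℤ) ^ M) := by
  obtain ⟨P, hdeg, hP⟩ := mixedSum_mem p h m M hmM hM
  refine ⟨P, hdeg, ?_⟩
  rw [hP, mixedSum, Uop_eq_Ush, mul_assoc, natCast_mul_eq_smul]

/-- **Hecke input over `ℂ`, `Ush` shape** (hypothesis-passing in `Stmt_Hecke p`):
exactly the shape of chat #174. -/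
theorem hecke_mixed_complex_of (p : ℕ) [NeZero p] (h : Stmt_Hecke p) (m M : ℕ) (hmM : m ≤ M)
    (hM : 1 ≤ M) :
    ∃ P : Polynomial ℂ, P.natDegree ≤ M ∧
      Polynomial.aeval (jqModC ℂ) P =
        (qExpand ℂ p (jqModC ℂ)) ^ m * (coeffMap (Int.castRingHom ℂ) (gHat p)) ^ M +
          (p : ℂ) • (Ush p 0 ((jqModC ℂ) ^ m * (deltaHat ℂ) ^ M) * (deltaHatInv ℂ) ^ M) := by
  obtain ⟨P, hdeg, hP⟩ := mixedSum_mem p h m M hmM hM
  refine ⟨P.map (Int.castRingHom ℂ), (Polynomial.natDegree_map_le).trans hdeg, ?_⟩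
  have h1 := congrArg (coeffMap (Int.castRingHom ℂ)) hP
  rw [evalJ_eq_aeval, helper3292.coeffMap_aeval_jqModC] at h1
  rw [h1, mixedSum, map_add, map_mul, map_mul, map_mul, map_pow, map_pow, map_pow, map_natCast,
    coeffMap_qExpand, coeffMap_jqModC, coeffMap_Uop, map_mul, map_pow, map_pow, coeffMap_jqModC,
    coeffMap_deltaHat, coeffMap_deltaHatInv, Uop_eq_Ush, mul_assoc, natCast_mul_eq_smul]

/-- **Hecke input over `ℤ`, `Ush` shape**, unconditional (uses `helper2627.stmt_Hecke`). -/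
theorem hecke_mixed_int (p : ℕ) [hp : Fact p.Prime] [NeZero p] (m M : ℕ) (hmM : m ≤ M)
    (hM : 1 ≤ M) :
    ∃ P : Polynomial ℤ, P.natDegree ≤ M ∧
      evalJ (jqModC ℤ) P = (qExpand ℤ p (jqModC ℤ)) ^ m * (gHat p) ^ M +
        (p : ℤ) • (Ush p 0 ((jqModC ℤ) ^ m * (deltaHat ℤ) ^ M) * (deltaHatInv ℤ) ^ M) :=
  hecke_mixed_int_of p (helper2627.stmt_Hecke p) m M hmM hM

/-- **Hecke input over `ℂ`, `Ush` shape**, unconditional (uses `helper2627.stmt_Hecke`). -/
theorem hecke_mixed_complex (p : ℕ) [hp : Fact p.Prime] [NeZero p] (m M : ℕ) (hmM : m ≤ M)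
    (hM : 1 ≤ M) :
    ∃ P : Polynomial ℂ, P.natDegree ≤ M ∧
      Polynomial.aeval (jqModC ℂ) P =
        (qExpand ℂ p (jqModC ℂ)) ^ m * (coeffMap (Int.castRingHom ℂ) (gHat p)) ^ M +
          (p : ℂ) • (Ush p 0 ((jqModC ℂ) ^ m * (deltaHat ℂ) ^ M) * (deltaHatInv ℂ) ^ M) :=
  hecke_mixed_complex_of p (helper2627.stmt_Hecke p) m M hmM hM

end

end Fermat.Agent.S28.helper4234
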