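import Fermat.Agent.S28.helper2608_Spec

/-!
# S28: the integrality clause (INT) of `Spec.Stmt_CoreInput` is free

`Spec.Stmt_CoreInput N ℓ` asks for a field `L ⊇ F` inside `ℚ((q))`, an integer `n` and `n` integer
`q`-series `b i` with

* (MEM) `b i ∈ L`,
* (INT) `b i` integral over `ℤ[j]`,
* (DEG) `[L : ℚ(j)] ≤ n`,
* (LI)  the reductions of the `b i` mod `ℓ` are linearly independent over `𝔽_ℓ[j̄]`.

This file shows that (INT) can always be arranged once the other clauses hold: there is ONE
polynomial `s ∈ ℤ[X]` with `s ≢ 0 mod ℓ` such that the family `s(j) * b i` satisfies all clauses.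

Proof.  For `y ∈ ℤ((q))` with `y ∈ L`, (DEG) applied to `(y, b 0, …, b (n-1))`, division by the
`ℓ`-content and (LI) give `s_y(j) * y = ∑ a_i(j) * b i` with `s_y ≢ 0 mod ℓ`.  Apply this to the
products `b k * b m` and let `s` be the product of the `s_{km}`.  Then multiplication by
`s(j) * b k` preserves the finitely generated `ℤ[j]`-module `∑ ℤ[j] b i` inside the domain
`ℤ((q))`, hence `s(j) * b k` is integral over `ℤ[j]` (Cayley–Hamilton).

Main statements (namespace `Fermat.Agent.S28.helper4288`):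

* `Stmt_CoreInputNoInt N ℓ` : `Spec.Stmt_CoreInput N ℓ` without the clause (INT);
* `stmt_CoreInput_of_noInt` : the adapter in unbundled form;
* `stmt_CoreInput_of_stmt_noInt` : `Stmt_CoreInputNoInt N ℓ → Spec.Stmt_CoreInput N ℓ`;
* `stmt_CoreInput_iff_noInt` : the two statements are equivalent.
-/

set_option autoImplicit false

noncomputable section

namespace Fermat.Agent.S28.helper4288

open ModularCurve Polynomial
open Fermat.Agent.S28.Spec

/-! ## Generalities -/

theorem coeffMap_inj {R S : Type*} [CommRing R] [CommRing S] (f : R →+* S)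
    (hf : Function.Injective f) : Function.Injective (coeffMap f) := by
  intro x y h
  ext k
  apply hf
  have := congrArg (fun z => z.coeff k) h
  simpa using this

theorem algebraMap_laurent_eq_single {T : Type*} [CommRing T] (c : T) :
    algebraMap T (LaurentSeries T) c = HahnSeries.single 0 c := by
  have h1 : algebraMap T (PowerSeries T) c = PowerSeries.C c := by simp
  rw [HahnSeries.algebraMap_apply', h1, HahnSeries.ofPowerSeries_C]
  rfl

theorem coeffMap_algebraMap_laurent {R S : Type*} [CommRing R] [CommRing S] (f : R →+* S)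
    (r : R) :
    coeffMap f (algebraMap R (LaurentSeries R) r) = algebraMap S (LaurentSeries S) (f r) := by
  rw [algebraMap_laurent_eq_single, algebraMap_laurent_eq_single, coeffMap_single]

/-- Evaluation at `j` commutes with change of coefficients. -/
theorem coeffMap_aeval_jq {R S : Type*} [CommRing R] [CommRing S] (f : R →+* S)
    (p : Polynomial R) :
    coeffMap f (Polynomial.aeval (jqModC R) p) = Polynomial.aeval (jqModC S) (p.map f) := by
  have h : (coeffMap f).comp (Polynomial.aeval (jqModC R)).toRingHom =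
      (Polynomial.aeval (jqModC S)).toRingHom.comp (Polynomial.mapRingHom f) := by
    apply Polynomial.ringHom_ext
    · intro r
      simp [coeffMap_algebraMap_laurent]
    · simp [coeffMap_jqModC]
  have := congrArg (fun g => g p) h
  simpa using this

theorem aeval_int_eq_aeval_map (x : LaurentSeries ℚ) (P : Polynomial ℤ) :
    Polynomial.aeval x P = Polynomial.aeval x (P.map (Int.castRingHom ℚ)) := by
  rw [Polynomial.aeval_def, Polynomial.aeval_def, Polynomial.eval₂_map]
  congr 1
  exact RingHom.ext_int _ _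

/-- `toQ` of an integer polynomial in `j`. -/
theorem toQ_aeval (p : Polynomial ℤ) :
    toQ (Polynomial.aeval (jqModC ℤ) p) = Polynomial.aeval jq p := by
  rw [toQ, coeffMap_aeval_jq, jqModC_rat, aeval_int_eq_aeval_map]

/-- `toFl` of an integer polynomial in `j`. -/
theorem toFl_aeval (ℓ : ℕ) (p : Polynomial ℤ) :
    toFl ℓ (Polynomial.aeval (jqModC ℤ) p) =
      Polynomial.aeval (jqModC (ZMod ℓ)) (p.map (Int.castRingHom (ZMod ℓ))) := by
  rw [toFl, coeffMap_aeval_jq]

theorem toQ_inj : Function.Injective toQ :=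
  coeffMap_inj _ Int.cast_injective

/-- An integer polynomial in `j` lies in every intermediate field containing `j`. -/
theorem aeval_jq_mem (L : IntermediateField ℚ (LaurentSeries ℚ)) (hj : jq ∈ L)
    (p : Polynomial ℤ) : Polynomial.aeval jq p ∈ L := by
  rw [aeval_int_eq_aeval_map, Polynomial.aeval_eq_sum_range]
  exact sum_mem fun i _ => L.smul_mem (pow_mem hj i)

/-! ## Cayley–Hamilton in ring-hom form -/

/-- If multiplication by `x` preserves the `R`-span of a finite family `b` (not all zero) inside a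
domain `A`, then `x` is integral over `R`. -/
theorem isIntegralElem_of_mul_mem_span {R A : Type*} [CommRing R] [CommRing A] [IsDomain A]
    (f : R →+* A) {ι : Type*} [Finite ι] (b : ι → A) (hb : ∃ i, b i ≠ 0) (x : A)
    (hx : ∀ i, ∃ a : ι → R, ∃ _ : Fintype ι, x * b i = ∑ k, f (a k) * b k) :
    f.IsIntegralElem x := by
  classical
  let _ : Algebra R A := f.toAlgebra
  have key : IsIntegral R x := by
    refine isIntegral_of_smul_mem_submodule (M := A) (Submodule.span R (Set.range b)) ?_ ?_ x ?_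
    · obtain ⟨i, hi⟩ := hb
      intro h
      have hmem : b i ∈ Submodule.span R (Set.range b) := Submodule.subset_span ⟨i, rfl⟩
      rw [h, Submodule.mem_bot] at hmem
      exact hi hmem
    · exact Submodule.fg_span (Set.finite_range b)
    · intro n hn
      induction hn using Submodule.span_induction with
      | mem y hy =>
        obtain ⟨i, rfl⟩ := hy
        obtain ⟨a, _, ha⟩ := hx i
        rw [smul_eq_mul, ha]
        refine Submodule.sum_mem _ fun k _ => ?_
        have : f (a k) * b k = a k • b k := by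
          rw [Algebra.smul_def]
          rfl
        rw [this]
        exact Submodule.smul_mem _ _ (Submodule.subset_span ⟨k, rfl⟩)
      | zero => simp
      | add y z _ _ hy hz =>
        rw [smul_add]
        exact Submodule.add_mem _ hy hz
      | smul r y _ hy =>
        rw [smul_comm]
        exact Submodule.smul_mem _ _ hy
  exact key

/-! ## Division by the `ℓ`-content -/

/-- A polynomial vanishing mod `ℓ` is divisible by `ℓ`. -/
theorem exists_eq_C_mul_of_map_eq_zero (ℓ : ℕ) (c : Polynomial ℤ)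
    (h : c.map (Int.castRingHom (ZMod ℓ)) = 0) : ∃ d : Polynomial ℤ, c = C (ℓ : ℤ) * d := by
  have hdvd : C (ℓ : ℤ) ∣ c := by
    rw [Polynomial.C_dvd_iff_dvd_coeff]
    intro i
    have hi := congrArg (fun q => q.coeff i) h
    simp only [Polynomial.coeff_map, Polynomial.coeff_zero] at hi
    exact (ZMod.intCast_zmod_eq_zero_iff_dvd _ _).mp (by simpa using hi)
  exact hdvd

/-- A nontrivial `ℤ[j]`-linear relation can be divided by its `ℓ`-content. -/
theorem exists_primitive_relation (ℓ : ℕ) [hℓ : Fact ℓ.Prime] {m : ℕ}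
    (y : Fin m → LaurentSeries ℤ) (c : Fin m → Polynomial ℤ) (hc : c ≠ 0)
    (h : ∑ i, Polynomial.aeval (jqModC ℤ) (c i) * y i = 0) :
    ∃ c' : Fin m → Polynomial ℤ, (∃ i, (c' i).map (Int.castRingHom (ZMod ℓ)) ≠ 0) ∧
      ∑ i, Polynomial.aeval (jqModC ℤ) (c' i) * y i = 0 := by
  obtain ⟨i0, hi0⟩ : ∃ i, c i ≠ 0 := by
    by_contra hcon
    push Not at hcon
    exact hc (funext hcon)
  obtain ⟨k0, hk0⟩ : ∃ k, (c i0).coeff k ≠ 0 := by
    by_contra hcon
    push Not at hcon
    exact hi0 (Polynomial.ext (by simpa using hcon))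
  suffices H : ∀ (M : ℕ) (c : Fin m → Polynomial ℤ), ((c i0).coeff k0).natAbs = M →
      (c i0).coeff k0 ≠ 0 → ∑ i, Polynomial.aeval (jqModC ℤ) (c i) * y i = 0 →
      ∃ c' : Fin m → Polynomial ℤ, (∃ i, (c' i).map (Int.castRingHom (ZMod ℓ)) ≠ 0) ∧
        ∑ i, Polynomial.aeval (jqModC ℤ) (c' i) * y i = 0 from H _ c rfl hk0 h
  intro M
  induction M using Nat.strong_induction_on with
  | _ M ih =>
    intro c hM hne hrel
    by_cases hprim : ∃ i, (c i).map (Int.castRingHom (ZMod ℓ)) ≠ 0
    · exact ⟨c, hprim, hrel⟩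
    · push Not at hprim
      choose d hd using fun i => exists_eq_C_mul_of_map_eq_zero ℓ (c i) (hprim i)
      have hℓ0 : algebraMap ℤ (LaurentSeries ℤ) (ℓ : ℤ) ≠ 0 := by
        rw [algebraMap_laurent_eq_single]
        exact HahnSeries.single_ne_zero (Nat.cast_ne_zero.mpr hℓ.out.ne_zero)
      have hrel' : ∑ i, Polynomial.aeval (jqModC ℤ) (d i) * y i = 0 := by
        have h1 : ∑ i, Polynomial.aeval (jqModC ℤ) (c i) * y i =
            algebraMap ℤ (LaurentSeries ℤ) (ℓ : ℤ) *
              ∑ i, Polynomial.aeval (jqModC ℤ) (d i) * y i := by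
          rw [Finset.mul_sum]
          refine Finset.sum_congr rfl fun i _ => ?_
          rw [hd i, map_mul, Polynomial.aeval_C, mul_assoc]
        rw [h1] at hrel
        exact (mul_eq_zero.mp hrel).resolve_left hℓ0
      have hcoeff : (c i0).coeff k0 = (ℓ : ℤ) * (d i0).coeff k0 := by
        rw [hd i0, Polynomial.coeff_C_mul]
      have hne' : (d i0).coeff k0 ≠ 0 := by
        intro h0
        rw [hcoeff, h0, mul_zero] at hne
        exact hne rfl
      have hlt : ((d i0).coeff k0).natAbs < M := by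
        rw [← hM, hcoeff, Int.natAbs_mul, Int.natAbs_natCast]
        have h1 : 0 < ((d i0).coeff k0).natAbs := Int.natAbs_pos.mpr hne'
        have h2 := hℓ.out.two_le
        nlinarith
      exact ih _ hlt d rfl hne' hrel'

/-! ## Expressing elements of `L ∩ ℤ((q))` on the family `b` -/

/-- Every integer `q`-series `y` in `L` satisfies `s(j) * y = ∑ a_i(j) * b i` with `s ≢ 0 mod ℓ`. -/
theorem exists_mul_eq_sum (ℓ : ℕ) [Fact ℓ.Prime] {n : ℕ}
    (L : IntermediateField ℚ (LaurentSeries ℚ)) (b : Fin n → LaurentSeries ℤ)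
    (hmem : ∀ i, toQ (b i) ∈ L) (hdeg : DegLE L n) (hLI : LinIndepModL ℓ b)
    (y : LaurentSeries ℤ) (hy : toQ y ∈ L) :
    ∃ (s : Polynomial ℤ) (a : Fin n → Polynomial ℤ), s.map (Int.castRingHom (ZMod ℓ)) ≠ 0 ∧
      Polynomial.aeval (jqModC ℤ) s * y = ∑ i, Polynomial.aeval (jqModC ℤ) (a i) * b i := by
  obtain ⟨c, hc, hrel⟩ := hdeg (fun i => toQ ((Fin.cons y b : Fin (n + 1) → LaurentSeries ℤ) i))
    (by
      intro i
      refine Fin.cases ?_ (fun k => ?_) i
      · simpa using hy
      · simpa using hmem k)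
  have hrelZ : ∑ i, Polynomial.aeval (jqModC ℤ) (c i) *
      (Fin.cons y b : Fin (n + 1) → LaurentSeries ℤ) i = 0 := by
    apply toQ_inj
    rw [map_zero, map_sum, ← hrel]
    refine Finset.sum_congr rfl fun i _ => ?_
    rw [map_mul, toQ_aeval]
  obtain ⟨c', ⟨i1, hi1⟩, hrel'⟩ := exists_primitive_relation ℓ _ c hc hrelZ
  have hred : ∑ i, Polynomial.aeval (jqModC (ZMod ℓ)) ((c' i).map (Int.castRingHom (ZMod ℓ))) *
      toFl ℓ ((Fin.cons y b : Fin (n + 1) → LaurentSeries ℤ) i) = 0 := by
    have h0 := congrArg (toFl ℓ) hrel'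
    rw [map_zero, map_sum] at h0
    rw [← h0]
    refine Finset.sum_congr rfl fun i _ => ?_
    rw [map_mul, toFl_aeval]
  rw [Fin.sum_univ_succ] at hred hrel'
  simp only [Fin.cons_zero, Fin.cons_succ] at hred hrel'
  have hs : (c' 0).map (Int.castRingHom (ZMod ℓ)) ≠ 0 := by
    intro h0
    rw [h0, map_zero, zero_mul, zero_add] at hred
    have hz := hLI (fun i => (c' i.succ).map (Int.castRingHom (ZMod ℓ))) hred
    refine hi1 ?_
    refine Fin.cases h0 (fun k => ?_) i1
    exact congrFun hz k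
  refine ⟨c' 0, fun i => - c' i.succ, hs, ?_⟩
  rw [eq_neg_of_add_eq_zero_left hrel', ← Finset.sum_neg_distrib]
  refine Finset.sum_congr rfl fun i _ => ?_
  rw [map_neg, neg_mul]

/-- One multiplier `s ≢ 0 mod ℓ` for all products `b k * b m`. -/
theorem exists_multiplier (ℓ : ℕ) [Fact ℓ.Prime] {n : ℕ}
    (L : IntermediateField ℚ (LaurentSeries ℚ)) (b : Fin n → LaurentSeries ℤ)
    (hmem : ∀ i, toQ (b i) ∈ L) (hdeg : DegLE L n) (hLI : LinIndepModL ℓ b) :
    ∃ s : Polynomial ℤ, s.map (Int.castRingHom (ZMod ℓ)) ≠ 0 ∧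
      ∀ k m : Fin n, ∃ a : Fin n → Polynomial ℤ,
        Polynomial.aeval (jqModC ℤ) s * (b k * b m) =
          ∑ i, Polynomial.aeval (jqModC ℤ) (a i) * b i := by
  have hB : ∀ km : Fin n × Fin n, ∃ (s : Polynomial ℤ) (a : Fin n → Polynomial ℤ),
      s.map (Int.castRingHom (ZMod ℓ)) ≠ 0 ∧
      Polynomial.aeval (jqModC ℤ) s * (b km.1 * b km.2) =
        ∑ i, Polynomial.aeval (jqModC ℤ) (a i) * b i := fun km =>
    exists_mul_eq_sum ℓ L b hmem hdeg hLI (b km.1 * b km.2)
      (by rw [map_mul]; exact mul_mem (hmem _) (hmem _))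
  choose s a hs ha using hB
  refine ⟨∏ km, s km, ?_, ?_⟩
  · rw [Polynomial.map_prod]
    exact Finset.prod_ne_zero_iff.mpr fun km _ => hs km
  · intro k m
    obtain ⟨t, ht⟩ : s (k, m) ∣ ∏ km, s km := Finset.dvd_prod_of_mem s (Finset.mem_univ (k, m))
    refine ⟨fun i => t * a (k, m) i, ?_⟩
    rw [ht, map_mul, mul_comm (Polynomial.aeval (jqModC ℤ) (s (k, m))), mul_assoc, ha (k, m),
      Finset.mul_sum]
    refine Finset.sum_congr rfl fun i _ => ?_
    rw [map_mul, mul_assoc]

/-! ## The adapter -/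

/-- `Spec.Stmt_CoreInput N ℓ` without the integrality clause (INT). -/
def Stmt_CoreInputNoInt (N ℓ : ℕ) : Prop :=
  ∃ (n : ℕ) (L : IntermediateField ℚ (LaurentSeries ℚ)) (b : Fin n → LaurentSeries ℤ),
    modularFunctionFieldFull N ≤ L ∧
    (∀ i, toQ (b i) ∈ L) ∧
    DegLE L n ∧
    LinIndepModL ℓ b

/-- Members of a family with independent reductions are nonzero. -/
theorem ne_zero_of_linIndepModL (ℓ : ℕ) [Fact ℓ.Prime] {n : ℕ} (b : Fin n → LaurentSeries ℤ)
    (hLI : LinIndepModL ℓ b) (i : Fin n) : b i ≠ 0 := by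
  classical
  intro h
  have h0 := hLI (Pi.single i 1) (by
    rw [Finset.sum_eq_single i]
    · rw [h, map_zero, mul_zero]
    · intro k _ hk
      rw [Pi.single_eq_of_ne hk, map_zero, zero_mul]
    · intro hi
      exact absurd (Finset.mem_univ i) hi)
  have h1 := congrFun h0 i
  rw [Pi.single_eq_same, Pi.zero_apply] at h1
  exact one_ne_zero h1

/-- **The clause (INT) is free.**  If `L ⊇ F`, `b i ∈ L ∩ ℤ((q))`, `[L : ℚ(j)] ≤ n` and the
reductions of the `b i` are independent over `𝔽_ℓ[j̄]`, then `Spec.Stmt_CoreInput N ℓ` holds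
(with the family `s(j) * b i` for a suitable `s ∈ ℤ[X]`, `s ≢ 0 mod ℓ`). -/
theorem stmt_CoreInput_of_noInt {N ℓ : ℕ} [Fact ℓ.Prime] (n : ℕ)
    (L : IntermediateField ℚ (LaurentSeries ℚ)) (b : Fin n → LaurentSeries ℤ)
    (hFL : modularFunctionFieldFull N ≤ L) (hmem : ∀ i, toQ (b i) ∈ L)
    (hdeg : DegLE L n) (hLI : LinIndepModL ℓ b) : Stmt_CoreInput N ℓ := by
  obtain ⟨s, hs, hmul⟩ := exists_multiplier ℓ L b hmem hdeg hLI
  have hjL : jq ∈ L := by
    have h := jqd_mem_full N (one_dvd N)
    rw [qExpand_one_apply] at h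
    exact hFL h
  refine ⟨n, L, fun i => Polynomial.aeval (jqModC ℤ) s * b i, hFL, ?_, ?_, hdeg, ?_⟩
  · intro i
    rw [map_mul, toQ_aeval]
    exact mul_mem (aeval_jq_mem L hjL s) (hmem i)
  · intro k
    refine isIntegralElem_of_mul_mem_span (R := Polynomial ℤ) (A := LaurentSeries ℤ)
      (Polynomial.aeval (jqModC ℤ)).toRingHom b
      ⟨k, ne_zero_of_linIndepModL ℓ b hLI k⟩ _ ?_
    intro i
    obtain ⟨a, ha⟩ := hmul k i
    refine ⟨a, inferInstance, ?_⟩
    rw [mul_assoc]
    exact ha
  · intro c hc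
    have hc' : ∑ i, Polynomial.aeval (jqModC (ZMod ℓ))
        (c i * s.map (Int.castRingHom (ZMod ℓ))) * toFl ℓ (b i) = 0 := by
      rw [← hc]
      refine Finset.sum_congr rfl fun i _ => ?_
      rw [map_mul (toFl ℓ), toFl_aeval, map_mul, mul_assoc]
    have h0 := hLI _ hc'
    funext i
    have hi := congrFun h0 i
    simp only [Pi.zero_apply] at hi ⊢
    exact (mul_eq_zero.mp hi).resolve_right hs

/-- Bundled form of the adapter. -/
theorem stmt_CoreInput_of_stmt_noInt {N ℓ : ℕ} [Fact ℓ.Prime] (h : Stmt_CoreInputNoInt N ℓ) :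
    Stmt_CoreInput N ℓ := by
  obtain ⟨n, L, b, hFL, hmem, hdeg, hLI⟩ := h
  exact stmt_CoreInput_of_noInt n L b hFL hmem hdeg hLI

/-- The two forms of the modular input are equivalent. -/
theorem stmt_CoreInput_iff_noInt {N ℓ : ℕ} [Fact ℓ.Prime] :
    Stmt_CoreInput N ℓ ↔ Stmt_CoreInputNoInt N ℓ :=
  ⟨fun ⟨n, L, b, hFL, hmem, _, hdeg, hLI⟩ => ⟨n, L, b, hFL, hmem, hdeg, hLI⟩,
    stmt_CoreInput_of_stmt_noInt⟩

end Fermat.Agent.S28.helper4288

end
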