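/-
S28 (Igusa), route P, leaf P6: prime-level package derived from `helper328.Stmt_FormalPrime p`.
Author: helper4598.  Hypothesis-passing on `Stmt_FormalPrime p`.

Notation in comments: `jbar = jqModC κ`, `V = qExpand κ p` (`q ↦ q^p`), `j_p = V jbar`.

Main results (for a prime `p`, `h : Stmt_FormalPrime p`):
* `exists_phi`       : `Φ` monic of degree `p+1` over `ℤ[Y]` with `Φ(j_p, j) = 0 = Φ(j, j_p)` over
                       every commutative ring;
* `qExpand_jq_not_mem_adjoin` : `j_p ∉ κ(j)` for every field `κ` in which `p ≠ 0`;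
* `primeLevel_degree` : no nonzero `Q ∈ κ[Y][X]` of `X`-degree `≤ p` has `Q(j_p, j) = 0`.
-/
import Mathlib
import Fermat.Agent.S28.helper328_PrimeSpec

set_option autoImplicit false

namespace Fermat.Agent.S28.helper4598

open Polynomial ModularCurve Fermat.Agent.S28.helper328

noncomputable section

/-! ### Lower bounds for supports of Laurent series -/

section Toolkit

variable {R : Type*} [CommRing R]

/-- `LB x n`: all coefficients of `x` below index `n` vanish. -/
def LB (x : LaurentSeries R) (n : ℤ) : Prop := ∀ m < n, x.coeff m = 0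

theorem LB.mono {x : LaurentSeries R} {n n' : ℤ} (hx : LB x n) (h : n' ≤ n) : LB x n' :=
  fun m hm => hx m (lt_of_lt_of_le hm h)

theorem LB.mul {x y : LaurentSeries R} {n m : ℤ} (hx : LB x n) (hy : LB y m) :
    LB (x * y) (n + m) := by
  intro a ha
  rw [HahnSeries.coeff_mul]
  refine Finset.sum_eq_zero fun ij hij => ?_
  rw [Finset.mem_antidiagonal] at hij
  obtain ⟨h1, h2, h3⟩ := hij
  by_cases h : ij.1 < n
  · rw [hx _ h, zero_mul]
  · have : ij.2 < m := by omega
    rw [hy _ this, mul_zero]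

theorem LB.coeff_mul {x y : LaurentSeries R} {n m : ℤ} (hx : LB x n) (hy : LB y m) :
    (x * y).coeff (n + m) = x.coeff n * y.coeff m := by
  rw [HahnSeries.coeff_mul]
  refine Finset.sum_eq_single (n, m) (fun ij hij hne => ?_) (fun hnot => ?_)
  · rw [Finset.mem_antidiagonal] at hij
    obtain ⟨h1, h2, h3⟩ := hij
    by_cases h : ij.1 < n
    · rw [hx _ h, zero_mul]
    · by_cases h' : ij.2 < m
      · rw [hy _ h', mul_zero]
      · exfalso
        apply hne
        have e1 : ij.1 = n := by omega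
        have e2 : ij.2 = m := by omega
        exact Prod.ext e1 e2
  · rw [Finset.mem_antidiagonal] at hnot
    by_contra hne
    apply hnot
    refine ⟨?_, ?_, rfl⟩
    · simp only [HahnSeries.mem_support]
      exact fun h => hne (by rw [h, zero_mul])
    · simp only [HahnSeries.mem_support]
      exact fun h => hne (by rw [h, mul_zero])

theorem LB_one : LB (1 : LaurentSeries R) 0 := by
  intro m hm
  rw [HahnSeries.coeff_one, if_neg (ne_of_lt hm)]

theorem LB.pow {x : LaurentSeries R} {k : ℤ} (hx : LB x k) (i : ℕ) : LB (x ^ i) (i * k) := by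
  induction i with
  | zero => simpa using LB_one
  | succ i ih =>
    rw [pow_succ]
    have := ih.mul hx
    convert this using 1
    push_cast; ring

theorem LB.coeff_pow {x : LaurentSeries R} {k : ℤ} (hx : LB x k) (i : ℕ) :
    (x ^ i).coeff (i * k) = x.coeff k ^ i := by
  induction i with
  | zero => simp [HahnSeries.coeff_one]
  | succ i ih =>
    rw [pow_succ, pow_succ, ← ih, ← (hx.pow i).coeff_mul hx]
    congr 1
    push_cast; ring

theorem LB_single (k : ℤ) (r : R) : LB (HahnSeries.single k r) k := by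
  intro m hm
  rw [HahnSeries.coeff_single_of_ne (ne_of_lt hm)]

theorem LB_ofPowerSeries (f : PowerSeries R) : LB (HahnSeries.ofPowerSeries ℤ R f) 0 :=
  fun _ hm => ofPowerSeries_coeff_of_neg f hm

theorem coeff_zero_ofPowerSeries (f : PowerSeries R) :
    (HahnSeries.ofPowerSeries ℤ R f).coeff 0 = PowerSeries.constantCoeff f := by
  rw [show (0 : ℤ) = ((0 : ℕ) : ℤ) from rfl, HahnSeries.ofPowerSeries_apply_coeff,
    PowerSeries.coeff_zero_eq_constantCoeff]

theorem LB_qExpand {x : LaurentSeries R} {n : ℤ} (N : ℕ) [NeZero N] (hx : LB x n) :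
    LB (qExpand R N x) (N * n) := by
  intro m hm
  by_cases hd : (N : ℤ) ∣ m
  · obtain ⟨k, rfl⟩ := hd
    rw [qExpand_coeff_mul]
    apply hx
    have hN : (0 : ℤ) < N := by exact_mod_cast Nat.pos_of_ne_zero (NeZero.ne N)
    exact lt_of_mul_lt_mul_left hm hN.le
  · exact qExpand_coeff_of_not_dvd N x hd

theorem LB_coeffMap {S : Type*} [CommRing S] (f : R →+* S) {x : LaurentSeries R} {n : ℤ}
    (hx : LB x n) : LB (coeffMap f x) n := by
  intro m hm
  rw [coeffMap_coeff, hx m hm, map_zero]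

/-- `coeffMap` commutes with `qExpand` (the Prelude version is private). -/
theorem coeffMap_qExpand {S : Type*} [CommRing S] (f : R →+* S) (n : ℕ)
    [NeZero n] (x : LaurentSeries R) : coeffMap f (qExpand R n x) = qExpand S n (coeffMap f x) := by
  ext k
  by_cases hk : (n : ℤ) ∣ k
  · obtain ⟨m, rfl⟩ := hk
    rw [coeffMap_coeff, qExpand_coeff_mul, qExpand_coeff_mul, coeffMap_coeff]
  · rw [coeffMap_coeff, qExpand_coeff_of_not_dvd n _ hk, qExpand_coeff_of_not_dvd n _ hk,
      map_zero]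

theorem coeffMap_jqModC {S : Type*} [CommRing S] (f : R →+* S) :
    coeffMap f (jqModC R) = jqModC S :=
  map_jqModC f

theorem coeffMap_injective {S : Type*} [CommRing S] (f : R →+* S) (hf : Function.Injective f) :
    Function.Injective (coeffMap f) := by
  intro x y hxy
  ext k
  apply hf
  have := congrArg (fun z => HahnSeries.coeff z k) hxy
  simpa using this

/-- every ring hom out of `ℤ((q))`-type evaluation commutes with `evalJ`. -/
theorem ringHom_comp_evalJ {S : Type*} [CommRing S] (g : LaurentSeries R →+* LaurentSeries S)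
    (J : LaurentSeries R) : g.comp (evalJ J) = evalJ (g J) := by
  apply Polynomial.ringHom_ext
  · intro a
    simp [evalJ]
  · simp [evalJ]

theorem LB_jqModC : LB (jqModC R) (-1) := by
  have h := (LB_single (-1 : ℤ) (1 : R)).mul
    (LB_ofPowerSeries (jNum.map (Int.castRingHom R)))
  simpa [jqModC] using h

theorem coeff_jqModC_neg_one : (jqModC R).coeff (-1) = 1 := by
  have h := (LB_single (-1 : ℤ) (1 : R)).coeff_mul
    (LB_ofPowerSeries (jNum.map (Int.castRingHom R)))
  rw [add_zero] at h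
  rw [jqModC, h, HahnSeries.coeff_single_same, one_mul, coeff_zero_ofPowerSeries,
    ← PowerSeries.coeff_zero_eq_constantCoeff, PowerSeries.coeff_map,
    PowerSeries.coeff_zero_eq_constantCoeff, constantCoeff_jNum, map_one]

theorem LB_jqModC_pow (i : ℕ) : LB (jqModC R ^ i) (-(i : ℤ)) := by
  have h := (LB_jqModC (R := R)).pow i
  rwa [mul_neg, mul_one] at h

theorem coeff_jqModC_pow (i : ℕ) : (jqModC R ^ i).coeff (-(i : ℤ)) = 1 := by
  have h := (LB_jqModC (R := R)).coeff_pow i
  rwa [mul_neg, mul_one, coeff_jqModC_neg_one, one_pow] at h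


theorem map_eval_apply {A B : Type*} [CommRing A] [CommRing B] (g : A →+* B) (P : A[X]) (x : A) :
    g (P.eval x) = (P.map g).eval (g x) := by
  rw [eval_map, eval₂_hom]

/-- transport of `Φ(x, J)` along a ring hom of Laurent series rings. -/
theorem map_eval_evalJ {S : Type*} [CommRing S] (g : LaurentSeries R →+* LaurentSeries S)
    (Φ : Polynomial (Polynomial ℤ)) (J x : LaurentSeries R) :
    g ((Φ.map (evalJ J)).eval x) = (Φ.map (evalJ (g J))).eval (g x) := by
  rw [map_eval_apply, Polynomial.map_map, ringHom_comp_evalJ]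

theorem algebraMap_eq_single (c : R) :
    algebraMap R (LaurentSeries R) c = HahnSeries.single 0 c := by
  have h1 : algebraMap R (PowerSeries R) c = PowerSeries.C c := by
    simp
  rw [HahnSeries.algebraMap_apply', h1, HahnSeries.ofPowerSeries_C]
  rfl

theorem coeff_aeval (P : Polynomial R) (x : LaurentSeries R) (a : ℤ) :
    (Polynomial.aeval x P).coeff a =
      ∑ i ∈ Finset.range (P.natDegree + 1), P.coeff i * (x ^ i).coeff a := by
  rw [Polynomial.aeval_eq_sum_range, HahnSeries.coeff_sum]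
  refine Finset.sum_congr rfl fun i _ => ?_
  rw [Algebra.smul_def, algebraMap_eq_single, HahnSeries.coeff_single_mul, sub_zero]

/-- the coefficient of `P(jbar)` at `-deg P` is the leading coefficient of `P`. -/
theorem coeff_aeval_jqModC (P : Polynomial R) :
    (Polynomial.aeval (jqModC R) P).coeff (-(P.natDegree : ℤ)) = P.leadingCoeff := by
  rw [coeff_aeval, Finset.sum_eq_single P.natDegree]
  · rw [coeff_jqModC_pow, mul_one, Polynomial.coeff_natDegree]
  · intro i hi hne
    rw [LB_jqModC_pow i, mul_zero]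
    have : i < P.natDegree := lt_of_le_of_ne (Nat.lt_succ_iff.mp (Finset.mem_range.mp hi)) hne
    omega
  · intro h
    exact absurd (Finset.mem_range.mpr (Nat.lt_succ_self _)) h

theorem aeval_jqModC_injective :
    Function.Injective (Polynomial.aeval (jqModC R) : Polynomial R → LaurentSeries R) := by
  rw [injective_iff_map_eq_zero]
  intro P hP
  have h := coeff_aeval_jqModC P
  rw [hP, HahnSeries.coeff_zero] at h
  exact Polynomial.leadingCoeff_eq_zero.mp h.symm

theorem twist_one (x : LaurentSeries R) : twist (1 : Rˣ) x = x := by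
  ext n
  simp

theorem LB_natCast (n : ℕ) : LB ((n : ℕ) : LaurentSeries R) 0 := by
  rw [← map_natCast (HahnSeries.C : R →+* LaurentSeries R) n, HahnSeries.C_apply]
  exact LB_single 0 _

theorem coeff_zero_natCast (n : ℕ) : ((n : ℕ) : LaurentSeries R).coeff 0 = (n : R) := by
  rw [← map_natCast (HahnSeries.C : R →+* LaurentSeries R) n, HahnSeries.C_apply,
    HahnSeries.coeff_single_same]

theorem LB_deltaHat : LB (deltaHat R) 1 := by
  have h := (LB_single (1 : ℤ) (1 : R)).mul
    (LB_ofPowerSeries (dedekindEtaUnit.map (Int.castRingHom R)))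
  simpa [deltaHat] using h

theorem coeff_deltaHat_one : (deltaHat R).coeff 1 = 1 := by
  have h := (LB_single (1 : ℤ) (1 : R)).coeff_mul
    (LB_ofPowerSeries (dedekindEtaUnit.map (Int.castRingHom R)))
  rw [add_zero] at h
  rw [deltaHat, h, HahnSeries.coeff_single_same, one_mul, coeff_zero_ofPowerSeries,
    ← PowerSeries.coeff_zero_eq_constantCoeff, PowerSeries.coeff_map,
    PowerSeries.coeff_zero_eq_constantCoeff, constantCoeff_dedekindEtaUnit, map_one]

theorem LB_deltaHatInv : LB (deltaHatInv R) (-1) := by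
  have h := (LB_single (-1 : ℤ) (1 : R)).mul
    (LB_ofPowerSeries (dedekindEtaUnitInv.map (Int.castRingHom R)))
  simpa [deltaHatInv] using h

theorem coeff_deltaHatInv_neg_one : (deltaHatInv R).coeff (-1) = 1 := by
  have h := (LB_single (-1 : ℤ) (1 : R)).coeff_mul
    (LB_ofPowerSeries (dedekindEtaUnitInv.map (Int.castRingHom R)))
  rw [add_zero] at h
  rw [deltaHatInv, h, HahnSeries.coeff_single_same, one_mul, coeff_zero_ofPowerSeries,
    ← PowerSeries.coeff_zero_eq_constantCoeff, PowerSeries.coeff_map,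
    PowerSeries.coeff_zero_eq_constantCoeff, constantCoeff_dedekindEtaUnitInv, map_one]

end Toolkit

/-! ### The unit `ghat` -/

section GHat

variable (p : ℕ) [NeZero p]

theorem LB_gHat : LB (gHat p) ((p : ℤ) - 1) := by
  have h1 : LB ((p : LaurentSeries ℤ) ^ 12) 0 := by
    simpa using (LB_natCast (R := ℤ) p).pow 12
  have h2 : LB (qExpand ℤ p (deltaHat ℤ)) p := by
    simpa using LB_qExpand p (LB_deltaHat (R := ℤ))
  have h := (h1.mul h2).mul (LB_deltaHatInv (R := ℤ))
  have e : (0 : ℤ) + p + -1 = (p : ℤ) - 1 := by ring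
  rw [e] at h
  exact h

theorem coeff_gHat : (gHat p).coeff ((p : ℤ) - 1) = (p : ℤ) ^ 12 := by
  have h1 : LB ((p : LaurentSeries ℤ) ^ 12) 0 := by
    simpa using (LB_natCast (R := ℤ) p).pow 12
  have c1 : ((p : LaurentSeries ℤ) ^ 12).coeff 0 = (p : ℤ) ^ 12 := by
    have := (LB_natCast (R := ℤ) p).coeff_pow 12
    rw [mul_zero, coeff_zero_natCast] at this
    exact_mod_cast this
  have h2 : LB (qExpand ℤ p (deltaHat ℤ)) p := by
    simpa using LB_qExpand p (LB_deltaHat (R := ℤ))
  have c2 : (qExpand ℤ p (deltaHat ℤ)).coeff p = 1 := by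
    have := qExpand_coeff_mul p (deltaHat ℤ) 1
    rw [mul_one] at this
    rw [this, coeff_deltaHat_one]
  have h12 := h1.mul h2
  have c12 := h1.coeff_mul h2
  have c := h12.coeff_mul (LB_deltaHatInv (R := ℤ))
  have e : (0 : ℤ) + p + -1 = (p : ℤ) - 1 := by ring
  rw [e, c12, c1, c2, coeff_deltaHatInv_neg_one, mul_one, mul_one] at c
  exact c

/-- reduction of `ghat` to a field in which `p ≠ 0`: nonzero, and no coefficients at indices
`≤ 0`. -/
theorem coeff_coeffMap_gHat_of_nonpos (κ : Type*) [CommRing κ] {m : ℤ} (hm : m ≤ 0)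
    (hp1 : 1 < p) : (coeffMap (Int.castRingHom κ) (gHat p)).coeff m = 0 := by
  apply LB_coeffMap (Int.castRingHom κ) (LB_gHat p)
  have : (1 : ℤ) < p := by exact_mod_cast hp1
  omega

theorem coeffMap_gHat_ne_zero (κ : Type*) [Field κ] (hpκ : (p : κ) ≠ 0) :
    coeffMap (Int.castRingHom κ) (gHat p) ≠ 0 := by
  intro h
  have := congrArg (fun z => HahnSeries.coeff z ((p : ℤ) - 1)) h
  simp only [coeffMap_coeff, coeff_gHat, HahnSeries.coeff_zero] at this
  apply pow_ne_zero 12 hpκ
  rw [eq_intCast, Int.cast_pow, Int.cast_natCast] at this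
  exact this

end GHat

/-! ### Consequences of the root formula -/

section RootFormula

variable (p : ℕ) [hp : Fact p.Prime]

/-- the root formula of `Stmt_FormalPrime` at `ξ = 1`, `m = 1`, in the variable `t` with
`q = t^p`:  `Φ(X, jbar(t^p)) = (X - jbar(t^(p^2))) * ∏_b (X - jbar(ω^b t))`. -/
theorem rootFormula_one (k : Type) [Field k] (Φ : Polynomial (Polynomial ℤ)) (ω : kˣ)
    (hroot : ∀ (ξ : kˣ) (m : ℕ+),
      Φ.map (evalJ (Jsub k (ξ ^ p) (⟨p, hp.out.pos⟩ * m))) =
        (X - C (Jsub k (ξ ^ (p ^ 2)) (⟨p, hp.out.pos⟩ ^ 2 * m))) *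
          ∏ b ∈ Finset.range p, (X - C (Jsub k (ω ^ b * ξ) m))) :
    Φ.map (evalJ (qExpand k p (jqModC k))) =
      (X - C (qExpand k p (qExpand k p (jqModC k)))) *
        ∏ b ∈ Finset.range p, (X - C (twist (ω ^ b) (jqModC k))) := by
  have h := hroot 1 1
  have e1 : Jsub k ((1 : kˣ) ^ p) (⟨p, hp.out.pos⟩ * 1) = qExpand k p (jqModC k) := by
    rw [one_pow, Jsub, twist_one]
    exact qExpand_congr (show p * 1 = p from mul_one p) _
  have e2 : Jsub k ((1 : kˣ) ^ (p ^ 2)) (⟨p, hp.out.pos⟩ ^ 2 * 1) =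
      qExpand k p (qExpand k p (jqModC k)) := by
    rw [one_pow, Jsub, twist_one, qExpand_qExpand]
    exact qExpand_congr (show p ^ 2 * 1 = p * p by ring) _
  have e3 : ∀ b : ℕ, Jsub k (ω ^ b * 1) 1 = twist (ω ^ b) (jqModC k) := by
    intro b
    rw [mul_one, Jsub]
    exact qExpand_one_apply _
  rw [e1, e2] at h
  rw [h]
  congr 1
  exact Finset.prod_congr rfl fun b _ => by rw [e3]

theorem not_dvd_neg_one : ¬ ((p : ℤ) ∣ -1) := by
  intro h
  have h1 : (p : ℤ) ∣ 1 := (dvd_neg).mp h
  have h2 : p ∣ 1 := by exact_mod_cast h1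
  exact hp.out.one_lt.ne' (Nat.dvd_one.mp h2)

/-- `jbar(q^p)` has no `q^(-1)` term. -/
theorem coeff_qExpand_neg_one {R : Type*} [CommRing R] (x : LaurentSeries R) :
    (qExpand R p x).coeff (-1) = 0 :=
  qExpand_coeff_of_not_dvd p x (not_dvd_neg_one p)

/-- `Φ(jbar, jbar(q^p)) = 0` over any field with a primitive `p`-th root of unity
(root formula at `b = 0`). -/
theorem eval_symm_of_rootFormula (k : Type) [Field k] (Φ : Polynomial (Polynomial ℤ)) (ω : kˣ)
    (hroot : ∀ (ξ : kˣ) (m : ℕ+),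
      Φ.map (evalJ (Jsub k (ξ ^ p) (⟨p, hp.out.pos⟩ * m))) =
        (X - C (Jsub k (ξ ^ (p ^ 2)) (⟨p, hp.out.pos⟩ ^ 2 * m))) *
          ∏ b ∈ Finset.range p, (X - C (Jsub k (ω ^ b * ξ) m))) :
    (Φ.map (evalJ (qExpand k p (jqModC k)))).eval (jqModC k) = 0 := by
  rw [rootFormula_one p k Φ ω hroot, eval_mul, eval_prod]
  have : ∏ b ∈ Finset.range p, eval (jqModC k) (X - C (twist (ω ^ b) (jqModC k))) = 0 := by
    apply Finset.prod_eq_zero (Finset.mem_range.mpr hp.out.pos)
    rw [pow_zero, twist_one, eval_sub, eval_X, eval_C, sub_self]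
  rw [this, mul_zero]

theorem exists_primitiveRoot_units (k : Type) [Field k] [IsSepClosed k] (hpk : (p : k) ≠ 0) :
    ∃ ω : kˣ, IsPrimitiveRoot ω p := by
  have : NeZero ((p : ℕ) : k) := ⟨hpk⟩
  have := IsSepClosed.hasEnoughRootsOfUnity k p
  obtain ⟨ζ, hζ⟩ := HasEnoughRootsOfUnity.exists_primitiveRoot k p
  refine ⟨Units.mk0 ζ (hζ.ne_zero hp.out.ne_zero), ?_⟩
  rw [← IsPrimitiveRoot.coe_units_iff]
  exact hζ

/-- `Ψ(j_p) ≠ 0` after reduction to any field in which `p ≠ 0` (`j_p` is a simple root of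
`Φ(X, j)`). -/
theorem coeffMap_psi_eval_ne_zero (κ : Type) [Field κ] (hpκ : (p : κ) ≠ 0)
    (Φ : Polynomial (Polynomial ℤ)) (Ψ : Polynomial (LaurentSeries ℤ))
    (hfac : Φ.map (evalJ (jqModC ℤ)) = (X - C (qExpand ℤ p (jqModC ℤ))) * Ψ)
    (hroot : ∀ (k : Type) [Field k] (ω : kˣ), IsPrimitiveRoot ω p → ∀ (ξ : kˣ) (m : ℕ+),
      Φ.map (evalJ (Jsub k (ξ ^ p) (⟨p, hp.out.pos⟩ * m))) =
        (X - C (Jsub k (ξ ^ (p ^ 2)) (⟨p, hp.out.pos⟩ ^ 2 * m))) *
          ∏ b ∈ Finset.range p, (X - C (Jsub k (ω ^ b * ξ) m))) :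
    coeffMap (Int.castRingHom κ) (Ψ.eval (qExpand ℤ p (jqModC ℤ))) ≠ 0 := by
  intro hzero
  let k := AlgebraicClosure κ
  have hpk : ((p : ℕ) : k) ≠ 0 := by
    rw [← map_natCast (algebraMap κ k)]
    exact (_root_.map_ne_zero _).mpr hpκ
  obtain ⟨ω, hω⟩ := exists_primitiveRoot_units p k hpk
  have hR := rootFormula_one p k Φ ω (hroot k ω hω)
  let g : LaurentSeries ℤ →+* LaurentSeries k :=
    (qExpand k p).comp (coeffMap (Int.castRingHom k))
  have hgj : g (jqModC ℤ) = qExpand k p (jqModC k) := by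
    simp only [g, RingHom.comp_apply, coeffMap_jqModC]
  have hgv : g (qExpand ℤ p (jqModC ℤ)) = qExpand k p (qExpand k p (jqModC k)) := by
    simp only [g, RingHom.comp_apply, coeffMap_qExpand, coeffMap_jqModC]
  have h1 : Φ.map (evalJ (qExpand k p (jqModC k))) =
      (X - C (qExpand k p (qExpand k p (jqModC k)))) * Ψ.map g := by
    have := congrArg (Polynomial.map g) hfac
    rw [Polynomial.map_map, ringHom_comp_evalJ, Polynomial.map_mul, Polynomial.map_sub,
      Polynomial.map_X, Polynomial.map_C, hgj, hgv] at this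
    exact this
  have h2 : Ψ.map g = ∏ b ∈ Finset.range p, (X - C (twist (ω ^ b) (jqModC k))) :=
    mul_left_cancel₀ (monic_X_sub_C _).ne_zero (h1.symm.trans hR)
  have h3 : g (Ψ.eval (qExpand ℤ p (jqModC ℤ))) =
      ∏ b ∈ Finset.range p, (qExpand k p (qExpand k p (jqModC k)) - twist (ω ^ b) (jqModC k)) := by
    rw [map_eval_apply, h2, hgv, eval_prod]
    exact Finset.prod_congr rfl fun b _ => by rw [eval_sub, eval_X, eval_C]
  have h4 : g (Ψ.eval (qExpand ℤ p (jqModC ℤ))) = 0 := by
    have e : coeffMap (Int.castRingHom k) (Ψ.eval (qExpand ℤ p (jqModC ℤ))) =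
        coeffMap (algebraMap κ k) (coeffMap (Int.castRingHom κ)
          (Ψ.eval (qExpand ℤ p (jqModC ℤ)))) := by
      rw [coeffMap_coeffMap]
      exact coeffMap_congr (RingHom.ext_int _ _) _
    simp only [g, RingHom.comp_apply]
    rw [e, hzero, map_zero, map_zero]
  rw [h4] at h3
  have h5 := Finset.prod_eq_zero_iff.mp h3.symm
  obtain ⟨b, -, hb⟩ := h5
  have h6 := congrArg (fun z => HahnSeries.coeff z (-1)) hb
  simp only [HahnSeries.coeff_sub, HahnSeries.coeff_zero, coeff_qExpand_neg_one, twist_coeff,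
    coeff_jqModC_neg_one, mul_one, zero_sub, neg_eq_zero] at h6
  exact Units.ne_zero _ h6

end RootFormula

/-! ### The embedding `κ(Y) → κ((q))`, `Y ↦ jbar` -/

section Embedding

variable (κ : Type) [Field κ]

/-- `κ[Y] → κ((q))`, `Y ↦ jbar`, as a ring hom. -/
def polyToLaurent : Polynomial κ →+* LaurentSeries κ :=
  (Polynomial.aeval (jqModC κ) : Polynomial κ →ₐ[κ] LaurentSeries κ).toRingHom

theorem polyToLaurent_apply (P : Polynomial κ) :
    polyToLaurent κ P = Polynomial.aeval (jqModC κ) P := rfl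

theorem polyToLaurent_injective : Function.Injective (polyToLaurent κ) :=
  aeval_jqModC_injective

/-- `κ(Y) → κ((q))`, `Y ↦ jbar`. -/
def ratToLaurent : RatFunc κ →+* LaurentSeries κ :=
  IsFractionRing.lift (polyToLaurent_injective κ)

theorem ratToLaurent_algebraMap (P : Polynomial κ) :
    ratToLaurent κ (algebraMap (Polynomial κ) (RatFunc κ) P) = polyToLaurent κ P :=
  IsFractionRing.lift_algebraMap _ P

theorem ratToLaurent_comp :
    (ratToLaurent κ).comp (algebraMap (Polynomial κ) (RatFunc κ)) = polyToLaurent κ :=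
  RingHom.ext (ratToLaurent_algebraMap κ)

/-- `ℤ[Y] → κ(Y)`. -/
def intPolyToRat : Polynomial ℤ →+* RatFunc κ :=
  (algebraMap (Polynomial κ) (RatFunc κ)).comp (Polynomial.mapRingHom (Int.castRingHom κ))

theorem polyToLaurent_comp_map :
    (polyToLaurent κ).comp (Polynomial.mapRingHom (Int.castRingHom κ)) = evalJ (jqModC κ) := by
  apply Polynomial.ringHom_ext
  · intro a
    simp [polyToLaurent, evalJ]
  · simp [polyToLaurent, evalJ]

theorem ratToLaurent_comp_intPolyToRat :
    (ratToLaurent κ).comp (intPolyToRat κ) = evalJ (jqModC κ) := by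
  rw [intPolyToRat, ← RingHom.comp_assoc, ratToLaurent_comp, polyToLaurent_comp_map]

/-- membership in `κ(jbar)` means being in the range of `ratToLaurent`. -/
theorem mem_adjoin_iff (x : LaurentSeries κ) :
    x ∈ IntermediateField.adjoin κ {jqModC κ} ↔ ∃ r : RatFunc κ, ratToLaurent κ r = x := by
  rw [IntermediateField.mem_adjoin_simple_iff]
  constructor
  · rintro ⟨A, B, rfl⟩
    refine ⟨algebraMap _ _ A / algebraMap _ _ B, ?_⟩
    rw [map_div₀, ratToLaurent_algebraMap, ratToLaurent_algebraMap]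
    rfl
  · rintro ⟨r, rfl⟩
    obtain ⟨A, B, hB, rfl⟩ := IsFractionRing.div_surjective (A := Polynomial κ) r
    refine ⟨A, B, ?_⟩
    rw [map_div₀, ratToLaurent_algebraMap, ratToLaurent_algebraMap]
    rfl

end Embedding

/-! ### P6: `j_p ∉ κ(j)` -/

section Core

variable (p : ℕ) [hp : Fact p.Prime]

/-- core of P6: `jbar(q^p)` is not in the image of `κ(Y)`. -/
theorem ratToLaurent_ne_qExpand (h : Stmt_FormalPrime p) (κ : Type) [Field κ]
    (hpκ : (p : κ) ≠ 0) (r : RatFunc κ) :
    ratToLaurent κ r ≠ qExpand κ p (jqModC κ) := by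
  intro hr
  obtain ⟨Φ, G, T, Ψ, -, -, hGm, -, hGg, hfac, htr, hroot⟩ := h
  set v : LaurentSeries κ := qExpand κ p (jqModC κ) with hv
  set cκ : LaurentSeries ℤ →+* LaurentSeries κ := coeffMap (Int.castRingHom κ) with hcκ
  set φ := ratToLaurent κ with hφ
  set eK := intPolyToRat κ with heK
  have hφe : φ.comp eK = evalJ (jqModC κ) := ratToLaurent_comp_intPolyToRat κ
  have hφinj : Function.Injective φ := φ.injective
  have hcj : cκ (jqModC ℤ) = jqModC κ := coeffMap_jqModC _
  have hcv : cκ (qExpand ℤ p (jqModC ℤ)) = v := by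
    rw [hcκ, coeffMap_qExpand, coeffMap_jqModC]
  -- the factorisation over `κ((q))`
  have hfacκ : Φ.map (evalJ (jqModC κ)) = (X - C v) * Ψ.map cκ := by
    have := congrArg (Polynomial.map cκ) hfac
    rw [Polynomial.map_map, ringHom_comp_evalJ, Polynomial.map_mul, Polynomial.map_sub,
      Polynomial.map_X, Polynomial.map_C, hcj, hcv] at this
    exact this
  -- `Ψ` descends to `κ(Y)`
  set ΨK : Polynomial (RatFunc κ) := Φ.map eK /ₘ (X - C r) with hΨK
  have hΨK' : ΨK.map φ = Ψ.map cκ := by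
    rw [hΨK, Polynomial.map_divByMonic φ (monic_X_sub_C r), Polynomial.map_map, hφe,
      Polynomial.map_sub, Polynomial.map_X, Polynomial.map_C, hr, hfacκ,
      Polynomial.mul_divByMonic_cancel_left _ (monic_X_sub_C v)]
  -- the trace identity over `κ((q))`
  have htrκ : (Ψ.map cκ).eval v * cκ (gHat p) =
      ∑ i ∈ Finset.range (p + 1), (Ψ.map cκ).coeff i * evalJ (jqModC κ) (T i) := by
    have := congrArg cκ htr
    rw [map_mul, map_eval_apply, hcv, map_sum] at this
    rw [this]
    refine Finset.sum_congr rfl fun i _ => ?_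
    rw [map_mul, Polynomial.coeff_map, ← RingHom.comp_apply, ringHom_comp_evalJ, hcj]
  -- the denominator
  set D : RatFunc κ := ΨK.eval r with hD
  have hφD : φ D = (Ψ.map cκ).eval v := by
    rw [hD, map_eval_apply, hΨK', hr]
  have hDne : φ D ≠ 0 := by
    rw [hφD, ← hcv, ← map_eval_apply]
    exact coeffMap_psi_eval_ne_zero p κ hpκ Φ Ψ hfac hroot
  -- `gbar` lies in the image of `κ(Y)`
  set s : RatFunc κ := (∑ i ∈ Finset.range (p + 1), ΨK.coeff i * eK (T i)) / D with hs
  have hφs : φ s = cκ (gHat p) := by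
    rw [hs, map_div₀, map_sum, eq_comm, eq_div_iff hDne, mul_comm, hφD, htrκ]
    refine Finset.sum_congr rfl fun i _ => ?_
    rw [map_mul, ← hΨK', Polynomial.coeff_map, ← RingHom.comp_apply φ eK, hφe]
  -- `gbar` is integral over `κ[Y]`, hence a polynomial in `jbar`
  have hGκ : (G.map (evalJ (jqModC κ))).eval (cκ (gHat p)) = 0 := by
    have := congrArg cκ hGg
    rw [map_eval_evalJ, hcj, map_zero] at this
    exact this
  have hGs : ((G.map (Polynomial.mapRingHom (Int.castRingHom κ))).map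
      (algebraMap (Polynomial κ) (RatFunc κ))).eval s = 0 := by
    apply hφinj
    rw [map_zero, map_eval_apply, hφs, Polynomial.map_map, Polynomial.map_map,
      RingHom.comp_assoc]
    have : φ.comp ((algebraMap (Polynomial κ) (RatFunc κ)).comp
        (Polynomial.mapRingHom (Int.castRingHom κ))) = evalJ (jqModC κ) := hφe
    rw [this]
    exact hGκ
  have hint : IsIntegral (Polynomial κ) s := by
    refine ⟨G.map (Polynomial.mapRingHom (Int.castRingHom κ)), hGm.map _, ?_⟩
    rw [← Polynomial.eval_map]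
    exact hGs
  obtain ⟨P, hP⟩ := IsIntegrallyClosed.isIntegral_iff.mp hint
  have hgP : cκ (gHat p) = Polynomial.aeval (jqModC κ) P := by
    rw [← hφs, ← hP]
    exact ratToLaurent_algebraMap κ P
  have hPne : P ≠ 0 := by
    rintro rfl
    rw [map_zero] at hgP
    exact coeffMap_gHat_ne_zero p κ hpκ hgP
  have hc := coeff_aeval_jqModC P
  rw [← hgP, coeff_coeffMap_gHat_of_nonpos p κ (by omega) hp.out.one_lt] at hc
  exact hPne (Polynomial.leadingCoeff_eq_zero.mp hc.symm)

/-- **P6 (prime-level Igusa)**: `jbar(q^p) ∉ κ(jbar)` for every field `κ` in which `p ≠ 0`. -/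
theorem qExpand_jq_not_mem_adjoin (h : Stmt_FormalPrime p) (κ : Type) [Field κ]
    (hpκ : (p : κ) ≠ 0) :
    qExpand κ p (jqModC κ) ∉ IntermediateField.adjoin κ {jqModC κ} := by
  rw [mem_adjoin_iff]
  rintro ⟨r, hr⟩
  exact ratToLaurent_ne_qExpand p h κ hpκ r hr

/-- (F1) `Φ(j_p, j) = 0` over every commutative ring, from the factorisation over `ℤ`. -/
theorem eval_qExpand_eq_zero_of_fac (Φ : Polynomial (Polynomial ℤ))
    (Ψ : Polynomial (LaurentSeries ℤ))
    (hfac : Φ.map (evalJ (jqModC ℤ)) = (X - C (qExpand ℤ p (jqModC ℤ))) * Ψ)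
    (R : Type) [CommRing R] :
    (Φ.map (evalJ (jqModC R))).eval (qExpand R p (jqModC R)) = 0 := by
  have h0 : (Φ.map (evalJ (jqModC ℤ))).eval (qExpand ℤ p (jqModC ℤ)) = 0 := by
    rw [hfac, eval_mul, eval_sub, eval_X, eval_C, sub_self, zero_mul]
  have := congrArg (coeffMap (Int.castRingHom R)) h0
  rw [map_eval_evalJ, coeffMap_qExpand, coeffMap_jqModC, map_zero] at this
  exact this

/-- (F2) `Φ(j, j_p) = 0` over every commutative ring, from the root formula over `ℂ`. -/
theorem eval_jq_eq_zero_of_rootFormula (Φ : Polynomial (Polynomial ℤ))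
    (hroot : ∀ (ω : ℂˣ), IsPrimitiveRoot ω p → ∀ (ξ : ℂˣ) (m : ℕ+),
      Φ.map (evalJ (Jsub ℂ (ξ ^ p) (⟨p, hp.out.pos⟩ * m))) =
        (X - C (Jsub ℂ (ξ ^ (p ^ 2)) (⟨p, hp.out.pos⟩ ^ 2 * m))) *
          ∏ b ∈ Finset.range p, (X - C (Jsub ℂ (ω ^ b * ξ) m)))
    (R : Type) [CommRing R] :
    (Φ.map (evalJ (qExpand R p (jqModC R)))).eval (jqModC R) = 0 := by
  obtain ⟨ω, hω⟩ := exists_primitiveRoot_units p ℂ (Nat.cast_ne_zero.mpr hp.out.ne_zero)
  have hC := eval_symm_of_rootFormula p ℂ Φ ω (hroot ω hω)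
  have hZ : (Φ.map (evalJ (qExpand ℤ p (jqModC ℤ)))).eval (jqModC ℤ) = 0 := by
    apply coeffMap_injective (Int.castRingHom ℂ) Int.cast_injective
    rw [map_eval_evalJ, coeffMap_qExpand, coeffMap_jqModC, map_zero]
    exact hC
  have := congrArg (coeffMap (Int.castRingHom R)) hZ
  rw [map_eval_evalJ, coeffMap_qExpand, coeffMap_jqModC, map_zero] at this
  exact this

/-- **Prime-level relations**: the modular polynomial `Φ_p` with `Φ(j_p, j) = 0` (F1) and
`Φ(j, j_p) = 0` (F2) over every commutative ring. -/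
theorem exists_phi (h : Stmt_FormalPrime p) :
    ∃ Φ : Polynomial (Polynomial ℤ), Φ.Monic ∧ Φ.natDegree = p + 1 ∧
      (∀ (R : Type) [CommRing R],
        (Φ.map (evalJ (jqModC R))).eval (qExpand R p (jqModC R)) = 0) ∧
      (∀ (R : Type) [CommRing R],
        (Φ.map (evalJ (qExpand R p (jqModC R)))).eval (jqModC R) = 0) := by
  obtain ⟨Φ, G, T, Ψ, hΦm, hΦd, -, -, -, hfac, -, hroot⟩ := h
  exact ⟨Φ, hΦm, hΦd, fun R _ => eval_qExpand_eq_zero_of_fac p Φ Ψ hfac R,
    fun R _ => eval_jq_eq_zero_of_rootFormula p Φ (fun ω hω => hroot ℂ ω hω) R⟩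

end Core

end

end Fermat.Agent.S28.helper4598
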