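/-
S28 (Igusa), route P: prime-level DEGREE statement derived from `helper328.Stmt_FormalPrime p`.
Author: helper4598.  Hypothesis-passing on `Stmt_FormalPrime p`.

Notation in comments: `jbar = jqModC κ`, `V = qExpand κ p` (`q ↦ q^p`), `j_p = V jbar`.

Main results:
* `eval_map_qExpand_ne_zero` (order lemma L0): `1, jbar, .., jbar^(p-1)` are linearly independent
  over `V(κ((q)))`;
* `primeLevel_degree` : for a prime `p`, `h : Stmt_FormalPrime p` and a field `κ` with `p ≠ 0`,
  no nonzero `Q ∈ κ[Y][X]` of `X`-degree `≤ p` satisfies `Q(j_p, jbar) = 0`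
  (so `[κ(j, j_p) : κ(j)] = p + 1`).
-/
import Mathlib
import Fermat.Agent.S28.helper4598_PrimeIgusa

set_option autoImplicit false

namespace Fermat.Agent.S28.helper4598

open Polynomial ModularCurve Fermat.Agent.S28.helper328

noncomputable section

/-! ### The order lemma -/

section OrderLemma

variable {R : Type*} [CommRing R]

theorem LB_order (x : LaurentSeries R) : LB x x.order :=
  fun _ hm => HahnSeries.coeff_eq_zero_of_lt_order hm

/-- **Order lemma (L0)**: a nonzero polynomial of degree `< p` with coefficients in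
`V(R((q)))` does not vanish at `jbar` (the orders of the terms are distinct mod `p`). -/
theorem eval_map_qExpand_ne_zero (p : ℕ) [NeZero p] (Q : Polynomial (LaurentSeries R))
    (hQ : Q ≠ 0) (hdeg : Q.natDegree < p) :
    (Q.map (qExpand R p)).eval (jqModC R) ≠ 0 := by
  classical
  intro h0
  rw [Polynomial.eval_map, Polynomial.eval₂_eq_sum_range] at h0
  set S : Finset ℕ := (Finset.range (Q.natDegree + 1)).filter (fun i => Q.coeff i ≠ 0) with hS
  have hSne : S.Nonempty :=
    ⟨Q.natDegree, Finset.mem_filter.mpr ⟨Finset.mem_range.mpr (Nat.lt_succ_self _),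
      by rw [Polynomial.coeff_natDegree]; exact Polynomial.leadingCoeff_ne_zero.mpr hQ⟩⟩
  set o : ℕ → ℤ := fun i => (p : ℤ) * (Q.coeff i).order - i with ho
  obtain ⟨i₀, hi₀S, hmin⟩ := Finset.exists_min_image S o hSne
  have hi₀ := Finset.mem_filter.mp hi₀S
  have hLB : ∀ i : ℕ, LB (qExpand R p (Q.coeff i) * jqModC R ^ i)
      ((p : ℤ) * (Q.coeff i).order + -(i : ℤ)) :=
    fun i => (LB_qExpand p (LB_order (Q.coeff i))).mul (LB_jqModC_pow i)
  have hc := congrArg (fun z => HahnSeries.coeff z (o i₀)) h0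
  simp only [HahnSeries.coeff_sum, HahnSeries.coeff_zero] at hc
  rw [Finset.sum_eq_single i₀] at hc
  · have h1 := (LB_qExpand p (LB_order (Q.coeff i₀))).coeff_mul (LB_jqModC_pow (R := R) i₀)
    rw [qExpand_coeff_mul, coeff_jqModC_pow, mul_one] at h1
    have e : o i₀ = (p : ℤ) * (Q.coeff i₀).order + -(i₀ : ℤ) := by rw [ho]; ring
    rw [e, h1] at hc
    exact hi₀.2 (HahnSeries.coeff_order_eq_zero.mp hc)
  · intro i hi hne
    by_cases hQi : Q.coeff i = 0
    · rw [hQi, map_zero, zero_mul, HahnSeries.coeff_zero]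
    · have hiS : i ∈ S := Finset.mem_filter.mpr ⟨hi, hQi⟩
      have hle := hmin i hiS
      apply hLB i
      have hlt : o i₀ ≠ o i := by
        intro heq
        apply hne
        have hdvd : (p : ℤ) ∣ (i : ℤ) - i₀ := by
          refine ⟨(Q.coeff i).order - (Q.coeff i₀).order, ?_⟩
          simp only [ho] at heq
          linarith
        have hi1 : i < p := lt_of_le_of_lt (Nat.lt_succ_iff.mp (Finset.mem_range.mp hi)) hdeg
        have hi2 : i₀ < p :=
          lt_of_le_of_lt (Nat.lt_succ_iff.mp (Finset.mem_range.mp hi₀.1)) hdeg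
        have habs : |(i : ℤ) - i₀| < p := by
          rw [abs_lt]
          constructor <;> omega
        have := Int.eq_zero_of_abs_lt_dvd hdvd habs
        omega
      have : o i₀ < o i := lt_of_le_of_ne hle hlt
      simp only [ho] at this ⊢
      linarith
  · intro hnot
    exact absurd hi₀.1 hnot

end OrderLemma

/-! ### The degree statement -/

section Degree

variable (p : ℕ) [hp : Fact p.Prime]

/-- **Prime-level degree**: for a field `κ` in which `p ≠ 0`, no nonzero polynomial
`Q ∈ κ[Y][X]` of `X`-degree `≤ p` satisfies `Q(j_p, jbar) = 0`.  Hence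
`[κ(jbar, j_p) : κ(jbar)] = p + 1` and `Φ_p(X, jbar)` is irreducible over `κ(jbar)`. -/
theorem primeLevel_degree (h : Stmt_FormalPrime p) (κ : Type) [Field κ]
    (hpκ : (p : κ) ≠ 0) (Q : Polynomial (Polynomial κ)) (hQ : Q ≠ 0) (hdeg : Q.natDegree ≤ p) :
    (Q.map (polyToLaurent κ)).eval (qExpand κ p (jqModC κ)) ≠ 0 := by
  classical
  intro hQ0
  have hF3 := ratToLaurent_ne_qExpand p h κ hpκ
  obtain ⟨Φ, G, T, Ψ, hΦm, hΦd, -, -, -, hfac, -, hroot⟩ := h
  have hp2 : 2 ≤ p := hp.out.two_le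
  set v : LaurentSeries κ := qExpand κ p (jqModC κ) with hv
  set cκ : LaurentSeries ℤ →+* LaurentSeries κ := coeffMap (Int.castRingHom κ) with hcκ
  set φ := ratToLaurent κ with hφ
  set eK := intPolyToRat κ with heK
  set W : LaurentSeries κ →+* LaurentSeries κ := qExpand κ p with hW
  have hφe : φ.comp eK = evalJ (jqModC κ) := ratToLaurent_comp_intPolyToRat κ
  have hcj : cκ (jqModC ℤ) = jqModC κ := coeffMap_jqModC _
  have hcv : cκ (qExpand ℤ p (jqModC ℤ)) = v := by
    rw [hcκ, coeffMap_qExpand, coeffMap_jqModC]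
  -- the factorisation over `κ((q))`
  set Ψκ : Polynomial (LaurentSeries κ) := Ψ.map cκ with hΨκ
  have hfacκ : Φ.map (evalJ (jqModC κ)) = (X - C v) * Ψκ := by
    have := congrArg (Polynomial.map cκ) hfac
    rw [Polynomial.map_map, ringHom_comp_evalJ, Polynomial.map_mul, Polynomial.map_sub,
      Polynomial.map_X, Polynomial.map_C, hcj, hcv] at this
    exact this
  have hF1 : (Φ.map (evalJ (jqModC κ))).eval v = 0 := eval_qExpand_eq_zero_of_fac p Φ Ψ hfac κ
  have hF2 : (Φ.map (evalJ (W (jqModC κ)))).eval (jqModC κ) = 0 :=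
    eval_jq_eq_zero_of_rootFormula p Φ (fun ω hω => hroot ℂ ω hω) κ
  -- `V(Ψ)` kills `jbar`
  have hΨW : ((Ψκ.map W).eval (jqModC κ)) = 0 := by
    have h1 : Φ.map (evalJ (W (jqModC κ))) = (X - C (W v)) * Ψκ.map W := by
      have := congrArg (Polynomial.map W) hfacκ
      rw [Polynomial.map_map, ringHom_comp_evalJ, Polynomial.map_mul, Polynomial.map_sub,
        Polynomial.map_X, Polynomial.map_C] at this
      exact this
    rw [h1, eval_mul, eval_sub, eval_X, eval_C] at hF2
    rcases mul_eq_zero.mp hF2 with h2 | h2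
    · exfalso
      have h3 := congrArg (fun z => HahnSeries.coeff z (-1)) h2
      simp only [HahnSeries.coeff_sub, HahnSeries.coeff_zero, coeff_jqModC_neg_one, hW,
        coeff_qExpand_neg_one, sub_zero] at h3
      exact one_ne_zero h3
    · exact h2
  -- pass to `κ(Y)`
  set ι := algebraMap (Polynomial κ) (RatFunc κ) with hι
  have hιinj : Function.Injective ι := IsFractionRing.injective (Polynomial κ) (RatFunc κ)
  set QK : Polynomial (RatFunc κ) := Q.map ι with hQK
  set ΦK : Polynomial (RatFunc κ) := Φ.map eK with hΦK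
  have hQKne : QK ≠ 0 := (Polynomial.map_eq_zero_iff hιinj).not.mpr hQ
  have hQKdeg : QK.natDegree ≤ p := natDegree_map_le.trans hdeg
  have hΦKm : ΦK.Monic := hΦm.map eK
  have hΦKdeg : ΦK.natDegree = p + 1 := by rw [hΦK, hΦm.natDegree_map, hΦd]
  have hQKφ : QK.map φ = Q.map (polyToLaurent κ) := by
    rw [hQK, Polynomial.map_map, hφ, hι, ratToLaurent_comp]
  have hΦKφ : ΦK.map φ = Φ.map (evalJ (jqModC κ)) := by
    rw [hΦK, Polynomial.map_map, hφe]
  -- the gcd
  set D := EuclideanDomain.gcd QK ΦK with hD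
  have hDQ : D ∣ QK := EuclideanDomain.gcd_dvd_left _ _
  have hDΦ : D ∣ ΦK := EuclideanDomain.gcd_dvd_right _ _
  have hbez : D = QK * EuclideanDomain.gcdA QK ΦK + ΦK * EuclideanDomain.gcdB QK ΦK :=
    EuclideanDomain.gcd_eq_gcd_ab QK ΦK
  have hDv : (D.map φ).eval v = 0 := by
    rw [hbez, Polynomial.map_add, Polynomial.map_mul, Polynomial.map_mul, hQKφ, hΦKφ, eval_add,
      eval_mul, eval_mul, hQ0, hF1, zero_mul, zero_mul, add_zero]
  have hDne : D ≠ 0 := by
    intro hD0
    rw [hD0, zero_dvd_iff] at hDQ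
    exact hQKne hDQ
  have hDdeg : D.natDegree ≤ p := (Polynomial.natDegree_le_of_dvd hDQ hQKne).trans hQKdeg
  obtain ⟨E, hE⟩ := hDΦ
  have hEne : E ≠ 0 := by
    rintro rfl
    rw [mul_zero] at hE
    exact hΦKm.ne_zero hE
  have hdegsum : D.natDegree + E.natDegree = p + 1 := by
    rw [← Polynomial.natDegree_mul hDne hEne, ← hE, hΦKdeg]
  -- images in `κ((q))[X]`
  have hD'ne : D.map φ ≠ 0 := Polynomial.map_ne_zero hDne
  have hE'ne : E.map φ ≠ 0 := Polynomial.map_ne_zero hEne
  have hD'deg : (D.map φ).natDegree = D.natDegree := Polynomial.natDegree_map φ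
  have hE'deg : (E.map φ).natDegree = E.natDegree := Polynomial.natDegree_map φ
  obtain ⟨D₁, hD₁⟩ := Polynomial.dvd_iff_isRoot.mpr hDv
  have hD₁ne : D₁ ≠ 0 := by
    rintro rfl
    rw [mul_zero] at hD₁
    exact hD'ne hD₁
  have hD₁deg : D.natDegree = 1 + D₁.natDegree := by
    rw [← hD'deg, hD₁, Polynomial.natDegree_mul (monic_X_sub_C v).ne_zero hD₁ne,
      Polynomial.natDegree_X_sub_C]
  have hΨfac : Ψκ = D₁ * E.map φ := by
    have h1 : (X - C v) * Ψκ = (X - C v) * (D₁ * E.map φ) := by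
      rw [← hfacκ, ← hΦKφ, hE, Polynomial.map_mul, hD₁, mul_assoc]
    exact mul_left_cancel₀ (monic_X_sub_C v).ne_zero h1
  by_cases hD1 : D.natDegree = 1
  · -- a linear factor over `κ(Y)`: `j_p ∈ κ(jbar)`
    have hDlin := Polynomial.eq_X_add_C_of_natDegree_le_one hD1.le
    have ha1 : D.coeff 1 ≠ 0 := by
      rw [← hD1, Polynomial.coeff_natDegree]
      exact Polynomial.leadingCoeff_ne_zero.mpr hDne
    rw [hDlin, Polynomial.map_add, Polynomial.map_mul, Polynomial.map_C, Polynomial.map_X,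
      Polynomial.map_C, eval_add, eval_mul, eval_C, eval_X, eval_C] at hDv
    have hφa1 : φ (D.coeff 1) ≠ 0 := (_root_.map_ne_zero φ).mpr ha1
    apply hF3 (-(D.coeff 0) / D.coeff 1)
    rw [map_div₀, map_neg, eq_comm, eq_div_iff hφa1]
    linear_combination hDv
  · -- both cofactors of `Ψ` have degree `< p`: contradiction with the order lemma
    have hD₁lt : D₁.natDegree < p := by omega
    have hE'lt : (E.map φ).natDegree < p := by omega
    have h0 : ((D₁ * E.map φ).map W).eval (jqModC κ) = 0 := by rw [← hΨfac]; exact hΨW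
    rw [Polynomial.map_mul, eval_mul] at h0
    rcases mul_eq_zero.mp h0 with h1 | h1
    · exact eval_map_qExpand_ne_zero p D₁ hD₁ne hD₁lt h1
    · exact eval_map_qExpand_ne_zero p (E.map φ) hE'ne hE'lt h1

/-- `primeLevel_degree` in `eval₂` form (shape of `Spec.IsIntegralOverZj`). -/
theorem primeLevel_degree_eval₂ (h : Stmt_FormalPrime p) (κ : Type) [Field κ]
    (hpκ : (p : κ) ≠ 0) (Q : Polynomial (Polynomial κ)) (hQ : Q ≠ 0) (hdeg : Q.natDegree ≤ p) :
    Q.eval₂ (Polynomial.aeval (jqModC κ) : Polynomial κ →ₐ[κ] LaurentSeries κ).toRingHom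
      (qExpand κ p (jqModC κ)) ≠ 0 := by
  have := primeLevel_degree p h κ hpκ Q hQ hdeg
  rwa [Polynomial.eval_map] at this

end Degree

end

end Fermat.Agent.S28.helper4598
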