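import Fermat.Agent.S28.helper4768_HubCount
import Fermat.Agent.S28.helper4768_Final
import Fermat.Agent.S28.helper7095_Hub

/-!
# S28: the `Φ`-free end game (helper4768)

`stmt_CoreInput_of_A_I`: `Spec.Stmt_CoreInput N ℓ` from the two prime-level statements over
`𝔽_ℓ` at the primes `p ∣ N`:

* (A) transposition: every relation `Q(V_p j̄; j̄) = 0` transposes to `Q(j̄; V_p j̄) = 0`;
* (I) independence: no nonzero `Q ∈ 𝔽_ℓ[Y][X]` of `X`-degree `≤ p` has `Q(V_p j̄; j̄) = 0`.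

Everything else is unconditional: the characteristic zero degree bound (Sturm counting,
`helper4768_DegSturm`), its reduction mod `ℓ` (`helper7095.hub_all`), the counting theorem
(`relrank_full_eq_dedekindPsi_of_hub`) and the final adapter (`stmt_CoreInput_of_relrank`).
-/

set_option autoImplicit false

noncomputable section

namespace Fermat.Agent.S28.helper4768

open IntermediateField ModularCurve Polynomial

/-- The degree of the mod `ℓ` function field of level `N` from (A) and (I). -/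
theorem relrank_full_modL_of_A_I (N : ℕ) [NeZero N] (ℓ : ℕ) [Fact ℓ.Prime]
    (hA : ∀ (p : ℕ) [NeZero p], p.Prime → p ∣ N → ∀ Q : Polynomial (Polynomial (ZMod ℓ)),
      helper1595.ev2 (qExpand (ZMod ℓ) p (jqModC (ZMod ℓ))) (jqModC (ZMod ℓ)) Q = 0 →
        helper1595.ev2 (jqModC (ZMod ℓ)) (qExpand (ZMod ℓ) p (jqModC (ZMod ℓ))) Q = 0)
    (hI : ∀ (p : ℕ) [NeZero p], p.Prime → p ∣ N → ∀ Q : Polynomial (Polynomial (ZMod ℓ)),
      Q ≠ 0 → Q.natDegree < p + 1 →
        helper1595.ev2 (qExpand (ZMod ℓ) p (jqModC (ZMod ℓ))) (jqModC (ZMod ℓ)) Q ≠ 0) :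
    ((ZMod ℓ)⟮jqModC (ZMod ℓ)⟯).relrank (modularFunctionFieldFullC (ZMod ℓ) N) =
      (dedekindPsi N : Cardinal) :=
  relrank_full_eq_dedekindPsi_of_hub (ZMod ℓ) N (NeZero.pos N)
    (helper7095.hub_all ℓ N (NeZero.pos N)) hA hI

/-- **The `Φ`-free end game**: (A) and (I) at the primes dividing `N` give the modular input of
the algebra core. -/
theorem stmt_CoreInput_of_A_I (N : ℕ) [NeZero N] (ℓ : ℕ) [Fact ℓ.Prime]
    (hA : ∀ (p : ℕ) [NeZero p], p.Prime → p ∣ N → ∀ Q : Polynomial (Polynomial (ZMod ℓ)),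
      helper1595.ev2 (qExpand (ZMod ℓ) p (jqModC (ZMod ℓ))) (jqModC (ZMod ℓ)) Q = 0 →
        helper1595.ev2 (jqModC (ZMod ℓ)) (qExpand (ZMod ℓ) p (jqModC (ZMod ℓ))) Q = 0)
    (hI : ∀ (p : ℕ) [NeZero p], p.Prime → p ∣ N → ∀ Q : Polynomial (Polynomial (ZMod ℓ)),
      Q ≠ 0 → Q.natDegree < p + 1 →
        helper1595.ev2 (qExpand (ZMod ℓ) p (jqModC (ZMod ℓ))) (jqModC (ZMod ℓ)) Q ≠ 0) :
    Spec.Stmt_CoreInput N ℓ :=
  stmt_CoreInput_of_relrank N ℓ (relrank_full_modL_of_A_I N ℓ hA hI)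

end Fermat.Agent.S28.helper4768
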