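import Fermat.Agent.S28.helper1595_Counting
import Fermat.Agent.S28.helper3292_JqFacts

/-!
# S28: the counting theorem without modular polynomials (helper4768)

`relrank_full_eq_dedekindPsi_of_hub`: over a field `k`, the upper bounds
`[k(j(q^d) : d ∣ M) : k(j)] ≤ ψ(M)` for `M ∣ N` together with, at every prime `p ∣ N`,

* (A) transposition: every relation `Q(V_p j; j) = 0` transposes to `Q(j; V_p j) = 0`;
* (I) independence: no nonzero `Q ∈ k[Y][X]` of `X`-degree `≤ p` has `Q(V_p j; j) = 0`;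

force `[k(j(q^d) : d ∣ N) : k(j)] = ψ(N)`.  No modular polynomial `Φ_p` is needed: the two degrees
of `k(j, V_p j)` satisfy `[k(j, V_p j) : k(V_p j)] ≤ p + 1 = [k(j, V_p j) : k(j)]`, which is all
the `V_p`-trick of `helper1595_Counting` uses.
-/

set_option autoImplicit false

noncomputable section

namespace Fermat.Agent.S28.helper4768

open IntermediateField ModularCurve Polynomial
open Fermat.Agent.S28.helper1595 (ev2 toAdj)

section Abstract

variable {k : Type*} [Field k] {Ω : Type*} [Field Ω] [Algebra k Ω]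

/-- If no nonzero `Q ∈ k[Y][X]` of `X`-degree `< n` kills `(y, x)`, then `[k(x, y) : k(x)] ≥ n`. -/
theorem natCast_le_relrank_pair (x y : Ω) (n : ℕ)
    (hmin : ∀ Q : Polynomial (Polynomial k), Q ≠ 0 → Q.natDegree < n → ev2 y x Q ≠ 0) :
    (n : Cardinal) ≤ (k⟮x⟯).relrank (k⟮x, y⟯) := by
  have h1 : k⟮x⟯ ≤ k⟮x, y⟯ := by
    rw [adjoin_le_iff]
    rintro z rfl
    exact subset_adjoin k _ (Set.mem_insert _ _)
  have hy : y ∈ k⟮x, y⟯ := subset_adjoin k _ (Set.mem_insert_of_mem _ rfl)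
  rw [relrank_eq_rank_of_le h1]
  let v : Fin n → ↥(extendScalars h1) := fun i => ⟨y ^ (i : ℕ), pow_mem hy _⟩
  have hli : LinearIndependent ↥(k⟮x⟯) v := by
    rw [Fintype.linearIndependent_iff]
    intro g hg
    have hg' : ∑ i, (g i : Ω) * y ^ (i : ℕ) = 0 := by
      have := congrArg (fun z : ↥(extendScalars h1) => (z : Ω)) hg
      simpa [v, Algebra.smul_def] using this
    exact helper1595.eq_zero_of_sum_mul_pow_of_min x y n hmin g hg'
  have := hli.cardinal_lift_le_rank
  simpa using this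

/-- If `[k(x, y) : k(x)] ≤ n`, there is a nonzero relation `Q(y; x) = 0` of `X`-degree `≤ n`. -/
theorem exists_rel_of_relrank_le (x y : Ω) (n : ℕ)
    (h : (k⟮x⟯).relrank (k⟮x, y⟯) ≤ (n : Cardinal)) :
    ∃ Q : Polynomial (Polynomial k), Q ≠ 0 ∧ Q.natDegree < n + 1 ∧ ev2 y x Q = 0 := by
  by_contra hcon
  push Not at hcon
  have h1 := natCast_le_relrank_pair x y (n + 1) (fun Q hQ hdeg => hcon Q hQ hdeg)
  have h2 : ((n + 1 : ℕ) : Cardinal) ≤ (n : Cardinal) := h1.trans h
  have h3 : n + 1 ≤ n := by exact_mod_cast h2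
  omega

/-- A nonzero relation `Q(x; y) = 0` of `X`-degree `≤ n`, with `y` transcendental over `k`,
bounds `[k(x, y) : k(y)] ≤ n`. -/
theorem relrank_pair_le_of_rel (x y : Ω) (n : ℕ)
    (hy : Function.Injective (aeval (R := k) y))
    (Q : Polynomial (Polynomial k)) (hQ : Q ≠ 0) (hdeg : Q.natDegree ≤ n)
    (h0 : ev2 x y Q = 0) :
    (k⟮y⟯).relrank (k⟮x, y⟯) ≤ (n : Cardinal) := by
  have hinj : Function.Injective (toAdj (k := k) y) := by
    intro a b hab
    apply hy
    have h1 := congrArg (algebraMap ↥k⟮y⟯ Ω) hab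
    rw [← RingHom.comp_apply, ← RingHom.comp_apply, helper1595.algebraMap_comp_toAdj] at h1
    exact h1
  have hne : Q.map (toAdj y) ≠ 0 := (Polynomial.map_ne_zero_iff hinj).mpr hQ
  have hroot : aeval x (Q.map (toAdj y)) = 0 := by rw [helper1595.aeval_map_toAdj, h0]
  have hint : IsIntegral ↥k⟮y⟯ x := isAlgebraic_iff_isIntegral.mp ⟨_, hne, hroot⟩
  rw [Set.pair_comm, ← adjoin_simple_adjoin_simple k y x,
    helper1595.relrank_adjoin_simple _ _ hint]
  have h2 : (minpoly ↥k⟮y⟯ x).natDegree ≤ n :=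
    (natDegree_le_of_dvd (minpoly.dvd _ _ hroot) hne).trans (natDegree_map_le.trans hdeg)
  exact_mod_cast h2

end Abstract

section Rank

variable {k : Type*} [Field k]

/-- The `V_p`-trick, needing only `[k(J, V_p J) : k(V_p J)] ≤ [k(J, V_p J) : k(J)]`. -/
theorem relrank_mul_le_of_le (p : ℕ) [NeZero p] (J : LaurentSeries k) (hJ0 : J ≠ 0)
    (hJ : J.order = -1) (K K' : IntermediateField k (LaurentSeries k))
    (hK : k⟮J⟯ ≤ K) (hJK' : J ∈ K') (hVK : K.map (qExpandAlgHomC k p) ≤ K')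
    (hsym : (k⟮qExpand k p J⟯).relrank (k⟮J, qExpand k p J⟯) ≤
      (k⟮J⟯).relrank (k⟮J, qExpand k p J⟯)) :
    (p : Cardinal) * (k⟮J⟯).relrank K ≤ (k⟮J⟯).relrank K' := by
  have hE2 : (k⟮J⟯).map (qExpandAlgHomC k p) = k⟮qExpand k p J⟯ := by
    rw [adjoin_map, Set.image_singleton, qExpandAlgHomC_apply]
  have hE2K : k⟮qExpand k p J⟯ ≤ K.map (qExpandAlgHomC k p) := by
    rw [← hE2]
    exact IntermediateField.map_mono _ hK
  have hVJK' : qExpand k p J ∈ K' := hVK (hE2K (mem_adjoin_simple_self k _))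
  have hE12 : k⟮J, qExpand k p J⟯ ≤ K' := by
    rw [adjoin_le_iff]
    rintro x (rfl | rfl)
    · exact hJK'
    · exact hVJK'
  have h1 : k⟮J⟯ ≤ k⟮J, qExpand k p J⟯ := by
    rw [adjoin_le_iff]
    rintro x rfl
    exact subset_adjoin k _ (Set.mem_insert _ _)
  have h2 : k⟮qExpand k p J⟯ ≤ k⟮J, qExpand k p J⟯ := by
    rw [adjoin_le_iff]
    rintro x rfl
    exact subset_adjoin k _ (Set.mem_insert_of_mem _ rfl)
  have hrange : ∀ x ∈ K.map (qExpandAlgHomC k p), x ∈ Set.range (qExpand k p) := by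
    rintro x ⟨y, -, rfl⟩
    exact ⟨y, rfl⟩
  have hp := helper1595.natCast_le_relrank p J hJ0 hJ (K.map (qExpandAlgHomC k p)) K' hrange
    hVK hJK'
  calc (p : Cardinal) * (k⟮J⟯).relrank K
      = (p : Cardinal) * ((k⟮J⟯).map (qExpandAlgHomC k p)).relrank (K.map (qExpandAlgHomC k p)) := by
        rw [relrank_map_map]
    _ = (k⟮qExpand k p J⟯).relrank (K.map (qExpandAlgHomC k p)) * (p : Cardinal) := by
        rw [hE2, mul_comm]
    _ ≤ (k⟮qExpand k p J⟯).relrank (K.map (qExpandAlgHomC k p)) *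
          (K.map (qExpandAlgHomC k p)).relrank K' := by gcongr
    _ = (k⟮qExpand k p J⟯).relrank K' := relrank_mul_relrank hE2K hVK
    _ = (k⟮qExpand k p J⟯).relrank (k⟮J, qExpand k p J⟯) * (k⟮J, qExpand k p J⟯).relrank K' :=
        (relrank_mul_relrank h2 hE12).symm
    _ ≤ (k⟮J⟯).relrank (k⟮J, qExpand k p J⟯) * (k⟮J, qExpand k p J⟯).relrank K' := by gcongr
    _ = (k⟮J⟯).relrank K' := relrank_mul_relrank h1 hE12

end Rank

section Fields

variable (k : Type*) [Field k]

theorem dedekindPsi_prime {p : ℕ} (hp : p.Prime) : dedekindPsi p = p + 1 := by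
  have h := helper1595.dedekindPsi_mul_prime_of_not_dvd hp (M := 1) one_pos
    (fun h => hp.one_lt.ne' (Nat.dvd_one.mp h))
  rw [one_mul, dedekindPsi_one, mul_one] at h
  exact h

/-- `V_p j` is transcendental over `k`. -/
theorem aeval_qExpand_jqModC_injective (p : ℕ) [NeZero p] :
    Function.Injective (aeval (R := k) (qExpand k p (jqModC k))) := by
  intro a b hab
  apply helper3292.aeval_jqModC_injective k
  have hV : Function.Injective (qExpandAlgHomC k p) := (qExpandAlgHomC k p).toRingHom.injective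
  apply hV
  rw [← aeval_algHom_apply, ← aeval_algHom_apply, qExpandAlgHomC_apply]
  exact hab

/-- The two degrees of `k(J, V_p J)` from the upper bound, transposition and independence. -/
theorem relrank_pair_of_hub (p : ℕ) [NeZero p] (hp : p.Prime)
    (hub : (k⟮jqModC k⟯).relrank (modularFunctionFieldFullC k p) ≤ (dedekindPsi p : Cardinal))
    (hA : ∀ Q : Polynomial (Polynomial k),
      ev2 (qExpand k p (jqModC k)) (jqModC k) Q = 0 →
        ev2 (jqModC k) (qExpand k p (jqModC k)) Q = 0)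
    (hI : ∀ Q : Polynomial (Polynomial k), Q ≠ 0 → Q.natDegree < p + 1 →
      ev2 (qExpand k p (jqModC k)) (jqModC k) Q ≠ 0) :
    (k⟮jqModC k⟯).relrank (k⟮jqModC k, qExpand k p (jqModC k)⟯) = ((p + 1 : ℕ) : Cardinal) ∧
    (k⟮qExpand k p (jqModC k)⟯).relrank (k⟮jqModC k, qExpand k p (jqModC k)⟯) ≤
      ((p + 1 : ℕ) : Cardinal) := by
  rw [modularFunctionFieldFullC, helper1595.divisorExpansionsC_prime k p hp,
    dedekindPsi_prime hp] at hub
  have hle : (k⟮jqModC k⟯).relrank (k⟮jqModC k, qExpand k p (jqModC k)⟯) ≤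
      ((p + 1 : ℕ) : Cardinal) := hub
  refine ⟨le_antisymm hle (natCast_le_relrank_pair _ _ (p + 1) hI), ?_⟩
  obtain ⟨Q, hQ, hdeg, h0⟩ := exists_rel_of_relrank_le (jqModC k) (qExpand k p (jqModC k))
    (p + 1) hle
  exact relrank_pair_le_of_rel (jqModC k) (qExpand k p (jqModC k)) (p + 1)
    (aeval_qExpand_jqModC_injective k p) Q hQ (by omega) (hA Q h0)

/-- **Counting theorem, `Φ`-free form**: the upper bounds `[K_M : k(J)] ≤ ψ(M)` for `M ∣ N`,
transposition and independence at the primes dividing `N` give `[K_N : k(J)] = ψ(N)`. -/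
theorem relrank_full_eq_dedekindPsi_of_hub (N : ℕ) (hN : 0 < N)
    (hub : ∀ M, M ∣ N →
      (k⟮jqModC k⟯).relrank (modularFunctionFieldFullC k M) ≤ (dedekindPsi M : Cardinal))
    (hA : ∀ (p : ℕ) [NeZero p], p.Prime → p ∣ N → ∀ Q : Polynomial (Polynomial k),
      ev2 (qExpand k p (jqModC k)) (jqModC k) Q = 0 →
        ev2 (jqModC k) (qExpand k p (jqModC k)) Q = 0)
    (hI : ∀ (p : ℕ) [NeZero p], p.Prime → p ∣ N → ∀ Q : Polynomial (Polynomial k), Q ≠ 0 →
      Q.natDegree < p + 1 → ev2 (qExpand k p (jqModC k)) (jqModC k) Q ≠ 0) :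
    (k⟮jqModC k⟯).relrank (modularFunctionFieldFullC k N) = (dedekindPsi N : Cardinal) := by
  have hfin : ∀ M, M ∣ N →
      (k⟮jqModC k⟯).relrank (modularFunctionFieldFullC k M) < Cardinal.aleph0 :=
    fun M hM => lt_of_le_of_lt (hub M hM) (Cardinal.natCast_lt_aleph0)
  have hcast : ∀ M, M ∣ N →
      (((k⟮jqModC k⟯).relfinrank (modularFunctionFieldFullC k M) : ℕ) : Cardinal) =
        (k⟮jqModC k⟯).relrank (modularFunctionFieldFullC k M) := by
    intro M hM
    rw [relfinrank_eq_toNat_relrank]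
    exact Cardinal.cast_toNat_of_lt_aleph0 (hfin M hM)
  have key := helper1595.counting N hN
    (fun M => (k⟮jqModC k⟯).relfinrank (modularFunctionFieldFullC k M)) ?_ ?_ ?_ ?_ ?_ N dvd_rfl
  · rw [← hcast N dvd_rfl]
    exact_mod_cast key
  · -- upper bound
    intro M hM
    have := hub M hM
    rw [← hcast M hM] at this
    exact_mod_cast this
  · -- divisibility
    intro M M' hMM' hM'N
    have hM'0 : M' ≠ 0 := fun h => hN.ne' (by rw [h] at hM'N; exact Nat.eq_zero_of_zero_dvd hM'N)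
    have hM0 : M ≠ 0 := fun h => hM'0 (by rw [h] at hMM'; exact Nat.eq_zero_of_zero_dvd hMM')
    have : NeZero M := ⟨hM0⟩
    have : NeZero M' := ⟨hM'0⟩
    exact Dvd.intro _ (relfinrank_mul_relfinrank (helper1595.adjoin_jqModC_le k M)
      (full_degeneracyC_le k hMM'))
  · -- the `V_p`-trick
    intro p M hp hMp
    have : NeZero p := ⟨hp.ne_zero⟩
    have hpN : p ∣ N := (Dvd.intro_left M rfl).trans hMp
    obtain ⟨hs1, hs2⟩ := relrank_pair_of_hub k p hp (hub p hpN) (hA p hp hpN) (hI p hp hpN)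
    have h := relrank_mul_le_of_le p (jqModC k) (helper1595.jqModC_ne_zero k)
      (helper1595.order_jqModC k)
      (modularFunctionFieldFullC k M) (modularFunctionFieldFullC k (M * p))
      (helper1595.adjoin_jqModC_le k M) (jqModC_mem_full k (M * p))
      (full_degeneracyC_map_le k M p) (hs2.trans hs1.symm.le)
    have hMN : M ∣ N := (Dvd.intro p rfl).trans hMp
    rw [← hcast M hMN, ← hcast (M * p) hMp] at h
    exact_mod_cast h
  · -- primes
    intro p hp hpN
    have : NeZero p := ⟨hp.ne_zero⟩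
    obtain ⟨hs1, -⟩ := relrank_pair_of_hub k p hp (hub p hpN) (hA p hp hpN) (hI p hp hpN)
    have h := hcast p hpN
    rw [modularFunctionFieldFullC, helper1595.divisorExpansionsC_prime k p hp] at h
    rw [hs1] at h
    show (k⟮jqModC k⟯).relfinrank (modularFunctionFieldFullC k p) = p + 1
    rw [modularFunctionFieldFullC, helper1595.divisorExpansionsC_prime k p hp]
    exact_mod_cast h
  · -- level one
    show (k⟮jqModC k⟯).relfinrank (modularFunctionFieldFullC k 1) = 1
    rw [modularFunctionFieldFullC, helper1595.divisorExpansionsC_one]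
    exact relfinrank_self _

end Fields

end Fermat.Agent.S28.helper4768
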