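/-
S28 / P2 — level-one "integral basis": every level-one modular form of weight `12 M` whose
`q`-expansion has coefficients in (the image of) a ring `A` is an `A`-linear combination of the
forms `E₄^(3(M-b)) Δ^b`, `0 ≤ b ≤ M`.   Author: helper4849.   No sorry.
-/
import Mathlib

set_option autoImplicit false

namespace Fermat.Agent.S28.helper4849

open ModularForm UpperHalfPlane EisensteinSeries MatrixGroups

noncomputable section

/-! ### Formal triangular elimination -/

section formal

variable {A : Type*} [CommRing A]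

/-- Triangular elimination: if `T b` has order `≥ b` and `b`-th coefficient `1` for all `b < m`,
then any power series agrees up to order `m` with an `A`-combination of the `T b`, `b < m`. -/
theorem exists_coeffs_of_triangular (T : ℕ → PowerSeries A) (m : ℕ)
    (hT0 : ∀ b < m, ∀ n < b, PowerSeries.coeff n (T b) = 0)
    (hT1 : ∀ b < m, PowerSeries.coeff b (T b) = 1) (g : PowerSeries A) :
    ∃ c : ℕ → A, ∀ n < m,
      PowerSeries.coeff n (g - ∑ b ∈ Finset.range m, PowerSeries.C (c b) * T b) = 0 := by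
  induction m with
  | zero => exact ⟨fun _ => 0, fun n hn => absurd hn (Nat.not_lt_zero n)⟩
  | succ m ih =>
    obtain ⟨c, hc⟩ := ih (fun b hb => hT0 b (Nat.lt_succ_of_lt hb))
      (fun b hb => hT1 b (Nat.lt_succ_of_lt hb))
    set r : A := PowerSeries.coeff m (g - ∑ b ∈ Finset.range m, PowerSeries.C (c b) * T b)
      with hr
    refine ⟨Function.update c m r, fun n hn => ?_⟩
    have hsum : ∑ b ∈ Finset.range (m + 1), PowerSeries.C (Function.update c m r b) * T b
        = (∑ b ∈ Finset.range m, PowerSeries.C (c b) * T b) + PowerSeries.C r * T m := by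
      rw [Finset.sum_range_succ]
      congr 1
      · refine Finset.sum_congr rfl fun b hb => ?_
        rw [Function.update_of_ne (Finset.mem_range.mp hb).ne]
      · rw [Function.update_self]
    rw [hsum, ← sub_sub, map_sub, PowerSeries.coeff_C_mul]
    rcases Nat.lt_succ_iff_lt_or_eq.mp hn with h | h
    · rw [hc n h, hT0 m (Nat.lt_succ_self m) n h, mul_zero, sub_zero]
    · subst h
      rw [hT1 n (Nat.lt_succ_self n), mul_one, ← hr, sub_self]

/-- A power series `e^a * d^b` with `e = 1 + …`, `d = q + …` has order `≥ b`. -/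
theorem coeff_pow_mul_pow_of_lt {e d : PowerSeries A}
    (hd0 : PowerSeries.constantCoeff d = 0) (a b : ℕ) {n : ℕ} (hn : n < b) :
    PowerSeries.coeff n (e ^ a * d ^ b) = 0 := by
  obtain ⟨u, rfl⟩ := PowerSeries.X_dvd_iff.mpr hd0
  rw [mul_pow, ← mul_assoc, mul_comm (e ^ a), mul_assoc, PowerSeries.coeff_X_pow_mul',
    if_neg (by omega)]

/-- A power series `e^a * d^b` with `e = 1 + …`, `d = q + …` has `b`-th coefficient `1`. -/
theorem coeff_pow_mul_pow_self {e d : PowerSeries A}
    (he0 : PowerSeries.constantCoeff e = 1)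
    (hd0 : PowerSeries.constantCoeff d = 0) (hd1 : PowerSeries.coeff 1 d = 1) (a b : ℕ) :
    PowerSeries.coeff b (e ^ a * d ^ b) = 1 := by
  obtain ⟨u, rfl⟩ := PowerSeries.X_dvd_iff.mpr hd0
  have hu : PowerSeries.constantCoeff u = 1 := by
    have := hd1
    rwa [show (1 : ℕ) = 0 + 1 from rfl, PowerSeries.coeff_succ_X_mul,
      PowerSeries.coeff_zero_eq_constantCoeff] at this
  rw [mul_pow, ← mul_assoc, mul_comm (e ^ a), mul_assoc, PowerSeries.coeff_X_pow_mul',
    if_pos le_rfl, Nat.sub_self, PowerSeries.coeff_zero_eq_constantCoeff, map_mul, map_pow,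
    map_pow, he0, hu, one_pow, one_pow, one_mul]

end formal

/-! ### The level-one forms `E₄^(3(M-b)) Δ^b` -/

local notation "Δ" => ModularForm.discriminant

/-- `Δ` as a modular form of weight 12 and level one. -/
def DeltaMF : ModularForm 𝒮ℒ 12 := (CuspForm.discriminant : ModularForm 𝒮ℒ 12)

@[simp] theorem coe_DeltaMF : (DeltaMF : ℍ → ℂ) = Δ := rfl

/-- The level-one form `E₄^(3(M-b)) Δ^b` of weight `k = 12 M`, for `b ≤ M`. -/
def basisForm {k : ℤ} (M : ℕ) (hk : k = 12 * M) (b : Fin (M + 1)) : ModularForm 𝒮ℒ k :=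
  ModularForm.mcast
    (by
      have hb : (b : ℕ) ≤ M := b.is_le
      subst hk
      push_cast [Nat.cast_sub hb]
      ring)
    ((E₄.pow (3 * (M - b))).mul (DeltaMF.pow b))

theorem coe_basisForm {k : ℤ} (M : ℕ) (hk : k = 12 * M) (b : Fin (M + 1)) :
    (basisForm M hk b : ℍ → ℂ) = (E₄ : ℍ → ℂ) ^ (3 * (M - b)) * Δ ^ (b : ℕ) := by
  rw [basisForm, ModularForm.coe_mcast, ModularForm.coe_mul, ModularForm.coe_pow,
    ModularForm.coe_pow, coe_DeltaMF]

theorem qExpansion_basisForm {k : ℤ} (M : ℕ) (hk : k = 12 * M) (b : Fin (M + 1)) :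
    qExpansion 1 (basisForm M hk b)
      = qExpansion 1 E₄ ^ (3 * (M - b)) * qExpansion 1 Δ ^ (b : ℕ) := by
  rw [basisForm, ModularForm.qExpansion_mcast,
    ModularForm.qExpansion_mul one_pos one_mem_strictPeriods_SL,
    ModularForm.qExpansion_pow one_pos one_mem_strictPeriods_SL,
    ModularForm.qExpansion_pow one_pos one_mem_strictPeriods_SL]
  rfl

/-! ### The main theorem -/

/-- **Level-one integral basis.**  Let `φ : A →+* ℂ` be an injective ring hom and let
`e d g : A⟦q⟧` be power series whose images under `φ` are the `q`-expansions of `E₄`, `Δ` and of a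
level-one modular form `f` of weight `k = 12 M`.  Then `g` is an `A`-linear combination of the
series `e^(3(M-b)) d^b`, `b ≤ M`. -/
theorem exists_basis_expansion {A : Type*} [CommRing A] (φ : A →+* ℂ)
    (hφ : Function.Injective φ) (e d : PowerSeries A)
    (he : PowerSeries.map φ e = qExpansion 1 E₄) (hd : PowerSeries.map φ d = qExpansion 1 Δ)
    {k : ℤ} (M : ℕ) (hk : k = 12 * M) (f : ModularForm 𝒮ℒ k) (g : PowerSeries A)
    (hg : PowerSeries.map φ g = qExpansion 1 f) :
    ∃ c : ℕ → A,
      g = ∑ b ∈ Finset.range (M + 1), PowerSeries.C (c b) * (e ^ (3 * (M - b)) * d ^ b) ∧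
      f = ∑ b : Fin (M + 1), φ (c b) • basisForm M hk b := by
  -- leading coefficients of `e` and `d`
  have he0 : PowerSeries.constantCoeff e = 1 := by
    apply hφ
    have h := congrArg (PowerSeries.coeff 0) he
    rw [PowerSeries.coeff_map, E_qExpansion_coeff_zero _ ⟨2, rfl⟩,
      PowerSeries.coeff_zero_eq_constantCoeff] at h
    rw [h, map_one]
  have hd0 : PowerSeries.constantCoeff d = 0 := by
    apply hφ
    have h := congrArg (PowerSeries.coeff 0) hd
    rw [PowerSeries.coeff_map, PowerSeries.coeff_zero_eq_constantCoeff] at h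
    rw [h, map_zero]
    exact CuspFormClass.qExpansion_coeff_zero CuspForm.discriminant one_pos
      one_mem_strictPeriods_SL
  have hd1 : PowerSeries.coeff 1 d = 1 := by
    apply hφ
    have h := congrArg (PowerSeries.coeff 1) hd
    rw [PowerSeries.coeff_map, discriminant_qExpansion_coeff_one] at h
    rw [h, map_one]
  -- triangular elimination
  obtain ⟨c, hc⟩ := exists_coeffs_of_triangular
    (fun b => e ^ (3 * (M - b)) * d ^ b) (M + 1)
    (fun b _ n hn => coeff_pow_mul_pow_of_lt hd0 _ b hn)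
    (fun b _ => coeff_pow_mul_pow_self he0 hd0 hd1 _ b) g
  refine ⟨c, ?_⟩
  -- the modular form `f - ∑ c_b E₄^(3(M-b)) Δ^b`
  obtain ⟨F, hF⟩ : ∃ F : ModularForm 𝒮ℒ k,
      F = f - ∑ b : Fin (M + 1), φ (c b) • basisForm M hk b := ⟨_, rfl⟩
  have hqF : qExpansion 1 F = PowerSeries.map φ
      (g - ∑ b ∈ Finset.range (M + 1), PowerSeries.C (c b) * (e ^ (3 * (M - b)) * d ^ b)) := by
    have h1 : qExpansion 1 (f - ∑ b : Fin (M + 1), φ (c b) • basisForm M hk b :
        ModularForm 𝒮ℒ k) = qExpansion 1 f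
        - qExpansion 1 (∑ b : Fin (M + 1), φ (c b) • basisForm M hk b : ModularForm 𝒮ℒ k) :=
      ModularForm.qExpansion_sub (a := k) (b := k) one_pos one_mem_strictPeriods_SL f
        (∑ b : Fin (M + 1), φ (c b) • basisForm M hk b)
    have h2 : qExpansion 1 (∑ b : Fin (M + 1), φ (c b) • basisForm M hk b : ModularForm 𝒮ℒ k)
        = ∑ b : Fin (M + 1), qExpansion 1 (φ (c b) • basisForm M hk b : ModularForm 𝒮ℒ k) :=
      map_sum (ModularForm.qExpansionAddHom one_pos one_mem_strictPeriods_SL k)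
        (fun b : Fin (M + 1) => φ (c b) • basisForm M hk b) Finset.univ
    have h3 : ∀ b : Fin (M + 1),
        qExpansion 1 (φ (c b) • basisForm M hk b : ModularForm 𝒮ℒ k)
        = PowerSeries.map φ (PowerSeries.C (c b) * (e ^ (3 * (M - b)) * d ^ (b : ℕ))) := by
      intro b
      have h := ModularForm.qExpansion_smul one_pos one_mem_strictPeriods_SL (φ (c b))
        (basisForm M hk b)
      rw [qExpansion_basisForm] at h
      rw [map_mul, map_mul, map_pow, map_pow, he, hd, PowerSeries.map_C,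
        ← PowerSeries.smul_eq_C_mul]
      exact h
    rw [hF, h1, h2, map_sub, hg, map_sum, ← Fin.sum_univ_eq_sum_range
      (fun b => PowerSeries.map φ (PowerSeries.C (c b) * (e ^ (3 * (M - b)) * d ^ b)))]
    congr 1
    exact Finset.sum_congr rfl fun b _ => h3 b
  -- Sturm bound
  have hF0 : F = 0 := by
    apply ModularForm.sturm_bound_levelOne
    have hM : k.toNat / 12 = M := by
      subst hk
      have h12 : (12 * (M : ℤ)).toNat = 12 * M := by
        rw [show (12 * (M : ℤ)) = ((12 * M : ℕ) : ℤ) by push_cast; ring, Int.toNat_natCast]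
      rw [h12, Nat.mul_div_cancel_left M (by norm_num)]
    rw [hM]
    refine lt_of_lt_of_le (by exact_mod_cast Nat.lt_succ_self M)
      (PowerSeries.nat_le_order _ (M + 1) fun n hn => ?_)
    rw [hqF, PowerSeries.coeff_map, hc n (by exact_mod_cast hn), map_zero]
  have hzero : PowerSeries.map φ
      (g - ∑ b ∈ Finset.range (M + 1), PowerSeries.C (c b) * (e ^ (3 * (M - b)) * d ^ b)) = 0 := by
    rw [← hqF, hF0]
    exact qExpansion_zero 1
  have : g - ∑ b ∈ Finset.range (M + 1), PowerSeries.C (c b) * (e ^ (3 * (M - b)) * d ^ b)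
      = 0 := by
    ext n
    apply hφ
    have h := congrArg (PowerSeries.coeff n) hzero
    rw [PowerSeries.coeff_map] at h
    rw [h, map_zero, map_zero, map_zero]
  exact ⟨sub_eq_zero.mp this, sub_eq_zero.mp (hF ▸ hF0)⟩

/-- Pointwise form of `exists_basis_expansion`. -/
theorem exists_basis_expansion_apply {A : Type*} [CommRing A] (φ : A →+* ℂ)
    (hφ : Function.Injective φ) (e d : PowerSeries A)
    (he : PowerSeries.map φ e = qExpansion 1 E₄) (hd : PowerSeries.map φ d = qExpansion 1 Δ)
    {k : ℤ} (M : ℕ) (hk : k = 12 * M) (f : ModularForm 𝒮ℒ k) (g : PowerSeries A)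
    (hg : PowerSeries.map φ g = qExpansion 1 f) :
    ∃ c : ℕ → A,
      g = ∑ b ∈ Finset.range (M + 1), PowerSeries.C (c b) * (e ^ (3 * (M - b)) * d ^ b) ∧
      ∀ z : ℍ, f z = ∑ b ∈ Finset.range (M + 1), φ (c b) * (E₄ z ^ (3 * (M - b)) * Δ z ^ b) := by
  obtain ⟨c, hc, hf⟩ := exists_basis_expansion φ hφ e d he hd M hk f g hg
  refine ⟨c, hc, fun z => ?_⟩
  have h1 : f z = (∑ b : Fin (M + 1), φ (c b) • basisForm M hk b : ModularForm 𝒮ℒ k) z := by
    rw [← hf]
  have h2 : (∑ b : Fin (M + 1), φ (c b) • basisForm M hk b : ModularForm 𝒮ℒ k) z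
      = ∑ b : Fin (M + 1), (φ (c b) • basisForm M hk b : ModularForm 𝒮ℒ k) z :=
    map_sum (⟨⟨fun F : ModularForm 𝒮ℒ k => F z, rfl⟩, fun _ _ => rfl⟩ : ModularForm 𝒮ℒ k →+ ℂ)
      (fun b : Fin (M + 1) => φ (c b) • basisForm M hk b) Finset.univ
  rw [h1, h2, ← Fin.sum_univ_eq_sum_range
    (fun b => φ (c b) * (E₄ z ^ (3 * (M - b)) * Δ z ^ b))]
  refine Finset.sum_congr rfl fun b _ => ?_
  have h3 : (φ (c b) • basisForm M hk b : ModularForm 𝒮ℒ k) z
      = φ (c b) * (basisForm M hk b : ℍ → ℂ) z := rfl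
  rw [h3, coe_basisForm]
  rfl

/-- Complex-coefficient version: every level-one modular form of weight `12 M` is a
`ℂ`-combination of the forms `E₄^(3(M-b)) Δ^b`, `b ≤ M` (statement on `q`-expansions). -/
theorem exists_basis_expansion_complex {k : ℤ} (M : ℕ) (hk : k = 12 * M)
    (f : ModularForm 𝒮ℒ k) :
    ∃ c : ℕ → ℂ, qExpansion 1 f
      = ∑ b ∈ Finset.range (M + 1), c b • (qExpansion 1 E₄ ^ (3 * (M - b)) * qExpansion 1 Δ ^ b) := by
  obtain ⟨c, hc, -⟩ := exists_basis_expansion (RingHom.id ℂ) Function.injective_id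
    (qExpansion 1 E₄) (qExpansion 1 Δ) (congrFun PowerSeries.map_id _) (congrFun PowerSeries.map_id _)
    M hk f (qExpansion 1 f) (congrFun PowerSeries.map_id _)
  refine ⟨c, hc.trans (Finset.sum_congr rfl fun b _ => ?_)⟩
  rw [PowerSeries.smul_eq_C_mul]

end

end Fermat.Agent.S28.helper4849
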