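import Fermat.Agent.S28.helper559_TowerUpper
import Fermat.Agent.S28.helper1595_Counting
import Fermat.Agent.S28.helper979_DegBridge
import Fermat.Agent.S28.helper2608_Spec

/-!
# S28 tower, part 5 (helper559): the upper bound in the shapes consumed by the assembly

* `relrank_full_le` : for ANY field `K`, `[K(j(q^d) : d ∣ M) : K(j)] ≤ dedekindPsi M`, given for every
  prime `p ∣ M` a monic `Φ_p ∈ ℤ[Y][X]` of degree `p + 1` with `Φ_p(j_p, j) = 0 = Φ_p(j, j_p)` over `K`
  (this is the hypothesis `hub` of `helper1595.relrank_full_eq_dedekindPsi`).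
* `degLE_full` : `Spec.DegLE (modularFunctionFieldFull N) (dedekindPsi N)` (clause (DEG) of
  `Spec.Stmt_CoreInput` with `L = F`).
-/

set_option autoImplicit false

noncomputable section

open Polynomial IntermediateField Cardinal ModularCurve

namespace Fermat.Agent.S28.helper559

/-! ### `psi = dedekindPsi` -/

theorem psi_eq_dedekindPsi : ∀ N : ℕ, 0 < N → psi N = dedekindPsi N := by
  intro N
  induction N using Nat.strong_induction_on with
  | _ N ih =>
    intro hN
    by_cases hN1 : N = 1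
    · subst hN1; simp
    have hp : N.minFac.Prime := Nat.minFac_prime hN1
    obtain ⟨M, hNM⟩ := Nat.minFac_dvd N
    have hM0 : M ≠ 0 := by rintro rfl; rw [mul_zero] at hNM; omega
    have hNM' : N = M * N.minFac := by rw [mul_comm]; exact hNM
    have hMlt : M < N := by
      calc M = M * 1 := (mul_one M).symm
        _ < M * N.minFac := Nat.mul_lt_mul_of_pos_left hp.one_lt (Nat.pos_of_ne_zero hM0)
        _ = N := hNM'.symm
    have ihM := ih M hMlt (Nat.pos_of_ne_zero hM0)
    by_cases hpM : N.minFac ∣ M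
    · rw [hNM', psi_mul_prime_of_dvd hM0 hp hpM,
        helper1595.dedekindPsi_mul_prime_of_dvd hp (Nat.pos_of_ne_zero hM0) hpM, ihM, mul_comm]
    · rw [hNM', psi_mul_prime_of_not_dvd hM0 hp hpM,
        helper1595.dedekindPsi_mul_prime_of_not_dvd hp (Nat.pos_of_ne_zero hM0) hpM, ihM, mul_comm]

/-! ### Identification with the Prelude's field -/

variable {K : Type*} [Field K]

theorem FF_jqModC (N : ℕ) [NeZero N] : FF (jqModC K) N = modularFunctionFieldFullC K N := by
  unfold FF modularFunctionFieldFullC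
  congr 1
  ext x
  constructor
  · rintro ⟨d, hd, rfl⟩
    have hd0 : d ≠ 0 := fun h => NeZero.ne N (Nat.eq_zero_of_zero_dvd (h ▸ hd))
    have : NeZero d := ⟨hd0⟩
    exact ⟨d, ⟨hd0⟩, hd, by rw [V_eq]⟩
  · rintro ⟨d, hne, hd, rfl⟩
    exact ⟨d, hd, by rw [V_eq]⟩

theorem order_jqModC : (jqModC K).order = -1 := helper1595.order_jqModC K

theorem jqModC_ne_zero' : jqModC K ≠ 0 := jqModC_ne_zero_of_nontrivial K

/-! ### Integral modular polynomials -/

theorem aeval_comp_mapRingHom_intCast (y : LaurentSeries K) :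
    (Polynomial.aeval (R := K) y).toRingHom.comp (Polynomial.mapRingHom (Int.castRingHom K)) =
      Polynomial.eval₂RingHom (Int.castRingHom (LaurentSeries K)) y := by
  refine Polynomial.ringHom_ext (fun a => ?_) ?_
  · simp
  · simp

theorem PhiAt_map_intCast (Φ : ℤ[X][X]) (y : LaurentSeries K) :
    PhiAt (Φ.map (Polynomial.mapRingHom (Int.castRingHom K))) y =
      Φ.map (Polynomial.eval₂RingHom (Int.castRingHom (LaurentSeries K)) y) := by
  rw [PhiAt, Polynomial.map_map, aeval_comp_mapRingHom_intCast]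

/-- An integral relation `Φ ∈ ℤ[Y][X]` with `Φ(j_p, j) = 0 = Φ(j, j_p)` over `K` gives prime-level
data in the sense of `IsModPoly`. -/
theorem isModPoly_of_int {p : ℕ} (Φ : ℤ[X][X]) (hm : Φ.Monic) (hd : Φ.natDegree = p + 1)
    (h1 : (Φ.map (Polynomial.eval₂RingHom (Int.castRingHom (LaurentSeries K)) (jqModC K))).eval
      (V p (jqModC K)) = 0)
    (h2 : (Φ.map (Polynomial.eval₂RingHom (Int.castRingHom (LaurentSeries K))
      (V p (jqModC K)))).eval (jqModC K) = 0) :
    IsModPoly (jqModC K) p (Φ.map (Polynomial.mapRingHom (Int.castRingHom K))) where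
  monic := hm.map _
  natDegree_eq := by rw [hm.natDegree_map, hd]
  root := by rw [PhiAt_map_intCast]; exact h1
  root' := by rw [PhiAt_map_intCast]; exact h2

/-- The prime-level relations (F1 + F2) over the field `K`, for the prime `p`. -/
def RelAt (K : Type*) [Field K] (p : ℕ) : Prop :=
  ∃ Φ : ℤ[X][X], Φ.Monic ∧ Φ.natDegree = p + 1 ∧
    (Φ.map (Polynomial.eval₂RingHom (Int.castRingHom (LaurentSeries K)) (jqModC K))).eval
      (V p (jqModC K)) = 0 ∧
    (Φ.map (Polynomial.eval₂RingHom (Int.castRingHom (LaurentSeries K))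
      (V p (jqModC K)))).eval (jqModC K) = 0

/-- **Upper bound (`hub`)**, any field. -/
theorem relrank_full_le (M : ℕ) [NeZero M]
    (hrel : ∀ p : ℕ, p.Prime → p ∣ M → RelAt K p) :
    (K⟮jqModC K⟯).relrank (modularFunctionFieldFullC K M) ≤ (dedekindPsi M : Cardinal) := by
  rw [← FF_jqModC, ← psi_eq_dedekindPsi M (Nat.pos_of_ne_zero (NeZero.ne M))]
  refine relrank_FF_le jqModC_ne_zero' order_jqModC (NeZero.ne M) ?_
  intro p hp hpM
  obtain ⟨Φ, hm, hd, h1, h2⟩ := hrel p hp hpM
  exact ⟨_, isModPoly_of_int Φ hm hd h1 h2⟩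

/-! ### Clause (DEG) -/

/-- `[L : ℚ(j)] ≤ n` (as a relative rank) implies the elementary form `Spec.DegLE L n`. -/
theorem degLE_of_relrank_le (L : IntermediateField ℚ (LaurentSeries ℚ)) (hL : ℚ⟮jq⟯ ≤ L) {n : ℕ}
    (h : (ℚ⟮jq⟯).relrank L ≤ (n : Cardinal)) : Spec.DegLE L n := by
  intro v hv
  rw [relrank_eq_rank_of_le hL] at h
  let v' : Fin (n + 1) → ↥(extendScalars hL) := fun i => ⟨v i, hv i⟩
  have hnli : ¬ LinearIndependent ↥ℚ⟮jq⟯ v' := fun hli => by
    have h1 := hli.cardinal_le_rank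
    rw [Cardinal.mk_fin] at h1
    have h2 : ((n + 1 : ℕ) : Cardinal) ≤ (n : Cardinal) := h1.trans h
    have h3 : n + 1 ≤ n := by exact_mod_cast h2
    omega
  obtain ⟨g, hg, i₀, hi₀⟩ := Fintype.not_linearIndependent_iff.mp hnli
  have hg' : ∑ i, (g i : LaurentSeries ℚ) * v i = 0 := by
    have := congrArg (fun z : ↥(extendScalars hL) => (z : LaurentSeries ℚ)) hg
    simpa [v', Algebra.smul_def] using this
  choose a b hb hab using fun i => helper979.exists_int_mul_eq_of_mem_adjoin_jq (g i).2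
  have hbne : ∀ k, aeval jq (b k) ≠ 0 := fun k h0 =>
    hb k (helper979.aeval_jq_int_eq_zero_iff.mp h0)
  have hc : ∀ i, aeval jq (a i * ∏ k ∈ Finset.univ.erase i, b k) =
      (∏ k, aeval jq (b k)) * (g i : LaurentSeries ℚ) := by
    intro i
    rw [map_mul, map_prod, ← hab i, ← Finset.mul_prod_erase Finset.univ _ (Finset.mem_univ i)]
    ring
  refine ⟨fun i => a i * ∏ k ∈ Finset.univ.erase i, b k, ?_, ?_⟩
  · intro h0
    have h1 := hc i₀
    rw [show a i₀ * ∏ k ∈ Finset.univ.erase i₀, b k = 0 from congrFun h0 i₀, map_zero] at h1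
    have hg0 : (g i₀ : LaurentSeries ℚ) ≠ 0 := fun h => hi₀ (Subtype.ext h)
    exact mul_ne_zero (Finset.prod_ne_zero_iff.mpr fun k _ => hbne k) hg0 h1.symm
  · simp_rw [hc, mul_assoc, ← Finset.mul_sum, hg', mul_zero]

/-- **Clause (DEG)** of `Spec.Stmt_CoreInput` for `L = F = ℚ(j(q^d) : d ∣ N)` and
`n = dedekindPsi N`, from the prime-level relations over `ℚ`. -/
theorem degLE_full (N : ℕ) [NeZero N] (hrel : ∀ p : ℕ, p.Prime → p ∣ N → RelAt ℚ p) :
    Spec.DegLE (modularFunctionFieldFull N) (dedekindPsi N) := by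
  have h := relrank_full_le (K := ℚ) N hrel
  refine degLE_of_relrank_le (modularFunctionFieldFull N) ?_ h
  exact adjoin_simple_le_iff.mpr (jqModC_mem_full ℚ N)

end Fermat.Agent.S28.helper559
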