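import Mathlib
import Fermat.Prelude.Def_ModularCurve_X0ModL

/-!
# S28 tower, part 1 (helper559): the substitution `q ↦ q^n` and the order lemma

* `V n` : total version of the Prelude's `qExpand K n` (`V 0 = id`).
* `order_lemma` : if `ord f` is prime to `n` then `1, f, …, f^(n-1)` are linearly independent
  over `V n (K((q)))`.
* `irreducible_of_map_V_eval` : a monic polynomial `Q` of degree `n` such that `V n Q` kills such
  an `f` is irreducible over `K((q))`.
-/

set_option autoImplicit false

noncomputable section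

open Polynomial ModularCurve

namespace Fermat.Agent.S28.helper559

variable {K : Type*} [Field K]

/-- Total version of `qExpand K n` (`V 0 = id`). -/
def V (n : ℕ) : LaurentSeries K →+* LaurentSeries K :=
  if h : n = 0 then RingHom.id _ else @qExpand K _ n ⟨h⟩

theorem V_eq (n : ℕ) [NeZero n] : (V n : LaurentSeries K →+* LaurentSeries K) = qExpand K n := by
  simp [V, NeZero.ne n]

theorem V_injective (n : ℕ) : Function.Injective (V n : LaurentSeries K →+* LaurentSeries K) := by
  by_cases h : n = 0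
  · subst h; simp [V]; exact Function.injective_id
  · have : NeZero n := ⟨h⟩
    rw [V_eq]; exact qExpand_injective n

@[simp] theorem V_one (f : LaurentSeries K) : V 1 f = f := by
  rw [V_eq]; exact qExpand_one_apply f

theorem V_V {m n : ℕ} (hm : m ≠ 0) (hn : n ≠ 0) (f : LaurentSeries K) :
    V m (V n f) = V (m * n) f := by
  have : NeZero m := ⟨hm⟩
  have : NeZero n := ⟨hn⟩
  have : NeZero (m * n) := ⟨Nat.mul_ne_zero hm hn⟩
  rw [V_eq, V_eq, V_eq]; exact qExpand_qExpand n m f

theorem V_comm {m n : ℕ} (hm : m ≠ 0) (hn : n ≠ 0) (f : LaurentSeries K) :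
    V m (V n f) = V n (V m f) := by
  rw [V_V hm hn, V_V hn hm, Nat.mul_comm]

theorem V_algebraMap (n : ℕ) (c : K) :
    V n (algebraMap K (LaurentSeries K) c) = algebraMap K (LaurentSeries K) c := by
  by_cases h : n = 0
  · subst h; simp [V]
  · have : NeZero n := ⟨h⟩
    rw [V_eq, algebraMap_laurentSeries_eq_single, qExpand_single, mul_zero]

theorem V_ne_zero (n : ℕ) {f : LaurentSeries K} (hf : f ≠ 0) : V n f ≠ 0 :=
  (map_ne_zero_iff _ (V_injective n)).mpr hf

theorem orderTop_V {n : ℕ} (hn : n ≠ 0) (f : LaurentSeries K) :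
    (V n f).orderTop = WithTop.map (fun k : ℤ => (n : ℤ) * k) f.orderTop := by
  have : NeZero n := ⟨hn⟩
  rw [V_eq]
  exact HahnSeries.orderTop_embDomain

theorem order_V {n : ℕ} (hn : n ≠ 0) {f : LaurentSeries K} (hf : f ≠ 0) :
    (V n f).order = (n : ℤ) * f.order := by
  have h1 := orderTop_V hn f
  rw [← HahnSeries.order_eq_orderTop_of_ne_zero (V_ne_zero n hf),
    ← HahnSeries.order_eq_orderTop_of_ne_zero hf, WithTop.map_coe] at h1
  exact_mod_cast h1

theorem order_term {n : ℕ} (hn : n ≠ 0) {f : LaurentSeries K} (hf : f ≠ 0)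
    {c : LaurentSeries K} (hc : c ≠ 0) (i : ℕ) :
    (V n c * f ^ i).order = (n : ℤ) * c.order + (i : ℤ) * f.order := by
  rw [HahnSeries.order_mul (V_ne_zero n hc) (pow_ne_zero i hf), order_V hn hc,
    HahnSeries.order_pow, nsmul_eq_mul]

/-- **Order lemma.** If `ord f` is prime to `n`, then `1, f, …, f^(n-1)` are linearly
independent over the subfield `V n (K((q)))`. -/
theorem order_lemma {n : ℕ} (hn : n ≠ 0) {f : LaurentSeries K} (hf : f ≠ 0)
    (hgcd : Int.gcd f.order n = 1) (c : ℕ → LaurentSeries K)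
    (h : ∑ i ∈ Finset.range n, V n (c i) * f ^ i = 0) : ∀ i < n, c i = 0 := by
  classical
  by_contra hcon
  push Not at hcon
  obtain ⟨i1, hi1n, hi1⟩ := hcon
  set s : Finset ℕ := (Finset.range n).filter (fun i => c i ≠ 0) with hs
  have hs_ne : s.Nonempty := ⟨i1, by simp [hs, hi1n, hi1]⟩
  obtain ⟨i0, hi0s, hmin⟩ := Finset.exists_min_image s
    (fun i => (V n (c i) * f ^ i).order) hs_ne
  have hi0 : i0 < n ∧ c i0 ≠ 0 := by simpa [hs] using hi0s
  -- distinct orders
  have hdist : ∀ i ∈ s, (V n (c i) * f ^ i).order = (V n (c i0) * f ^ i0).order → i = i0 := by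
    intro i his heq
    have hi : i < n ∧ c i ≠ 0 := by simpa [hs] using his
    rw [order_term hn hf hi.2, order_term hn hf hi0.2] at heq
    have hdvd : (n : ℤ) ∣ ((i : ℤ) - i0) * f.order :=
      ⟨(c i0).order - (c i).order, by linarith⟩
    have hcop : IsCoprime (n : ℤ) f.order := by
      rw [Int.isCoprime_iff_gcd_eq_one, Int.gcd_comm]; exact hgcd
    have hdvd' : (n : ℤ) ∣ ((i : ℤ) - i0) := hcop.dvd_of_dvd_mul_right hdvd
    have habs : |(i : ℤ) - i0| < n := by
      rw [abs_lt]; constructor <;> omega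
    have := Int.eq_zero_of_abs_lt_dvd hdvd' habs
    omega
  set v := HahnSeries.addVal ℤ K with hv
  have hx0 : V n (c i0) * f ^ i0 ≠ 0 := mul_ne_zero (V_ne_zero n hi0.2) (pow_ne_zero _ hf)
  have hsplit : ∑ i ∈ Finset.range n, V n (c i) * f ^ i =
      V n (c i0) * f ^ i0 + ∑ i ∈ (Finset.range n).erase i0, V n (c i) * f ^ i := by
    exact (Finset.add_sum_erase _ (fun i => V n (c i) * f ^ i) (Finset.mem_range.mpr hi0.1)).symm
  have hlt : v (V n (c i0) * f ^ i0) <
      v (∑ i ∈ (Finset.range n).erase i0, V n (c i) * f ^ i) := by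
    apply AddValuation.map_lt_sum
    · rw [hv, HahnSeries.addVal_apply_of_ne hx0]; exact WithTop.coe_ne_top
    · intro i hi
      rw [Finset.mem_erase, Finset.mem_range] at hi
      by_cases hci : c i = 0
      · rw [hci, map_zero, zero_mul, AddValuation.map_zero, hv,
          HahnSeries.addVal_apply_of_ne hx0]
        exact WithTop.coe_lt_top _
      · have his : i ∈ s := by simp [hs, hi.2, hci]
        have hxi : V n (c i) * f ^ i ≠ 0 := mul_ne_zero (V_ne_zero n hci) (pow_ne_zero _ hf)
        rw [hv, HahnSeries.addVal_apply_of_ne hx0, HahnSeries.addVal_apply_of_ne hxi]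
        have hle := hmin i his
        have hne : (V n (c i) * f ^ i).order ≠ (V n (c i0) * f ^ i0).order :=
          fun heq => hi.1 (hdist i his heq)
        exact_mod_cast lt_of_le_of_ne hle (Ne.symm hne)
  have hval : v (∑ i ∈ Finset.range n, V n (c i) * f ^ i) = v (V n (c i0) * f ^ i0) := by
    rw [hsplit]
    exact AddValuation.map_add_eq_of_lt_left v hlt
  rw [h, AddValuation.map_zero, hv, HahnSeries.addVal_apply_of_ne hx0] at hval
  exact WithTop.coe_ne_top hval.symm

/-- Polynomial form of the order lemma. -/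
theorem eval_map_V_ne_zero {n : ℕ} (hn : n ≠ 0) {f : LaurentSeries K} (hf : f ≠ 0)
    (hgcd : Int.gcd f.order n = 1) {P : (LaurentSeries K)[X]} (hP : P ≠ 0)
    (hdeg : P.natDegree < n) : (P.map (V n)).eval f ≠ 0 := by
  intro h0
  rw [Polynomial.eval_map, Polynomial.eval₂_eq_sum_range' (V n) hdeg f] at h0
  have hc := order_lemma hn hf hgcd (fun i => P.coeff i) h0
  apply hP
  refine Polynomial.ext fun i => ?_
  by_cases hi : i < n
  · rw [Polynomial.coeff_zero]; exact hc i hi
  · rw [Polynomial.coeff_eq_zero_of_natDegree_lt (by omega), Polynomial.coeff_zero]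

/-- A monic polynomial `Q` of degree `n` over `K((q))` such that `V n Q` kills an element whose
order is prime to `n` is irreducible. -/
theorem irreducible_of_eval_map_V {n : ℕ} (hn : n ≠ 0) {f : LaurentSeries K} (hf : f ≠ 0)
    (hgcd : Int.gcd f.order n = 1) {Q : (LaurentSeries K)[X]} (hQ : Q.Monic)
    (hdeg : Q.natDegree = n) (h0 : (Q.map (V n)).eval f = 0) : Irreducible Q := by
  rw [hQ.irreducible_iff_natDegree]
  refine ⟨fun h1 => hn (by rw [← hdeg, h1, Polynomial.natDegree_one]), ?_⟩
  intro A B hA hB hAB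
  by_contra hcon
  push Not at hcon
  have hsum : A.natDegree + B.natDegree = n := by
    rw [← hdeg, ← hAB, hA.natDegree_mul hB]
  rw [← hAB, Polynomial.map_mul, Polynomial.eval_mul] at h0
  rcases mul_eq_zero.mp h0 with h | h
  · exact eval_map_V_ne_zero hn hf hgcd hA.ne_zero (by omega) h
  · exact eval_map_V_ne_zero hn hf hgcd hB.ne_zero (by omega) h

end Fermat.Agent.S28.helper559
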