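import Fermat.Agent.S28.helper559_TowerBasic

/-!
# S28 tower, part 2 (helper559): consequences of a prime-level modular polynomial

Input (`IsModPoly j p Φ`): `Φ ∈ K[Y][X]` monic of `X`-degree `p + 1` with
`Φ(j(q^p), j(q)) = 0` and `Φ(j(q), j(q^p)) = 0`, for a series `j` of order `-1`.

Output:
* the cofactor `Ψ = Φ(X, j) / (X - j(q^p))` and all its substitutions `V n Ψ`, `n` prime to `p`,
  are irreducible over `K((q))`;
* for two distinct primes the cofactors are coprime, hence (`mem_of_mem_of_mem`)
  `j(q^(p r e))` lies in every intermediate field containing `j(q^(p e))` and `j(q^(r e))`.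
-/

set_option autoImplicit false

noncomputable section

open Polynomial ModularCurve

namespace Fermat.Agent.S28.helper559

variable {K : Type*} [Field K]

/-- `Φ(X, y)`: specialise the inner variable of `Φ ∈ K[Y][X]` at `y ∈ K((q))`. -/
def PhiAt (Φ : K[X][X]) (y : LaurentSeries K) : (LaurentSeries K)[X] :=
  Φ.map (Polynomial.aeval y).toRingHom

theorem V_comp_aeval (n : ℕ) (y : LaurentSeries K) :
    (V n).comp (Polynomial.aeval (R := K) y).toRingHom = (Polynomial.aeval (V n y)).toRingHom := by
  refine Polynomial.ringHom_ext (fun a => ?_) ?_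
  · simp [V_algebraMap]
  · simp

theorem PhiAt_map_V (Φ : K[X][X]) (y : LaurentSeries K) (n : ℕ) :
    (PhiAt Φ y).map (V n) = PhiAt Φ (V n y) := by
  rw [PhiAt, PhiAt, Polynomial.map_map, V_comp_aeval]

theorem PhiAt_monic {Φ : K[X][X]} (hΦ : Φ.Monic) (y : LaurentSeries K) : (PhiAt Φ y).Monic :=
  hΦ.map _

theorem PhiAt_natDegree {Φ : K[X][X]} (hΦ : Φ.Monic) (y : LaurentSeries K) :
    (PhiAt Φ y).natDegree = Φ.natDegree :=
  hΦ.natDegree_map _

/-- Prime-level input: `Φ` is a "modular polynomial of level `p`" for the series `j`. -/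
structure IsModPoly (j : LaurentSeries K) (p : ℕ) (Φ : K[X][X]) : Prop where
  monic : Φ.Monic
  natDegree_eq : Φ.natDegree = p + 1
  root : (PhiAt Φ j).eval (V p j) = 0
  root' : (PhiAt Φ (V p j)).eval j = 0

/-- The cofactor `Ψ = Φ(X, j) / (X - j(q^p))`. -/
def cofactor (Φ : K[X][X]) (j : LaurentSeries K) (p : ℕ) : (LaurentSeries K)[X] :=
  PhiAt Φ j /ₘ (X - C (V p j))

section

variable {j : LaurentSeries K} {p : ℕ} {Φ : K[X][X]}

theorem cofactor_spec (h : IsModPoly j p Φ) :
    (X - C (V p j)) * cofactor Φ j p = PhiAt Φ j :=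
  Polynomial.mul_divByMonic_eq_iff_isRoot.mpr h.root

theorem cofactor_monic (h : IsModPoly j p Φ) : (cofactor Φ j p).Monic := by
  have h1 : ((X - C (V p j)) * cofactor Φ j p).Monic := by
    rw [cofactor_spec h]; exact PhiAt_monic h.monic j
  exact (Polynomial.monic_X_sub_C _).of_mul_monic_left h1

theorem cofactor_natDegree (h : IsModPoly j p Φ) : (cofactor Φ j p).natDegree = p := by
  have h1 := congrArg Polynomial.natDegree (cofactor_spec h)
  rw [(Polynomial.monic_X_sub_C _).natDegree_mul (cofactor_monic h), Polynomial.natDegree_X_sub_C,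
    PhiAt_natDegree h.monic, h.natDegree_eq] at h1
  omega

theorem PhiAt_V_eq (h : IsModPoly j p Φ) (n : ℕ) :
    PhiAt Φ (V n j) = (X - C (V n (V p j))) * (cofactor Φ j p).map (V n) := by
  rw [← PhiAt_map_V, ← cofactor_spec h, Polynomial.map_mul, Polynomial.map_sub, Polynomial.map_X,
    Polynomial.map_C]

theorem order_V_j (hj : j ≠ 0) (hord : j.order = -1) {n : ℕ} (hn : n ≠ 0) :
    (V n j).order = -(n : ℤ) := by
  rw [order_V hn hj, hord]; ring

theorem cofactor_map_V_eval (h : IsModPoly j p Φ) (hj : j ≠ 0) (hord : j.order = -1)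
    (hp : 2 ≤ p) : ((cofactor Φ j p).map (V p)).eval j = 0 := by
  have h1 := h.root'
  rw [PhiAt_V_eq h p, Polynomial.eval_mul, Polynomial.eval_sub, Polynomial.eval_X,
    Polynomial.eval_C] at h1
  rcases mul_eq_zero.mp h1 with h2 | h2
  · exfalso
    have h3 : j = V p (V p j) := sub_eq_zero.mp h2
    have h4 := congrArg HahnSeries.order h3
    have hp0 : p ≠ 0 := by omega
    rw [order_V hp0 (V_ne_zero p hj), order_V hp0 hj, hord] at h4
    have h5 : (p : ℤ) * p = 1 := by linarith
    have h6 : (2 : ℤ) ≤ p := by exact_mod_cast hp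
    nlinarith
  · exact h2

theorem cofactor_map_irreducible (h : IsModPoly j p Φ) (hj : j ≠ 0) (hord : j.order = -1)
    (hp : 2 ≤ p) {n : ℕ} (hn : n ≠ 0) (hcop : Nat.Coprime n p) :
    Irreducible ((cofactor Φ j p).map (V n)) := by
  have hp0 : p ≠ 0 := by omega
  refine irreducible_of_eval_map_V (n := p) (f := V n j) hp0 (V_ne_zero n hj) ?_
    ((cofactor_monic h).map _) ?_ ?_
  · rw [order_V_j hj hord hn, Int.neg_gcd, Int.gcd_natCast_natCast]; exact hcop
  · rw [(cofactor_monic h).natDegree_map, cofactor_natDegree h]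
  · have hcomm : (V p).comp (V n) = ((V n).comp (V p) : LaurentSeries K →+* LaurentSeries K) :=
      RingHom.ext fun f => V_comm hp0 hn f
    rw [Polynomial.map_map, hcomm, ← Polynomial.map_map, Polynomial.eval_map_apply,
      cofactor_map_V_eval h hj hord hp, map_zero]

end

/-- For two distinct primes the (substituted) cofactors are coprime: they are irreducible of
different degrees. -/
theorem isCoprime_cofactors {j : LaurentSeries K} {p r : ℕ} {Φp Φr : K[X][X]}
    (hp : IsModPoly j p Φp) (hr : IsModPoly j r Φr) (hj : j ≠ 0) (hord : j.order = -1)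
    (hp2 : 2 ≤ p) (hr2 : 2 ≤ r) (hcop : Nat.Coprime p r) (hne : p ≠ r) :
    IsCoprime ((cofactor Φp j p).map (V r)) ((cofactor Φr j r).map (V p)) := by
  have hA := cofactor_map_irreducible hp hj hord hp2 (n := r) (by omega) hcop.symm
  have hB := cofactor_map_irreducible hr hj hord hr2 (n := p) (by omega) hcop
  rw [hA.coprime_iff_not_dvd]
  intro hdvd
  have hassoc := hA.associated_of_dvd hB hdvd
  have heq := Polynomial.eq_of_monic_of_associated ((cofactor_monic hp).map _)
    ((cofactor_monic hr).map _) hassoc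
  have hdeg := congrArg Polynomial.natDegree heq
  rw [(cofactor_monic hp).natDegree_map, (cofactor_monic hr).natDegree_map,
    cofactor_natDegree hp, cofactor_natDegree hr] at hdeg
  exact hne hdeg

theorem map_algebraMap_map_aeval (Φ : K[X][X]) (S : IntermediateField K (LaurentSeries K))
    {y : LaurentSeries K} (hy : y ∈ S) :
    (Φ.map (Polynomial.aeval (⟨y, hy⟩ : S)).toRingHom).map (algebraMap S (LaurentSeries K)) =
      PhiAt Φ y := by
  rw [PhiAt, Polynomial.map_map]
  congr 1
  refine Polynomial.ringHom_ext (fun a => ?_) ?_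
  · simp
  · simp

/-- **Generation lemma (gcd trick without roots).** For distinct primes `p`, `r` with modular
polynomials, `j(q^(p r e))` lies in every intermediate field containing `j(q^(p e))` and
`j(q^(r e))`. -/
theorem mem_of_mem_of_mem {j : LaurentSeries K} {p r : ℕ} {Φp Φr : K[X][X]}
    (hp : IsModPoly j p Φp) (hr : IsModPoly j r Φr) (hj : j ≠ 0) (hord : j.order = -1)
    (hp2 : 2 ≤ p) (hr2 : 2 ≤ r) (hcop : Nat.Coprime p r) (hne : p ≠ r) {e : ℕ} (he : e ≠ 0)
    (S : IntermediateField K (LaurentSeries K)) (h1 : V (p * e) j ∈ S) (h2 : V (r * e) j ∈ S) :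
    V (p * r * e) j ∈ S := by
  have hp0 : p ≠ 0 := by omega
  have hr0 : r ≠ 0 := by omega
  set c : LaurentSeries K := V (p * r * e) j with hc
  set A' : (LaurentSeries K)[X] := (cofactor Φp j p).map (V (r * e)) with hA'
  set B' : (LaurentSeries K)[X] := (cofactor Φr j r).map (V (p * e)) with hB'
  have hA : PhiAt Φp (V (r * e) j) = (X - C c) * A' := by
    rw [PhiAt_V_eq hp (r * e), V_V (Nat.mul_ne_zero hr0 he) hp0, hc,
      show r * e * p = p * r * e by ring]
  have hB : PhiAt Φr (V (p * e) j) = (X - C c) * B' := by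
    rw [PhiAt_V_eq hr (p * e), V_V (Nat.mul_ne_zero hp0 he) hr0, hc,
      show p * e * r = p * r * e by ring]
  -- the cofactors are coprime
  have hcopAB : IsCoprime A' B' := by
    have h0 := (isCoprime_cofactors hp hr hj hord hp2 hr2 hcop hne).map
      (Polynomial.mapRingHom (V e))
    have e1 : (V e).comp (V r) = (V (r * e) : LaurentSeries K →+* LaurentSeries K) :=
      RingHom.ext fun f => by
        rw [RingHom.comp_apply, V_V he hr0, Nat.mul_comm]
    have e2 : (V e).comp (V p) = (V (p * e) : LaurentSeries K →+* LaurentSeries K) :=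
      RingHom.ext fun f => by
        rw [RingHom.comp_apply, V_V he hp0, Nat.mul_comm]
    simp only [Polynomial.coe_mapRingHom, Polynomial.map_map, e1, e2] at h0
    exact h0
  -- polynomials over `S`
  set AS : (S : Type _)[X] := Φp.map (Polynomial.aeval (⟨V (r * e) j, h2⟩ : S)).toRingHom with hAS
  set BS : (S : Type _)[X] := Φr.map (Polynomial.aeval (⟨V (p * e) j, h1⟩ : S)).toRingHom with hBS
  have hASmap : AS.map (algebraMap S (LaurentSeries K)) = (X - C c) * A' := by
    rw [hAS, map_algebraMap_map_aeval, hA]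
  have hBSmap : BS.map (algebraMap S (LaurentSeries K)) = (X - C c) * B' := by
    rw [hBS, map_algebraMap_map_aeval, hB]
  have hASroot : Polynomial.aeval c AS = 0 := by
    rw [Polynomial.aeval_def, Polynomial.eval₂_eq_eval_map, hASmap]; simp
  have hBSroot : Polynomial.aeval c BS = 0 := by
    rw [Polynomial.aeval_def, Polynomial.eval₂_eq_eval_map, hBSmap]; simp
  have hASmonic : AS.Monic := hp.monic.map _
  have hint : IsIntegral S c := ⟨AS, hASmonic, by rw [← Polynomial.aeval_def]; exact hASroot⟩
  have hmA := Polynomial.map_dvd (algebraMap S (LaurentSeries K)) (minpoly.dvd S c hASroot)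
  have hmB := Polynomial.map_dvd (algebraMap S (LaurentSeries K)) (minpoly.dvd S c hBSroot)
  rw [hASmap] at hmA
  rw [hBSmap] at hmB
  obtain ⟨u, v, huv⟩ := hcopAB
  have hdvd : (minpoly S c).map (algebraMap S (LaurentSeries K)) ∣ X - C c := by
    have : X - C c = u * ((X - C c) * A') + v * ((X - C c) * B') := by
      linear_combination (-(X - C c)) * huv
    rw [this]
    exact dvd_add (dvd_mul_of_dvd_right hmA u) (dvd_mul_of_dvd_right hmB v)
  have hdeg1 := Polynomial.natDegree_le_of_dvd hdvd (Polynomial.X_sub_C_ne_zero c)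
  rw [Polynomial.natDegree_X_sub_C, Polynomial.natDegree_map] at hdeg1
  have hdeg2 := minpoly.natDegree_pos hint
  have hdeg : (minpoly S c).natDegree = 1 := by omega
  obtain ⟨y, hy⟩ := (minpoly.natDegree_eq_one_iff).mp hdeg
  rw [← hy]
  exact y.2

end Fermat.Agent.S28.helper559
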