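import Fermat.Agent.S28.helper559_TowerPrime

/-!
# S28 tower, part 3 (helper559): relative ranks of intermediate fields (generic toolkit)
-/

set_option autoImplicit false

noncomputable section

open Polynomial IntermediateField Cardinal

namespace Fermat.Agent.S28.helper559

section RankToolkit

variable {F E : Type*} [Field F] [Field E] [Algebra F E]

/-- `[S(x) : S] = deg minpoly_S(x)` for `x` integral over `S`. -/
theorem relrank_sup_simple (S : IntermediateField F E) {x : E} (hx : IsIntegral S x) :
    S.relrank (S ⊔ F⟮x⟯) = ((minpoly S x).natDegree : Cardinal) := by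
  have h : S ≤ S ⊔ F⟮x⟯ := le_sup_left
  rw [relrank_eq_rank_of_le h]
  have e : extendScalars h = IntermediateField.adjoin S {x} := by
    apply IntermediateField.restrictScalars_injective F
    rw [extendScalars_restrictScalars, restrictScalars_adjoin_eq_sup]
  rw [e]
  have := adjoin.finiteDimensional hx
  rw [← Module.finrank_eq_rank, adjoin.finrank hx]

theorem relrank_ne_zero (A B : IntermediateField F E) : A.relrank B ≠ 0 := by
  rw [IntermediateField.relrank, Subfield.relrank]
  exact (rank_pos).ne'

theorem relrank_le_of_le_right {A B C : IntermediateField F E} (h1 : A ≤ B) (h2 : B ≤ C) :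
    A.relrank B ≤ A.relrank C := by
  rw [← relrank_mul_relrank h1 h2]
  exact Cardinal.le_mul_right (relrank_ne_zero B C)

theorem relrank_le_of_le_left {A B C : IntermediateField F E} (h1 : A ≤ B) (h2 : B ≤ C) :
    B.relrank C ≤ A.relrank C := by
  rw [← relrank_mul_relrank h1 h2]
  exact Cardinal.le_mul_left (relrank_ne_zero A B)

theorem relfinrank_le_of_relrank_le {A B : IntermediateField F E} {n : ℕ}
    (h : A.relrank B ≤ n) : A.relfinrank B ≤ n := by
  rw [relfinrank_eq_toNat_relrank]
  have := Cardinal.toNat_le_toNat h Cardinal.natCast_lt_aleph0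
  simpa using this

theorem le_relfinrank_of_le_relrank {A B : IntermediateField F E} {n : ℕ}
    (h : (n : Cardinal) ≤ A.relrank B) (hfin : A.relrank B < ℵ₀) : n ≤ A.relfinrank B := by
  rw [relfinrank_eq_toNat_relrank]
  have := Cardinal.toNat_le_toNat h hfin
  simpa using this

theorem relrank_lt_aleph0_of_le {A B : IntermediateField F E} {n : ℕ}
    (h : A.relrank B ≤ n) : A.relrank B < ℵ₀ :=
  lt_of_le_of_lt h Cardinal.natCast_lt_aleph0

theorem relrank_lt_aleph0_trans {A B C : IntermediateField F E} (h1 : A ≤ B) (h2 : B ≤ C)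
    (hAB : A.relrank B < ℵ₀) (hBC : B.relrank C < ℵ₀) : A.relrank C < ℵ₀ := by
  rw [← relrank_mul_relrank h1 h2]
  exact Cardinal.mul_lt_aleph0 hAB hBC

theorem relfinrank_pos {A B : IntermediateField F E} (hfin : A.relrank B < ℵ₀) :
    0 < A.relfinrank B := by
  have h1 : ((1 : ℕ) : Cardinal) ≤ A.relrank B := by
    rw [Nat.cast_one]; exact Cardinal.one_le_iff_ne_zero.mpr (relrank_ne_zero A B)
  exact le_relfinrank_of_le_relrank h1 hfin

/-- Upper bound for a simple extension by a root of a monic polynomial over `S`. -/
theorem relrank_sup_simple_le (S : IntermediateField F E) {x : E} {P : (S : Type _)[X]}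
    (hP : P.Monic) (hroot : Polynomial.aeval x P = 0) :
    S.relrank (S ⊔ F⟮x⟯) ≤ (P.natDegree : Cardinal) := by
  have hint : IsIntegral S x := ⟨P, hP, by rw [← Polynomial.aeval_def]; exact hroot⟩
  rw [relrank_sup_simple S hint]
  exact_mod_cast Polynomial.natDegree_le_of_dvd (minpoly.dvd S x hroot) hP.ne_zero

end RankToolkit

end Fermat.Agent.S28.helper559
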