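import Fermat.Agent.S28.helper559_TowerRank

/-!
# S28 tower, part 4 (helper559): the fields `K(j(q^d) : d ∣ N)` and the upper bound `≤ ψ(N)`
-/

set_option autoImplicit false

noncomputable section

open Polynomial IntermediateField Cardinal ModularCurve

namespace Fermat.Agent.S28.helper559

/-! ### The Dedekind psi function as a product -/

/-- `ψ(N) = ∏_{p ∣ N} (p + 1) p^(v_p(N) - 1)`. -/
def psi (N : ℕ) : ℕ := ∏ p ∈ N.primeFactors, (p + 1) * p ^ (N.factorization p - 1)

@[simp] theorem psi_one : psi 1 = 1 := by simp [psi]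

theorem psi_pos (N : ℕ) : 0 < psi N := by
  unfold psi
  refine Finset.prod_pos fun p hp => ?_
  have hpp : p.Prime := Nat.prime_of_mem_primeFactors hp
  exact Nat.mul_pos (Nat.succ_pos p) (pow_pos hpp.pos _)

theorem psi_mul_prime_of_dvd {M p : ℕ} (hM : M ≠ 0) (hp : p.Prime) (h : p ∣ M) :
    psi (M * p) = psi M * p := by
  have hpm : p ∈ M.primeFactors := Nat.mem_primeFactors.mpr ⟨hp, h, hM⟩
  have hpf : (M * p).primeFactors = M.primeFactors := by
    rw [Nat.primeFactors_mul hM hp.ne_zero, hp.primeFactors]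
    exact Finset.union_eq_left.mpr (Finset.singleton_subset_iff.mpr hpm)
  have hfac : ∀ q, (M * p).factorization q = M.factorization q + if q = p then 1 else 0 := by
    intro q
    rw [Nat.factorization_mul hM hp.ne_zero, hp.factorization, Finsupp.add_apply,
      Finsupp.single_apply]
    congr 1
    by_cases hq : q = p
    · simp [hq]
    · simp [hq, Ne.symm hq]
  have hv : 1 ≤ M.factorization p := (hp.dvd_iff_one_le_factorization hM).mp h
  unfold psi
  rw [hpf, ← Finset.mul_prod_erase _ _ hpm, ← Finset.mul_prod_erase _ _ hpm, hfac p, if_pos rfl]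
  have herase : ∀ q ∈ M.primeFactors.erase p,
      (q + 1) * q ^ ((M * p).factorization q - 1) = (q + 1) * q ^ (M.factorization q - 1) := by
    intro q hq
    rw [hfac q, if_neg (Finset.ne_of_mem_erase hq), add_zero]
  rw [Finset.prod_congr rfl herase]
  have hpow : p ^ (M.factorization p + 1 - 1) = p ^ (M.factorization p - 1) * p := by
    rw [← pow_succ]; congr 1; omega
  rw [hpow]; ring

theorem psi_mul_prime_of_not_dvd {M p : ℕ} (hM : M ≠ 0) (hp : p.Prime) (h : ¬ p ∣ M) :
    psi (M * p) = psi M * (p + 1) := by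
  have hpm : p ∉ M.primeFactors := fun hmem => h (Nat.dvd_of_mem_primeFactors hmem)
  have hpf : (M * p).primeFactors = insert p M.primeFactors := by
    rw [Nat.primeFactors_mul hM hp.ne_zero, hp.primeFactors, Finset.union_comm]; rfl
  have hfac : ∀ q, (M * p).factorization q = M.factorization q + if q = p then 1 else 0 := by
    intro q
    rw [Nat.factorization_mul hM hp.ne_zero, hp.factorization, Finsupp.add_apply,
      Finsupp.single_apply]
    congr 1
    by_cases hq : q = p
    · simp [hq]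
    · simp [hq, Ne.symm hq]
  have hv : M.factorization p = 0 := Nat.factorization_eq_zero_of_not_dvd h
  unfold psi
  rw [hpf, Finset.prod_insert hpm, hfac p, if_pos rfl, hv]
  have hrest : ∀ q ∈ M.primeFactors,
      (q + 1) * q ^ ((M * p).factorization q - 1) = (q + 1) * q ^ (M.factorization q - 1) := by
    intro q hq
    have hqp : q ≠ p := fun e => hpm (e ▸ hq)
    rw [hfac q, if_neg hqp, add_zero]
  rw [Finset.prod_congr rfl hrest]
  simp; ring

/-! ### The fields -/

variable {K : Type*} [Field K]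

/-- `V n` as a `K`-algebra homomorphism. -/
def Valg (n : ℕ) : LaurentSeries K →ₐ[K] LaurentSeries K :=
  { V n with commutes' := V_algebraMap n }

@[simp] theorem Valg_apply (n : ℕ) (f : LaurentSeries K) : Valg n f = V n f := rfl

/-- The field `K(j(q^d) : d ∣ N)`. -/
def FF (j : LaurentSeries K) (N : ℕ) : IntermediateField K (LaurentSeries K) :=
  IntermediateField.adjoin K {x | ∃ d, d ∣ N ∧ x = V d j}

/-- The field generated by the `j(q^d)`, `d ∣ N` a prime power or `1`. -/
def GG (j : LaurentSeries K) (N : ℕ) : IntermediateField K (LaurentSeries K) :=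
  IntermediateField.adjoin K {x | ∃ d, d ∣ N ∧ (d = 1 ∨ IsPrimePow d) ∧ x = V d j}

theorem V_mem_FF (j : LaurentSeries K) {d N : ℕ} (h : d ∣ N) : V d j ∈ FF j N :=
  subset_adjoin K _ ⟨d, h, rfl⟩

theorem j_mem_FF (j : LaurentSeries K) (N : ℕ) : j ∈ FF j N := by
  simpa using V_mem_FF j (one_dvd N)

theorem FF_mono (j : LaurentSeries K) {M N : ℕ} (h : M ∣ N) : FF j M ≤ FF j N :=
  adjoin.mono K _ _ (fun _ ⟨d, hd, hx⟩ => ⟨d, hd.trans h, hx⟩)

theorem simple_le_FF (j : LaurentSeries K) (N : ℕ) : K⟮j⟯ ≤ FF j N :=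
  adjoin_simple_le_iff.mpr (j_mem_FF j N)

theorem FF_one (j : LaurentSeries K) : FF j 1 = K⟮j⟯ := by
  unfold FF
  congr 1
  ext x
  simp [Nat.dvd_one]

theorem V_mem_GG (j : LaurentSeries K) {d N : ℕ} (h : d ∣ N) (hd : d = 1 ∨ IsPrimePow d) :
    V d j ∈ GG j N :=
  subset_adjoin K _ ⟨d, h, hd, rfl⟩

theorem j_mem_GG (j : LaurentSeries K) (N : ℕ) : j ∈ GG j N := by
  simpa using V_mem_GG j (one_dvd N) (Or.inl rfl)

theorem simple_le_GG (j : LaurentSeries K) (N : ℕ) : K⟮j⟯ ≤ GG j N :=
  adjoin_simple_le_iff.mpr (j_mem_GG j N)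

theorem GG_le_FF (j : LaurentSeries K) (N : ℕ) : GG j N ≤ FF j N :=
  adjoin.mono K _ _ (fun _ ⟨d, hd, _, hx⟩ => ⟨d, hd, hx⟩)

theorem GG_one (j : LaurentSeries K) : GG j 1 = K⟮j⟯ := by
  apply le_antisymm _ (simple_le_GG j 1)
  rw [GG, adjoin_le_iff]
  rintro x ⟨d, hd, -, rfl⟩
  rw [Nat.dvd_one] at hd
  subst hd
  simpa using mem_adjoin_simple_self K j

/-! ### Transport of modular polynomials along `V n` -/

theorem eval_PhiAt_V (Φ : K[X][X]) (n : ℕ) (y x : LaurentSeries K) :
    (PhiAt Φ (V n y)).eval (V n x) = V n ((PhiAt Φ y).eval x) := by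
  rw [← PhiAt_map_V, Polynomial.eval_map_apply]

theorem IsModPoly.map_V {j : LaurentSeries K} {p : ℕ} {Φ : K[X][X]} (h : IsModPoly j p Φ)
    (hp : p ≠ 0) {n : ℕ} (hn : n ≠ 0) : IsModPoly (V n j) p Φ where
  monic := h.monic
  natDegree_eq := h.natDegree_eq
  root := by rw [V_comm hp hn, eval_PhiAt_V, h.root, map_zero]
  root' := by rw [V_comm hp hn, eval_PhiAt_V, h.root', map_zero]

/-! ### Degree of the elementary steps -/

theorem step1 {j : LaurentSeries K} {p : ℕ} {Φ : K[X][X]} (h : IsModPoly j p Φ)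
    (S : IntermediateField K (LaurentSeries K)) (h0 : j ∈ S) :
    S.relrank (S ⊔ K⟮V p j⟯) ≤ ((p + 1 : ℕ) : Cardinal) := by
  have hmonic : (Φ.map (Polynomial.aeval (⟨j, h0⟩ : S)).toRingHom).Monic := h.monic.map _
  have hroot : Polynomial.aeval (V p j) (Φ.map (Polynomial.aeval (⟨j, h0⟩ : S)).toRingHom) = 0 := by
    rw [Polynomial.aeval_def, Polynomial.eval₂_eq_eval_map, map_algebraMap_map_aeval]
    exact h.root
  have := relrank_sup_simple_le S hmonic hroot
  rwa [h.monic.natDegree_map, h.natDegree_eq] at this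

theorem step2 {j : LaurentSeries K} {p : ℕ} {Φ : K[X][X]} (h : IsModPoly j p Φ)
    (hj : j ≠ 0) (hord : j.order ≠ 0) (hp : 2 ≤ p)
    (S : IntermediateField K (LaurentSeries K)) (h0 : j ∈ S) (h1 : V p j ∈ S) :
    S.relrank (S ⊔ K⟮V p (V p j)⟯) ≤ (p : Cardinal) := by
  have hp0 : p ≠ 0 := by omega
  set AS : (S : Type _)[X] := Φ.map (Polynomial.aeval (⟨V p j, h1⟩ : S)).toRingHom with hAS
  have hASmap : AS.map (algebraMap S (LaurentSeries K)) = PhiAt Φ (V p j) :=
    map_algebraMap_map_aeval Φ S h1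
  have hASmonic : AS.Monic := h.monic.map _
  have hASdeg : AS.natDegree = p + 1 := by rw [hAS, h.monic.natDegree_map, h.natDegree_eq]
  set y0 : S := ⟨j, h0⟩ with hy0
  have hroot0 : AS.IsRoot y0 := by
    have h2 : algebraMap S (LaurentSeries K) (AS.eval y0) = 0 := by
      rw [← Polynomial.eval_map_apply, hASmap]; exact h.root'
    exact (map_eq_zero_iff _ (algebraMap S (LaurentSeries K)).injective).mp h2
  set QS : (S : Type _)[X] := AS /ₘ (X - C y0) with hQS
  have hQ : (X - C y0) * QS = AS := Polynomial.mul_divByMonic_eq_iff_isRoot.mpr hroot0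
  have hQmonic : QS.Monic := by
    have h3 : ((X - C y0) * QS).Monic := by rw [hQ]; exact hASmonic
    exact (Polynomial.monic_X_sub_C _).of_mul_monic_left h3
  have hQdeg : QS.natDegree = p := by
    have h3 := congrArg Polynomial.natDegree hQ
    rw [(Polynomial.monic_X_sub_C _).natDegree_mul hQmonic, Polynomial.natDegree_X_sub_C,
      hASdeg] at h3
    omega
  have hxroot : Polynomial.aeval (V p (V p j)) AS = 0 := by
    rw [Polynomial.aeval_def, Polynomial.eval₂_eq_eval_map, hASmap]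
    exact (h.map_V hp0 hp0).root
  have hne : V p (V p j) - j ≠ 0 := by
    intro h3
    have h4 := congrArg HahnSeries.order (sub_eq_zero.mp h3)
    rw [order_V hp0 (V_ne_zero p hj), order_V hp0 hj] at h4
    have h5 : ((p : ℤ) * p - 1) * j.order = 0 := by linarith
    rcases mul_eq_zero.mp h5 with h6 | h6
    · have h7 : (2 : ℤ) ≤ p := by exact_mod_cast hp
      nlinarith
    · exact hord h6
  have hQroot : Polynomial.aeval (V p (V p j)) QS = 0 := by
    rw [← hQ, map_mul, map_sub, Polynomial.aeval_X, Polynomial.aeval_C] at hxroot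
    rcases mul_eq_zero.mp hxroot with h3 | h3
    · exact absurd h3 hne
    · exact h3
  have := relrank_sup_simple_le S hQmonic hQroot
  rwa [hQdeg] at this

/-! ### The upper bound -/

theorem GG_mul_prime_le (j : LaurentSeries K) {M p : ℕ} (hM : M ≠ 0) (hp : p.Prime) :
    GG j (M * p) ≤ GG j M ⊔ K⟮V (p ^ (M.factorization p + 1)) j⟯ := by
  rw [GG, adjoin_le_iff]
  rintro x ⟨d, hd, hpp, rfl⟩
  by_cases hdM : d ∣ M
  · exact (le_sup_left : GG j M ≤ _) (V_mem_GG j hdM hpp)
  · have hd1 : d ≠ 1 := fun h => hdM (h ▸ one_dvd M)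
    obtain ⟨q, k, hq, hk, rfl⟩ := (isPrimePow_nat_iff d).mp (hpp.resolve_left hd1)
    have hqp : q = p := by
      by_contra hne
      have hcop : Nat.Coprime (q ^ k) p :=
        Nat.Coprime.pow_left k ((Nat.coprime_primes hq hp).mpr hne)
      exact hdM (hcop.dvd_of_dvd_mul_right hd)
    subst hqp
    have hMp : M * q ≠ 0 := Nat.mul_ne_zero hM hq.ne_zero
    have hfac : (M * q).factorization q = M.factorization q + 1 := by
      rw [Nat.factorization_mul hM hq.ne_zero, hq.factorization]; simp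
    have h1 : k ≤ M.factorization q + 1 := by
      rw [← hfac]; exact (hq.pow_dvd_iff_le_factorization hMp).mp hd
    have h2 : ¬ k ≤ M.factorization q := fun h =>
      hdM ((hq.pow_dvd_iff_le_factorization hM).mpr h)
    have hk' : k = M.factorization q + 1 := by omega
    subst hk'
    exact (le_sup_right : K⟮V (q ^ (M.factorization q + 1)) j⟯ ≤ _)
      (mem_adjoin_simple_self K _)

/-- **Upper bound** for the field generated by prime-power levels. -/
theorem relrank_GG_le {j : LaurentSeries K} (hj : j ≠ 0) (hord : j.order = -1) :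
    ∀ N : ℕ, N ≠ 0 → (∀ p, p.Prime → p ∣ N → ∃ Φ : K[X][X], IsModPoly j p Φ) →
      K⟮j⟯.relrank (GG j N) ≤ (psi N : Cardinal) := by
  intro N
  induction N using Nat.strong_induction_on with
  | _ N ih =>
    intro hN hΦ
    by_cases hN1 : N = 1
    · subst hN1
      rw [GG_one, relrank_self, psi_one, Nat.cast_one]
    set p := N.minFac with hpdef
    have hp : p.Prime := Nat.minFac_prime hN1
    have hpN : p ∣ N := Nat.minFac_dvd N
    obtain ⟨M, hNM⟩ := hpN
    have hM0 : M ≠ 0 := by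
      rintro rfl; exact hN (by rw [hNM, mul_zero])
    have hNM' : N = M * p := by rw [hNM, mul_comm]
    have hMlt : M < N := by
      rw [hNM']; exact lt_mul_of_one_lt_right (Nat.pos_of_ne_zero hM0) hp.one_lt
    have hMN : M ∣ N := ⟨p, hNM'⟩
    have ihM := ih M hMlt hM0 (fun q hq hqM => hΦ q hq (hqM.trans hMN))
    obtain ⟨Φ, hΦp⟩ := hΦ p hp ⟨M, hNM⟩
    have hp2 : 2 ≤ p := hp.two_le
    have hp0 : p ≠ 0 := hp.ne_zero
    set S := GG j M with hS
    have hle1 : K⟮j⟯ ≤ S := simple_le_GG j M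
    set x := V (p ^ (M.factorization p + 1)) j with hx
    have hle2 : S ≤ S ⊔ K⟮x⟯ := le_sup_left
    have hle3 : GG j N ≤ S ⊔ K⟮x⟯ := by rw [hNM']; exact GG_mul_prime_le j hM0 hp
    have hle0 : K⟮j⟯ ≤ GG j N := simple_le_GG j N
    have hstep : S.relrank (S ⊔ K⟮x⟯) ≤ ((if p ∣ M then p else p + 1 : ℕ) : Cardinal) := by
      by_cases hpM : p ∣ M
      · rw [if_pos hpM]
        have hv : 1 ≤ M.factorization p := (hp.dvd_iff_one_le_factorization hM0).mp hpM
        set v := M.factorization p with hvdef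
        set j' := V (p ^ (v - 1)) j with hj'
        have hpv0 : p ^ (v - 1) ≠ 0 := pow_ne_zero _ hp0
        have hj'0 : j' ≠ 0 := V_ne_zero _ hj
        have hj'ord : j'.order ≠ 0 := by
          rw [hj', order_V_j hj hord hpv0]
          have : (0 : ℤ) < ((p ^ (v - 1) : ℕ) : ℤ) := by exact_mod_cast Nat.pos_of_ne_zero hpv0
          omega
        have hmem0 : j' ∈ S := by
          refine V_mem_GG j ((pow_dvd_pow p (Nat.sub_le v 1)).trans
            ((hp.pow_dvd_iff_le_factorization hM0).mpr le_rfl)) ?_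
          by_cases hv1 : v = 1
          · left; rw [hv1]; simp
          · right; exact (isPrimePow_nat_iff _).mpr ⟨p, v - 1, hp, by omega, rfl⟩
        have hpow : p * p ^ (v - 1) = p ^ v := by
          rw [← pow_succ']; congr 1; omega
        have hVj' : V p j' = V (p ^ v) j := by
          rw [hj', V_V hp0 hpv0, hpow]
        have hmem1 : V p j' ∈ S := by
          rw [hVj']
          exact V_mem_GG j ((hp.pow_dvd_iff_le_factorization hM0).mpr le_rfl)
            (Or.inr ((isPrimePow_nat_iff _).mpr ⟨p, v, hp, by omega, rfl⟩))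
        have hxeq : x = V p (V p j') := by
          rw [hVj', V_V hp0 (pow_ne_zero _ hp0), ← pow_succ']
        rw [hxeq]
        exact step2 (hΦp.map_V hp0 hpv0) hj'0 hj'ord hp2 S hmem0 hmem1
      · rw [if_neg hpM]
        have hv : M.factorization p = 0 := Nat.factorization_eq_zero_of_not_dvd hpM
        have hxeq : x = V p j := by rw [hx, hv]; simp
        rw [hxeq]
        exact step1 hΦp S (j_mem_GG j M)
    have hpsi : psi N = psi M * (if p ∣ M then p else p + 1) := by
      by_cases hpM : p ∣ M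
      · rw [if_pos hpM, hNM', psi_mul_prime_of_dvd hM0 hp hpM]
      · rw [if_neg hpM, hNM', psi_mul_prime_of_not_dvd hM0 hp hpM]
    calc K⟮j⟯.relrank (GG j N) ≤ K⟮j⟯.relrank (S ⊔ K⟮x⟯) :=
          relrank_le_of_le_right hle0 hle3
      _ = K⟮j⟯.relrank S * S.relrank (S ⊔ K⟮x⟯) := (relrank_mul_relrank hle1 hle2).symm
      _ ≤ (psi M : Cardinal) * ((if p ∣ M then p else p + 1 : ℕ) : Cardinal) :=
          mul_le_mul' ihM hstep
      _ = (psi N : Cardinal) := by rw [hpsi, Nat.cast_mul]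

/-- **Generation**: `K(j(q^d) : d ∣ N)` is generated by the prime-power levels. -/
theorem FF_le_GG {j : LaurentSeries K} (hj : j ≠ 0) (hord : j.order = -1) {N : ℕ} (hN : N ≠ 0)
    (hΦ : ∀ p, p.Prime → p ∣ N → ∃ Φ : K[X][X], IsModPoly j p Φ) : FF j N ≤ GG j N := by
  rw [FF, adjoin_le_iff]
  rintro x ⟨d, hd, rfl⟩
  induction d using Nat.strong_induction_on with
  | _ d ih =>
    by_cases h1 : d = 1 ∨ IsPrimePow d
    · exact V_mem_GG j hd h1
    push Not at h1
    obtain ⟨hd1, hdpp⟩ := h1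
    have hd0 : d ≠ 0 := fun h => hN (Nat.eq_zero_of_zero_dvd (h ▸ hd))
    set p := d.minFac with hpdef
    have hp : p.Prime := Nat.minFac_prime hd1
    have hpd : p ∣ d := Nat.minFac_dvd d
    -- a second prime
    obtain ⟨r, hr, hrd, hrp⟩ : ∃ r, r.Prime ∧ r ∣ d ∧ r ≠ p := by
      by_contra hcon
      push Not at hcon
      exact hdpp (isPrimePow_iff_unique_prime_dvd.mpr
        ⟨p, ⟨hp, hpd⟩, fun q hq => hcon q hq.1 hq.2⟩)
    have hcop : Nat.Coprime p r := (Nat.coprime_primes hp hr).mpr (Ne.symm hrp)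
    obtain ⟨e, he⟩ : p * r ∣ d := hcop.mul_dvd_of_dvd_of_dvd hpd hrd
    have he0 : e ≠ 0 := by rintro rfl; exact hd0 (by rw [he, mul_zero])
    obtain ⟨Φp, hΦp⟩ := hΦ p hp (hpd.trans hd)
    obtain ⟨Φr, hΦr⟩ := hΦ r hr (hrd.trans hd)
    have hpe : p * e ∣ d := ⟨r, by rw [he]; ring⟩
    have hre : r * e ∣ d := ⟨p, by rw [he]; ring⟩
    have hpe_lt : p * e < d := by
      rw [he]
      have : p * e * 1 < p * e * r :=
        Nat.mul_lt_mul_of_pos_left hr.one_lt (Nat.mul_pos hp.pos (Nat.pos_of_ne_zero he0))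
      calc p * e = p * e * 1 := (mul_one _).symm
        _ < p * e * r := this
        _ = p * r * e := by ring
    have hre_lt : r * e < d := by
      rw [he]
      have : r * e * 1 < r * e * p :=
        Nat.mul_lt_mul_of_pos_left hp.one_lt (Nat.mul_pos hr.pos (Nat.pos_of_ne_zero he0))
      calc r * e = r * e * 1 := (mul_one _).symm
        _ < r * e * p := this
        _ = p * r * e := by ring
    have m1 := ih (p * e) hpe_lt (hpe.trans hd)
    have m2 := ih (r * e) hre_lt (hre.trans hd)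
    have := mem_of_mem_of_mem hΦp hΦr hj hord hp.two_le hr.two_le hcop (Ne.symm hrp) he0
      (GG j N) m1 m2
    rwa [← he] at this

theorem FF_eq_GG {j : LaurentSeries K} (hj : j ≠ 0) (hord : j.order = -1) {N : ℕ} (hN : N ≠ 0)
    (hΦ : ∀ p, p.Prime → p ∣ N → ∃ Φ : K[X][X], IsModPoly j p Φ) : FF j N = GG j N :=
  le_antisymm (FF_le_GG hj hord hN hΦ) (GG_le_FF j N)

/-- **Upper bound**: `[K(j(q^d) : d ∣ N) : K(j)] ≤ ψ(N)`. -/
theorem relrank_FF_le {j : LaurentSeries K} (hj : j ≠ 0) (hord : j.order = -1) {N : ℕ}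
    (hN : N ≠ 0) (hΦ : ∀ p, p.Prime → p ∣ N → ∃ Φ : K[X][X], IsModPoly j p Φ) :
    K⟮j⟯.relrank (FF j N) ≤ (psi N : Cardinal) := by
  rw [FF_eq_GG hj hord hN hΦ]
  exact relrank_GG_le hj hord N hN hΦ

end Fermat.Agent.S28.helper559
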