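import Fermat.Agent.Lib.helper618_IntegralReduction
import Fermat.Agent.S28.helper2608_Spec
import Fermat.Agent.S28.helper508_RatLoc
import Fermat.Agent.S28.helper3292_JqFacts

/-!
# S28 algebra core, plugged into the Spec (helper618)

`stmt_core : Spec.Stmt_Core N ℓ`, i.e. `Stmt_CoreInput N ℓ → Stmt_Red` for the three charts,
obtained from the abstract lemma `Fermat.Agent.Lib.helper618.exists_reduction_hom_of_tower`
(base ring `ℤ₍ℓ₎[X]` acting through `X ↦ j`), then localisation (`mid` chart) and the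
two-multiplier integrality lemma `isIntegral_of_smul_of_smul` (`inf` chart).
-/

set_option autoImplicit false
set_option linter.unusedSectionVars false
set_option linter.style.haveILetI false

noncomputable section

namespace Fermat.Agent.S28.helper618

open ModularCurve ModularCurve.IgusaScheme Polynomial
open Fermat.Agent.S28.Spec Fermat.Agent.S28.helper508 Fermat.Agent.S28.helper3292
open Fermat.Agent.Lib.helper618

theorem isIntegral_adjoin_singleton_iff {A F : Type*} [CommRing A] [CommRing F] [Algebra A F]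
    (t x : F) :
    IsIntegral (Algebra.adjoin A {t}) x ↔
      ((Polynomial.aeval t : A[X] →ₐ[A] F) : A[X] →+* F).IsIntegralElem x := by
  let φ : A[X] →ₐ[A] Algebra.adjoin A {t} :=
    Polynomial.aeval ⟨t, Algebra.self_mem_adjoin_singleton A t⟩
  have hφ : (algebraMap (Algebra.adjoin A {t}) F).comp (φ : A[X] →+* Algebra.adjoin A {t}) =
      ((Polynomial.aeval t : A[X] →ₐ[A] F) : A[X] →+* F) := by
    ext p
    · simp [φ]
    · simp [φ]
  have hsurj : Function.Surjective (φ : A[X] →+* Algebra.adjoin A {t}) := by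
    rintro ⟨y, hy⟩
    rw [Algebra.adjoin_singleton_eq_range_aeval] at hy
    obtain ⟨p, rfl⟩ := hy
    refine ⟨p, Subtype.ext ?_⟩
    have := Subalgebra.aeval_coe (Algebra.adjoin A {t})
      ⟨t, Algebra.self_mem_adjoin_singleton A t⟩ p
    exact this.symm
  constructor
  · rintro ⟨p, hpm, hp⟩
    obtain ⟨q, hq⟩ := Polynomial.map_surjective _ hsurj p
    obtain ⟨q', hq', -, hq'm⟩ := Polynomial.lifts_and_natDegree_eq_and_monic
      ((Polynomial.mem_lifts _).mpr ⟨q, hq⟩) hpm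
    refine ⟨q', hq'm, ?_⟩
    rw [← hφ, ← Polynomial.eval₂_map, hq']
    exact hp
  · rintro ⟨q, hqm, hq⟩
    refine ⟨q.map (φ : A[X] →+* Algebra.adjoin A {t}), hqm.map _, ?_⟩
    rw [Polynomial.eval₂_map, hφ]
    exact hq

section PolyZl

variable (ℓ : ℕ) [Fact ℓ.Prime]

/-- `ℓ` as a constant polynomial over `ℤ₍ℓ₎`. -/
abbrev ellPoly : Polynomial (Zl ℓ) := C ((ℓ : ℕ) : Zl ℓ)

theorem prime_ellPoly : Prime (ellPoly ℓ) := Polynomial.prime_C_iff.mpr (prime_ell ℓ)

theorem ellPoly_dvd_iff (r : Polynomial (Zl ℓ)) : ellPoly ℓ ∣ r ↔ r.map (toZMod ℓ) = 0 := by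
  rw [Polynomial.C_dvd_iff_dvd_coeff, Polynomial.ext_iff]
  refine forall_congr' fun i => ?_
  rw [Polynomial.coeff_map, Polynomial.coeff_zero, toZMod_eq_zero_iff]
  rfl

theorem ellPoly_finite (b : Polynomial (Zl ℓ)) (hb : b ≠ 0) : ∃ k : ℕ, ¬ ellPoly ℓ ^ k ∣ b := by
  have := FiniteMultiplicity.of_not_isUnit (prime_ellPoly ℓ).not_isUnit hb
  obtain ⟨k, hk⟩ := this
  exact ⟨k + 1, hk⟩

theorem not_ellPoly_dvd_X_pow (k : ℕ) : ¬ ellPoly ℓ ∣ (X : Polynomial (Zl ℓ)) ^ k := by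
  rw [ellPoly_dvd_iff, Polynomial.map_pow, Polynomial.map_X]
  exact pow_ne_zero k Polynomial.X_ne_zero

end PolyZl

section Series

variable (ℓ : ℕ) [Fact ℓ.Prime]

/-- Coefficient embedding `ℤ₍ℓ₎((q)) → ℚ((q))`. -/
abbrev iotaQ : LaurentSeries (Zl ℓ) →+* LaurentSeries ℚ := coeffMap (algebraMap (Zl ℓ) ℚ)

theorem iotaQ_injective : Function.Injective (iotaQ ℓ) := by
  intro x y h
  ext k
  have := congrArg (fun s : LaurentSeries ℚ => s.coeff k) h
  simp only [coeffMap_coeff] at this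
  exact this

/-- Coefficientwise reduction of `ℓ`-integral series in `ℚ((q))`. -/
def redO : (iotaQ ℓ).range →+* LaurentSeries (ZMod ℓ) :=
  (coeffMap (toZMod ℓ)).comp
    ((RingEquiv.ofBijective (iotaQ ℓ).rangeRestrict
      ⟨(RingHom.injective_iff_ker_eq_bot _).mpr (by
          rw [RingHom.ker_rangeRestrict]
          exact (RingHom.injective_iff_ker_eq_bot _).mp (iotaQ_injective ℓ)),
        (iotaQ ℓ).rangeRestrict_surjective⟩).symm :
      (iotaQ ℓ).range →+* LaurentSeries (Zl ℓ))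

theorem redO_apply (y : LaurentSeries (Zl ℓ)) (x : (iotaQ ℓ).range)
    (h : (x : LaurentSeries ℚ) = iotaQ ℓ y) : redO ℓ x = coeffMap (toZMod ℓ) y := by
  have hx : x = (iotaQ ℓ).rangeRestrict y := Subtype.ext h
  rw [hx, redO, RingHom.comp_apply]
  congr 1
  exact RingEquiv.symm_apply_apply _ y

theorem iotaQ_intCast (s : LaurentSeries ℤ) :
    iotaQ ℓ (coeffMap (Int.castRingHom (Zl ℓ)) s) = toQ s := by
  rw [coeffMap_coeffMap]
  exact coeffMap_congr (RingHom.ext_int _ _) s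

theorem toZMod_intCast_series (s : LaurentSeries ℤ) :
    coeffMap (toZMod ℓ) (coeffMap (Int.castRingHom (Zl ℓ)) s) = toFl ℓ s := by
  rw [coeffMap_coeffMap]
  exact coeffMap_congr (RingHom.ext_int _ _) s

theorem psi_eq (Ψ : Polynomial (Zl ℓ) →+* LaurentSeries ℚ) (hX : Ψ X = jq)
    (hC : ∀ a : Zl ℓ, Ψ (C a) = algebraMap ℚ (LaurentSeries ℚ) (a : ℚ)) (r : Polynomial (Zl ℓ)) :
    Ψ r = iotaQ ℓ (Polynomial.aeval (jqModC (Zl ℓ)) r) := by
  have : Ψ = (iotaQ ℓ).comp
      ((Polynomial.aeval (jqModC (Zl ℓ)) : Polynomial (Zl ℓ) →ₐ[Zl ℓ] LaurentSeries (Zl ℓ)) :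
        Polynomial (Zl ℓ) →+* LaurentSeries (Zl ℓ)) := by
    apply Polynomial.ringHom_ext
    · intro a
      rw [hC, RingHom.comp_apply]
      simp only [AlgHom.coe_toRingHom, Polynomial.aeval_C]
      rw [coeffMap_algebraMap']
      rfl
    · rw [hX, RingHom.comp_apply]
      simp only [AlgHom.coe_toRingHom, Polynomial.aeval_X]
      rw [coeffMap_jqModC]
      rfl
  rw [this]
  rfl

theorem int_poly_hom_ext {S : Type*} [CommRing S] (f g : Polynomial ℤ →+* S) (h : f X = g X) :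
    f = g :=
  Polynomial.ringHom_ext' (RingHom.ext_int _ _) h

theorem psi_intCast (Ψ : Polynomial (Zl ℓ) →+* LaurentSeries ℚ) (hX : Ψ X = jq)
    (c : Polynomial ℤ) :
    Ψ (c.map (Int.castRingHom (Zl ℓ))) = Polynomial.aeval jq c := by
  have : Ψ.comp (Polynomial.mapRingHom (Int.castRingHom (Zl ℓ))) =
      ((Polynomial.aeval jq : Polynomial ℤ →ₐ[ℤ] LaurentSeries ℚ) : Polynomial ℤ →+* _) := by
    apply int_poly_hom_ext
    simp [hX]
  exact congrArg (fun f : Polynomial ℤ →+* LaurentSeries ℚ => f c) this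

end Series

section Fin

variable (N : ℕ) [NeZero N] (ℓ : ℕ) [Fact ℓ.Prime]

theorem intCast_poly_injective :
    Function.Injective (Polynomial.map (Int.castRingHom (Zl ℓ))) := by
  apply Polynomial.map_injective
  intro a b h
  have := congrArg (fun x : Zl ℓ => (x : ℚ)) h
  simpa using this

theorem exists_red_fin (n : ℕ) (L : IntermediateField ℚ (LaurentSeries ℚ))
    (b : Fin n → LaurentSeries ℤ) (hF : modularFunctionFieldFull N ≤ L)
    (hMEM : ∀ i, toQ (b i) ∈ L) (hINT : ∀ i, IsIntegralOverZj (b i))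
    (hDEG : DegLE L n) (hLI : LinIndepModL ℓ b) :
    ∃ red : ↥(chartAlg N ℓ {jFull N}) →+* LaurentSeries (ZMod ℓ),
      (∀ a, red a = 0 → ∃ b, a = (ℓ : ↥(chartAlg N ℓ {jFull N})) * b) ∧
      red (jChartFin N ℓ) = jqModC (ZMod ℓ) := by
  classical
  -- algebra structures: `R = ℤ₍ℓ₎[X]` acts on `F` and on `L` through `X ↦ j`
  letI algRF : Algebra (Polynomial (Zl ℓ)) ↥(modularFunctionFieldFull N) :=
    ((Polynomial.aeval (jFull N) : Polynomial (Zl ℓ) →ₐ[Zl ℓ] ↥(modularFunctionFieldFull N)) :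
      Polynomial (Zl ℓ) →+* ↥(modularFunctionFieldFull N)).toAlgebra
  let incl : ↥(modularFunctionFieldFull N) →+* ↥L :=
    { toFun := fun x => ⟨(x : LaurentSeries ℚ), hF x.2⟩
      map_one' := rfl
      map_mul' := fun _ _ => rfl
      map_zero' := rfl
      map_add' := fun _ _ => rfl }
  letI algFL : Algebra ↥(modularFunctionFieldFull N) ↥L := incl.toAlgebra
  letI algRL : Algebra (Polynomial (Zl ℓ)) ↥L :=
    ((algebraMap ↥(modularFunctionFieldFull N) ↥L).comp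
      (algebraMap (Polynomial (Zl ℓ)) ↥(modularFunctionFieldFull N))).toAlgebra
  haveI tower : IsScalarTower (Polynomial (Zl ℓ)) ↥(modularFunctionFieldFull N) ↥L :=
    IsScalarTower.of_algebraMap_eq (fun _ => rfl)
  -- the composite `R → L → ℚ((q))`
  let Ψ : Polynomial (Zl ℓ) →+* LaurentSeries ℚ :=
    (algebraMap ↥L (LaurentSeries ℚ)).comp (algebraMap (Polynomial (Zl ℓ)) ↥L)
  have hΨX : Ψ X = jq := by
    show ((algebraMap ↥(modularFunctionFieldFull N) ↥L
      (Polynomial.aeval (jFull N) (X : Polynomial (Zl ℓ))) : ↥L) : LaurentSeries ℚ) = jq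
    rw [Polynomial.aeval_X]
    rfl
  have hΨC : ∀ a : Zl ℓ, Ψ (C a) = algebraMap ℚ (LaurentSeries ℚ) (a : ℚ) := by
    intro a
    show ((algebraMap ↥(modularFunctionFieldFull N) ↥L
      (Polynomial.aeval (jFull N) (C a : Polynomial (Zl ℓ))) : ↥L) : LaurentSeries ℚ) = _
    rw [Polynomial.aeval_C]
    have h1 : algebraMap (Zl ℓ) ↥(modularFunctionFieldFull N) a =
        algebraMap ℚ ↥(modularFunctionFieldFull N) (a : ℚ) := rfl
    show ((algebraMap (Zl ℓ) ↥(modularFunctionFieldFull N) a : ↥(modularFunctionFieldFull N)) :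
      LaurentSeries ℚ) = _
    rw [h1]
    first | rfl | simp
  have hΨ : ∀ r, Ψ r = iotaQ ℓ (Polynomial.aeval (jqModC (Zl ℓ)) r) := psi_eq ℓ Ψ hΨX hΨC
  haveI faithful : FaithfulSMul (Polynomial (Zl ℓ)) ↥L := by
    rw [faithfulSMul_iff_algebraMap_injective]
    intro r s hrs
    have h1 : Ψ r = Ψ s := congrArg (fun x : ↥L => (x : LaurentSeries ℚ)) hrs
    rw [hΨ, hΨ] at h1
    have h2 := iotaQ_injective ℓ h1
    have h3 : Polynomial.aeval (jqModC (Zl ℓ)) (r - s) = 0 := by rw [map_sub, h2, sub_self]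
    exact sub_eq_zero.mp ((aeval_jqModC_eq_zero_iff (Zl ℓ) (r - s)).mp h3)
  -- the subalgebra of integral elements of `L` with `ℓ`-integral `q`-expansion
  let Csub : Subalgebra (Polynomial (Zl ℓ)) ↥L :=
    { carrier := {x | IsIntegral (Polynomial (Zl ℓ)) x ∧
        (x : LaurentSeries ℚ) ∈ (iotaQ ℓ).range}
      mul_mem' := fun ha hb => ⟨ha.1.mul hb.1, (iotaQ ℓ).range.mul_mem ha.2 hb.2⟩
      one_mem' := ⟨isIntegral_one, (iotaQ ℓ).range.one_mem⟩
      add_mem' := fun ha hb => ⟨ha.1.add hb.1, (iotaQ ℓ).range.add_mem ha.2 hb.2⟩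
      zero_mem' := ⟨isIntegral_zero, (iotaQ ℓ).range.zero_mem⟩
      algebraMap_mem' := fun r => ⟨isIntegral_algebraMap,
        ⟨Polynomial.aeval (jqModC (Zl ℓ)) r, (hΨ r).symm⟩⟩ }
  let inclO : ↥Csub →+* ↥(iotaQ ℓ).range :=
    { toFun := fun x => ⟨((x : ↥L) : LaurentSeries ℚ), x.2.2⟩
      map_one' := rfl
      map_mul' := fun _ _ => rfl
      map_zero' := rfl
      map_add' := fun _ _ => rfl }
  let ρ₀ : ↥Csub →+* LaurentSeries (ZMod ℓ) := (redO ℓ).comp inclO
  have hρ₀ : ∀ (x : ↥Csub) (y : LaurentSeries (Zl ℓ)),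
      ((x : ↥L) : LaurentSeries ℚ) = iotaQ ℓ y → ρ₀ x = coeffMap (toZMod ℓ) y :=
    fun x y h => redO_apply ℓ y (inclO x) h
  have hρ₀alg : ∀ r : Polynomial (Zl ℓ), ρ₀ (algebraMap (Polynomial (Zl ℓ)) ↥Csub r) =
      Polynomial.aeval (jqModC (ZMod ℓ)) (r.map (toZMod ℓ)) := by
    intro r
    rw [hρ₀ _ (Polynomial.aeval (jqModC (Zl ℓ)) r) (hΨ r), coeffMap_aeval_jqModC]
  have hℓ0 : ρ₀ (algebraMap (Polynomial (Zl ℓ)) ↥Csub (ellPoly ℓ)) = 0 := by
    rw [hρ₀alg, (ellPoly_dvd_iff ℓ _).mp dvd_rfl, map_zero]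
  have hker : ∀ r : Polynomial (Zl ℓ),
      ρ₀ (algebraMap (Polynomial (Zl ℓ)) ↥Csub r) = 0 → ellPoly ℓ ∣ r := by
    intro r hr
    rw [hρ₀alg] at hr
    exact (ellPoly_dvd_iff ℓ r).mpr ((aeval_jqModC_eq_zero_iff (ZMod ℓ) _).mp hr)
  have hwint : ∀ i, IsIntegral (Polynomial (Zl ℓ)) (⟨toQ (b i), hMEM i⟩ : ↥L) := by
    intro i
    obtain ⟨P, hPm, hP⟩ := hINT i
    refine ⟨P.map (Polynomial.mapRingHom (Int.castRingHom (Zl ℓ))), hPm.map _, ?_⟩
    apply (algebraMap ↥L (LaurentSeries ℚ)).injective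
    rw [Polynomial.hom_eval₂, map_zero, Polynomial.eval₂_map]
    have hcomp : (Ψ.comp (Polynomial.mapRingHom (Int.castRingHom (Zl ℓ)))) =
        toQ.comp ((Polynomial.aeval (jqModC ℤ)).toRingHom) := by
      apply int_poly_hom_ext
      show Ψ (Polynomial.map (Int.castRingHom (Zl ℓ)) X) = toQ (Polynomial.aeval (jqModC ℤ) X)
      rw [Polynomial.map_X, hΨX, Polynomial.aeval_X]
      exact (coeffMap_jqModC _).symm
    have h2 := congrArg toQ hP
    rw [Polynomial.hom_eval₂, map_zero, ← hcomp] at h2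
    exact h2
  let w : Fin n → ↥Csub := fun i => ⟨⟨toQ (b i), hMEM i⟩, hwint i,
    ⟨coeffMap (Int.castRingHom (Zl ℓ)) (b i), iotaQ_intCast ℓ (b i)⟩⟩
  have hρ₀w : ∀ i, ρ₀ (w i) = toFl ℓ (b i) := by
    intro i
    rw [hρ₀ (w i) (coeffMap (Int.castRingHom (Zl ℓ)) (b i)) (iotaQ_intCast ℓ (b i)).symm,
      toZMod_intCast_series]
  have hind : ∀ β : Fin n → Polynomial (Zl ℓ),
      ρ₀ (∑ i, algebraMap (Polynomial (Zl ℓ)) ↥Csub (β i) * w i) = 0 →
        ∀ i, ellPoly ℓ ∣ β i := by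
    intro β hβ i
    rw [map_sum] at hβ
    simp only [map_mul, hρ₀alg, hρ₀w] at hβ
    have := hLI (fun i => (β i).map (toZMod ℓ)) hβ
    exact (ellPoly_dvd_iff ℓ _).mpr (congrFun this i)
  have hdim : ∀ v : Fin (n + 1) → ↥L,
      ∃ β : Fin (n + 1) → Polynomial (Zl ℓ), β ≠ 0 ∧ ∑ i, β i • v i = 0 := by
    intro v
    obtain ⟨c, hc, hsum⟩ := hDEG (fun i => (v i : LaurentSeries ℚ)) (fun i => (v i).2)
    refine ⟨fun i => (c i).map (Int.castRingHom (Zl ℓ)), ?_, ?_⟩
    · intro h0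
      apply hc
      funext i
      apply intCast_poly_injective ℓ
      rw [Pi.zero_apply, Polynomial.map_zero]
      exact congrFun h0 i
    · apply (algebraMap ↥L (LaurentSeries ℚ)).injective
      rw [map_sum, map_zero, ← hsum]
      apply Finset.sum_congr rfl
      intro i _
      rw [Algebra.smul_def, map_mul]
      congr 1
      exact psi_intCast ℓ Ψ hΨX (c i)
  have hCle : Csub ≤ integralClosure (Polynomial (Zl ℓ)) ↥L := fun x hx => hx.1
  obtain ⟨ρ, hρext, hρker⟩ := exists_reduction_hom_of_tower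
    (F := ↥(modularFunctionFieldFull N)) (ellPoly ℓ) (prime_ellPoly ℓ) (ellPoly_finite ℓ) n hdim
    Csub hCle ρ₀ hℓ0 hker w hind
  have hcarrier : ∀ x : ↥(modularFunctionFieldFull N),
      x ∈ chartAlg N ℓ {jFull N} ↔ IsIntegral (Polynomial (Zl ℓ)) x := by
    intro x
    rw [mem_chartAlg_iff]
    exact isIntegral_adjoin_singleton_iff (jFull N) x
  let θ : ↥(chartAlg N ℓ {jFull N}) →+*
      ↥(integralClosure (Polynomial (Zl ℓ)) ↥(modularFunctionFieldFull N)) :=
    { toFun := fun x => ⟨x, (hcarrier x).mp x.2⟩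
      map_one' := rfl
      map_mul' := fun _ _ => rfl
      map_zero' := rfl
      map_add' := fun _ _ => rfl }
  refine ⟨ρ.comp θ, ?_, ?_⟩
  · intro a ha
    obtain ⟨a', ha'⟩ := (hρker (θ a)).mp ha
    refine ⟨⟨(a' : ↥(modularFunctionFieldFull N)), (hcarrier _).mpr a'.2⟩, ?_⟩
    apply Subtype.ext
    have h2 := congrArg (fun t : ↥(integralClosure (Polynomial (Zl ℓ))
      ↥(modularFunctionFieldFull N)) => (t : ↥(modularFunctionFieldFull N))) ha'
    simp only [Subalgebra.coe_mul, Subalgebra.coe_algebraMap] at h2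
    rw [Subalgebra.coe_mul, SubringClass.coe_natCast]
    have h3 : algebraMap (Polynomial (Zl ℓ)) ↥(modularFunctionFieldFull N) (ellPoly ℓ) =
        (ℓ : ↥(modularFunctionFieldFull N)) := by
      show Polynomial.aeval (jFull N) (C ((ℓ : ℕ) : Zl ℓ)) = _
      rw [Polynomial.aeval_C, map_natCast]
    rw [← h3]
    exact h2
  · show ρ (θ (jChartFin N ℓ)) = _
    rw [hρext (θ (jChartFin N ℓ)) (algebraMap (Polynomial (Zl ℓ)) ↥Csub X) ?_, hρ₀alg,
      Polynomial.map_X, Polynomial.aeval_X]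
    show algebraMap ↥(modularFunctionFieldFull N) ↥L (jFull N) =
      algebraMap ↥(modularFunctionFieldFull N) ↥L (Polynomial.aeval (jFull N) X)
    rw [Polynomial.aeval_X]

end Fin

section MidInf

variable (N : ℕ) [NeZero N] (ℓ : ℕ) [Fact ℓ.Prime]

theorem exists_red_mid
    (redFin : ↥(chartAlg N ℓ {jFull N}) →+* LaurentSeries (ZMod ℓ))
    (hker : ∀ a, redFin a = 0 → ∃ b, a = (ℓ : ↥(chartAlg N ℓ {jFull N})) * b)
    (hj : redFin (jChartFin N ℓ) = jqModC (ZMod ℓ)) :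
    ∃ red : ↥(chartAlg N ℓ {jFull N, (jFull N)⁻¹}) →+* LaurentSeries (ZMod ℓ),
      ∀ a, red a = 0 → ∃ b, a = (ℓ : ↥(chartAlg N ℓ {jFull N, (jFull N)⁻¹})) * b := by
  letI := (inclFin N ℓ).toRingHom.toAlgebra
  haveI := isLocalization_away_inclFin N ℓ
  have hunit : IsUnit (redFin (jChartFin N ℓ)) := by
    rw [hj]
    exact isUnit_jqModC (ZMod ℓ)
  let red : ↥(chartAlgMid N ℓ) →+* LaurentSeries (ZMod ℓ) :=
    IsLocalization.Away.lift (jChartFin N ℓ) hunit
  have hred : ∀ y : ↥(chartAlgFin N ℓ), red (inclFin N ℓ y) = redFin y :=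
    fun y => IsLocalization.Away.lift_eq (jChartFin N ℓ) hunit y
  refine ⟨red, fun a ha => ?_⟩
  have hz : (a : ↥(modularFunctionFieldFull N)) ∈
      chartAlg N ℓ (insert (jFull N)⁻¹ {jFull N}) := by
    rw [show insert (jFull N)⁻¹ ({jFull N} : Set ↥(modularFunctionFieldFull N)) =
      {jFull N, (jFull N)⁻¹} from Set.pair_comm _ _]
    exact a.2
  obtain ⟨k, hk⟩ := exists_pow_mul_mem_chartAlg (Set.mem_singleton _) (jFull_ne_zero N) hz
  let y : ↥(chartAlgFin N ℓ) := ⟨(jFull N) ^ k * a, hk⟩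
  have hy : inclFin N ℓ y = (inclFin N ℓ (jChartFin N ℓ)) ^ k * a := by
    apply Subtype.ext
    simp only [Subalgebra.coe_mul, Subalgebra.coe_pow, coe_chartIncl, coe_jChartFin, y]
  have hy0 : redFin y = 0 := by
    rw [← hred, hy, map_mul, ha, mul_zero]
  obtain ⟨y', hy'⟩ := hker y hy0
  have hy'' : (jFull N) ^ k * (a : ↥(modularFunctionFieldFull N)) =
      (ℓ : ↥(modularFunctionFieldFull N)) * (y' : ↥(modularFunctionFieldFull N)) := by
    have := congrArg (fun t : ↥(chartAlgFin N ℓ) => (t : ↥(modularFunctionFieldFull N))) hy'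
    simpa [y] using this
  have hjk : (jFull N) ^ k ≠ 0 := pow_ne_zero k (jFull_ne_zero N)
  refine ⟨⟨((jFull N)⁻¹) ^ k * (y' : ↥(modularFunctionFieldFull N)),
    mul_mem (pow_mem (subset_chartAlg N ℓ _ (by simp)) k)
      (chartAlg_mono N ℓ (sFin_subset N) y'.2)⟩, ?_⟩
  apply Subtype.ext
  rw [Subalgebra.coe_mul, SubringClass.coe_natCast]
  show (a : ↥(modularFunctionFieldFull N)) =
    (ℓ : ↥(modularFunctionFieldFull N)) * (((jFull N)⁻¹) ^ k * (y' : ↥(modularFunctionFieldFull N)))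
  rw [mul_left_comm, ← hy'', inv_pow, inv_mul_cancel_left₀ hjk]

theorem coe_algebraMap_Zl (a : Zl ℓ) :
    ((algebraMap (Zl ℓ) ↥(modularFunctionFieldFull N) a : ↥(modularFunctionFieldFull N)) :
      LaurentSeries ℚ) = algebraMap ℚ (LaurentSeries ℚ) (a : ℚ) := by
  have h1 : algebraMap (Zl ℓ) ↥(modularFunctionFieldFull N) a =
      algebraMap ℚ ↥(modularFunctionFieldFull N) (a : ℚ) := rfl
  rw [h1]
  first | rfl | simp

theorem aeval_jFull_inv_injective :
    Function.Injective (Polynomial.aeval (R := Zl ℓ) (jFull N)⁻¹) := by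
  have key : (algebraMap ↥(modularFunctionFieldFull N) (LaurentSeries ℚ)).comp
      ((Polynomial.aeval (jFull N)⁻¹ : Polynomial (Zl ℓ) →ₐ[Zl ℓ] ↥(modularFunctionFieldFull N)) :
        Polynomial (Zl ℓ) →+* ↥(modularFunctionFieldFull N)) =
      ((Polynomial.aeval (jq)⁻¹ : Polynomial ℚ →ₐ[ℚ] LaurentSeries ℚ) :
        Polynomial ℚ →+* LaurentSeries ℚ).comp
        (Polynomial.mapRingHom (algebraMap (Zl ℓ) ℚ)) := by
    apply Polynomial.ringHom_ext
    · intro a
      simp only [RingHom.comp_apply, AlgHom.coe_toRingHom, Polynomial.aeval_C,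
        Polynomial.coe_mapRingHom, Polynomial.map_C]
      exact coe_algebraMap_Zl N ℓ a
    · simp only [RingHom.comp_apply, AlgHom.coe_toRingHom, Polynomial.aeval_X,
        Polynomial.coe_mapRingHom, Polynomial.map_X]
      rfl
  intro r s hrs
  have h1 := congrArg (fun f : Polynomial (Zl ℓ) →+* LaurentSeries ℚ => f r) key
  have h2 := congrArg (fun f : Polynomial (Zl ℓ) →+* LaurentSeries ℚ => f s) key
  simp only [RingHom.comp_apply, AlgHom.coe_toRingHom, Polynomial.coe_mapRingHom] at h1 h2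
  rw [hrs, h2] at h1
  have h3 := aeval_jq_inv_injective h1
  exact Polynomial.map_injective _ (fun x y hxy => Subtype.ext hxy) h3.symm

theorem exists_red_inf
    (redMid : ↥(chartAlg N ℓ {jFull N, (jFull N)⁻¹}) →+* LaurentSeries (ZMod ℓ))
    (hker : ∀ a, redMid a = 0 → ∃ b, a = (ℓ : ↥(chartAlg N ℓ {jFull N, (jFull N)⁻¹})) * b) :
    ∃ red : ↥(chartAlg N ℓ {(jFull N)⁻¹}) →+* LaurentSeries (ZMod ℓ),
      ∀ a, red a = 0 → ∃ b, a = (ℓ : ↥(chartAlg N ℓ {(jFull N)⁻¹})) * b := by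
  refine ⟨redMid.comp (inclInf N ℓ).toRingHom, fun a ha => ?_⟩
  obtain ⟨z, hz⟩ := hker (inclInf N ℓ a) ha
  have hz' : (a : ↥(modularFunctionFieldFull N)) =
      (ℓ : ↥(modularFunctionFieldFull N)) * (z : ↥(modularFunctionFieldFull N)) := by
    have := congrArg (fun t : ↥(chartAlgMid N ℓ) => (t : ↥(modularFunctionFieldFull N))) hz
    simpa using this
  have hzm : (z : ↥(modularFunctionFieldFull N)) ∈
      chartAlg N ℓ (insert (jFull N)⁻¹⁻¹ {(jFull N)⁻¹}) := by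
    rw [inv_inv]
    exact z.2
  obtain ⟨k, hk⟩ := exists_pow_mul_mem_chartAlg (Set.mem_singleton _)
    (inv_ne_zero (jFull_ne_zero N)) hzm
  letI algRF : Algebra (Polynomial (Zl ℓ)) ↥(modularFunctionFieldFull N) :=
    ((Polynomial.aeval (jFull N)⁻¹ : Polynomial (Zl ℓ) →ₐ[Zl ℓ] ↥(modularFunctionFieldFull N)) :
      Polynomial (Zl ℓ) →+* ↥(modularFunctionFieldFull N)).toAlgebra
  haveI faithful : FaithfulSMul (Polynomial (Zl ℓ)) ↥(modularFunctionFieldFull N) :=
    (faithfulSMul_iff_algebraMap_injective _ _).mpr (aeval_jFull_inv_injective N ℓ)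
  have hcarrier : ∀ x : ↥(modularFunctionFieldFull N),
      x ∈ chartAlg N ℓ {(jFull N)⁻¹} ↔ IsIntegral (Polynomial (Zl ℓ)) x := by
    intro x
    rw [mem_chartAlg_iff]
    exact isIntegral_adjoin_singleton_iff (jFull N)⁻¹ x
  have h1 : IsIntegral (Polynomial (Zl ℓ)) (ellPoly ℓ • (z : ↥(modularFunctionFieldFull N))) := by
    have h3 : algebraMap (Polynomial (Zl ℓ)) ↥(modularFunctionFieldFull N) (ellPoly ℓ) =
        (ℓ : ↥(modularFunctionFieldFull N)) := by
      show Polynomial.aeval (jFull N)⁻¹ (C ((ℓ : ℕ) : Zl ℓ)) = _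
      rw [Polynomial.aeval_C, map_natCast]
    rw [Algebra.smul_def, h3, ← hz']
    exact (hcarrier _).mp a.2
  have h2 : IsIntegral (Polynomial (Zl ℓ))
      ((X : Polynomial (Zl ℓ)) ^ k • (z : ↥(modularFunctionFieldFull N))) := by
    have h3 : algebraMap (Polynomial (Zl ℓ)) ↥(modularFunctionFieldFull N) (X ^ k) =
        ((jFull N)⁻¹) ^ k := by
      show Polynomial.aeval (jFull N)⁻¹ ((X : Polynomial (Zl ℓ)) ^ k) = _
      rw [map_pow, Polynomial.aeval_X]
    rw [Algebra.smul_def, h3]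
    exact (hcarrier _).mp hk
  have hzint : IsIntegral (Polynomial (Zl ℓ)) (z : ↥(modularFunctionFieldFull N)) :=
    isIntegral_of_smul_of_smul (prime_ellPoly ℓ) (not_ellPoly_dvd_X_pow ℓ k) h1 h2
  refine ⟨⟨z, (hcarrier _).mpr hzint⟩, Subtype.ext ?_⟩
  rw [Subalgebra.coe_mul, SubringClass.coe_natCast]
  exact hz'

end MidInf

/-- **The algebra core of S28**: the modular input `Stmt_CoreInput N ℓ` gives reduction
homomorphisms with kernel `ℓ • chartAlg` on the three charts. -/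
theorem stmt_core (N : ℕ) [NeZero N] (ℓ : ℕ) [Fact ℓ.Prime] : Stmt_Core N ℓ := by
  rintro ⟨n, L, b, hF, hMEM, hINT, hDEG, hLI⟩
  obtain ⟨redFin, hkerFin, hj⟩ := exists_red_fin N ℓ n L b hF hMEM hINT hDEG hLI
  obtain ⟨redMid, hkerMid⟩ := exists_red_mid N ℓ redFin hkerFin hj
  exact ⟨⟨redFin, hkerFin⟩, exists_red_inf N ℓ redMid hkerMid, ⟨redMid, hkerMid⟩⟩

end Fermat.Agent.S28.helper618
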