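import Fermat.Agent.S28.helper808_IntAdapter

/-!
# S28: the integrality clause (INT) of `Spec.Stmt_CoreInput` is automatic

`Spec.Stmt_CoreInput N ℓ` asks for a field `L ⊇ F_N` inside `ℚ((q))` with `[L : ℚ(j)] ≤ n`
(DEG) and `n` integer `q`-series `b i` in `L` (MEM) that are integral over `ℤ[j]` (INT) and
whose reductions mod `ℓ` are linearly independent over `𝔽_ℓ[j̄]` (LI).

This file shows that (INT) can always be arranged: from (MEM), (DEG), (LI) alone one finds
polynomials `D k ∈ ℤ[X]`, nonzero mod `ℓ`, such that the rescaled family `D k (j) * b k` is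
integral over `ℤ[j]`; the rescaled family still satisfies (MEM), (DEG), (LI).

* `Stmt_CoreInputLite N ℓ`  : `Spec.Stmt_CoreInput N ℓ` without the clause (INT);
* `stmt_CoreInput_of_lite`  : `Stmt_CoreInputLite N ℓ → Spec.Stmt_CoreInput N ℓ`;
* `stmt_CoreInput_of_data`  : the same with the data `n L b` as explicit arguments.

Proof.  By (DEG) the `n + 1` elements `b k * b i, b 0, …, b (n-1)` of `L` satisfy a nontrivial
relation over `ℤ[j]`; dividing by the `ℓ`-content we may assume that not all coefficients vanish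
mod `ℓ`, and then the coefficient `d` of `b k * b i` does not vanish mod `ℓ` by (LI).  Hence
`y := (∏ i, d k i)(j) * b k` maps the finitely generated `ℤ[j]`-module `∑ ℤ[j] b i ≠ 0` into
itself, so `y` is integral over `ℤ[j]` (Cayley–Hamilton).
-/

set_option autoImplicit false

noncomputable section

namespace Fermat.Agent.S28.helper6628

open ModularCurve Polynomial
open Fermat.Agent.S28.Spec

/-- `Spec.Stmt_CoreInput` without the integrality clause (INT). -/
def Stmt_CoreInputLite (N ℓ : ℕ) : Prop :=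
  ∃ (n : ℕ) (L : IntermediateField ℚ (LaurentSeries ℚ)) (b : Fin n → LaurentSeries ℤ),
    modularFunctionFieldFull N ≤ L ∧
    (∀ i, toQ (b i) ∈ L) ∧
    DegLE L n ∧
    LinIndepModL ℓ b

/-! ## An abstract integrality criterion -/

/-- If multiplication by `y` maps the `R`-span of a finite family `v` (not all zero) of elements
of a domain `S` into itself, then `y` is integral over `R`. -/
theorem isIntegralElem_of_mul_mem_span {R S : Type*} [CommRing R] [CommRing S] [IsDomain S]
    (φ : R →+* S) {n : ℕ} (v : Fin n → S) (hv : ∃ i, v i ≠ 0) (y : S)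
    (h : ∀ i, ∃ a : Fin n → R, y * v i = ∑ j, φ (a j) * v j) : φ.IsIntegralElem y := by
  let _ : Algebra R S := φ.toAlgebra
  have key : IsIntegral R y := by
    refine isIntegral_of_smul_mem_submodule (M := S) (Submodule.span R (Set.range v)) ?_
      (Submodule.fg_span (Set.finite_range v)) y ?_
    · obtain ⟨i, hi⟩ := hv
      intro hbot
      have hmem : v i ∈ Submodule.span R (Set.range v) := Submodule.subset_span ⟨i, rfl⟩
      rw [hbot] at hmem
      exact hi ((Submodule.mem_bot R).mp hmem)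
    · intro m hm
      induction hm using Submodule.span_induction with
      | mem x hx =>
        obtain ⟨i, rfl⟩ := hx
        obtain ⟨a, ha⟩ := h i
        rw [smul_eq_mul, ha]
        refine Submodule.sum_mem _ (fun j _ => ?_)
        have hsm : φ (a j) * v j = a j • v j := by
          rw [Algebra.smul_def]
          rfl
        rw [hsm]
        exact Submodule.smul_mem _ _ (Submodule.subset_span ⟨j, rfl⟩)
      | zero => simp
      | add x z _ _ hx hz =>
        rw [smul_add]
        exact Submodule.add_mem _ hx hz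
      | smul r x _ hx =>
        rw [smul_comm]
        exact Submodule.smul_mem _ _ hx
  exact key

/-! ## Dividing a vector of integer polynomials by its `ℓ`-content -/

theorem C_dvd_of_map_eq_zero (ℓ : ℕ) (a : Polynomial ℤ)
    (ha : a.map (Int.castRingHom (ZMod ℓ)) = 0) : Polynomial.C (ℓ : ℤ) ∣ a := by
  rw [Polynomial.C_dvd_iff_dvd_coeff]
  intro i
  have h := congrArg (fun p => p.coeff i) ha
  simp only [Polynomial.coeff_map, Polynomial.coeff_zero, eq_intCast] at h
  exact (ZMod.intCast_zmod_eq_zero_iff_dvd _ _).mp h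

theorem exists_normalize_aux (ℓ : ℕ) [hℓ : Fact ℓ.Prime] {m : ℕ} :
    ∀ (t : ℕ) (c : Fin m → Polynomial ℤ) (i₀ : Fin m) (e : ℕ),
      ((c i₀).coeff e).natAbs = t → (c i₀).coeff e ≠ 0 →
      ∃ (k : ℕ) (c' : Fin m → Polynomial ℤ),
        (∀ i, c i = Polynomial.C ((ℓ : ℤ) ^ k) * c' i) ∧
        ∃ i, (c' i).map (Int.castRingHom (ZMod ℓ)) ≠ 0 := by
  intro t
  induction t using Nat.strong_induction_on with
  | _ t ih =>
    intro c i₀ e ht hne
    by_cases hall : ∃ i, (c i).map (Int.castRingHom (ZMod ℓ)) ≠ 0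
    · exact ⟨0, c, fun i => by simp, hall⟩
    · have hall' : ∀ i, (c i).map (Int.castRingHom (ZMod ℓ)) = 0 :=
        fun i => by_contra fun hi => hall ⟨i, hi⟩
      have hdiv : ∀ i, ∃ c'' : Polynomial ℤ, c i = Polynomial.C (ℓ : ℤ) * c'' :=
        fun i => C_dvd_of_map_eq_zero ℓ (c i) (hall' i)
      choose c'' hc'' using hdiv
      have hcoeff : (c i₀).coeff e = (ℓ : ℤ) * (c'' i₀).coeff e := by
        rw [hc'' i₀, Polynomial.coeff_C_mul]
      have hne' : (c'' i₀).coeff e ≠ 0 := by
        intro h0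
        apply hne
        rw [hcoeff, h0, mul_zero]
      have hlt : ((c'' i₀).coeff e).natAbs < t := by
        rw [← ht, hcoeff, Int.natAbs_mul, Int.natAbs_natCast]
        have h1 : 0 < ((c'' i₀).coeff e).natAbs := Int.natAbs_pos.mpr hne'
        have h2 : 2 ≤ ℓ := hℓ.out.two_le
        nlinarith
      obtain ⟨k, c', hk, hi⟩ := ih _ hlt c'' i₀ e rfl hne'
      refine ⟨k + 1, c', fun i => ?_, hi⟩
      rw [hc'' i, hk i, pow_succ, Polynomial.C_mul]
      ring

/-- A nonzero vector of integer polynomials is `ℓ^k` times a vector that is nonzero mod `ℓ`. -/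
theorem exists_normalize (ℓ : ℕ) [Fact ℓ.Prime] {m : ℕ} (c : Fin m → Polynomial ℤ) (hc : c ≠ 0) :
    ∃ (k : ℕ) (c' : Fin m → Polynomial ℤ),
      (∀ i, c i = Polynomial.C ((ℓ : ℤ) ^ k) * c' i) ∧
      ∃ i, (c' i).map (Int.castRingHom (ZMod ℓ)) ≠ 0 := by
  obtain ⟨i₀, hi₀⟩ : ∃ i₀, c i₀ ≠ 0 := by
    by_contra hcon
    exact hc (funext fun i => by_contra fun hi => hcon ⟨i, hi⟩)
  obtain ⟨e, he⟩ : ∃ e, (c i₀).coeff e ≠ 0 := by
    by_contra hcon
    refine hi₀ (Polynomial.ext fun e => ?_)
    rw [Polynomial.coeff_zero]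
    exact by_contra fun he => hcon ⟨e, he⟩
  exact exists_normalize_aux ℓ _ c i₀ e rfl he

/-! ## Evaluation at `j` and change of coefficients -/

theorem toQ_aeval (a : Polynomial ℤ) :
    toQ (Polynomial.aeval (jqModC ℤ) a) = Polynomial.aeval jq a := by
  have h : toQ.comp (Polynomial.aeval (jqModC ℤ)).toRingHom =
      (Polynomial.aeval (R := ℤ) jq).toRingHom := by
    apply Polynomial.ringHom_ext
    · intro r
      simp
    · simp only [AlgHom.toRingHom_eq_coe, RingHom.coe_comp, RingHom.coe_coe, Function.comp_apply,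
        Polynomial.aeval_X]
      rw [toQ, coeffMap_jqModC, jqModC_rat]
  exact congrArg (fun g => g a) h

theorem toFl_aeval (ℓ : ℕ) (a : Polynomial ℤ) :
    toFl ℓ (Polynomial.aeval (jqModC ℤ) a) =
      Polynomial.aeval (jqModC (ZMod ℓ)) (a.map (Int.castRingHom (ZMod ℓ))) :=
  helper808.coeffMap_aeval_jqModC _ a

theorem natCast_pow_ne_zero (ℓ : ℕ) [hℓ : Fact ℓ.Prime] (k : ℕ) :
    (((ℓ : ℤ) ^ k : ℤ) : LaurentSeries ℚ) ≠ 0 := by
  have h : (((ℓ : ℤ) ^ k : ℤ) : LaurentSeries ℚ) =
      algebraMap ℚ (LaurentSeries ℚ) (((ℓ : ℤ) ^ k : ℤ) : ℚ) := by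
    simp
  rw [h]
  intro h0
  have h1 := (algebraMap ℚ (LaurentSeries ℚ)).injective (h0.trans (map_zero _).symm)
  have h2 : ((ℓ : ℤ) ^ k : ℤ) = 0 := by exact_mod_cast h1
  exact pow_ne_zero k (by exact_mod_cast hℓ.out.ne_zero) h2

/-! ## The key step -/

/-- For `x ∈ ℤ((q))` lying in `L`, some `d(j) * x` with `d ≢ 0 mod ℓ` is a `ℤ[j]`-combination of
the `b j`. -/
theorem exists_mul_eq_sum {ℓ : ℕ} [Fact ℓ.Prime] {n : ℕ}
    {L : IntermediateField ℚ (LaurentSeries ℚ)} {b : Fin n → LaurentSeries ℤ}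
    (hdeg : DegLE L n) (hLI : LinIndepModL ℓ b) (hb : ∀ i, toQ (b i) ∈ L)
    (x : LaurentSeries ℤ) (hx : toQ x ∈ L) :
    ∃ (d : Polynomial ℤ) (a : Fin n → Polynomial ℤ),
      d.map (Int.castRingHom (ZMod ℓ)) ≠ 0 ∧
      Polynomial.aeval (jqModC ℤ) d * x = ∑ j, Polynomial.aeval (jqModC ℤ) (a j) * b j := by
  obtain ⟨c, hc0, hc⟩ := hdeg (Fin.cons (toQ x) (fun i => toQ (b i))) (by
    intro i
    refine Fin.cases ?_ (fun j => ?_) i
    · simpa using hx
    · simpa using hb j)
  obtain ⟨k, c', hcc', i₁, hi₁⟩ := exists_normalize ℓ c hc0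
  -- the relation over `ℤ((q))`
  have hZ : Polynomial.aeval (jqModC ℤ) (c' 0) * x +
      ∑ j : Fin n, Polynomial.aeval (jqModC ℤ) (c' j.succ) * b j = 0 := by
    apply helper808.toQ_injective
    rw [map_zero, map_add, map_mul, map_sum, toQ_aeval]
    have hsum : ∑ j : Fin n, toQ (Polynomial.aeval (jqModC ℤ) (c' j.succ) * b j) =
        ∑ j : Fin n, Polynomial.aeval jq (c' j.succ) * toQ (b j) :=
      Finset.sum_congr rfl (fun j _ => by rw [map_mul, toQ_aeval])
    rw [hsum]
    have hmul : ∀ i, Polynomial.aeval jq (c i) =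
        (((ℓ : ℤ) ^ k : ℤ) : LaurentSeries ℚ) * Polynomial.aeval jq (c' i) := by
      intro i
      rw [hcc' i, map_mul, Polynomial.aeval_C]
      simp
    rw [Fin.sum_univ_succ] at hc
    simp only [Fin.cons_zero, Fin.cons_succ] at hc
    have hc' : (((ℓ : ℤ) ^ k : ℤ) : LaurentSeries ℚ) *
        (Polynomial.aeval jq (c' 0) * toQ x +
          ∑ j : Fin n, Polynomial.aeval jq (c' j.succ) * toQ (b j)) = 0 := by
      rw [mul_add, Finset.mul_sum, ← mul_assoc, ← hmul 0]
      have hsum' : ∑ j : Fin n, (((ℓ : ℤ) ^ k : ℤ) : LaurentSeries ℚ) *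
          (Polynomial.aeval jq (c' j.succ) * toQ (b j)) =
          ∑ j : Fin n, Polynomial.aeval jq (c j.succ) * toQ (b j) :=
        Finset.sum_congr rfl (fun j _ => by rw [← mul_assoc, ← hmul j.succ])
      rw [hsum']
      exact hc
    exact (mul_eq_zero.mp hc').resolve_left (natCast_pow_ne_zero ℓ k)
  -- reduce mod `ℓ`
  have hFl : Polynomial.aeval (jqModC (ZMod ℓ)) ((c' 0).map (Int.castRingHom (ZMod ℓ))) *
      toFl ℓ x + ∑ j : Fin n, Polynomial.aeval (jqModC (ZMod ℓ))
        ((c' j.succ).map (Int.castRingHom (ZMod ℓ))) * toFl ℓ (b j) = 0 := by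
    have h := congrArg (toFl ℓ) hZ
    rw [map_zero, map_add, map_mul, map_sum, toFl_aeval] at h
    rw [← h]
    congr 1
    exact Finset.sum_congr rfl (fun j _ => by rw [map_mul, toFl_aeval])
  have hd : (c' 0).map (Int.castRingHom (ZMod ℓ)) ≠ 0 := by
    intro h0
    rw [h0, map_zero, zero_mul, zero_add] at hFl
    have hall := hLI (fun j => (c' j.succ).map (Int.castRingHom (ZMod ℓ))) hFl
    apply hi₁
    refine Fin.cases h0 (fun j => ?_) i₁
    exact congrFun hall j
  refine ⟨c' 0, fun j => -c' j.succ, hd, ?_⟩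
  rw [eq_neg_of_add_eq_zero_left hZ, ← Finset.sum_neg_distrib]
  exact Finset.sum_congr rfl (fun j _ => by rw [map_neg, neg_mul])

/-! ## The adapter -/

theorem aeval_jq_mem {L : IntermediateField ℚ (LaurentSeries ℚ)} (hj : jq ∈ L)
    (p : Polynomial ℤ) : Polynomial.aeval jq p ∈ L := by
  rw [Polynomial.aeval_eq_sum_range]
  refine sum_mem (fun i _ => ?_)
  rw [Algebra.smul_def, eq_intCast]
  exact mul_mem (intCast_mem L _) (pow_mem hj i)

/-- **(INT) is automatic**, explicit form. -/
theorem stmt_CoreInput_of_data {N ℓ : ℕ} [Fact ℓ.Prime] (n : ℕ)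
    (L : IntermediateField ℚ (LaurentSeries ℚ)) (b : Fin n → LaurentSeries ℤ)
    (hFL : modularFunctionFieldFull N ≤ L) (hj : jq ∈ L) (hmem : ∀ i, toQ (b i) ∈ L)
    (hdeg : DegLE L n) (hLI : LinIndepModL ℓ b) : Stmt_CoreInput N ℓ := by
  classical
  have key : ∀ k i, ∃ (d : Polynomial ℤ) (a : Fin n → Polynomial ℤ),
      d.map (Int.castRingHom (ZMod ℓ)) ≠ 0 ∧
      Polynomial.aeval (jqModC ℤ) d * (b k * b i) =
        ∑ j, Polynomial.aeval (jqModC ℤ) (a j) * b j :=
    fun k i => exists_mul_eq_sum hdeg hLI hmem (b k * b i) (by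
      rw [map_mul]
      exact mul_mem (hmem k) (hmem i))
  choose d a hd hda using key
  have hD : ∀ k, (∏ i, d k i).map (Int.castRingHom (ZMod ℓ)) ≠ 0 := by
    intro k
    rw [Polynomial.map_prod]
    exact Finset.prod_ne_zero_iff.mpr (fun i _ => hd k i)
  have hb0 : ∀ k, b k ≠ 0 := by
    intro k hk
    have h1 := hLI (Pi.single k 1) (by
      refine Finset.sum_eq_zero (fun i _ => ?_)
      by_cases hik : i = k
      · subst hik
        rw [hk, map_zero, mul_zero]
      · rw [Pi.single_eq_of_ne hik, map_zero, zero_mul])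
    have h2 := congrFun h1 k
    rw [Pi.single_eq_same, Pi.zero_apply] at h2
    exact one_ne_zero h2
  refine ⟨n, L, fun k => Polynomial.aeval (jqModC ℤ) (∏ i, d k i) * b k, hFL, ?_, ?_, hdeg, ?_⟩
  · intro k
    rw [map_mul, toQ_aeval]
    exact mul_mem (aeval_jq_mem hj _) (hmem k)
  · intro k
    refine isIntegralElem_of_mul_mem_span (R := Polynomial ℤ)
      (Polynomial.aeval (jqModC ℤ)).toRingHom b ⟨k, hb0 k⟩ _ (fun i => ?_)
    refine ⟨fun j => (∏ i' ∈ Finset.univ.erase i, d k i') * a k i j, ?_⟩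
    have hprod : (∏ i', d k i') = (∏ i' ∈ Finset.univ.erase i, d k i') * d k i := by
      rw [mul_comm]
      exact (Finset.mul_prod_erase Finset.univ (d k) (Finset.mem_univ i)).symm
    calc Polynomial.aeval (jqModC ℤ) (∏ i', d k i') * b k * b i
        = Polynomial.aeval (jqModC ℤ) (∏ i' ∈ Finset.univ.erase i, d k i') *
            (Polynomial.aeval (jqModC ℤ) (d k i) * (b k * b i)) := by
          rw [hprod, map_mul]
          ring
      _ = ∑ j, (Polynomial.aeval (jqModC ℤ)).toRingHom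
            ((∏ i' ∈ Finset.univ.erase i, d k i') * a k i j) * b j := by
          rw [hda k i, Finset.mul_sum]
          refine Finset.sum_congr rfl (fun j _ => ?_)
          simp only [AlgHom.toRingHom_eq_coe, RingHom.coe_coe, map_mul]
          ring
  · intro c hc
    dsimp only at hc
    have hc' : ∑ k, Polynomial.aeval (jqModC (ZMod ℓ))
        (c k * (∏ i, d k i).map (Int.castRingHom (ZMod ℓ))) * toFl ℓ (b k) = 0 := by
      rw [← hc]
      refine Finset.sum_congr rfl (fun k _ => ?_)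
      rw [map_mul (toFl ℓ), toFl_aeval, map_mul]
      ring
    have h0 := hLI _ hc'
    funext k
    have hk := congrFun h0 k
    simp only [Pi.zero_apply] at hk ⊢
    exact (mul_eq_zero.mp hk).resolve_right (hD k)

/-- **(INT) is automatic**: `Spec.Stmt_CoreInput` follows from its version without (INT). -/
theorem stmt_CoreInput_of_lite (N ℓ : ℕ) [NeZero N] [Fact ℓ.Prime]
    (h : Stmt_CoreInputLite N ℓ) : Stmt_CoreInput N ℓ := by
  obtain ⟨n, L, b, hFL, hmem, hdeg, hLI⟩ := h
  exact stmt_CoreInput_of_data n L b hFL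
    (hFL (modularFunctionField_le_full N (jq_mem N))) hmem hdeg hLI

/-- Conversely, `Spec.Stmt_CoreInput` trivially implies its version without (INT). -/
theorem lite_of_stmt_CoreInput (N ℓ : ℕ) (h : Stmt_CoreInput N ℓ) : Stmt_CoreInputLite N ℓ := by
  obtain ⟨n, L, b, hFL, hmem, -, hdeg, hLI⟩ := h
  exact ⟨n, L, b, hFL, hmem, hdeg, hLI⟩

end Fermat.Agent.S28.helper6628

end
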