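/-
S28 (Igusa), route P — two elementary inequalities for the Prelude's Dedekind psi function
`dedekindPsi N = ∑_{d ∣ N squarefree} N / d`:
`ψ(N) (p+1) ≤ ψ(N p)` for `p ∤ N` and `ψ(N) p ≤ ψ(N p)` for `p ∣ N` (both are equalities).
Author: helper720.  Sorry-free.
-/
import Mathlib
import Fermat.Prelude.Def_ModularCurve_X0

set_option autoImplicit false

namespace Fermat.Agent.S28.helper720

open ModularCurve

theorem dedekindPsi_mul_prime_le {N p : ℕ} (hp : p.Prime) :
    dedekindPsi N * p ≤ dedekindPsi (N * p) := by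
  classical
  unfold dedekindPsi
  rw [Finset.sum_mul]
  have hsub : (N.divisors.filter fun d => Squarefree d) ⊆
      ((N * p).divisors.filter fun d => Squarefree d) := by
    intro d hd
    rw [Finset.mem_filter, Nat.mem_divisors] at hd ⊢
    exact ⟨⟨hd.1.1.mul_right p, Nat.mul_ne_zero hd.1.2 hp.ne_zero⟩, hd.2⟩
  refine le_trans (le_of_eq ?_) (Finset.sum_le_sum_of_subset hsub)
  refine Finset.sum_congr rfl fun d hd => ?_
  rw [Finset.mem_filter, Nat.mem_divisors] at hd
  exact Nat.div_mul_right_comm hd.1.1 p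

theorem dedekindPsi_mul_prime_of_not_dvd {N p : ℕ} (hp : p.Prime) (hN : 0 < N)
    (hpN : ¬ p ∣ N) : dedekindPsi N * (p + 1) ≤ dedekindPsi (N * p) := by
  classical
  unfold dedekindPsi
  set S := N.divisors.filter fun d => Squarefree d with hS
  have hSmem : ∀ d ∈ S, d ∣ N ∧ Squarefree d ∧ ¬ p ∣ d := by
    intro d hd
    rw [hS, Finset.mem_filter, Nat.mem_divisors] at hd
    exact ⟨hd.1.1, hd.2, fun h => hpN (h.trans hd.1.1)⟩
  have hinj : Set.InjOn (fun d => d * p) (S : Set ℕ) := by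
    intro a _ b _ hab
    exact Nat.eq_of_mul_eq_mul_right hp.pos hab
  have hdisj : Disjoint S (S.image fun d => d * p) := by
    rw [Finset.disjoint_left]
    intro d hd hd'
    obtain ⟨e, -, rfl⟩ := Finset.mem_image.mp hd'
    exact (hSmem _ hd).2.2 (Dvd.intro_left e rfl)
  have hsub : S ∪ (S.image fun d => d * p) ⊆
      ((N * p).divisors.filter fun d => Squarefree d) := by
    intro d hd
    rw [Finset.mem_filter, Nat.mem_divisors]
    rcases Finset.mem_union.mp hd with h | h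
    · obtain ⟨h1, h2, -⟩ := hSmem d h
      exact ⟨⟨h1.mul_right p, Nat.mul_ne_zero hN.ne' hp.ne_zero⟩, h2⟩
    · obtain ⟨e, he, rfl⟩ := Finset.mem_image.mp h
      obtain ⟨h1, h2, h3⟩ := hSmem e he
      refine ⟨⟨Nat.mul_dvd_mul_right h1 p, Nat.mul_ne_zero hN.ne' hp.ne_zero⟩, ?_⟩
      have hcop : Nat.Coprime e p := (Nat.Prime.coprime_iff_not_dvd hp).mpr h3 |>.symm
      exact (Nat.squarefree_mul hcop).mpr ⟨h2, hp.squarefree⟩
  refine le_trans (le_of_eq ?_) (Finset.sum_le_sum_of_subset hsub)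
  rw [Finset.sum_union hdisj, Finset.sum_image hinj, Finset.sum_mul, ← Finset.sum_add_distrib]
  refine Finset.sum_congr rfl fun d hd => ?_
  obtain ⟨h1, -, -⟩ := hSmem d hd
  rw [Nat.mul_div_mul_right _ _ hp.pos, ← Nat.div_mul_right_comm h1 p]
  ring

theorem dedekindPsi_pos {N : ℕ} (hN : 0 < N) : 0 < dedekindPsi N := by
  classical
  unfold dedekindPsi
  refine Finset.sum_pos' (fun _ _ => Nat.zero_le _) ⟨1, ?_, ?_⟩
  · rw [Finset.mem_filter, Nat.mem_divisors]
    exact ⟨⟨one_dvd N, hN.ne'⟩, squarefree_one⟩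
  · simpa using hN

end Fermat.Agent.S28.helper720
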