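/-
S28 (Igusa), route P (plan v2 interface) — the prime-level relations
`F1 : Φ(j(q^p), j) = 0`, `F2 : Φ(j, j(q^p)) = 0` (over `ℤ((q))`, `Φ` monic of degree `p+1`)
imply the root formula over `ℂ((t))` used by the char-0 tower (`PrimeRoots`).
Author: helper720.  Sorry-free.
-/
import Fermat.Agent.S28.helper720_JBasics

set_option autoImplicit false

namespace Fermat.Agent.S28.helper720

open Polynomial ModularCurve
open Fermat.Agent.S28.helper328 (twist Jsub evalJ)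

noncomputable section

/-- Prime-level relations (interface `F1`, `F2` of S28 plan v2). -/
structure PrimeRel (p : ℕ+) (Φ : Polynomial (Polynomial ℤ)) : Prop where
  monic : Φ.Monic
  natDegree_eq : Φ.natDegree = (p : ℕ) + 1
  rel_up : (Φ.map (evalJ (jqModC ℤ))).eval (qExpand ℤ (p : ℕ) (jqModC ℤ)) = 0
  rel_low : (Φ.map (evalJ (qExpand ℤ (p : ℕ) (jqModC ℤ)))).eval (jqModC ℤ) = 0

theorem jd_one : jd 1 = jqModC ℤ := by
  rw [jd]
  exact qExpand_one_apply _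

theorem twist_qExpand {R : Type*} [CommRing R] (c : Rˣ) (n : ℕ) [NeZero n]
    (f : LaurentSeries R) : twist c (qExpand R n f) = qExpand R n (twist (c ^ n) f) := by
  ext k
  by_cases hk : (n : ℤ) ∣ k
  · obtain ⟨m, rfl⟩ := hk
    rw [helper328.twist_coeff, qExpand_coeff_mul, qExpand_coeff_mul, helper328.twist_coeff,
      zpow_mul, zpow_natCast]
  · rw [helper328.twist_coeff, qExpand_coeff_of_not_dvd _ _ hk,
      qExpand_coeff_of_not_dvd _ _ hk, mul_zero]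

theorem twistMap_jd (k : Type*) [CommRing k] (c : kˣ) (m d : ℕ+) (f : ℤ →+* k) :
    qExpand k (m : ℕ) (twist c (coeffMap f (jd d))) = Jsub k (c ^ (d : ℕ)) (m * d) := by
  rw [coeffMap_jd, Jsub_one, twist_qExpand, qExpand_qExpand, Jsub]
  rfl

theorem PrimeRel.rel_up' {p : ℕ+} {Φ : Polynomial (Polynomial ℤ)} (h : PrimeRel p Φ) :
    (Φ.map (evZ (jd 1))).eval (jd p) = 0 := by
  rw [jd_one]; exact h.rel_up

theorem PrimeRel.rel_low' {p : ℕ+} {Φ : Polynomial (Polynomial ℤ)} (h : PrimeRel p Φ) :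
    (Φ.map (evZ (jd p))).eval (jd 1) = 0 := by
  rw [jd_one]; exact h.rel_low

/-- `F1 + F2 ⇒` root formula over `ℂ((t))`. -/
theorem PrimeRel.primeRoots {p : ℕ+} {Φ : Polynomial (Polynomial ℤ)} (h : PrimeRel p Φ)
    (hp : 2 ≤ (p : ℕ)) : PrimeRoots p Φ := by
  classical
  refine ⟨h.monic, h.natDegree_eq, ?_⟩
  have hprim : IsPrimitiveRoot (Complex.exp (2 * Real.pi * Complex.I / ((p : ℕ) : ℂ))) (p : ℕ) :=
    Complex.isPrimitiveRoot_exp (p : ℕ) p.ne_zero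
  let ω : ℂˣ := (hprim.isUnit p.ne_zero).unit
  have hω : IsPrimitiveRoot ω (p : ℕ) := by
    rw [← IsPrimitiveRoot.coe_units_iff]
    exact hprim
  refine ⟨ω, hω, fun m => ?_⟩
  rw [evalJ_eq_evZ]
  obtain ⟨P, hP⟩ : ∃ P, P = Φ.map (evZ (Jsub ℂ 1 (p * m))) := ⟨_, rfl⟩
  rw [← hP]
  have hPmonic : P.Monic := by rw [hP]; exact h.monic.map _
  have hPdeg : P.natDegree = (p : ℕ) + 1 := by rw [hP, h.monic.natDegree_map, h.natDegree_eq]
  -- the root `J(t^(p^2 m))`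
  have h0 : P.IsRoot (Jsub ℂ 1 (p ^ 2 * m)) := by
    have := congrArg ((qExpand ℂ ((p * m : ℕ+) : ℕ)).comp (coeffMap (Int.castRingHom ℂ)))
      h.rel_up'
    rw [map_eval_evZ, map_zero] at this
    simp only [RingHom.comp_apply] at this
    rw [coeffMap_jd, coeffMap_jd, qExpand_Jsub, qExpand_Jsub, mul_one,
      show p * m * p = p ^ 2 * m from PNat.eq (by push_cast; ring)] at this
    rw [hP]
    exact this
  -- the roots `J(ω^b t^m)`
  have hb : ∀ b : ℕ, P.IsRoot (Jsub ℂ (ω ^ b) m) := by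
    intro b
    have := congrArg ((qExpand ℂ (m : ℕ)).comp
      ((twist (ω ^ b)).comp (coeffMap (Int.castRingHom ℂ)))) h.rel_low'
    rw [map_eval_evZ, map_zero] at this
    simp only [RingHom.comp_apply] at this
    rw [twistMap_jd, twistMap_jd] at this
    have h1 : (ω ^ b) ^ (p : ℕ) = 1 := by
      rw [← pow_mul, mul_comm, pow_mul, hω.pow_eq_one, one_pow]
    rw [h1, PNat.one_coe, pow_one, mul_one, mul_comm m p] at this
    rw [hP]
    exact this
  have hne0 : ∀ b : ℕ, Jsub ℂ 1 (p ^ 2 * m) ≠ Jsub ℂ (ω ^ b) m := by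
    intro b
    refine Jsub_ne_of_ne ℂ _ _ ?_
    intro hEq
    have h1 : ((p ^ 2 * m : ℕ+) : ℕ) = (m : ℕ) := congrArg _ hEq
    push_cast at h1
    have hm := m.pos
    have : (p : ℕ) ^ 2 * (m : ℕ) ≥ 4 * (m : ℕ) :=
      Nat.mul_le_mul_right _ (by nlinarith)
    omega
  have hinj : ∀ b ∈ Finset.range (p : ℕ), ∀ c ∈ Finset.range (p : ℕ), b ≠ c →
      Jsub ℂ (ω ^ b) m ≠ Jsub ℂ (ω ^ c) m := by
    intro b hb' c hc' hbc hEq
    have h1 := Jsub_coeff_neg ℂ (ω ^ b) m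
    rw [hEq, Jsub_coeff_neg] at h1
    have h2 : (ω ^ c)⁻¹ = (ω ^ b)⁻¹ := Units.ext h1
    have h3 : ω ^ b = ω ^ c := (inv_injective h2).symm
    exact hbc (hω.pow_inj (Finset.mem_range.mp hb') (Finset.mem_range.mp hc') h3)
  have hcop : ((Finset.range (p : ℕ) : Finset ℕ) : Set ℕ).Pairwise
      (Function.onFun IsCoprime
        fun b => (X - C (Jsub ℂ (ω ^ b) m) : Polynomial (LaurentSeries ℂ))) := by
    intro b hb' c hc' hbc
    exact isCoprime_X_sub_C_of_isUnit_sub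
      (isUnit_iff_ne_zero.mpr (sub_ne_zero.mpr (hinj b hb' c hc' hbc)))
  have hdvd2 : (∏ b ∈ Finset.range (p : ℕ), (X - C (Jsub ℂ (ω ^ b) m))) ∣ P :=
    Finset.prod_dvd_of_coprime hcop (fun b _ => dvd_iff_isRoot.mpr (hb b))
  have hcop0 : IsCoprime (X - C (Jsub ℂ 1 (p ^ 2 * m)))
      (∏ b ∈ Finset.range (p : ℕ), (X - C (Jsub ℂ (ω ^ b) m))) :=
    IsCoprime.prod_right fun b _ => isCoprime_X_sub_C_of_isUnit_sub
      (isUnit_iff_ne_zero.mpr (sub_ne_zero.mpr (hne0 b)))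
  have hdvd : (X - C (Jsub ℂ 1 (p ^ 2 * m))) *
      (∏ b ∈ Finset.range (p : ℕ), (X - C (Jsub ℂ (ω ^ b) m))) ∣ P :=
    hcop0.mul_dvd (dvd_iff_isRoot.mpr h0) hdvd2
  have hQ2monic : (∏ b ∈ Finset.range (p : ℕ),
      (X - C (Jsub ℂ (ω ^ b) m) : Polynomial (LaurentSeries ℂ))).Monic :=
    monic_prod_of_monic _ _ fun b _ => monic_X_sub_C _
  have hQmonic : ((X - C (Jsub ℂ 1 (p ^ 2 * m))) *
      (∏ b ∈ Finset.range (p : ℕ), (X - C (Jsub ℂ (ω ^ b) m)))).Monic :=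
    (monic_X_sub_C _).mul hQ2monic
  have hQdeg : ((X - C (Jsub ℂ 1 (p ^ 2 * m))) *
      (∏ b ∈ Finset.range (p : ℕ), (X - C (Jsub ℂ (ω ^ b) m)))).natDegree = (p : ℕ) + 1 := by
    rw [(monic_X_sub_C _).natDegree_mul hQ2monic, natDegree_X_sub_C,
      natDegree_prod_of_monic _ _ fun b _ => monic_X_sub_C _]
    simp [add_comm]
  exact eq_of_monic_of_dvd_of_natDegree_le hQmonic hPmonic hdvd (by rw [hPdeg, hQdeg])

end

end Fermat.Agent.S28.helper720
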