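/-
S28 (Igusa), route P, char-0 tower (board row P8 / T3) — generic "spanned by at most n elements"
bookkeeping for towers of subalgebras of a field (Mathlib only).
Author: helper720.  Sorry-free.
-/
import Mathlib

set_option autoImplicit false

namespace Fermat.Agent.S28.helper720

open Polynomial

section

variable (K : Type*) {E : Type*} [Field K] [Field E] [Algebra K E]

/-- `A` is contained in the `K`-span of a family of at most `n` elements. -/
def SpannedLE (A : Set E) (n : ℕ) : Prop :=
  ∃ (ι : Type) (_ : Fintype ι) (v : ι → E),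
    Fintype.card ι ≤ n ∧ A ⊆ Submodule.span K (Set.range v)

variable {K}

theorem SpannedLE.mono {A B : Set E} {n m : ℕ} (h : SpannedLE K B n) (hAB : A ⊆ B)
    (hnm : n ≤ m) : SpannedLE K A m := by
  obtain ⟨ι, hι, v, hcard, hv⟩ := h
  exact ⟨ι, hι, v, hcard.trans hnm, hAB.trans hv⟩

theorem spannedLE_bot : SpannedLE K (((⊥ : Subalgebra K E) : Set E)) 1 := by
  refine ⟨Unit, inferInstance, fun _ => 1, by simp, ?_⟩
  intro x hx
  obtain ⟨c, rfl⟩ := Algebra.mem_bot.mp hx
  rw [Algebra.algebraMap_eq_smul_one]
  exact Submodule.smul_mem _ _ (Submodule.subset_span ⟨(), rfl⟩)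

/-- One step of a tower: adjoining a root of a monic polynomial of degree `d` with coefficients
in `A` multiplies the number of spanning elements by at most `d`. -/
theorem spannedLE_adjoin_step (A : Subalgebra K E) {n : ℕ} (hA : SpannedLE K (A : Set E) n)
    (g : E) (f : Polynomial A) (hf : f.Monic) (hg : Polynomial.aeval g f = 0) :
    ∃ A' : Subalgebra K E, A ≤ A' ∧ g ∈ A' ∧ SpannedLE K (A' : Set E) (n * f.natDegree) := by
  classical
  obtain ⟨ι, hι, v, hcard, hv⟩ := hA
  let B : Subalgebra A E := Algebra.adjoin A {g}
  refine ⟨B.restrictScalars K, ?_, ?_, ?_⟩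
  · intro a ha
    exact B.algebraMap_mem ⟨a, ha⟩
  · exact Algebra.subset_adjoin (Set.mem_singleton g)
  · refine ⟨ι × Fin f.natDegree, inferInstance, fun ij => v ij.1 * g ^ (ij.2 : ℕ), ?_, ?_⟩
    · rw [Fintype.card_prod, Fintype.card_fin]
      exact Nat.mul_le_mul_right _ hcard
    · intro x hx
      have hx' : x ∈ Subalgebra.toSubmodule B := hx
      rw [← Submodule.span_range_natDegree_eq_adjoin hf hg, Finset.coe_image,
        Finsupp.mem_span_image_iff_linearCombination] at hx'
      obtain ⟨l, hl, rfl⟩ := hx'
      rw [Finsupp.linearCombination_apply, Finsupp.sum]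
      refine Submodule.sum_mem _ fun j hj => ?_
      have hjd : j < f.natDegree := Finset.mem_range.mp (hl hj)
      have hmem : ((l j : A) : E) ∈ Submodule.span K (Set.range v) := hv (l j).2
      have key : ∀ a ∈ Submodule.span K (Set.range v),
          a * g ^ j ∈ Submodule.span K
            (Set.range fun ij : ι × Fin f.natDegree => v ij.1 * g ^ (ij.2 : ℕ)) := by
        intro a ha
        induction ha using Submodule.span_induction with
        | mem y hy =>
          obtain ⟨i, rfl⟩ := hy
          exact Submodule.subset_span ⟨(i, ⟨j, hjd⟩), rfl⟩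
        | zero => simp
        | add y z _ _ hy hz => rw [add_mul]; exact Submodule.add_mem _ hy hz
        | smul c y _ hy => rw [smul_mul_assoc]; exact Submodule.smul_mem _ c hy
      have := key _ hmem
      rwa [Subalgebra.smul_def, smul_eq_mul]

/-- `n + 1` elements of a set spanned by `n` elements are linearly dependent. -/
theorem SpannedLE.exists_relation {A : Set E} {n : ℕ} (h : SpannedLE K A n)
    (x : Fin (n + 1) → E) (hx : ∀ i, x i ∈ A) :
    ∃ c : Fin (n + 1) → K, c ≠ 0 ∧ ∑ i, c i • x i = 0 := by
  obtain ⟨ι, hι, v, hcard, hv⟩ := h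
  have : Module.Finite K (Submodule.span K (Set.range v)) :=
    FiniteDimensional.span_of_finite K (Set.finite_range v)
  have hfin : Module.finrank K (Submodule.span K (Set.range v)) ≤ n :=
    (finrank_range_le_card v).trans hcard
  let y : Fin (n + 1) → Submodule.span K (Set.range v) := fun i => ⟨x i, hv (hx i)⟩
  have hnot : ¬ LinearIndependent K y := fun hli => by
    have := hli.fintype_card_le_finrank
    rw [Fintype.card_fin] at this
    omega
  obtain ⟨c, hc, i, hi⟩ := Fintype.not_linearIndependent_iff.mp hnot
  refine ⟨c, fun h0 => hi (by rw [h0]; rfl), ?_⟩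
  have := congrArg Subtype.val hc
  simpa [y] using this

/-- A subalgebra of a field that is spanned by finitely many elements is closed under
inverses. -/
theorem inv_mem_of_spannedLE (A : Subalgebra K E) {n : ℕ} (h : SpannedLE K (A : Set E) n) :
    ∀ x ∈ A, x⁻¹ ∈ A := by
  obtain ⟨ι, hι, v, hcard, hv⟩ := h
  have : Module.Finite K (Submodule.span K (Set.range v)) :=
    FiniteDimensional.span_of_finite K (Set.finite_range v)
  have hle : Subalgebra.toSubmodule A ≤ Submodule.span K (Set.range v) := hv
  have : Module.Finite K (Subalgebra.toSubmodule A) := Submodule.finiteDimensional_of_le hle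
  have : Module.Finite K A := inferInstanceAs (Module.Finite K (Subalgebra.toSubmodule A))
  intro x hx
  have hint : IsIntegral K (⟨x, hx⟩ : A) := Algebra.IsIntegral.isIntegral _
  have hint' : IsIntegral K x := by
    have := hint.map A.val
    simpa using this
  exact A.inv_mem_of_algebraic (x := ⟨x, hx⟩) hint'.isAlgebraic

end

end Fermat.Agent.S28.helper720
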