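/-
S28 (Igusa), route P — CHAR-0 TOWER (board row P8 / T3).
From prime-level data at every prime `p ∣ N` (either the relations `F1`, `F2` = `PrimeRel`, or
the root formula `PrimeRoots`):

* `toQ_jd_mem_of_primePowers` : every `j(q^d)`, `d ∣ N`, lies in any subfield of `ℚ((q))`
  containing the `j(q^{p^i})`, `p^i ∣ N` (unique-common-root lemma);
* `degLE_full` : `Spec.DegLE (modularFunctionFieldFull N) (dedekindPsi N)`, i.e. `[F : ℚ(j)] ≤ ψ(N)`;
* `isIntegralOverZj_jd` : every `j(q^d)`, `d ∣ N`, is integral over `ℤ[j]` (shape of the Spec);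
* `stmt_coreInput_of_linIndep` : the char-0 half of `Spec.Stmt_CoreInput`: any `ψ(N)` products of
  the `j(q^d)` (`d ∣ N`) whose reductions mod `ℓ` are independent give `Stmt_CoreInput N ℓ`.
Author: helper720.  Sorry-free.
-/
import Fermat.Agent.S28.helper720_GcdLemma
import Fermat.Agent.S28.helper720_RootsOfRel
import Fermat.Agent.S28.helper720_SpanTower
import Fermat.Agent.S28.helper720_PsiIneq

set_option autoImplicit false

namespace Fermat.Agent.S28.helper720

open Polynomial ModularCurve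
open Fermat.Agent.S28.helper328 (twist Jsub evalJ)
open Fermat.Agent.S28.Spec (toQ DegLE IsIntegralOverZj)

noncomputable section

/-- prime-level root data at every prime dividing `N`. -/
def HasPrimeRoots (N : ℕ) : Prop :=
  ∀ p : ℕ+, (p : ℕ).Prime → (p : ℕ) ∣ N → ∃ Φ : Polynomial (Polynomial ℤ), PrimeRoots p Φ

/-- prime-level relations `F1`, `F2` at every prime dividing `N`. -/
def HasPrimeRel (N : ℕ) : Prop :=
  ∀ p : ℕ+, (p : ℕ).Prime → (p : ℕ) ∣ N → ∃ Φ : Polynomial (Polynomial ℤ), PrimeRel p Φ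

theorem HasPrimeRel.hasPrimeRoots {N : ℕ} (h : HasPrimeRel N) : HasPrimeRoots N := by
  intro p hp hpN
  obtain ⟨Φ, hΦ⟩ := h p hp hpN
  exact ⟨Φ, hΦ.primeRoots hp.two_le⟩

theorem HasPrimeRoots.of_dvd {N M : ℕ} (h : HasPrimeRoots N) (hMN : M ∣ N) : HasPrimeRoots M :=
  fun p hp hpM => h p hp (hpM.trans hMN)

/-! ### Part B: the `j(q^d)` are generated by the `j(q^{p^i})` -/

theorem toQ_jd_mem_of_primePowers (N : ℕ) (hN : HasPrimeRoots N)
    (L : IntermediateField ℚ (LaurentSeries ℚ))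
    (hL : ∀ d : ℕ+, (d : ℕ) ∣ N → (IsPrimePow (d : ℕ) ∨ d = 1) → toQ (jd d) ∈ L) :
    ∀ d : ℕ+, (d : ℕ) ∣ N → toQ (jd d) ∈ L := by
  intro d
  induction d using PNat.strongInductionOn with
  | _ d ih =>
    intro hd
    by_cases hd1 : d = 1
    · exact hL d hd (Or.inr hd1)
    by_cases hpp : IsPrimePow (d : ℕ)
    · exact hL d hd (Or.inl hpp)
    · have hd1' : (d : ℕ) ≠ 1 := fun h => hd1 (PNat.eq h)
      obtain ⟨p, hp, hpd⟩ := Nat.exists_prime_and_dvd hd1'
      have hex : ∃ r, r.Prime ∧ r ∣ (d : ℕ) ∧ r ≠ p := by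
        by_contra hcon
        refine hpp (isPrimePow_iff_unique_prime_dvd.mpr ⟨p, ⟨hp, hpd⟩, fun r hr => ?_⟩)
        by_contra hne
        exact hcon ⟨r, hr.1, hr.2, hne⟩
      obtain ⟨r, hr, hrd, hrp⟩ := hex
      have hcop : Nat.Coprime p r := (Nat.coprime_primes hp hr).mpr (Ne.symm hrp)
      obtain ⟨e0, he0⟩ := hcop.mul_dvd_of_dvd_of_dvd hpd hrd
      have he0pos : 0 < e0 := by
        rcases Nat.eq_zero_or_pos e0 with h | h
        · rw [h, mul_zero] at he0; exact absurd he0 d.ne_zero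
        · exact h
      let p' : ℕ+ := ⟨p, hp.pos⟩
      let r' : ℕ+ := ⟨r, hr.pos⟩
      let e : ℕ+ := ⟨e0, he0pos⟩
      have hde : d = p' * r' * e := PNat.eq (by simpa [p', r', e] using he0)
      obtain ⟨Φp, hΦp⟩ := hN p' hp (hpd.trans hd)
      obtain ⟨Φr, hΦr⟩ := hN r' hr (hrd.trans hd)
      have hne : p' ≠ r' := fun h => hrp (congrArg PNat.val h).symm
      have hmem := toQ_jd_mem_adjoin_pair hne hΦp hΦr e
      rw [hde]
      refine (IntermediateField.adjoin_le_iff.mpr ?_) hmem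
      rintro x (rfl | rfl)
      · refine ih (r' * e) ?_ ?_
        · rw [hde]
          show ((r' * e : ℕ+) : ℕ) < ((p' * r' * e : ℕ+) : ℕ)
          have h2 : 2 ≤ p := hp.two_le
          have hpos : 0 < r * e0 := Nat.mul_pos hr.pos he0pos
          show r * e0 < p * r * e0
          nlinarith
        · refine Dvd.dvd.trans ?_ hd
          rw [he0]
          show r * e0 ∣ p * r * e0
          exact ⟨p, by ring⟩
      · refine ih (p' * e) ?_ ?_
        · rw [hde]
          show ((p' * e : ℕ+) : ℕ) < ((p' * r' * e : ℕ+) : ℕ)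
          have h2 : 2 ≤ r := hr.two_le
          have hpos : 0 < p * e0 := Nat.mul_pos hp.pos he0pos
          show p * e0 < p * r * e0
          nlinarith
        · refine Dvd.dvd.trans ?_ hd
          rw [he0]
          show p * e0 ∣ p * r * e0
          exact ⟨r, by ring⟩

/-! ### Part C: the tower of subalgebras over `ℚ(j)` -/

/-- the base field `ℚ(j) ⊆ ℚ((q))`. -/
abbrev K0 : IntermediateField ℚ (LaurentSeries ℚ) := IntermediateField.adjoin ℚ {jq}

theorem jq_mem_subalgebra (A : Subalgebra K0 (LaurentSeries ℚ)) : jq ∈ A :=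
  A.algebraMap_mem (⟨jq, IntermediateField.mem_adjoin_simple_self ℚ jq⟩ : K0)

theorem toQ_jd_one : toQ (jd 1) = jq := by
  rw [toQ_jd]
  exact qExpand_one_apply jq

theorem toQ_jd_ne {a b : ℕ+} (h : a ≠ b) : toQ (jd a) ≠ toQ (jd b) :=
  fun heq => h (jd_injective (toQ_injective heq))

/-- first step for a prime `p`: adjoin `j(q^p)`, degree `≤ p + 1`. -/
theorem tower_step_zero {p : ℕ+} {Φ : Polynomial (Polynomial ℤ)} (hΦ : PrimeRoots p Φ)
    (A : Subalgebra K0 (LaurentSeries ℚ)) {n : ℕ}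
    (hA : SpannedLE K0 (A : Set (LaurentSeries ℚ)) n) :
    ∃ A' : Subalgebra K0 (LaurentSeries ℚ), A ≤ A' ∧ toQ (jd p) ∈ A' ∧
      SpannedLE K0 (A' : Set (LaurentSeries ℚ)) (n * ((p : ℕ) + 1)) := by
  let f : Polynomial A := Φ.map (evZ (⟨jq, jq_mem_subalgebra A⟩ : A))
  have hfmonic : f.Monic := hΦ.monic.map _
  have hfdeg : f.natDegree = (p : ℕ) + 1 := by
    rw [hΦ.monic.natDegree_map, hΦ.natDegree_eq]
  have hroot : Polynomial.aeval (toQ (jd p)) f = 0 := by
    rw [Polynomial.aeval_def, ← Polynomial.eval_map, map_map_evZ]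
    have h1 := congrArg toQ (hΦ.eval_up 1)
    rw [map_eval_evZ, map_zero, toQ_jd_one, mul_one] at h1
    exact h1
  obtain ⟨A', hle, hmem, hsp⟩ := spannedLE_adjoin_step A hA (toQ (jd p)) f hfmonic hroot
  exact ⟨A', hle, hmem, by rwa [hfdeg] at hsp⟩

/-- later steps for a prime `p`: adjoin `j(q^{p^(k+2)})` to an algebra containing `j(q^{p^k})`
and `j(q^{p^(k+1)})`, degree `≤ p`. -/
theorem tower_step_succ {p : ℕ+} (hp2 : 2 ≤ (p : ℕ)) {Φ : Polynomial (Polynomial ℤ)}
    (hΦ : PrimeRoots p Φ) (A : Subalgebra K0 (LaurentSeries ℚ)) {n : ℕ}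
    (hA : SpannedLE K0 (A : Set (LaurentSeries ℚ)) n) (k : ℕ)
    (h2 : toQ (jd (p ^ k)) ∈ A) (h1 : toQ (jd (p ^ (k + 1))) ∈ A) :
    ∃ A' : Subalgebra K0 (LaurentSeries ℚ), A ≤ A' ∧ toQ (jd (p ^ (k + 2))) ∈ A' ∧
      SpannedLE K0 (A' : Set (LaurentSeries ℚ)) (n * (p : ℕ)) := by
  let P : Polynomial A := Φ.map (evZ (⟨_, h1⟩ : A))
  have hPmonic : P.Monic := hΦ.monic.map _
  have hPdeg : P.natDegree = (p : ℕ) + 1 := by
    rw [hΦ.monic.natDegree_map, hΦ.natDegree_eq]
  have hPmap : P.map (algebraMap A (LaurentSeries ℚ)) = Φ.map (evZ (toQ (jd (p ^ (k + 1))))) :=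
    map_map_evZ _ _ _
  have hroot2 : P.IsRoot (⟨_, h2⟩ : A) := by
    apply Subtype.ext
    have h := map_eval_evZ (algebraMap A (LaurentSeries ℚ)) (⟨_, h1⟩ : A) (⟨_, h2⟩ : A) Φ
    have h' := congrArg toQ (hΦ.eval_low (p ^ k))
    rw [map_eval_evZ, map_zero, show p * p ^ k = p ^ (k + 1) from (pow_succ' p k).symm] at h'
    exact h.trans h'
  let f : Polynomial A := P /ₘ (X - C (⟨_, h2⟩ : A))
  have hfP : (X - C (⟨_, h2⟩ : A)) * f = P := mul_divByMonic_eq_iff_isRoot.mpr hroot2
  have hfmonic : f.Monic :=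
    Monic.of_mul_monic_left (monic_X_sub_C _) (by rw [hfP]; exact hPmonic)
  have hfdeg : f.natDegree = (p : ℕ) := by
    show (P /ₘ (X - C (⟨_, h2⟩ : A))).natDegree = _
    rw [natDegree_divByMonic _ (monic_X_sub_C _), hPdeg, natDegree_X_sub_C]
    simp
  have hrootP : Polynomial.aeval (toQ (jd (p ^ (k + 2)))) P = 0 := by
    rw [Polynomial.aeval_def, ← Polynomial.eval_map, hPmap]
    have h' := congrArg toQ (hΦ.eval_up (p ^ (k + 1)))
    rw [map_eval_evZ, map_zero,
      show p * p ^ (k + 1) = p ^ (k + 2) from (pow_succ' p (k + 1)).symm] at h'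
    exact h'
  have hroot : Polynomial.aeval (toQ (jd (p ^ (k + 2)))) f = 0 := by
    have hX : Polynomial.aeval (toQ (jd (p ^ (k + 2)))) (X - C (⟨_, h2⟩ : A)) =
        toQ (jd (p ^ (k + 2))) - toQ (jd (p ^ k)) := by
      rw [Polynomial.aeval_def, Polynomial.eval₂_sub, Polynomial.eval₂_X, Polynomial.eval₂_C]
      rfl
    rw [← hfP, map_mul, hX] at hrootP
    rcases mul_eq_zero.mp hrootP with h | h
    · exfalso
      have hne : p ^ (k + 2) ≠ p ^ k := by
        intro heq
        have h3 : (p : ℕ) ^ (k + 2) = (p : ℕ) ^ k := by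
          have := congrArg PNat.val heq
          simpa using this
        have h4 : k + 2 = k := Nat.pow_right_injective hp2 h3
        omega
      exact toQ_jd_ne hne (sub_eq_zero.mp h)
    · exact h
  obtain ⟨A', hle, hmem, hsp⟩ :=
    spannedLE_adjoin_step A hA (toQ (jd (p ^ (k + 2)))) f hfmonic hroot
  exact ⟨A', hle, hmem, by rwa [hfdeg] at hsp⟩

theorem eq_pow_of_new_primePow {N' p d m : ℕ} (hp : p.Prime) (hm : p ^ m ∣ N')
    (hm1 : ¬ p ^ (m + 1) ∣ N') (hd : d ∣ N' * p) (hdpp : IsPrimePow d) (hnd : ¬ d ∣ N') :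
    d = p ^ (m + 1) := by
  obtain ⟨q, k, hq, hk, rfl⟩ := (isPrimePow_nat_iff d).mp hdpp
  by_cases hqp : q = p
  · subst hqp
    have h1 : m + 1 ≤ k := by
      by_contra hlt
      exact hnd ((pow_dvd_pow q (by omega)).trans hm)
    have h2 : k ≤ m + 1 := by
      by_contra hlt
      apply hm1
      have h3 : q ^ (m + 1) * q ∣ N' * q := by
        rw [← pow_succ]
        exact (pow_dvd_pow q (by omega)).trans hd
      exact Nat.dvd_of_mul_dvd_mul_right hq.pos h3
    rw [le_antisymm h2 h1]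
  · exfalso
    have hcop : Nat.Coprime (q ^ k) p :=
      Nat.Coprime.pow_left k ((Nat.coprime_primes hq hp).mpr hqp)
    exact hnd (hcop.dvd_of_dvd_mul_right hd)

/-- **The tower.**  A subalgebra of `ℚ((q))` over `ℚ(j)` containing all `j(q^{p^i})`, `p^i ∣ N`,
and spanned by at most `ψ(N)` elements. -/
theorem exists_tower (N : ℕ) (hN0 : 0 < N) (hN : HasPrimeRoots N) :
    ∃ A : Subalgebra K0 (LaurentSeries ℚ),
      (∀ d : ℕ+, (d : ℕ) ∣ N → IsPrimePow (d : ℕ) → toQ (jd d) ∈ A) ∧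
      SpannedLE K0 (A : Set (LaurentSeries ℚ)) (dedekindPsi N) := by
  induction N using Nat.strong_induction_on with
  | _ N ih =>
    by_cases hN1 : N = 1
    · subst hN1
      refine ⟨⊥, ?_, ?_⟩
      · intro d hd hpp
        exfalso
        rw [Nat.dvd_one] at hd
        rw [hd] at hpp
        exact not_isPrimePow_one hpp
      · rw [dedekindPsi_one]
        exact spannedLE_bot
    · have hp : N.minFac.Prime := Nat.minFac_prime hN1
      obtain ⟨p, hpdef⟩ : ∃ p, p = N.minFac := ⟨_, rfl⟩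
      rw [← hpdef] at hp
      have hpN : p ∣ N := hpdef ▸ Nat.minFac_dvd N
      obtain ⟨N', hN'⟩ : ∃ N', N = N' * p := ⟨N / p, (Nat.div_mul_cancel hpN).symm⟩
      have hN'0 : 0 < N' := by
        rcases Nat.eq_zero_or_pos N' with h | h
        · rw [h, zero_mul] at hN'; omega
        · exact h
      have hN'lt : N' < N := by
        rw [hN']
        have := hp.two_le
        nlinarith
      have hN'dvd : N' ∣ N := ⟨p, hN'⟩
      obtain ⟨A, hAmem, hAsp⟩ := ih N' hN'lt hN'0 (hN.of_dvd hN'dvd)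
      let p' : ℕ+ := ⟨p, hp.pos⟩
      obtain ⟨Φ, hΦ⟩ := hN p' hp hpN
      have : Fact p.Prime := ⟨hp⟩
      obtain ⟨m, hmdef⟩ : ∃ m, m = padicValNat p N' := ⟨_, rfl⟩
      have hm : p ^ m ∣ N' := hmdef ▸ pow_padicValNat_dvd
      have hm1 : ¬ p ^ (m + 1) ∣ N' := hmdef ▸ pow_succ_padicValNat_not_dvd hN'0.ne'
      -- powers of `p` already in `A`
      have hpow : ∀ i, i ≤ m → toQ (jd (p' ^ i)) ∈ A := by
        intro i hi
        rcases Nat.eq_zero_or_pos i with h0 | hpos
        · subst h0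
          rw [pow_zero, toQ_jd_one]
          exact jq_mem_subalgebra A
        · refine hAmem (p' ^ i) ?_ ?_
          · show ((p' ^ i : ℕ+) : ℕ) ∣ N'
            rw [PNat.pow_coe]
            exact (pow_dvd_pow p hi).trans hm
          · show IsPrimePow ((p' ^ i : ℕ+) : ℕ)
            rw [PNat.pow_coe]
            exact (isPrimePow_nat_iff _).mpr ⟨p, i, hp, hpos, rfl⟩
      -- the new algebra
      have hstep : ∃ A' : Subalgebra K0 (LaurentSeries ℚ), A ≤ A' ∧
          toQ (jd (p' ^ (m + 1))) ∈ A' ∧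
          SpannedLE K0 (A' : Set (LaurentSeries ℚ)) (dedekindPsi N) := by
        rcases Nat.eq_zero_or_pos m with h0 | hpos
        · subst h0
          obtain ⟨A', hle, hmem, hsp⟩ := tower_step_zero hΦ A hAsp
          refine ⟨A', hle, by simpa using hmem, hsp.mono subset_rfl ?_⟩
          rw [hN']
          show dedekindPsi N' * (p + 1) ≤ dedekindPsi (N' * p)
          exact dedekindPsi_mul_prime_of_not_dvd hp hN'0 (by simpa using hm1)
        · obtain ⟨k, rfl⟩ : ∃ k, m = k + 1 := ⟨m - 1, by omega⟩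
          obtain ⟨A', hle, hmem, hsp⟩ := tower_step_succ (p := p') hp.two_le hΦ A hAsp k
            (hpow k (by omega)) (hpow (k + 1) le_rfl)
          refine ⟨A', hle, hmem, hsp.mono subset_rfl ?_⟩
          rw [hN']
          show dedekindPsi N' * p ≤ dedekindPsi (N' * p)
          exact dedekindPsi_mul_prime_le hp
      obtain ⟨A', hle, hmem, hsp⟩ := hstep
      refine ⟨A', ?_, hsp⟩
      intro d hd hpp
      by_cases hdN' : (d : ℕ) ∣ N'
      · exact hle (hAmem d hdN' hpp)
      · have hdeq : (d : ℕ) = p ^ (m + 1) :=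
          eq_pow_of_new_primePow hp hm hm1 (hN' ▸ hd) hpp hdN'
        have : d = p' ^ (m + 1) := PNat.eq (by rw [PNat.pow_coe]; exact hdeq)
        rw [this]
        exact hmem

/-! ### Part D: the degree bound `[F : ℚ(j)] ≤ ψ(N)` in the shape of the Spec -/

/-- every element of `ℚ(j)` is a quotient of integer polynomials in `j`. -/
theorem exists_int_frac (κ : K0) : ∃ P Q : Polynomial ℤ, Polynomial.aeval jq Q ≠ 0 ∧
    (κ : LaurentSeries ℚ) * Polynomial.aeval jq Q = Polynomial.aeval jq P := by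
  obtain ⟨r, s, hrs⟩ := (IntermediateField.mem_adjoin_simple_iff ℚ (κ : LaurentSeries ℚ)).mp κ.2
  by_cases hs : Polynomial.aeval jq s = 0
  · refine ⟨0, 1, by simp, ?_⟩
    rw [hrs, hs, div_zero]
    simp
  · obtain ⟨a, ha, hR⟩ := IsLocalization.integerNormalization_spec (nonZeroDivisors ℤ) r
    obtain ⟨b, hb, hS⟩ := IsLocalization.integerNormalization_spec (nonZeroDivisors ℤ) s
    set R := IsLocalization.integerNormalization (nonZeroDivisors ℤ) r with hRdef
    set S := IsLocalization.integerNormalization (nonZeroDivisors ℤ) s with hSdef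
    have ha0 : a ≠ 0 := nonZeroDivisors.ne_zero ha
    have hb0 : b ≠ 0 := nonZeroDivisors.ne_zero hb
    have key : ∀ T : Polynomial ℤ,
        Polynomial.aeval jq (T.map (algebraMap ℤ ℚ)) = Polynomial.aeval jq T := by
      intro T
      rw [Polynomial.aeval_def, Polynomial.aeval_def, Polynomial.eval₂_map]
      congr 1
      exact RingHom.ext_int _ _
    have hRe : Polynomial.aeval jq R = (a : LaurentSeries ℚ) * Polynomial.aeval jq r := by
      rw [← key R, hR, map_zsmul, zsmul_eq_mul]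
    have hSe : Polynomial.aeval jq S = (b : LaurentSeries ℚ) * Polynomial.aeval jq s := by
      rw [← key S, hS, map_zsmul, zsmul_eq_mul]
    have hcast : ∀ z : ℤ, z ≠ 0 → (z : LaurentSeries ℚ) ≠ 0 := by
      intro z hz
      rw [← map_intCast (algebraMap ℚ (LaurentSeries ℚ))]
      exact (_root_.map_ne_zero _).mpr (Int.cast_ne_zero.mpr hz)
    have ha' : (a : LaurentSeries ℚ) ≠ 0 := hcast a ha0
    have hb' : (b : LaurentSeries ℚ) ≠ 0 := hcast b hb0
    refine ⟨Polynomial.C b * R, Polynomial.C a * S, ?_, ?_⟩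
    · rw [map_mul, Polynomial.aeval_C, hSe]
      simp only [eq_intCast]
      exact mul_ne_zero ha' (mul_ne_zero hb' hs)
    · rw [map_mul, map_mul, Polynomial.aeval_C, Polynomial.aeval_C, hSe, hRe, hrs]
      simp only [eq_intCast]
      field_simp

/-- `DegLE` is monotone in the bound. -/
theorem degLE_mono {L : IntermediateField ℚ (LaurentSeries ℚ)} {n m : ℕ} (h : DegLE L n)
    (hnm : n ≤ m) : DegLE L m := by
  classical
  intro x hx
  have hinj : Function.Injective (Fin.castLE (Nat.succ_le_succ hnm)) := Fin.castLE_injective _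
  obtain ⟨c, hc, hrel⟩ := h (fun i => x (Fin.castLE (Nat.succ_le_succ hnm) i))
    (fun i => hx _)
  refine ⟨Function.extend (Fin.castLE (Nat.succ_le_succ hnm)) c 0, ?_, ?_⟩
  · intro h0
    apply hc
    funext i
    have := congrFun h0 (Fin.castLE (Nat.succ_le_succ hnm) i)
    rwa [hinj.extend_apply] at this
  · rw [← hrel]
    symm
    refine Fintype.sum_of_injective (Fin.castLE (Nat.succ_le_succ hnm)) hinj _ _ ?_ ?_
    · intro j hj
      rw [Function.extend_apply' _ _ _ hj]
      simp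
    · intro i
      rw [hinj.extend_apply]

/-- **Char-0 degree bound**: `[ℚ(j(q^d) : d ∣ N) : ℚ(j)] ≤ ψ(N)`, in the elementary form
`Spec.DegLE`. -/
theorem degLE_full (N : ℕ) (hN0 : 0 < N) (hN : HasPrimeRoots N) :
    DegLE (modularFunctionFieldFull N) (dedekindPsi N) := by
  classical
  obtain ⟨A, hAmem, hAsp⟩ := exists_tower N hN0 hN
  let L0 : IntermediateField ℚ (LaurentSeries ℚ) :=
    { carrier := (A : Set (LaurentSeries ℚ))
      mul_mem' := A.mul_mem
      add_mem' := A.add_mem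
      algebraMap_mem' := fun r => A.algebraMap_mem
        (⟨algebraMap ℚ (LaurentSeries ℚ) r, K0.algebraMap_mem r⟩ : K0)
      inv_mem' := inv_mem_of_spannedLE A hAsp }
  have hall : ∀ d : ℕ+, (d : ℕ) ∣ N → toQ (jd d) ∈ L0 :=
    toQ_jd_mem_of_primePowers N hN L0 (fun d hd h => by
      rcases h with h | rfl
      · exact hAmem d hd h
      · rw [toQ_jd_one]; exact jq_mem_subalgebra A)
  have hle : modularFunctionFieldFull N ≤ L0 := by
    rw [modularFunctionFieldFull, IntermediateField.adjoin_le_iff]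
    rintro y ⟨d, hne, hdN, rfl⟩
    have := hall ⟨d, Nat.pos_of_ne_zero hne.out⟩ hdN
    rwa [toQ_jd] at this
  have hFA : ∀ x ∈ modularFunctionFieldFull N, x ∈ A := fun x hx => hle hx
  intro x hx
  obtain ⟨c, hc0, hrel⟩ := hAsp.exists_relation x (fun i => hFA _ (hx i))
  choose P Q hQ hPQ using fun i => exists_int_frac (c i)
  have hprod : ∀ i, Polynomial.aeval jq (P i * ∏ k ∈ Finset.univ.erase i, Q k) =
      (c i : LaurentSeries ℚ) * ∏ k, Polynomial.aeval jq (Q k) := by
    intro i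
    rw [map_mul, map_prod, ← hPQ i, mul_assoc,
      Finset.mul_prod_erase Finset.univ (fun k => Polynomial.aeval jq (Q k)) (Finset.mem_univ i)]
  have hQprod : (∏ k, Polynomial.aeval jq (Q k)) ≠ 0 :=
    Finset.prod_ne_zero_iff.mpr fun k _ => hQ k
  refine ⟨fun i => P i * ∏ k ∈ Finset.univ.erase i, Q k, ?_, ?_⟩
  · obtain ⟨i, hi⟩ : ∃ i, c i ≠ 0 := by
      by_contra h
      exact hc0 (funext fun i => by_contra fun hi => h ⟨i, hi⟩)
    intro h0
    have h1 := hprod i
    rw [show (P i * ∏ k ∈ Finset.univ.erase i, Q k) = 0 from congrFun h0 i, map_zero] at h1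
    rcases mul_eq_zero.mp h1.symm with h2 | h2
    · exact hi (Subtype.ext h2)
    · exact hQprod h2
  · have : ∑ i, Polynomial.aeval jq (P i * ∏ k ∈ Finset.univ.erase i, Q k) * x i =
        (∏ k, Polynomial.aeval jq (Q k)) * ∑ i, c i • x i := by
      rw [Finset.mul_sum]
      refine Finset.sum_congr rfl fun i _ => ?_
      rw [hprod i, Algebra.smul_def]
      show _ = _ * ((c i : LaurentSeries ℚ) * x i)
      ring
    rw [this, hrel, mul_zero]

/-! ### Part E: integrality of the `j(q^d)` over `ℤ[j]` -/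

theorem isIntegralOverZj_one : IsIntegralOverZj 1 :=
  RingHom.isIntegralElem_one _

theorem IsIntegralOverZj.mul {a b : LaurentSeries ℤ} (ha : IsIntegralOverZj a)
    (hb : IsIntegralOverZj b) : IsIntegralOverZj (a * b) :=
  RingHom.IsIntegralElem.mul _ ha hb

theorem isIntegralOverZj_jd_one : IsIntegralOverZj (jd 1) := by
  rw [jd_one]
  refine ⟨X - C X, monic_X_sub_C _, ?_⟩
  rw [Polynomial.eval₂_sub, Polynomial.eval₂_X, Polynomial.eval₂_C]
  simp

theorem isIntegralOverZj_jd_step {p : ℕ+} {Φ : Polynomial (Polynomial ℤ)} (hΦ : PrimeRoots p Φ)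
    (d : ℕ+) (h : IsIntegralOverZj (jd d)) : IsIntegralOverZj (jd (p * d)) := by
  letI : Algebra (Polynomial ℤ) (LaurentSeries ℤ) :=
    (Polynomial.aeval (jqModC ℤ)).toRingHom.toAlgebra
  have h' : IsIntegral (Polynomial ℤ) (jd d) := h
  let f : Polynomial (integralClosure (Polynomial ℤ) (LaurentSeries ℤ)) :=
    Φ.map (evZ (⟨jd d, h'⟩ : integralClosure (Polynomial ℤ) (LaurentSeries ℤ)))
  have hfm : f.Monic := hΦ.monic.map _
  have hroot : Polynomial.eval₂
      (algebraMap (integralClosure (Polynomial ℤ) (LaurentSeries ℤ)) (LaurentSeries ℤ))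
      (jd (p * d)) f = 0 := by
    rw [← Polynomial.eval_map, map_map_evZ]
    exact hΦ.eval_up d
  have h2 : IsIntegral (integralClosure (Polynomial ℤ) (LaurentSeries ℤ)) (jd (p * d)) :=
    ⟨f, hfm, hroot⟩
  exact isIntegral_trans (R := Polynomial ℤ)
    (A := integralClosure (Polynomial ℤ) (LaurentSeries ℤ)) _ h2

theorem isIntegralOverZj_jd (N : ℕ) (hN : HasPrimeRoots N) :
    ∀ d : ℕ+, (d : ℕ) ∣ N → IsIntegralOverZj (jd d) := by
  intro d
  induction d using PNat.strongInductionOn with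
  | _ d ih =>
    intro hd
    by_cases hd1 : d = 1
    · subst hd1
      exact isIntegralOverZj_jd_one
    · have hd1' : (d : ℕ) ≠ 1 := fun h => hd1 (PNat.eq h)
      obtain ⟨p, hp, hpd⟩ := Nat.exists_prime_and_dvd hd1'
      obtain ⟨e0, he0⟩ := hpd
      have he0pos : 0 < e0 := by
        rcases Nat.eq_zero_or_pos e0 with h | h
        · rw [h, mul_zero] at he0; exact absurd he0 d.ne_zero
        · exact h
      let p' : ℕ+ := ⟨p, hp.pos⟩
      let e : ℕ+ := ⟨e0, he0pos⟩
      have hde : d = p' * e := PNat.eq (by simpa [p', e] using he0)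
      have hpN : p ∣ N := (Dvd.intro e0 he0.symm).trans hd
      have heN : e0 ∣ N := (Dvd.intro_left p he0.symm).trans hd
      obtain ⟨Φ, hΦ⟩ := hN p' hp hpN
      rw [hde]
      refine isIntegralOverZj_jd_step hΦ e (ih e ?_ heN)
      rw [hde]
      show e0 < p * e0
      have := hp.two_le
      nlinarith

/-! ### Part F: packaging for `Spec.Stmt_CoreInput` -/

/-- the series `j(q^d)`, `d ∣ N`. -/
def jdSet (N : ℕ) : Set (LaurentSeries ℤ) := {x | ∃ d : ℕ+, (d : ℕ) ∣ N ∧ x = jd d}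

theorem toQ_mem_full_of_closure {N : ℕ} {b : LaurentSeries ℤ}
    (hb : b ∈ Submonoid.closure (jdSet N)) : toQ b ∈ modularFunctionFieldFull N := by
  induction hb using Submonoid.closure_induction with
  | mem x hx =>
    obtain ⟨d, hd, rfl⟩ := hx
    rw [toQ_jd]
    exact jqd_mem_full N hd
  | one => rw [map_one]; exact one_mem _
  | mul x y _ _ hx hy => rw [map_mul]; exact mul_mem hx hy

theorem isIntegralOverZj_of_closure {N : ℕ} (hN : HasPrimeRoots N) {b : LaurentSeries ℤ}
    (hb : b ∈ Submonoid.closure (jdSet N)) : IsIntegralOverZj b := by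
  induction hb using Submonoid.closure_induction with
  | mem x hx =>
    obtain ⟨d, hd, rfl⟩ := hx
    exact isIntegralOverZj_jd N hN d hd
  | one => exact isIntegralOverZj_one
  | mul x y _ _ hx hy => exact IsIntegralOverZj.mul hx hy

/-- **Char-0 half of the modular input** (route P): given prime-level root data at all primes
dividing `N`, ANY family of `ψ(N)` products of the `j(q^d)` (`d ∣ N`) whose reductions mod `ℓ`
are linearly independent over `𝔽_ℓ[j̄]` yields `Spec.Stmt_CoreInput N ℓ`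
(with `L = modularFunctionFieldFull N`, `n = dedekindPsi N`). -/
theorem stmt_coreInput_of_linIndep (N ℓ : ℕ) (hN0 : 0 < N) (hN : HasPrimeRoots N)
    (b : Fin (dedekindPsi N) → LaurentSeries ℤ)
    (hb : ∀ i, b i ∈ Submonoid.closure (jdSet N))
    (hLI : Spec.LinIndepModL ℓ b) : Spec.Stmt_CoreInput N ℓ :=
  ⟨dedekindPsi N, modularFunctionFieldFull N, b, le_rfl,
    fun i => toQ_mem_full_of_closure (hb i),
    fun i => isIntegralOverZj_of_closure hN (hb i),
    degLE_full N hN0 hN, hLI⟩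

/-- Same with the plan-v2 interface `F1`, `F2` (`PrimeRel`) as prime-level input. -/
theorem stmt_coreInput_of_linIndep' (N ℓ : ℕ) (hN0 : 0 < N) (hN : HasPrimeRel N)
    (b : Fin (dedekindPsi N) → LaurentSeries ℤ)
    (hb : ∀ i, b i ∈ Submonoid.closure (jdSet N))
    (hLI : Spec.LinIndepModL ℓ b) : Spec.Stmt_CoreInput N ℓ :=
  stmt_coreInput_of_linIndep N ℓ hN0 hN.hasPrimeRoots b hb hLI

/-- `HasPrimeRel` from relations stated with natural-number primes. -/
theorem hasPrimeRel_of_nat (N : ℕ)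
    (h : ∀ p : ℕ, ∀ hp : p.Prime, p ∣ N → ∃ Φ : Polynomial (Polynomial ℤ),
      Φ.Monic ∧ Φ.natDegree = p + 1 ∧
      (Φ.map (evalJ (jqModC ℤ))).eval (@qExpand ℤ _ p ⟨hp.ne_zero⟩ (jqModC ℤ)) = 0 ∧
      (Φ.map (evalJ (@qExpand ℤ _ p ⟨hp.ne_zero⟩ (jqModC ℤ)))).eval (jqModC ℤ) = 0) :
    HasPrimeRel N := by
  intro p hp hpN
  obtain ⟨Φ, h1, h2, h3, h4⟩ := h p hp hpN
  exact ⟨Φ, h1, h2, h3, h4⟩

/-- `HasPrimeRel` from helper328's `Stmt_FormalPrime` at all primes dividing `N`
(needs only the clauses `Φ` monic of degree `p+1` and the root formula). -/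
theorem hasPrimeRoots_of_formalPrime (N : ℕ)
    (h : ∀ p : ℕ, ∀ hp : p.Prime, p ∣ N → @helper328.Stmt_FormalPrime p ⟨hp⟩) :
    HasPrimeRoots N := by
  intro p hp hpN
  haveI : Fact (p : ℕ).Prime := ⟨hp⟩
  obtain ⟨Φ, hΦ⟩ := exists_primeRoots_of_formalPrime (p : ℕ) (h p hp hpN)
  exact ⟨Φ, hΦ⟩

end

end Fermat.Agent.S28.helper720
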