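import Fermat.Agent.S28.helper1348_IntFree
import Fermat.Agent.S28.helper3292_JqFacts
import Fermat.Agent.S28.helper4768_DegSpec
import Fermat.Agent.Lib.helper804_Gamma0Cosets

/-!
# S28: the adapter (HUB) — the characteristic-zero degree bound gives the upper bound mod `ℓ`

* `degLE_full_dedekindPsi` : `Spec.DegLE (modularFunctionFieldFull N) (dedekindPsi N)`
  (Sturm counting of helper4768 + the index formula of helper804).
* `relrank_le_of_degLE` : for a prime `ℓ` and `M ≠ 0`,
  `Spec.DegLE (modularFunctionFieldFull M) n` implies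
  `[𝔽_ℓ(j̄(q^d) : d ∣ M) : 𝔽_ℓ(j̄)] ≤ n`
  (lift `n + 1` elements of `𝔽_ℓ[j̄(q^d)]` to `ℤ[j(q^d)]`, take the relation over `ℤ[j]`, divide by
  its `ℓ`-content, reduce; then pass from the ring to its field of fractions).
* `hub` / `hub_all` : the same with `n = dedekindPsi M`, unconditionally, in the shape of the
  hypothesis `hub` of `helper1595.relrank_full_eq_dedekindPsi`.
-/

set_option autoImplicit false

noncomputable section

namespace Fermat.Agent.S28.helper7658

open IntermediateField ModularCurve Polynomial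
open Fermat.Agent.S28.Spec

universe u

/-! ## The degree bound in characteristic zero, with `dedekindPsi` -/

/-- `[ℚ(j(q^d) : d ∣ N) : ℚ(j)] ≤ ψ(N)`. -/
theorem degLE_full_dedekindPsi (N : ℕ) [NeZero N] :
    DegLE (modularFunctionFieldFull N) (dedekindPsi N) := by
  have h := Fermat.Agent.S28.helper4768.degLE_full N
  rwa [Fermat.Agent.Lib.helper804.index_Gamma0 N] at h

/-! ## Linear algebra: rank of a span in which any `n + 1` elements are dependent -/

theorem rank_span_le_of_forall_not_linearIndependent {K : Type*} {V : Type u} [Field K]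
    [AddCommGroup V] [Module K V] (X : Set V) (n : ℕ)
    (h : ∀ v : Fin (n + 1) → V, (∀ i, v i ∈ X) → ¬ LinearIndependent K v) :
    Module.rank K (Submodule.span K X) ≤ (n : Cardinal) := by
  obtain ⟨b, hbX, hspan, hli⟩ := exists_linearIndependent K X
  rw [← hspan, rank_span_set hli]
  by_contra hlt
  rw [not_le] at hlt
  have h1 : ((n + 1 : ℕ) : Cardinal.{u}) ≤ Cardinal.mk b := by
    have := Order.succ_le_of_lt hlt
    rw [Cardinal.succ_natCast] at this
    exact_mod_cast this
  have h2 : Cardinal.lift.{u} (Cardinal.mk (Fin (n + 1))) ≤ Cardinal.lift.{0} (Cardinal.mk b) := by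
    rw [Cardinal.mk_fin, Cardinal.lift_natCast, Cardinal.lift_uzero]
    exact h1
  obtain ⟨f⟩ := Cardinal.lift_mk_le'.mp h2
  exact h (fun i => ((f i : b) : V)) (fun i => hbX (f i).2) (hli.comp f f.injective)

/-! ## Lifting from `𝔽_ℓ[j̄(q^d)]` to `ℤ[j(q^d)]` -/

section Lift

variable (ℓ : ℕ) [Fact ℓ.Prime] (M : ℕ)

/-- Every element of the `𝔽_ℓ`-algebra generated by the `j̄(q^d)`, `d ∣ M`, is the reduction of an
integral `q`-series lying in `ℚ(j(q^d) : d ∣ M)`. -/
theorem exists_lift (x : LaurentSeries (ZMod ℓ))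
    (hx : x ∈ Algebra.adjoin (ZMod ℓ) (divisorExpansionsC (ZMod ℓ) M)) :
    ∃ y : LaurentSeries ℤ, toQ y ∈ modularFunctionFieldFull M ∧ toFl ℓ y = x := by
  induction hx using Algebra.adjoin_induction with
  | mem x hx =>
    obtain ⟨d, hd, hdvd, rfl⟩ := hx
    refine ⟨qExpand ℤ d (jqModC ℤ), ?_, ?_⟩
    · rw [show toQ = coeffMap (Int.castRingHom ℚ) from rfl, coeffMap_qExpand, coeffMap_jqModC]
      exact jqModCd_mem_full ℚ M hdvd
    · rw [show toFl ℓ = coeffMap (Int.castRingHom (ZMod ℓ)) from rfl, coeffMap_qExpand,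
        coeffMap_jqModC]
  | algebraMap r =>
    obtain ⟨m, rfl⟩ := ZMod.intCast_surjective r
    refine ⟨(m : LaurentSeries ℤ), ?_, ?_⟩
    · rw [map_intCast]
      exact intCast_mem _ m
    · rw [map_intCast, map_intCast]
  | add x y _ _ hx hy =>
    obtain ⟨a, ha, rfl⟩ := hx
    obtain ⟨b, hb, rfl⟩ := hy
    exact ⟨a + b, by rw [map_add]; exact add_mem ha hb, map_add _ _ _⟩
  | mul x y _ _ hx hy =>
    obtain ⟨a, ha, rfl⟩ := hx
    obtain ⟨b, hb, rfl⟩ := hy
    exact ⟨a * b, by rw [map_mul]; exact mul_mem ha hb, map_mul _ _ _⟩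

end Lift

/-! ## Dependence mod `ℓ` -/

section Dep

variable (ℓ : ℕ) [hℓ : Fact ℓ.Prime] (M : ℕ)

/-- `P(j̄) ∈ 𝔽_ℓ(j̄)`. -/
theorem aeval_mem_adjoin (P : Polynomial (ZMod ℓ)) :
    Polynomial.aeval (jqModC (ZMod ℓ)) P ∈ (ZMod ℓ)⟮jqModC (ZMod ℓ)⟯ := by
  have h1 : Polynomial.aeval (jqModC (ZMod ℓ)) P ∈ Algebra.adjoin (ZMod ℓ) {jqModC (ZMod ℓ)} :=
    Polynomial.aeval_mem_adjoin_singleton _ _
  exact IntermediateField.algebra_adjoin_le_adjoin _ _ h1

/-- The degree bound in characteristic zero makes any `n + 1` elements of `𝔽_ℓ[j̄(q^d) : d ∣ M]`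
linearly dependent over `𝔽_ℓ(j̄)`. -/
theorem not_linearIndependent_of_degLE (n : ℕ) (hdeg : DegLE (modularFunctionFieldFull M) n)
    (x : Fin (n + 1) → LaurentSeries (ZMod ℓ))
    (hx : ∀ i, x i ∈ Algebra.adjoin (ZMod ℓ) (divisorExpansionsC (ZMod ℓ) M)) :
    ¬ LinearIndependent ↥((ZMod ℓ)⟮jqModC (ZMod ℓ)⟯) x := by
  choose y hyL hyx using fun i => exists_lift ℓ M (x i) (hx i)
  obtain ⟨c, hc0, hc⟩ := hdeg (fun i => toQ (y i)) hyL
  -- the relation over `ℤ((q))`
  have hrelZ : ∑ i, Polynomial.aeval (jqModC ℤ) (c i) * y i = 0 := by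
    apply helper1348.toQ_inj
    rw [map_sum, map_zero, ← hc]
    refine Finset.sum_congr rfl fun i _ => ?_
    rw [map_mul, helper1348.toQ_aeval]
  -- divide by the `ℓ`-content
  obtain ⟨e, c', hcc', k, hk⟩ := helper1348.exists_normalize ℓ hℓ.out.one_lt c hc0
  have hrelZ' : ∑ i, Polynomial.aeval (jqModC ℤ) (c' i) * y i = 0 := by
    have h1 : ((ℓ : ℤ) ^ e : LaurentSeries ℤ) * ∑ i, Polynomial.aeval (jqModC ℤ) (c' i) * y i
        = 0 := by
      rw [← hrelZ, Finset.mul_sum]
      refine Finset.sum_congr rfl fun i _ => ?_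
      rw [hcc' i, map_mul, Polynomial.aeval_C, ← mul_assoc]
      congr 1
      rw [eq_intCast]
      push_cast
      ring
    rcases mul_eq_zero.mp h1 with h2 | h2
    · exfalso
      have h3 : ((ℓ : ℤ) : LaurentSeries ℤ) = 0 := pow_eq_zero_iff (n := e) (by
        rintro rfl
        simp at h2) |>.mp h2
      have h4 : (((ℓ : ℤ) : LaurentSeries ℤ)).coeff 0 = (ℓ : ℤ) := by
        rw [← map_intCast (algebraMap ℤ (LaurentSeries ℤ)) (ℓ : ℤ),
          helper3292.algebraMap_eq_single, HahnSeries.coeff_single_same]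
        simp
      rw [h3, HahnSeries.coeff_zero] at h4
      exact hℓ.out.ne_zero (by exact_mod_cast h4.symm)
    · exact h2
  -- reduce mod `ℓ`
  have hrelF : ∑ i, Polynomial.aeval (jqModC (ZMod ℓ)) ((c' i).map (Int.castRingHom (ZMod ℓ)))
      * x i = 0 := by
    have h1 := congrArg (toFl ℓ) hrelZ'
    rw [map_sum, map_zero] at h1
    rw [← h1]
    refine Finset.sum_congr rfl fun i _ => ?_
    rw [map_mul, helper1348.toFl_aeval, hyx i]
  rw [Fintype.not_linearIndependent_iff]
  refine ⟨fun i => ⟨Polynomial.aeval (jqModC (ZMod ℓ)) ((c' i).map (Int.castRingHom (ZMod ℓ))),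
    aeval_mem_adjoin ℓ _⟩, ?_, k, ?_⟩
  · rw [← hrelF]
    refine Finset.sum_congr rfl fun i _ => ?_
    rw [Algebra.smul_def]
    rfl
  · intro h0
    have h1 : Polynomial.aeval (jqModC (ZMod ℓ)) ((c' k).map (Int.castRingHom (ZMod ℓ))) = 0 :=
      congrArg Subtype.val h0
    exact hk ((helper3292.aeval_jqModC_eq_zero_iff (ZMod ℓ) _).mp h1)

end Dep

/-! ## The rank bound -/

section Rank

variable (ℓ : ℕ) [hℓ : Fact ℓ.Prime] (M : ℕ)

theorem adjoin_jqModC_le_full :
    (ZMod ℓ)⟮jqModC (ZMod ℓ)⟯ ≤ modularFunctionFieldFullC (ZMod ℓ) M := by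
  rw [adjoin_le_iff]
  rintro x rfl
  exact jqModC_mem_full (ZMod ℓ) M

/-- **(HUB)** The characteristic-zero degree bound `[ℚ(j(q^d) : d ∣ M) : ℚ(j)] ≤ n` implies
`[𝔽_ℓ(j̄(q^d) : d ∣ M) : 𝔽_ℓ(j̄)] ≤ n`. -/
theorem relrank_le_of_degLE (n : ℕ) (hdeg : DegLE (modularFunctionFieldFull M) n) :
    ((ZMod ℓ)⟮jqModC (ZMod ℓ)⟯).relrank (modularFunctionFieldFullC (ZMod ℓ) M) ≤
      (n : Cardinal) := by
  set k := ZMod ℓ with hk
  set Ω := LaurentSeries k with hΩ
  set K0 : IntermediateField k Ω := k⟮jqModC k⟯ with hK0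
  set S : Set Ω := divisorExpansionsC k M with hS
  set E : IntermediateField k Ω := modularFunctionFieldFullC k M with hE
  have hle : K0 ≤ E := adjoin_jqModC_le_full ℓ M
  -- the `K0`-span of the `k`-algebra generated by `S`
  set W : Submodule ↥K0 Ω := Submodule.span ↥K0 ((Algebra.adjoin k S : Subalgebra k Ω) : Set Ω)
    with hW
  have hWrank : Module.rank ↥K0 ↥W ≤ (n : Cardinal) :=
    rank_span_le_of_forall_not_linearIndependent _ n
      (fun v hv => not_linearIndependent_of_degLE ℓ M n hdeg v hv)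
  have hWfin : Module.Finite ↥K0 ↥W :=
    Module.rank_lt_aleph0_iff.mp (lt_of_le_of_lt hWrank (Cardinal.natCast_lt_aleph0))
  -- the `K0`-algebra generated by `S`
  set A : Subalgebra ↥K0 Ω := Algebra.adjoin ↥K0 S with hA
  have hkA : ∀ x, x ∈ Algebra.adjoin k S → x ∈ A := by
    intro x hx
    induction hx using Algebra.adjoin_induction with
    | mem x hx => exact Algebra.subset_adjoin hx
    | algebraMap r =>
      have : algebraMap k Ω r = algebraMap ↥K0 Ω (algebraMap k ↥K0 r) := rfl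
      rw [this]
      exact Subalgebra.algebraMap_mem A _
    | add x y _ _ hx hy => exact add_mem hx hy
    | mul x y _ _ hx hy => exact mul_mem hx hy
  have hAW : Subalgebra.toSubmodule A = W := by
    apply le_antisymm
    · rw [hA, Algebra.adjoin_eq_span]
      apply Submodule.span_mono
      intro x hx
      have hcl : Submonoid.closure S ≤ (Algebra.adjoin k S).toSubmonoid :=
        Submonoid.closure_le.mpr (fun y hy => Algebra.subset_adjoin hy)
      exact hcl hx
    · rw [hW, Submodule.span_le]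
      intro x hx
      exact hkA x hx
  have hAfg : (Subalgebra.toSubmodule A).FG := by
    rw [hAW]
    exact Module.Finite.iff_fg.mp hWfin
  -- `E ⊆ A`
  have hEA : ∀ x, x ∈ IntermediateField.adjoin k S → x ∈ A := by
    intro x hx
    induction hx using IntermediateField.adjoin_induction with
    | mem x hx => exact Algebra.subset_adjoin hx
    | algebraMap r =>
      have : algebraMap k Ω r = algebraMap ↥K0 Ω (algebraMap k ↥K0 r) := rfl
      rw [this]
      exact Subalgebra.algebraMap_mem A _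
    | add x y _ _ hx hy => exact add_mem hx hy
    | inv x _ hx =>
      have hint : IsIntegral ↥K0 x := IsIntegral.of_mem_of_fg A hAfg x hx
      exact Subalgebra.inv_mem_of_algebraic (A := A) (x := ⟨x, hx⟩) hint.isAlgebraic
    | mul x y _ _ hx hy => exact mul_mem hx hy
  -- compare ranks
  rw [IntermediateField.relrank_eq_rank_of_le hle]
  refine le_trans ?_ hWrank
  let f : ↥(extendScalars hle) →ₗ[↥K0] ↥W :=
    LinearMap.codRestrict W ((extendScalars hle).val.toLinearMap)
      (fun x => by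
        rw [← hAW]
        exact hEA _ x.2)
  refine LinearMap.rank_le_of_injective f ?_
  intro a b hab
  have := congrArg Subtype.val hab
  exact Subtype.ext this

/-- **(HUB)**, unconditional: `[𝔽_ℓ(j̄(q^d) : d ∣ M) : 𝔽_ℓ(j̄)] ≤ ψ(M)`. -/
theorem hub [NeZero M] :
    ((ZMod ℓ)⟮jqModC (ZMod ℓ)⟯).relrank (modularFunctionFieldFullC (ZMod ℓ) M) ≤
      (dedekindPsi M : Cardinal) :=
  relrank_le_of_degLE ℓ M (dedekindPsi M) (degLE_full_dedekindPsi M)

/-- **(HUB)** in the shape of the hypothesis `hub` of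
`helper1595.relrank_full_eq_dedekindPsi` (with `k = ZMod ℓ`). -/
theorem hub_all (N : ℕ) (hN : 0 < N) : ∀ M, M ∣ N →
    ((ZMod ℓ)⟮jqModC (ZMod ℓ)⟯).relrank (modularFunctionFieldFullC (ZMod ℓ) M) ≤
      (dedekindPsi M : Cardinal) := by
  intro M hM
  have : NeZero M := ⟨fun h => hN.ne' (by rw [h] at hM; exact Nat.eq_zero_of_zero_dvd hM)⟩
  exact hub ℓ M

end Rank

end Fermat.Agent.S28.helper7658

end
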