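import Mathlib

/-!
# S28 (Igusa) -- an Eisenstein–Dumas criterion at `J = ∞` (helper787)

Let `k` be a field and `χ ∈ k[J][X]` monic of `X`-degree `n ≥ 1`.  Assume there is `b ≥ 1` with

* `deg_J (coeff_{X^i} χ) ≤ b * i` for all `i`,
* `χ(J, 0) ≠ 0` (hence a nonzero constant), and
* the coefficient of `J^(b (n-1)) X^(n-1)` in `χ` is nonzero.

Then `χ` is irreducible in `k[J][X]` (and over `k(J)`).

Consumer form: if moreover `J u` are elements of a field `A ⊇ k`, `J` transcendental over `k`
and `χ(J, u) = 0`, then `1, u, …, u^(n-1)` are linearly independent over `k[J]`.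

Proof: write `χ = f * g` with `f`, `g` monic.  The weight `W(J^a X^i) = a - b i` is additive on
products; `W(χ) = 0` and `W(f), W(g) ≥ 0` (nonzero constant terms), so all monomials of `f` and `g`
have weight `≤ 0`.  The weight-zero parts `top` multiply, `top χ` has degree `n - 1`, but the
leading monomial `X^r` of a monic polynomial of positive degree `r` has negative weight, so
`deg (top f) + deg (top g) ≤ n - 2` if both factors have positive degree.
-/

set_option autoImplicit false

namespace Fermat.Agent.S28.helper787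

open Polynomial

section Weight

variable {k : Type*} [Field k]

/-- All monomials `J^a X^i` of `p` satisfy `a ≤ b * i`. -/
def WeightLE (b : ℕ) (p : k[X][X]) : Prop := ∀ i, (p.coeff i).natDegree ≤ b * i

/-- The weight-zero part of `p`, as a polynomial in `Z = J^b X`. -/
noncomputable def top (b : ℕ) (p : k[X][X]) : k[X] :=
  ∑ i ∈ p.support, monomial i ((p.coeff i).coeff (b * i))

theorem top_coeff (b : ℕ) (p : k[X][X]) (i : ℕ) :
    (top b p).coeff i = (p.coeff i).coeff (b * i) := by
  classical
  unfold top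
  rw [finsetSum_coeff]
  simp only [coeff_monomial]
  rw [Finset.sum_ite_eq' p.support i]
  split_ifs with h
  · rfl
  · rw [notMem_support_iff.mp h, coeff_zero]

theorem top_mul (b : ℕ) {f g : k[X][X]} (hf : WeightLE b f) (hg : WeightLE b g) :
    top b (f * g) = top b f * top b g := by
  ext n
  rw [top_coeff, coeff_mul, coeff_mul, finsetSum_coeff]
  refine Finset.sum_congr rfl ?_
  rintro ⟨i, j⟩ hij
  have hn : i + j = n := Finset.HasAntidiagonal.mem_antidiagonal.mp hij
  rw [top_coeff, top_coeff, ← hn, mul_add]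
  exact coeff_mul_add_eq_of_natDegree_le (hf i) (hg j)

/-- Key additivity lemma: if a product has all weights `≤ 0` and both factors have a nonzero
constant term, then both factors have all weights `≤ 0`. -/
theorem weightLE_of_mul {b : ℕ} (hb : 0 < b) {f g : k[X][X]} (hf0 : f.coeff 0 ≠ 0)
    (hg0 : g.coeff 0 ≠ 0) (hfg : WeightLE b (f * g)) : WeightLE b f ∧ WeightLE b g := by
  classical
  -- excess functions
  set ef : ℕ → ℤ := fun i => ((f.coeff i).natDegree : ℤ) - (b : ℤ) * i with hef
  set eg : ℕ → ℤ := fun i => ((g.coeff i).natDegree : ℤ) - (b : ℤ) * i with heg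
  have key : ∀ (p : k[X][X]) (_ : p.coeff 0 ≠ 0),
      ∃ i₀, p.coeff i₀ ≠ 0 ∧
        (∀ i, ((p.coeff i).natDegree : ℤ) - (b : ℤ) * i ≤
          ((p.coeff i₀).natDegree : ℤ) - (b : ℤ) * i₀) ∧
        (∀ i, i₀ < i → ((p.coeff i).natDegree : ℤ) - (b : ℤ) * i <
          ((p.coeff i₀).natDegree : ℤ) - (b : ℤ) * i₀) ∧
        0 ≤ ((p.coeff i₀).natDegree : ℤ) - (b : ℤ) * i₀ := by
    intro p hp0
    set e : ℕ → ℤ := fun i => ((p.coeff i).natDegree : ℤ) - (b : ℤ) * i with he
    obtain ⟨i₀, hi₀mem, hi₀⟩ := Finset.exists_max_image (Finset.range (p.natDegree + 1))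
      (fun i => toLex (e i, i)) ⟨0, by simp⟩
    have h0 : 0 ≤ e i₀ := by
      have := hi₀ 0 (by simp)
      rw [Prod.Lex.toLex_le_toLex] at this
      have he0 : 0 ≤ e 0 := by simp [he]
      rcases this with h | ⟨h, _⟩
      · exact he0.trans h.le
      · exact he0.trans h.le
    have hbig : ∀ i, p.natDegree < i → e i < e i₀ := by
      intro i hi
      have hz : p.coeff i = 0 := coeff_eq_zero_of_natDegree_lt hi
      have : e i = -((b : ℤ) * i) := by simp [he, hz]
      have hi1 : (1 : ℤ) ≤ i := by exact_mod_cast (Nat.succ_le_of_lt (Nat.zero_lt_of_lt hi))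
      have hb1 : (1 : ℤ) ≤ b := by exact_mod_cast hb
      nlinarith
    refine ⟨i₀, ?_, ?_, ?_, h0⟩
    · intro hz
      have h1 : e i₀ = -((b : ℤ) * i₀) := by simp [he, hz]
      have hi0 : i₀ = 0 := by
        by_contra hne
        have hi1 : (1 : ℤ) ≤ i₀ := by exact_mod_cast Nat.one_le_iff_ne_zero.mpr hne
        have hb1 : (1 : ℤ) ≤ b := by exact_mod_cast hb
        nlinarith
      rw [hi0] at hz
      exact hp0 hz
    · intro i
      by_cases hi : i ∈ Finset.range (p.natDegree + 1)
      · have := hi₀ i hi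
        rw [Prod.Lex.toLex_le_toLex] at this
        rcases this with h | ⟨h, _⟩
        · exact h.le
        · exact h.le
      · exact (hbig i (by simpa [Finset.mem_range, Nat.lt_succ_iff] using hi)).le
    · intro i hlt
      by_cases hi : i ∈ Finset.range (p.natDegree + 1)
      · have := hi₀ i hi
        rw [Prod.Lex.toLex_le_toLex] at this
        rcases this with h | ⟨_, h⟩
        · exact h
        · exact absurd h (not_le.mpr hlt)
      · exact hbig i (by simpa [Finset.mem_range, Nat.lt_succ_iff] using hi)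
  obtain ⟨i₀, hi₀ne, hi₀max, hi₀strict, hi₀nonneg⟩ := key f hf0
  obtain ⟨j₀, hj₀ne, hj₀max, hj₀strict, hj₀nonneg⟩ := key g hg0
  -- the coefficient of `X^(i₀+j₀)` in `f * g` has `J`-degree at least `deg f_{i₀} + deg g_{j₀}`
  set D : ℕ := (f.coeff i₀).natDegree + (g.coeff j₀).natDegree with hD
  have hcoeff : ((f * g).coeff (i₀ + j₀)).coeff D ≠ 0 := by
    rw [coeff_mul, finsetSum_coeff]
    rw [Finset.sum_eq_single (i₀, j₀)]
    · rw [hD, coeff_mul_add_eq_of_natDegree_le le_rfl le_rfl]
      exact mul_ne_zero (by simpa using hi₀ne) (by simpa using hj₀ne)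
    · rintro ⟨i, j⟩ hij hne
      have hsum : i + j = i₀ + j₀ := Finset.HasAntidiagonal.mem_antidiagonal.mp hij
      apply coeff_eq_zero_of_natDegree_lt
      refine lt_of_le_of_lt natDegree_mul_le ?_
      have h1 := hi₀max i
      have h2 := hj₀max j
      have hsumZ : (i : ℤ) + j = i₀ + j₀ := by exact_mod_cast hsum
      rcases lt_trichotomy i i₀ with hlt | heq | hgt
      · have hj : j₀ < j := by omega
        have h3 := hj₀strict j hj
        have : ((f.coeff i).natDegree : ℤ) + (g.coeff j).natDegree <
            (f.coeff i₀).natDegree + (g.coeff j₀).natDegree := by nlinarith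
        exact_mod_cast this
      · exfalso
        apply hne
        have : j = j₀ := by omega
        rw [heq, this]
      · have h3 := hi₀strict i hgt
        have : ((f.coeff i).natDegree : ℤ) + (g.coeff j).natDegree <
            (f.coeff i₀).natDegree + (g.coeff j₀).natDegree := by nlinarith
        exact_mod_cast this
    · intro h
      exact absurd (Finset.HasAntidiagonal.mem_antidiagonal.mpr (rfl : (i₀, j₀).1 + (i₀, j₀).2 = i₀ + j₀)) h
  have hDle : D ≤ b * (i₀ + j₀) :=
    (le_natDegree_of_ne_zero hcoeff).trans (hfg (i₀ + j₀))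
  have hDleZ : ((f.coeff i₀).natDegree : ℤ) + (g.coeff j₀).natDegree ≤ (b : ℤ) * (i₀ + j₀) := by
    exact_mod_cast hDle
  have hf' : ((f.coeff i₀).natDegree : ℤ) - (b : ℤ) * i₀ = 0 := by nlinarith
  have hg' : ((g.coeff j₀).natDegree : ℤ) - (b : ℤ) * j₀ = 0 := by nlinarith
  constructor
  · intro i
    have := hi₀max i
    rw [hf'] at this
    have h' : ((f.coeff i).natDegree : ℤ) ≤ ((b * i : ℕ) : ℤ) := by push_cast; linarith
    exact_mod_cast h'
  · intro j
    have := hj₀max j
    rw [hg'] at this
    have h' : ((g.coeff j).natDegree : ℤ) ≤ ((b * j : ℕ) : ℤ) := by push_cast; linarith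
    exact_mod_cast h'

/-- The weight-zero part of a monic polynomial of positive degree `r` has degree `< r`. -/
theorem natDegree_top_lt {b : ℕ} (hb : 0 < b) {f : k[X][X]} (hf : f.Monic)
    (hr : 0 < f.natDegree) : (top b f).natDegree < f.natDegree := by
  have hle : (top b f).natDegree ≤ f.natDegree - 1 := by
    rw [natDegree_le_iff_coeff_eq_zero]
    intro N hN
    rw [top_coeff]
    rcases Nat.lt_or_ge f.natDegree N with h | h
    · rw [coeff_eq_zero_of_natDegree_lt h, coeff_zero]
    · have hN' : N = f.natDegree := by omega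
      rw [hN', hf.coeff_natDegree, coeff_one]
      have : b * f.natDegree ≠ 0 := Nat.mul_ne_zero hb.ne' hr.ne'
      rw [if_neg this]
  omega

/-- **Eisenstein–Dumas criterion at `J = ∞`.** -/
theorem irreducible_of_weight {b : ℕ} (hb : 0 < b) (χ : k[X][X]) (hχ : χ.Monic)
    (hn : 0 < χ.natDegree) (hw : ∀ i, (χ.coeff i).natDegree ≤ b * i) (h0 : χ.coeff 0 ≠ 0)
    (htop : (χ.coeff (χ.natDegree - 1)).coeff (b * (χ.natDegree - 1)) ≠ 0) : Irreducible χ := by
  rw [hχ.irreducible_iff_natDegree']
  refine ⟨fun h1 => by rw [h1, natDegree_one] at hn; exact lt_irrefl _ hn, ?_⟩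
  intro f g hf hg hfg hmem
  rw [Finset.mem_Ioc] at hmem
  have hdeg : f.natDegree + g.natDegree = χ.natDegree := by
    rw [← hfg, hf.natDegree_mul hg]
  have hgpos : 0 < g.natDegree := hmem.1
  have hfpos : 0 < f.natDegree := by
    have : g.natDegree ≤ χ.natDegree / 2 := hmem.2
    omega
  have h00 : f.coeff 0 * g.coeff 0 = χ.coeff 0 := by rw [← hfg, mul_coeff_zero]
  have hf0 : f.coeff 0 ≠ 0 := fun h => h0 (by rw [← h00, h, zero_mul])
  have hg0 : g.coeff 0 ≠ 0 := fun h => h0 (by rw [← h00, h, mul_zero])
  have hW : WeightLE b (f * g) := by rw [hfg]; exact hw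
  obtain ⟨hWf, hWg⟩ := weightLE_of_mul hb hf0 hg0 hW
  have htopmul : top b χ = top b f * top b g := by rw [← hfg]; exact top_mul b hWf hWg
  have htopne : top b χ ≠ 0 := by
    intro h
    apply htop
    rw [← top_coeff, h, coeff_zero]
  have hge : χ.natDegree - 1 ≤ (top b χ).natDegree := by
    apply le_natDegree_of_ne_zero
    rw [top_coeff]
    exact htop
  have hfne : top b f ≠ 0 := fun h => htopne (by rw [htopmul, h, zero_mul])
  have hgne : top b g ≠ 0 := fun h => htopne (by rw [htopmul, h, mul_zero])
  have hadd : (top b χ).natDegree = (top b f).natDegree + (top b g).natDegree := by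
    rw [htopmul, natDegree_mul hfne hgne]
  have h1 := natDegree_top_lt hb hf hfpos
  have h2 := natDegree_top_lt hb hg hgpos
  omega

/-- **Consumer form**: linear independence of the powers of a root over `k[J]`. -/
theorem linearIndependent_pow_of_weight {A : Type*} [Field A] [Algebra k A] (J u : A)
    (hJ : Function.Injective (Polynomial.aeval J : k[X] →ₐ[k] A))
    {b : ℕ} (hb : 0 < b) (χ : k[X][X]) (hχ : χ.Monic)
    (hn : 0 < χ.natDegree) (hw : ∀ i, (χ.coeff i).natDegree ≤ b * i) (h0 : χ.coeff 0 ≠ 0)
    (htop : (χ.coeff (χ.natDegree - 1)).coeff (b * (χ.natDegree - 1)) ≠ 0)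
    (hroot : (χ.map (Polynomial.aeval J : k[X] →ₐ[k] A).toRingHom).eval u = 0)
    (c : Fin χ.natDegree → k[X])
    (hc : ∑ i, Polynomial.aeval J (c i) * u ^ (i : ℕ) = 0) : c = 0 := by
  classical
  have hirr : Irreducible χ := irreducible_of_weight hb χ hχ hn hw h0 htop
  set φ : k[X] →+* A := (Polynomial.aeval J : k[X] →ₐ[k] A).toRingHom with hφ
  let K' := FractionRing k[X]
  let ψ : K' →+* A := IsFractionRing.lift hJ
  have hψ : ∀ p : k[X], ψ (algebraMap k[X] K' p) = φ p :=
    fun p => IsFractionRing.lift_algebraMap hJ p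
  have hψcomp : ψ.comp (algebraMap k[X] K') = φ := RingHom.ext hψ
  let _ : Algebra K' A := ψ.toAlgebra
  have halg : algebraMap K' A = ψ := rfl
  set χK : K'[X] := χ.map (algebraMap k[X] K') with hχK
  have hχKirr : Irreducible χK :=
    (hχ.irreducible_iff_irreducible_map_fraction_map (K := K')).mp hirr
  have hχKmonic : χK.Monic := hχ.map _
  have hχKroot : Polynomial.aeval u χK = 0 := by
    rw [Polynomial.aeval_def, hχK, Polynomial.eval₂_map, halg, hψcomp, ← Polynomial.eval_map]
    exact hroot
  have hmin : minpoly K' u = χK :=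
    (minpoly.eq_of_irreducible_of_monic hχKirr hχKroot hχKmonic).symm
  -- the relation as a polynomial
  set P : k[X][X] := ∑ i : Fin χ.natDegree, Polynomial.C (c i) * X ^ (i : ℕ) with hP
  have hPcoeff : ∀ i : Fin χ.natDegree, P.coeff i = c i := by
    intro i
    rw [hP, finsetSum_coeff]
    simp only [coeff_C_mul, coeff_X_pow]
    rw [Finset.sum_eq_single i]
    · simp
    · intro j _ hji
      rw [if_neg (fun h => hji (Fin.ext h.symm)), mul_zero]
    · intro h; exact absurd (Finset.mem_univ i) h
  have hPdeg : P.natDegree < χ.natDegree ∨ P = 0 := by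
    by_cases hP0 : P = 0
    · exact Or.inr hP0
    left
    rw [natDegree_lt_iff_degree_lt hP0]
    refine lt_of_le_of_lt (degree_sum_le _ _) ?_
    rw [Finset.sup_lt_iff (by exact WithBot.bot_lt_coe _)]
    intro i _
    refine lt_of_le_of_lt (degree_C_mul_X_pow_le _ _) ?_
    exact_mod_cast i.2
  set PK : K'[X] := P.map (algebraMap k[X] K') with hPK
  have hPKroot : Polynomial.aeval u PK = 0 := by
    rw [Polynomial.aeval_def, hPK, Polynomial.eval₂_map, halg, hψcomp, hP]
    rw [Polynomial.eval₂_finsetSum]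
    simp only [eval₂_mul, eval₂_C, eval₂_X_pow]
    exact hc
  have hPK0 : PK = 0 := by
    by_contra hne
    have h1 := minpoly.degree_le_of_ne_zero K' u hne hPKroot
    rw [hmin] at h1
    have h1' : χK.natDegree ≤ PK.natDegree := natDegree_le_natDegree h1
    have h2 : PK.natDegree ≤ P.natDegree := natDegree_map_le
    rcases hPdeg with h | h
    · have hχKdeg : χK.natDegree = χ.natDegree := hχ.natDegree_map _
      omega
    · apply hne; rw [hPK, h, Polynomial.map_zero]
  have hP0 : P = 0 := by
    have hinj : Function.Injective (Polynomial.map (algebraMap k[X] K')) :=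
      Polynomial.map_injective _ (IsFractionRing.injective k[X] K')
    apply hinj
    rw [Polynomial.map_zero]
    exact hPK0
  funext i
  rw [← hPcoeff i, hP0, coeff_zero]
  rfl

end Weight

end Fermat.Agent.S28.helper787
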