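import Fermat.Agent.S28.helper2608_Spec

/-!
# S28: the degree bound `Spec.DegLE` for a simple extension `ℚ(j, x)`

If `x ∈ ℚ((q))` is a root of a monic polynomial of `X`-degree `n` over `ℚ[j]`, then any `n + 1`
elements of the field `ℚ(j, x) ⊆ ℚ((q))` are linearly dependent over `ℤ[j]`:

* `degLE_adjoin_of_monic` : `Spec.DegLE (IntermediateField.adjoin ℚ {jq, x}) n`;
* `degLE_mono` : `DegLE` passes to subfields.
-/

set_option autoImplicit false

noncomputable section

namespace Fermat.Agent.S28.helper808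

open ModularCurve Polynomial IntermediateField
open Fermat.Agent.S28.Spec

theorem degLE_mono {L L' : IntermediateField ℚ (LaurentSeries ℚ)} {n : ℕ} (h : L' ≤ L)
    (hL : DegLE L n) : DegLE L' n :=
  fun x hx => hL x fun i => h (hx i)

/-- A finite family of rational polynomials has a common denominator. -/
theorem exists_common_den {ι : Type*} [Fintype ι] (p : ι → Polynomial ℚ) :
    ∃ D : ℕ, 0 < D ∧ ∀ i, ∃ c : Polynomial ℤ,
      c.map (Int.castRingHom ℚ) = Polynomial.C (((D : ℤ) : ℚ)) * p i := by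
  classical
  refine ⟨∏ i, ∏ k ∈ (p i).support, ((p i).coeff k).den,
    Finset.prod_pos fun _ _ => Finset.prod_pos fun _ _ => Rat.den_pos _, fun i => ?_⟩
  have hl : Polynomial.C ((((∏ i, ∏ k ∈ (p i).support, ((p i).coeff k).den : ℕ) : ℤ) : ℚ)) * p i ∈
      Polynomial.lifts (Int.castRingHom ℚ) := by
    rw [Polynomial.lifts_iff_coeff_lifts]
    intro k
    rw [Polynomial.coeff_C_mul]
    have hdvd : ((p i).coeff k).den ∣ ∏ i, ∏ k ∈ (p i).support, ((p i).coeff k).den := by
      by_cases hk : k ∈ (p i).support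
      · exact (Finset.dvd_prod_of_mem _ hk).trans
          (Finset.dvd_prod_of_mem (fun i => ∏ k ∈ (p i).support, ((p i).coeff k).den)
            (Finset.mem_univ i))
      · rw [Polynomial.notMem_support_iff.mp hk]
        simp
    obtain ⟨t, ht⟩ := hdvd
    refine ⟨(t : ℤ) * ((p i).coeff k).num, ?_⟩
    have := Rat.mul_den_eq_num ((p i).coeff k)
    rw [ht, eq_intCast]
    push_cast
    rw [← this]
    ring
  exact hl

/-- Evaluating an integer polynomial at `jq` (through the `ℤ`-algebra structure of `ℚ((q))`) is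
the same as evaluating its image in `ℚ[X]`. -/
theorem aeval_int_jq_eq (c : Polynomial ℤ) :
    Polynomial.aeval jq c = Polynomial.aeval jq (c.map (Int.castRingHom ℚ)) := by
  have h : (Polynomial.aeval (R := ℤ) jq).toRingHom =
      (Polynomial.aeval (R := ℚ) jq).toRingHom.comp
        (Polynomial.mapRingHom (Int.castRingHom ℚ)) := by
    apply Polynomial.ringHom_ext
    · intro a
      simp
    · simp
  have := congrArg (fun f => f c) h
  simpa using this

/-- Auxiliary form of the degree bound, for any model `K₀` of `ℚ(j)` inside `ℚ((q))`. -/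
theorem degLE_adjoin_of_monic_aux (K₀ : IntermediateField ℚ (LaurentSeries ℚ)) (hjK : jq ∈ K₀)
    (hK₀ : ∀ a : K₀, ∃ r s : Polynomial ℚ,
      (a : LaurentSeries ℚ) = Polynomial.aeval jq r / Polynomial.aeval jq s)
    (x : LaurentSeries ℚ) (n : ℕ) (χ : Polynomial (Polynomial ℚ))
    (hχ : χ.Monic) (hχn : χ.natDegree ≤ n)
    (hroot : χ.eval₂ (Polynomial.aeval jq).toRingHom x = 0) :
    DegLE (IntermediateField.adjoin ℚ {jq, x}) n := by
  classical
  -- evaluation `ℚ[Y] → ℚ(j)`
  let φ : Polynomial ℚ →+* K₀ :=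
    ((Polynomial.aeval (⟨jq, hjK⟩ : K₀) : Polynomial ℚ →ₐ[ℚ] K₀)).toRingHom
  have hcomp : (algebraMap K₀ (LaurentSeries ℚ)).comp φ = (Polynomial.aeval jq).toRingHom := by
    apply Polynomial.ringHom_ext
    · intro a
      simp [φ]
    · simp [φ]
  -- `x` is integral over `ℚ(j)` of degree `≤ n`
  have hχ' : (χ.map φ).Monic := hχ.map φ
  have hroot' : Polynomial.aeval x (χ.map φ) = 0 := by
    rw [Polynomial.aeval_def, Polynomial.eval₂_map, hcomp]
    exact hroot
  have hint : IsIntegral K₀ x := ⟨χ.map φ, hχ', hroot'⟩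
  have hdeg : (minpoly K₀ x).natDegree ≤ n := by
    refine le_trans (Polynomial.natDegree_le_natDegree (minpoly.min K₀ x hχ' hroot')) ?_
    rw [hχ.natDegree_map]
    exact hχn
  have hfd : FiniteDimensional K₀ K₀⟮x⟯ := IntermediateField.adjoin.finiteDimensional hint
  have hfin : Module.finrank K₀ K₀⟮x⟯ ≤ n := by
    rw [IntermediateField.adjoin.finrank hint]
    exact hdeg
  have hLM : ∀ y ∈ IntermediateField.adjoin ℚ {jq, x}, y ∈ K₀⟮x⟯ := by
    intro y hy
    induction hy using IntermediateField.adjoin_induction with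
    | mem z hz =>
      rcases hz with rfl | rfl
      · exact K₀⟮x⟯.algebraMap_mem ⟨_, hjK⟩
      · exact mem_adjoin_simple_self K₀ _
    | algebraMap r => exact K₀⟮x⟯.algebraMap_mem ⟨_, K₀.algebraMap_mem r⟩
    | add _ _ _ _ h1 h2 => exact add_mem h1 h2
    | inv _ _ h => exact inv_mem h
    | mul _ _ _ _ h1 h2 => exact mul_mem h1 h2
  -- now the linear algebra
  intro y hy
  let y' : Fin (n + 1) → K₀⟮x⟯ := fun i => ⟨y i, hLM _ (hy i)⟩
  have hdep : ¬ LinearIndependent K₀ y' := by
    intro hli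
    have := hli.fintype_card_le_finrank
    rw [Fintype.card_fin] at this
    omega
  obtain ⟨g, hg, i₀, hi₀⟩ := Fintype.not_linearIndependent_iff.mp hdep
  have hgE : ∑ i, ((g i : K₀) : LaurentSeries ℚ) * y i = 0 := by
    have := congrArg (fun z : K₀⟮x⟯ => (z : LaurentSeries ℚ)) hg
    simpa [y', Algebra.smul_def] using this
  -- write the coefficients as fractions of polynomials in `j`
  have hfrac : ∀ i, ∃ r s : Polynomial ℚ, Polynomial.aeval jq s ≠ 0 ∧
      ((g i : K₀) : LaurentSeries ℚ) * Polynomial.aeval jq s = Polynomial.aeval jq r := by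
    intro i
    obtain ⟨r, s, hrs⟩ := hK₀ (g i)
    by_cases hs : Polynomial.aeval jq s = 0
    · refine ⟨0, 1, by simp, ?_⟩
      rw [hrs, hs, div_zero]
      simp
    · exact ⟨r, s, hs, by rw [hrs, div_mul_cancel₀ _ hs]⟩
  choose r s hs hrs using hfrac
  -- common denominator in `ℚ[j]`
  let p : Fin (n + 1) → Polynomial ℚ := fun i => r i * ∏ k ∈ Finset.univ.erase i, s k
  have hS : Polynomial.aeval jq (∏ k, s k) ≠ 0 := by
    rw [map_prod]
    exact Finset.prod_ne_zero_iff.mpr fun k _ => hs k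
  have hp : ∀ i, ((g i : K₀) : LaurentSeries ℚ) * Polynomial.aeval jq (∏ k, s k) =
      Polynomial.aeval jq (p i) := by
    intro i
    rw [← Finset.mul_prod_erase Finset.univ s (Finset.mem_univ i), map_mul, ← mul_assoc, hrs i,
      ← map_mul]
  have hrel : ∑ i, Polynomial.aeval jq (p i) * y i = 0 := by
    have h1 : ∑ i, Polynomial.aeval jq (p i) * y i =
        Polynomial.aeval jq (∏ k, s k) * ∑ i, ((g i : K₀) : LaurentSeries ℚ) * y i := by
      rw [Finset.mul_sum]
      refine Finset.sum_congr rfl fun i _ => ?_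
      rw [← hp i]
      ring
    rw [h1, hgE, mul_zero]
  have hp₀ : p i₀ ≠ 0 := by
    intro h0
    have h2 := hp i₀
    rw [h0, map_zero] at h2
    rcases mul_eq_zero.mp h2 with h3 | h3
    · exact hi₀ (Subtype.ext h3)
    · exact hS h3
  -- clear the rational denominators
  obtain ⟨D, hD, hc⟩ := exists_common_den p
  choose c hc using hc
  have hDQ : (((D : ℤ) : ℚ)) ≠ 0 := by exact_mod_cast hD.ne'
  refine ⟨c, ?_, ?_⟩
  · intro h0
    have h4 := hc i₀
    rw [h0, Pi.zero_apply, Polynomial.map_zero] at h4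
    rcases mul_eq_zero.mp h4.symm with h5 | h5
    · exact hDQ (Polynomial.C_eq_zero.mp h5)
    · exact hp₀ h5
  · have h6 : ∀ i, Polynomial.aeval jq (c i) =
        algebraMap ℚ (LaurentSeries ℚ) ((D : ℤ) : ℚ) * Polynomial.aeval jq (p i) := by
      intro i
      rw [aeval_int_jq_eq, hc i, map_mul, Polynomial.aeval_C]
    have h7 : ∑ i, Polynomial.aeval jq (c i) * y i =
        algebraMap ℚ (LaurentSeries ℚ) ((D : ℤ) : ℚ) * ∑ i, Polynomial.aeval jq (p i) * y i := by
      rw [Finset.mul_sum]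
      refine Finset.sum_congr rfl fun i _ => ?_
      rw [h6 i]
      ring
    rw [h7, hrel, mul_zero]

/-- **Degree bound for a simple extension.**  If `x` is a root of a monic polynomial of degree
`≤ n` over `ℚ[j]`, then `[ℚ(j, x) : ℚ(j)] ≤ n` in the sense of `Spec.DegLE`. -/
theorem degLE_adjoin_of_monic (x : LaurentSeries ℚ) (n : ℕ) (χ : Polynomial (Polynomial ℚ))
    (hχ : χ.Monic) (hχn : χ.natDegree ≤ n)
    (hroot : χ.eval₂ (Polynomial.aeval jq).toRingHom x = 0) :
    DegLE (IntermediateField.adjoin ℚ {jq, x}) n :=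
  degLE_adjoin_of_monic_aux ℚ⟮jq⟯ (mem_adjoin_simple_self ℚ jq)
    (fun a => (IntermediateField.mem_adjoin_simple_iff ℚ _).mp a.2) x n χ hχ hχn hroot

end Fermat.Agent.S28.helper808

end
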