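import Fermat.Agent.S28.helper808_IntAdapter

/-!
# S28: integrality over `ℤ_(ℓ)[j]` is automatic from linear independence mod `ℓ`

Let `u ∈ ℤ((q))` be a root of a monic `χ ∈ ℚ[Y][X]` of `X`-degree `n` (evaluated at `Y = j`), and
assume `1, u, …, u^(n-1)` are linearly independent mod `ℓ` over `𝔽_ℓ[j̄]`.  Then the coefficients
of `χ` have denominators prime to `ℓ` (Gauss lemma), so some integer `m` prime to `ℓ` makes `m * u`
integral over `ℤ[j]`.  Consequently the modular side of route E does not have to prove any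
integrality statement: a monic equation over `ℚ[j]` of the right degree is enough.

* `exists_clearing_of_linIndep` : the Gauss-lemma step;
* `exists_mul_isIntegralOverZj_of_linIndep` : the multiplier;
* `stmt_CoreInput_of_monic_rat_of_linIndep` : the combined adapter to `Spec.Stmt_CoreInput`.
-/

set_option autoImplicit false

noncomputable section

namespace Fermat.Agent.S28.helper808

open ModularCurve Polynomial
open Fermat.Agent.S28.Spec

/-- **Gauss lemma step.**  If `χ ∈ ℚ[Y][X]` is monic of degree `n`, `χ(j, u) = 0`, and the powers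
`u^i`, `i < n`, are linearly independent mod `ℓ`, then some positive integer `m` prime to `ℓ`
clears the denominators of all coefficients of `χ`. -/
theorem exists_clearing_of_linIndep {ℓ : ℕ} [hℓ : Fact ℓ.Prime] (n : ℕ) (u : LaurentSeries ℤ)
    (χ : Polynomial (Polynomial ℚ)) (hχ : χ.Monic) (hχn : χ.natDegree = n)
    (hroot : χ.eval₂ (Polynomial.aeval jq).toRingHom (toQ u) = 0)
    (hLI : LinIndepModL ℓ (fun i : Fin n => u ^ (i : ℕ))) :
    ∃ m : ℕ, 0 < m ∧ ¬ ℓ ∣ m ∧ ∀ i, ∃ c : Polynomial ℤ,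
      c.map (Int.castRingHom ℚ) = Polynomial.C (((m : ℤ) : ℚ)) * χ.coeff i := by
  classical
  have hS : ∃ m : ℕ, 0 < m ∧ ∀ i, ∃ c : Polynomial ℤ,
      c.map (Int.castRingHom ℚ) = Polynomial.C (((m : ℤ) : ℚ)) * χ.coeff i :=
    ⟨denProd χ, denProd_pos χ, fun i => denProd_clears χ _ dvd_rfl i⟩
  obtain ⟨hm0, hc⟩ := Nat.find_spec hS
  set m₀ := Nat.find hS with hm₀
  refine ⟨m₀, hm0, ?_, hc⟩
  intro hdvd
  obtain ⟨t, ht⟩ := hdvd
  choose c hc using hc
  have hinjQ : Function.Injective (Polynomial.map (Int.castRingHom ℚ)) :=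
    Polynomial.map_injective _ Int.cast_injective
  -- the relation over `ℤ`
  have hrelZ : ∑ i ∈ Finset.range (n + 1),
      Polynomial.aeval (jqModC ℤ) (c i) * u ^ i = 0 := by
    apply toQ_injective
    rw [map_zero, map_sum]
    have h1 : ∀ i ∈ Finset.range (n + 1), toQ (Polynomial.aeval (jqModC ℤ) (c i) * u ^ i) =
        ((m₀ : ℤ) : LaurentSeries ℚ) *
          ((Polynomial.aeval jq).toRingHom (χ.coeff i) * toQ u ^ i) := by
      intro i _
      rw [map_mul, map_pow]
      have h2 : toQ (Polynomial.aeval (jqModC ℤ) (c i)) =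
          Polynomial.aeval (jqModC ℚ) ((c i).map (Int.castRingHom ℚ)) :=
        coeffMap_aeval_jqModC (Int.castRingHom ℚ) (c i)
      rw [h2, hc i, jqModC_rat, map_mul, Polynomial.aeval_C, map_intCast]
      simp only [AlgHom.toRingHom_eq_coe, RingHom.coe_coe]
      ring
    rw [Finset.sum_congr rfl h1, ← Finset.mul_sum,
      ← Polynomial.eval₂_eq_sum_range' (Polynomial.aeval jq).toRingHom
        (show χ.natDegree < n + 1 by omega) (toQ u), hroot, mul_zero]
  -- the top coefficient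
  have hcn : c n = Polynomial.C (m₀ : ℤ) := by
    apply hinjQ
    rw [hc n, ← hχn, hχ.coeff_natDegree, mul_one, Polynomial.map_C]
    simp
  have hcn' : (c n).map (Int.castRingHom (ZMod ℓ)) = 0 := by
    have : ((m₀ : ℤ) : ZMod ℓ) = 0 := by
      rw [ZMod.intCast_zmod_eq_zero_iff_dvd, Int.natCast_dvd_natCast]
      exact ⟨t, ht⟩
    rw [hcn, Polynomial.map_C, eq_intCast, this, Polynomial.C_0]
  -- reduce the relation mod `ℓ`
  have hrelL : ∑ i : Fin n, Polynomial.aeval (jqModC (ZMod ℓ))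
      ((c i).map (Int.castRingHom (ZMod ℓ))) * toFl ℓ (u ^ (i : ℕ)) = 0 := by
    have h3 := congrArg (toFl ℓ) hrelZ
    rw [map_zero, map_sum, Finset.sum_range_succ] at h3
    have h4 : ∀ i : ℕ, toFl ℓ (Polynomial.aeval (jqModC ℤ) (c i) * u ^ i) =
        Polynomial.aeval (jqModC (ZMod ℓ)) ((c i).map (Int.castRingHom (ZMod ℓ))) *
          toFl ℓ (u ^ i) := by
      intro i
      rw [map_mul]
      congr 1
      exact coeffMap_aeval_jqModC (Int.castRingHom (ZMod ℓ)) (c i)
    rw [h4 n, hcn', map_zero, zero_mul, add_zero] at h3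
    rw [Fin.sum_univ_eq_sum_range (fun i => Polynomial.aeval (jqModC (ZMod ℓ))
      ((c i).map (Int.castRingHom (ZMod ℓ))) * toFl ℓ (u ^ i)) n]
    rw [← h3]
    exact Finset.sum_congr rfl fun i _ => (h4 i).symm
  have hzero := hLI (fun i : Fin n => (c i).map (Int.castRingHom (ZMod ℓ))) hrelL
  -- all coefficients vanish mod `ℓ`
  have hall : ∀ i, (c i).map (Int.castRingHom (ZMod ℓ)) = 0 := by
    intro i
    rcases lt_trichotomy i n with hi | hi | hi
    · exact congrFun hzero ⟨i, hi⟩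
    · rw [hi]; exact hcn'
    · have : c i = 0 := by
        apply hinjQ
        rw [hc i, Polynomial.coeff_eq_zero_of_natDegree_lt (by omega), mul_zero,
          Polynomial.map_zero]
      rw [this, Polynomial.map_zero]
  have hdiv : ∀ i, Polynomial.C (ℓ : ℤ) ∣ c i := by
    intro i
    rw [Polynomial.C_dvd_iff_dvd_coeff]
    intro k
    have := congrArg (fun p => p.coeff k) (hall i)
    simp only [Polynomial.coeff_map, Polynomial.coeff_zero, eq_intCast] at this
    exact (ZMod.intCast_zmod_eq_zero_iff_dvd _ _).mp this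
  -- so `t = m₀ / ℓ` also clears denominators, contradicting minimality
  have hℓ2 : 2 ≤ ℓ := hℓ.out.two_le
  have ht0 : 0 < t := by
    rcases Nat.eq_zero_or_pos t with h | h
    · rw [h, mul_zero] at ht; omega
    · exact h
  have htlt : t < m₀ := by
    rw [ht]; nlinarith
  refine Nat.find_min hS htlt ⟨ht0, fun i => ?_⟩
  obtain ⟨d, hd⟩ := hdiv i
  refine ⟨d, ?_⟩
  have hℓQ : (Polynomial.C ((ℓ : ℤ) : ℚ) : Polynomial ℚ) ≠ 0 := by
    rw [Ne, Polynomial.C_eq_zero]
    exact_mod_cast hℓ.out.ne_zero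
  apply mul_left_cancel₀ hℓQ
  have h5 := hc i
  rw [hd, Polynomial.map_mul, Polynomial.map_C] at h5
  rw [eq_intCast] at h5
  rw [h5, ht]
  push_cast
  rw [Polynomial.C_mul]
  ring

/-- A multiplier prime to `ℓ` exists as soon as `u` is killed by a monic polynomial over `ℚ[j]`
of degree `n` and `1, u, …, u^(n-1)` are linearly independent mod `ℓ`. -/
theorem exists_mul_isIntegralOverZj_of_linIndep {ℓ : ℕ} [hℓ : Fact ℓ.Prime] (n : ℕ)
    (u : LaurentSeries ℤ) (χ : Polynomial (Polynomial ℚ)) (hχ : χ.Monic) (hχn : χ.natDegree = n)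
    (hroot : χ.eval₂ (Polynomial.aeval jq).toRingHom (toQ u) = 0)
    (hLI : LinIndepModL ℓ (fun i : Fin n => u ^ (i : ℕ))) :
    ∃ m : ℤ, ¬ (ℓ : ℤ) ∣ m ∧ IsIntegralOverZj ((m : LaurentSeries ℤ) * u) := by
  obtain ⟨m, -, hm, hclear⟩ := exists_clearing_of_linIndep n u χ hχ hχn hroot hLI
  refine ⟨(m : ℤ), ?_, isIntegralOverZj_mul_of_monic_rat u χ hχ hroot _ hclear⟩
  rw [Int.natCast_dvd_natCast]
  exact hm

/-- **Adapter without any integrality hypothesis.**  A field `L ⊇ F` containing `u ∈ ℤ((q))` with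
`[L : ℚ(j)] ≤ n`, a monic equation of degree `n` for `u` over `ℚ[j]`, and linear independence
mod `ℓ` of `1, u, …, u^(n-1)` give `Stmt_CoreInput N ℓ`. -/
theorem stmt_CoreInput_of_monic_rat_of_linIndep {N ℓ : ℕ} [Fact ℓ.Prime] (n : ℕ)
    (L : IntermediateField ℚ (LaurentSeries ℚ)) (u : LaurentSeries ℤ)
    (χ : Polynomial (Polynomial ℚ)) (hχ : χ.Monic) (hχn : χ.natDegree = n)
    (hroot : χ.eval₂ (Polynomial.aeval jq).toRingHom (toQ u) = 0)
    (hFL : modularFunctionFieldFull N ≤ L) (hu : toQ u ∈ L)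
    (hdeg : DegLE L n)
    (hLI : LinIndepModL ℓ (fun i : Fin n => u ^ (i : ℕ))) : Stmt_CoreInput N ℓ := by
  obtain ⟨m, hm, hint⟩ := exists_mul_isIntegralOverZj_of_linIndep n u χ hχ hχn hroot hLI
  exact stmt_CoreInput_of_powers n L u m hm hFL hu hint hdeg hLI

end Fermat.Agent.S28.helper808

end
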