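import Fermat.Agent.S28.helper868_Spec
import Fermat.Agent.S28.helper808_IntFromLI
import Fermat.Agent.S28.helper808_DegSimple

/-!
# S28: from the `H3/H4/H5` interface of `helper868_Spec` to `Spec.Stmt_CoreInput`

`helper868_Spec` asks the modular side (route E) for a series `u ∈ ℤ((q))` and `D` with

* `Stmt_H3 ℓ u D` : `1, u, …, u^(D-1)` linearly independent mod `ℓ` over `𝔽_ℓ[j̄]`,
* `Stmt_H4 N u`   : `F ≤ ℚ(j, u)`,
* `Stmt_H5 u D`   : `u` is a root of a monic polynomial of degree `D` over `ℚ[j]`.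

These three imply `Spec.Stmt_CoreInput N ℓ` of `helper2608_Spec` (with `L = ℚ(j, u)`, `n = D` and
the basis `(m u)^i` for a suitable integer `m` prime to `ℓ`), so either algebra core can be used.
-/

set_option autoImplicit false

noncomputable section

namespace Fermat.Agent.S28.helper808

open ModularCurve Polynomial
open Fermat.Agent.S28

theorem linIndepModL_of_H3 {ℓ : ℕ} {u : LaurentSeries ℤ} {D : ℕ} (h : helper868.Stmt_H3 ℓ u D) :
    Spec.LinIndepModL ℓ (fun i : Fin D => u ^ (i : ℕ)) := by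
  intro c hc
  refine h c ?_
  rw [← hc]
  refine Finset.sum_congr rfl fun i _ => ?_
  rw [map_pow]

/-- `helper868`'s `H3 + H4 + H5` imply `helper2608`'s `Stmt_CoreInput`. -/
theorem stmt_CoreInput_of_H3_H4_H5 {N ℓ : ℕ} [Fact ℓ.Prime] (u : LaurentSeries ℤ) (D : ℕ)
    (h3 : helper868.Stmt_H3 ℓ u D) (h4 : helper868.Stmt_H4 N u) (h5 : helper868.Stmt_H5 u D) :
    Spec.Stmt_CoreInput N ℓ := by
  obtain ⟨χ, hχ, hχD, hroot⟩ := h5
  exact stmt_CoreInput_of_monic_rat_of_linIndep D (IntermediateField.adjoin ℚ {jq, Spec.toQ u}) u χ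
    hχ hχD hroot h4
    (IntermediateField.subset_adjoin ℚ _ (Set.mem_insert_of_mem _ rfl))
    (degLE_adjoin_of_monic (Spec.toQ u) D χ hχ hχD.le hroot)
    (linIndepModL_of_H3 h3)

end Fermat.Agent.S28.helper808

end
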