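/-
S28 (Igusa), route P, prime level: `V_p j̄ ∉ κ(j̄)` directly from the level-one Hecke statement
`helper328.Stmt_Hecke p` (trace-only argument; no modular polynomial, no unit polynomial, no
root formula).  Author: helper8635.
-/
import Mathlib
import Fermat.Agent.S28.helper328_PrimeSpec

set_option autoImplicit false

namespace Fermat.Agent.S28.helper8635

open Polynomial ModularCurve
open Fermat.Agent.S28.helper328

noncomputable section

/-! ## Part A: the operator `U_p` on Laurent series and the projection formula -/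

section Uop

variable {R : Type*} [CommRing R]

theorem bddBelow_support_mul (p : ℕ) [NeZero p] (f : LaurentSeries R) :
    BddBelow (Function.support fun n : ℤ => f.coeff ((p : ℤ) * n)) := by
  have hp : (0 : ℤ) < p := by exact_mod_cast Nat.pos_of_ne_zero (NeZero.ne p)
  refine ⟨min f.order 0, fun m hm => ?_⟩
  by_contra hlt
  rw [not_le] at hlt
  have hm0 : m < 0 := lt_of_lt_of_le hlt (min_le_right _ _)
  have hmo : m < f.order := lt_of_lt_of_le hlt (min_le_left _ _)
  have : (p : ℤ) * m ≤ m := by nlinarith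
  exact hm (HahnSeries.coeff_eq_zero_of_lt_order (lt_of_le_of_lt this hmo))

/-- `U_p`: the coefficient of `q^n` in `U_p f` is the coefficient of `q^(p n)` in `f`. -/
def Uop (p : ℕ) [NeZero p] (f : LaurentSeries R) : LaurentSeries R :=
  HahnSeries.ofSuppBddBelow (fun n : ℤ => f.coeff ((p : ℤ) * n)) (bddBelow_support_mul p f)

@[simp]
theorem Uop_coeff (p : ℕ) [NeZero p] (f : LaurentSeries R) (n : ℤ) :
    (Uop p f).coeff n = f.coeff ((p : ℤ) * n) := by
  rw [Uop, HahnSeries.coeff_ofSuppBddBelow]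

theorem Uop_add (p : ℕ) [NeZero p] (f g : LaurentSeries R) :
    Uop p (f + g) = Uop p f + Uop p g := by
  ext n; simp

theorem Uop_zero (p : ℕ) [NeZero p] : Uop p (0 : LaurentSeries R) = 0 := by
  ext n; simp

theorem Uop_sum (p : ℕ) [NeZero p] {ι : Type*} (s : Finset ι) (f : ι → LaurentSeries R) :
    Uop p (∑ i ∈ s, f i) = ∑ i ∈ s, Uop p (f i) := by
  classical
  induction s using Finset.induction_on with
  | empty => simp [Uop_zero]
  | insert a s ha ih => rw [Finset.sum_insert ha, Finset.sum_insert ha, Uop_add, ih]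

theorem Uop_qExpand (p : ℕ) [NeZero p] (f : LaurentSeries R) : Uop p (qExpand R p f) = f := by
  ext n; simp

/-- a product of a series supported on `pℤ` with a series supported off `pℤ` is supported off
`pℤ`. -/
theorem coeff_mul_eq_zero_of_support (p : ℕ) [NeZero p] (x y : LaurentSeries R)
    (hx : ∀ k : ℤ, ¬ (p : ℤ) ∣ k → x.coeff k = 0) (hy : ∀ k : ℤ, (p : ℤ) ∣ k → y.coeff k = 0)
    (n : ℤ) (hn : (p : ℤ) ∣ n) : (x * y).coeff n = 0 := by
  rw [HahnSeries.coeff_mul]
  refine Finset.sum_eq_zero fun ij hij => ?_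
  have hsum : ij.1 + ij.2 = n := (Finset.mem_antidiagonal.mp hij).2.2
  by_cases h1 : (p : ℤ) ∣ ij.1
  · have h2 : (p : ℤ) ∣ ij.2 := by
      have : ij.2 = n - ij.1 := by omega
      rw [this]; exact dvd_sub hn h1
    rw [hy _ h2, mul_zero]
  · rw [hx _ h1, zero_mul]

/-- **Projection formula**: `U_p (V_p a * y) = a * U_p y`. -/
theorem Uop_qExpand_mul (p : ℕ) [NeZero p] (a y : LaurentSeries R) :
    Uop p (qExpand R p a * y) = a * Uop p y := by
  have hp : (p : ℤ) ≠ 0 := by exact_mod_cast NeZero.ne p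
  set y₁ : LaurentSeries R := y - qExpand R p (Uop p y) with hy₁
  have hy : y = qExpand R p (Uop p y) + y₁ := by rw [hy₁]; ring
  have hy₁0 : ∀ k : ℤ, (p : ℤ) ∣ k → y₁.coeff k = 0 := by
    rintro k ⟨m, rfl⟩
    rw [hy₁, HahnSeries.coeff_sub, qExpand_coeff_mul, Uop_coeff, sub_self]
  have hVa : ∀ k : ℤ, ¬ (p : ℤ) ∣ k → (qExpand R p a).coeff k = 0 :=
    fun k hk => qExpand_coeff_of_not_dvd p a hk
  have h0 : Uop p (qExpand R p a * y₁) = 0 := by
    ext n
    rw [Uop_coeff, HahnSeries.coeff_zero]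
    exact coeff_mul_eq_zero_of_support p _ _ hVa hy₁0 _ (dvd_mul_right _ _)
  conv_lhs => rw [hy]
  rw [mul_add, Uop_add, h0, add_zero, ← map_mul, Uop_qExpand]

theorem coeffMap_Uop {S : Type*} [CommRing S] (φ : R →+* S) (p : ℕ) [NeZero p]
    (f : LaurentSeries R) : coeffMap φ (Uop p f) = Uop p (coeffMap φ f) := by
  ext n; simp

end Uop

/-! ## Part B: from `Stmt_Hecke` to a trace identity in Laurent series over any ring -/

section Bridge

variable {R S : Type*} [CommRing R] [CommRing S]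

theorem algebraMap_eq_C (r : R) : algebraMap R (LaurentSeries R) r = HahnSeries.C r := by
  have h1 : algebraMap R (PowerSeries R) r = PowerSeries.C r := by
    simp
  rw [HahnSeries.algebraMap_apply', h1, HahnSeries.ofPowerSeries_C]

theorem coeff_C_mul (r : R) (x : LaurentSeries R) (n : ℤ) :
    (HahnSeries.C r * x).coeff n = r * x.coeff n := by
  rw [HahnSeries.C_mul_eq_smul, HahnSeries.coeff_smul, smul_eq_mul]

theorem coeffMap_C (φ : R →+* S) (r : R) :
    coeffMap φ (HahnSeries.C r : LaurentSeries R) = HahnSeries.C (φ r) := by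
  rw [HahnSeries.C_apply, HahnSeries.C_apply, coeffMap_single]

theorem coeffMap_injective {φ : R →+* S} (hφ : Function.Injective φ) :
    Function.Injective (coeffMap φ) := by
  intro f g h
  ext k
  apply hφ
  rw [← coeffMap_coeff, ← coeffMap_coeff, h]

theorem coeffMap_deltaHat (φ : R →+* S) : coeffMap φ (deltaHat R) = deltaHat S := by
  rw [helper328.deltaHat, helper328.deltaHat, map_mul, coeffMap_single, map_one,
    coeffMap_ofPowerSeries, ← RingHom.comp_apply (PowerSeries.map φ), ← PowerSeries.map_comp,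
    RingHom.ext_int (φ.comp (Int.castRingHom R)) (Int.castRingHom S)]

theorem coeffMap_deltaHatInv (φ : R →+* S) : coeffMap φ (deltaHatInv R) = deltaHatInv S := by
  rw [helper328.deltaHatInv, helper328.deltaHatInv, map_mul, coeffMap_single, map_one,
    coeffMap_ofPowerSeries, ← RingHom.comp_apply (PowerSeries.map φ), ← PowerSeries.map_comp,
    RingHom.ext_int (φ.comp (Int.castRingHom R)) (Int.castRingHom S)]

theorem single_one_mul_single_neg_one :
    (HahnSeries.single (1 : ℤ) (1 : R) : LaurentSeries R) * HahnSeries.single (-1 : ℤ) 1 = 1 := by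
  rw [HahnSeries.single_mul_single]
  simp

variable (R) in
theorem deltaHatInv_mul_deltaHat : deltaHatInv R * deltaHat R = 1 := by
  rw [helper328.deltaHat, helper328.deltaHatInv]
  have h : HahnSeries.ofPowerSeries ℤ R (dedekindEtaUnit.map (Int.castRingHom R)) *
      HahnSeries.ofPowerSeries ℤ R (dedekindEtaUnitInv.map (Int.castRingHom R)) = 1 := by
    rw [← map_mul, ← map_mul, dedekindEtaUnit_mul_inv, map_one, map_one]
  calc HahnSeries.single (-1 : ℤ) (1 : R) *
        HahnSeries.ofPowerSeries ℤ R (dedekindEtaUnitInv.map (Int.castRingHom R)) *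
        (HahnSeries.single (1 : ℤ) 1 *
          HahnSeries.ofPowerSeries ℤ R (dedekindEtaUnit.map (Int.castRingHom R)))
      = (HahnSeries.single (1 : ℤ) (1 : R) * HahnSeries.single (-1 : ℤ) 1) *
        (HahnSeries.ofPowerSeries ℤ R (dedekindEtaUnit.map (Int.castRingHom R)) *
          HahnSeries.ofPowerSeries ℤ R (dedekindEtaUnitInv.map (Int.castRingHom R))) := by ring
    _ = 1 := by rw [h, mul_one, single_one_mul_single_neg_one]

variable (R) in
/-- `j * Δ = E₄³` as formal series. -/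
theorem jq_mul_deltaHat :
    jqModC R * deltaHat R =
      HahnSeries.ofPowerSeries ℤ R ((eisenstein4 ^ 3).map (Int.castRingHom R)) := by
  rw [jqModC, helper328.deltaHat]
  have h : HahnSeries.ofPowerSeries ℤ R (jNum.map (Int.castRingHom R)) *
      HahnSeries.ofPowerSeries ℤ R (dedekindEtaUnit.map (Int.castRingHom R)) =
      HahnSeries.ofPowerSeries ℤ R ((eisenstein4 ^ 3).map (Int.castRingHom R)) := by
    rw [← map_mul, ← map_mul]
    congr 2
    rw [jNum, mul_assoc, mul_comm dedekindEtaUnitInv, dedekindEtaUnit_mul_inv, mul_one]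
  calc HahnSeries.single (-1 : ℤ) (1 : R) *
        HahnSeries.ofPowerSeries ℤ R (jNum.map (Int.castRingHom R)) *
        (HahnSeries.single (1 : ℤ) 1 *
          HahnSeries.ofPowerSeries ℤ R (dedekindEtaUnit.map (Int.castRingHom R)))
      = (HahnSeries.single (1 : ℤ) (1 : R) * HahnSeries.single (-1 : ℤ) 1) *
        (HahnSeries.ofPowerSeries ℤ R (jNum.map (Int.castRingHom R)) *
          HahnSeries.ofPowerSeries ℤ R (dedekindEtaUnit.map (Int.castRingHom R))) := by ring
    _ = _ := by rw [h, single_one_mul_single_neg_one, one_mul]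

variable (R) in
theorem deltaHat_eq_ofPowerSeries :
    deltaHat R =
      HahnSeries.ofPowerSeries ℤ R ((PowerSeries.X * dedekindEtaUnit).map (Int.castRingHom R)) := by
  rw [helper328.deltaHat, map_mul, map_mul, PowerSeries.map_X, HahnSeries.ofPowerSeries_X]

theorem ofPowerSeries_E4C_cube :
    HahnSeries.ofPowerSeries ℤ ℂ (E4C ^ 3) = jqModC ℂ * deltaHat ℂ := by
  rw [jq_mul_deltaHat, E4C]
  congr 1
  rw [map_pow]

theorem ofPowerSeries_DeltaC : HahnSeries.ofPowerSeries ℤ ℂ DeltaC = deltaHat ℂ := by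
  rw [deltaHat_eq_ofPowerSeries, DeltaC]

/-- the formal Hecke operator on power series, transported to Laurent series. -/
theorem ofPowerSeries_heckeTps (k p : ℕ) [NeZero p] (f : PowerSeries ℂ) :
    HahnSeries.ofPowerSeries ℤ ℂ (heckeTps k p f) =
      Uop p (HahnSeries.ofPowerSeries ℤ ℂ f) +
        HahnSeries.C ((p : ℂ) ^ (k - 1)) * qExpand ℂ p (HahnSeries.ofPowerSeries ℤ ℂ f) := by
  ext n
  rw [HahnSeries.coeff_add, Uop_coeff, coeff_C_mul]
  rcases lt_or_ge n 0 with hn | hn
  · have hp : (0 : ℤ) < p := by exact_mod_cast Nat.pos_of_ne_zero (NeZero.ne p)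
    rw [ofPowerSeries_coeff_of_neg _ hn, ofPowerSeries_coeff_of_neg _ (by nlinarith)]
    by_cases hd : (p : ℤ) ∣ n
    · obtain ⟨m, rfl⟩ := hd
      rw [qExpand_coeff_mul, ofPowerSeries_coeff_of_neg _ (by nlinarith)]
      simp
    · rw [qExpand_coeff_of_not_dvd p _ hd]
      simp
  · lift n to ℕ using hn
    rw [HahnSeries.ofPowerSeries_apply_coeff, heckeTps, PowerSeries.coeff_mk,
      show ((p : ℤ) * (n : ℤ)) = ((n * p : ℕ) : ℤ) by push_cast; ring,
      HahnSeries.ofPowerSeries_apply_coeff]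
    congr 1
    by_cases hd : p ∣ n
    · rw [if_pos hd]
      obtain ⟨m, rfl⟩ := hd
      rw [show ((p * m : ℕ) : ℤ) = (p : ℤ) * (m : ℤ) by push_cast; ring, qExpand_coeff_mul,
        HahnSeries.ofPowerSeries_apply_coeff,
        Nat.mul_div_cancel_left m (Nat.pos_of_ne_zero (NeZero.ne p))]
    · rw [if_neg hd, qExpand_coeff_of_not_dvd p _ (by exact_mod_cast hd), mul_zero]

end Bridge

/-! ### triangularity of polynomials in `j` -/

section Tri

variable (A : Type*) [CommRing A]

theorem coeff_algebraMap_mul (a : A) (x : LaurentSeries A) (n : ℤ) :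
    (algebraMap A (LaurentSeries A) a * x).coeff n = a * x.coeff n := by
  rw [algebraMap_eq_C, coeff_C_mul]

/-- the coefficient of `P(j)` at `-deg P` is the leading coefficient of `P`. -/
theorem coeff_aeval_jq_neg_natDegree (P : A[X]) :
    (aeval (jqModC A) P).coeff (-(P.natDegree : ℤ)) = P.leadingCoeff := by
  rw [aeval_eq_sum_range, HahnSeries.coeff_sum]
  rw [Finset.sum_eq_single P.natDegree]
  · rw [Algebra.smul_def, coeff_algebraMap_mul, coeff_jqModC_pow_self, mul_one]; rfl
  · intro i hi hne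
    have hlt : i < P.natDegree := lt_of_le_of_ne (Nat.lt_succ_iff.mp (Finset.mem_range.mp hi)) hne
    have hlt' : (-(P.natDegree : ℤ)) < -(i : ℤ) := by omega
    rw [Algebra.smul_def, coeff_algebraMap_mul, coeff_jqModC_pow_of_lt A hlt', mul_zero]
  · intro h
    exact absurd (Finset.mem_range.mpr (Nat.lt_succ_self _)) h

theorem coeffMap_aeval_jq {B : Type*} [CommRing B] (f : A →+* B) (P : A[X]) :
    coeffMap f (aeval (jqModC A) P) = aeval (jqModC B) (P.map f) := by
  induction P using Polynomial.induction_on with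
  | C a =>
    rw [aeval_C, Polynomial.map_C, aeval_C, algebraMap_eq_C, algebraMap_eq_C, coeffMap_C]
  | add p q hp hq => rw [map_add, map_add, hp, hq, Polynomial.map_add, map_add]
  | monomial n a ih =>
    rw [map_mul, map_mul, Polynomial.map_mul, map_mul, aeval_C, Polynomial.map_C,
      aeval_C, Polynomial.map_pow, Polynomial.map_X, map_pow, map_pow, map_pow,
      aeval_X, aeval_X, coeffMap_jqModC, algebraMap_eq_C, algebraMap_eq_C, coeffMap_C]

theorem tri_aux : ∀ (n : ℕ) (P : A[X]), P.natDegree ≤ n →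
    aeval (jqModC A) P ∈ (coeffMap (Int.castRingHom A)).range →
    ∃ P' : ℤ[X], P'.map (Int.castRingHom A) = P := by
  intro n
  induction n with
  | zero =>
    intro P hP h
    have hPC : P = C (P.coeff 0) := eq_C_of_natDegree_le_zero hP
    obtain ⟨g, hg⟩ := h
    have h0 : (aeval (jqModC A) P).coeff 0 = P.coeff 0 := by
      rw [hPC, aeval_C, algebraMap_eq_C, HahnSeries.C_apply, HahnSeries.coeff_single_same]
      simp
    refine ⟨C (g.coeff 0), ?_⟩
    rw [Polynomial.map_C, hPC]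
    congr 1
    rw [← h0, ← hg, coeffMap_coeff]
  | succ n ih =>
    intro P hP h
    by_cases hle : P.natDegree ≤ n
    · exact ih P hle h
    · obtain ⟨g, hg⟩ := h
      have hl : ((g.coeff (-(P.natDegree : ℤ)) : ℤ) : A) = P.leadingCoeff := by
        rw [← coeff_aeval_jq_neg_natDegree, ← hg, coeffMap_coeff]
        simp
      set z : ℤ := g.coeff (-(P.natDegree : ℤ)) with hz
      have hsplit := eraseLead_add_C_mul_X_pow P
      have hmem1 : aeval (jqModC A) P.eraseLead ∈ (coeffMap (Int.castRingHom A)).range := by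
        refine ⟨g - HahnSeries.C z * jqModC ℤ ^ P.natDegree, ?_⟩
        rw [map_sub, hg, map_mul, map_pow, coeffMap_jqModC, coeffMap_C]
        have : aeval (jqModC A) P.eraseLead =
            aeval (jqModC A) P - aeval (jqModC A) (C P.leadingCoeff * X ^ P.natDegree) := by
          rw [← map_sub]
          congr 1
          exact eq_sub_of_add_eq hsplit
        rw [this, map_mul, aeval_C, map_pow, aeval_X, algebraMap_eq_C, ← hl]
        simp
      have hdeg1 : P.eraseLead.natDegree ≤ n := by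
        have := eraseLead_natDegree_le P
        omega
      obtain ⟨P₁, hP₁⟩ := ih _ hdeg1 hmem1
      refine ⟨P₁ + C z * X ^ P.natDegree, ?_⟩
      rw [Polynomial.map_add, hP₁, Polynomial.map_mul, Polynomial.map_C, Polynomial.map_pow,
        Polynomial.map_X]
      have : (Int.castRingHom A) z = P.leadingCoeff := by simpa using hl
      rw [this]
      exact hsplit

/-- TRIANGULARITY: a polynomial in `j` whose `q`-expansion has integer coefficients has integer
coefficients. -/
theorem tri (P : A[X]) (h : aeval (jqModC A) P ∈ (coeffMap (Int.castRingHom A)).range) :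
    ∃ P' : ℤ[X], P'.map (Int.castRingHom A) = P :=
  tri_aux A P.natDegree P le_rfl h

end Tri

/-! ### the Hecke identity in Laurent series -/

section HeckeIdentity

/-- the level-one series `j^m Δ^M` (a power series when `m ≤ M`). -/
def Fser (R : Type*) [CommRing R] (m M : ℕ) : LaurentSeries R := jqModC R ^ m * deltaHat R ^ M

theorem coeffMap_Fser {R S : Type*} [CommRing R] [CommRing S] (φ : R →+* S) (m M : ℕ) :
    coeffMap φ (Fser R m M) = Fser S m M := by
  rw [Fser, Fser, map_mul, map_pow, map_pow, coeffMap_jqModC, coeffMap_deltaHat]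

/-- the left hand side of the Hecke identity: `p^(12M) V_p f + p U_p f` for `f = j^m Δ^M`. -/
def HeckeLHS (R : Type*) [CommRing R] (p : ℕ) [NeZero p] (m M : ℕ) : LaurentSeries R :=
  HahnSeries.C ((p : R) ^ (12 * M)) * qExpand R p (Fser R m M) +
    HahnSeries.C (p : R) * Uop p (Fser R m M)

theorem coeffMap_HeckeLHS {R S : Type*} [CommRing R] [CommRing S] (φ : R →+* S) (p : ℕ)
    [NeZero p] (m M : ℕ) : coeffMap φ (HeckeLHS R p m M) = HeckeLHS S p m M := by
  rw [HeckeLHS, HeckeLHS, map_add, map_mul, map_mul, coeffMap_C, coeffMap_C, coeffMap_qExpand,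
    coeffMap_Uop, coeffMap_Fser, map_pow, map_natCast]

theorem ofPowerSeries_form (m M : ℕ) (hm : m ≤ M) :
    HahnSeries.ofPowerSeries ℤ ℂ (E4C ^ (3 * m) * DeltaC ^ (M - m)) = Fser ℂ m M := by
  rw [map_mul, map_pow, map_pow, pow_mul, ← map_pow, ofPowerSeries_E4C_cube, ofPowerSeries_DeltaC,
    Fser, mul_pow, mul_assoc, ← pow_add, Nat.add_sub_cancel' hm]

theorem hecke_complex (p : ℕ) [NeZero p] (h : Stmt_Hecke p) (m M : ℕ) (hm : m ≤ M) (hM : 1 ≤ M) :
    ∃ P : ℂ[X], HeckeLHS ℂ p m M = deltaHat ℂ ^ M * aeval (jqModC ℂ) P := by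
  obtain ⟨c, hc⟩ := h m M hm hM
  have h1 := congrArg (HahnSeries.ofPowerSeries ℤ ℂ) hc
  rw [ofPowerSeries_heckeTps, ofPowerSeries_form m M hm, map_sum] at h1
  refine ⟨∑ b ∈ Finset.range (M + 1), C ((p : ℂ) * c b) * X ^ (M - b), ?_⟩
  have hpow : (p : ℂ) * (p : ℂ) ^ (12 * M - 1) = (p : ℂ) ^ (12 * M) := by
    rw [← pow_succ']
    congr 1
    omega
  have h2 : HeckeLHS ℂ p m M = HahnSeries.C (p : ℂ) *
      (Uop p (Fser ℂ m M) + HahnSeries.C ((p : ℂ) ^ (12 * M - 1)) * qExpand ℂ p (Fser ℂ m M)) := by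
    rw [HeckeLHS, mul_add, ← mul_assoc, ← map_mul, hpow, add_comm]
  rw [h2, h1, map_sum, Finset.mul_sum, Finset.mul_sum]
  refine Finset.sum_congr rfl fun b hb => ?_
  have hb' : b ≤ M := Nat.lt_succ_iff.mp (Finset.mem_range.mp hb)
  have key : HahnSeries.ofPowerSeries ℤ ℂ (E4C ^ (3 * (M - b)) * DeltaC ^ b) =
      Fser ℂ (M - b) M := by
    have := ofPowerSeries_form (M - b) M (Nat.sub_le M b)
    rwa [Nat.sub_sub_self hb'] at this
  rw [PowerSeries.smul_eq_C_mul, map_mul, HahnSeries.ofPowerSeries_C, key]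
  rw [map_mul, aeval_C, map_pow, aeval_X, algebraMap_eq_C, map_mul, Fser]
  ring

theorem hecke_int (p : ℕ) [NeZero p] (h : Stmt_Hecke p) (m M : ℕ) (hm : m ≤ M) (hM : 1 ≤ M) :
    ∃ P : ℤ[X], HeckeLHS ℤ p m M = deltaHat ℤ ^ M * aeval (jqModC ℤ) P := by
  obtain ⟨P, hP⟩ := hecke_complex p h m M hm hM
  have hmem : aeval (jqModC ℂ) P ∈ (coeffMap (Int.castRingHom ℂ)).range := by
    refine ⟨deltaHatInv ℤ ^ M * HeckeLHS ℤ p m M, ?_⟩
    rw [map_mul, map_pow, coeffMap_deltaHatInv, coeffMap_HeckeLHS, hP, ← mul_assoc, ← mul_pow,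
      deltaHatInv_mul_deltaHat, one_pow, one_mul]
  obtain ⟨P', hP'⟩ := tri ℂ P hmem
  refine ⟨P', ?_⟩
  apply coeffMap_injective (φ := Int.castRingHom ℂ) Int.cast_injective
  rw [coeffMap_HeckeLHS, map_mul, map_pow, coeffMap_deltaHat, coeffMap_aeval_jq, hP', hP]

/-- **The Hecke trace identity over any commutative ring** (consequence of `Stmt_Hecke p`):
`p^(12M) V_p(j^m Δ^M) + p U_p(j^m Δ^M) = Δ^M * P(j)` for some polynomial `P`. -/
theorem hecke_ring (p : ℕ) [NeZero p] (h : Stmt_Hecke p) (R : Type*) [CommRing R] (m M : ℕ)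
    (hm : m ≤ M) (hM : 1 ≤ M) :
    ∃ P : R[X], HeckeLHS R p m M = deltaHat R ^ M * aeval (jqModC R) P := by
  obtain ⟨P, hP⟩ := hecke_int p h m M hm hM
  refine ⟨P.map (Int.castRingHom R), ?_⟩
  rw [← coeffMap_HeckeLHS (Int.castRingHom R), hP, map_mul, map_pow, coeffMap_deltaHat,
    coeffMap_aeval_jq]

end HeckeIdentity

/-! ## Part C: valuations -/

section Val

variable (k : Type*) [Field k]

/-- the `q`-adic valuation on `k((q))`. -/
abbrev vq : AddValuation (LaurentSeries k) (WithTop ℤ) := HahnSeries.addVal ℤ k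

variable {k}

theorem vq_eq_of_lead {f : LaurentSeries k} {n : ℤ} (h0 : ∀ m < n, f.coeff m = 0)
    (hn : f.coeff n ≠ 0) : vq k f = (n : WithTop ℤ) := by
  have hf : f ≠ 0 := fun h => hn (by rw [h, HahnSeries.coeff_zero])
  rw [vq, HahnSeries.addVal_apply_of_ne hf]
  congr 1
  apply le_antisymm (HahnSeries.order_le_of_coeff_ne_zero hn)
  by_contra hlt
  rw [not_le] at hlt
  exact hf (HahnSeries.coeff_order_eq_zero.mp (h0 _ hlt))

theorem vq_C {c : k} (hc : c ≠ 0) : vq k (HahnSeries.C c) = 0 := by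
  have : vq k (HahnSeries.C c) = ((0 : ℤ) : WithTop ℤ) := by
    apply vq_eq_of_lead
    · intro m hm
      rw [HahnSeries.C_apply, HahnSeries.coeff_single_of_ne (by omega)]
    · rw [HahnSeries.C_apply, HahnSeries.coeff_single_same]; exact hc
  simpa using this

theorem vq_algebraMap (c : k) (hc : c ≠ 0) : vq k (algebraMap k (LaurentSeries k) c) = 0 := by
  rw [algebraMap_eq_C]; exact vq_C hc

theorem vq_qExpand (p : ℕ) [NeZero p] {f : LaurentSeries k} {n : ℤ}
    (h0 : ∀ m < n, f.coeff m = 0) (hn : f.coeff n ≠ 0) :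
    vq k (qExpand k p f) = (((p : ℤ) * n : ℤ) : WithTop ℤ) := by
  have hp : (0 : ℤ) < p := by exact_mod_cast Nat.pos_of_ne_zero (NeZero.ne p)
  apply vq_eq_of_lead
  · intro m hm
    by_cases hd : (p : ℤ) ∣ m
    · obtain ⟨m', rfl⟩ := hd
      rw [qExpand_coeff_mul]
      exact h0 _ (lt_of_mul_lt_mul_left hm hp.le)
    · exact qExpand_coeff_of_not_dvd p f hd
  · rw [qExpand_coeff_mul]; exact hn

theorem jq_lead : (∀ m < (-1 : ℤ), (jqModC k).coeff m = 0) ∧ (jqModC k).coeff (-1) ≠ 0 :=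
  ⟨fun _ hm => coeff_jqModC_of_lt k hm, by rw [coeff_jqModC_neg_one]; exact one_ne_zero⟩

theorem deltaHat_lead : (∀ m < (1 : ℤ), (deltaHat k).coeff m = 0) ∧ (deltaHat k).coeff 1 ≠ 0 := by
  constructor
  · intro m hm
    rw [helper328.deltaHat, HahnSeries.coeff_single_mul, one_mul]
    exact ofPowerSeries_coeff_of_neg _ (by omega)
  · rw [helper328.deltaHat, HahnSeries.coeff_single_mul, one_mul, sub_self,
      show (0 : ℤ) = ((0 : ℕ) : ℤ) from rfl, HahnSeries.ofPowerSeries_apply_coeff,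
      PowerSeries.coeff_map, PowerSeries.coeff_zero_eq_constantCoeff,
      constantCoeff_dedekindEtaUnit]
    simp

theorem vq_jq : vq k (jqModC k) = ((-1 : ℤ) : WithTop ℤ) := vq_eq_of_lead jq_lead.1 jq_lead.2

theorem vq_deltaHat : vq k (deltaHat k) = ((1 : ℤ) : WithTop ℤ) :=
  vq_eq_of_lead deltaHat_lead.1 deltaHat_lead.2

theorem vq_V_jq (p : ℕ) [NeZero p] :
    vq k (qExpand k p (jqModC k)) = ((-(p : ℤ) : ℤ) : WithTop ℤ) := by
  rw [vq_qExpand p jq_lead.1 jq_lead.2]; congr 1; ring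

theorem vq_V_deltaHat (p : ℕ) [NeZero p] :
    vq k (qExpand k p (deltaHat k)) = (((p : ℤ) : ℤ) : WithTop ℤ) := by
  rw [vq_qExpand p deltaHat_lead.1 deltaHat_lead.2]; congr 1; ring

/-- If `v J = m < 0`, then a nonzero polynomial `P` in `J` has valuation `deg P * m`. -/
theorem vq_aeval (J : LaurentSeries k) (m : ℤ) (hm : m < 0)
    (hJ : vq k J = (m : WithTop ℤ)) (P : k[X]) (hP : P ≠ 0) :
    vq k (aeval J P) = (((P.natDegree : ℤ) * m : ℤ) : WithTop ℤ) := by
  classical
  have hterm : ∀ i : ℕ, P.coeff i ≠ 0 →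
      vq k (algebraMap k (LaurentSeries k) (P.coeff i) * J ^ i) =
        (((i : ℤ) * m : ℤ) : WithTop ℤ) := by
    intro i hi
    rw [AddValuation.map_mul, vq_algebraMap _ hi, AddValuation.map_pow, hJ, zero_add]
    rw [← WithTop.coe_nsmul]
    simp
  rw [aeval_eq_sum_range]
  simp only [Algebra.smul_def]
  rw [Finset.sum_range_succ, add_comm]
  have hlead : P.coeff P.natDegree ≠ 0 := by
    simpa using hP
  have hrest : (((P.natDegree : ℤ) * m : ℤ) : WithTop ℤ) <
      vq k (∑ i ∈ Finset.range P.natDegree,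
        algebraMap k (LaurentSeries k) (P.coeff i) * J ^ i) := by
    refine AddValuation.map_lt_sum _ WithTop.coe_ne_top ?_
    intro i hi
    rw [Finset.mem_range] at hi
    by_cases hi0 : P.coeff i = 0
    · rw [hi0, map_zero, zero_mul, AddValuation.map_zero]
      exact WithTop.coe_lt_top _
    · rw [hterm i hi0, WithTop.coe_lt_coe]
      have : (i : ℤ) < P.natDegree := by exact_mod_cast hi
      nlinarith
  rw [AddValuation.map_add_eq_of_lt_left, hterm _ hlead]
  rw [hterm _ hlead]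
  exact hrest

theorem vq_ne_top_iff {x : LaurentSeries k} : vq k x ≠ ⊤ ↔ x ≠ 0 :=
  AddValuation.ne_top_iff _

end Val

/-! ## Part D: the main argument -/

section Main

/-- the Hecke trace identities over `k` (consequence of `Stmt_Hecke p`, see `hecke_ring`). -/
def HeckeTrace (k : Type*) [Field k] (p : ℕ) [NeZero p] : Prop :=
  ∀ m M : ℕ, m ≤ M → 1 ≤ M →
    ∃ P : k[X], HeckeLHS k p m M = deltaHat k ^ M * aeval (jqModC k) P

theorem heckeTrace_of_hecke (p : ℕ) [NeZero p] (h : Stmt_Hecke p) (k : Type*) [Field k] :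
    HeckeTrace k p :=
  fun m M hm hM => hecke_ring p h k m M hm hM

variable {k : Type*} [Field k]

theorem aeval_eq_sum_C (x : LaurentSeries k) (P : k[X]) {n : ℕ} (hn : P.natDegree < n) :
    aeval x P = ∑ i ∈ Finset.range n, HahnSeries.C (P.coeff i) * x ^ i := by
  rw [aeval_eq_sum_range' hn]
  refine Finset.sum_congr rfl fun i _ => ?_
  rw [Algebra.smul_def, algebraMap_eq_C]

/-- **Prime-level Igusa, fraction form**: if the Hecke trace identities hold over a field `k` in
which `p ≠ 0`, then `V_p j̄` is not a rational function of `j̄`. -/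
theorem nonrat_frac_of_trace (p : ℕ) [NeZero p] (hp2 : 2 ≤ p) (hpk : (p : k) ≠ 0)
    (H : HeckeTrace k p) :
    ¬ ∃ A B : k[X], B ≠ 0 ∧
      aeval (jqModC k) B * qExpand k p (jqModC k) = aeval (jqModC k) A := by
  rintro ⟨A, B, hB, hAB⟩
  set J := jqModC k with hJdef
  set R := qExpand k p J with hRdef
  have hp0 : (0 : ℤ) < p := by exact_mod_cast Nat.pos_of_ne_zero (NeZero.ne p)
  have hp2' : (2 : ℤ) ≤ p := by exact_mod_cast hp2
  have hvJ : vq k J = ((-1 : ℤ) : WithTop ℤ) := vq_jq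
  have hvR : vq k R = ((-(p : ℤ) : ℤ) : WithTop ℤ) := vq_V_jq p
  have hR0 : R ≠ 0 := vq_ne_top_iff.mp (by rw [hvR]; exact WithTop.coe_ne_top)
  have hBJ : vq k (aeval J B) = (((B.natDegree : ℤ) * (-1) : ℤ) : WithTop ℤ) :=
    vq_aeval J (-1) (by norm_num) hvJ B hB
  have hBJ0 : aeval J B ≠ 0 := vq_ne_top_iff.mp (by rw [hBJ]; exact WithTop.coe_ne_top)
  have hA : A ≠ 0 := by
    rintro rfl
    rw [map_zero] at hAB
    exact mul_ne_zero hBJ0 hR0 hAB
  have hAJ : vq k (aeval J A) = (((A.natDegree : ℤ) * (-1) : ℤ) : WithTop ℤ) :=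
    vq_aeval J (-1) (by norm_num) hvJ A hA
  have hdeg : (A.natDegree : ℤ) = B.natDegree + p := by
    have h1 := congrArg (vq k) hAB
    rw [AddValuation.map_mul, hBJ, hvR, hAJ, ← WithTop.coe_add, WithTop.coe_eq_coe] at h1
    linarith
  have hAR : vq k (aeval R A) = (((A.natDegree : ℤ) * (-(p : ℤ)) : ℤ) : WithTop ℤ) :=
    vq_aeval R (-(p : ℤ)) (by linarith) hvR A hA
  have hBR : vq k (aeval R B) = (((B.natDegree : ℤ) * (-(p : ℤ)) : ℤ) : WithTop ℤ) :=
    vq_aeval R (-(p : ℤ)) (by linarith) hvR B hB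
  set c := aeval R A - J * aeval R B with hcdef
  have hc : c ≠ 0 := by
    intro h0
    have h1 : aeval R A = J * aeval R B := sub_eq_zero.mp h0
    have h2 := congrArg (vq k) h1
    rw [AddValuation.map_mul, hAR, hvJ, hBR, ← WithTop.coe_add, WithTop.coe_eq_coe, hdeg] at h2
    nlinarith
  obtain ⟨nc, hnc⟩ : ∃ nc : ℤ, vq k c = (nc : WithTop ℤ) :=
    ⟨_, (WithTop.coe_untop _ (vq_ne_top_iff.mpr hc)).symm⟩
  set d := A.natDegree with hd
  set M := max (max d 1) (Int.toNat (-nc) + 1) with hM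
  have hMd : d ≤ M := le_trans (le_max_left _ _) (le_max_left _ _)
  have hM1 : 1 ≤ M := le_trans (le_max_right _ _) (le_max_left _ _)
  have hMn : -nc < (M : ℤ) := by
    have h1 : Int.toNat (-nc) + 1 ≤ M := le_max_right _ _
    have h2 : -nc ≤ (Int.toNat (-nc) : ℤ) := Int.self_le_toNat _
    have h3 : ((Int.toNat (-nc) + 1 : ℕ) : ℤ) ≤ M := by exact_mod_cast h1
    push_cast at h3
    linarith
  have hτ : ∀ i : ℕ, ∃ P : k[X], i ≤ M → HeckeLHS k p i M = deltaHat k ^ M * aeval J P := by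
    intro i
    by_cases hi : i ≤ M
    · obtain ⟨P, hP⟩ := H i M hi hM1
      exact ⟨P, fun _ => hP⟩
    · exact ⟨0, fun h => absurd h hi⟩
  choose τ hτ' using hτ
  let Q : ℕ → LaurentSeries k := fun i => HahnSeries.C (A.coeff i) - J * HahnSeries.C (B.coeff i)
  have hdA : A.natDegree < d + 1 := Nat.lt_succ_self _
  have hdB : B.natDegree < d + 1 := by
    have : (B.natDegree : ℤ) < (d : ℤ) + 1 := by rw [hd, hdeg]; linarith
    exact_mod_cast this
  have hQR : ∑ i ∈ Finset.range (d + 1), Q i * R ^ i = c := by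
    rw [hcdef, aeval_eq_sum_C R A hdA, aeval_eq_sum_C R B hdB, Finset.mul_sum,
      ← Finset.sum_sub_distrib]
    refine Finset.sum_congr rfl fun i _ => ?_
    simp only [Q]; ring
  have hVQ : ∀ i, qExpand k p (Q i) =
      HahnSeries.C (A.coeff i) - R * HahnSeries.C (B.coeff i) := by
    intro i
    simp only [Q]
    rw [map_sub, map_mul, qExpand_C, qExpand_C]
  have hVQJ : ∑ i ∈ Finset.range (d + 1), qExpand k p (Q i) * J ^ i = 0 := by
    have h1 : ∑ i ∈ Finset.range (d + 1), qExpand k p (Q i) * J ^ i =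
        aeval J A - R * aeval J B := by
      rw [aeval_eq_sum_C J A hdA, aeval_eq_sum_C J B hdB, Finset.mul_sum,
        ← Finset.sum_sub_distrib]
      refine Finset.sum_congr rfl fun i _ => ?_
      rw [hVQ]; ring
    rw [h1, ← hAB]; ring
  set T : k[X] := ∑ i ∈ Finset.range (d + 1), (C (A.coeff i) - X * C (B.coeff i)) * τ i with hT
  have key : HahnSeries.C ((p : k) ^ (12 * M)) * qExpand k p (deltaHat k) ^ M * c =
      deltaHat k ^ M * aeval J T := by
    have h1 : ∑ i ∈ Finset.range (d + 1), Q i * HeckeLHS k p i M =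
        ∑ i ∈ Finset.range (d + 1), Q i * (deltaHat k ^ M * aeval J (τ i)) := by
      refine Finset.sum_congr rfl fun i hi => ?_
      rw [hτ' i (le_trans (Nat.lt_succ_iff.mp (Finset.mem_range.mp hi)) hMd)]
    have hU : ∑ i ∈ Finset.range (d + 1), Q i * Uop p (Fser k i M) = 0 := by
      have h3 : ∀ i, Q i * Uop p (Fser k i M) =
          Uop p (qExpand k p (Q i) * J ^ i * deltaHat k ^ M) := by
        intro i
        rw [← Uop_qExpand_mul, Fser, mul_assoc]
      simp only [h3]
      rw [← Uop_sum, ← Finset.sum_mul, hVQJ, zero_mul, Uop_zero]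
    have h2 : ∑ i ∈ Finset.range (d + 1), Q i * HeckeLHS k p i M =
        HahnSeries.C ((p : k) ^ (12 * M)) * qExpand k p (deltaHat k) ^ M * c := by
      calc ∑ i ∈ Finset.range (d + 1), Q i * HeckeLHS k p i M
          = HahnSeries.C ((p : k) ^ (12 * M)) * qExpand k p (deltaHat k) ^ M *
              ∑ i ∈ Finset.range (d + 1), Q i * R ^ i +
            HahnSeries.C (p : k) * ∑ i ∈ Finset.range (d + 1), Q i * Uop p (Fser k i M) := by
            rw [Finset.mul_sum, Finset.mul_sum, ← Finset.sum_add_distrib]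
            refine Finset.sum_congr rfl fun i _ => ?_
            rw [HeckeLHS, Fser, map_mul (qExpand k p), map_pow (qExpand k p),
              map_pow (qExpand k p), hRdef, hJdef]
            ring
        _ = _ := by rw [hQR, hU, mul_zero, add_zero]
    rw [← h2, h1, hT, map_sum, Finset.mul_sum]
    refine Finset.sum_congr rfl fun i _ => ?_
    rw [map_mul, map_sub, map_mul, aeval_C, aeval_C, aeval_X, algebraMap_eq_C, algebraMap_eq_C]
    simp only [Q]; ring
  have hvL : vq k (HahnSeries.C ((p : k) ^ (12 * M)) * qExpand k p (deltaHat k) ^ M * c) =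
      (((M : ℤ) * p + nc : ℤ) : WithTop ℤ) := by
    rw [AddValuation.map_mul, AddValuation.map_mul, vq_C (pow_ne_zero _ hpk),
      AddValuation.map_pow, vq_V_deltaHat, hnc, zero_add, ← WithTop.coe_nsmul,
      ← WithTop.coe_add]
    simp
  by_cases hT0 : T = 0
  · rw [key, hT0, map_zero, mul_zero, AddValuation.map_zero] at hvL
    exact WithTop.coe_ne_top hvL.symm
  · have hvRHS : vq k (deltaHat k ^ M * aeval J T) =
        (((M : ℤ) + (T.natDegree : ℤ) * (-1) : ℤ) : WithTop ℤ) := by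
      rw [AddValuation.map_mul, AddValuation.map_pow, vq_deltaHat,
        vq_aeval J (-1) (by norm_num) hvJ T hT0, ← WithTop.coe_nsmul, ← WithTop.coe_add]
      simp
    rw [key, hvRHS, WithTop.coe_eq_coe] at hvL
    have hT' : (0 : ℤ) ≤ T.natDegree := Int.natCast_nonneg _
    have hM' : (0 : ℤ) ≤ M := Int.natCast_nonneg _
    nlinarith

/-- **Prime-level Igusa**: `V_p j̄ ∉ k(j̄)`. -/
theorem nonrat_of_trace (p : ℕ) [NeZero p] (hp2 : 2 ≤ p) (hpk : (p : k) ≠ 0)
    (H : HeckeTrace k p) :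
    qExpand k p (jqModC k) ∉ IntermediateField.adjoin k {jqModC k} := by
  intro hmem
  rw [IntermediateField.mem_adjoin_simple_iff] at hmem
  obtain ⟨r, s, hrs⟩ := hmem
  have hR0 : qExpand k p (jqModC k) ≠ 0 :=
    vq_ne_top_iff.mp (by rw [vq_V_jq p]; exact WithTop.coe_ne_top)
  have hs : aeval (jqModC k) s ≠ 0 := by
    intro h0
    rw [h0, div_zero] at hrs
    exact hR0 hrs
  have hs' : s ≠ 0 := by
    rintro rfl
    exact hs (map_zero _)
  refine nonrat_frac_of_trace p hp2 hpk H ⟨r, s, hs', ?_⟩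
  rw [hrs, mul_div_cancel₀ _ hs]

end Main

/-! ## Final statements -/

/-- **F3 from `Stmt_Hecke`, fraction form.** -/
theorem nonrat_frac_of_hecke (p l : ℕ) [hp : Fact p.Prime] [Fact l.Prime] (hpl : p ≠ l)
    (h : Stmt_Hecke p) :
    haveI : NeZero p := ⟨hp.out.ne_zero⟩
    ¬ ∃ A B : (ZMod l)[X], B ≠ 0 ∧
      aeval (jqModC (ZMod l)) B * qExpand (ZMod l) p (jqModC (ZMod l)) =
        aeval (jqModC (ZMod l)) A := by
  have : NeZero p := ⟨hp.out.ne_zero⟩
  have hpk : ((p : ℕ) : ZMod l) ≠ 0 := by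
    intro h0
    rw [ZMod.natCast_eq_zero_iff] at h0
    exact hpl ((Nat.prime_dvd_prime_iff_eq (Fact.out : l.Prime) hp.out).mp h0).symm
  exact nonrat_frac_of_trace p hp.out.two_le hpk (heckeTrace_of_hecke p h (ZMod l))

/-- **F3 from `Stmt_Hecke`**: for primes `p ≠ l`, `V_p j̄ ∉ 𝔽_l(j̄)`. -/
theorem nonrat_of_hecke (p l : ℕ) [hp : Fact p.Prime] [Fact l.Prime] (hpl : p ≠ l)
    (h : Stmt_Hecke p) :
    haveI : NeZero p := ⟨hp.out.ne_zero⟩
    qExpand (ZMod l) p (jqModC (ZMod l)) ∉
      IntermediateField.adjoin (ZMod l) {jqModC (ZMod l)} := by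
  have : NeZero p := ⟨hp.out.ne_zero⟩
  have hpk : ((p : ℕ) : ZMod l) ≠ 0 := by
    intro h0
    rw [ZMod.natCast_eq_zero_iff] at h0
    exact hpl ((Nat.prime_dvd_prime_iff_eq (Fact.out : l.Prime) hp.out).mp h0).symm
  exact nonrat_of_trace p hp.out.two_le hpk (heckeTrace_of_hecke p h (ZMod l))

end

end Fermat.Agent.S28.helper8635
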