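import Fermat.Agent.S28.helper695_LightSpec
import Fermat.Agent.S28.helper1422_Dict
import Fermat.Agent.S28.helper407_DeltaHermite
import Fermat.Agent.S28.helper388_EtaExp
import Fermat.Agent.Lib.helper843_JPolynomial

/-!
# S28, route E in its ONE-CUSP ("light") form: the leaves of the analytic half

Target of the analytic half: `Stmt_LightAn N := ∃ u D, helper695.Stmt_ModDataLight N u D`.
This file only contains `Prop`-valued leaf statements (hypothesis-passing), stated with objects
that are already on main: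

* `etaU N`  : the eta quotient `u_N = ∏_{δ ∣ N} Δ(δ τ)^(r δ)` (helper407 `etaQuot`, helper388 `etaExp`);
* `jInv`    : `E₄³/Δ` (Lib helper843);
* the period-one dictionary `IsMero 1 M f`, `Lexp 1 f` of helper1422.
-/

set_option autoImplicit false

noncomputable section

namespace Fermat.Agent.S28.helper868

open UpperHalfPlane ModularForm MatrixGroups CongruenceSubgroup ModularCurve Filter Topology
open Fermat.Agent.Lib.helper843 (jInv)
open Fermat.Agent.S28.helper1422 (IsMero Lexp)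

/-- The eta quotient `u_N` as a function on the upper half plane. -/
def etaU (N : ℕ) : ℍ → ℂ := helper407.etaQuot N (helper388.etaExp N)

/-- `τ ↦ j(d τ)`. -/
def jMul (d : ℕ) : ℍ → ℂ := fun τ => jInv (helper407.pt d 0 1 τ)

/-- **Leaf LA-EXP-U**: the eta quotient has a period-one expansion at `i∞` with INTEGER
coefficients. -/
def Stmt_LightExpU (N : ℕ) : Prop :=
  ∃ u : LaurentSeries ℤ, (∃ M, IsMero 1 M (etaU N)) ∧ Lexp 1 (etaU N) = helper695.castR ℂ u

/-- **Leaf LA-EXP-J**: the period-one expansions of `j` and of `j(d τ)` are the Prelude series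
`jqModC ℂ` and `qExpand ℂ d (jqModC ℂ)`. -/
def Stmt_LightExpJ : Prop :=
  ((∃ M, IsMero 1 M jInv) ∧ Lexp 1 jInv = jqModC ℂ) ∧
  ∀ (d : ℕ) [NeZero d], (∃ M, IsMero 1 M (jMul d)) ∧ Lexp 1 (jMul d) = qExpand ℂ d (jqModC ℂ)

/-- **Leaf LA-ASYMP**: asymptotics at `i∞` of all `SL(2,ℤ)`-translates of `u_N`:
`‖u_N(g τ)‖ · exp(2π E · Im τ) → a / b` with `a, b` natural numbers all of whose prime factors
divide `N`, and `E > 0` as soon as `g ∉ Γ₀(N)`. -/
def Stmt_LightAsymp (N : ℕ) : Prop :=
  ∀ g : SL(2, ℤ), ∃ (E : ℤ) (a b : ℕ), 0 < a ∧ 0 < b ∧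
    (∀ p : ℕ, p.Prime → p ∣ a * b → p ∣ N) ∧
    Tendsto (fun τ : ℍ => ‖etaU N (g • τ)‖ * Real.exp (2 * Real.pi * (E : ℝ) * τ.im))
      atImInfty (𝓝 ((a : ℝ) / (b : ℝ))) ∧
    (g ∉ Gamma0 N → 0 < E)

/-- The deliverable of the analytic half (the formal half `helper695_LightFormal` turns it into
`Spec.Stmt_CoreInput N ℓ` for every prime `ℓ ∤ N`). -/
def Stmt_LightAn (N : ℕ) : Prop :=
  ∃ (u : LaurentSeries ℤ) (D : ℕ), helper695.Stmt_ModDataLight N u D

end Fermat.Agent.S28.helper868

end
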