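/-
helper871 — S28 (also usable by S24): the "norm polynomial" of a pair of modular forms.

For modular forms `a, b` of the same weight `k` on a subgroup `𝒢` of finite index in `SL(2,ℤ)`,
the polynomial `∏_q (b_q X - a_q)` (product over the cosets `q ∈ SL(2,ℤ)/𝒢`, `a_q, b_q` the
translates) has coefficients which are level-one modular forms of weight `k * n`
(`n` = number of cosets).  Proof: for every complex number `c`, the value at `X = c` is
Mathlib's `ModularForm.norm 𝒮ℒ (c • b - a)`; Lagrange interpolation at `n + 1` nodes.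
-/
import Mathlib

set_option autoImplicit false

open UpperHalfPlane ModularForm Matrix MatrixGroups Filter Topology Polynomial
open scoped Manifold

namespace Fermat.Agent.S28.helper871

noncomputable section

/-- Coercion to functions commutes with finite sums of modular forms. -/
lemma coe_finset_sum_mf {Γ : Subgroup (GL (Fin 2) ℝ)} {k : ℤ} {ι : Type*} (s : Finset ι)
    (f : ι → ModularForm Γ k) : (⇑(∑ i ∈ s, f i) : ℍ → ℂ) = ∑ i ∈ s, (⇑(f i) : ℍ → ℂ) :=
  map_sum (FunLike.coeAddMonoidHom (ModularForm Γ k) ℍ ℂ) f s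

section NormPoly

variable {𝒢 : Subgroup (GL (Fin 2) ℝ)} [𝒢.IsFiniteRelIndex 𝒮ℒ] [𝒢.HasDetOne] {k : ℤ}

local notation "𝒬" => ↥𝒮ℒ ⧸ (𝒢.subgroupOf 𝒮ℒ)

/-- The fixed `Fintype` instance on the coset space. -/
instance instFintypeCosets : Fintype 𝒬 := Fintype.ofFinite _

/-- Translates are linear in the form. -/
lemma quotientFunc_smul_sub (a b : ModularForm 𝒢 k) (c : ℂ) (q : 𝒬) :
    SlashInvariantForm.quotientFunc (c • b - a) q
      = c • SlashInvariantForm.quotientFunc b q - SlashInvariantForm.quotientFunc a q := by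
  induction q using Quotient.inductionOn with | h r => ?_
  simp only [SlashInvariantForm.quotientFunc_mk]
  rw [show (⇑(c • b - a) : ℍ → ℂ) = c • (⇑b : ℍ → ℂ) + -(⇑a : ℍ → ℂ) by
    ext τ; simp [sub_eq_add_neg]]
  rw [SlashAction.add_slash, SlashAction.neg_slash, ModularForm.smul_slash, sub_eq_add_neg]
  congr 1
  have hσ : σ (r.val⁻¹ : GL (Fin 2) ℝ) = ContinuousAlgEquiv.refl ℝ ℂ := by
    have hdet : (r.val⁻¹ : GL (Fin 2) ℝ).det = 1 := by
      obtain ⟨γ, hγ⟩ := (r⁻¹).2
      have : (r.val⁻¹ : GL (Fin 2) ℝ) = SpecialLinearGroup.mapGL ℝ γ := by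
        rw [hγ]; rfl
      rw [this]
      simp
    simp only [σ]
    rw [if_pos (by rw [hdet]; simp)]
  rw [hσ]
  rfl

/-- The polynomial `∏_q (b_q(τ) X - a_q(τ))`. -/
def normPoly (a b : ModularForm 𝒢 k) (τ : ℍ) : ℂ[X] :=
  ∏ q : 𝒬, (C (SlashInvariantForm.quotientFunc b q τ) * X
    - C (SlashInvariantForm.quotientFunc a q τ))

lemma normPoly_eval (a b : ModularForm 𝒢 k) (τ : ℍ) (c : ℂ) :
    (normPoly a b τ).eval c = ModularForm.norm 𝒮ℒ (c • b - a) τ := by
  rw [normPoly, eval_prod, ModularForm.coe_norm, Finset.prod_apply]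
  refine Finset.prod_congr rfl fun q _ => ?_
  rw [quotientFunc_smul_sub]
  simp only [eval_sub, eval_mul, eval_C, eval_X, Pi.sub_apply, Pi.smul_apply, smul_eq_mul]
  ring

lemma normPoly_natDegree_le (a b : ModularForm 𝒢 k) (τ : ℍ) :
    (normPoly a b τ).natDegree ≤ Nat.card 𝒬 := by
  rw [normPoly]
  refine (natDegree_prod_le _ _).trans ?_
  rw [Nat.card_eq_fintype_card, ← Finset.card_univ, Finset.card_eq_sum_ones]
  refine Finset.sum_le_sum fun q _ => ?_
  refine (natDegree_sub_le _ _).trans (max_le ?_ (by simp))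
  exact (natDegree_C_mul_le _ _).trans natDegree_X_le

/-- Lagrange nodes `0, 1, …, n`. -/
def nodes (n : ℕ) : Finset ℕ := Finset.range (n + 1)

lemma nodes_injOn (n : ℕ) : Set.InjOn (fun i : ℕ => (i : ℂ)) (nodes n : Set ℕ) :=
  fun _ _ _ _ h => Nat.cast_injective h

/-- The `m`-th coefficient of the norm polynomial, as a level-one modular form. -/
def normCoeff (a b : ModularForm 𝒢 k) (m : ℕ) : ModularForm 𝒮ℒ (k * Nat.card 𝒬) :=
  ∑ i ∈ nodes (Nat.card 𝒬),
    ((Lagrange.basis (nodes (Nat.card 𝒬)) (fun i : ℕ => (i : ℂ)) i).coeff m) •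
      ModularForm.norm 𝒮ℒ (((i : ℕ) : ℂ) • b - a)

theorem normCoeff_apply (a b : ModularForm 𝒢 k) (m : ℕ) (τ : ℍ) :
    normCoeff a b m τ = (normPoly a b τ).coeff m := by
  have hdeg : (normPoly a b τ).degree < ((nodes (Nat.card 𝒬)).card : WithBot ℕ) := by
    rw [nodes, Finset.card_range]
    refine lt_of_le_of_lt degree_le_natDegree ?_
    exact_mod_cast Nat.lt_succ_of_le (normPoly_natDegree_le a b τ)
  have h := Lagrange.eq_interpolate (nodes_injOn (Nat.card 𝒬)) hdeg
  conv_rhs => rw [h]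
  rw [Lagrange.interpolate_apply, finsetSum_coeff, normCoeff]
  rw [show (⇑(∑ i ∈ nodes (Nat.card 𝒬),
      ((Lagrange.basis (nodes (Nat.card 𝒬)) (fun i : ℕ => (i : ℂ)) i).coeff m) •
        ModularForm.norm 𝒮ℒ (((i : ℕ) : ℂ) • b - a)) : ℍ → ℂ) τ
      = ∑ i ∈ nodes (Nat.card 𝒬),
        ((Lagrange.basis (nodes (Nat.card 𝒬)) (fun i : ℕ => (i : ℂ)) i).coeff m) *
          ModularForm.norm 𝒮ℒ (((i : ℕ) : ℂ) • b - a) τ by
    rw [coe_finset_sum_mf, Finset.sum_apply]
    rfl]
  refine Finset.sum_congr rfl fun i _ => ?_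
  rw [coeff_C_mul, normPoly_eval, mul_comm]

/-- The top coefficient of the norm polynomial is the norm of `b`. -/
theorem normPoly_coeff_card (a b : ModularForm 𝒢 k) (τ : ℍ) :
    (normPoly a b τ).coeff (Nat.card 𝒬) = ModularForm.norm 𝒮ℒ b τ := by
  rw [ModularForm.coe_norm, Finset.prod_apply, normPoly]
  have key : ∀ s : Finset 𝒬,
      (∏ q ∈ s, (C (SlashInvariantForm.quotientFunc b q τ) * X
        - C (SlashInvariantForm.quotientFunc a q τ))).coeff s.card
        = ∏ q ∈ s, SlashInvariantForm.quotientFunc b q τ ∧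
      (∏ q ∈ s, (C (SlashInvariantForm.quotientFunc b q τ) * X
        - C (SlashInvariantForm.quotientFunc a q τ))).natDegree ≤ s.card := by
    classical
    intro s
    induction s using Finset.induction_on with
    | empty => simp
    | insert q s hq ih =>
      obtain ⟨ih1, ih2⟩ := ih
      rw [Finset.prod_insert hq, Finset.prod_insert hq, Finset.card_insert_of_notMem hq]
      constructor
      · rw [sub_mul, coeff_sub, mul_assoc, coeff_C_mul, coeff_X_mul, coeff_C_mul, ih1,
          coeff_eq_zero_of_natDegree_lt (lt_of_le_of_lt ih2 (Nat.lt_succ_self _))]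
        simp
      · refine natDegree_mul_le.trans ?_
        have : (C (SlashInvariantForm.quotientFunc b q τ) * X
            - C (SlashInvariantForm.quotientFunc a q τ)).natDegree ≤ 1 :=
          (natDegree_sub_le _ _).trans (max_le
            ((natDegree_C_mul_le _ _).trans natDegree_X_le) (by simp))
        omega
  have h := (key Finset.univ).1
  rw [Finset.card_univ, ← Nat.card_eq_fintype_card] at h
  exact h

/-- The norm polynomial vanishes at `a τ / b τ` (factor of the identity coset). -/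
theorem normPoly_eval_div (a b : ModularForm 𝒢 k) (τ : ℍ) (hb : b τ ≠ 0) :
    (normPoly a b τ).eval (a τ / b τ) = 0 := by
  rw [normPoly, eval_prod]
  refine Finset.prod_eq_zero (Finset.mem_univ (((1 : ↥𝒮ℒ) : 𝒬))) ?_
  have h1 : ∀ f : ModularForm 𝒢 k, SlashInvariantForm.quotientFunc f (((1 : ↥𝒮ℒ) : 𝒬)) τ = f τ := by
    intro f
    show ((f : ℍ → ℂ) ∣[k] ((1 : ↥𝒮ℒ) : GL (Fin 2) ℝ)⁻¹) τ = f τ
    simp
  rw [h1, h1]
  simp only [eval_sub, eval_mul, eval_C, eval_X]
  field_simp
  ring

end NormPoly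

end

end Fermat.Agent.S28.helper871
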