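/-
helper871 — S28 (also usable by S24): algebraic relation of degree `n = [SL₂(ℤ) : Γ₀(N)]` over
`ℂ[j]` for every quotient `a / b` of modular forms of the same weight `12 K` on `Γ₀(N)` with `b`
nowhere vanishing, at the level of `q`-expansions.  (Mathlib-only analysis: norm polynomial +
level-one structure.)
-/
import Mathlib
import Fermat.Agent.S28.helper871_NormPoly
import Fermat.Agent.Lib.helper843_JPolynomial
import Fermat.Prelude.Thm_CongruenceSubgroup_one_mem_strictPeriods_Gamma0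

set_option autoImplicit false

open UpperHalfPlane ModularForm Matrix MatrixGroups Filter Topology Polynomial CongruenceSubgroup
  EisensteinSeries
open scoped Manifold
open Fermat.Agent.Lib.helper843 (jInv exists_polynomial_jInv tendsto_coeff_zero discriminant_smul
  mdifferentiable_discriminant discriminant_mul_jInv tendsto_E₄)

namespace Fermat.Agent.S28.helper871

noncomputable section

local notation "Δ" => ModularForm.discriminant

/-! ### Level-one structure -/

/-- The transformation law of a level-one modular form. -/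
lemma levelOne_smul {k : ℤ} (c : ModularForm 𝒮ℒ k) (γ : SL(2, ℤ)) (z : ℍ) :
    c (γ • z) = denom γ z ^ k * c z := by
  have h : ((c : ℍ → ℂ) ∣[k] γ) z = c z := congrFun (c.slash_action_eq' _ ⟨γ, rfl⟩) z
  rw [SL_slash_apply] at h
  have hd : denom γ z ≠ 0 := denom_ne_zero γ z
  rw [← h, mul_comm (c (γ • z)), ← mul_assoc, ← zpow_add₀ hd]
  simp

/-- A level-one modular form of weight `12 M` without zeros on `ℍ` is a constant multiple of
`Δ^M`. -/
theorem levelOne_eq_const_mul_discriminant_pow :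
    ∀ (M : ℕ) (k : ℤ), k = 12 * (M : ℤ) → ∀ c : ModularForm 𝒮ℒ k, (∀ τ, c τ ≠ 0) →
      ∃ r : ℂ, r ≠ 0 ∧ ∀ τ, c τ = r * Δ τ ^ M := by
  intro M
  induction M with
  | zero =>
    intro k hk c hc
    have hk0 : k = 0 := by simpa using hk
    subst hk0
    obtain ⟨r, hr⟩ := ModularFormClass.levelOne_weight_zero_const c
    refine ⟨r, ?_, fun τ => by simp [hr]⟩
    have := hc I
    rw [hr] at this
    simpa using this
  | succ M ih =>
    intro k hk c hc
    subst hk
    by_cases h0 : (qExpansion 1 c).coeff 0 = 0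
    · obtain ⟨r, hr0, hr⟩ := ih (12 * ((M + 1 : ℕ) : ℤ) - 12) (by push_cast; ring)
        (CuspForm.discriminantEquiv (toCuspForm c h0)) (fun τ => by
          rw [CuspForm.discriminantEquiv_apply, toCuspForm_apply]
          exact div_ne_zero (hc τ) (discriminant_ne_zero τ))
      refine ⟨r, hr0, fun τ => ?_⟩
      have h1 := hr τ
      rw [CuspForm.discriminantEquiv_apply, toCuspForm_apply,
        div_eq_iff (discriminant_ne_zero τ)] at h1
      rw [h1, pow_succ]
      ring
    · exfalso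
      let G : ℍ → ℂ := fun z => Δ z ^ (M + 1) / c z
      have hG : MDiff G := (mdifferentiable_discriminant.pow (M + 1)).div c.holo' hc
      have hinv : ∀ (γ : SL(2, ℤ)) (z : ℍ), G (γ • z) = G z := by
        intro γ z
        have hd : denom γ z ≠ 0 := denom_ne_zero γ z
        have hcγ := levelOne_smul c γ z
        simp only [G]
        rw [discriminant_smul, hcγ, mul_pow]
        have h12 : (denom γ z ^ (12 : ℤ)) ^ (M + 1) = denom γ z ^ (12 * ((M + 1 : ℕ) : ℤ)) := by
          rw [← zpow_natCast, ← _root_.zpow_mul]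
        rw [h12, mul_div_mul_left _ _ (zpow_ne_zero _ hd)]
      have hzero : Tendsto G atImInfty (𝓝 0) := by
        have h1 : Tendsto (fun z : ℍ => Δ z ^ (M + 1)) atImInfty (𝓝 (0 ^ (M + 1))) :=
          (discriminant_isZeroAtImInfty).pow (M + 1)
        have h2 := (h1.div (tendsto_coeff_zero c) h0)
        have h3 : Tendsto ((fun z : ℍ => Δ z ^ (M + 1)) / ⇑c) atImInfty (𝓝 0) := by
          simpa using h2
        exact h3
      have hbdd : IsBoundedAtImInfty (fun z => Δ z ^ 0 * G z) := by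
        have : (fun z => Δ z ^ 0 * G z) = G := by funext z; simp
        rw [this]
        exact hzero.isBigO_one ℝ
      obtain ⟨P, hP, hPG⟩ := exists_polynomial_jInv hG hinv 0 hbdd
      have hPc : P = C (P.coeff 0) := eq_C_of_natDegree_le_zero hP
      have hconst : ∀ z, G z = P.coeff 0 := by
        intro z
        rw [hPG z, hPc]
        simp
      have hlim : Tendsto G atImInfty (𝓝 (P.coeff 0)) := by
        have : G = fun _ => P.coeff 0 := funext hconst
        rw [this]
        exact tendsto_const_nhds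
      have h00 : P.coeff 0 = 0 := tendsto_nhds_unique hlim hzero
      have hGI := hconst I
      rw [h00] at hGI
      simp only [G] at hGI
      rcases div_eq_zero_iff.mp hGI with h | h
      · exact discriminant_ne_zero I (pow_eq_zero_iff (Nat.succ_ne_zero M) |>.mp h)
      · exact hc I h

/-- Every level-one modular form of weight `12 M` is `Δ^M · P(j)` for a polynomial `P` of degree
at most `M`. -/
theorem levelOne_eq_discriminant_pow_mul_eval (M : ℕ) (k : ℤ) (hk : k = 12 * (M : ℤ))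
    (c : ModularForm 𝒮ℒ k) :
    ∃ P : ℂ[X], P.natDegree ≤ M ∧ ∀ τ, c τ = Δ τ ^ M * P.eval (jInv τ) := by
  subst hk
  let F : ℍ → ℂ := fun z => c z / Δ z ^ M
  have hΔM : ∀ z : ℍ, Δ z ^ M ≠ 0 := fun z => pow_ne_zero _ (discriminant_ne_zero z)
  have hF : MDiff F := c.holo'.div (mdifferentiable_discriminant.pow M) hΔM
  have hinv : ∀ (γ : SL(2, ℤ)) (z : ℍ), F (γ • z) = F z := by
    intro γ z
    have hd : denom γ z ≠ 0 := denom_ne_zero γ z
    have hcγ := levelOne_smul c γ z
    simp only [F]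
    rw [discriminant_smul, hcγ, mul_pow]
    have h12 : (denom γ z ^ (12 : ℤ)) ^ M = denom γ z ^ (12 * (M : ℤ)) := by
      rw [← zpow_natCast, ← _root_.zpow_mul]
    rw [h12, mul_div_mul_left _ _ (zpow_ne_zero _ hd)]
  have hbdd : IsBoundedAtImInfty (fun z => Δ z ^ M * F z) := by
    have : (fun z => Δ z ^ M * F z) = c := by
      funext z
      simp only [F]
      rw [mul_div_cancel₀ _ (hΔM z)]
    rw [this]
    exact ModularFormClass.bdd_at_infty c
  obtain ⟨P, hP, hPF⟩ := exists_polynomial_jInv hF hinv M hbdd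
  refine ⟨P, hP, fun τ => ?_⟩
  rw [← hPF τ]
  simp only [F]
  rw [mul_div_cancel₀ _ (hΔM τ)]

lemma discriminant_pow_mul_jInv_pow (τ : ℍ) (M e : ℕ) (h : e ≤ M) :
    Δ τ ^ M * jInv τ ^ e = E₄ τ ^ (3 * e) * Δ τ ^ (M - e) := by
  obtain ⟨d, rfl⟩ := Nat.exists_eq_add_of_le h
  rw [Nat.add_sub_cancel_left, pow_add, pow_mul, ← discriminant_mul_jInv τ, mul_pow]
  ring

/-! ### The function-level relation -/

/-- `Γ₀(N)` as a subgroup of `GL(2,ℝ)`. -/
abbrev G0 (N : ℕ) : Subgroup (GL (Fin 2) ℝ) := (Gamma0 N : Subgroup (GL (Fin 2) ℝ))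

/-- The number of cosets of `Γ₀(N)` in `SL(2,ℤ)` (Mathlib `NormTrace` quotient). -/
def cosetCard (N : ℕ) : ℕ := Nat.card (↥𝒮ℒ ⧸ ((G0 N).subgroupOf 𝒮ℒ))

/-- Slashing a nowhere vanishing function gives a nowhere vanishing function. -/
lemma slash_ne_zero {f : ℍ → ℂ} (hf : ∀ τ, f τ ≠ 0) (k : ℤ) (g : GL (Fin 2) ℝ) (τ : ℍ) :
    (f ∣[k] g) τ ≠ 0 := by
  rw [ModularForm.slash_apply]
  refine mul_ne_zero (mul_ne_zero ?_ ?_) (zpow_ne_zero _ (denom_ne_zero g τ))
  · simp only [σ]
    split_ifs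
    · exact hf _
    · simpa using hf _
  · refine zpow_ne_zero _ ?_
    have : g.det.val ≠ 0 := g.det.ne_zero
    exact_mod_cast abs_ne_zero.mpr this

lemma quotientFunc_ne_zero {N : ℕ} [NeZero N] {k : ℤ} (b : ModularForm (G0 N) k)
    (hb : ∀ τ, b τ ≠ 0) (q : ↥𝒮ℒ ⧸ ((G0 N).subgroupOf 𝒮ℒ)) (τ : ℍ) :
    SlashInvariantForm.quotientFunc b q τ ≠ 0 := by
  induction q using Quotient.inductionOn with | h r => ?_
  rw [SlashInvariantForm.quotientFunc_mk]
  exact slash_ne_zero hb k _ τ

/-- The function-level relation: for modular forms `a, b` of weight `12 K` on `Γ₀(N)`, `b` nowhere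
vanishing, `a / b` satisfies a monic relation of degree `n` with coefficients polynomials in `j`
(written without denominators). -/
theorem fun_relation (N : ℕ) [NeZero N] (K : ℕ) (a b : ModularForm (G0 N) (12 * (K : ℤ)))
    (hb : ∀ τ, b τ ≠ 0) :
    ∃ p : ℕ → ℕ → ℂ, p (cosetCard N) 0 = 1 ∧ (∀ e, e ≠ 0 → p (cosetCard N) e = 0) ∧
      ∀ τ : ℍ, ∑ m ∈ Finset.range (cosetCard N + 1), ∑ e ∈ Finset.range (K * cosetCard N + 1),
        p m e * E₄ τ ^ (3 * e) * Δ τ ^ (K * cosetCard N - e) * a τ ^ m *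
          b τ ^ (cosetCard N - m) = 0 := by
  set n := cosetCard N with hn
  set M := K * n with hM
  have hk : (12 * (K : ℤ)) * (Nat.card (↥𝒮ℒ ⧸ ((G0 N).subgroupOf 𝒮ℒ)) : ℤ) = 12 * (M : ℤ) := by
    rw [hM, hn, cosetCard]; push_cast; ring
  have hP := fun m => levelOne_eq_discriminant_pow_mul_eval M _ hk (normCoeff a b m)
  choose P hPdeg hPeq using hP
  have hnorm : ∀ τ, ModularForm.norm 𝒮ℒ b τ ≠ 0 := by
    intro τ
    rw [ModularForm.coe_norm, Finset.prod_apply]
    exact Finset.prod_ne_zero_iff.mpr fun q _ => quotientFunc_ne_zero b hb q τ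
  obtain ⟨r, hr0, hr⟩ := levelOne_eq_const_mul_discriminant_pow M _ hk (ModularForm.norm 𝒮ℒ b) hnorm
  refine ⟨fun m e => if m = n then (if e = 0 then 1 else 0) else r⁻¹ * (P m).coeff e,
    by simp, fun e he => by simp [he], fun τ => ?_⟩
  have hΔ : Δ τ ≠ 0 := discriminant_ne_zero τ
  -- the inner sums
  have hinner : ∀ m ∈ Finset.range (n + 1),
      ∑ e ∈ Finset.range (M + 1),
        (if m = n then (if e = 0 then (1 : ℂ) else 0) else r⁻¹ * (P m).coeff e) *
          E₄ τ ^ (3 * e) * Δ τ ^ (M - e) = r⁻¹ * (normPoly a b τ).coeff m := by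
    intro m hm
    by_cases hmn : m = n
    · subst hmn
      simp only [if_true]
      rw [Finset.sum_eq_single 0]
      · rw [show (normPoly a b τ).coeff n = ModularForm.norm 𝒮ℒ b τ from by
          rw [hn, cosetCard]; exact normPoly_coeff_card a b τ, hr τ]
        simp only [if_true, Nat.mul_zero, pow_zero, Nat.sub_zero, one_mul]
        field_simp
      · intro e _ he
        simp [he]
      · intro h
        exact absurd (Finset.mem_range.mpr (Nat.succ_pos M)) h
    · simp only [if_neg hmn]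
      rw [← normCoeff_apply, hPeq m τ, eval_eq_sum_range' (Nat.lt_succ_of_le (hPdeg m)),
        Finset.mul_sum, Finset.mul_sum]
      refine Finset.sum_congr rfl fun e he => ?_
      have heM : e ≤ M := Nat.lt_succ_iff.mp (Finset.mem_range.mp he)
      have hj : Δ τ ^ M * jInv τ ^ e = E₄ τ ^ (3 * e) * Δ τ ^ (M - e) :=
        discriminant_pow_mul_jInv_pow τ M e heM
      calc r⁻¹ * (P m).coeff e * E₄ τ ^ (3 * e) * Δ τ ^ (M - e)
          = r⁻¹ * (P m).coeff e * (E₄ τ ^ (3 * e) * Δ τ ^ (M - e)) := by ring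
        _ = r⁻¹ * (P m).coeff e * (Δ τ ^ M * jInv τ ^ e) := by rw [hj]
        _ = r⁻¹ * (Δ τ ^ M * ((P m).coeff e * jInv τ ^ e)) := by ring
  have hb' : b τ ≠ 0 := hb τ
  have heval := normPoly_eval_div a b τ hb'
  rw [eval_eq_sum_range' (Nat.lt_succ_of_le (by
    have := normPoly_natDegree_le a b τ
    rw [hn, cosetCard]; exact this : (normPoly a b τ).natDegree ≤ n))] at heval
  calc ∑ m ∈ Finset.range (n + 1), ∑ e ∈ Finset.range (M + 1),
        (if m = n then (if e = 0 then (1 : ℂ) else 0) else r⁻¹ * (P m).coeff e) *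
          E₄ τ ^ (3 * e) * Δ τ ^ (M - e) * a τ ^ m * b τ ^ (n - m)
      = ∑ m ∈ Finset.range (n + 1), (r⁻¹ * (normPoly a b τ).coeff m) * a τ ^ m * b τ ^ (n - m) := by
        refine Finset.sum_congr rfl fun m hm => ?_
        rw [← hinner m hm, Finset.sum_mul, Finset.sum_mul]
    _ = r⁻¹ * b τ ^ n * ∑ m ∈ Finset.range (n + 1), (normPoly a b τ).coeff m * (a τ / b τ) ^ m := by
        rw [Finset.mul_sum]
        refine Finset.sum_congr rfl fun m hm => ?_
        have hmn : m ≤ n := Nat.lt_succ_iff.mp (Finset.mem_range.mp hm)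
        have : b τ ^ n = b τ ^ (n - m) * b τ ^ m := by rw [← pow_add, Nat.sub_add_cancel hmn]
        rw [this, div_pow]
        field_simp
    _ = 0 := by rw [heval, mul_zero]

/-! ### Nice functions and `q`-expansions -/

/-- "Nice" functions: holomorphic on `ℍ`, `1`-periodic, bounded at `i∞`. -/
def IsNice (f : ℍ → ℂ) : Prop :=
  MDiff f ∧ Function.Periodic (f ∘ ofComplex) (1 : ℝ) ∧ IsBoundedAtImInfty f

lemma IsNice.analyticAt {f : ℍ → ℂ} (hf : IsNice f) : AnalyticAt ℂ (cuspFunction 1 f) 0 :=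
  analyticAt_cuspFunction_zero one_pos hf.2.1 hf.1 hf.2.2

lemma isNice_const (c : ℂ) : IsNice (fun _ : ℍ => c) := by
  refine ⟨mdifferentiable_const, fun z => rfl, ?_⟩
  exact Filter.const_boundedAtFilter _ c

lemma IsNice.add {f g : ℍ → ℂ} (hf : IsNice f) (hg : IsNice g) : IsNice (f + g) := by
  refine ⟨hf.1.add hg.1, fun z => ?_, hf.2.2.add hg.2.2⟩
  have h1 := hf.2.1 z
  have h2 := hg.2.1 z
  simp only [Function.comp_apply, Pi.add_apply] at h1 h2 ⊢
  rw [h1, h2]

lemma IsNice.mul {f g : ℍ → ℂ} (hf : IsNice f) (hg : IsNice g) : IsNice (f * g) := by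
  refine ⟨hf.1.mul hg.1, fun z => ?_, hf.2.2.mul hg.2.2⟩
  have h1 := hf.2.1 z
  have h2 := hg.2.1 z
  simp only [Function.comp_apply, Pi.mul_apply] at h1 h2 ⊢
  rw [h1, h2]

/-- The algebra of nice functions. -/
def niceAlg : Subalgebra ℂ (ℍ → ℂ) where
  carrier := {f | IsNice f}
  mul_mem' := IsNice.mul
  add_mem' := IsNice.add
  algebraMap_mem' c := isNice_const c

lemma mem_niceAlg {f : ℍ → ℂ} : f ∈ niceAlg ↔ IsNice f := Iff.rfl

lemma qExpansion_const (c : ℂ) : qExpansion 1 (fun _ : ℍ => c) = PowerSeries.C c := by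
  have h1 : (fun _ : ℍ => c) = c • (1 : ℍ → ℂ) := by funext z; simp
  have hn : IsNice (1 : ℍ → ℂ) := isNice_const 1
  rw [h1, qExpansion_smul hn.analyticAt, qExpansion_one]
  ext n
  simp [PowerSeries.coeff_C, PowerSeries.coeff_one]

/-- The `q`-expansion, as an algebra homomorphism on nice functions. -/
def qExpHom : niceAlg →ₐ[ℂ] PowerSeries ℂ where
  toFun f := qExpansion 1 (f : ℍ → ℂ)
  map_one' := qExpansion_one 1
  map_mul' f g := qExpansion_mul (IsNice.analyticAt f.2) (IsNice.analyticAt g.2)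
  map_zero' := qExpansion_zero 1
  map_add' f g := qExpansion_add (IsNice.analyticAt f.2) (IsNice.analyticAt g.2)
  commutes' c := by
    show qExpansion 1 (fun _ : ℍ => c) = _
    rw [qExpansion_const]
    rfl

lemma qExpHom_apply (f : niceAlg) : qExpHom f = qExpansion 1 (f : ℍ → ℂ) := rfl

lemma qExpHom_injective : Function.Injective qExpHom := by
  rw [injective_iff_map_eq_zero]
  intro f hf
  have := (qExpansion_eq_zero_iff one_pos f.2.2.1 f.2.1 f.2.2.2).mp hf
  exact Subtype.ext this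

/-- Modular forms on `Γ₀(N)` are nice. -/
lemma isNice_Gamma0 (N : ℕ) [NeZero N] {k : ℤ} (f : ModularForm (G0 N) k) :
    IsNice (f : ℍ → ℂ) :=
  ⟨f.holo', SlashInvariantFormClass.periodic_comp_ofComplex f
    (CongruenceSubgroup.one_mem_strictPeriods_Gamma0 N), ModularFormClass.bdd_at_infty f⟩

/-- Level-one modular forms are nice. -/
lemma isNice_levelOne {k : ℤ} (f : ModularForm 𝒮ℒ k) : IsNice (f : ℍ → ℂ) :=
  ⟨f.holo', SlashInvariantFormClass.periodic_comp_ofComplex f
    one_mem_strictPeriods_SL, ModularFormClass.bdd_at_infty f⟩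

/-- The discriminant is nice. -/
lemma isNice_discriminant : IsNice (Δ : ℍ → ℂ) :=
  ⟨CuspForm.discriminant.holo', SlashInvariantFormClass.periodic_comp_ofComplex
    CuspForm.discriminant one_mem_strictPeriods_SL,
    ModularFormClass.bdd_at_infty CuspForm.discriminant⟩

/-- The `q`-expansion of a function, as a Laurent series. -/
def qL (f : ℍ → ℂ) : LaurentSeries ℂ := HahnSeries.ofPowerSeries ℤ ℂ (qExpansion 1 f)

/-- The `q`-expansion Laurent series as a ring homomorphism on nice functions. -/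
def qLHom : niceAlg →+* LaurentSeries ℂ :=
  (HahnSeries.ofPowerSeries ℤ ℂ).comp (qExpHom : niceAlg →+* PowerSeries ℂ)

lemma qLHom_apply (f : niceAlg) : qLHom f = qL (f : ℍ → ℂ) := rfl

lemma qLHom_injective : Function.Injective qLHom :=
  (HahnSeries.ofPowerSeries_injective).comp qExpHom_injective

lemma qLHom_algebraMap (c : ℂ) : qLHom (algebraMap ℂ niceAlg c) = HahnSeries.C c := by
  show HahnSeries.ofPowerSeries ℤ ℂ (qExpHom (algebraMap ℂ niceAlg c)) = _
  rw [AlgHom.commutes]
  exact HahnSeries.ofPowerSeries_C c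

lemma qL_ne_zero {f : ℍ → ℂ} (hf : IsNice f) (h : f ≠ 0) : qL f ≠ 0 := by
  intro h0
  have : qLHom ⟨f, hf⟩ = 0 := h0
  rw [map_eq_zero_iff _ qLHom_injective] at this
  exact h (congrArg Subtype.val this)

/-- The formal `j`-function over `ℂ`, as the quotient of `q`-expansions `E₄³ / Δ`. -/
def JL : LaurentSeries ℂ := qL (E₄ : ℍ → ℂ) ^ 3 / qL (Δ : ℍ → ℂ)

/-- A Laurent series is *representable at level `N`* if it is the quotient of the `q`-expansions
of two modular forms of the same weight `12 K` on `Γ₀(N)`, the denominator having no zeros. -/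
def Rep (N : ℕ) (x : LaurentSeries ℂ) : Prop :=
  ∃ (K : ℕ) (a b : ModularForm (G0 N) (12 * (K : ℤ))), (∀ τ, b τ ≠ 0) ∧
    qL (a : ℍ → ℂ) = x * qL (b : ℍ → ℂ)

/-- **The relation over `ℂ`**: every representable Laurent series satisfies a monic relation of
degree `n = cosetCard N` over `ℂ[J]`. -/
theorem laurent_relation (N : ℕ) [NeZero N] (x : LaurentSeries ℂ) (hx : Rep N x) :
    ∃ (M : ℕ) (p : ℕ → ℕ → ℂ), p (cosetCard N) 0 = 1 ∧ (∀ e, e ≠ 0 → p (cosetCard N) e = 0) ∧
      ∑ m ∈ Finset.range (cosetCard N + 1), ∑ e ∈ Finset.range (M + 1),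
        p m e • (JL ^ e * x ^ m) = 0 := by
  obtain ⟨K, a, b, hb, hab⟩ := hx
  obtain ⟨p, hp1, hp2, hrel⟩ := fun_relation N K a b hb
  set n := cosetCard N
  set M := K * n
  refine ⟨M, p, hp1, hp2, ?_⟩
  -- the four nice functions
  let E' : niceAlg := ⟨(E₄ : ℍ → ℂ), isNice_levelOne E₄⟩
  let D' : niceAlg := ⟨(Δ : ℍ → ℂ), isNice_discriminant⟩
  let a' : niceAlg := ⟨(a : ℍ → ℂ), isNice_Gamma0 N a⟩
  let b' : niceAlg := ⟨(b : ℍ → ℂ), isNice_Gamma0 N b⟩
  have hid : ∑ m ∈ Finset.range (n + 1), ∑ e ∈ Finset.range (M + 1),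
      algebraMap ℂ niceAlg (p m e) * E' ^ (3 * e) * D' ^ (M - e) * a' ^ m * b' ^ (n - m) = 0 := by
    apply Subtype.ext
    funext τ
    have := hrel τ
    simp only [E', D', a', b', Algebra.algebraMap_eq_smul_one, AddSubmonoidClass.coe_finsetSum,
      Finset.sum_apply, MulMemClass.coe_mul, SubmonoidClass.coe_pow, Pi.mul_apply, Pi.pow_apply,
      ZeroMemClass.coe_zero, Pi.zero_apply, SetLike.val_smul, OneMemClass.coe_one, Pi.smul_apply,
      Pi.one_apply, smul_eq_mul, mul_one]
    rw [← this]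
  have hid2 := congrArg qLHom hid
  rw [map_zero, map_sum] at hid2
  have hD0 : qLHom D' ≠ 0 := by
    rw [map_ne_zero_iff _ qLHom_injective]
    intro h
    exact discriminant_ne_zero I (congrFun (congrArg Subtype.val h) I)
  have hb0 : qLHom b' ≠ 0 := by
    rw [map_ne_zero_iff _ qLHom_injective]
    intro h
    exact hb I (congrFun (congrArg Subtype.val h) I)
  have hx' : x = qLHom a' / qLHom b' := by
    rw [eq_div_iff hb0]
    exact hab.symm
  have hJ : JL = qLHom E' ^ 3 / qLHom D' := rfl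
  have hterm : ∀ m ∈ Finset.range (n + 1), ∀ e ∈ Finset.range (M + 1),
      qLHom (algebraMap ℂ niceAlg (p m e) * E' ^ (3 * e) * D' ^ (M - e) * a' ^ m * b' ^ (n - m))
        = (qLHom D' ^ M * qLHom b' ^ n) * (p m e • (JL ^ e * x ^ m)) := by
    intro m hm e he
    have hmn : m ≤ n := Nat.lt_succ_iff.mp (Finset.mem_range.mp hm)
    have heM : e ≤ M := Nat.lt_succ_iff.mp (Finset.mem_range.mp he)
    rw [map_mul, map_mul, map_mul, map_mul, map_pow, map_pow, map_pow, map_pow, qLHom_algebraMap,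
      hJ, hx', ← HahnSeries.C_mul_eq_smul, div_pow, div_pow]
    have h1 : qLHom D' ^ M = qLHom D' ^ (M - e) * qLHom D' ^ e := by
      rw [← pow_add, Nat.sub_add_cancel heM]
    have h2 : qLHom b' ^ n = qLHom b' ^ (n - m) * qLHom b' ^ m := by
      rw [← pow_add, Nat.sub_add_cancel hmn]
    rw [h1, h2, pow_mul]
    field_simp
  have hsum : (qLHom D' ^ M * qLHom b' ^ n) *
      ∑ m ∈ Finset.range (n + 1), ∑ e ∈ Finset.range (M + 1), p m e • (JL ^ e * x ^ m) = 0 := by
    rw [← hid2, Finset.mul_sum]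
    refine Finset.sum_congr rfl fun m hm => ?_
    rw [map_sum, Finset.mul_sum]
    exact Finset.sum_congr rfl fun e he => (hterm m hm e he).symm
  exact (mul_eq_zero.mp hsum).resolve_left (mul_ne_zero (pow_ne_zero _ hD0) (pow_ne_zero _ hb0))

end

end Fermat.Agent.S28.helper871
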