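import Mathlib
import Fermat.Prelude.Def_ModularCurve_LaurentCoeff
import Fermat.Agent.S28.helper508_RatLoc

/-!
# The `ℓ`-adic Gauss valuation subring of `ℚ((q))` (helper882)

`Ov ℓ ⊆ ℚ((q))` is the set of fractions `X / Y` of Laurent series with `ℤ_(ℓ)`-coefficients whose
denominator is nonzero mod `ℓ`; `ρ : Ov ℓ →+* 𝔽_ℓ((q))` is the reduction map.
-/

set_option autoImplicit false

noncomputable section

namespace Fermat.Agent.S28.helper882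

open ModularCurve GaloisRep

/-- Generic normalisation: if `π` has kernel `p • A` and `a` is not infinitely `p`-divisible, then
`a = p ^ k * a'` with `π a' ≠ 0`. -/
theorem exists_pow_mul_of_ker {A B : Type*} [CommRing A] [CommRing B] (π : A →+* B) (p : A)
    (hker : ∀ a, π a = 0 → ∃ a', a = p * a') (a : A) (hfin : ∃ k : ℕ, ¬ p ^ (k + 1) ∣ a) :
    ∃ (k : ℕ) (a' : A), a = p ^ k * a' ∧ π a' ≠ 0 := by
  obtain ⟨k, hk⟩ := hfin
  induction k generalizing a with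
  | zero =>
    by_cases h : π a = 0
    · obtain ⟨a', rfl⟩ := hker a h
      exact absurd (by simp) hk
    · exact ⟨0, a, by simp, h⟩
  | succ k ih =>
    by_cases h : π a = 0
    · obtain ⟨a', rfl⟩ := hker a h
      have h1 : ¬ p ^ (k + 1) ∣ a' := fun hd => hk (by
        rw [pow_succ' p (k + 1)]; exact mul_dvd_mul_left p hd)
      obtain ⟨j, a'', rfl, h''⟩ := ih a' h1
      exact ⟨j + 1, a'', by ring, h''⟩
    · exact ⟨0, a, by simp, h⟩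

section Basic

variable (ℓ : ℕ) [hℓ : Fact ℓ.Prime]

/-- `ℤ_(ℓ)`. -/
abbrev Zl : Type := ↥(ratLocalizedAt ℓ)

/-- `ℚ((q))`. -/
abbrev Lq : Type := LaurentSeries ℚ

/-- `ℤ_(ℓ)((q))`. -/
abbrev Tl : Type := LaurentSeries (Zl ℓ)

/-- `𝔽_ℓ((q))`. -/
abbrev Fl : Type := LaurentSeries (ZMod ℓ)

/-- Coefficient inclusion `ℤ_(ℓ)((q)) → ℚ((q))`. -/
def ιs : Tl ℓ →+* Lq := coeffMap (ratLocalizedAt ℓ).subtype

/-- Coefficient reduction `ℤ_(ℓ)((q)) → 𝔽_ℓ((q))`. -/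
def πs : Tl ℓ →+* Fl ℓ := coeffMap (helper508.toZMod ℓ)

omit hℓ in
theorem ιs_coeff (X : Tl ℓ) (k : ℤ) : (ιs ℓ X).coeff k = (X.coeff k : ℚ) := rfl

theorem πs_coeff (X : Tl ℓ) (k : ℤ) : (πs ℓ X).coeff k = helper508.toZMod ℓ (X.coeff k) := rfl

omit hℓ in
theorem ιs_injective : Function.Injective (ιs ℓ) := by
  intro x y h
  ext k
  have h1 := congrArg (fun z : Lq => z.coeff k) h
  simpa [ιs_coeff] using h1

omit hℓ in
theorem natCast_mul_coeff {R : Type*} [CommRing R] (n : ℕ) (X : LaurentSeries R) (k : ℤ) :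
    ((n : LaurentSeries R) * X).coeff k = (n : R) * X.coeff k := by
  rw [← map_natCast (HahnSeries.C : R →+* LaurentSeries R) n, HahnSeries.C_mul_eq_smul,
    HahnSeries.coeff_smul, smul_eq_mul]

omit hℓ in
theorem natCast_pow_mul_coeff {R : Type*} [CommRing R] (n j : ℕ) (X : LaurentSeries R) (k : ℤ) :
    ((n : LaurentSeries R) ^ j * X).coeff k = (n : R) ^ j * X.coeff k := by
  rw [← map_natCast (HahnSeries.C : R →+* LaurentSeries R) n, ← map_pow, HahnSeries.C_mul_eq_smul,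
    HahnSeries.coeff_smul, smul_eq_mul]

/-- The kernel of the reduction `πs` is generated by `ℓ`. -/
theorem πs_ker (X : Tl ℓ) (h : πs ℓ X = 0) : ∃ X' : Tl ℓ, X = (ℓ : Tl ℓ) * X' := by
  classical
  have hc : ∀ k, ∃ s : Zl ℓ, X.coeff k = ((ℓ : ℕ) : Zl ℓ) * s := fun k => by
    have h1 := congrArg (fun z : Fl ℓ => z.coeff k) h
    simp only [πs_coeff, HahnSeries.coeff_zero] at h1
    exact (helper508.toZMod_eq_zero_iff ℓ _).mp h1
  let g : ZeroHom (Zl ℓ) (Zl ℓ) :=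
    { toFun := fun c => if h : ∃ s : Zl ℓ, c = ((ℓ : ℕ) : Zl ℓ) * s then h.choose else 0
      map_zero' := by
        by_cases h0 : ∃ s : Zl ℓ, (0 : Zl ℓ) = ((ℓ : ℕ) : Zl ℓ) * s
        · rw [dif_pos h0]
          have := h0.choose_spec
          rcases mul_eq_zero.mp this.symm with h1 | h1
          · exact absurd h1 (helper508.natCast_ell_ne_zero ℓ)
          · exact h1
        · rw [dif_neg h0] }
  refine ⟨X.map g, HahnSeries.ext (funext fun k => ?_)⟩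
  rw [natCast_mul_coeff, HahnSeries.map_coeff]
  show X.coeff k = _ * (if h : ∃ s : Zl ℓ, X.coeff k = ((ℓ : ℕ) : Zl ℓ) * s then h.choose else 0)
  rw [dif_pos (hc k)]
  exact (hc k).choose_spec

/-- Normalisation in `ℤ_(ℓ)((q))`. -/
theorem exists_pow_mul_πs_ne_zero (X : Tl ℓ) (hX : X ≠ 0) :
    ∃ (k : ℕ) (X' : Tl ℓ), X = (ℓ : Tl ℓ) ^ k * X' ∧ πs ℓ X' ≠ 0 := by
  apply exists_pow_mul_of_ker (πs ℓ) (ℓ : Tl ℓ) (πs_ker ℓ) X
  have hm : ∃ m, X.coeff m ≠ 0 := by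
    by_contra hcon
    exact hX (HahnSeries.ext (funext fun k => by
      by_contra hk
      exact hcon ⟨k, hk⟩))
  obtain ⟨m, hm⟩ := hm
  have hfin : FiniteMultiplicity ((ℓ : ℕ) : Zl ℓ) (X.coeff m) :=
    FiniteMultiplicity.of_not_isUnit (helper508.irreducible_ell ℓ).not_isUnit hm
  obtain ⟨k, hk⟩ := hfin
  refine ⟨k, ?_⟩
  rintro ⟨X'', rfl⟩
  exact hk ⟨X''.coeff m, natCast_pow_mul_coeff ℓ (k + 1) X'' m⟩

/-- The Gauss valuation subring of `ℚ((q))`. -/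
def Ov : Subring Lq where
  carrier := {f | ∃ X Y : Tl ℓ, πs ℓ Y ≠ 0 ∧ f * ιs ℓ Y = ιs ℓ X}
  mul_mem' := by
    rintro f g ⟨X, Y, hY, h⟩ ⟨X', Y', hY', h'⟩
    refine ⟨X * X', Y * Y', ?_, ?_⟩
    · rw [map_mul]; exact mul_ne_zero hY hY'
    · rw [map_mul, map_mul, ← h, ← h']; ring
  one_mem' := ⟨1, 1, by simp, by simp⟩
  add_mem' := by
    rintro f g ⟨X, Y, hY, h⟩ ⟨X', Y', hY', h'⟩
    refine ⟨X * Y' + X' * Y, Y * Y', ?_, ?_⟩
    · rw [map_mul]; exact mul_ne_zero hY hY'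
    · rw [map_mul, map_add, map_mul, map_mul, ← h, ← h']; ring
  zero_mem' := ⟨0, 1, by simp, by simp⟩
  neg_mem' := by
    rintro f ⟨X, Y, hY, h⟩
    exact ⟨-X, Y, hY, by rw [map_neg, ← h]; ring⟩

theorem mem_Ov_iff {f : Lq} :
    f ∈ Ov ℓ ↔ ∃ X Y : Tl ℓ, πs ℓ Y ≠ 0 ∧ f * ιs ℓ Y = ιs ℓ X := Iff.rfl

theorem ρ_wd {f : Lq} {X Y X' Y' : Tl ℓ} (hY : πs ℓ Y ≠ 0) (hY' : πs ℓ Y' ≠ 0)
    (h : f * ιs ℓ Y = ιs ℓ X) (h' : f * ιs ℓ Y' = ιs ℓ X') :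
    πs ℓ X / πs ℓ Y = πs ℓ X' / πs ℓ Y' := by
  have h1 : X * Y' = X' * Y := by
    apply ιs_injective ℓ
    rw [map_mul, map_mul, ← h, ← h']; ring
  rw [div_eq_div_iff hY hY', ← map_mul, ← map_mul, h1]

/-- The reduction map as a function. -/
def ρfun (f : ↥(Ov ℓ)) : Fl ℓ := πs ℓ f.2.choose / πs ℓ f.2.choose_spec.choose

theorem ρfun_eq (f : ↥(Ov ℓ)) {X Y : Tl ℓ} (hY : πs ℓ Y ≠ 0)
    (h : (f : Lq) * ιs ℓ Y = ιs ℓ X) : ρfun ℓ f = πs ℓ X / πs ℓ Y :=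
  ρ_wd ℓ f.2.choose_spec.choose_spec.1 hY f.2.choose_spec.choose_spec.2 h

/-- The reduction map `Ov → 𝔽_ℓ((q))`. -/
def ρ : ↥(Ov ℓ) →+* Fl ℓ where
  toFun := ρfun ℓ
  map_one' := by
    rw [ρfun_eq ℓ 1 (X := 1) (Y := 1) (by simp) (by simp)]; simp
  map_mul' := by
    intro a b
    obtain ⟨X, Y, hY, h⟩ := a.2
    obtain ⟨X', Y', hY', h'⟩ := b.2
    have hYY : πs ℓ (Y * Y') ≠ 0 := by rw [map_mul]; exact mul_ne_zero hY hY'
    rw [ρfun_eq ℓ a hY h, ρfun_eq ℓ b hY' h',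
      ρfun_eq ℓ (a * b) (X := X * X') (Y := Y * Y') hYY
        (by simp only [Subring.coe_mul, map_mul]; rw [← h, ← h']; ring)]
    rw [map_mul, map_mul, mul_div_mul_comm]
  map_zero' := by
    rw [ρfun_eq ℓ 0 (X := 0) (Y := 1) (by simp) (by simp)]; simp
  map_add' := by
    intro a b
    obtain ⟨X, Y, hY, h⟩ := a.2
    obtain ⟨X', Y', hY', h'⟩ := b.2
    have hYY : πs ℓ (Y * Y') ≠ 0 := by rw [map_mul]; exact mul_ne_zero hY hY'
    rw [ρfun_eq ℓ a hY h, ρfun_eq ℓ b hY' h',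
      ρfun_eq ℓ (a + b) (X := X * Y' + X' * Y) (Y := Y * Y') hYY
        (by simp only [Subring.coe_add, map_mul, map_add]; rw [← h, ← h']; ring)]
    rw [map_add, map_mul, map_mul, map_mul, div_add_div _ _ hY hY']
    ring

theorem ρ_eq (f : ↥(Ov ℓ)) {X Y : Tl ℓ} (hY : πs ℓ Y ≠ 0)
    (h : (f : Lq) * ιs ℓ Y = ιs ℓ X) : ρ ℓ f = πs ℓ X / πs ℓ Y := ρfun_eq ℓ f hY h

/-- Elements of `ℤ_(ℓ)((q))` lie in `Ov`. -/
theorem ιs_mem_Ov (X : Tl ℓ) : ιs ℓ X ∈ Ov ℓ := ⟨X, 1, by simp, by simp⟩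

theorem ρ_ιs (X : Tl ℓ) : ρ ℓ ⟨ιs ℓ X, ιs_mem_Ov ℓ X⟩ = πs ℓ X := by
  rw [ρ_eq ℓ _ (X := X) (Y := 1) (by simp) (by simp)]; simp

/-- `ℓ` as an element of `ℚ((q))` is nonzero. -/
theorem natCast_ell_Lq_ne_zero : ((ℓ : ℕ) : Lq) ≠ 0 := by
  rw [← map_natCast (algebraMap ℚ Lq) ℓ]
  exact (map_ne_zero _).mpr (Nat.cast_ne_zero.mpr hℓ.out.ne_zero)

omit hℓ in
theorem ιs_natCast (n : ℕ) : ιs ℓ (n : Tl ℓ) = (n : Lq) := map_natCast _ n

/-- The kernel of `ρ` is generated by `ℓ`. -/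
theorem ρ_ker (f : ↥(Ov ℓ)) (hf : ρ ℓ f = 0) : ∃ g : ↥(Ov ℓ), f = ((ℓ : ℕ) : ↥(Ov ℓ)) * g := by
  obtain ⟨X, Y, hY, h⟩ := f.2
  rw [ρ_eq ℓ f hY h, div_eq_zero_iff] at hf
  rcases hf with hf | hf
  · obtain ⟨X₁, rfl⟩ := πs_ker ℓ X hf
    have hg : (f : Lq) / (ℓ : Lq) * ιs ℓ Y = ιs ℓ X₁ := by
      have h0 := natCast_ell_Lq_ne_zero ℓ
      rw [map_mul, ιs_natCast] at h
      field_simp
      rw [h]
    refine ⟨⟨(f : Lq) / (ℓ : Lq), X₁, Y, hY, hg⟩, Subtype.ext ?_⟩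
    have h0 := natCast_ell_Lq_ne_zero ℓ
    simp only [Subring.coe_mul, Subring.coe_natCast]
    field_simp
  · exact absurd hf hY

/-- Elements with nonzero reduction are units of `Ov`. -/
theorem inv_mem_Ov_of_ρ_ne_zero (f : ↥(Ov ℓ)) (hf : ρ ℓ f ≠ 0) : (f : Lq)⁻¹ ∈ Ov ℓ := by
  obtain ⟨X, Y, hY, h⟩ := f.2
  rw [ρ_eq ℓ f hY h] at hf
  have hX : πs ℓ X ≠ 0 := fun h0 => hf (by rw [h0, zero_div])
  have hX' : ιs ℓ X ≠ 0 := fun h0 => hX (by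
    rw [(ιs_injective ℓ) (h0.trans (map_zero _).symm), map_zero])
  have hf0 : (f : Lq) ≠ 0 := fun h0 => hX' (by rw [← h, h0, zero_mul])
  refine ⟨Y, X, hX, ?_⟩
  rw [← h]; field_simp

theorem ρ_inv (f : ↥(Ov ℓ)) (hf : ρ ℓ f ≠ 0) :
    ρ ℓ ⟨(f : Lq)⁻¹, inv_mem_Ov_of_ρ_ne_zero ℓ f hf⟩ = (ρ ℓ f)⁻¹ := by
  have h1 : ρ ℓ ⟨(f : Lq)⁻¹, inv_mem_Ov_of_ρ_ne_zero ℓ f hf⟩ * ρ ℓ f = 1 := by
    rw [← map_mul, ← map_one (ρ ℓ)]
    congr 1
    apply Subtype.ext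
    have hf0 : (f : Lq) ≠ 0 := fun h0 => hf (by
      have : f = 0 := Subtype.ext h0
      rw [this, map_zero])
    simp only [Subring.coe_mul, Subring.coe_one]
    exact inv_mul_cancel₀ hf0
  exact eq_inv_of_mul_eq_one_left h1

/-- The fraction field of `ℤ_(ℓ)((q))` inside `ℚ((q))`. -/
def Mv : IntermediateField ℚ Lq :=
  Subfield.toIntermediateField
    { carrier := {f | ∃ X Y : Tl ℓ, Y ≠ 0 ∧ f * ιs ℓ Y = ιs ℓ X}
      mul_mem' := by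
        rintro f g ⟨X, Y, hY, h⟩ ⟨X', Y', hY', h'⟩
        exact ⟨X * X', Y * Y', mul_ne_zero hY hY', by rw [map_mul, map_mul, ← h, ← h']; ring⟩
      one_mem' := ⟨1, 1, one_ne_zero, by simp⟩
      add_mem' := by
        rintro f g ⟨X, Y, hY, h⟩ ⟨X', Y', hY', h'⟩
        exact ⟨X * Y' + X' * Y, Y * Y', mul_ne_zero hY hY', by
          rw [map_mul, map_add, map_mul, map_mul, ← h, ← h']; ring⟩
      zero_mem' := ⟨0, 1, one_ne_zero, by simp⟩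
      neg_mem' := by
        rintro f ⟨X, Y, hY, h⟩
        exact ⟨-X, Y, hY, by rw [map_neg, ← h]; ring⟩
      inv_mem' := by
        rintro f ⟨X, Y, hY, h⟩
        by_cases hX : X = 0
        · have hY' : ιs ℓ Y ≠ 0 := fun h0 => hY ((ιs_injective ℓ) (h0.trans (map_zero _).symm))
          have hf : f = 0 := by
            rw [hX, map_zero] at h
            exact (mul_eq_zero.mp h).resolve_right hY'
          exact ⟨0, 1, one_ne_zero, by rw [hf]; simp⟩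
        · have hX' : ιs ℓ X ≠ 0 := fun h0 => hX ((ιs_injective ℓ) (h0.trans (map_zero _).symm))
          have hf0 : f ≠ 0 := fun h0 => hX' (by rw [← h, h0, zero_mul])
          exact ⟨Y, X, hX, by rw [← h]; field_simp⟩ }
    (by
      intro r
      refine ⟨(r.num : Tl ℓ), (r.den : Tl ℓ), ?_, ?_⟩
      · intro h0
        have h1 := congrArg (ιs ℓ) h0
        rw [ιs_natCast, map_zero, ← map_natCast (algebraMap ℚ Lq)] at h1
        exact r.den_ne_zero (by exact_mod_cast (map_eq_zero _).mp h1)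
      · rw [ιs_natCast, map_intCast, ← map_natCast (algebraMap ℚ Lq), ← map_intCast (algebraMap ℚ Lq),
          ← map_mul, Rat.mul_den_eq_num])

omit hℓ in
theorem mem_Mv_iff {f : Lq} :
    f ∈ Mv ℓ ↔ ∃ X Y : Tl ℓ, Y ≠ 0 ∧ f * ιs ℓ Y = ιs ℓ X := Iff.rfl

omit hℓ in
theorem ιs_mem_Mv (X : Tl ℓ) : ιs ℓ X ∈ Mv ℓ := ⟨X, 1, one_ne_zero, by simp⟩

/-- (V1) The valuation dichotomy on `Mv`. -/
theorem mem_Ov_or_inv (f : Lq) (hf : f ∈ Mv ℓ) :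
    f ∈ Ov ℓ ∨ (f ≠ 0 ∧ ∃ g : Lq, g ∈ Ov ℓ ∧ f⁻¹ = (ℓ : Lq) * g) := by
  obtain ⟨X, Y, hY, h⟩ := hf
  by_cases hX : X = 0
  · left
    have hY' : ιs ℓ Y ≠ 0 := fun h0 => hY ((ιs_injective ℓ) (h0.trans (map_zero _).symm))
    have hf : f = 0 := by
      rw [hX, map_zero] at h
      exact (mul_eq_zero.mp h).resolve_right hY'
    rw [hf]; exact zero_mem _
  · obtain ⟨a, X', rfl, hX'⟩ := exists_pow_mul_πs_ne_zero ℓ X hX
    obtain ⟨b, Y', rfl, hY'⟩ := exists_pow_mul_πs_ne_zero ℓ Y hY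
    have h0 := natCast_ell_Lq_ne_zero ℓ
    have hX0 : ιs ℓ X' ≠ 0 := fun h0 => hX' (by
      rw [(ιs_injective ℓ) (h0.trans (map_zero _).symm), map_zero])
    have hY0 : ιs ℓ Y' ≠ 0 := fun h0 => hY' (by
      rw [(ιs_injective ℓ) (h0.trans (map_zero _).symm), map_zero])
    rw [map_mul, map_mul, map_pow, map_pow, ιs_natCast] at h
    have hf0 : f ≠ 0 := by
      intro hf
      rw [hf, zero_mul] at h
      exact mul_ne_zero (pow_ne_zero a h0) hX0 h.symm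
    rcases le_or_gt b a with hab | hab
    · left
      obtain ⟨c, rfl⟩ := Nat.exists_eq_add_of_le hab
      refine ⟨(ℓ : Tl ℓ) ^ c * X', Y', hY', ?_⟩
      rw [map_mul, map_pow, ιs_natCast]
      have h2 : (ℓ : Lq) ^ b * (f * ιs ℓ Y') = (ℓ : Lq) ^ b * ((ℓ : Lq) ^ c * ιs ℓ X') := by
        rw [pow_add] at h
        linear_combination h
      exact mul_left_cancel₀ (pow_ne_zero b h0) h2
    · right
      refine ⟨hf0, ?_⟩
      obtain ⟨c, rfl⟩ := Nat.exists_eq_add_of_lt hab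
      refine ⟨(ℓ : Lq) ^ c * (ιs ℓ Y' / ιs ℓ X'), ?_, ?_⟩
      · refine ⟨(ℓ : Tl ℓ) ^ c * Y', X', hX', ?_⟩
        rw [map_mul, map_pow, ιs_natCast]
        field_simp
      · have h2 : f * ((ℓ : Lq) * ((ℓ : Lq) ^ c * (ιs ℓ Y' / ιs ℓ X'))) = 1 := by
          have h3 : f * ((ℓ : Lq) ^ (a + c + 1) * ιs ℓ Y') = (ℓ : Lq) ^ a * ιs ℓ X' := h
          have h4 : (ℓ : Lq) ^ a * (f * ((ℓ : Lq) ^ (c + 1) * ιs ℓ Y')) = (ℓ : Lq) ^ a * ιs ℓ X' := by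
            rw [← h3]; ring
          have h5 := mul_left_cancel₀ (pow_ne_zero a h0) h4
          field_simp
          rw [← h5]; ring
        exact inv_eq_of_mul_eq_one_right h2

/-- (IC) `Ov` is integrally closed in `Mv`. -/
theorem mem_Ov_of_monic_root (x : Lq) (hx : x ∈ Mv ℓ) (P : Polynomial Lq) (hP : P.Monic)
    (hcoeff : ∀ i, P.coeff i ∈ Ov ℓ) (hroot : P.eval x = 0) : x ∈ Ov ℓ := by
  rcases mem_Ov_or_inv ℓ x hx with h | ⟨hx0, g, hg, hxg⟩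
  · exact h
  · have hinv : x⁻¹ ∈ Ov ℓ := by
      rw [hxg]; exact mul_mem (natCast_mem _ ℓ) hg
    set d := P.natDegree with hd
    rw [Polynomial.eval_eq_sum_range, Finset.sum_range_succ, ← hd, hP.coeff_natDegree, one_mul]
      at hroot
    rcases Nat.eq_zero_or_pos d with hd0 | hdpos
    · rw [hd0] at hroot
      simp at hroot
    · have key : x = -∑ i ∈ Finset.range d, P.coeff i * x⁻¹ ^ (d - 1 - i) := by
        have h1 : x ^ d = -∑ i ∈ Finset.range d, P.coeff i * x ^ i := by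
          rw [eq_neg_iff_add_eq_zero, add_comm]; exact hroot
        have h2 : x = x ^ d * x⁻¹ ^ (d - 1) := by
          have : x ^ d = x ^ (d - 1) * x := by
            rw [← pow_succ]; congr 1; omega
          rw [this, mul_assoc, mul_comm x, ← mul_assoc, ← mul_pow, mul_inv_cancel₀ hx0, one_pow,
            one_mul]
        refine h2.trans ?_
        rw [h1, neg_mul, Finset.sum_mul]
        congr 1
        apply Finset.sum_congr rfl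
        intro i hi
        have hi' : i < d := Finset.mem_range.mp hi
        have h3 : x⁻¹ ^ (d - 1) = x⁻¹ ^ i * x⁻¹ ^ (d - 1 - i) := by
          rw [← pow_add]; congr 1; omega
        rw [h3, mul_assoc, ← mul_assoc (x ^ i), ← mul_pow, mul_inv_cancel₀ hx0, one_pow, one_mul]
      rw [key]
      exact neg_mem (sum_mem fun i _ => mul_mem (hcoeff i) (pow_mem hinv _))

/-- `ℚ ∩ Ov = ℤ_(ℓ)`. -/
theorem mem_ratLocalizedAt_of_C_mem_Ov (r : ℚ) (hr : HahnSeries.C r ∈ Ov ℓ) :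
    r ∈ ratLocalizedAt ℓ := by
  obtain ⟨X, Y, hY, h⟩ := hr
  have hk : ∃ k, helper508.toZMod ℓ (Y.coeff k) ≠ 0 := by
    by_contra hcon
    exact hY (HahnSeries.ext (funext fun k => by
      by_contra hk
      exact hcon ⟨k, hk⟩))
  obtain ⟨k, hk⟩ := hk
  obtain ⟨u, hu⟩ := (helper508.isUnit_iff_toZMod_ne_zero ℓ _).mpr hk
  have h1 := congrArg (fun z : Lq => z.coeff k) h
  simp only [HahnSeries.C_mul_eq_smul, HahnSeries.coeff_smul, smul_eq_mul, ιs_coeff] at h1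
  have h2 : r = (X.coeff k : ℚ) * ((u⁻¹ : (Zl ℓ)ˣ) : Zl ℓ) := by
    have h3 : ((Y.coeff k : Zl ℓ) : ℚ) * (((u⁻¹ : (Zl ℓ)ˣ) : Zl ℓ) : ℚ) = 1 := by
      rw [← hu]
      exact_mod_cast congrArg (Subtype.val) (Units.mul_inv u)
    rw [← h1, mul_assoc, h3, mul_one]
  rw [h2]
  exact mul_mem (X.coeff k).2 (((u⁻¹ : (Zl ℓ)ˣ) : Zl ℓ)).2

/-- Integer Laurent series lie in `Ov`, with the expected reduction. -/
theorem coeffMap_int_mem_Ov (g : LaurentSeries ℤ) : coeffMap (Int.castRingHom ℚ) g ∈ Ov ℓ := by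
  have h : coeffMap (Int.castRingHom ℚ) g = ιs ℓ (coeffMap (Int.castRingHom (Zl ℓ)) g) := by
    rw [ιs, coeffMap_coeffMap]
    exact coeffMap_congr (RingHom.ext_int _ _) g
  rw [h]; exact ιs_mem_Ov ℓ _

theorem ρ_coeffMap_int (g : LaurentSeries ℤ) :
    ρ ℓ ⟨coeffMap (Int.castRingHom ℚ) g, coeffMap_int_mem_Ov ℓ g⟩ =
      coeffMap (Int.castRingHom (ZMod ℓ)) g := by
  have h : coeffMap (Int.castRingHom ℚ) g = ιs ℓ (coeffMap (Int.castRingHom (Zl ℓ)) g) := by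
    rw [ιs, coeffMap_coeffMap]
    exact coeffMap_congr (RingHom.ext_int _ _) g
  have h2 : (⟨coeffMap (Int.castRingHom ℚ) g, coeffMap_int_mem_Ov ℓ g⟩ : ↥(Ov ℓ)) =
      ⟨ιs ℓ (coeffMap (Int.castRingHom (Zl ℓ)) g), ιs_mem_Ov ℓ _⟩ := Subtype.ext h
  rw [h2, ρ_ιs, πs, coeffMap_coeffMap]
  exact coeffMap_congr (RingHom.ext_int _ _) g

/-- Every nonzero element of `Ov` is `ℓ ^ k` times an element with nonzero reduction. -/
theorem exists_pow_mul_ρ_ne_zero (x : ↥(Ov ℓ)) (hx : x ≠ 0) :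
    ∃ (k : ℕ) (g : ↥(Ov ℓ)), ρ ℓ g ≠ 0 ∧ x = ((ℓ : ℕ) : ↥(Ov ℓ)) ^ k * g := by
  obtain ⟨X, Y, hY, h⟩ := x.2
  have hY0 : ιs ℓ Y ≠ 0 := fun h0 => hY (by
    rw [(ιs_injective ℓ) (h0.trans (map_zero _).symm), map_zero])
  have hX : X ≠ 0 := by
    rintro rfl
    rw [map_zero] at h
    exact hx (Subtype.ext ((mul_eq_zero.mp h).resolve_right hY0))
  obtain ⟨k, X', rfl, hX'⟩ := exists_pow_mul_πs_ne_zero ℓ X hX
  have hg : ιs ℓ X' / ιs ℓ Y * ιs ℓ Y = ιs ℓ X' := div_mul_cancel₀ _ hY0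
  have hmem : ιs ℓ X' / ιs ℓ Y ∈ Ov ℓ := ⟨X', Y, hY, hg⟩
  have hρ : ρ ℓ ⟨ιs ℓ X' / ιs ℓ Y, hmem⟩ ≠ 0 := by
    rw [ρ_eq ℓ ⟨ιs ℓ X' / ιs ℓ Y, hmem⟩ hY hg]
    exact div_ne_zero hX' hY
  refine ⟨k, ⟨ιs ℓ X' / ιs ℓ Y, hmem⟩, hρ, Subtype.ext ?_⟩
  rw [map_mul, map_pow, ιs_natCast] at h
  have hx' : (x : Lq) = (ℓ : Lq) ^ k * ιs ℓ X' / ιs ℓ Y := eq_div_of_mul_eq hY0 h
  simp only [Subring.coe_mul, Subring.coe_pow, Subring.coe_natCast]
  rw [hx', mul_div_assoc]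

/-- Elements with nonzero reduction are units of `Ov`. -/
theorem exists_mul_eq_one_of_ρ_ne_zero (g : ↥(Ov ℓ)) (hg : ρ ℓ g ≠ 0) :
    ∃ g' : ↥(Ov ℓ), g * g' = 1 := by
  refine ⟨⟨(g : Lq)⁻¹, inv_mem_Ov_of_ρ_ne_zero ℓ g hg⟩, Subtype.ext ?_⟩
  have hg0 : (g : Lq) ≠ 0 := fun h0 => hg (by
    have : g = 0 := Subtype.ext h0
    rw [this, map_zero])
  simp only [Subring.coe_mul, Subring.coe_one]
  exact mul_inv_cancel₀ hg0

end Basic


end Fermat.Agent.S28.helper882
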