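import Fermat.Agent.S28.helper2608_Spec
import Fermat.Agent.S28.helper882_Ov
import Fermat.Agent.S28.helper3292_JqFacts
import Fermat.Agent.S28.helper3069_ScaledIntegral

/-!
# S28 algebra core by the valuation route (helper882)

`Spec.Stmt_Core N ℓ`, in the stronger form that does not use the integrality hypothesis (INT)
of `Spec.Stmt_CoreInput`.
-/

set_option autoImplicit false

noncomputable section

namespace Fermat.Agent.S28.helper882

open ModularCurve ModularCurve.IgusaScheme GaloisRep Polynomial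

/-! ## Generic lemmas -/

/-- Ring homs commute with evaluation of integer polynomials. -/
theorem ringHom_aeval_int {A B : Type*} [CommRing A] [CommRing B] [Algebra ℤ A] [Algebra ℤ B]
    (φ : A →+* B) (a : A) (c : ℤ[X]) : φ (aeval a c) = aeval (φ a) c := by
  rw [aeval_def, aeval_def, hom_eval₂]
  congr 1
  exact RingHom.ext_int _ _

/-- Evaluation of an integer polynomial after a base change of the coefficients. -/
theorem aeval_map_intCast {K A : Type*} [CommRing K] [CommRing A] [Algebra K A] [Algebra ℤ A]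
    (x : A) (p : ℤ[X]) : aeval x (p.map (Int.castRingHom K)) = aeval x p := by
  rw [aeval_def, aeval_def, eval₂_map]
  congr 1
  exact RingHom.ext_int _ _

/-- Integrality lifts along a surjection of the base ring. -/
theorem isIntegralElem_comp_of_surjective {R B A : Type*} [CommRing R] [CommRing B] [CommRing A]
    (g : R →+* B) (hg : Function.Surjective g) (f : B →+* A) {x : A} (hx : f.IsIntegralElem x) :
    (f.comp g).IsIntegralElem x := by
  obtain ⟨p, hp, hpx⟩ := hx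
  obtain ⟨q, hq, -, hqm⟩ := Polynomial.lifts_and_natDegree_eq_and_monic
    ((Polynomial.mem_lifts p).mpr (Polynomial.map_surjective g hg p)) hp
  refine ⟨q, hqm, ?_⟩
  rw [← Polynomial.eval₂_map, hq]
  exact hpx

/-- Cayley–Hamilton: an element acting on a nonzero finitely generated module by a matrix over
`R` is integral over `R`. -/
theorem isIntegralElem_of_mul_eq_sum {R A : Type*} [CommRing R] [CommRing A] [IsDomain A]
    (f : R →+* A) {n : ℕ} (b : Fin n → A) (hb : ∃ i, b i ≠ 0) (x : A) (M : Fin n → Fin n → R)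
    (h : ∀ k, x * b k = ∑ i, f (M k i) * b i) : f.IsIntegralElem x := by
  let _ : Algebra R A := f.toAlgebra
  have hsm : ∀ (r : R) (a : A), r • a = f r * a := fun r a => rfl
  let N : Submodule R A := Submodule.span R (Set.range b)
  have hN : N ≠ ⊥ := by
    obtain ⟨i, hi⟩ := hb
    intro h0
    have : b i ∈ N := Submodule.subset_span ⟨i, rfl⟩
    rw [h0, Submodule.mem_bot] at this
    exact hi this
  have hfg : N.FG := Submodule.fg_span (Set.finite_range b)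
  have hx : ∀ m ∈ N, x • m ∈ N := by
    intro m hm
    induction hm using Submodule.span_induction with
    | mem y hy =>
      obtain ⟨k, rfl⟩ := hy
      rw [smul_eq_mul, h k]
      exact Submodule.sum_mem _ fun i _ => by
        rw [← hsm]
        exact Submodule.smul_mem _ _ (Submodule.subset_span ⟨i, rfl⟩)
    | zero => rw [smul_zero]; exact Submodule.zero_mem _
    | add y z _ _ hy hz => rw [smul_add]; exact Submodule.add_mem _ hy hz
    | smul r y _ hy =>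
      rw [smul_comm]
      exact Submodule.smul_mem _ _ hy
  exact isIntegral_of_smul_mem_submodule N hN hfg x hx

section Core

variable (ℓ : ℕ) [hℓ : Fact ℓ.Prime]

/-! ## Reduction of integer polynomials mod `ℓ` -/

theorem int_poly_ker (c : ℤ[X]) (h : c.map (Int.castRingHom (ZMod ℓ)) = 0) :
    ∃ c' : ℤ[X], c = (ℓ : ℤ[X]) * c' := by
  have h1 : ∀ i, (ℓ : ℤ) ∣ c.coeff i := fun i => by
    have h2 := congrArg (fun p : (ZMod ℓ)[X] => p.coeff i) h
    simp only [coeff_map, coeff_zero, eq_intCast] at h2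
    exact (ZMod.intCast_zmod_eq_zero_iff_dvd _ _).mp h2
  obtain ⟨c', hc'⟩ := (Polynomial.C_dvd_iff_dvd_coeff _ _).mpr h1
  exact ⟨c', by rw [hc', ← Polynomial.C_eq_natCast]⟩

omit hℓ in
theorem natCast_pow_mul_coeff_int (k : ℕ) (e : ℤ[X]) (i : ℕ) :
    (((ℓ : ℕ) : ℤ[X]) ^ k * e).coeff i = (ℓ : ℤ) ^ k * e.coeff i := by
  rw [← Polynomial.C_eq_natCast, ← Polynomial.C_pow, Polynomial.coeff_C_mul]

/-- Normalisation of a nonzero family of integer polynomials: divide by the `ℓ`-content. -/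
theorem exists_normalized_family {m : ℕ} (c : Fin m → ℤ[X]) (hc : c ≠ 0) :
    ∃ (k : ℕ) (c' : Fin m → ℤ[X]), (∀ i, c i = (ℓ : ℤ[X]) ^ k * c' i) ∧
      ∃ i, (c' i).map (Int.castRingHom (ZMod ℓ)) ≠ 0 := by
  let π : (Fin m → ℤ[X]) →+* (Fin m → (ZMod ℓ)[X]) :=
    RingHom.pi fun i => (Polynomial.mapRingHom (Int.castRingHom (ZMod ℓ))).comp
      (Pi.evalRingHom (fun _ : Fin m => ℤ[X]) i)
  have hπ : ∀ (c : Fin m → ℤ[X]) (i : Fin m), π c i = (c i).map (Int.castRingHom (ZMod ℓ)) :=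
    fun c i => rfl
  have hker : ∀ a, π a = 0 → ∃ a', a = ((ℓ : ℕ) : Fin m → ℤ[X]) * a' := by
    intro a ha
    have h1 : ∀ i, ∃ c' : ℤ[X], a i = (ℓ : ℤ[X]) * c' := fun i =>
      int_poly_ker ℓ (a i) (by rw [← hπ, ha]; rfl)
    choose a' ha' using h1
    exact ⟨a', funext fun i => by rw [Pi.mul_apply, Pi.natCast_apply]; exact ha' i⟩
  have hfin : ∃ k : ℕ, ¬ ((ℓ : ℕ) : Fin m → ℤ[X]) ^ (k + 1) ∣ c := by
    have h1 : ∃ i, c i ≠ 0 := by
      by_contra hcon
      exact hc (funext fun i => by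
        by_contra hi
        exact hcon ⟨i, hi⟩)
    obtain ⟨i, hi⟩ := h1
    have h2 : ∃ j, (c i).coeff j ≠ 0 := by
      by_contra hcon
      exact hi (Polynomial.ext fun j => by
        by_contra hj
        exact hcon ⟨j, hj⟩)
    obtain ⟨j, hj⟩ := h2
    have h3 : FiniteMultiplicity (ℓ : ℤ) ((c i).coeff j) :=
      Int.finiteMultiplicity_iff.mpr ⟨by
        rw [Int.natAbs_natCast]; exact hℓ.out.one_lt.ne', hj⟩
    obtain ⟨k, hk⟩ := h3
    refine ⟨k, ?_⟩
    rintro ⟨e, rfl⟩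
    apply hk
    refine ⟨(e i).coeff j, ?_⟩
    rw [Pi.mul_apply, Pi.pow_apply, Pi.natCast_apply, natCast_pow_mul_coeff_int]
  obtain ⟨k, c', hcc', hc'⟩ := exists_pow_mul_of_ker π ((ℓ : ℕ) : Fin m → ℤ[X]) hker c hfin
  refine ⟨k, c', fun i => ?_, ?_⟩
  · rw [hcc', Pi.mul_apply, Pi.pow_apply, Pi.natCast_apply]
  · by_contra hcon
    exact hc' (funext fun i => by
      by_contra hi
      exact hcon ⟨i, by rw [← hπ]; exact hi⟩)

/-! ## Evaluation maps and the elements `j`, `j⁻¹` of `Ov` -/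

/-- Evaluation `ℤ_(ℓ)[X] → ℚ((q))` at `t`. -/
def evZ (t : Lq) : (Zl ℓ)[X] →+* Lq :=
  Polynomial.eval₂RingHom ((algebraMap ℚ Lq).comp (ratLocalizedAt ℓ).subtype) t

omit hℓ in
theorem evZ_map_int (t : Lq) (c : ℤ[X]) :
    evZ ℓ t (c.map (Int.castRingHom (Zl ℓ))) = aeval t c := by
  rw [evZ, Polynomial.coe_eval₂RingHom, Polynomial.eval₂_map, aeval_def]
  congr 1
  exact RingHom.ext_int _ _

omit hℓ in
theorem evZ_natCast (t : Lq) (m : ℕ) : evZ ℓ t (m : (Zl ℓ)[X]) = (m : Lq) := map_natCast _ m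

omit hℓ in
theorem aeval_int_eq_zero_of_evZ_injective {t : Lq} (ht : Function.Injective (evZ ℓ t))
    (c : ℤ[X]) (hc : aeval t c = 0) : c = 0 := by
  rw [← evZ_map_int ℓ] at hc
  have h1 : c.map (Int.castRingHom (Zl ℓ)) = 0 := ht (hc.trans (map_zero _).symm)
  have hinj : Function.Injective (Int.castRingHom (Zl ℓ)) := by
    intro a b hab
    have := congrArg (Subtype.val) hab
    simpa using this
  exact Polynomial.map_injective _ hinj (h1.trans (Polynomial.map_zero _).symm)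

omit hℓ in
theorem jq_eq_ιs : jq = ιs ℓ (jqModC (Zl ℓ)) := by
  rw [ιs, coeffMap_jqModC, jqModC_rat]

theorem jq_mem_Ov : jq ∈ Ov ℓ := by
  rw [jq_eq_ιs ℓ]; exact ιs_mem_Ov ℓ _

/-- `j` as an element of `Ov`. -/
def jO : ↥(Ov ℓ) := ⟨jq, jq_mem_Ov ℓ⟩

theorem ρ_jO : ρ ℓ (jO ℓ) = jqModC (ZMod ℓ) := by
  have h : jO ℓ = ⟨ιs ℓ (jqModC (Zl ℓ)), ιs_mem_Ov ℓ _⟩ := Subtype.ext (jq_eq_ιs ℓ)
  rw [h, ρ_ιs, πs, coeffMap_jqModC]

theorem ρ_jO_ne_zero : ρ ℓ (jO ℓ) ≠ 0 := by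
  rw [ρ_jO]; exact jqModC_ne_zero_of_nontrivial _

theorem jq_inv_mem_Ov : jq⁻¹ ∈ Ov ℓ := inv_mem_Ov_of_ρ_ne_zero ℓ (jO ℓ) (ρ_jO_ne_zero ℓ)

theorem algebraMap_mem_Ov (r : Zl ℓ) : algebraMap ℚ Lq (r : ℚ) ∈ Ov ℓ := by
  have h : algebraMap ℚ Lq (r : ℚ) = ιs ℓ (algebraMap (Zl ℓ) (Tl ℓ) r) := by
    rw [ιs, helper3292.coeffMap_algebraMap']; rfl
  rw [h]; exact ιs_mem_Ov ℓ _

omit hℓ in
theorem full_le_Mv (N : ℕ) [NeZero N] : modularFunctionFieldFull N ≤ Mv ℓ := by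
  rw [modularFunctionFieldFull, IntermediateField.adjoin_le_iff]
  rintro x ⟨d, hd, -, rfl⟩
  have h : qExpand ℚ d jq = ιs ℓ (qExpand (Zl ℓ) d (jqModC (Zl ℓ))) := by
    rw [ιs, coeffMap_qExpand, coeffMap_jqModC, jqModC_rat]
  rw [h]; exact ιs_mem_Mv ℓ _

/-! ## The key relation -/

/-- `z` satisfies a relation `s(t) z = ∑ c_i(t) b_i` with integer polynomials, `s ≠ 0` mod `ℓ`. -/
def HasRel {n : ℕ} (t : Lq) (b : Fin n → LaurentSeries ℤ) (z : Lq) : Prop :=
  ∃ (s : ℤ[X]) (c : Fin n → ℤ[X]), s.map (Int.castRingHom (ZMod ℓ)) ≠ 0 ∧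
    aeval t s * z = ∑ i, aeval t (c i) * Spec.toQ (b i)

variable {ℓ} in
/-- The relation at `t = j` from the degree bound and the independence mod `ℓ`. -/
theorem hasRel_jq {n : ℕ} {L : IntermediateField ℚ Lq} {b : Fin n → LaurentSeries ℤ}
    (hb : ∀ i, Spec.toQ (b i) ∈ L) (hdeg : Spec.DegLE L n) (hli : Spec.LinIndepModL ℓ b)
    {z : Lq} (hzL : z ∈ L) (hzO : z ∈ Ov ℓ) : HasRel ℓ jq b z := by
  let x : Fin (n + 1) → Lq := Fin.cons z (fun i => Spec.toQ (b i))
  have hx : ∀ i, x i ∈ L := by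
    intro i
    refine Fin.cases ?_ (fun i => ?_) i
    · exact hzL
    · exact hb i
  obtain ⟨c, hc0, hsum⟩ := hdeg x hx
  obtain ⟨k, c', hcc', m, hm⟩ := exists_normalized_family ℓ c hc0
  have hsum' : ∑ i, aeval jq (c' i) * x i = 0 := by
    have h1 : (ℓ : Lq) ^ k * ∑ i, aeval jq (c' i) * x i = 0 := by
      rw [Finset.mul_sum, ← hsum]
      apply Finset.sum_congr rfl
      intro i _
      rw [hcc' i, map_mul, map_pow, map_natCast]; ring
    exact (mul_eq_zero.mp h1).resolve_left (pow_ne_zero k (natCast_ell_Lq_ne_zero ℓ))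
  rw [Fin.sum_univ_succ] at hsum'
  have hx0 : x 0 = z := rfl
  have hxs : ∀ i : Fin n, x i.succ = Spec.toQ (b i) := fun i => rfl
  simp only [hx0, hxs] at hsum'
  refine ⟨c' 0, fun i => -(c' i.succ), ?_, ?_⟩
  · intro h0
    -- apply `ρ` to the relation
    let zO : ↥(Ov ℓ) := ⟨z, hzO⟩
    let bO : Fin n → ↥(Ov ℓ) := fun i => ⟨Spec.toQ (b i), coeffMap_int_mem_Ov ℓ (b i)⟩
    have e1 : aeval (jO ℓ) (c' 0) * zO + ∑ i : Fin n, aeval (jO ℓ) (c' i.succ) * bO i = 0 := by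
      have e0 : (Ov ℓ).subtype
          (aeval (jO ℓ) (c' 0) * zO + ∑ i : Fin n, aeval (jO ℓ) (c' i.succ) * bO i) = 0 := by
        rw [map_add, map_mul, map_sum]
        simp only [map_mul, ringHom_aeval_int]
        exact hsum'
      exact Subtype.ext e0
    have e2 := congrArg (ρ ℓ) e1
    rw [map_add, map_mul, map_sum, map_zero] at e2
    simp only [map_mul, ringHom_aeval_int, ρ_jO] at e2
    have e3 : ∀ i : Fin n, ρ ℓ (bO i) = Spec.toFl ℓ (b i) := fun i => ρ_coeffMap_int ℓ (b i)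
    have e4 : ∀ p : ℤ[X], aeval (jqModC (ZMod ℓ)) p =
        aeval (jqModC (ZMod ℓ)) (p.map (Int.castRingHom (ZMod ℓ))) := fun p =>
      (aeval_map_intCast (jqModC (ZMod ℓ)) p).symm
    rw [e4 (c' 0), h0, map_zero, zero_mul, zero_add] at e2
    have e5 : ∑ i : Fin n, aeval (jqModC (ZMod ℓ)) ((c' i.succ).map (Int.castRingHom (ZMod ℓ))) *
        Spec.toFl ℓ (b i) = 0 := by
      rw [← e2]
      apply Finset.sum_congr rfl
      intro i _
      rw [e3 i, ← e4]
    have e6 := hli (fun i => (c' i.succ).map (Int.castRingHom (ZMod ℓ))) e5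
    exact hm (Fin.cases h0 (fun i => congrFun e6 i) m)
  · rw [eq_neg_of_add_eq_zero_left hsum', ← Finset.sum_neg_distrib]
    apply Finset.sum_congr rfl
    intro i _
    rw [map_neg, neg_mul]

variable {ℓ} in
/-- Transfer of the relation from `t = j` to `t = j⁻¹`. -/
theorem hasRel_jq_inv {n : ℕ} {b : Fin n → LaurentSeries ℤ} {z : Lq} (h : HasRel ℓ jq b z) :
    HasRel ℓ jq⁻¹ b z := by
  obtain ⟨s, c, hs, hrel⟩ := h
  set D : ℕ := s.natDegree + ∑ i, (c i).natDegree with hD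
  have hsD : s.natDegree ≤ D := Nat.le_add_right _ _
  have hcD : ∀ i, (c i).natDegree ≤ D := fun i =>
    le_trans (Finset.single_le_sum (f := fun i => (c i).natDegree) (fun _ _ => Nat.zero_le _)
      (Finset.mem_univ i)) (Nat.le_add_left _ _)
  have key : ∀ p : ℤ[X], p.natDegree ≤ D →
      aeval (jq⁻¹ : Lq) (p.reflect D) = aeval jq p * (jq⁻¹ : Lq) ^ D := by
    intro p hp
    have : Invertible (jq : Lq) := invertibleOfNonzero jq_ne_zero
    have h1 := Polynomial.eval₂_reflect_mul_pow (algebraMap ℤ Lq) (jq : Lq) D p hp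
    rw [invOf_eq_inv] at h1
    rw [aeval_def, aeval_def, ← h1, mul_assoc, ← mul_pow, mul_inv_cancel₀ jq_ne_zero, one_pow,
      mul_one]
  refine ⟨s.reflect D, fun i => (c i).reflect D, ?_, ?_⟩
  · rw [← Polynomial.reflect_map, Ne, Polynomial.reflect_eq_zero_iff]
    exact hs
  · rw [key s hsD]
    have h2 : aeval jq s * (jq⁻¹ : Lq) ^ D * z = (jq⁻¹ : Lq) ^ D * (aeval jq s * z) := by ring
    rw [h2, hrel, Finset.mul_sum]
    apply Finset.sum_congr rfl
    intro i _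
    rw [key (c i) (hcD i)]; ring

/-! ## Integrality -/

omit hℓ in
theorem evZ_eq (t : Lq) (p : (Zl ℓ)[X]) :
    evZ ℓ t p = aeval t (p.map (ratLocalizedAt ℓ).subtype) := by
  rw [evZ, Polynomial.coe_eval₂RingHom, aeval_def, Polynomial.eval₂_map]

omit hℓ in
theorem evZ_injective_of {t : Lq} (h : Function.Injective (aeval (R := ℚ) t)) :
    Function.Injective (evZ ℓ t) := by
  intro p q hpq
  rw [evZ_eq, evZ_eq] at hpq
  exact Polynomial.map_injective _ Subtype.coe_injective (h hpq)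

variable {ℓ} in
/-- `s(t) y` is integral over `ℤ_(ℓ)[t]` for some `s ≠ 0` mod `ℓ`. -/
theorem exists_isIntegralElem_mul {n : ℕ} {L : IntermediateField ℚ Lq}
    {b : Fin n → LaurentSeries ℤ} (hb : ∀ i, Spec.toQ (b i) ∈ L) (t : Lq)
    (ht : Function.Injective (evZ ℓ t))
    (hrel : ∀ z, z ∈ L → z ∈ Ov ℓ → HasRel ℓ t b z) {y : Lq} (hyL : y ∈ L) (hyO : y ∈ Ov ℓ) :
    ∃ s : ℤ[X], s.map (Int.castRingHom (ZMod ℓ)) ≠ 0 ∧
      (evZ ℓ t).IsIntegralElem (evZ ℓ t (s.map (Int.castRingHom (Zl ℓ))) * y) := by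
  have h1 : ∀ k : Fin n, HasRel ℓ t b (y * Spec.toQ (b k)) := fun k =>
    hrel _ (mul_mem hyL (hb k)) (mul_mem hyO (coeffMap_int_mem_Ov ℓ (b k)))
  choose sk ck hsk hck using h1
  let s : ℤ[X] := ∏ k, sk k
  have hs : s.map (Int.castRingHom (ZMod ℓ)) ≠ 0 := by
    rw [Polynomial.map_prod]
    exact Finset.prod_ne_zero_iff.mpr fun k _ => hsk k
  refine ⟨s, hs, ?_⟩
  have hb0 : ∃ i, Spec.toQ (b i) ≠ 0 := by
    obtain ⟨s1, c1, hs1, h1⟩ := hrel 1 (one_mem L) (one_mem _)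
    by_contra hcon
    have h2 : aeval t s1 = 0 := by
      rw [mul_one] at h1
      rw [h1]
      exact Finset.sum_eq_zero fun i _ => by
        have : Spec.toQ (b i) = 0 := by
          by_contra hi
          exact hcon ⟨i, hi⟩
        rw [this, mul_zero]
    have h3 := aeval_int_eq_zero_of_evZ_injective ℓ ht s1 h2
    exact hs1 (by rw [h3, Polynomial.map_zero])
  let M : Fin n → Fin n → (Zl ℓ)[X] := fun k i =>
    (ck k i * ∏ k' ∈ Finset.univ.erase k, sk k').map (Int.castRingHom (Zl ℓ))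
  apply isIntegralElem_of_mul_eq_sum (evZ ℓ t) (fun i => Spec.toQ (b i)) hb0 _ M
  intro k
  simp only [M, evZ_map_int]
  have h2 : aeval t s = aeval t (sk k) * aeval t (∏ k' ∈ Finset.univ.erase k, sk k') := by
    rw [← map_mul, Finset.mul_prod_erase _ _ (Finset.mem_univ k)]
  rw [h2]
  have h3 : aeval t (sk k) * aeval t (∏ k' ∈ Finset.univ.erase k, sk k') * y * Spec.toQ (b k) =
      aeval t (∏ k' ∈ Finset.univ.erase k, sk k') * (aeval t (sk k) * (y * Spec.toQ (b k))) := by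
    ring
  rw [h3, hck k, Finset.mul_sum]
  apply Finset.sum_congr rfl
  intro i _
  rw [map_mul]; ring

variable {ℓ} in
/-- The main integrality statement: `ℓ y` integral over `ℤ_(ℓ)[t]`, `y ∈ L ∩ Ov` ⇒ `y` integral
over `ℤ_(ℓ)[t]`. -/
theorem isIntegralElem_of_natCast_mul {n : ℕ} {L : IntermediateField ℚ Lq}
    {b : Fin n → LaurentSeries ℤ} (hb : ∀ i, Spec.toQ (b i) ∈ L) (t : Lq)
    (ht : Function.Injective (evZ ℓ t))
    (hrel : ∀ z, z ∈ L → z ∈ Ov ℓ → HasRel ℓ t b z) {y : Lq} (hyL : y ∈ L) (hyO : y ∈ Ov ℓ)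
    (hy : (evZ ℓ t).IsIntegralElem ((ℓ : Lq) * y)) : (evZ ℓ t).IsIntegralElem y := by
  obtain ⟨s, hs, hsy⟩ := exists_isIntegralElem_mul hb t ht hrel hyL hyO
  have hprime : Prime ((ℓ : ℕ) : (Zl ℓ)[X]) := by
    rw [← Polynomial.C_eq_natCast]
    exact Polynomial.prime_C_iff.mpr (helper508.prime_ell ℓ)
  have hmap : ∀ p : ℤ[X], (p.map (Int.castRingHom (Zl ℓ))).map (helper508.toZMod ℓ) =
      p.map (Int.castRingHom (ZMod ℓ)) := fun p => by
    rw [Polynomial.map_map]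
    congr 1
    exact RingHom.ext_int _ _
  have hnd : ¬ ((ℓ : ℕ) : (Zl ℓ)[X]) ∣ s.map (Int.castRingHom (Zl ℓ)) := by
    rintro ⟨e, he⟩
    apply hs
    rw [← hmap, he, Polynomial.map_mul, Polynomial.map_natCast]
    have : ((ℓ : ℕ) : (ZMod ℓ)[X]) = 0 := by
      rw [← Polynomial.C_eq_natCast, ZMod.natCast_self, map_zero]
    rw [this, zero_mul]
  refine helper3069.isIntegralElem_of_scaled (evZ ℓ t) ht y ((ℓ : ℕ) : (Zl ℓ)[X])
    (s.map (Int.castRingHom (Zl ℓ))) hprime.ne_zero ?_ ?_ hsy ?_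
  · intro h0
    exact hs (by rw [← hmap, h0, Polynomial.map_zero])
  · rw [evZ_natCast]; exact hy
  · intro i e₁ e₂ he
    exact hprime.pow_dvd_of_dvd_mul_left i (fun hd => hnd (hprime.dvd_of_dvd_pow hd)) ⟨e₂, he⟩

end Core



/-! ## The chart algebras -/

section Charts

variable (N : ℕ) [NeZero N] (ℓ : ℕ) [hℓ : Fact ℓ.Prime]

omit [NeZero N] hℓ in
theorem coe_algebraMap_Zl (r : Zl ℓ) :
    ((algebraMap (Zl ℓ) ↥(modularFunctionFieldFull N) r : ↥(modularFunctionFieldFull N)) : Lq) =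
      algebraMap ℚ Lq (r : ℚ) := by
  show ((algebraMap ↥(modularFunctionFieldFull N) Lq).comp
    (algebraMap ℚ ↥(modularFunctionFieldFull N))) (r : ℚ) = algebraMap ℚ Lq (r : ℚ)
  exact RingHom.congr_fun (Subsingleton.elim _ _) _

/-- (6a) Charts generated by elements of `Ov` lie in `Ov`. -/
theorem coe_mem_Ov_of_mem_chartAlg (S : Set ↥(modularFunctionFieldFull N)) (hS : ∀ s ∈ S, (s : Lq) ∈ Ov ℓ) {x : ↥(modularFunctionFieldFull N)}
    (hx : x ∈ chartAlg N ℓ S) : (x : Lq) ∈ Ov ℓ := by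
  obtain ⟨p, hp, hroot⟩ := (mem_chartAlg_iff N ℓ).mp hx
  have hφ : ∀ a : ↥(Algebra.adjoin (Zl ℓ) S),
      ((algebraMap ↥(modularFunctionFieldFull N) Lq).comp (algebraMap ↥(Algebra.adjoin (Zl ℓ) S) ↥(modularFunctionFieldFull N))) a ∈ Ov ℓ := by
    rintro ⟨a, ha⟩
    show (a : Lq) ∈ Ov ℓ
    induction ha using Algebra.adjoin_induction with
    | mem y hy => exact hS y hy
    | algebraMap r => rw [coe_algebraMap_Zl]; exact algebraMap_mem_Ov ℓ r
    | add y z _ _ hy hz => exact add_mem hy hz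
    | mul y z _ _ hy hz => exact mul_mem hy hz
  refine mem_Ov_of_monic_root ℓ (x : Lq) (full_le_Mv ℓ N x.2)
    (p.map ((algebraMap ↥(modularFunctionFieldFull N) Lq).comp (algebraMap ↥(Algebra.adjoin (Zl ℓ) S) ↥(modularFunctionFieldFull N)))) (hp.map _)
    (fun i => by rw [coeff_map]; exact hφ _) ?_
  rw [eval_map]
  have h1 := congrArg (algebraMap ↥(modularFunctionFieldFull N) Lq) hroot
  rw [hom_eval₂, map_zero] at h1
  exact h1

/-- (6b) Membership in a chart with one generator, as an explicit integrality statement. -/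
theorem mem_chartAlg_singleton_iff (s x : ↥(modularFunctionFieldFull N)) :
    x ∈ chartAlg N ℓ {s} ↔ (evZ ℓ (s : Lq)).IsIntegralElem (x : Lq) := by
  let sA : ↥(Algebra.adjoin (Zl ℓ) ({s} : Set ↥(modularFunctionFieldFull N))) := ⟨s, Algebra.subset_adjoin (Set.mem_singleton s)⟩
  let g : (Zl ℓ)[X] →+* ↥(Algebra.adjoin (Zl ℓ) ({s} : Set ↥(modularFunctionFieldFull N))) :=
    (aeval sA : (Zl ℓ)[X] →ₐ[Zl ℓ] ↥(Algebra.adjoin (Zl ℓ) ({s} : Set ↥(modularFunctionFieldFull N)))).toRingHom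
  have hcomp : ((algebraMap ↥(modularFunctionFieldFull N) Lq).comp
      (algebraMap ↥(Algebra.adjoin (Zl ℓ) ({s} : Set ↥(modularFunctionFieldFull N))) ↥(modularFunctionFieldFull N))).comp g = evZ ℓ (s : Lq) := by
    apply Polynomial.ringHom_ext
    · intro r
      simp only [g, evZ, RingHom.comp_apply, AlgHom.toRingHom_eq_coe, RingHom.coe_coe, aeval_C,
        Polynomial.coe_eval₂RingHom, eval₂_C]
      rw [← IsScalarTower.algebraMap_apply (Zl ℓ) ↥(Algebra.adjoin (Zl ℓ) ({s} : Set ↥(modularFunctionFieldFull N)))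
        ↥(modularFunctionFieldFull N) r]
      exact coe_algebraMap_Zl N ℓ r
    · simp only [g, evZ, RingHom.comp_apply, AlgHom.toRingHom_eq_coe, RingHom.coe_coe, aeval_X,
        Polynomial.coe_eval₂RingHom, eval₂_X]
      rfl
  have hsurj : Function.Surjective g := by
    rintro ⟨a, ha⟩
    have ha' : a ∈ (aeval (R := Zl ℓ) s).range := by
      rw [← Algebra.adjoin_singleton_eq_range_aeval]; exact ha
    obtain ⟨p, hp⟩ := ha'
    refine ⟨p, Subtype.ext ?_⟩
    show ((g p : ↥(Algebra.adjoin (Zl ℓ) ({s} : Set ↥(modularFunctionFieldFull N)))) :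
      ↥(modularFunctionFieldFull N)) = a
    rw [← hp]
    exact Polynomial.aeval_subalgebra_coe p _ sA
  constructor
  · intro hx
    obtain ⟨q, hq, hroot⟩ := isIntegralElem_comp_of_surjective g hsurj _
      ((mem_chartAlg_iff N ℓ).mp hx)
    refine ⟨q, hq, ?_⟩
    have h1 := congrArg (algebraMap ↥(modularFunctionFieldFull N) Lq) hroot
    rw [hom_eval₂, map_zero] at h1
    rw [← hcomp]
    exact h1
  · rintro ⟨q, hq, hroot⟩
    refine (mem_chartAlg_iff N ℓ).mpr ⟨q.map g, hq.map g, ?_⟩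
    apply (algebraMap ↥(modularFunctionFieldFull N) Lq).injective
    rw [hom_eval₂, eval₂_map, map_zero, hcomp]
    exact hroot

/-- The reduction map on a chart generated by elements of `Ov`. -/
def redS (S : Set ↥(modularFunctionFieldFull N)) (hS : ∀ s ∈ S, (s : Lq) ∈ Ov ℓ) : ↥(chartAlg N ℓ S) →+* Fl ℓ :=
  (ρ ℓ).comp (((algebraMap ↥(modularFunctionFieldFull N) Lq).comp (algebraMap ↥(chartAlg N ℓ S) ↥(modularFunctionFieldFull N))).codRestrict (Ov ℓ)
    (fun x => coe_mem_Ov_of_mem_chartAlg N ℓ S hS x.2))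

theorem redS_apply (S : Set ↥(modularFunctionFieldFull N)) (hS : ∀ s ∈ S, (s : Lq) ∈ Ov ℓ) (x : ↥(chartAlg N ℓ S)) :
    redS N ℓ S hS x = ρ ℓ ⟨((x : ↥(modularFunctionFieldFull N)) : Lq), coe_mem_Ov_of_mem_chartAlg N ℓ S hS x.2⟩ := rfl

omit [NeZero N] in
theorem natCast_FN_ne_zero : ((ℓ : ℕ) : ↥(modularFunctionFieldFull N)) ≠ 0 := by
  intro h0
  have h1 := congrArg (algebraMap ↥(modularFunctionFieldFull N) Lq) h0
  rw [map_natCast, map_zero] at h1
  exact natCast_ell_Lq_ne_zero ℓ h1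

variable {N ℓ} in
/-- The kernel of the reduction map on a chart with one generator is generated by `ℓ`. -/
theorem redS_ker_singleton {n : ℕ} {L : IntermediateField ℚ Lq} {b : Fin n → LaurentSeries ℤ}
    (hFL : modularFunctionFieldFull N ≤ L) (hb : ∀ i, Spec.toQ (b i) ∈ L) (s : ↥(modularFunctionFieldFull N))
    (hS : ∀ s' ∈ ({s} : Set ↥(modularFunctionFieldFull N)), (s' : Lq) ∈ Ov ℓ)
    (ht : Function.Injective (evZ ℓ (s : Lq)))
    (hrel : ∀ z, z ∈ L → z ∈ Ov ℓ → HasRel ℓ (s : Lq) b z)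
    (a : ↥(chartAlg N ℓ {s})) (ha : redS N ℓ {s} hS a = 0) :
    ∃ a' : ↥(chartAlg N ℓ {s}), a = ((ℓ : ℕ) : ↥(chartAlg N ℓ {s})) * a' := by
  rw [redS_apply] at ha
  obtain ⟨g, hg⟩ := ρ_ker ℓ _ ha
  have hg' : ((a : ↥(modularFunctionFieldFull N)) : Lq) = (ℓ : Lq) * (g : Lq) := by
    have h1 := congrArg Subtype.val hg
    simpa using h1
  have hℓF := natCast_FN_ne_zero N ℓ
  have hℓL := natCast_ell_Lq_ne_zero ℓ
  let y : ↥(modularFunctionFieldFull N) := (a : ↥(modularFunctionFieldFull N)) / (ℓ : ↥(modularFunctionFieldFull N))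
  have hay : (a : ↥(modularFunctionFieldFull N)) = (ℓ : ↥(modularFunctionFieldFull N)) * y := by
    simp only [y]; field_simp
  have hy : (y : Lq) = g := by
    have h1 : ((a : ↥(modularFunctionFieldFull N)) : Lq) = (ℓ : Lq) * (y : Lq) := by
      have h2 := congrArg (algebraMap ↥(modularFunctionFieldFull N) Lq) hay
      rw [map_mul, map_natCast] at h2
      exact h2
    rw [hg'] at h1
    exact (mul_left_cancel₀ hℓL h1).symm
  have hyL : (y : Lq) ∈ L := hFL y.2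
  have hyO : (y : Lq) ∈ Ov ℓ := by rw [hy]; exact g.2
  have hint : (evZ ℓ (s : Lq)).IsIntegralElem ((ℓ : Lq) * (y : Lq)) := by
    rw [hy, ← hg']
    exact (mem_chartAlg_singleton_iff N ℓ s a).mp a.2
  have hy_int := isIntegralElem_of_natCast_mul hb (s : Lq) ht hrel hyL hyO hint
  have hymem : y ∈ chartAlg N ℓ {s} := (mem_chartAlg_singleton_iff N ℓ s y).mpr hy_int
  refine ⟨⟨y, hymem⟩, Subtype.ext ?_⟩
  have hcast : (((ℓ : ℕ) : ↥(chartAlg N ℓ {s})) : ↥(modularFunctionFieldFull N)) =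
      ((ℓ : ℕ) : ↥(modularFunctionFieldFull N)) := map_natCast (chartAlg N ℓ {s}).val ℓ
  rw [Subalgebra.coe_mul, hcast]
  exact hay

theorem subset_Ov_fin :
    ∀ s' ∈ ({jFull N} : Set ↥(modularFunctionFieldFull N)), (s' : Lq) ∈ Ov ℓ := by
  intro s' hs'
  rw [Set.mem_singleton_iff.mp hs']
  exact jq_mem_Ov ℓ

theorem subset_Ov_inf :
    ∀ s' ∈ ({(jFull N)⁻¹} : Set ↥(modularFunctionFieldFull N)), (s' : Lq) ∈ Ov ℓ := by
  intro s' hs'
  rw [Set.mem_singleton_iff.mp hs']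
  exact jq_inv_mem_Ov ℓ

theorem subset_Ov_mid :
    ∀ s' ∈ ({jFull N, (jFull N)⁻¹} : Set ↥(modularFunctionFieldFull N)), (s' : Lq) ∈ Ov ℓ := by
  intro s' hs'
  rcases hs' with rfl | hs'
  · exact jq_mem_Ov ℓ
  · rw [Set.mem_singleton_iff.mp hs']
    exact jq_inv_mem_Ov ℓ

variable {N ℓ} in
/-- **The algebra core without the integrality hypothesis**: from a field `L ⊇ F` of degree `≤ n`
over `ℚ(j)` containing `n` integer series whose reductions mod `ℓ` are independent over `𝔽_ℓ[j̄]`,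
the three chart algebras reduce into `𝔽_ℓ((q))` with kernel generated by `ℓ`. -/
theorem stmt_red_of_weak_input {n : ℕ} {L : IntermediateField ℚ Lq} {b : Fin n → LaurentSeries ℤ}
    (hFL : modularFunctionFieldFull N ≤ L) (hb : ∀ i, Spec.toQ (b i) ∈ L)
    (hdeg : Spec.DegLE L n) (hli : Spec.LinIndepModL ℓ b) :
    Spec.Stmt_Red N ℓ {jFull N} ∧ Spec.Stmt_Red N ℓ {(jFull N)⁻¹} ∧
      Spec.Stmt_Red N ℓ {jFull N, (jFull N)⁻¹} := by
  have hrel : ∀ z, z ∈ L → z ∈ Ov ℓ → HasRel ℓ jq b z := fun z hzL hzO =>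
    hasRel_jq hb hdeg hli hzL hzO
  have hrel' : ∀ z, z ∈ L → z ∈ Ov ℓ → HasRel ℓ jq⁻¹ b z := fun z hzL hzO =>
    hasRel_jq_inv (hrel z hzL hzO)
  have ht : Function.Injective (evZ ℓ jq) :=
    evZ_injective_of ℓ (helper3292.aeval_jqModC_injective ℚ)
  have ht' : Function.Injective (evZ ℓ jq⁻¹) :=
    evZ_injective_of ℓ helper3292.aeval_jq_inv_injective
  have kfin := redS_ker_singleton hFL hb (jFull N) (subset_Ov_fin N ℓ) ht hrel
  have kinf := redS_ker_singleton hFL hb (jFull N)⁻¹ (subset_Ov_inf N ℓ) ht' hrel'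
  refine ⟨⟨redS N ℓ _ (subset_Ov_fin N ℓ), kfin⟩, ⟨redS N ℓ _ (subset_Ov_inf N ℓ), kinf⟩,
    ⟨redS N ℓ _ (subset_Ov_mid N ℓ), ?_⟩⟩
  intro a ha
  have hz : (a : ↥(modularFunctionFieldFull N)) ∈
      chartAlg N ℓ (insert (jFull N)⁻¹ {jFull N}) := by
    rw [show insert (jFull N)⁻¹ ({jFull N} : Set ↥(modularFunctionFieldFull N)) =
      {jFull N, (jFull N)⁻¹} from Set.pair_comm _ _]
    exact a.2
  obtain ⟨m, hm⟩ := exists_pow_mul_mem_chartAlg (Set.mem_singleton _) (jFull_ne_zero N) hz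
  have h1 : redS N ℓ {jFull N} (subset_Ov_fin N ℓ) ⟨jFull N ^ m * a, hm⟩ = 0 := by
    rw [redS_apply] at ha ⊢
    have h2 : (⟨((jFull N ^ m * (a : ↥(modularFunctionFieldFull N)) :
        ↥(modularFunctionFieldFull N)) : Lq),
        coe_mem_Ov_of_mem_chartAlg N ℓ _ (subset_Ov_fin N ℓ) hm⟩ : ↥(Ov ℓ)) =
        jO ℓ ^ m * ⟨((a : ↥(modularFunctionFieldFull N)) : Lq),
          coe_mem_Ov_of_mem_chartAlg N ℓ _ (subset_Ov_mid N ℓ) a.2⟩ := Subtype.ext rfl
    rw [h2, map_mul, ha, mul_zero]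
  obtain ⟨a1, ha1⟩ := kfin ⟨jFull N ^ m * a, hm⟩ h1
  have hcast : (((ℓ : ℕ) : ↥(chartAlg N ℓ {jFull N})) : ↥(modularFunctionFieldFull N)) =
      ((ℓ : ℕ) : ↥(modularFunctionFieldFull N)) := map_natCast (chartAlg N ℓ {jFull N}).val ℓ
  have hcast' : (((ℓ : ℕ) : ↥(chartAlg N ℓ {jFull N, (jFull N)⁻¹})) :
      ↥(modularFunctionFieldFull N)) = ((ℓ : ℕ) : ↥(modularFunctionFieldFull N)) :=
    map_natCast (chartAlg N ℓ {jFull N, (jFull N)⁻¹}).val ℓ
  have ha1' : jFull N ^ m * (a : ↥(modularFunctionFieldFull N)) =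
      ((ℓ : ℕ) : ↥(modularFunctionFieldFull N)) * (a1 : ↥(modularFunctionFieldFull N)) := by
    have h3 := congrArg Subtype.val ha1
    rw [Subalgebra.coe_mul, hcast] at h3
    exact h3
  have hmem : (jFull N)⁻¹ ^ m * (a1 : ↥(modularFunctionFieldFull N)) ∈
      chartAlg N ℓ {jFull N, (jFull N)⁻¹} :=
    mul_mem (pow_mem (subset_chartAlg N ℓ _ (by simp)) m)
      (chartAlg_mono N ℓ (sFin_subset N) a1.2)
  refine ⟨⟨_, hmem⟩, Subtype.ext ?_⟩
  rw [Subalgebra.coe_mul, hcast']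
  have hj := jFull_ne_zero N
  have h4 : (a : ↥(modularFunctionFieldFull N)) =
      (jFull N)⁻¹ ^ m * (jFull N ^ m * (a : ↥(modularFunctionFieldFull N))) := by
    rw [← mul_assoc, ← mul_pow, inv_mul_cancel₀ hj, one_pow, one_mul]
  rw [h4, ha1']
  ring

/-- The algebra core in the shape of `helper2608_Spec`. -/
theorem stmt_core : Spec.Stmt_Core N ℓ := by
  rintro ⟨n, L, b, hFL, hb, -, hdeg, hli⟩
  exact stmt_red_of_weak_input hFL hb hdeg hli

end Charts


end Fermat.Agent.S28.helper882
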