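import Fermat.Agent.S28.helper868_Spec
import Fermat.Agent.S28.helper882_Ov

/-!
# `Stmt_OvPackage ℓ` of `helper868_Spec` (helper882)
-/

set_option autoImplicit false

noncomputable section

namespace Fermat.Agent.S28.helper882

/-- D1 of `helper868_Spec`: the Gauss valuation ring with its reduction map. -/
theorem stmt_OvPackage (ℓ : ℕ) [Fact ℓ.Prime] : Fermat.Agent.S28.helper868.Stmt_OvPackage ℓ :=
  ⟨Ov ℓ, ρ ℓ, fun g => ⟨coeffMap_int_mem_Ov ℓ g, ρ_coeffMap_int ℓ g⟩, ρ_ker ℓ,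
    exists_pow_mul_ρ_ne_zero ℓ, exists_mul_eq_one_of_ρ_ne_zero ℓ⟩

end Fermat.Agent.S28.helper882
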