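/-
S28 (Igusa), abstract leaf for P4: Newton identities for matrices over an arbitrary commutative
ring, and the transfer "traces of powers in a ℚ-subalgebra ⇒ characteristic polynomial
coefficients in it".  Mathlib only.  Author: helper9811.
-/
import Mathlib

set_option autoImplicit false

namespace Fermat.Agent.S28.helper9811

open Matrix Polynomial

noncomputable section

variable {R : Type*} [CommRing R] {n : Type*} [Fintype n] [DecidableEq n]

/-- The matrix `∑ t^k A^k` over `R⟦t⟧`. -/
def geomMat (A : Matrix n n R) : Matrix n n (PowerSeries R) :=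
  fun i j => PowerSeries.mk fun k => (A ^ k) i j

@[simp] theorem coeff_geomMat (A : Matrix n n R) (i j : n) (k : ℕ) :
    PowerSeries.coeff k (geomMat A i j) = (A ^ k) i j := by
  simp [geomMat]

/-- `(1 - t A) * ∑ t^k A^k = 1`. -/
theorem one_sub_mul_geomMat (A : Matrix n n R) :
    (1 - (PowerSeries.X : PowerSeries R) • A.map (PowerSeries.C)) * geomMat A = 1 := by
  ext i j k
  rw [Matrix.sub_mul, Matrix.one_mul, Matrix.sub_apply, map_sub, coeff_geomMat,
    Matrix.smul_mul, Matrix.smul_apply, smul_eq_mul, Matrix.mul_apply]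
  rcases k with _ | k
  · simp [Matrix.one_apply]
  · rw [PowerSeries.coeff_succ_X_mul, map_sum]
    have : ∀ l : n, PowerSeries.coeff k (A.map PowerSeries.C i l * geomMat A l j) =
        A i l * (A ^ k) l j := by
      intro l
      rw [Matrix.map_apply, PowerSeries.coeff_C_mul, coeff_geomMat]
    simp_rw [this]
    rw [← Matrix.mul_apply, ← pow_succ', sub_self]
    simp [Matrix.one_apply]
    split_ifs <;> simp

/-- `det (1 - t A)` over `R⟦t⟧` is the reverse characteristic polynomial. -/
theorem det_one_sub_X_smul (A : Matrix n n R) :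
    det (1 - (PowerSeries.X : PowerSeries R) • A.map (PowerSeries.C)) =
      (A.charpolyRev : PowerSeries R) := by
  have h := (RingHom.map_det (Polynomial.coeToPowerSeries.ringHom (R := R))
    (1 - (X : R[X]) • A.map C)).symm
  rw [Matrix.charpolyRev]
  rw [Polynomial.coeToPowerSeries.ringHom_apply] at h
  rw [← h]
  congr 1
  ext i j : 1
  simp only [RingHom.mapMatrix_apply, Matrix.map_apply, Matrix.sub_apply, Matrix.smul_apply,
    smul_eq_mul, Polynomial.coeToPowerSeries.ringHom_apply, Polynomial.coe_sub, Polynomial.coe_mul,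
    Polynomial.coe_X, Polynomial.coe_C, Matrix.one_apply]
  split_ifs <;> simp

/-- The substitution `X ↦ t + h`, from `R[X]` to `R⟦t⟧[h]`. -/
def shiftHom (R : Type*) [CommRing R] : R[X] →+* Polynomial (PowerSeries R) :=
  eval₂RingHom ((C : PowerSeries R →+* Polynomial (PowerSeries R)).comp (PowerSeries.C))
    (C (PowerSeries.X : PowerSeries R) + X)

theorem shiftHom_C (a : R) : shiftHom R (C a) = C (PowerSeries.C a) := by
  simp [shiftHom]

theorem shiftHom_X : shiftHom R X = C (PowerSeries.X : PowerSeries R) + X := by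
  simp [shiftHom]

/-- The `h`-linear coefficient of `f(t + h)` is `f'(t)`. -/
theorem coeff_one_shiftHom (f : R[X]) :
    (shiftHom R f).coeff 1 = ((derivative f : R[X]) : PowerSeries R) := by
  induction f using Polynomial.induction_on' with
  | add p q hp hq => simp [map_add, hp, hq]
  | monomial k a =>
    rw [← C_mul_X_pow_eq_monomial, map_mul, map_pow, shiftHom_C, shiftHom_X, coeff_C_mul,
      add_comm, coeff_X_add_C_pow, derivative_C_mul_X_pow]
    rcases k with _ | k
    · simp
    · have hk : ((k : R[X]) : PowerSeries R) = (k : PowerSeries R) := by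
        rw [← map_natCast (C : R →+* R[X]), Polynomial.coe_C, map_natCast]
      simp [hk]
      ring

/-- Logarithmic derivative of the reverse characteristic polynomial, in `R⟦t⟧`:
`P'(t) = P(t) * tr(-(∑ t^k A^k) A)` for `P(t) = det (1 - t A)`. -/
theorem derivative_charpolyRev (A : Matrix n n R) :
    ((derivative A.charpolyRev : R[X]) : PowerSeries R) =
      (A.charpolyRev : PowerSeries R) * trace (-(geomMat A * A.map PowerSeries.C)) := by
  have hUM : (1 - (PowerSeries.X : PowerSeries R) • A.map (PowerSeries.C)) *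
      (-(geomMat A * A.map PowerSeries.C)) = -(A.map PowerSeries.C) := by
    rw [Matrix.mul_neg, ← Matrix.mul_assoc, one_sub_mul_geomMat, Matrix.one_mul]
  -- the factorisation in `R⟦t⟧[h]`
  have hfac : (shiftHom R).mapMatrix (1 - (X : R[X]) • A.map C) =
      (C : PowerSeries R →+* Polynomial (PowerSeries R)).mapMatrix
          (1 - (PowerSeries.X : PowerSeries R) • A.map (PowerSeries.C)) *
        (1 + (X : Polynomial (PowerSeries R)) •
          (-(geomMat A * A.map PowerSeries.C)).map C) := by
    have h1 : (C : PowerSeries R →+* Polynomial (PowerSeries R)).mapMatrix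
          (1 - (PowerSeries.X : PowerSeries R) • A.map (PowerSeries.C)) *
        (-(geomMat A * A.map PowerSeries.C)).map C =
        (C : PowerSeries R →+* Polynomial (PowerSeries R)).mapMatrix (-(A.map PowerSeries.C)) := by
      rw [← hUM, map_mul]
      rfl
    rw [Matrix.mul_add, Matrix.mul_one, Matrix.mul_smul, h1]
    ext i j : 1
    simp only [RingHom.mapMatrix_apply, Matrix.map_apply, Matrix.sub_apply, Matrix.smul_apply,
      smul_eq_mul, Matrix.one_apply, Matrix.add_apply, Matrix.neg_apply, map_sub, map_mul,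
      shiftHom_C, shiftHom_X, map_neg]
    split_ifs <;> simp <;> ring
  have hdet := congrArg (fun p : Polynomial (PowerSeries R) => p.coeff 1) (congrArg det hfac)
  beta_reduce at hdet
  rw [det_mul, ← RingHom.map_det, ← RingHom.map_det, coeff_C_mul, coeff_det_one_add_X_smul_one,
    det_one_sub_X_smul, coeff_one_shiftHom] at hdet
  exact hdet

theorem coeff_trace_neg_geomMat_mul (A : Matrix n n R) (k : ℕ) :
    PowerSeries.coeff k (trace (-(geomMat A * A.map PowerSeries.C))) = -trace (A ^ (k + 1)) := by
  have h : ∀ i l : n, PowerSeries.coeff k (geomMat A i l * PowerSeries.C (A l i)) =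
      (A ^ k) i l * A l i := by
    intro i l
    rw [mul_comm, PowerSeries.coeff_C_mul, coeff_geomMat, mul_comm]
  simp only [Matrix.trace, Matrix.diag_apply, Matrix.neg_apply, Matrix.mul_apply,
    Matrix.map_apply, map_sum, map_neg, h, Finset.sum_neg_distrib, pow_succ]

/-- **Newton identities** for the reverse characteristic polynomial `det (1 - t A)`,
over any commutative ring. -/
theorem newton_charpolyRev (A : Matrix n n R) (k : ℕ) :
    A.charpolyRev.coeff (k + 1) * ((k : R) + 1) +
      ∑ ij ∈ Finset.HasAntidiagonal.antidiagonal k,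
        A.charpolyRev.coeff ij.1 * trace (A ^ (ij.2 + 1)) = 0 := by
  have h := congrArg (PowerSeries.coeff k) (derivative_charpolyRev A)
  rw [Polynomial.coeff_coe, coeff_derivative, PowerSeries.coeff_mul] at h
  rw [h]
  simp only [coeff_trace_neg_geomMat_mul, Polynomial.coeff_coe, mul_neg, Finset.sum_neg_distrib]
  exact neg_add_cancel _

/-- Coefficients of the characteristic polynomial in terms of the reverse one. -/
theorem charpoly_coeff_eq_charpolyRev_coeff (A : Matrix n n R) (i : ℕ)
    (hi : i ≤ Fintype.card n) :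
    A.charpoly.coeff i = A.charpolyRev.coeff (Fintype.card n - i) := by
  rcases subsingleton_or_nontrivial R with hR | hR
  · exact Subsingleton.elim _ _
  · rw [← Matrix.reverse_charpoly, Polynomial.coeff_reverse, Matrix.charpoly_natDegree_eq_dim,
      Polynomial.revAt_le (Nat.sub_le _ _), Nat.sub_sub_self hi]

theorem charpolyRev_coeff_eq_charpoly_coeff (A : Matrix n n R) (i : ℕ)
    (hi : i ≤ Fintype.card n) :
    A.charpolyRev.coeff i = A.charpoly.coeff (Fintype.card n - i) := by
  rw [charpoly_coeff_eq_charpolyRev_coeff A _ (Nat.sub_le _ _), Nat.sub_sub_self hi]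

/-- **Newton identities** for the characteristic polynomial `χ = ∑ c_i X^i` of a matrix `A` of
size `N` over any commutative ring: for `k + 1 ≤ N`,
`(k+1) c_{N-(k+1)} + ∑_{i+j=k} c_{N-i} tr(A^(j+1)) = 0`. -/
theorem newton_charpoly (A : Matrix n n R) (k : ℕ) (hk : k + 1 ≤ Fintype.card n) :
    A.charpoly.coeff (Fintype.card n - (k + 1)) * ((k : R) + 1) +
      ∑ ij ∈ Finset.HasAntidiagonal.antidiagonal k,
        A.charpoly.coeff (Fintype.card n - ij.1) * trace (A ^ (ij.2 + 1)) = 0 := by
  rw [← charpolyRev_coeff_eq_charpoly_coeff A _ hk, ← newton_charpolyRev A k]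
  congr 1
  refine Finset.sum_congr rfl fun ij hij => ?_
  have h1 : ij.1 ≤ k := by
    have := Finset.HasAntidiagonal.mem_antidiagonal.mp hij
    omega
  rw [charpolyRev_coeff_eq_charpoly_coeff A _ (h1.trans ((Nat.le_succ k).trans hk))]

/-- Newton transfer, general form: if the traces of all positive powers of `A` lie in a subring
`B` in which positive integers can be divided out, then so do all coefficients of the reverse
characteristic polynomial. -/
theorem charpolyRev_coeff_mem {K : Type*} [CommRing K] (B : Subring K)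
    (hdiv : ∀ (m : ℕ) (x : K), 0 < m → (m : K) * x ∈ B → x ∈ B)
    (A : Matrix n n K) (h : ∀ k : ℕ, 1 ≤ k → trace (A ^ k) ∈ B) (i : ℕ) :
    A.charpolyRev.coeff i ∈ B := by
  induction i using Nat.strong_induction_on with
  | _ i ih =>
    rcases i with _ | k
    · rw [Polynomial.coeff_zero_eq_eval_zero, Matrix.eval_charpolyRev]
      exact B.one_mem
    · have hN := newton_charpolyRev A k
      have hsum : ∑ ij ∈ Finset.HasAntidiagonal.antidiagonal k,
          A.charpolyRev.coeff ij.1 * trace (A ^ (ij.2 + 1)) ∈ B := by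
        refine B.sum_mem fun ij hij => B.mul_mem (ih _ ?_) (h _ (Nat.le_add_left _ _))
        have := Finset.HasAntidiagonal.mem_antidiagonal.mp hij
        omega
      refine hdiv (k + 1) _ (Nat.succ_pos k) ?_
      have : ((k + 1 : ℕ) : K) * A.charpolyRev.coeff (k + 1) =
          -∑ ij ∈ Finset.HasAntidiagonal.antidiagonal k,
            A.charpolyRev.coeff ij.1 * trace (A ^ (ij.2 + 1)) := by
        rw [eq_neg_iff_add_eq_zero, ← hN]
        push_cast
        ring
      rw [this]
      exact B.neg_mem hsum

/-- Newton transfer, general form, for the characteristic polynomial. -/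
theorem charpoly_coeff_mem {K : Type*} [CommRing K] (B : Subring K)
    (hdiv : ∀ (m : ℕ) (x : K), 0 < m → (m : K) * x ∈ B → x ∈ B)
    (A : Matrix n n K) (h : ∀ k : ℕ, 1 ≤ k → trace (A ^ k) ∈ B) (i : ℕ) :
    A.charpoly.coeff i ∈ B := by
  rcases le_or_gt i (Fintype.card n) with hi | hi
  · rw [charpoly_coeff_eq_charpolyRev_coeff A i hi]
    exact charpolyRev_coeff_mem B hdiv A h _
  · rcases subsingleton_or_nontrivial K with hK | hK
    · rw [Subsingleton.elim (A.charpoly.coeff i) 0]
      exact B.zero_mem
    · rw [Polynomial.coeff_eq_zero_of_natDegree_lt (by rwa [Matrix.charpoly_natDegree_eq_dim])]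
      exact B.zero_mem

/-- **Newton transfer** over `ℚ`-algebras: if the traces of all positive powers of `A` lie in a
`ℚ`-subalgebra `B`, then so do all coefficients of the characteristic polynomial of `A`. -/
theorem charpoly_coeff_mem_of_trace_pow_mem {K : Type*} [CommRing K] [Algebra ℚ K]
    (B : Subalgebra ℚ K) (A : Matrix n n K) (h : ∀ k : ℕ, 1 ≤ k → trace (A ^ k) ∈ B) (i : ℕ) :
    A.charpoly.coeff i ∈ B := by
  refine charpoly_coeff_mem B.toSubring (fun m x hm hx => ?_) A h i
  have hm' : (m : ℚ) ≠ 0 := Nat.cast_ne_zero.mpr hm.ne'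
  have : x = (m : ℚ)⁻¹ • ((m : K) * x) := by
    rw [← nsmul_eq_mul, ← Nat.cast_smul_eq_nsmul ℚ m x, smul_smul, inv_mul_cancel₀ hm', one_smul]
  rw [this]
  exact B.smul_mem hx _

/-! ### Diagonalisation by left eigenvectors -/

/-- If `P * M = diagonal lam * P` with `det P` a unit, then `charpoly M = ∏ (X - lam b)`. -/
theorem charpoly_eq_prod_of_mul_eq_diagonal_mul {K : Type*} [CommRing K]
    (P M : Matrix n n K) (lam : n → K) (hP : IsUnit P.det)
    (h : P * M = Matrix.diagonal lam * P) :
    M.charpoly = ∏ b, (X - C (lam b)) := by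
  have h1 : M = P⁻¹ * (Matrix.diagonal lam * P) := by
    rw [← h, ← Matrix.mul_assoc, Matrix.nonsing_inv_mul _ hP, Matrix.one_mul]
  rw [h1, Matrix.charpoly_mul_comm, Matrix.mul_assoc, Matrix.mul_nonsing_inv _ hP, Matrix.mul_one,
    Matrix.charpoly_diagonal]

/-- **Vandermonde diagonalisation.**  If the rows `(z b ^ a)_a` (pairwise distinct nodes `z b`)
are left eigenvectors of `M` with eigenvalues `lam b`, then `charpoly M = ∏ (X - lam b)`. -/
theorem charpoly_eq_prod_of_vandermonde {K : Type*} [Field K] {p : ℕ}
    (M : Matrix (Fin p) (Fin p) K) (z lam : Fin p → K) (hz : Function.Injective z)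
    (h : ∀ b c : Fin p, ∑ a : Fin p, z b ^ (a : ℕ) * M a c = lam b * z b ^ (c : ℕ)) :
    M.charpoly = ∏ b, (X - C (lam b)) := by
  refine charpoly_eq_prod_of_mul_eq_diagonal_mul (Matrix.vandermonde z) M lam ?_ ?_
  · exact isUnit_iff_ne_zero.mpr (Matrix.det_vandermonde_ne_zero_iff.mpr hz)
  · ext b c
    rw [Matrix.mul_apply, Matrix.diagonal_mul]
    simpa [Matrix.vandermonde_apply] using h b c

end

end Fermat.Agent.S28.helper9811
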